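/-
helper82 (P-S56, block (A) LOCAL FLAT): valuation-generic computations for Kummer extensions of
degree `p` (`α ^ p = u`, `ζ` a primitive `p`-th root of unity, residue characteristic `p`).
Everything is stated for an arbitrary `Valuation K Γ₀` on the TOP field `K = L(α)`
(multiplicative notation), so that it can be consumed by any encoding of ramification groups.

Dictionary with the additive normalisation `v_L(π_L) = 1`, `e = v_L(p)`, `u` of level `i`
(`v_L(u - 1) = i`):  `w (1 - ζ) ^ (p - 1) = w p`  is  `v_L(ζ - 1) = e / (p - 1)`;  the hypothesis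
`w (1 - ζ) ^ p < w (u - 1)` is  `i < p e / (p - 1)`.
-/
import Mathlib

namespace Fermat.Agent.S56x.Local.KummerVal

open Finset

variable {K : Type*} [Field K] {Γ₀ : Type*} [LinearOrderedCommGroupWithZero Γ₀]
  (w : Valuation K Γ₀)

/-! ### (K0) integers and `1 - ζ` -/

theorem val_natCast_le_one (n : ℕ) : w (n : K) ≤ 1 := by
  induction n with
  | zero => simp
  | succ n ih =>
    rw [Nat.cast_succ]
    exact w.map_add_le ih (le_of_eq w.map_one)

theorem val_intCast_le_one (n : ℤ) : w (n : K) ≤ 1 := by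
  obtain ⟨m, rfl | rfl⟩ := n.eq_nat_or_neg
  · simpa using val_natCast_le_one w m
  · simpa [Valuation.map_neg] using val_natCast_le_one w m

/-- Integers prime to the residue characteristic are units for `w`. -/
theorem val_natCast_eq_one {p : ℕ} (hp : w (p : K) < 1) {n : ℕ} (hn : Nat.Coprime n p) :
    w (n : K) = 1 := by
  refine le_antisymm (val_natCast_le_one w n) ?_
  have h1 : ((Nat.gcd n p : ℕ) : ℤ) = n * Nat.gcdA n p + p * Nat.gcdB n p := Nat.gcd_eq_gcd_ab n p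
  rw [hn.gcd_eq_one] at h1
  have h2 : (1 : K) = (n : K) * ((Nat.gcdA n p : ℤ) : K) + (p : K) * ((Nat.gcdB n p : ℤ) : K) := by
    have := congrArg (fun z : ℤ => (z : K)) h1
    simpa using this
  by_contra hlt
  rw [not_le] at hlt
  have h3 : w ((n : K) * ((Nat.gcdA n p : ℤ) : K) + (p : K) * ((Nat.gcdB n p : ℤ) : K)) < 1 := by
    apply w.map_add_lt
    · rw [w.map_mul]
      calc w (n : K) * w ((Nat.gcdA n p : ℤ) : K) ≤ w (n : K) * 1 :=
            mul_le_mul_right (val_intCast_le_one w _) _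
        _ < 1 := by rwa [mul_one]
    · rw [w.map_mul]
      calc w (p : K) * w ((Nat.gcdB n p : ℤ) : K) ≤ w (p : K) * 1 :=
            mul_le_mul_right (val_intCast_le_one w _) _
        _ < 1 := by rwa [mul_one]
  rw [← h2, w.map_one] at h3
  exact lt_irrefl _ h3

theorem val_eq_one_of_pow_eq_one {x : K} {n : ℕ} (hn : n ≠ 0) (hx : x ^ n = 1) : w x = 1 := by
  have h : w x ^ n = 1 := by rw [← w.map_pow, hx, w.map_one]
  exact (pow_eq_one_iff_of_nonneg zero_le hn).mp h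

theorem val_geom_sum_le_one {ζ : K} (hζ : w ζ = 1) (k : ℕ) : w (∑ i ∈ range k, ζ ^ i) ≤ 1 := by
  refine w.map_sum_le fun i _ => ?_
  rw [w.map_pow, hζ, one_pow]

theorem val_one_sub_pow_le {ζ : K} (hζ : w ζ = 1) (k : ℕ) : w (1 - ζ ^ k) ≤ w (1 - ζ) := by
  have h : 1 - ζ ^ k = (1 - ζ) * ∑ i ∈ range k, ζ ^ i := by
    rw [mul_comm, ← mul_neg_geom_sum, mul_comm]
  rw [h, w.map_mul]
  calc w (1 - ζ) * w (∑ i ∈ range k, ζ ^ i) ≤ w (1 - ζ) * 1 :=
        mul_le_mul_right (val_geom_sum_le_one w hζ k) _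
    _ = w (1 - ζ) := mul_one _

theorem val_one_sub_pow_eq {p : ℕ} (hp : p.Prime) {ζ : K} (hζ : IsPrimitiveRoot ζ p) {k : ℕ}
    (hk : ¬ p ∣ k) : w (1 - ζ ^ k) = w (1 - ζ) := by
  have hζ1 : w ζ = 1 := val_eq_one_of_pow_eq_one w hp.ne_zero hζ.pow_eq_one
  refine le_antisymm (val_one_sub_pow_le w hζ1 k) ?_
  -- `ζ = (ζ ^ k) ^ k'`
  have hcop : Nat.Coprime k p := (Nat.Coprime.symm ((Nat.Prime.coprime_iff_not_dvd hp).mpr hk))
  obtain ⟨k', -, hk'⟩ := Nat.exists_mul_mod_eq_one_of_coprime hcop hp.one_lt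
  have h2 : (ζ ^ k) ^ k' = ζ := by
    rw [← pow_mul, ← Nat.mod_add_div (k * k') p, hk', pow_add, pow_mul, hζ.pow_eq_one, one_pow,
      mul_one, pow_one]
  have hζk1 : w (ζ ^ k) = 1 := by rw [w.map_pow, hζ1, one_pow]
  calc w (1 - ζ) = w (1 - (ζ ^ k) ^ k') := by rw [h2]
    _ ≤ w (1 - ζ ^ k) := val_one_sub_pow_le w hζk1 k'

theorem val_one_sub_primitiveRoot_pow {p : ℕ} (hp : p.Prime) {ζ : K} (hζ : IsPrimitiveRoot ζ p) :
    w (1 - ζ) ^ (p - 1) = w (p : K) := by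
  obtain ⟨n, rfl⟩ : ∃ n, p = n + 1 := ⟨p - 1, (Nat.succ_pred_eq_of_pos hp.pos).symm⟩
  have h := hζ.prod_one_sub_pow_eq_order
  have h' : w (∏ k ∈ range n, (1 - ζ ^ (k + 1))) = w ((n + 1 : ℕ) : K) := by
    rw [h]; push_cast; rfl
  rw [map_prod] at h'
  rw [← h', Nat.add_sub_cancel]
  rw [Finset.prod_congr rfl (fun k hk => val_one_sub_pow_eq w hp hζ (k := k + 1) ?_)]
  · simp
  · intro hdvd
    have := Nat.le_of_dvd (Nat.succ_pos k) hdvd
    have := Finset.mem_range.mp hk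
    omega

/-! ### (K1) the level of `α - 1` -/

theorem add_one_pow_sub (y : K) {p : ℕ} (hp : 0 < p) :
    (y + 1) ^ p - 1 - y ^ p = ∑ m ∈ Ico 1 p, (p.choose m : K) * y ^ m := by
  rw [add_pow]
  simp only [one_pow, mul_one]
  rw [Finset.range_eq_Ico, Finset.sum_Ico_succ_top (Nat.zero_le p),
    Finset.sum_eq_sum_Ico_succ_bot hp]
  simp only [pow_zero, Nat.choose_zero_right, Nat.cast_one, Nat.choose_self, mul_one, zero_add]
  have : ∀ m ∈ Ico 1 p, y ^ m * (p.choose m : K) = (p.choose m : K) * y ^ m := fun m _ => mul_comm _ _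
  rw [Finset.sum_congr rfl this]
  ring

theorem val_add_one_pow_sub_le {p : ℕ} (hp : p.Prime) {y : K} (hy : w y ≤ 1) :
    w ((y + 1) ^ p - 1 - y ^ p) ≤ w (p : K) * w y := by
  rw [add_one_pow_sub y hp.pos]
  refine w.map_sum_le fun m hm => ?_
  rw [Finset.mem_Ico] at hm
  obtain ⟨c, hc⟩ := hp.dvd_choose_self (by omega) hm.2
  rw [hc, Nat.cast_mul, w.map_mul, w.map_mul, w.map_pow, mul_assoc]
  refine mul_le_mul_right ?_ _
  calc w (c : K) * w y ^ m ≤ 1 * w y ^ m := mul_le_mul_left (val_natCast_le_one w c) _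
    _ = w y ^ m := one_mul _
    _ ≤ w y ^ 1 := pow_le_pow_of_le_one zero_le hy hm.1
    _ = w y := pow_one _

theorem val_eq_one_of_val_pow_eq_one {x : K} {n : ℕ} (hn : n ≠ 0) (hx : w (x ^ n) = 1) :
    w x = 1 := by
  have h : w x ^ n = 1 := by rw [← w.map_pow, hx]
  exact (pow_eq_one_iff_of_nonneg zero_le hn).mp h

theorem val_sub_one_pow_eq {p : ℕ} (hp : p.Prime) {ζ : K}
    (hζ : w (1 - ζ) ^ (p - 1) = w (p : K)) {α : K}
    (h1 : w (α ^ p - 1) < 1) (h2 : w (1 - ζ) ^ p < w (α ^ p - 1)) :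
    w (1 - ζ) < w (α - 1) ∧ w (α - 1) ^ p = w (α ^ p - 1) := by
  have hαp : w (α ^ p) = 1 := by
    have : α ^ p = 1 + (α ^ p - 1) := by ring
    rw [this]; exact w.map_one_add_of_lt h1
  have hα : w α = 1 := val_eq_one_of_val_pow_eq_one w hp.ne_zero hαp
  set y := α - 1 with hy
  have hy1 : w y ≤ 1 := w.map_sub_le (le_of_eq hα) (le_of_eq w.map_one)
  have hαy : α = y + 1 := by rw [hy]; ring
  have hR := val_add_one_pow_sub_le w hp hy1
  rw [← hαy] at hR
  have hdecomp : α ^ p - 1 = y ^ p + (α ^ p - 1 - y ^ p) := by ring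
  have hp1 : p = (p - 1) + 1 := (Nat.succ_pred_eq_of_pos hp.pos).symm
  have hlt : w (1 - ζ) < w y := by
    by_contra hle
    rw [not_lt] at hle
    have hA : w (y ^ p) ≤ w (1 - ζ) ^ p := by
      rw [w.map_pow]; exact pow_le_pow_left₀ zero_le hle p
    have hB : w (α ^ p - 1 - y ^ p) ≤ w (1 - ζ) ^ p := by
      refine hR.trans ?_
      rw [← hζ]
      conv_rhs => rw [hp1, pow_succ]
      exact mul_le_mul_right hle _
    have := w.map_add_le hA hB
    rw [← hdecomp] at this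
    exact absurd h2 (not_lt.mpr this)
  refine ⟨hlt, ?_⟩
  have hypos : 0 < w y := lt_of_le_of_lt zero_le hlt
  have hpl : w (p : K) < w y ^ (p - 1) := by
    rw [← hζ]
    exact pow_lt_pow_left₀ hlt zero_le (by have := hp.two_le; omega)
  have hRlt : w (α ^ p - 1 - y ^ p) < w (y ^ p) := by
    refine lt_of_le_of_lt hR ?_
    rw [w.map_pow]
    conv_rhs => rw [hp1, pow_succ]
    exact mul_lt_mul_of_pos_right hpl hypos
  rw [hdecomp, w.map_add_eq_of_lt_left hRlt, w.map_pow]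

/-! ### (K3), (K4) moving a uniformizer -/

/-- `w ((1 + t) ^ a - 1) = w t` for `w t < 1` and `a` a `w`-unit integer. -/
theorem val_one_add_pow_sub_one {t : K} (ht : w t < 1) {a : ℕ} (ha : w (a : K) = 1) :
    w ((1 + t) ^ a - 1) = w t := by
  have hx : w (1 + t) = 1 := w.map_one_add_of_lt ht
  have h1 : (1 + t) ^ a - 1 = t * ∑ i ∈ range a, (1 + t) ^ i := by
    have := mul_geom_sum (1 + t) a
    rw [← this]; ring
  have h2 : ∑ i ∈ range a, (1 + t) ^ i = (a : K) + ∑ i ∈ range a, ((1 + t) ^ i - 1) := by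
    rw [Finset.sum_sub_distrib]; simp
  have h3 : w (∑ i ∈ range a, ((1 + t) ^ i - 1)) < 1 := by
    refine lt_of_le_of_lt (w.map_sum_le (g := w t) fun i _ => ?_) ht
    have := val_one_sub_pow_le w hx i
    rw [w.map_sub_swap] at this
    refine this.trans (le_of_eq ?_)
    rw [w.map_sub_swap]; congr 1; ring
  have h4 : w (∑ i ∈ range a, (1 + t) ^ i) = 1 := by
    rw [h2, w.map_add_eq_of_lt_left (by rwa [ha]), ha]
  rw [h1, w.map_mul, h4, mul_one]

/-- (K4) an element of `O[ϖ]` moves less than `ϖ`. -/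
theorem val_map_sub_le {σ : K →+* K} {ϖ : K} (hϖ : w ϖ ≤ 1) (hσϖ : w (σ ϖ) ≤ 1) {n : ℕ}
    {c : ℕ → K} (hc : ∀ j < n, σ (c j) = c j) (hc1 : ∀ j < n, w (c j) ≤ 1) :
    w (σ (∑ j ∈ range n, c j * ϖ ^ j) - ∑ j ∈ range n, c j * ϖ ^ j) ≤ w (σ ϖ - ϖ) := by
  rw [map_sum, ← Finset.sum_sub_distrib]
  refine w.map_sum_le fun j hj => ?_
  rw [Finset.mem_range] at hj
  rw [map_mul, hc j hj, map_pow, ← mul_sub, ← geom_sum₂_mul, w.map_mul, w.map_mul]
  calc w (c j) * (w (∑ i ∈ range j, σ ϖ ^ i * ϖ ^ (j - 1 - i)) * w (σ ϖ - ϖ))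
      ≤ 1 * (1 * w (σ ϖ - ϖ)) := by
        refine mul_le_mul' (hc1 j hj) (mul_le_mul_left ?_ _)
        refine w.map_sum_le fun i _ => ?_
        rw [w.map_mul, w.map_pow, w.map_pow]
        exact mul_le_one' (pow_le_one₀ zero_le hσϖ) (pow_le_one₀ zero_le hϖ)
    _ = w (σ ϖ - ϖ) := by rw [one_mul, one_mul]

theorem val_unif_pow {p : ℕ} {π : K} (hπ : π ≠ 0) {i a : ℕ} {b : ℤ}
    (hab : (a : ℤ) * i + b * p = 1) {y : K} (hy : w y ^ p = w π ^ i) :
    w (y ^ a * π ^ b) ^ p = w π := by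
  have hπ0 : w π ≠ 0 := (w.ne_zero_iff).mpr hπ
  rw [w.map_mul, mul_pow, w.map_pow, ← pow_mul, mul_comm a p, pow_mul, hy, map_zpow₀,
    ← zpow_natCast (w π ^ b) p, ← zpow_mul, ← pow_mul, ← zpow_natCast (w π) (i * a),
    ← zpow_add₀ hπ0]
  have : ((i * a : ℕ) : ℤ) + b * p = 1 := by push_cast; linarith
  rw [this, zpow_one]


/-! ### (K6) totally ramified extensions: the integral power basis -/

/-- A finite sum of terms with pairwise distinct (nonzero) valuations dominates each term. -/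
theorem val_le_val_sum_of_distinct {ι : Type*} {s : Finset ι} {f : ι → K}
    (hdist : ∀ i ∈ s, ∀ j ∈ s, i ≠ j → w (f i) ≠ 0 → w (f i) ≠ w (f j))
    {j : ι} (hj : j ∈ s) : w (f j) ≤ w (∑ i ∈ s, f i) := by
  classical
  obtain ⟨j0, hj0, hmax⟩ := Finset.exists_max_image s (fun i => w (f i)) ⟨j, hj⟩
  by_cases h0 : w (f j0) = 0
  · have : w (f j) ≤ 0 := h0 ▸ hmax j hj
    exact this.trans zero_le
  · have : w (∑ i ∈ s, f i) = w (f j0) := by
      refine w.map_sum_eq_of_lt hj0 fun i hi => ?_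
      rw [Finset.mem_sdiff, Finset.mem_singleton] at hi
      refine lt_of_le_of_ne (hmax i hi.1) ?_
      exact fun h => hdist j0 hj0 i hi.1 (Ne.symm hi.2) h0 h.symm
    rw [this]
    exact hmax j hj

variable {L : Type*} [Field L] [Algebra L K]

/-- (K6) If no `w ϖ ^ d` (`0 < d < n`) is the value of an element of the base field `L`, then
`w (∑ j < n, c j ϖ ^ j) = max_j w (c j ϖ ^ j)` for `c j ∈ L`. -/
theorem val_term_le_val_sum {ϖ : K} {n : ℕ}
    (hϖ : ∀ d, 0 < d → d < n → ∀ c : L, w ϖ ^ d ≠ w (algebraMap L K c))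
    (c : ℕ → L) {j : ℕ} (hj : j < n) :
    w (algebraMap L K (c j) * ϖ ^ j) ≤ w (∑ i ∈ range n, algebraMap L K (c i) * ϖ ^ i) := by
  refine val_le_val_sum_of_distinct w (f := fun i => algebraMap L K (c i) * ϖ ^ i) ?_
    (Finset.mem_range.mpr hj)
  -- distinctness
  have key : ∀ i ∈ range n, ∀ k ∈ range n, i < k →
      w (algebraMap L K (c i) * ϖ ^ i) ≠ 0 →
      w (algebraMap L K (c i) * ϖ ^ i) ≠ w (algebraMap L K (c k) * ϖ ^ k) := by
    intro i hi k hk hik h0 heq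
    rw [Finset.mem_range] at hi hk
    obtain ⟨d, hd, rfl⟩ : ∃ d, 0 < d ∧ k = d + i := ⟨k - i, by omega, by omega⟩
    rw [w.map_mul, w.map_mul, w.map_pow, w.map_pow] at heq
    rw [w.map_mul, w.map_pow] at h0
    have hci : w (algebraMap L K (c i)) ≠ 0 := left_ne_zero_of_mul h0
    have hϖi : w ϖ ^ i ≠ 0 := right_ne_zero_of_mul h0
    have hck : w (algebraMap L K (c (d + i))) ≠ 0 := by
      intro h; rw [h, zero_mul] at heq; exact h0 heq
    rw [pow_add, ← mul_assoc] at heq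
    have h2 := mul_right_cancel₀ hϖi heq
    -- `w ϖ ^ d = w (c i / c k)`
    apply hϖ d hd (by omega) (c i / c (d + i))
    rw [map_div₀, map_div₀, h2, mul_comm, mul_div_assoc, div_self hck, mul_one]
  intro i hi k hk hne h0
  rcases lt_or_gt_of_ne hne with h | h
  · exact key i hi k hk h h0
  · intro heq
    have h0' : w (algebraMap L K (c k) * ϖ ^ k) ≠ 0 := heq ▸ h0
    exact key k hk i hi h h0' heq.symm

/-- no power `w ϖ ^ d`, `0 < d < n`, is a value of `L` when `w ϖ ^ n` generates the values of `L`. -/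
theorem pow_ne_val_of_discrete {ϖ : K} {n : ℕ} (hϖ1 : w ϖ < 1) (hϖ0 : ϖ ≠ 0) {π : L}
    (hπ : w (algebraMap L K π) = w ϖ ^ n)
    (hdisc : ∀ c : L, c ≠ 0 → ∃ m : ℤ, w (algebraMap L K c) = w (algebraMap L K π) ^ m) :
    ∀ d, 0 < d → d < n → ∀ c : L, w ϖ ^ d ≠ w (algebraMap L K c) := by
  intro d hd hdn c heq
  have hw0 : w ϖ ≠ 0 := (w.ne_zero_iff).mpr hϖ0
  have hwpos : 0 < w ϖ := lt_of_le_of_ne zero_le (Ne.symm hw0)
  have hc : c ≠ 0 := by
    rintro rfl
    rw [map_zero, w.map_zero] at heq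
    exact pow_ne_zero d hw0 heq
  obtain ⟨m, hm⟩ := hdisc c hc
  rw [hm, hπ, ← zpow_natCast, ← zpow_natCast, ← zpow_mul] at heq
  have := zpow_right_injective₀ hwpos (ne_of_lt hϖ1) heq
  have h1 : (n : ℤ) ∣ (d : ℤ) := ⟨m, this⟩
  have h2 := Int.natCast_dvd_natCast.mp h1
  exact absurd (Nat.le_of_dvd hd h2) (by omega)

theorem val_coeff_le_one {ϖ : K} {n : ℕ} (hϖ1 : w ϖ < 1) (hϖ0 : ϖ ≠ 0) {π : L}
    (hπ : w (algebraMap L K π) = w ϖ ^ n)
    (hdisc : ∀ c : L, c ≠ 0 → ∃ m : ℤ, w (algebraMap L K c) = w (algebraMap L K π) ^ m)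
    {c : L} {j : ℕ} (hj : j < n) (h : w (algebraMap L K c * ϖ ^ j) ≤ 1) :
    w (algebraMap L K c) ≤ 1 := by
  have hw0 : w ϖ ≠ 0 := (w.ne_zero_iff).mpr hϖ0
  have hwpos : 0 < w ϖ := lt_of_le_of_ne zero_le (Ne.symm hw0)
  by_cases hc : c = 0
  · rw [hc, map_zero, w.map_zero]; exact zero_le
  obtain ⟨m, hm⟩ := hdisc c hc
  rw [w.map_mul, w.map_pow, hm, hπ, ← zpow_natCast, ← zpow_natCast, ← zpow_mul,
    ← zpow_add₀ hw0] at h
  rw [hm, hπ, ← zpow_natCast, ← zpow_mul]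
  have key : ∀ k : ℤ, w ϖ ^ k ≤ 1 ↔ 0 ≤ k := fun k =>
    zpow_le_one_iff_right_of_lt_one₀ hwpos hϖ1
  rw [key] at h ⊢
  by_contra hneg
  rw [not_le] at hneg
  have hm1 : m ≤ -1 := by
    by_contra hm0
    rw [not_le] at hm0
    have : 0 ≤ (n : ℤ) * m := mul_nonneg (by positivity) (by omega)
    omega
  have : (n : ℤ) * m ≤ (n : ℤ) * (-1) := mul_le_mul_of_nonneg_left hm1 (by positivity)
  omega

theorem linearIndependent_unif_pow {ϖ : K} {n : ℕ} (hϖ0 : ϖ ≠ 0)
    (hϖ : ∀ d, 0 < d → d < n → ∀ c : L, w ϖ ^ d ≠ w (algebraMap L K c)) :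
    LinearIndependent L (fun j : Fin n => ϖ ^ (j : ℕ)) := by
  rw [Fintype.linearIndependent_iff]
  intro g hg i
  set c : ℕ → L := fun j => if h : j < n then g ⟨j, h⟩ else 0 with hc
  have hsum : ∑ j ∈ range n, algebraMap L K (c j) * ϖ ^ j = 0 := by
    rw [Finset.sum_range, ← hg]
    refine Finset.sum_congr rfl fun j _ => ?_
    rw [Algebra.smul_def, hc]
    simp only [Fin.is_lt, dite_true, Fin.eta]
  have h1 := val_term_le_val_sum w hϖ c i.2
  rw [hsum, w.map_zero] at h1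
  have h2 : algebraMap L K (c i) * ϖ ^ (i : ℕ) = 0 := (w.zero_iff).mp (le_antisymm h1 zero_le)
  have h3 : algebraMap L K (c i) = 0 := by
    rcases mul_eq_zero.mp h2 with h | h
    · exact h
    · exact absurd h (pow_ne_zero _ hϖ0)
  have h4 : c i = 0 := (map_eq_zero (algebraMap L K)).mp h3
  simpa [hc] using h4

theorem exists_expansion {ϖ : K} {n : ℕ} (hn0 : 0 < n) (hn : Module.finrank L K = n) (hϖ0 : ϖ ≠ 0)
    (hϖ : ∀ d, 0 < d → d < n → ∀ c : L, w ϖ ^ d ≠ w (algebraMap L K c)) (x : K) :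
    ∃ c : ℕ → L, x = ∑ j ∈ range n, algebraMap L K (c j) * ϖ ^ j := by
  have : Nonempty (Fin n) := ⟨⟨0, hn0⟩⟩
  have hli := linearIndependent_unif_pow w (L := L) hϖ0 hϖ
  let b := basisOfLinearIndependentOfCardEqFinrank hli (by rw [Fintype.card_fin, hn])
  refine ⟨fun j => if h : j < n then b.repr x ⟨j, h⟩ else 0, ?_⟩
  rw [Finset.sum_range]
  conv_lhs => rw [← b.sum_repr x]
  refine Finset.sum_congr rfl fun j _ => ?_
  rw [Algebra.smul_def, coe_basisOfLinearIndependentOfCardEqFinrank]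
  simp only [Fin.is_lt, dite_true, Fin.eta]

/-! ### (K2), (K3), (K5b) the Kummer break -/

/-- all primitive `p`-th roots of unity have the same `w (1 - η)`. -/
theorem val_one_sub_primitiveRoot_eq {p : ℕ} (hp : p.Prime) {ζ η : K} (hζ : IsPrimitiveRoot ζ p)
    (hη : IsPrimitiveRoot η p) : w (1 - η) = w (1 - ζ) := by
  have h1 := val_one_sub_primitiveRoot_pow w hp hζ
  have h2 := val_one_sub_primitiveRoot_pow w hp hη
  have hne : p - 1 ≠ 0 := by have := hp.two_le; omega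
  exact (pow_left_inj₀ zero_le zero_le hne).mp (h2.trans h1.symm)

/-- (K2)+(K3): **the Kummer break**.  `α ^ p = u` of level `< p e / (p - 1)`, `σ` moves `α`;
then `σ` moves `ϖ = (α - 1) ^ a * c` (`p ∤ a`, `c` fixed by `σ`) by exactly
`w ϖ * (w (1 - ζ) / w (α - 1))`. -/
theorem val_map_unif_sub {p : ℕ} (hp : p.Prime) (hwp : w (p : K) < 1) {ζ : K}
    (hζ : IsPrimitiveRoot ζ p) {α : K} (h1 : w (α ^ p - 1) < 1)
    (h2 : w (1 - ζ) ^ p < w (α ^ p - 1)) (σ : K →+* K) (hσα : σ α ≠ α)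
    (hσu : σ (α ^ p) = α ^ p) {a : ℕ} (ha : ¬ p ∣ a) {c : K} (hc : σ c = c) :
    w (σ ((α - 1) ^ a * c) - (α - 1) ^ a * c) =
      w ((α - 1) ^ a * c) * (w (1 - ζ) / w (α - 1)) := by
  have hζp := val_one_sub_primitiveRoot_pow w hp hζ
  obtain ⟨hlt, -⟩ := val_sub_one_pow_eq w hp hζp h1 h2
  have hαp : w (α ^ p) = 1 := by
    have : α ^ p = 1 + (α ^ p - 1) := by ring
    rw [this]; exact w.map_one_add_of_lt h1
  have hα : w α = 1 := val_eq_one_of_val_pow_eq_one w hp.ne_zero hαp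
  have hα0 : α ≠ 0 := by
    rintro rfl; rw [w.map_zero] at hα; exact zero_ne_one hα
  set y := α - 1 with hy
  have hypos : 0 < w y := lt_of_le_of_lt zero_le hlt
  have hy0 : y ≠ 0 := (w.pos_iff).mp hypos
  -- the root of unity `η = σ α / α`
  set η := σ α / α with hη
  have hηp : η ^ p = 1 := by
    rw [hη, div_pow, ← map_pow, hσu, div_self (pow_ne_zero p hα0)]
  have hη1 : η ≠ 1 := by
    intro h
    rw [hη, div_eq_one_iff_eq hα0] at h
    exact hσα h
  have hηprim : IsPrimitiveRoot η p := by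
    have : Fact p.Prime := ⟨hp⟩
    have := orderOf_eq_prime hηp hη1
    rw [← this]; exact IsPrimitiveRoot.orderOf η
  have hwη : w (1 - η) = w (1 - ζ) := val_one_sub_primitiveRoot_eq w hp hζ hηprim
  have hση : σ α = η * α := by rw [hη, div_mul_cancel₀ _ hα0]
  -- `σ y = y * (1 + t)`
  set t := (η - 1) * α / y with ht
  have hwt : w t = w (1 - ζ) / w y := by
    rw [ht, w.map_div, w.map_mul, hα, mul_one, w.map_sub_swap, hwη]
  have hwt1 : w t < 1 := by
    rw [hwt]; exact (div_lt_one₀ hypos).mpr hlt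
  have hσy : σ y = y * (1 + t) := by
    rw [ht, mul_add, mul_one, mul_div_cancel₀ _ hy0, hy, map_sub, map_one, hση]; ring
  have hcop : Nat.Coprime a p := (Nat.Coprime.symm ((Nat.Prime.coprime_iff_not_dvd hp).mpr ha))
  have hwa : w (a : K) = 1 := val_natCast_eq_one w hwp hcop
  have hmain : σ (y ^ a * c) - y ^ a * c = y ^ a * c * ((1 + t) ^ a - 1) := by
    rw [map_mul, map_pow, hσy, hc, mul_pow]; ring
  rw [hmain, w.map_mul, val_one_add_pow_sub_one w hwt1 hwa, hwt]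

/-- (K5b) the "très ramifié" case: `α ^ p = u` with `w u` not a `p`-th power in the value group
of the base; `ϖ = α ^ a * c` (`p ∤ a`, `c` fixed) is moved by exactly `w ϖ * w (1 - ζ)`. -/
theorem val_map_unif_sub_of_root {p : ℕ} (hp : p.Prime) {ζ : K}
    (hζ : IsPrimitiveRoot ζ p) {α : K} (hα0 : α ≠ 0) (σ : K →+* K) (hσα : σ α ≠ α)
    (hσu : σ (α ^ p) = α ^ p) {a : ℕ} (ha : ¬ p ∣ a) {c : K} (hc : σ c = c) :
    w (σ (α ^ a * c) - α ^ a * c) = w (α ^ a * c) * w (1 - ζ) := by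
  set η := σ α / α with hη
  have hηp : η ^ p = 1 := by
    rw [hη, div_pow, ← map_pow, hσu, div_self (pow_ne_zero p hα0)]
  have hη1 : η ≠ 1 := by
    intro h
    rw [hη, div_eq_one_iff_eq hα0] at h
    exact hσα h
  have hηprim : IsPrimitiveRoot η p := by
    have : Fact p.Prime := ⟨hp⟩
    have := orderOf_eq_prime hηp hη1
    rw [← this]; exact IsPrimitiveRoot.orderOf η
  have hwη : w (1 - η) = w (1 - ζ) := val_one_sub_primitiveRoot_eq w hp hζ hηprim
  have hση : σ α = η * α := by rw [hη, div_mul_cancel₀ _ hα0]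
  have hmain : σ (α ^ a * c) - α ^ a * c = α ^ a * c * (η ^ a - 1) := by
    rw [map_mul, map_pow, hση, hc, mul_pow]; ring
  rw [hmain, w.map_mul, w.map_sub_swap, val_one_sub_pow_eq w hp hηprim ha, hwη]

end Fermat.Agent.S56x.Local.KummerVal
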