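/-
helper82 (P-S56, block (A) LOCAL FLAT, companion of RAM-5 KummerVal): the unit filtration and the `p`-th power map,
valuation-generic (any `w : Valuation K Γ₀` on a field `K`, multiplicative notation).

* (U2a)/(U2b): `(1 + x) ^ p = 1 + x ^ p + …` below the level `e / (p - 1)`, `= 1 + p x + …` above;
* (U3): level raising and the NORMAL FORM of Kummer classes: modulo `p`-th powers every nonzero `u`
  has valuation prime to `p`, or is a 1-unit of level prime to `p` and `< p e / (p - 1)`, or is a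
  1-unit of level `≥ p e / (p - 1)`;
* (K5a): level `≥ p e / (p - 1)` ⇒ `K(u ^ (1/p))` is unramified (inertia fixes the root);
* (U1): inertia acts on `m ^ i / m ^ (i + 1)` through `θ ^ i`, `θ σ = σ π / π`.
-/
import Fermat.Agent.S56x.Local.KummerVal

namespace Fermat.Agent.S56x.Local.KummerNormalForm

open Finset
open Fermat.Agent.S56x.Local.KummerVal

variable {K : Type*} [Field K] {Γ₀ : Type*} [LinearOrderedCommGroupWithZero Γ₀]
  (w : Valuation K Γ₀)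

/-! ### (U2) the `p`-th power map on the unit filtration -/

/-- sharper binomial bound: `(1 + x) ^ p - 1 - p x - x ^ p` is `O(p x ^ 2)`. -/
theorem val_add_one_pow_sub_sub_le {p : ℕ} (hp : p.Prime) (hp2 : p ≠ 2) {y : K} (hy : w y ≤ 1) :
    w ((y + 1) ^ p - 1 - p * y - y ^ p) ≤ w (p : K) * w y ^ 2 := by
  have h3 : 3 ≤ p := by have := hp.two_le; omega
  have h := add_one_pow_sub y hp.pos
  have hsplit : ∑ m ∈ Ico 1 p, (p.choose m : K) * y ^ m =
      (p : K) * y + ∑ m ∈ Ico 2 p, (p.choose m : K) * y ^ m := by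
    rw [Finset.sum_eq_sum_Ico_succ_bot (by omega : 1 < p)]
    simp
  have : (y + 1) ^ p - 1 - p * y - y ^ p = ∑ m ∈ Ico 2 p, (p.choose m : K) * y ^ m := by
    have h' : (y + 1) ^ p - 1 - p * y - y ^ p = ((y + 1) ^ p - 1 - y ^ p) - p * y := by ring
    rw [h', h, hsplit]; ring
  rw [this]
  refine w.map_sum_le fun m hm => ?_
  rw [Finset.mem_Ico] at hm
  obtain ⟨c, hc⟩ := hp.dvd_choose_self (by omega) hm.2
  rw [hc, Nat.cast_mul, w.map_mul, w.map_mul, w.map_pow, mul_assoc]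
  refine mul_le_mul_right ?_ _
  calc w (c : K) * w y ^ m ≤ 1 * w y ^ m := mul_le_mul_left (val_natCast_le_one w c) _
    _ = w y ^ m := one_mul _
    _ ≤ w y ^ 2 := pow_le_pow_of_le_one zero_le hy hm.1

/-- (U2a) below `e / (p - 1)` the `p`-th power map is `x ↦ x ^ p` on leading terms. -/
theorem val_one_add_pow_sub_pow_lt {p : ℕ} (hp : p.Prime) {x : K} (hx : w x ≤ 1) (hx0 : x ≠ 0)
    (hlev : w (p : K) < w x ^ (p - 1)) :
    w ((1 + x) ^ p - 1 - x ^ p) < w (x ^ p) := by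
  have h := val_add_one_pow_sub_le w hp hx
  rw [add_comm] at h
  refine lt_of_le_of_lt h ?_
  have hxpos : 0 < w x := (w.pos_iff).mpr hx0
  have hp1 : p = (p - 1) + 1 := (Nat.succ_pred_eq_of_pos hp.pos).symm
  rw [w.map_pow]
  conv_rhs => rw [hp1, pow_succ]
  exact mul_lt_mul_of_pos_right hlev hxpos

theorem val_one_add_pow_sub_one_of_lt {p : ℕ} (hp : p.Prime) {x : K} (hx : w x ≤ 1) (hx0 : x ≠ 0)
    (hlev : w (p : K) < w x ^ (p - 1)) :
    w ((1 + x) ^ p - 1) = w x ^ p := by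
  have h := val_one_add_pow_sub_pow_lt w hp hx hx0 hlev
  have : (1 + x) ^ p - 1 = x ^ p + ((1 + x) ^ p - 1 - x ^ p) := by ring
  rw [this, w.map_add_eq_of_lt_left h, w.map_pow]

/-- (U2b) above `e / (p - 1)` the `p`-th power map is `x ↦ p x` on leading terms. -/
theorem val_one_add_pow_sub_mul_lt {p : ℕ} (hp : p.Prime) (hp2 : p ≠ 2) (hwp0 : (p : K) ≠ 0)
    {x : K} (hx : w x < 1) (hx0 : x ≠ 0) (hlev : w x ^ (p - 1) < w (p : K)) :
    w ((1 + x) ^ p - 1 - p * x) < w ((p : K) * x) := by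
  have h := val_add_one_pow_sub_sub_le w hp hp2 hx.le
  rw [add_comm] at h
  have hxpos : 0 < w x := (w.pos_iff).mpr hx0
  have hppos : 0 < w (p : K) := (w.pos_iff).mpr hwp0
  have hp1 : p = (p - 1) + 1 := (Nat.succ_pred_eq_of_pos hp.pos).symm
  have hA : w ((1 + x) ^ p - 1 - p * x - x ^ p) < w ((p : K) * x) := by
    refine lt_of_le_of_lt h ?_
    rw [w.map_mul, pow_two, ← mul_assoc]
    calc w (p : K) * w x * w x < w (p : K) * w x * 1 :=
          mul_lt_mul_of_pos_left hx (mul_pos hppos hxpos)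
      _ = w (p : K) * w x := mul_one _
  have hB : w (x ^ p) < w ((p : K) * x) := by
    rw [w.map_pow, w.map_mul]
    conv_lhs => rw [hp1, pow_succ]
    exact mul_lt_mul_of_pos_right hlev hxpos
  have : (1 + x) ^ p - 1 - p * x = ((1 + x) ^ p - 1 - p * x - x ^ p) + x ^ p := by ring
  rw [this]
  exact w.map_add_lt hA hB


/-! ### (U3) level raising and the normal form -/

/-- (U3) level raising.  If `w (u - 1) = w c ^ p` with `c` of level `< e / (p - 1)` and the residue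
field is perfect, then `u` times a `p`-th power has a smaller `w (· - 1)`. -/
theorem exists_mul_pow_val_lt {p : ℕ} (hp : p.Prime) (hp2 : p ≠ 2)
    (hperf : ∀ a : K, w a = 1 → ∃ b : K, w (a - b ^ p) < 1)
    {u c : K} (hc1 : w c < 1) (hc0 : c ≠ 0) (huc : w (u - 1) = w c ^ p)
    (hlev : w (p : K) < w c ^ (p - 1)) :
    ∃ z : K, w (z - 1) ≤ w c ∧ w (u * z ^ p - 1) < w (u - 1) := by
  set x := u - 1 with hx
  have hcpos : 0 < w c := (w.pos_iff).mpr hc0
  have hcp0 : c ^ p ≠ 0 := pow_ne_zero p hc0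
  set a := x / c ^ p with ha
  have hwa : w a = 1 := by
    rw [ha, w.map_div, huc, w.map_pow, div_self (pow_ne_zero p (ne_of_gt hcpos))]
  obtain ⟨b, hb⟩ := hperf a hwa
  have hwbp : w (b ^ p) = 1 := by
    have : b ^ p = a - (a - b ^ p) := by ring
    rw [this, w.map_sub_eq_of_lt_left (by rwa [hwa]), hwa]
  have hwb : w b = 1 := val_eq_one_of_val_pow_eq_one w hp.ne_zero hwbp
  set t := -(b * c) with ht
  have hwt : w t = w c := by rw [ht, w.map_neg, w.map_mul, hwb, one_mul]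
  have ht0 : t ≠ 0 := by
    rw [ht, neg_ne_zero]
    exact mul_ne_zero (by rintro rfl; rw [w.map_zero] at hwb; exact zero_ne_one hwb) hc0
  have hr := val_one_add_pow_sub_pow_lt w hp (x := t) (by rw [hwt]; exact hc1.le) ht0 (by rwa [hwt])
  rw [w.map_pow, hwt] at hr
  have hodd : Odd p := hp.odd_of_ne_two hp2
  have htp : t ^ p = -(b ^ p * c ^ p) := by rw [ht, hodd.neg_pow, mul_pow]
  refine ⟨1 + t, by rw [add_sub_cancel_left, hwt], ?_⟩
  set r := (1 + t) ^ p - 1 - t ^ p with hrdef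
  have hxeq : x = a * c ^ p := by rw [ha, div_mul_cancel₀ _ hcp0]
  have hmain : u * (1 + t) ^ p - 1 = (a - b ^ p) * c ^ p + r + x * (t ^ p + r) := by
    have hu : u = 1 + x := by rw [hx]; ring
    have h1 : (1 + t) ^ p = 1 + t ^ p + r := by rw [hrdef]; ring
    rw [h1, hu, htp, hxeq]; ring
  have hxlt : w x < 1 := by
    rw [huc]; exact pow_lt_one₀ zero_le hc1 hp.ne_zero
  rw [hmain, huc]
  refine w.map_add_lt (w.map_add_lt ?_ hr) ?_
  · rw [w.map_mul, w.map_pow]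
    calc w (a - b ^ p) * w c ^ p < 1 * w c ^ p :=
          mul_lt_mul_of_pos_right hb (pow_pos hcpos p)
      _ = w c ^ p := one_mul _
  · rw [w.map_mul]
    have h2 : w (t ^ p + r) ≤ w c ^ p :=
      w.map_add_le (by rw [w.map_pow, hwt]) hr.le
    calc w x * w (t ^ p + r) ≤ w x * w c ^ p := mul_le_mul_right h2 _
      _ < 1 * w c ^ p := mul_lt_mul_of_pos_right hxlt (pow_pos hcpos p)
      _ = w c ^ p := one_mul _


/-- discreteness: a nonzero element of value `< 1` has value `w π ^ n`, `n ≥ 1`. -/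
theorem exists_nat_level {π : K} (hπ1 : w π < 1) (hπ0 : π ≠ 0)
    (hdisc : ∀ c : K, c ≠ 0 → ∃ m : ℤ, w c = w π ^ m) {x : K} (hx0 : x ≠ 0) (hx1 : w x < 1) :
    ∃ n : ℕ, 0 < n ∧ w x = w π ^ n := by
  have hπpos : 0 < w π := (w.pos_iff).mpr hπ0
  obtain ⟨m, hm⟩ := hdisc x hx0
  rw [hm, zpow_lt_one_iff_right_of_lt_one₀ hπpos hπ1] at hx1
  refine ⟨m.toNat, by omega, ?_⟩
  rw [hm, ← zpow_natCast, Int.toNat_of_nonneg hx1.le]

theorem val_lt_pow_iff {π : K} (hπ1 : w π < 1) (hπ0 : π ≠ 0) {a b : ℕ} :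
    w π ^ a < w π ^ b ↔ b < a :=
  pow_lt_pow_iff_right_of_lt_one₀ ((w.pos_iff).mpr hπ0) hπ1

theorem val_le_pow_iff {π : K} (hπ1 : w π < 1) (hπ0 : π ≠ 0) {a b : ℕ} :
    w π ^ a ≤ w π ^ b ↔ b ≤ a :=
  pow_le_pow_iff_right_of_lt_one₀ ((w.pos_iff).mpr hπ0) hπ1

/-- (U3) **normal form of Kummer classes of 1-units**: modulo `p`-th powers a 1-unit either has
level `≥ p e / (p - 1)` or a level prime to `p`. -/
theorem exists_normal_form {p : ℕ} (hp : p.Prime) (hp2 : p ≠ 2)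
    (hperf : ∀ a : K, w a = 1 → ∃ b : K, w (a - b ^ p) < 1)
    {π : K} (hπ1 : w π < 1) (hπ0 : π ≠ 0)
    (hdisc : ∀ c : K, c ≠ 0 → ∃ m : ℤ, w c = w π ^ m)
    {ζ : K} (hζ : w (1 - ζ) ^ (p - 1) = w (p : K)) (hp0 : (p : K) ≠ 0)
    (u : K) (hu : w (u - 1) < 1) :
    ∃ z : K, w (z - 1) < 1 ∧ (w (u * z ^ p - 1) ≤ w (1 - ζ) ^ p ∨
      ∃ i : ℕ, ¬ p ∣ i ∧ w (u * z ^ p - 1) = w π ^ i ∧ w (1 - ζ) ^ p < w π ^ i) := by
  have hπpos : 0 < w π := (w.pos_iff).mpr hπ0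
  have hp1 : p - 1 ≠ 0 := by have := hp.two_le; omega
  have hζ0 : 1 - ζ ≠ 0 := by
    intro h
    rw [h, w.map_zero, zero_pow hp1] at hζ
    exact hp0 ((w.zero_iff).mp hζ.symm)
  -- a natural number `N` with `w π ^ N ≤ w (1 - ζ) ^ p`
  obtain ⟨N, hN⟩ : ∃ N : ℕ, w π ^ N ≤ w (1 - ζ) ^ p := by
    obtain ⟨m, hm⟩ := hdisc ((1 - ζ) ^ p) (pow_ne_zero p hζ0)
    refine ⟨m.toNat, ?_⟩
    rw [w.map_pow] at hm
    rw [hm, ← zpow_natCast]
    exact zpow_le_zpow_right_of_le_one₀ hπpos hπ1.le (Int.self_le_toNat m)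
  -- induction
  suffices H : ∀ d : ℕ, ∀ u : K, w (u - 1) < 1 → w (u - 1) ≤ w π ^ (N - d) →
      ∃ z : K, w (z - 1) < 1 ∧ (w (u * z ^ p - 1) ≤ w (1 - ζ) ^ p ∨
        ∃ i : ℕ, ¬ p ∣ i ∧ w (u * z ^ p - 1) = w π ^ i ∧ w (1 - ζ) ^ p < w π ^ i) by
    refine H N u hu ?_
    rw [Nat.sub_self, pow_zero]; exact hu.le
  intro d
  induction d with
  | zero =>
    intro u _ hle
    refine ⟨1, by simp, Or.inl ?_⟩
    rw [one_pow, mul_one]
    exact hle.trans hN
  | succ d ih =>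
    intro u hu hle
    by_cases hu1 : u - 1 = 0
    · refine ⟨1, by simp, Or.inl ?_⟩
      rw [one_pow, mul_one, hu1, w.map_zero]; exact zero_le
    obtain ⟨n, hn0, hn⟩ := exists_nat_level w hπ1 hπ0 hdisc hu1 hu
    by_cases hγ : w (u - 1) ≤ w (1 - ζ) ^ p
    · exact ⟨1, by simp, Or.inl (by rwa [one_pow, mul_one])⟩
    rw [not_le] at hγ
    by_cases hpn : p ∣ n
    swap
    · refine ⟨1, by simp, Or.inr ⟨n, hpn, ?_, ?_⟩⟩
      · rw [one_pow, mul_one, hn]
      · rwa [← hn]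
    obtain ⟨k, rfl⟩ := hpn
    have hk0 : 0 < k := by
      rcases Nat.eq_zero_or_pos k with h | h
      · rw [h, mul_zero] at hn0; exact absurd hn0 (lt_irrefl _)
      · exact h
    have hc0 : π ^ k ≠ 0 := pow_ne_zero k hπ0
    have hc1 : w (π ^ k) < 1 := by
      rw [w.map_pow]; exact pow_lt_one₀ zero_le hπ1 (by omega)
    have huc : w (u - 1) = w (π ^ k) ^ p := by
      rw [hn, w.map_pow, ← pow_mul, mul_comm]
    have hclt : w (1 - ζ) < w (π ^ k) := by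
      rw [huc] at hγ
      exact lt_of_pow_lt_pow_left₀ p zero_le hγ
    have hlev : w (p : K) < w (π ^ k) ^ (p - 1) := by
      rw [← hζ]; exact pow_lt_pow_left₀ hclt zero_le hp1
    obtain ⟨z₁, hz₁, hlt⟩ := exists_mul_pow_val_lt w hp hp2 hperf hc1 hc0 huc hlev
    -- the new element
    have hu'1 : w (u * z₁ ^ p - 1) < 1 := hlt.trans hu
    have hu'le : w (u * z₁ ^ p - 1) ≤ w π ^ (N - d) := by
      by_cases h0 : u * z₁ ^ p - 1 = 0
      · rw [h0, w.map_zero]; exact zero_le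
      obtain ⟨n', -, hn'⟩ := exists_nat_level w hπ1 hπ0 hdisc h0 hu'1
      rw [hn', hn, val_lt_pow_iff w hπ1 hπ0] at hlt
      rw [hn, val_le_pow_iff w hπ1 hπ0] at hle
      rw [hn', val_le_pow_iff w hπ1 hπ0]
      omega
    obtain ⟨z₂, hz₂, hconc⟩ := ih (u * z₁ ^ p) hu'1 hu'le
    have hz₁' : w (z₁ - 1) < 1 := lt_of_le_of_lt hz₁ hc1
    have hwz₂ : w z₂ ≤ 1 := by
      have : z₂ = 1 + (z₂ - 1) := by ring
      rw [this]; exact (w.map_one_add_of_lt hz₂).le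
    refine ⟨z₁ * z₂, ?_, ?_⟩
    · have : z₁ * z₂ - 1 = (z₁ - 1) * z₂ + (z₂ - 1) := by ring
      rw [this]
      refine w.map_add_lt ?_ hz₂
      rw [w.map_mul]
      calc w (z₁ - 1) * w z₂ ≤ w (z₁ - 1) * 1 := mul_le_mul_right hwz₂ _
        _ < 1 := by rwa [mul_one]
    · have : u * (z₁ * z₂) ^ p = u * z₁ ^ p * z₂ ^ p := by ring
      rw [this]; exact hconc


/-- (U3') **normal form of all Kummer classes**: modulo `p`-th powers a nonzero `u` has valuation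
prime to `p` (très ramifié type), or is a 1-unit of level `≥ p e / (p - 1)` (unramified type), or
is a 1-unit of level `i` prime to `p`, `i < p e / (p - 1)`. -/
theorem exists_full_normal_form {p : ℕ} (hp : p.Prime) (hp2 : p ≠ 2)
    (hperf : ∀ a : K, w a = 1 → ∃ b : K, w (a - b ^ p) < 1)
    {π : K} (hπ1 : w π < 1) (hπ0 : π ≠ 0)
    (hdisc : ∀ c : K, c ≠ 0 → ∃ m : ℤ, w c = w π ^ m)
    {ζ : K} (hζ : w (1 - ζ) ^ (p - 1) = w (p : K)) (hp0 : (p : K) ≠ 0)
    (u : K) (hu : u ≠ 0) :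
    ∃ z : K, z ≠ 0 ∧ ((∃ k : ℤ, ¬ (p : ℤ) ∣ k ∧ w (u * z ^ p) = w π ^ k) ∨
      w (u * z ^ p - 1) ≤ w (1 - ζ) ^ p ∨
      ∃ i : ℕ, ¬ p ∣ i ∧ w (u * z ^ p - 1) = w π ^ i ∧ w (1 - ζ) ^ p < w π ^ i) := by
  have hπpos : 0 < w π := (w.pos_iff).mpr hπ0
  have hwπ0 : w π ≠ 0 := ne_of_gt hπpos
  obtain ⟨m, hm⟩ := hdisc u hu
  by_cases hpm : (p : ℤ) ∣ m
  swap
  · exact ⟨1, one_ne_zero, Or.inl ⟨m, hpm, by rw [one_pow, mul_one, hm]⟩⟩
  obtain ⟨k, rfl⟩ := hpm
  -- make `u` a unit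
  set u₁ := u * (π ^ (-k)) ^ p with hu₁
  have hwu₁ : w u₁ = 1 := by
    rw [hu₁, w.map_mul, hm, w.map_pow, map_zpow₀, ← zpow_natCast (w π ^ (-k)) p, ← zpow_mul,
      ← zpow_add₀ hwπ0]
    have : (p : ℤ) * k + -k * (p : ℤ) = 0 := by ring
    rw [this, zpow_zero]
  obtain ⟨b, hb⟩ := hperf u₁ hwu₁
  have hwbp : w (b ^ p) = 1 := by
    have : b ^ p = u₁ - (u₁ - b ^ p) := by ring
    rw [this, w.map_sub_eq_of_lt_left (by rwa [hwu₁]), hwu₁]
  have hwb : w b = 1 := val_eq_one_of_val_pow_eq_one w hp.ne_zero hwbp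
  have hb0 : b ≠ 0 := by rintro rfl; rw [w.map_zero] at hwb; exact zero_ne_one hwb
  set u₂ := u₁ * (b⁻¹) ^ p with hu₂
  have hu₂1 : w (u₂ - 1) < 1 := by
    have : u₂ - 1 = (u₁ - b ^ p) * (b⁻¹) ^ p := by
      rw [hu₂, sub_mul, inv_pow, mul_inv_cancel₀ (pow_ne_zero p hb0)]
    rw [this, w.map_mul, w.map_pow, w.map_inv, hwb, inv_one, one_pow, mul_one]
    exact hb
  obtain ⟨z₃, hz₃, hconc⟩ := exists_normal_form w hp hp2 hperf hπ1 hπ0 hdisc hζ hp0 u₂ hu₂1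
  have hz₃0 : z₃ ≠ 0 := by
    rintro rfl
    rw [zero_sub, w.map_neg, w.map_one] at hz₃
    exact lt_irrefl _ hz₃
  refine ⟨π ^ (-k) * b⁻¹ * z₃, mul_ne_zero (mul_ne_zero (zpow_ne_zero _ hπ0) (inv_ne_zero hb0)) hz₃0,
    Or.inr ?_⟩
  have : u * (π ^ (-k) * b⁻¹ * z₃) ^ p = u₂ * z₃ ^ p := by
    rw [hu₂, hu₁]; ring
  rw [this]
  exact hconc

/-! ### (K5a) the top level is unramified -/

/-- (K5a) top level `≥ p e / (p - 1)` ⇒ unramified: an element of the inertia group fixes `α`. -/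
theorem map_root_eq_of_top_level {p : ℕ} (hp : p.Prime) {ζ : K} (hζ : IsPrimitiveRoot ζ p)
    {α : K} (h1 : w (α ^ p - 1) < 1) (h2 : w (α ^ p - 1) ≤ w (1 - ζ) ^ p)
    (σ : K →+* K) (hσζ : σ ζ = ζ) (hσu : σ (α ^ p) = α ^ p)
    (hinert : ∀ x : K, w x ≤ 1 → w (σ x - x) < 1) : σ α = α := by
  by_contra hσα
  have hζp := val_one_sub_primitiveRoot_pow w hp hζ
  have hαp : w (α ^ p) = 1 := by
    have : α ^ p = 1 + (α ^ p - 1) := by ring
    rw [this]; exact w.map_one_add_of_lt h1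
  have hα : w α = 1 := val_eq_one_of_val_pow_eq_one w hp.ne_zero hαp
  have hα0 : α ≠ 0 := by
    rintro rfl; rw [w.map_zero] at hα; exact zero_ne_one hα
  set y := α - 1 with hy
  have hy1 : w y ≤ 1 := w.map_sub_le (le_of_eq hα) (le_of_eq w.map_one)
  have hp1 : p - 1 ≠ 0 := by have := hp.two_le; omega
  -- `w y ≤ w (1 - ζ)`
  have hyle : w y ≤ w (1 - ζ) := by
    by_contra hlt
    rw [not_le] at hlt
    have hy0 : y ≠ 0 := (w.pos_iff).mp (lt_of_le_of_lt zero_le hlt)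
    have hlev : w (p : K) < w y ^ (p - 1) := by
      rw [← hζp]; exact pow_lt_pow_left₀ hlt zero_le hp1
    have := val_one_add_pow_sub_one_of_lt w hp hy1 hy0 hlev
    have hαy : 1 + y = α := by rw [hy]; ring
    rw [hαy] at this
    rw [this] at h2
    exact absurd (pow_lt_pow_left₀ hlt zero_le hp.ne_zero) (not_lt.mpr h2)
  -- the root of unity
  set η := σ α / α with hη
  have hηp : η ^ p = 1 := by
    rw [hη, div_pow, ← map_pow, hσu, div_self (pow_ne_zero p hα0)]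
  have hη1 : η ≠ 1 := by
    intro h
    rw [hη, div_eq_one_iff_eq hα0] at h
    exact hσα h
  have hηprim : IsPrimitiveRoot η p := by
    have : Fact p.Prime := ⟨hp⟩
    have := orderOf_eq_prime hηp hη1
    rw [← this]; exact IsPrimitiveRoot.orderOf η
  have hwη : w (1 - η) = w (1 - ζ) := val_one_sub_primitiveRoot_eq w hp hζ hηprim
  have hση : σ α = η * α := by rw [hη, div_mul_cancel₀ _ hα0]
  have hζ0 : 1 - ζ ≠ 0 := by
    intro h
    have : ζ = 1 := (sub_eq_zero.mp h).symm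
    exact hp.one_lt.ne' (hζ.unique (this ▸ IsPrimitiveRoot.one))
  have hζpos : 0 < w (1 - ζ) := (w.pos_iff).mpr hζ0
  set z := y / (1 - ζ) with hz
  have hz1 : w z ≤ 1 := by
    rw [hz, w.map_div]; exact (div_le_one₀ hζpos).mpr hyle
  have hσ1ζ : σ (1 - ζ) = 1 - ζ := by rw [map_sub, map_one, hσζ]
  have hσy : σ y = η * α - 1 := by rw [hy, map_sub, map_one, hση]
  have hσz : σ z - z = (η - 1) * α / (1 - ζ) := by
    rw [hz, map_div₀, hσ1ζ, hσy, hy]; ring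
  have := hinert z hz1
  rw [hσz, w.map_div, w.map_mul, hα, mul_one, w.map_sub_swap, hwη, div_self (ne_of_gt hζpos)] at this
  exact lt_irrefl _ this


/-! ### (U1) the inertia character of the graded pieces -/

/-- (U1) inertia acts on `m ^ i / m ^ (i + 1)` through the `i`-th power of `θ σ = σ π / π`. -/
theorem val_map_sub_pow_mul_lt {σ : K →+* K} (hσw : ∀ x, w (σ x) = w x)
    (hinert : ∀ a : K, w a = 1 → w (σ a - a) < 1) {π : K} (hπ0 : π ≠ 0) {x : K} {i : ℕ}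
    (hx : w x = w π ^ i) :
    w (σ x - (σ π / π) ^ i * x) < w x := by
  have hπpos : 0 < w π := (w.pos_iff).mpr hπ0
  set a := x / π ^ i with ha
  have hwa : w a = 1 := by
    rw [ha, w.map_div, hx, w.map_pow, div_self (pow_ne_zero i (ne_of_gt hπpos))]
  have hxa : x = a * π ^ i := by rw [ha, div_mul_cancel₀ _ (pow_ne_zero i hπ0)]
  have : σ x - (σ π / π) ^ i * x = (σ a - a) * σ π ^ i := by
    conv_lhs => rw [hxa, map_mul, map_pow, div_pow]
    field_simp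
  rw [this, w.map_mul, w.map_pow, hσw, hx]
  calc w (σ a - a) * w π ^ i < 1 * w π ^ i :=
        mul_lt_mul_of_pos_right (hinert a hwa) (pow_pos hπpos i)
    _ = w π ^ i := one_mul _

end Fermat.Agent.S56x.Local.KummerNormalForm
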