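/-
P-S56, block (A) LOCAL FLAT, leaf LOC-5 (helper83): finite subextensions `E` of `PadicAlgCl p / ℚ_[p]`.

`OE p E` = closed unit ball of `E` (restricted spectral norm) = integral closure of `ℤ_[p]` in `E`;
via `isIntegralClosure_OE` the whole AKLB layer of `Lib/CFT/Local/Basic` applies
(`A = ℤ_[p]`, `K = ℚ_[p]`, `L = E`, `B = OE p E`).  For `E / ℚ_[p]` finite: complete discrete valuation
ring, finite free over `ℤ_[p]`, finite residue field of characteristic `p`; Galois action on `OE p E`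
(isometries), faithful, invariants `= ℤ_[p]`; norm versus additive valuation; restriction from
`Gal(PadicAlgCl p / ℚ_[p])` is surjective; finite sets lie in finite Galois subextensions.
-/
import Mathlib
import Fermat.Agent.Lib.CFT.Local.Basic

set_option autoImplicit false
set_option linter.unusedSectionVars false

open IsLocalRing Polynomial

namespace Fermat.Agent.S56x.Local.PadicFinite

variable (p : ℕ) [Fact p.Prime] (E : IntermediateField ℚ_[p] (PadicAlgCl p))

/-- the ring of integers of a subextension `E` of `PadicAlgCl p / ℚ_[p]`: the closed unit ball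
for the (unique) extension of the `p`-adic norm. -/
noncomputable def OE : Subring E := (NormedField.valuation (K := E)).integer

variable {p E}

theorem mem_OE {x : E} : x ∈ OE p E ↔ ‖x‖ ≤ 1 := by
  rw [OE, Valuation.mem_integer_iff, NormedField.valuation_apply, ← NNReal.coe_le_coe]
  simp

theorem norm_le_one (x : OE p E) : ‖(x : E)‖ ≤ 1 := mem_OE.mp x.2

/-- the norm on `E` is the spectral norm. -/
theorem norm_eq_spectralValue (x : E) : ‖x‖ = spectralValue (minpoly ℚ_[p] x) := by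
  rw [IntermediateField.minpoly_eq]
  rfl

/-- automorphisms of `E` over `ℚ_[p]` are isometries. -/
theorem norm_algEquiv (σ : E ≃ₐ[ℚ_[p]] E) (x : E) : ‖σ x‖ = ‖x‖ := by
  rw [norm_eq_spectralValue, norm_eq_spectralValue, minpoly.algEquiv_eq]

theorem norm_algebraMap_padic (a : ℚ_[p]) : ‖algebraMap ℚ_[p] E a‖ = ‖a‖ :=
  norm_algebraMap' E a

variable (p E)

/-- the structure map `ℤ_[p] → O_E`. -/
noncomputable def zpToOE : ℤ_[p] →+* OE p E :=
  ((algebraMap ℚ_[p] E).comp (algebraMap ℤ_[p] ℚ_[p])).codRestrict (OE p E) (fun a => by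
    rw [mem_OE, RingHom.comp_apply, norm_algebraMap_padic]
    exact PadicInt.norm_le_one a)

noncomputable instance algebraZpE : Algebra ℤ_[p] E :=
  ((algebraMap ℚ_[p] E).comp (algebraMap ℤ_[p] ℚ_[p])).toAlgebra

instance towerZpQpE : IsScalarTower ℤ_[p] ℚ_[p] E := IsScalarTower.of_algebraMap_eq' rfl

noncomputable instance algebraZpOE : Algebra ℤ_[p] (OE p E) := (zpToOE p E).toAlgebra

instance towerZpOEE : IsScalarTower ℤ_[p] (OE p E) E := IsScalarTower.of_algebraMap_eq' rfl

variable {p E}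

theorem coe_algebraMap_OE (a : ℤ_[p]) :
    ((algebraMap ℤ_[p] (OE p E) a : OE p E) : E) = algebraMap ℚ_[p] E (a : ℚ_[p]) := rfl

/-- **integrality = norm at most one.** -/
theorem isIntegral_iff_norm_le_one (x : E) : IsIntegral ℤ_[p] x ↔ ‖x‖ ≤ 1 := by
  constructor
  · intro h
    have h2 : IsIntegral (OE p E) x := h.tower_top
    have := (Valuation.integer.integers (NormedField.valuation (K := E))).mem_of_integral h2
    exact mem_OE.mp this
  · intro h
    have halg : IsAlgebraic ℚ_[p] x := by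
      have : IsAlgebraic ℚ_[p] (x : PadicAlgCl p) := Algebra.IsAlgebraic.isAlgebraic _
      exact (isAlgebraic_algebraMap_iff (algebraMap E (PadicAlgCl p)).injective).mp this
    have hmonic : (minpoly ℚ_[p] x).Monic := minpoly.monic halg.isIntegral
    rw [norm_eq_spectralValue, spectralValue_le_one_iff hmonic] at h
    have hlift : minpoly ℚ_[p] x ∈ Polynomial.lifts (algebraMap ℤ_[p] ℚ_[p]) := by
      rw [Polynomial.lifts_iff_coeff_lifts]
      intro n
      exact ⟨⟨_, h n⟩, rfl⟩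
    obtain ⟨q, hq, -, hqm⟩ := Polynomial.lifts_and_natDegree_eq_and_monic hlift hmonic
    refine ⟨q, hqm, ?_⟩
    have : eval₂ (algebraMap ℤ_[p] E) x q
        = eval₂ (algebraMap ℚ_[p] E) x (q.map (algebraMap ℤ_[p] ℚ_[p])) := by
      rw [Polynomial.eval₂_map]; rfl
    rw [this, hq]
    exact minpoly.aeval ℚ_[p] x

instance isIntegralClosure_OE : IsIntegralClosure (OE p E) ℤ_[p] E where
  algebraMap_injective := Subtype.val_injective
  isIntegral_iff := by
    intro x
    rw [isIntegral_iff_norm_le_one]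
    constructor
    · intro h; exact ⟨⟨x, mem_OE.mpr h⟩, rfl⟩
    · rintro ⟨y, rfl⟩; exact norm_le_one y

section FiniteDim

open Fermat.Agent.Lib.CFT.Local

variable (p E)
variable [FiniteDimensional ℚ_[p] E]

instance isDiscreteValuationRing_OE : IsDiscreteValuationRing (OE p E) :=
  ext_isDiscreteValuationRing ℤ_[p] ℚ_[p] E (OE p E)

instance moduleFinite_OE : Module.Finite ℤ_[p] (OE p E) := ext_finite ℤ_[p] ℚ_[p] E (OE p E)

instance moduleFree_OE : Module.Free ℤ_[p] (OE p E) := ext_free ℤ_[p] ℚ_[p] E (OE p E)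

theorem finrank_OE : Module.finrank ℤ_[p] (OE p E) = Module.finrank ℚ_[p] E :=
  ext_finrank ℤ_[p] ℚ_[p] E (OE p E)

instance isLocalHom_OE : IsLocalHom (algebraMap ℤ_[p] (OE p E)) :=
  ext_isLocalHom ℤ_[p] ℚ_[p] E (OE p E)

instance isAdicComplete_OE : IsAdicComplete (maximalIdeal (OE p E)) (OE p E) :=
  ext_isAdicComplete ℤ_[p] ℚ_[p] E (OE p E)

theorem algebraMap_OE_injective : Function.Injective (algebraMap ℤ_[p] (OE p E)) :=
  ext_algebraMap_injective ℤ_[p] ℚ_[p] E (OE p E)

instance isFractionRing_OE : IsFractionRing (OE p E) E :=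
  ext_isFractionRing ℤ_[p] ℚ_[p] E (OE p E)

instance finite_residueField_OE : Finite (ResidueField (OE p E)) := by
  have h : Finite (ResidueField ℤ_[p]) := Finite.of_equiv _ (PadicInt.residueField (p := p)).symm.toEquiv
  exact ResidueField.finite_of_finite (R := ℤ_[p]) (S := OE p E) h

end FiniteDim

section Units

theorem norm_natCast_p : ‖((p : ℕ) : E)‖ = (p : ℝ)⁻¹ := by
  have h : ((p : ℕ) : E) = algebraMap ℚ_[p] E ((p : ℕ) : ℚ_[p]) := by simp
  rw [h, norm_algebraMap_padic, Padic.norm_p]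

theorem norm_unit_OE (u : (OE p E)ˣ) : ‖((u : OE p E) : E)‖ = 1 := by
  have h1 := norm_le_one (u : OE p E)
  have h2 := norm_le_one ((u⁻¹ : (OE p E)ˣ) : OE p E)
  have h3 : ((u : OE p E) : E) * (((u⁻¹ : (OE p E)ˣ) : OE p E) : E) = 1 := by
    rw [← Subring.coe_mul, Units.mul_inv]; rfl
  have h4 : ‖((u : OE p E) : E)‖ * ‖(((u⁻¹ : (OE p E)ˣ) : OE p E) : E)‖ = 1 := by
    rw [← norm_mul, h3, norm_one]
  have h5 := norm_nonneg ((u : OE p E) : E)
  have h6 := norm_nonneg ((((u⁻¹ : (OE p E)ˣ) : OE p E)) : E)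
  nlinarith

theorem isUnit_iff_norm_eq_one {x : OE p E} : IsUnit x ↔ ‖(x : E)‖ = 1 := by
  constructor
  · rintro ⟨u, rfl⟩; exact norm_unit_OE u
  · intro h
    have hx0 : (x : E) ≠ 0 := by
      intro h0; rw [h0, norm_zero] at h; exact zero_ne_one h
    have hinv : (x : E)⁻¹ ∈ OE p E := by
      rw [mem_OE, norm_inv, h, inv_one]
    refine isUnit_iff_exists_inv.mpr ⟨⟨_, hinv⟩, ?_⟩
    apply Subtype.ext
    change (x : E) * (x : E)⁻¹ = 1
    exact mul_inv_cancel₀ hx0

theorem natCast_p_mem_maximalIdeal [FiniteDimensional ℚ_[p] E] :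
    ((p : ℕ) : OE p E) ∈ maximalIdeal (OE p E) := by
  rw [mem_maximalIdeal, mem_nonunits_iff, isUnit_iff_norm_eq_one]
  have h : ((((p : ℕ) : OE p E)) : E) = ((p : ℕ) : E) := by simp
  rw [h, norm_natCast_p]
  have hp : (1 : ℝ) < p := by exact_mod_cast (Fact.out : p.Prime).one_lt
  intro h1
  have : (p : ℝ)⁻¹ < 1 := inv_lt_one_of_one_lt₀ hp
  linarith

theorem natCast_p_ne_zero : ((p : ℕ) : OE p E) ≠ 0 := by
  intro h
  have h2 : ((((p : ℕ) : OE p E)) : E) = 0 := by rw [h]; rfl
  have h3 : ((((p : ℕ) : OE p E)) : E) = ((p : ℕ) : E) := by simp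
  rw [h3] at h2
  have : ‖((p : ℕ) : E)‖ = 0 := by rw [h2, norm_zero]
  rw [norm_natCast_p] at this
  have hp : (0 : ℝ) < p := by exact_mod_cast (Fact.out : p.Prime).pos
  exact (inv_pos.mpr hp).ne' this

instance charP_residueField_OE [FiniteDimensional ℚ_[p] E] :
    CharP (ResidueField (OE p E)) p := by
  have h0 : ((p : ℕ) : ResidueField (OE p E)) = 0 := by
    have := (residue_eq_zero_iff ((p : ℕ) : OE p E)).mpr natCast_p_mem_maximalIdeal
    simpa using this
  exact (CharP.charP_iff_prime_eq_zero (Fact.out : p.Prime)).mpr h0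

end Units

section Action

variable (p E)

instance isInvariantSubring_OE : IsInvariantSubring (E ≃ₐ[ℚ_[p]] E) (OE p E) where
  smul_mem σ {x} hx := by
    rw [mem_OE] at hx ⊢
    rw [AlgEquiv.smul_def, norm_algEquiv]
    exact hx

/-- the Galois group acts on the ring of integers. -/
noncomputable instance mulSemiringAction_OE : MulSemiringAction (E ≃ₐ[ℚ_[p]] E) (OE p E) :=
  IsInvariantSubring.toMulSemiringAction (E ≃ₐ[ℚ_[p]] E) (OE p E)

variable {p E}

@[simp] theorem coe_smul_OE (σ : E ≃ₐ[ℚ_[p]] E) (x : OE p E) :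
    ((σ • x : OE p E) : E) = σ (x : E) := rfl

/-- every element of `E` becomes integral after multiplication by a power of `p`. -/
theorem exists_pow_mul_mem_OE (y : E) : ∃ n : ℕ, ((p : ℕ) : E) ^ n * y ∈ OE p E := by
  have hp : (1 : ℝ) < p := by exact_mod_cast (Fact.out : p.Prime).one_lt
  obtain ⟨n, hn⟩ := pow_unbounded_of_one_lt ‖y‖ hp
  refine ⟨n, ?_⟩
  rw [mem_OE, norm_mul, norm_pow, norm_natCast_p, inv_pow]
  have hpos : (0 : ℝ) < (p : ℝ) ^ n := by positivity
  rw [inv_mul_le_iff₀ hpos, mul_one]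
  exact hn.le

instance faithfulSMul_OE : FaithfulSMul (E ≃ₐ[ℚ_[p]] E) (OE p E) where
  eq_of_smul_eq_smul := by
    intro σ τ h
    refine AlgEquiv.ext (fun y => ?_)
    obtain ⟨n, hn⟩ := exists_pow_mul_mem_OE (p := p) y
    have h1 := congrArg (fun z : OE p E => (z : E)) (h ⟨_, hn⟩)
    simp only [coe_smul_OE, map_mul, map_pow, map_natCast] at h1
    have hp0 : ((p : ℕ) : E) ^ n ≠ 0 := by
      apply pow_ne_zero
      exact_mod_cast (Fact.out : p.Prime).ne_zero
    exact mul_left_cancel₀ hp0 h1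

/-- **Galois invariants**: for `E / ℚ_[p]` finite Galois, the invariants of `O_E` are `ℤ_[p]`. -/
theorem fixed_iff_mem_range [FiniteDimensional ℚ_[p] E] [Normal ℚ_[p] E] (x : OE p E) :
    (∀ σ : E ≃ₐ[ℚ_[p]] E, σ • x = x) ↔ x ∈ Set.range (algebraMap ℤ_[p] (OE p E)) := by
  constructor
  · intro h
    have hgal : IsGalois ℚ_[p] E := ⟨⟩
    have hfix : ∀ σ : E ≃ₐ[ℚ_[p]] E, σ (x : E) = (x : E) := by
      intro σ
      have := congrArg (fun z : OE p E => (z : E)) (h σ)
      simpa using this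
    obtain ⟨a, ha⟩ := (IsGalois.mem_range_algebraMap_iff_fixed (x : E)).mpr hfix
    have hnorm : ‖a‖ ≤ 1 := by
      rw [← norm_algebraMap_padic (E := E), ha]
      exact norm_le_one x
    refine ⟨(⟨a, hnorm⟩ : ℤ_[p]), ?_⟩
    apply Subtype.ext
    exact (coe_algebraMap_OE (p := p) (E := E) (⟨a, hnorm⟩ : ℤ_[p])).trans ha
  · rintro ⟨a, rfl⟩ σ
    apply Subtype.ext
    rw [coe_smul_OE, coe_algebraMap_OE, AlgEquiv.commutes]

end Action

section NormAddVal

variable [FiniteDimensional ℚ_[p] E]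

theorem norm_eq_norm_uniformizer_pow {ϖ : OE p E} (hϖ : Irreducible ϖ) (x : OE p E) (n : ℕ)
    (h : IsDiscreteValuationRing.addVal (OE p E) x = n) : ‖(x : E)‖ = ‖(ϖ : E)‖ ^ n := by
  have hx0 : x ≠ 0 := by
    intro h0
    rw [h0, IsDiscreteValuationRing.addVal_zero] at h
    exact ENat.top_ne_natCast n h
  obtain ⟨m, u, hu⟩ := IsDiscreteValuationRing.eq_unit_mul_pow_irreducible hx0 hϖ
  have hm : IsDiscreteValuationRing.addVal (OE p E) x = m :=
    IsDiscreteValuationRing.addVal_def x u hϖ m hu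
  have hmn : m = n := by
    rw [hm] at h; exact_mod_cast h
  subst hmn
  rw [hu, Subring.coe_mul, Subring.coe_pow, norm_mul, norm_pow, norm_unit_OE, one_mul]

/-- **norm versus additive valuation**: with `e = v_E(p)`, `‖x‖ ^ e = p ^ (- v_E(x))`. -/
theorem exists_ramificationIndex :
    ∃ e : ℕ, 0 < e ∧ IsDiscreteValuationRing.addVal (OE p E) ((p : ℕ) : OE p E) = e ∧
      ∀ (x : OE p E) (n : ℕ), IsDiscreteValuationRing.addVal (OE p E) x = n →
        ‖(x : E)‖ ^ e = ((p : ℝ)⁻¹) ^ n := by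
  obtain ⟨ϖ, hϖ⟩ := IsDiscreteValuationRing.exists_irreducible (OE p E)
  have hp0 : ((p : ℕ) : OE p E) ≠ 0 := natCast_p_ne_zero
  obtain ⟨e, u, hu⟩ := IsDiscreteValuationRing.eq_unit_mul_pow_irreducible hp0 hϖ
  have he : IsDiscreteValuationRing.addVal (OE p E) ((p : ℕ) : OE p E) = e :=
    IsDiscreteValuationRing.addVal_def _ u hϖ e hu
  have hpn : ‖(ϖ : E)‖ ^ e = (p : ℝ)⁻¹ := by
    rw [← norm_eq_norm_uniformizer_pow hϖ _ e he]
    have h : ((((p : ℕ) : OE p E)) : E) = ((p : ℕ) : E) := by simp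
    rw [h, norm_natCast_p]
  refine ⟨e, ?_, he, ?_⟩
  · rcases Nat.eq_zero_or_pos e with h0 | h0
    · exfalso
      subst h0
      rw [pow_zero] at hpn
      have hp : (1 : ℝ) < p := by exact_mod_cast (Fact.out : p.Prime).one_lt
      have : (p : ℝ)⁻¹ < 1 := inv_lt_one_of_one_lt₀ hp
      linarith
    · exact h0
  · intro x n hx
    rw [norm_eq_norm_uniformizer_pow hϖ x n hx, ← pow_mul, mul_comm, pow_mul, hpn]

end NormAddVal

section Galois

variable (p)

theorem restrict_surjective (E : IntermediateField ℚ_[p] (PadicAlgCl p)) [Normal ℚ_[p] E] :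
    Function.Surjective
      (AlgEquiv.restrictNormalHom (F := ℚ_[p]) (K₁ := PadicAlgCl p) E) :=
  AlgEquiv.restrictNormalHom_surjective (PadicAlgCl p)

/-- every finite-dimensional subextension is contained in a finite Galois one. -/
theorem exists_finite_normal_ge (E₀ : IntermediateField ℚ_[p] (PadicAlgCl p))
    [FiniteDimensional ℚ_[p] E₀] :
    ∃ E : IntermediateField ℚ_[p] (PadicAlgCl p),
      FiniteDimensional ℚ_[p] E ∧ Normal ℚ_[p] E ∧ E₀ ≤ E :=
  ⟨IntermediateField.normalClosure ℚ_[p] E₀ (PadicAlgCl p),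
    normalClosure.is_finiteDimensional ℚ_[p] E₀ (PadicAlgCl p),
    normalClosure.normal ℚ_[p] E₀ (PadicAlgCl p), E₀.le_normalClosure⟩

/-- every finite subset of `PadicAlgCl p` lies in a finite Galois subextension. -/
theorem exists_finite_normal_of_finset (s : Finset (PadicAlgCl p)) :
    ∃ E : IntermediateField ℚ_[p] (PadicAlgCl p),
      FiniteDimensional ℚ_[p] E ∧ Normal ℚ_[p] E ∧ (↑s : Set (PadicAlgCl p)) ⊆ E := by
  have hfd : FiniteDimensional ℚ_[p]
      (IntermediateField.adjoin ℚ_[p] (↑s : Set (PadicAlgCl p))) :=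
    IntermediateField.finiteDimensional_adjoin
      (fun x _ => (Algebra.IsAlgebraic.isAlgebraic x).isIntegral)
  obtain ⟨E, h1, h2, h3⟩ :=
    exists_finite_normal_ge p (IntermediateField.adjoin ℚ_[p] (↑s : Set (PadicAlgCl p)))
  exact ⟨E, h1, h2, fun x hx => h3 (IntermediateField.subset_adjoin ℚ_[p] _ hx)⟩

end Galois

end Fermat.Agent.S56x.Local.PadicFinite
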