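/-
P-S56, block (B) GREENBERG–WILES, arithmetic input of L2 (helper3): the inertia subgroup of the
local Galois group `Gal(PadicAlgCl q / ℚ_[q])`, defined by pulling back the Prelude's
`(padicPlace q).inertiaSubgroupIn ℚ` along `localGaloisToGlobal q`, is the subgroup of the
automorphisms fixing all roots of unity of order `q ^ m - 1` (`m > 0`), and also the subgroup of
the automorphisms acting trivially on the residue field of the unit ball of `PadicAlgCl q`.
-/
import Mathlib
import Fermat.Prelude.Def_ExtEndgame_ProductionDatum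
import Fermat.Agent.Lib.CFT.Local.UnramifiedCore
import Fermat.Agent.Lib.CFT.Local.Unramified
import Fermat.Agent.Lib.CFT.Profinite.BridgePlaces
import Fermat.Agent.S56x.Local.PadicFinite
import Fermat.Agent.S56x.Hens.FiniteLevel
import Fermat.Agent.S48x.Lift.Place
import Fermat.Agent.Gateway.S31.RootsOfUnity

set_option autoImplicit false

open IsLocalRing

namespace Fermat.Agent.S56x.Local.LocalInertia

open Fermat.Agent.Lib.CFT.Local Fermat.Agent.Lib.CFT.Local.Unramified
open Fermat.Agent.S56x.Local.PadicFinite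

variable (q : ℕ) [Fact q.Prime]

local notation "Ω" => PadicAlgCl q
local notation "Gq" => (PadicAlgCl q ≃ₐ[ℚ_[q]] PadicAlgCl q)

/-- The inertia subgroup of the local Galois group at `q`: the pull-back of the Prelude's inertia
subgroup of the `q`-adic place of `ℚ̄`. -/
noncomputable def localInertia' : Subgroup Gq :=
  ((padicPlace q).inertiaSubgroupIn ℚ).comap (localGaloisToGlobal q)

theorem natCard_residueField_padicInt : Nat.card (ResidueField ℤ_[q]) = q := by
  rw [Nat.card_congr (PadicInt.residueField (p := q)).toEquiv, Nat.card_zmod]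

theorem norm_algEquiv_apply (σ : Gq) (w : Ω) : ‖σ w‖ = ‖w‖ := by
  have := nnnorm_padicAlgCl_algEquiv q σ w
  exact congrArg NNReal.toReal this

theorem not_dvd_pow_sub_one {m : ℕ} (hm : 0 < m) : ¬ q ∣ q ^ m - 1 := by
  intro h
  have h1 : q ∣ q ^ m := dvd_pow_self q hm.ne'
  have h2 : 1 ≤ q ^ m := Nat.one_le_pow _ _ (Fact.out : q.Prime).pos
  have h3 : q ∣ q ^ m - (q ^ m - 1) := Nat.dvd_sub h1 h
  have h4 : q ^ m - (q ^ m - 1) = 1 := by omega
  rw [h4] at h3
  exact (Fact.out : q.Prime).one_lt.ne' (Nat.dvd_one.mp h3)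

/-- Inertia fixes the roots of unity of order prime to `q`. -/
theorem apply_eq_of_mem_localInertia' {σ : Gq} (hσ : σ ∈ localInertia' q) {n : ℕ} (hn : ¬ q ∣ n)
    {x : Ω} (hx : x ^ n = 1) : σ x = x := by
  have hn0 : n ≠ 0 := by rintro rfl; exact hn (dvd_zero _)
  have halg : IsAlgebraic ℚ x := by
    refine ⟨Polynomial.X ^ n - 1, ?_, ?_⟩
    · exact Polynomial.X_pow_sub_C_ne_zero (Nat.pos_of_ne_zero hn0) (1 : ℚ)
    · simp [hx]
  obtain ⟨w, rfl⟩ :=
    Fermat.Agent.Lib.CFT.Profinite.Bridge.mem_range_padicEmbedding_of_isAlgebraic q halg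
  have hw : w ^ n = 1 := by
    apply (padicEmbedding q).toRingHom.injective
    simpa using hx
  have h1 : localGaloisToGlobal q σ w = w :=
    Fermat.Agent.Gateway.S31Red.apply_rootOfUnity_of_mem_inertia (Fact.out : q.Prime)
      (Fermat.Agent.S48x.Lift.padicPlace_liesOverPrime q) hσ hn hw
  rw [← padicEmbedding_localGaloisToGlobal, h1]

/-- An automorphism which is congruent to the identity on the unit ball lies in the inertia
subgroup. -/
theorem mem_localInertia'_of_forall_norm_lt {σ : Gq}
    (hσ : ∀ y : Ω, ‖y‖ ≤ 1 → ‖σ y - y‖ < 1) : σ ∈ localInertia' q := by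
  rw [localInertia', Subgroup.mem_comap, Fermat.Agent.S56x.Hens.mem_inertiaSubgroupIn_iff]
  refine ⟨localGaloisToGlobal_mem_decompositionSubgroup q σ, fun x hx => ?_⟩
  rw [Fermat.Agent.S48x.Lift.mem_padicPlace_nonunits_iff, map_sub,
    padicEmbedding_localGaloisToGlobal]
  apply hσ
  have := (mem_padicPlace_iff q).mp hx
  exact_mod_cast this


theorem norm_sub_le_max' (a b : Ω) : ‖a - b‖ ≤ max ‖a‖ ‖b‖ := by
  have := IsUltrametricDist.norm_add_le_max a (-b)
  rwa [norm_neg, ← sub_eq_add_neg] at this

/-- An automorphism fixing the roots of unity of order `q ^ m - 1`, `m > 0`, is congruent to the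
identity on the unit ball (Teichmüller representatives). -/
theorem norm_sub_lt_one_of_fixes {σ : Gq}
    (hσ : ∀ m : ℕ, 0 < m → ∀ x : Ω, x ^ (q ^ m - 1) = 1 → σ x = x) (y : Ω) (hy : ‖y‖ ≤ 1) :
    ‖σ y - y‖ < 1 := by
  rcases lt_or_eq_of_le hy with hlt | heq
  · calc ‖σ y - y‖ ≤ max ‖σ y‖ ‖y‖ := norm_sub_le_max' q _ _
      _ < 1 := by rw [norm_algEquiv_apply, max_self]; exact hlt
  · let E : IntermediateField ℚ_[q] Ω := IntermediateField.adjoin ℚ_[q] {y}
    have hfd : FiniteDimensional ℚ_[q] E :=
      IntermediateField.adjoin.finiteDimensional (Algebra.IsIntegral.isIntegral y)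
    have hyE : y ∈ E := IntermediateField.mem_adjoin_simple_self _ y
    have hyO : (⟨y, hyE⟩ : E) ∈ OE q E := mem_OE.mpr hy
    have hunit : IsUnit (⟨⟨y, hyE⟩, hyO⟩ : OE q E) := isUnit_iff_norm_eq_one.mpr heq
    obtain ⟨u, hu⟩ := hunit
    have hens : HenselianLocalRing (OE q E) := henselianLocalRing_of_isAdicComplete _
    obtain ⟨z, hz, huz⟩ := Teichmuller.exists_teich_mul_one_add u
    have ht := Teichmuller.teich_pow_card_sub_one (Units.map (residue (OE q E)).toMonoidHom u)
    have hcard : Nat.card (ResidueField (OE q E)) = q ^ resDegree ℤ_[q] (OE q E) := by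
      rw [natCard_residueField_B ℤ_[q] ℚ_[q] E (OE q E), natCard_residueField_padicInt]
    have hf : 0 < resDegree ℤ_[q] (OE q E) := resDegree_pos ℤ_[q] ℚ_[q] E (OE q E)
    set T : (OE q E)ˣ := Teichmuller.teich (Units.map (residue (OE q E)).toMonoidHom u) with hT
    -- the Teichmüller representative, in `Ω`
    set t : Ω := (((T : OE q E) : E) : Ω) with ht_def
    set zΩ : Ω := ((z : E) : Ω) with hz_def
    have hy_eq : y = t * (1 + zΩ) := by
      have h1 := congrArg (fun w : OE q E => (((w : E)) : Ω)) huz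
      rw [hu] at h1
      simpa using h1
    have htpow : t ^ (q ^ resDegree ℤ_[q] (OE q E) - 1) = 1 := by
      rw [hcard] at ht
      have h1 := congrArg (fun w : (OE q E)ˣ => ((((w : OE q E)) : E) : Ω)) ht
      simpa using h1
    have hσt : σ t = t := hσ _ hf t htpow
    have htnorm : ‖t‖ = 1 := norm_unit_OE T
    have hznorm : ‖zΩ‖ < 1 := by
      have h1 : ‖zΩ‖ ≤ 1 := norm_le_one z
      refine lt_of_le_of_ne h1 fun h2 => ?_
      have h3 : IsUnit z := isUnit_iff_norm_eq_one.mpr h2
      exact (mem_maximalIdeal z).mp hz h3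
    have hdiff : σ y - y = t * (σ zΩ - zΩ) := by
      rw [hy_eq, map_mul, map_add, map_one, hσt]
      ring
    rw [hdiff, norm_mul, htnorm, one_mul]
    calc ‖σ zΩ - zΩ‖ ≤ max ‖σ zΩ‖ ‖zΩ‖ := norm_sub_le_max' q _ _
      _ < 1 := by rw [norm_algEquiv_apply, max_self]; exact hznorm


/-- **Characterisation of the inertia subgroup** (elementary form): the automorphisms fixing all
roots of unity of order `q ^ n - 1`, `n > 0`. -/
theorem mem_localInertia_iff (σ : Gq) :
    σ ∈ localInertia' q ↔
      ∀ n : ℕ, 0 < n → ∀ z : PadicAlgCl q, z ^ (q ^ n - 1) = 1 → σ z = z := by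
  constructor
  · intro h n hn z hz
    exact apply_eq_of_mem_localInertia' q h (not_dvd_pow_sub_one q hn) hz
  · intro h
    apply mem_localInertia'_of_forall_norm_lt
    exact norm_sub_lt_one_of_fixes q h

/-- **Characterisation of the inertia subgroup** (residue field form): the automorphisms which
are congruent to the identity on the unit ball of `Ω`. -/
theorem mem_localInertia_iff_forall_norm (σ : Gq) :
    σ ∈ localInertia' q ↔ ∀ y : Ω, ‖y‖ ≤ 1 → ‖σ y - y‖ < 1 := by
  constructor
  · intro h
    exact norm_sub_lt_one_of_fixes q ((mem_localInertia_iff q σ).mp h)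
  · exact mem_localInertia'_of_forall_norm_lt q

/-- **Characterisation of the inertia subgroup** (field form): the automorphisms fixing the
subfields `ℚ_[q](μ_{q^n-1})`, `n > 0` (the finite unramified extensions). -/
theorem mem_localInertia_iff_fixingSubgroup (σ : Gq) :
    σ ∈ localInertia' q ↔ ∀ n : ℕ, 0 < n →
      σ ∈ (IntermediateField.adjoin ℚ_[q] {x : Ω | x ^ (q ^ n - 1) = 1}).fixingSubgroup := by
  rw [mem_localInertia_iff]
  refine forall_congr' fun n => forall_congr' fun _ => ?_
  rw [IntermediateField.mem_fixingSubgroup_iff]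
  constructor
  · intro h
    have hle : IntermediateField.adjoin ℚ_[q] {x : Ω | x ^ (q ^ n - 1) = 1} ≤
        IntermediateField.fixedField (Subgroup.zpowers σ) := by
      rw [IntermediateField.adjoin_le_iff]
      intro x hx
      rw [SetLike.mem_coe, IntermediateField.mem_fixedField_iff]
      intro τ hτ
      have h1 : Subgroup.zpowers σ ≤ MulAction.stabilizer Gq x := by
        rw [Subgroup.zpowers_le]
        exact h x hx
      exact h1 hτ
    intro x hx
    exact (IntermediateField.mem_fixedField_iff _ x).mp (hle hx) σ (Subgroup.mem_zpowers σ)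
  · intro h x hx
    exact h x (IntermediateField.subset_adjoin _ _ hx)

theorem localInertia'_normal : (localInertia' q).Normal := by
  refine ⟨fun σ hσ g => ?_⟩
  rw [mem_localInertia_iff_forall_norm] at hσ ⊢
  intro y hy
  have h1 : (g * σ * g⁻¹) y - y = g (σ (g⁻¹ y) - g⁻¹ y) := by
    rw [map_sub, AlgEquiv.mul_apply, AlgEquiv.mul_apply, ← AlgEquiv.mul_apply g g⁻¹,
      mul_inv_cancel, AlgEquiv.one_apply]
  rw [h1, norm_algEquiv_apply]
  apply hσ
  rw [norm_algEquiv_apply]
  exact hy

/-! ### The `Nat.Primes` form used by the Prelude's production datum -/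

open ExtCitation

/-- The inertia subgroup of the Prelude's local Galois group at `q` (THE definition site). -/
noncomputable def localInertia (q : Nat.Primes) : Subgroup (primeLocalGaloisGroup q) :=
  ((primeLocalPlace q).inertiaSubgroupIn ℚ).comap (primeLocalToGlobal q)

theorem localInertia_eq (q : Nat.Primes) :
    localInertia q = (haveI : Fact (q : ℕ).Prime := ⟨q.2⟩; localInertia' (q : ℕ)) := rfl

theorem localInertia_normal (q : Nat.Primes) : (localInertia q).Normal := by
  have : Fact (q : ℕ).Prime := ⟨q.2⟩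
  exact localInertia'_normal (q : ℕ)

theorem mem_localInertia_iff_map (q : Nat.Primes) (σ : primeLocalGaloisGroup q) :
    σ ∈ localInertia q ↔ primeLocalToGlobal q σ ∈ (primeLocalPlace q).inertiaSubgroupIn ℚ :=
  Iff.rfl

end Fermat.Agent.S56x.Local.LocalInertia
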