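/-
P-S56, block (A) LOCAL FLAT (helper83): the inertia field of a finite Galois extension `E / ℚ_[p]`
is unramified, in the carrier of `S56x/Local/PadicFinite`: an element of the maximal ideal of
`OE p E` fixed by the inertia group is divisible by `p`.  Proof: frozen library
`Lib/CFT/Local/Unramified` (`inertiaGroup_eq_fixingSubgroup`, `isUnramifiedExt_maxUnram`) + Galois
correspondence.  This is the arithmetic hypothesis `hunr` of `S56x/Fontaine/Unr.lean`.
-/
import Mathlib
import Fermat.Agent.Lib.CFT.Local.Unramified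
import Fermat.Agent.S56x.Local.PadicFinite

set_option autoImplicit false
set_option linter.unusedSectionVars false

open IsLocalRing

namespace Fermat.Agent.S56x.Local.PadicInertia

open Fermat.Agent.S56x.Local.PadicFinite Fermat.Agent.Lib.CFT.Local.Unramified

variable {p : ℕ} [Fact p.Prime] {E : IntermediateField ℚ_[p] (PadicAlgCl p)}
  [FiniteDimensional ℚ_[p] E]

theorem coe_galRestrict (σ : E ≃ₐ[ℚ_[p]] E) (b : OE p E) :
    ((galRestrict ℤ_[p] ℚ_[p] E (OE p E) σ b : OE p E) : E) = σ (b : E) :=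
  algebraMap_galRestrict_apply ℤ_[p] σ b

theorem galRestrict_eq_smul (σ : E ≃ₐ[ℚ_[p]] E) (b : OE p E) :
    galRestrict ℤ_[p] ℚ_[p] E (OE p E) σ b = σ • b :=
  Subtype.ext (coe_galRestrict σ b)

/-- the inertia group of the frozen local library, in terms of the action on `OE p E`. -/
theorem mem_inertiaGroup_iff_smul (σ : E ≃ₐ[ℚ_[p]] E) :
    σ ∈ inertiaGroup ℤ_[p] ℚ_[p] E (OE p E) ↔
      ∀ b : OE p E, σ • b - b ∈ maximalIdeal (OE p E) := by
  rw [mem_inertiaGroup_iff]
  simp only [galRestrict_eq_smul]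

/-- **the inertia field is unramified**: an element of the maximal ideal of `O_E` which is fixed
by the inertia group is divisible by `p`. -/
theorem inertia_fixed_dvd [Normal ℚ_[p] E] (y : OE p E) (hy : y ∈ maximalIdeal (OE p E))
    (hfix : ∀ σ : E ≃ₐ[ℚ_[p]] E,
      (∀ b : OE p E, σ • b - b ∈ maximalIdeal (OE p E)) → σ • y = y) :
    ((p : ℕ) : OE p E) ∣ y := by
  have hgal : IsGalois ℚ_[p] E := ⟨⟩
  set M : IntermediateField ℚ_[p] E := maxUnram ℤ_[p] ℚ_[p] E (OE p E) with hM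
  -- `y` lies in the maximal unramified subextension
  have hyM : (y : E) ∈ M := by
    rw [← IsGalois.fixedField_fixingSubgroup M, IntermediateField.mem_fixedField_iff]
    intro σ hσ
    rw [hM, ← inertiaGroup_eq_fixingSubgroup] at hσ
    have := hfix σ ((mem_inertiaGroup_iff_smul σ).mp hσ)
    exact congrArg (fun z : OE p E => (z : E)) this
  have hunr : IsUnramifiedExt ℤ_[p] M := isUnramifiedExt_maxUnram ℤ_[p] ℚ_[p] E (OE p E)
  rw [IsUnramifiedExt] at hunr
  have htower : IsScalarTower ℤ_[p] M E := IsScalarTower.of_algebraMap_eq (fun x => rfl)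
  -- the ring hom from the integral closure in `M` to `OE p E`
  have hint : ∀ c : integralClosure ℤ_[p] M, ((c : M) : E) ∈ OE p E := by
    intro c
    rw [mem_OE, ← isIntegral_iff_norm_le_one]
    have hc : IsIntegral ℤ_[p] (c : M) := c.2
    exact IsIntegral.algebraMap (B := E) hc
  let φ : integralClosure ℤ_[p] M →+* OE p E :=
    ((algebraMap M E).comp (integralClosure ℤ_[p] M).val.toRingHom).codRestrict (OE p E) hint
  have hφ : ∀ c : integralClosure ℤ_[p] M, ((φ c : OE p E) : E) = ((c : M) : E) := fun c => rfl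
  have hφalg : ∀ a : ℤ_[p], φ (algebraMap ℤ_[p] (integralClosure ℤ_[p] M) a)
      = algebraMap ℤ_[p] (OE p E) a := by
    intro a
    apply Subtype.ext
    rw [hφ, coe_algebraMap_OE]
    rfl
  -- `y` as an element of the integral closure in `M`
  have hyint : IsIntegral ℤ_[p] (⟨(y : E), hyM⟩ : M) := by
    have h1 : IsIntegral ℤ_[p] (y : E) := (isIntegral_iff_norm_le_one _).mpr (norm_le_one y)
    have h2 : algebraMap M E (⟨(y : E), hyM⟩ : M) = (y : E) := rfl
    rw [← h2] at h1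
    exact (isIntegral_algebraMap_iff (algebraMap M E).injective).mp h1
  let y₀ : integralClosure ℤ_[p] M := ⟨⟨(y : E), hyM⟩, hyint⟩
  have hφy : φ y₀ = y := Subtype.ext rfl
  -- the image of the ideal `I` lies in the maximal ideal of `OE p E`
  set I : Ideal (integralClosure ℤ_[p] M) :=
    (maximalIdeal ℤ_[p]).map (algebraMap ℤ_[p] (integralClosure ℤ_[p] M)) with hI
  have hIφ : ∀ i ∈ I, φ i ∈ maximalIdeal (OE p E) := by
    have : I ≤ (maximalIdeal (OE p E)).comap φ := by
      rw [hI, Ideal.map_le_iff_le_comap]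
      intro a ha
      rw [Ideal.mem_comap, Ideal.mem_comap, hφalg]
      exact (mem_maximalIdeal _).mpr (fun hu =>
        (mem_maximalIdeal a).mp ha (isUnit_of_map_unit (algebraMap ℤ_[p] (OE p E)) a hu))
    exact fun i hi => this hi
  -- `y₀ ∈ I`
  have hy₀ : y₀ ∈ I := by
    by_contra hnot
    obtain ⟨c, i, hi, hci⟩ := hunr.exists_inv hnot
    have h1 : φ c * y + φ i = 1 := by
      rw [← hφy, ← map_mul, ← map_add, hci, map_one]
    have h2 : (1 : OE p E) ∈ maximalIdeal (OE p E) := by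
      rw [← h1]
      exact Ideal.add_mem _ (Ideal.mul_mem_left _ _ hy) (hIφ i hi)
    exact (Ideal.ne_top_iff_one _).mp (maximalIdeal.isMaximal (OE p E)).ne_top h2
  -- `I = (p)`
  have hIp : I = Ideal.span {((p : ℕ) : integralClosure ℤ_[p] M)} := by
    rw [hI, PadicInt.maximalIdeal_eq_span_p, Ideal.map_span, Set.image_singleton, map_natCast]
  rw [hIp, Ideal.mem_span_singleton] at hy₀
  obtain ⟨z₀, hz₀⟩ := hy₀
  refine ⟨φ z₀, ?_⟩
  rw [← hφy, hz₀, map_mul, map_natCast]

/-- the same with Mathlib's `Ideal.inertia` spelling of the inertia group. -/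
theorem inertia_fixed_dvd' [Normal ℚ_[p] E] (y : OE p E) (hy : y ∈ maximalIdeal (OE p E))
    (hfix : ∀ σ ∈ (maximalIdeal (OE p E)).inertia (E ≃ₐ[ℚ_[p]] E), σ • y = y) :
    ((p : ℕ) : OE p E) ∣ y :=
  inertia_fixed_dvd y hy (fun σ hσ => hfix σ hσ)

theorem mem_inertiaGroup_iff_mem_inertia (σ : E ≃ₐ[ℚ_[p]] E) :
    σ ∈ inertiaGroup ℤ_[p] ℚ_[p] E (OE p E) ↔
      σ ∈ (maximalIdeal (OE p E)).inertia (E ≃ₐ[ℚ_[p]] E) :=
  mem_inertiaGroup_iff_smul σ

/-- the hypothesis `hunr` of `S56x/Fontaine/Unr.unr_inertia`, in uniformiser form: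
`p = u ϖ^e`, `y` inertia-invariant and divisible by `ϖ` ⇒ `ϖ^e ∣ y`. -/
theorem uniformizer_pow_dvd_of_inertia_fixed [Normal ℚ_[p] E] {ϖ : OE p E} (hϖ : Irreducible ϖ)
    {e : ℕ} {u : (OE p E)ˣ} (hpe : ((p : ℕ) : OE p E) = u * ϖ ^ e) (y : OE p E)
    (hfix : ∀ σ : E ≃ₐ[ℚ_[p]] E,
      (∀ b : OE p E, σ • b - b ∈ maximalIdeal (OE p E)) → σ • y = y)
    (hy : ϖ ∣ y) : ϖ ^ e ∣ y := by
  have hym : y ∈ maximalIdeal (OE p E) := by
    rw [hϖ.maximalIdeal_eq, Ideal.mem_span_singleton]; exact hy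
  obtain ⟨z, hz⟩ := inertia_fixed_dvd y hym hfix
  exact ⟨(u : OE p E) * z, by rw [hz, hpe]; ring⟩

end Fermat.Agent.S56x.Local.PadicInertia
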