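/-
P-S56, block (B)/(C) local line, arithmetic input of `FrobData` (helper92's note 1448), part 1
(helper42): the unramified levels of the local Galois group `Gal(PadicAlgCl q / ℚ_q)` and a
Frobenius element.

Everything is stated for `(q : ℕ) [Fact q.Prime]` and the literal group
`PadicAlgCl q ≃ₐ[ℚ_[q]] PadicAlgCl q` (the Prelude's `primeLocalGaloisGroup q` unfolds to it);
`FrobDataLocal.lean` casts.

* `unrField q m = ℚ_q(μ_{q^m-1})`, `lev q m` its fixing subgroup (`mem_lev_iff`: `σ` fixes all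
  `(q^m-1)`-th roots of unity); for `0 < m`: Galois of degree `m`, `lev_normal`, `lev_mem_levels`;
* `frob q` : an element with `frob z = z ^ q` for every root of unity `z` of order dividing some
  `q^m - 1` (`frob_apply`), `frob_pow_mem_lev_iff : frob ^ k ∈ lev m ↔ m ∣ k`,
  `exists_frob_pow : ∃ k, (frob ^ k)⁻¹ * g ∈ lev m`;
* `exists_lev_le` (cofinality): for every finite `E/ℚ_q` there is `m > 0` such that every
  `g ∈ lev m` is `i * u` with `i` fixing ALL roots of unity of order prime to `q` (i.e. `i` in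
  every `lev n`) and `u` fixing `E`.
-/
import Mathlib
import Fermat.Agent.Lib.CFT.Local.Unramified
import Fermat.Agent.Lib.CFT.Local.LocalBrauer.PadicBlock
import Fermat.Agent.Lib.CFT.Profinite.BridgeLocalLevels

set_option autoImplicit false
set_option linter.unusedSectionVars false
set_option linter.style.haveILetI false

open IsLocalRing Fermat.Agent.Lib.CFT.Local.Unramified Fermat.Agent.Lib.CFT.Local.LocalBrauer
  Fermat.Agent.Lib.CFT.Profinite

namespace Fermat.Agent.S56x.Local.UnrLevels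

variable (q : ℕ) [Fact q.Prime]

local notation "Ω" => PadicAlgCl q
local notation "Gq" => (PadicAlgCl q ≃ₐ[ℚ_[q]] PadicAlgCl q)

/-! ### The unramified fields and levels -/

/-- `ℚ_q(μ_{q^m-1})`, the unramified extension of degree `m` of `ℚ_q` inside `PadicAlgCl q`. -/
noncomputable def unrField (m : ℕ) : IntermediateField ℚ_[q] Ω :=
  IntermediateField.adjoin ℚ_[q] {x : Ω | x ^ (q ^ m - 1) = 1}

/-- The open normal subgroup of the unramified extension of degree `m`. -/
noncomputable def lev (m : ℕ) : Subgroup Gq := (unrField q m).fixingSubgroup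

theorem finite_residueField_zq : Finite (ResidueField ℤ_[q]) :=
  PadicBlock.finite_residueField_zp q

theorem natCard_residueField_zq : Nat.card (ResidueField ℤ_[q]) = q := by
  rw [Nat.card_congr PadicInt.residueField.toEquiv, Nat.card_zmod]

theorem unrField_eq (m : ℕ) :
    haveI := finite_residueField_zq q
    unrField q m = unramifiedExt ℤ_[q] ℚ_[q] Ω m := by
  rw [unrField, unramifiedExt, natCard_residueField_zq]

variable {q}

theorem mem_lev_iff {m : ℕ} (σ : Gq) :
    σ ∈ lev q m ↔ ∀ z : Ω, z ^ (q ^ m - 1) = 1 → σ z = z := by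
  rw [lev, unrField, IntermediateField.mem_fixingSubgroup_iff]
  constructor
  · intro h z hz
    exact h z (IntermediateField.subset_adjoin _ _ hz)
  · intro h x hx
    induction hx using IntermediateField.adjoin_induction with
    | mem x hx => exact h x hx
    | algebraMap x => exact σ.commutes x
    | add x y _ _ hx hy => rw [map_add, hx, hy]
    | inv x _ hx => rw [map_inv₀, hx]
    | mul x y _ _ hx hy => rw [map_mul, hx, hy]

theorem pow_sub_one_dvd {a b : ℕ} (hab : a ∣ b) : q ^ a - 1 ∣ q ^ b - 1 := by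
  obtain ⟨c, rfl⟩ := hab
  rw [pow_mul]
  exact Nat.sub_one_dvd_pow_sub_one (q ^ a) c

theorem pow_eq_one_of_dvd {a b : ℕ} (hab : a ∣ b) {z : Ω} (hz : z ^ (q ^ a - 1) = 1) :
    z ^ (q ^ b - 1) = 1 := by
  obtain ⟨c, hc⟩ := pow_sub_one_dvd (q := q) hab
  rw [hc, pow_mul, hz, one_pow]

theorem unrField_le_of_dvd {a b : ℕ} (hab : a ∣ b) : unrField q a ≤ unrField q b :=
  IntermediateField.adjoin.mono _ _ _ fun _ hx => pow_eq_one_of_dvd hab hx

theorem lev_le_of_dvd {a b : ℕ} (hab : a ∣ b) : lev q b ≤ lev q a :=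
  IntermediateField.fixingSubgroup_antitone (unrField_le_of_dvd hab)

theorem one_lt_q : 1 < q := (Fact.out : q.Prime).one_lt

theorem pow_sub_one_ne_zero {m : ℕ} (hm : 0 < m) : q ^ m - 1 ≠ 0 := by
  have h2 : 1 < q ^ m := Nat.one_lt_pow hm.ne' one_lt_q
  omega

theorem exists_primitiveRoot {m : ℕ} (hm : 0 < m) : ∃ z : Ω, IsPrimitiveRoot z (q ^ m - 1) := by
  haveI : NeZero (q ^ m - 1) := ⟨pow_sub_one_ne_zero hm⟩
  exact HasEnoughRootsOfUnity.exists_primitiveRoot Ω (q ^ m - 1)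


/-! ### Galois properties (from the frozen `Lib/CFT/Local/Unramified`) -/

section Galois

variable {m : ℕ} (hm : 0 < m)

include hm

theorem isPrimitiveRoot_card {z : Ω} (hz : IsPrimitiveRoot z (q ^ m - 1)) :
    IsPrimitiveRoot z (Nat.card (ResidueField ℤ_[q]) ^ m - 1) := by
  rw [natCard_residueField_zq]
  exact hz

theorem finiteDimensional_unrField : FiniteDimensional ℚ_[q] (unrField q m) := by
  haveI := finite_residueField_zq q
  obtain ⟨z, hz⟩ := exists_primitiveRoot (q := q) hm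
  rw [unrField_eq]
  exact finiteDimensional_unramifiedExt ℤ_[q] ℚ_[q] Ω hm.ne' (isPrimitiveRoot_card hm hz)

theorem isGalois_unrField : IsGalois ℚ_[q] (unrField q m) := by
  haveI := finite_residueField_zq q
  obtain ⟨z, hz⟩ := exists_primitiveRoot (q := q) hm
  rw [unrField_eq]
  exact isGalois_unramifiedExt ℤ_[q] ℚ_[q] Ω hm.ne' (isPrimitiveRoot_card hm hz)

theorem finrank_unrField : Module.finrank ℚ_[q] (unrField q m) = m := by
  haveI := finite_residueField_zq q
  obtain ⟨z, hz⟩ := exists_primitiveRoot (q := q) hm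
  rw [unrField_eq]
  exact finrank_unramifiedExt ℤ_[q] ℚ_[q] Ω hm.ne' (isPrimitiveRoot_card hm hz)

theorem lev_normal : (lev q m).Normal := by
  haveI := isGalois_unrField (q := q) hm
  rw [lev, ← IntermediateField.restrictNormalHom_ker]
  infer_instance

theorem lev_mem_levels : lev q m ∈ (Bridge.localLevels q).levels :=
  ⟨unrField q m, finiteDimensional_unrField hm, rfl⟩

end Galois


/-! ### Frobenius lifts -/

/-- A lift of the Frobenius of the unramified extension of degree `m`. -/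
theorem exists_frobLift {m : ℕ} (hm : 0 < m) :
    ∃ φ : Gq, ∀ z : Ω, z ^ (q ^ m - 1) = 1 → φ z = z ^ q := by
  haveI := finite_residueField_zq q
  obtain ⟨z0, hz0⟩ := exists_primitiveRoot (q := q) hm
  have hz0' := isPrimitiveRoot_card hm hz0
  have hE : unrField q m = unramifiedExt ℤ_[q] ℚ_[q] Ω m := unrField_eq q m
  haveI : FiniteDimensional ℚ_[q] (unramifiedExt ℤ_[q] ℚ_[q] Ω m) :=
    finiteDimensional_unramifiedExt ℤ_[q] ℚ_[q] Ω hm.ne' hz0'
  haveI : IsGalois ℚ_[q] (unramifiedExt ℤ_[q] ℚ_[q] Ω m) :=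
    isGalois_unramifiedExt ℤ_[q] ℚ_[q] Ω hm.ne' hz0'
  have hunr : IsUnramifiedExt ℤ_[q] (unramifiedExt ℤ_[q] ℚ_[q] Ω m) :=
    isUnramifiedExt_unramifiedExt ℤ_[q] ℚ_[q] Ω hm.ne' hz0'
  haveI := henselian_B ℤ_[q] ℚ_[q] (unramifiedExt ℤ_[q] ℚ_[q] Ω m)
    (integralClosure ℤ_[q] (unramifiedExt ℤ_[q] ℚ_[q] Ω m))
  haveI := isLocalHom_B ℤ_[q] ℚ_[q] (unramifiedExt ℤ_[q] ℚ_[q] Ω m)
    (integralClosure ℤ_[q] (unramifiedExt ℤ_[q] ℚ_[q] Ω m))
  have h : IsUnram ℤ_[q] (integralClosure ℤ_[q] (unramifiedExt ℤ_[q] ℚ_[q] Ω m)) :=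
    (isUnramifiedExt_iff_isUnram ℤ_[q] (unramifiedExt ℤ_[q] ℚ_[q] Ω m)
      (integralClosure ℤ_[q] (unramifiedExt ℤ_[q] ℚ_[q] Ω m))).mp hunr
  refine ⟨(frob ℤ_[q] ℚ_[q] (unramifiedExt ℤ_[q] ℚ_[q] Ω m)
    (integralClosure ℤ_[q] (unramifiedExt ℤ_[q] ℚ_[q] Ω m)) h).liftNormal Ω, fun z hz => ?_⟩
  have hzE : z ∈ unramifiedExt ℤ_[q] ℚ_[q] Ω m := by
    rw [← hE]
    exact IntermediateField.subset_adjoin _ _ hz
  have hN : 0 < q ^ m - 1 := Nat.pos_of_ne_zero (pow_sub_one_ne_zero hm)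
  have hzpow : (⟨z, hzE⟩ : unramifiedExt ℤ_[q] ℚ_[q] Ω m) ^ (q ^ m - 1) = 1 := Subtype.ext hz
  have hzint : IsIntegral ℤ_[q] (⟨z, hzE⟩ : unramifiedExt ℤ_[q] ℚ_[q] Ω m) := by
    refine IsIntegral.of_pow hN ?_
    rw [hzpow]
    exact isIntegral_one
  have hzB : (⟨⟨z, hzE⟩, hzint⟩ : integralClosure ℤ_[q] (unramifiedExt ℤ_[q] ℚ_[q] Ω m)) ^
      (Nat.card (ResidueField ℤ_[q]) ^ m - 1) = 1 := by
    rw [natCard_residueField_zq]
    exact Subtype.ext hzpow
  have key := frob_apply_of_pow_eq_one ℤ_[q] ℚ_[q] (unramifiedExt ℤ_[q] ℚ_[q] Ω m)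
    (integralClosure ℤ_[q] (unramifiedExt ℤ_[q] ℚ_[q] Ω m)) h
    (natCast_card_pow_sub_one_ne_zero_B ℤ_[q]
      (integralClosure ℤ_[q] (unramifiedExt ℤ_[q] ℚ_[q] Ω m)) m hm.ne') hzB
  have key2 := congrArg (algebraMap (integralClosure ℤ_[q] (unramifiedExt ℤ_[q] ℚ_[q] Ω m))
    (unramifiedExt ℤ_[q] ℚ_[q] Ω m)) key
  rw [algebraMap_galRestrict_apply, natCard_residueField_zq, map_pow] at key2
  have key3 := AlgEquiv.liftNormal_commutes (frob ℤ_[q] ℚ_[q] (unramifiedExt ℤ_[q] ℚ_[q] Ω m)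
    (integralClosure ℤ_[q] (unramifiedExt ℤ_[q] ℚ_[q] Ω m)) h) Ω
    (⟨z, hzE⟩ : unramifiedExt ℤ_[q] ℚ_[q] Ω m)
  have h4 : algebraMap (integralClosure ℤ_[q] (unramifiedExt ℤ_[q] ℚ_[q] Ω m))
      (unramifiedExt ℤ_[q] ℚ_[q] Ω m) ⟨⟨z, hzE⟩, hzint⟩ = ⟨z, hzE⟩ := rfl
  rw [h4] at key2
  rw [key2] at key3
  simpa using key3


theorem isClosed_setOf_apply_eq (z w : Ω) : IsClosed {φ : Gq | φ z = w} := by
  rw [← isOpen_compl_iff, isOpen_iff_mem_nhds]
  intro φ hφ
  haveI : FiniteDimensional ℚ_[q] (IntermediateField.adjoin ℚ_[q] {z}) :=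
    IntermediateField.adjoin.finiteDimensional (Algebra.IsIntegral.isIntegral z)
  have hU : IsOpen ((IntermediateField.adjoin ℚ_[q] {z}).fixingSubgroup : Set Gq) :=
    IntermediateField.fixingSubgroup_isOpen _
  have hmem : (fun ψ : Gq => φ⁻¹ * ψ) ⁻¹'
      ((IntermediateField.adjoin ℚ_[q] {z}).fixingSubgroup : Set Gq) ∈ nhds φ := by
    refine (hU.preimage (continuous_const_mul φ⁻¹)).mem_nhds ?_
    simp only [Set.mem_preimage, inv_mul_cancel, SetLike.mem_coe]
    exact one_mem _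
  filter_upwards [hmem] with ψ hψ
  simp only [Set.mem_preimage, SetLike.mem_coe] at hψ
  rw [IntermediateField.mem_fixingSubgroup_iff] at hψ
  have h1 := hψ z (IntermediateField.mem_adjoin_simple_self ℚ_[q] z)
  rw [AlgEquiv.mul_apply] at h1
  have h2 : ψ z = φ z := by
    have := congrArg φ h1
    rwa [← AlgEquiv.mul_apply, mul_inv_cancel, AlgEquiv.one_apply] at this
  simp only [Set.mem_compl_iff, Set.mem_ofPred_eq] at hφ ⊢
  rwa [h2]

variable (q) in
/-- A Frobenius element of `Gal(PadicAlgCl q / ℚ_q)`: it raises every root of unity of order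
prime to `q` to the `q`-th power. -/
theorem exists_frob :
    ∃ φ : Gq, ∀ m : ℕ, 0 < m → ∀ z : Ω, z ^ (q ^ m - 1) = 1 → φ z = z ^ q := by
  let t : {m : ℕ // 0 < m} → Set Gq := fun m =>
    {φ | ∀ z : Ω, z ^ (q ^ (m : ℕ) - 1) = 1 → φ z = z ^ q}
  haveI : Nonempty {m : ℕ // 0 < m} := ⟨⟨1, one_pos⟩⟩
  have hcl : ∀ m, IsClosed (t m) := by
    intro m
    have : t m = ⋂ z : Ω, ⋂ _ : z ^ (q ^ (m : ℕ) - 1) = 1, {φ : Gq | φ z = z ^ q} := by
      ext φ
      simp only [t, Set.mem_ofPred_eq, Set.mem_iInter]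
    rw [this]
    exact isClosed_iInter fun z => isClosed_iInter fun _ => isClosed_setOf_apply_eq z _
  have hdir : Directed (fun x1 x2 => x1 ⊇ x2) t := by
    intro a b
    refine ⟨⟨a * b, Nat.mul_pos a.2 b.2⟩, ?_, ?_⟩
    · intro φ hφ z hz
      exact hφ z (pow_eq_one_of_dvd (Dvd.intro _ rfl) hz)
    · intro φ hφ z hz
      exact hφ z (pow_eq_one_of_dvd (Dvd.intro_left _ rfl) hz)
  obtain ⟨φ, hφ⟩ := IsCompact.nonempty_iInter_of_directed_nonempty_isCompact_isClosed t hdir
    (fun m => exists_frobLift m.2) (fun m => (hcl m).isCompact) hcl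
  rw [Set.mem_iInter] at hφ
  exact ⟨φ, fun m hm z hz => hφ ⟨m, hm⟩ z hz⟩

variable (q) in
/-- A fixed Frobenius element of `Gal(PadicAlgCl q / ℚ_q)`. -/
noncomputable def frob : Gq := (exists_frob q).choose

theorem frob_apply {m : ℕ} (hm : 0 < m) {z : Ω} (hz : z ^ (q ^ m - 1) = 1) :
    frob q z = z ^ q :=
  (exists_frob q).choose_spec m hm z hz

theorem frob_pow_apply {m : ℕ} (hm : 0 < m) {z : Ω} (hz : z ^ (q ^ m - 1) = 1) (k : ℕ) :
    (frob q ^ k) z = z ^ (q ^ k) := by
  induction k with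
  | zero => simp
  | succ k ih =>
    rw [pow_succ, AlgEquiv.mul_apply, frob_apply hm hz, map_pow, ih, ← pow_mul, ← pow_succ]

theorem frob_pow_mem_lev_iff {m : ℕ} (hm : 0 < m) (k : ℕ) :
    frob q ^ k ∈ lev q m ↔ m ∣ k := by
  rw [mem_lev_iff]
  have hqk : 1 ≤ q ^ k := Nat.one_le_pow _ _ (Fact.out : q.Prime).pos
  constructor
  · intro h
    obtain ⟨z0, hz0⟩ := exists_primitiveRoot (q := q) hm
    have h1 := h z0 hz0.pow_eq_one
    rw [frob_pow_apply hm hz0.pow_eq_one] at h1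
    have hz0ne : z0 ≠ 0 := hz0.ne_zero (pow_sub_one_ne_zero hm)
    have h2 : z0 ^ (q ^ k - 1) = 1 := by
      have h3 : z0 ^ (q ^ k - 1) * z0 = 1 * z0 := by
        rw [← pow_succ, Nat.sub_add_cancel hqk, h1, one_mul]
      exact mul_right_cancel₀ hz0ne h3
    exact (pow_sub_one_dvd_pow_sub_one_iff (one_lt_q (q := q)) m k hm.ne').mp (hz0.dvd_of_pow_eq_one _ h2)
  · intro h z hz
    rw [frob_pow_apply hm hz]
    have h2 : z ^ (q ^ k - 1) = 1 := by
      obtain ⟨c, hc⟩ := (pow_sub_one_dvd_pow_sub_one_iff (one_lt_q (q := q)) m k hm.ne').mpr h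
      rw [hc, pow_mul, hz, one_pow]
    calc z ^ (q ^ k) = z ^ (q ^ k - 1) * z := by rw [← pow_succ, Nat.sub_add_cancel hqk]
      _ = z := by rw [h2, one_mul]

/-- `Gal(ℚ_q(μ_{q^m-1})/ℚ_q)` is generated by the Frobenius. -/
theorem exists_frob_pow {m : ℕ} (hm : 0 < m) (g : Gq) :
    ∃ k : ℕ, (frob q ^ k)⁻¹ * g ∈ lev q m := by
  haveI := isGalois_unrField (q := q) hm
  haveI := finiteDimensional_unrField (q := q) hm
  set r := AlgEquiv.restrictNormalHom (F := ℚ_[q]) (K₁ := Ω) (unrField q m) with hr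
  have hker : r.ker = lev q m := IntermediateField.restrictNormalHom_ker _
  have hpow : ∀ k : ℕ, r (frob q) ^ k = 1 ↔ m ∣ k := by
    intro k
    rw [← map_pow, ← MonoidHom.mem_ker, hker, frob_pow_mem_lev_iff hm]
  have hord : orderOf (r (frob q)) = m := by
    apply Nat.dvd_antisymm
    · exact orderOf_dvd_of_pow_eq_one ((hpow m).mpr dvd_rfl)
    · exact (hpow _).mp (pow_orderOf_eq_one _)
  have hcard : Nat.card (unrField q m ≃ₐ[ℚ_[q]] unrField q m) = m := by
    rw [IsGalois.card_aut_eq_finrank, finrank_unrField hm]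
  have htop : Subgroup.zpowers (r (frob q)) = ⊤ := by
    apply Subgroup.eq_top_of_card_eq
    rw [Nat.card_zpowers, hord, hcard]
  have hmem : r g ∈ Subgroup.zpowers (r (frob q)) := by rw [htop]; trivial
  rw [← mem_powers_iff_mem_zpowers] at hmem
  obtain ⟨k, hk⟩ := hmem
  have hk' : r (frob q) ^ k = r g := hk
  refine ⟨k, ?_⟩
  rw [← hker, MonoidHom.mem_ker, map_mul, map_inv, map_pow, hk', inv_mul_cancel]


/-! ### The maximal unramified extension and cofinality -/

variable (q) in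
/-- `ℚ_q^{unr}`: generated by all roots of unity of order prime to `q`. -/
noncomputable def unrTop : IntermediateField ℚ_[q] Ω :=
  IntermediateField.adjoin ℚ_[q] {x : Ω | ∃ n : ℕ, 0 < n ∧ x ^ (q ^ n - 1) = 1}

theorem unrField_le_unrTop {n : ℕ} (hn : 0 < n) : unrField q n ≤ unrTop q :=
  IntermediateField.adjoin.mono _ _ _ fun _ hx => ⟨n, hn, hx⟩

theorem mem_unrTop_iff (x : Ω) : x ∈ unrTop q ↔ ∃ n : ℕ, 0 < n ∧ x ∈ unrField q n := by
  constructor
  · intro hx
    induction hx using IntermediateField.adjoin_induction with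
    | mem x hx =>
      obtain ⟨n, hn, hx⟩ := hx
      exact ⟨n, hn, IntermediateField.subset_adjoin _ _ hx⟩
    | algebraMap x => exact ⟨1, one_pos, IntermediateField.algebraMap_mem _ x⟩
    | add x y _ _ hx hy =>
      obtain ⟨a, ha, hx⟩ := hx
      obtain ⟨b, hb, hy⟩ := hy
      exact ⟨a * b, Nat.mul_pos ha hb, add_mem (unrField_le_of_dvd (Dvd.intro _ rfl) hx)
        (unrField_le_of_dvd (Dvd.intro_left _ rfl) hy)⟩
    | inv x _ hx =>
      obtain ⟨a, ha, hx⟩ := hx
      exact ⟨a, ha, inv_mem hx⟩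
    | mul x y _ _ hx hy =>
      obtain ⟨a, ha, hx⟩ := hx
      obtain ⟨b, hb, hy⟩ := hy
      exact ⟨a * b, Nat.mul_pos ha hb, mul_mem (unrField_le_of_dvd (Dvd.intro _ rfl) hx)
        (unrField_le_of_dvd (Dvd.intro_left _ rfl) hy)⟩
  · rintro ⟨n, hn, hx⟩
    exact unrField_le_unrTop hn hx

theorem mem_fixingSubgroup_unrTop_iff (σ : Gq) :
    σ ∈ (unrTop q).fixingSubgroup ↔ ∀ n : ℕ, 0 < n → σ ∈ lev q n := by
  constructor
  · intro h n hn
    exact IntermediateField.fixingSubgroup_antitone (unrField_le_unrTop hn) h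
  · intro h
    rw [IntermediateField.mem_fixingSubgroup_iff]
    intro x hx
    obtain ⟨n, hn, hx⟩ := (mem_unrTop_iff x).mp hx
    have := h n hn
    rw [lev, IntermediateField.mem_fixingSubgroup_iff] at this
    exact this x hx

/-- **Cofinality of the unramified levels modulo inertia.**  For every finite `E/ℚ_q` there is
`m > 0` such that every `g` fixing `ℚ_q(μ_{q^m-1})` is a product `i * u` with `i` fixing all roots
of unity of order prime to `q` and `u` fixing `E`. -/
theorem exists_lev_le (E : IntermediateField ℚ_[q] Ω) [FiniteDimensional ℚ_[q] E] :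
    ∃ m : ℕ, 0 < m ∧ ∀ g ∈ lev q m,
      ∃ i : Gq, (∀ n : ℕ, 0 < n → i ∈ lev q n) ∧ i⁻¹ * g ∈ E.fixingSubgroup := by
  classical
  have hN : Normal ℚ_[q] (IntermediateField.normalClosure ℚ_[q] E Ω) :=
    normalClosure.normal ℚ_[q] E Ω
  have hS : Algebra.IsSeparable ℚ_[q] (IntermediateField.normalClosure ℚ_[q] E Ω) :=
    Algebra.isSeparable_tower_bot_of_isSeparable ℚ_[q] _ Ω
  have hG : IsGalois ℚ_[q] (IntermediateField.normalClosure ℚ_[q] E Ω) := ⟨⟩
  set N := IntermediateField.normalClosure ℚ_[q] E Ω with hNdef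
  haveI : FiniteDimensional ℚ_[q] N := inferInstance
  haveI hU'n : (N.fixingSubgroup).Normal := inferInstance
  set H := (unrTop q).fixingSubgroup with hH
  set V := H ⊔ N.fixingSubgroup with hV
  have hVopen : IsOpen (V : Set Gq) :=
    Subgroup.isOpen_mono (le_sup_right : N.fixingSubgroup ≤ V) (N.fixingSubgroup_isOpen)
  have hVclosed : IsClosed (V : Set Gq) := Subgroup.isClosed_of_isOpen V hVopen
  have hVfix : (IntermediateField.fixedField V).fixingSubgroup = V :=
    InfiniteGalois.fixingSubgroup_fixedField ⟨V, hVclosed⟩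
  set F := IntermediateField.fixedField V with hF
  have hFN : F ≤ N := by
    have h1 : F ≤ IntermediateField.fixedField N.fixingSubgroup :=
      IntermediateField.fixedField_antitone le_sup_right
    rwa [InfiniteGalois.fixedField_fixingSubgroup] at h1
  have hFtop : F ≤ unrTop q := by
    have h1 : F ≤ IntermediateField.fixedField H :=
      IntermediateField.fixedField_antitone le_sup_left
    rwa [hH, InfiniteGalois.fixedField_fixingSubgroup] at h1
  haveI : FiniteDimensional ℚ_[q] F :=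
    FiniteDimensional.of_injective (IntermediateField.inclusion hFN).toLinearMap
      (IntermediateField.inclusion hFN).injective
  obtain ⟨S, hS⟩ := (Module.Finite.fg_top : (⊤ : Submodule ℚ_[q] F).FG)
  choose n hn0 hn using fun s : F => (mem_unrTop_iff (s : Ω)).mp (hFtop s.2)
  have hm : 0 < ∏ s ∈ S, n s := Finset.prod_pos fun s _ => hn0 s
  have hall : ∀ x : F, (x : Ω) ∈ unrField q (∏ s ∈ S, n s) := by
    intro x
    have hx : x ∈ Submodule.span ℚ_[q] (S : Set F) := by rw [hS]; trivial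
    induction hx using Submodule.span_induction with
    | mem s hs => exact unrField_le_of_dvd (Finset.dvd_prod_of_mem n hs) (hn s)
    | zero => exact zero_mem _
    | add x y _ _ hx hy => exact add_mem hx hy
    | smul a x _ hx =>
      have : ((a • x : F) : Ω) = a • (x : Ω) := rfl
      rw [this]
      exact (unrField q (∏ s ∈ S, n s)).smul_mem hx
  have hFle : F ≤ unrField q (∏ s ∈ S, n s) := fun x hx => hall ⟨x, hx⟩
  refine ⟨∏ s ∈ S, n s, hm, fun g hg => ?_⟩
  have hgV : g ∈ V := by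
    rw [← hVfix]
    exact IntermediateField.fixingSubgroup_antitone hFle hg
  have hgV' : g ∈ ((H ⊔ N.fixingSubgroup : Subgroup Gq) : Set Gq) := hgV
  rw [Subgroup.mul_normal, Set.mem_mul] at hgV'
  obtain ⟨h, hh, u, hu, rfl⟩ := hgV'
  refine ⟨h, (mem_fixingSubgroup_unrTop_iff h).mp hh, ?_⟩
  rw [inv_mul_cancel_left]
  exact IntermediateField.fixingSubgroup_antitone (IntermediateField.le_normalClosure E) hu

end Fermat.Agent.S56x.Local.UnrLevels
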