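import Mathlib
import Fermat.Agent.S56x.Local.LocalInertia
import Fermat.Agent.S56x.Local.UnrLevels
import Fermat.Agent.S56x.Local.PadicInertia
import Fermat.Prelude.Def_ExtCitation_KummerBridge
import Fermat.Prelude.Def_ExtEndgame_ProductionDatum

/-!
# P-S56, block (C), strict-ordinary count at `p`, leaf (SOT-3): the inertia group at `p` moves `μ_p`

For an odd prime `p` the inertia subgroup of the place `padicPlace p` of `Qbar` is not contained
in the kernel of the mod `p` cyclotomic character: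

* `norm_one_sub_pow` : `‖1 - ζ‖ ^ (p - 1) = 1 / p` for a primitive `p`-th root of unity `ζ` of
  `PadicAlgCl p`; `norm_one_sub_lt_one`, `inv_lt_norm_one_sub` (`1/p < ‖1 - ζ‖ < 1`, `p` odd);
* `not_mem_unrField` : `ζ ∉ ℚ_p(μ_{p^n-1})` (the unramified extensions): otherwise `ζ - 1`, an
  element of the maximal ideal, would be divisible by `p` (`Local/PadicInertia.inertia_fixed_dvd`,
  the inertia group of an extension generated by roots of unity of order prime to `p` being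
  trivial);
* `exists_mem_localInertia'_apply_ne` : some element of the local inertia group moves `ζ`
  (infinite Galois correspondence for `ℚ_p^{unr} = unrTop p` and the characterisation
  `Local/LocalInertia.mem_localInertia_iff` of inertia);
* `exists_inertia_apply_ne`, `exists_inertia_cycloChar_ne_one`, `exists_inertia_rootOfUnity_ne` :
  the global forms, for `padicPlace p` and `primeLocalPlace (pPrime p)`.
-/

set_option autoImplicit false
set_option linter.style.haveILetI false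

open scoped NNReal Pointwise
open Polynomial

namespace Fermat.Agent.S56x.Local.CycloInertiaP

variable (p : ℕ) [Fact p.Prime]

local notation "Ω" => PadicAlgCl p
local notation "Gp" => (PadicAlgCl p ≃ₐ[ℚ_[p]] PadicAlgCl p)

/-! ### The norm of `1 - ζ_p` -/

theorem norm_eq_one_of_pow_eq_one {z : Ω} {n : ℕ} (hn : n ≠ 0) (hz : z ^ n = 1) : ‖z‖ = 1 := by
  have h1 : ‖z‖ ^ n = 1 := by rw [← norm_pow, hz, norm_one]
  exact (pow_eq_one_iff_of_nonneg (norm_nonneg z) hn).mp h1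

theorem norm_geom_sum_le_one {z : Ω} (hz : ‖z‖ = 1) (a : ℕ) :
    ‖∑ i ∈ Finset.range a, z ^ i‖ ≤ 1 := by
  apply IsUltrametricDist.norm_sum_le_of_forall_le_of_nonneg zero_le_one
  intro i _
  rw [norm_pow, hz, one_pow]

/-- For two primitive `p`-th roots of unity, `‖1 - μ‖ ≤ ‖1 - ζ‖`. -/
theorem norm_one_sub_le {ζ μ : Ω} (hζ : IsPrimitiveRoot ζ p) (hμ : μ ^ p = 1) :
    ‖1 - μ‖ ≤ ‖1 - ζ‖ := by
  have hp : p.Prime := Fact.out
  obtain ⟨a, -, rfl⟩ := hζ.eq_pow_of_pow_eq_one hμ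
  have h1 : 1 - ζ ^ a = (1 - ζ) * ∑ i ∈ Finset.range a, ζ ^ i := by
    have := mul_geom_sum ζ a
    linear_combination this
  rw [h1, norm_mul]
  have h2 := norm_geom_sum_le_one p (norm_eq_one_of_pow_eq_one p hp.ne_zero hζ.pow_eq_one) a
  calc ‖1 - ζ‖ * ‖∑ i ∈ Finset.range a, ζ ^ i‖ ≤ ‖1 - ζ‖ * 1 :=
        mul_le_mul_of_nonneg_left h2 (norm_nonneg _)
    _ = ‖1 - ζ‖ := mul_one _

theorem norm_natCast_p : ‖((p : ℕ) : Ω)‖ = (p : ℝ)⁻¹ := by
  have h := PadicAlgCl.norm_extends p ((p : ℕ) : ℚ_[p])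
  rw [Padic.norm_p] at h
  rw [← h, map_natCast]

/-- `‖1 - ζ‖ ^ (p - 1) = 1 / p` for a primitive `p`-th root of unity `ζ`. -/
theorem norm_one_sub_pow {ζ : Ω} (hζ : IsPrimitiveRoot ζ p) :
    ‖1 - ζ‖ ^ (p - 1) = (p : ℝ)⁻¹ := by
  have hp : p.Prime := Fact.out
  have h1 : ((p : ℕ) : Ω) = ∏ μ ∈ primitiveRoots p Ω, (1 - μ) := by
    have h2 := cyclotomic_eq_prod_X_sub_primitiveRoots (K := Ω) hζ
    have h3 := congrArg (eval 1) h2
    rw [eval_one_cyclotomic_prime, eval_prod] at h3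
    rw [h3]
    refine Finset.prod_congr rfl fun μ _ => ?_
    simp
  rw [← norm_natCast_p, h1, norm_prod]
  have h4 : ∀ μ ∈ primitiveRoots p Ω, ‖1 - μ‖ = ‖1 - ζ‖ := by
    intro μ hμ
    have hμ' : IsPrimitiveRoot μ p := (mem_primitiveRoots hp.pos).mp hμ
    exact le_antisymm (norm_one_sub_le p hζ hμ'.pow_eq_one) (norm_one_sub_le p hμ' hζ.pow_eq_one)
  rw [Finset.prod_congr rfl h4, Finset.prod_const, hζ.card_primitiveRoots, Nat.totient_prime hp]

theorem norm_one_sub_lt_one {ζ : Ω} (hζ : IsPrimitiveRoot ζ p) : ‖1 - ζ‖ < 1 := by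
  have hp : p.Prime := Fact.out
  by_contra h
  rw [not_lt] at h
  have h1 : 1 ≤ ‖1 - ζ‖ ^ (p - 1) := one_le_pow₀ h
  rw [norm_one_sub_pow p hζ] at h1
  have h2 : (p : ℝ)⁻¹ < 1 := inv_lt_one_of_one_lt₀ (by exact_mod_cast hp.one_lt)
  linarith

theorem inv_lt_norm_one_sub (hp2 : p ≠ 2) {ζ : Ω} (hζ : IsPrimitiveRoot ζ p) :
    (p : ℝ)⁻¹ < ‖1 - ζ‖ := by
  have hp : p.Prime := Fact.out
  have hp3 : 2 ≤ p - 1 := by
    have := hp.two_le
    omega
  by_contra h
  rw [not_lt] at h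
  have hpos : (0 : ℝ) < (p : ℝ)⁻¹ := inv_pos.mpr (by exact_mod_cast hp.pos)
  have hlt1 : (p : ℝ)⁻¹ < 1 := inv_lt_one_of_one_lt₀ (by exact_mod_cast hp.one_lt)
  have h1 : ‖1 - ζ‖ ^ (p - 1) ≤ ((p : ℝ)⁻¹) ^ (p - 1) :=
    pow_le_pow_left₀ (norm_nonneg _) h _
  have h2 : ((p : ℝ)⁻¹) ^ (p - 1) ≤ ((p : ℝ)⁻¹) ^ 2 :=
    pow_le_pow_of_le_one hpos.le hlt1.le hp3
  have h3 : ((p : ℝ)⁻¹) ^ 2 < (p : ℝ)⁻¹ := by
    rw [pow_two]
    calc (p : ℝ)⁻¹ * (p : ℝ)⁻¹ < (p : ℝ)⁻¹ * 1 := mul_lt_mul_of_pos_left hlt1 hpos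
      _ = (p : ℝ)⁻¹ := mul_one _
  rw [norm_one_sub_pow p hζ] at h1
  linarith


/-! ### `ζ_p` does not lie in an unramified extension -/

open IsLocalRing Fermat.Agent.S56x.Local.PadicFinite

theorem padicIntegers_liesOverPrime : (padicIntegers p).LiesOverPrime p := by
  show ((p : ℕ) : Ω) ∈ (padicIntegers p).nonunits
  rw [ValuationSubring.mem_nonunits_iff]
  refine ((Valuation.isEquiv_valuation_valuationSubring
    (Valued.v : Valuation Ω ℝ≥0)).lt_one_iff_lt_one).mp ?_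
  show ‖((p : ℕ) : Ω)‖₊ < 1
  rw [← NNReal.coe_lt_coe, coe_nnnorm, norm_natCast_p, NNReal.coe_one]
  exact inv_lt_one_of_one_lt₀ (by exact_mod_cast (Fact.out : p.Prime).one_lt)

theorem mem_nonunits_padicIntegers_iff (x : Ω) : x ∈ (padicIntegers p).nonunits ↔ ‖x‖ < 1 := by
  rw [ValuationSubring.mem_nonunits_iff]
  rw [← ((Valuation.isEquiv_valuation_valuationSubring
    (Valued.v : Valuation Ω ℝ≥0)).lt_one_iff_lt_one)]
  show ‖x‖₊ < 1 ↔ ‖x‖ < 1
  rw [← NNReal.coe_lt_coe, coe_nnnorm, NNReal.coe_one]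

/-- Two roots of unity of order prime to `p` which are congruent modulo the maximal ideal are
equal. -/
theorem eq_of_norm_sub_lt_one {N : ℕ} (hN : ¬ p ∣ N) {z w : Ω} (hz : z ^ N = 1) (hw : w ^ N = 1)
    (h : ‖z - w‖ < 1) : z = w :=
  Fermat.Agent.Gateway.S31Red.rootOfUnity_eq_of_sub_mem_nonunits (padicIntegers p)
    (Fermat.Agent.Gateway.S31Red.natCast_not_mem_nonunits (padicIntegers p) (Fact.out : p.Prime)
      (padicIntegers_liesOverPrime p) hN) hz hw ((mem_nonunits_padicIntegers_iff p _).mpr h)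

/-- A primitive `p`-th root of unity (`p` odd) does not lie in the unramified extension
`ℚ_p(μ_{p^n-1})`. -/
theorem not_mem_unrField (hp2 : p ≠ 2) {ζ : Ω} (hζ : IsPrimitiveRoot ζ p) {n : ℕ} (hn : 0 < n) :
    ζ ∉ UnrLevels.unrField p n := by
  intro hmem
  haveI := UnrLevels.finiteDimensional_unrField (q := p) hn
  haveI := UnrLevels.isGalois_unrField (q := p) hn
  haveI : Normal ℚ_[p] (UnrLevels.unrField p n) := IsGalois.to_normal
  -- `y = ζ - 1` as an element of `O_E`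
  let yE : UnrLevels.unrField p n := ⟨ζ, hmem⟩ - 1
  have hyE : ((yE : UnrLevels.unrField p n) : Ω) = ζ - 1 := rfl
  have hyn : ‖yE‖ = ‖1 - ζ‖ := by
    rw [← norm_sub_rev]
    rfl
  have hy1 : yE ∈ OE p (UnrLevels.unrField p n) := by
    rw [mem_OE, hyn]
    exact (norm_one_sub_lt_one p hζ).le
  have hy : (⟨yE, hy1⟩ : OE p (UnrLevels.unrField p n)) ∈
      maximalIdeal (OE p (UnrLevels.unrField p n)) := by
    rw [mem_maximalIdeal, mem_nonunits_iff, isUnit_iff_norm_eq_one]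
    show ¬ ‖yE‖ = 1
    rw [hyn]
    exact (norm_one_sub_lt_one p hζ).ne
  have hfix : ∀ σ : (UnrLevels.unrField p n) ≃ₐ[ℚ_[p]] (UnrLevels.unrField p n),
      (∀ b : OE p (UnrLevels.unrField p n), σ • b - b ∈
        maximalIdeal (OE p (UnrLevels.unrField p n))) →
      σ • (⟨yE, hy1⟩ : OE p (UnrLevels.unrField p n)) = ⟨yE, hy1⟩ := by
    intro σ hσ
    obtain ⟨τ, rfl⟩ := restrict_surjective p (UnrLevels.unrField p n) σ
    have hτ : τ ∈ UnrLevels.lev p n := by
      rw [UnrLevels.mem_lev_iff]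
      intro z hz
      have hzE : z ∈ UnrLevels.unrField p n := IntermediateField.subset_adjoin _ _ hz
      have hN0 : p ^ n - 1 ≠ 0 := UnrLevels.pow_sub_one_ne_zero (q := p) hn
      have hz1 : ‖z‖ = 1 := norm_eq_one_of_pow_eq_one p hN0 hz
      have hzO : (⟨z, hzE⟩ : UnrLevels.unrField p n) ∈ OE p (UnrLevels.unrField p n) := by
        rw [mem_OE]
        exact hz1.le
      have h1 := hσ ⟨⟨z, hzE⟩, hzO⟩
      rw [mem_maximalIdeal, mem_nonunits_iff, isUnit_iff_norm_eq_one] at h1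
      have h2 : ‖τ z - z‖ ≤ 1 := by
        calc ‖τ z - z‖ ≤ max ‖τ z‖ ‖z‖ := LocalInertia.norm_sub_le_max' p _ _
          _ = 1 := by rw [LocalInertia.norm_algEquiv_apply, max_self, hz1]
      have h3 : ‖τ z - z‖ < 1 := by
        refine lt_of_le_of_ne h2 fun h4 => h1 ?_
        have h5 : (((AlgEquiv.restrictNormalHom (UnrLevels.unrField p n) τ •
            (⟨⟨z, hzE⟩, hzO⟩ : OE p (UnrLevels.unrField p n)) - ⟨⟨z, hzE⟩, hzO⟩ :
            OE p (UnrLevels.unrField p n)) : UnrLevels.unrField p n) : Ω) = τ z - z := by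
          rw [AddSubgroupClass.coe_sub, coe_smul_OE]
          show ((AlgEquiv.restrictNormalHom (UnrLevels.unrField p n) τ ⟨z, hzE⟩ :
            UnrLevels.unrField p n) : Ω) - z = τ z - z
          rw [AlgEquiv.restrictNormalHom_apply]
        show ‖(((AlgEquiv.restrictNormalHom (UnrLevels.unrField p n) τ •
            (⟨⟨z, hzE⟩, hzO⟩ : OE p (UnrLevels.unrField p n)) - ⟨⟨z, hzE⟩, hzO⟩ :
            OE p (UnrLevels.unrField p n)) : UnrLevels.unrField p n) : Ω)‖ = 1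
        rw [h5, h4]
      refine eq_of_norm_sub_lt_one p (LocalInertia.not_dvd_pow_sub_one p hn) ?_ hz h3
      rw [← map_pow, hz, map_one]
    apply Subtype.ext
    apply Subtype.ext
    rw [coe_smul_OE]
    show ((AlgEquiv.restrictNormalHom (UnrLevels.unrField p n) τ yE : UnrLevels.unrField p n) : Ω)
      = (yE : Ω)
    rw [AlgEquiv.restrictNormalHom_apply]
    exact (IntermediateField.mem_fixingSubgroup_iff _ τ).mp hτ _ yE.2
  obtain ⟨c, hc⟩ := PadicInertia.inertia_fixed_dvd _ hy hfix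
  have hnorm : ‖yE‖ ≤ (p : ℝ)⁻¹ := by
    have h1 := congrArg (fun z : OE p (UnrLevels.unrField p n) =>
      ‖(z : UnrLevels.unrField p n)‖) hc
    simp only [MulMemClass.coe_mul, norm_mul] at h1
    have h2 : ‖(((p : ℕ) : OE p (UnrLevels.unrField p n)) : UnrLevels.unrField p n)‖
        = (p : ℝ)⁻¹ := by
      have : (((p : ℕ) : OE p (UnrLevels.unrField p n)) : UnrLevels.unrField p n) =
          ((p : ℕ) : UnrLevels.unrField p n) := by simp
      rw [this]
      exact PadicFinite.norm_natCast_p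
    rw [h2] at h1
    have h3 : ‖(c : UnrLevels.unrField p n)‖ ≤ 1 := norm_le_one c
    have hpos : (0 : ℝ) < (p : ℝ)⁻¹ := inv_pos.mpr (by exact_mod_cast (Fact.out : p.Prime).pos)
    calc ‖yE‖ = (p : ℝ)⁻¹ * ‖(c : UnrLevels.unrField p n)‖ := h1
      _ ≤ (p : ℝ)⁻¹ * 1 := mul_le_mul_of_nonneg_left h3 hpos.le
      _ = (p : ℝ)⁻¹ := mul_one _
  rw [hyn] at hnorm
  exact absurd (inv_lt_norm_one_sub p hp2 hζ) (not_lt.mpr hnorm)


/-! ### An inertia element moving `ζ_p` -/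

/-- Some element of the inertia subgroup of the local Galois group moves `ζ_p` (`p` odd). -/
theorem exists_mem_localInertia'_apply_ne (hp2 : p ≠ 2) {ζ : Ω} (hζ : IsPrimitiveRoot ζ p) :
    ∃ σ ∈ LocalInertia.localInertia' p, σ ζ ≠ ζ := by
  by_contra hcon0
  have hcon : ∀ σ ∈ LocalInertia.localInertia' p, σ ζ = ζ := fun σ hσ =>
    by_contra fun h => hcon0 ⟨σ, hσ, h⟩
  have h1 : ζ ∈ IntermediateField.fixedField (UnrLevels.unrTop p).fixingSubgroup := by
    rw [IntermediateField.mem_fixedField_iff]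
    intro σ hσ
    apply hcon
    rw [LocalInertia.mem_localInertia_iff]
    intro n hn z hz
    have := (UnrLevels.mem_fixingSubgroup_unrTop_iff σ).mp hσ n hn
    exact (UnrLevels.mem_lev_iff σ).mp this z hz
  rw [InfiniteGalois.fixedField_fixingSubgroup] at h1
  obtain ⟨n, hn, hmem⟩ := (UnrLevels.mem_unrTop_iff ζ).mp h1
  exact not_mem_unrField p hp2 hζ hn hmem

local notation "Qbar" => AlgebraicClosure ℚ
local notation "Γℚ" => (AlgebraicClosure ℚ ≃ₐ[ℚ] AlgebraicClosure ℚ)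

/-- **The inertia group at `p` moves `μ_p`** (`p` odd), for the place `padicPlace p`. -/
theorem exists_inertia_apply_ne (hp2 : p ≠ 2) :
    ∃ σ ∈ (padicPlace p).inertiaSubgroupIn ℚ, ∃ μ : Qbar, μ ^ p = 1 ∧ σ μ ≠ μ := by
  have hp : p.Prime := Fact.out
  haveI : NeZero p := ⟨hp.ne_zero⟩
  haveI : NeZero (p : ℚ) := ⟨by exact_mod_cast hp.ne_zero⟩
  haveI : HasEnoughRootsOfUnity Qbar p := AlgebraicClosure.hasEnoughRootsOfUnity ℚ p
  obtain ⟨μ, hμ⟩ := HasEnoughRootsOfUnity.exists_primitiveRoot Qbar p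
  have hζ : IsPrimitiveRoot (padicEmbedding p μ) p :=
    hμ.map_of_injective (padicEmbedding p).toRingHom.injective
  obtain ⟨σ, hσ, hne⟩ := exists_mem_localInertia'_apply_ne p hp2 hζ
  refine ⟨localGaloisToGlobal p σ, hσ, μ, hμ.pow_eq_one, fun h => hne ?_⟩
  rw [← padicEmbedding_localGaloisToGlobal, h]

/-- A Galois automorphism in the kernel of the mod `p` cyclotomic character fixes `μ_p`. -/
theorem apply_eq_of_cycloChar_eq_one {σ : Γℚ} (hσ : ExtCitation.cycloChar p σ = 1) {μ : Qbar}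
    (hμ : μ ^ p = 1) : σ μ = μ := by
  have hp : p.Prime := Fact.out
  haveI : NeZero p := ⟨hp.ne_zero⟩
  have hμ0 : μ ≠ 0 := by
    rintro rfl
    rw [zero_pow hp.ne_zero] at hμ
    exact zero_ne_one hμ
  have hmem : Units.mk0 μ hμ0 ∈ rootsOfUnity p Qbar := by
    rw [mem_rootsOfUnity]
    apply Units.ext
    rw [Units.val_pow_eq_pow_val, Units.val_mk0, hμ, Units.val_one]
  have h := modularCyclotomicCharacter.spec Qbar (ExtCitation.card_rootsOfUnity_eq_self p)
    (σ : Qbar ≃+* Qbar) hmem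
  rw [Units.val_mk0] at h
  have h1 : modularCyclotomicCharacter Qbar (ExtCitation.card_rootsOfUnity_eq_self p)
      (σ : Qbar ≃+* Qbar) = 1 := hσ
  rw [h1] at h
  have h3 : ((1 : (ZMod p)ˣ) : ZMod p).val = 1 := by
    rw [Units.val_one, ZMod.val_one_eq_one_mod, Nat.one_mod_eq_one]
    exact hp.ne_one
  rw [h3, pow_one] at h
  exact h

/-- **(SOT-3) The inertia group at `p` is not killed by the mod `p` cyclotomic character**
(`p` odd), in the `Nat.Primes`-indexed form of the Prelude. -/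
theorem exists_inertia_cycloChar_ne_one (hp2 : p ≠ 2) :
    ∃ σ ∈ (ExtCitation.primeLocalPlace (ExtCitation.pPrime p)).inertiaSubgroupIn ℚ,
      ExtCitation.cycloChar p σ ≠ 1 := by
  obtain ⟨σ, hσ, μ, hμ, hne⟩ := exists_inertia_apply_ne p hp2
  exact ⟨σ, hσ, fun h => hne (apply_eq_of_cycloChar_eq_one p h hμ)⟩

/-- The same, exhibiting a `p`-th root of unity which is moved. -/
theorem exists_inertia_rootOfUnity_ne (hp2 : p ≠ 2) :
    ∃ σ ∈ (ExtCitation.primeLocalPlace (ExtCitation.pPrime p)).inertiaSubgroupIn ℚ,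
      ∃ μ : Qbar, μ ^ p = 1 ∧ σ μ ≠ μ :=
  exists_inertia_apply_ne p hp2

end Fermat.Agent.S56x.Local.CycloInertiaP
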