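import Mathlib
import Fermat.Agent.S53.Burnside
import Fermat.Agent.S53.MatrixRep

/-!
# P-S56, block (C): global invariants of `ad⁰ ρbar` and of its twists

Matrix level.  Let `rbar : G →* M₂(k)`.

* `eq_smul_one_of_commute` : if the `rbar σ` span `M₂(k)` (Burnside), a matrix commuting with all
  `rbar σ` is scalar; `eq_zero_of_trace_zero_of_commute` : hence `H⁰(G, ad⁰) = 0` if `2 ≠ 0`.
* `eq_zero_of_twisted_invariant` : for any character `ψ : G →* kˣ`, a trace-zero `Z` with
  `rbar σ * Z = ψ σ • (Z * rbar σ)` for all `σ` vanishes, provided that `rbar` restricted to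
  every subgroup of index `≤ 2` has no stable line over the algebraic closure
  (`H⁰(G, ad⁰ ⊗ ψ) = 0`, in particular `H⁰(G_ℚ, ad⁰(1)) = 0`).
-/

set_option autoImplicit false

namespace Fermat.Agent.S56x.Local.GlobalH0

open Matrix Module

local notation "M₂" => Matrix (Fin 2) (Fin 2)

variable {k : Type} [Field k] {G : Type} [Group G]

/-! ### Untwisted invariants -/

/-- If the `rbar σ` span the matrix algebra, the centraliser of `rbar` consists of scalars. -/
theorem eq_smul_one_of_commute (rbar : G →* M₂ k)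
    (hspan : Submodule.span k (Set.range rbar) = ⊤) (Z : M₂ k)
    (hZ : ∀ σ, rbar σ * Z = Z * rbar σ) : ∃ a : k, Z = a • (1 : M₂ k) := by
  -- the commutant of `Z` is a submodule containing the image of `rbar`
  let C : Submodule k (M₂ k) :=
    { carrier := {Y | Y * Z = Z * Y}
      add_mem' := by
        intro Y Y' hY hY'
        show (Y + Y') * Z = Z * (Y + Y')
        rw [Matrix.add_mul, Matrix.mul_add, hY, hY']
      zero_mem' := by
        show (0 : M₂ k) * Z = Z * 0
        rw [Matrix.zero_mul, Matrix.mul_zero]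
      smul_mem' := by
        intro a Y hY
        show (a • Y) * Z = Z * (a • Y)
        rw [Matrix.smul_mul, Matrix.mul_smul, hY] }
  have hC : C = ⊤ := by
    refine top_le_iff.mp ?_
    rw [← hspan]
    refine Submodule.span_le.mpr ?_
    rintro _ ⟨σ, rfl⟩
    exact hZ σ
  have hall : ∀ Y : M₂ k, Y * Z = Z * Y := fun Y => by
    have : Y ∈ C := by rw [hC]; exact Submodule.mem_top
    exact this
  have hmem : Z ∈ Set.range (Matrix.scalar (Fin 2) : k →+* M₂ k) :=
    Matrix.mem_range_scalar_iff_commute_single'.mpr fun i j => hall _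
  obtain ⟨a, ha⟩ := hmem
  refine ⟨a, ?_⟩
  rw [← ha, Matrix.smul_one_eq_diagonal]
  rfl

/-- `H⁰(G, ad⁰) = 0`: a trace-zero matrix commuting with an (absolutely) irreducible `rbar`
vanishes (`2 ≠ 0`). -/
theorem eq_zero_of_trace_zero_of_commute (h2 : (2 : k) ≠ 0) (rbar : G →* M₂ k)
    (hspan : Submodule.span k (Set.range rbar) = ⊤) (Z : M₂ k) (htr : Z.trace = 0)
    (hZ : ∀ σ, rbar σ * Z = Z * rbar σ) : Z = 0 := by
  obtain ⟨a, rfl⟩ := eq_smul_one_of_commute rbar hspan Z hZ
  rw [Matrix.trace_smul, Matrix.trace_one, Fintype.card_fin, smul_eq_mul] at htr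
  have ha : a = 0 := by
    rcases mul_eq_zero.mp htr with h | h
    · exact h
    · exact absurd (by exact_mod_cast h) h2
  rw [ha, zero_smul]


/-! ### Twisted invariants -/

section Twisted

/-- The base change of `rbar` to the algebraic closure. -/
noncomputable def rK (rbar : G →* M₂ k) (σ : G) : M₂ (AlgebraicClosure k) :=
  (rbar σ).map (algebraMap k (AlgebraicClosure k))

theorem rK_mul (rbar : G →* M₂ k) (σ τ : G) : rK rbar (σ * τ) = rK rbar σ * rK rbar τ := by
  unfold rK
  rw [map_mul, Matrix.map_mul]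

theorem rK_one (rbar : G →* M₂ k) : rK rbar 1 = 1 := by
  unfold rK
  rw [map_one, Matrix.map_one _ (map_zero _) (map_one _)]

theorem rK_mul_inv (rbar : G →* M₂ k) (σ : G) : rK rbar σ * rK rbar σ⁻¹ = 1 := by
  rw [← rK_mul, mul_inv_cancel, rK_one]

theorem rK_inv_mul (rbar : G →* M₂ k) (σ : G) : rK rbar σ⁻¹ * rK rbar σ = 1 := by
  rw [← rK_mul, inv_mul_cancel, rK_one]

/-- `rbar` restricted to `G'` has no stable line over the algebraic closure. -/
def NoStableLine (rbar : G →* M₂ k) (G' : Subgroup G) : Prop :=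
  ∀ W : Submodule (AlgebraicClosure k) (Fin 2 → AlgebraicClosure k),
    (∀ σ ∈ G', ∀ x ∈ W, (rK rbar σ).mulVec x ∈ W) → W = ⊥ ∨ W = ⊤

/-- A character with values in `{1, -1}` has kernel of index at most two. -/
theorem ker_eq_top_or_index_eq_two (ψ : G →* kˣ) (hψ : ∀ σ, ψ σ = 1 ∨ ψ σ = -1) :
    ψ.ker = ⊤ ∨ ψ.ker.index = 2 := by
  have hsub : (ψ.range : Set kˣ) ⊆ {1, -1} := by
    rintro _ ⟨σ, rfl⟩
    rcases hψ σ with h | h
    · rw [h]; exact Set.mem_insert _ _
    · rw [h]; exact Set.mem_insert_of_mem _ rfl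
  have hfin : ({1, -1} : Set kˣ).Finite := Set.toFinite _
  have h1 : Nat.card ψ.range ≤ 2 := by
    rw [← SetLike.coe_sort_coe, Nat.card_coe_set_eq]
    refine (Set.ncard_le_ncard hsub hfin).trans ?_
    exact (Set.ncard_insert_le _ _).trans (by rw [Set.ncard_singleton])
  have : Finite ψ.range := (hfin.subset hsub).to_subtype
  have h0 : 0 < Nat.card ψ.range := Nat.card_pos
  rw [Subgroup.index_ker]
  have : Nat.card ψ.range = 1 ∨ Nat.card ψ.range = 2 := by omega
  rcases this with h | h
  · left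
    rw [← Subgroup.index_eq_one, Subgroup.index_ker, h]
  · right
    exact h

/-- The square of a trace-zero `2 × 2` matrix is scalar. -/
theorem mul_self_of_trace_zero {K : Type} [Field K] (Z : M₂ K) (htr : Z.trace = 0) :
    Z * Z = (-Z.det) • (1 : M₂ K) := by
  rw [Matrix.trace_fin_two] at htr
  have h11 : Z 1 1 = -Z 0 0 := eq_neg_of_add_eq_zero_right htr
  ext i j
  fin_cases i <;> fin_cases j <;>
    simp [Matrix.mul_apply, Fin.sum_univ_two, Matrix.det_fin_two, h11] <;> ring

/-- **`H⁰(G, ad⁰ ⊗ ψ) = 0`.** -/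
theorem eq_zero_of_twisted_invariant (h2 : (2 : k) ≠ 0) (rbar : G →* M₂ k)
    (hNo : ∀ G' : Subgroup G, (G' = ⊤ ∨ G'.index = 2) → NoStableLine rbar G')
    (ψ : G →* kˣ) (Z : M₂ k) (htr : Z.trace = 0)
    (hinv : ∀ σ, rbar σ * Z = ((ψ σ : kˣ) : k) • (Z * rbar σ)) : Z = 0 := by
  classical
  set ι : k →+* AlgebraicClosure k := algebraMap k (AlgebraicClosure k) with hι
  have hιinj : Function.Injective ι := (algebraMap k (AlgebraicClosure k)).injective
  set ZK : M₂ (AlgebraicClosure k) := Z.map ι with hZK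
  have htrK : ZK.trace = 0 := by
    rw [hZK, Matrix.trace_fin_two, Matrix.map_apply, Matrix.map_apply, ← map_add,
      ← Matrix.trace_fin_two, htr, map_zero]
  -- the semi-invariance over `K`
  have hinvK : ∀ σ, rK rbar σ * ZK = ι (ψ σ : k) • (ZK * rK rbar σ) := by
    intro σ
    have h := congrArg (fun Y : M₂ k => Y.map ι) (hinv σ)
    simp only [Matrix.map_mul] at h
    rw [Matrix.map_smul' _ _ _ (map_mul ι), Matrix.map_mul] at h
    exact h
  have hunit : ∀ σ, ι (ψ σ : k) ≠ 0 := fun σ => by
    rw [Ne, map_eq_zero]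
    exact (ψ σ).ne_zero
  have hinvK' : ∀ σ, ZK * rK rbar σ = (ι (ψ σ : k))⁻¹ • (rK rbar σ * ZK) := by
    intro σ
    rw [hinvK σ, smul_smul, inv_mul_cancel₀ (hunit σ), one_smul]
  -- the kernel of `ZK` is stable
  have htop : (⊤ : Subgroup G) = ⊤ ∨ (⊤ : Subgroup G).index = 2 := Or.inl rfl
  have hker := hNo ⊤ htop (LinearMap.ker (Matrix.toLin' ZK)) (by
    intro σ _ x hx
    rw [LinearMap.mem_ker, Matrix.toLin'_apply] at hx ⊢
    rw [Matrix.mulVec_mulVec, hinvK' σ, Matrix.smul_mulVec, ← Matrix.mulVec_mulVec, hx,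
      Matrix.mulVec_zero, smul_zero])
  rcases hker with hbot | htopK
  swap
  · -- `ZK = 0`
    have hZK0 : ZK = 0 := by
      have h0 : Matrix.toLin' ZK = 0 := LinearMap.ker_eq_top.mp htopK
      exact (LinearEquiv.map_eq_zero_iff _).mp h0
    ext i j
    have := congrFun (congrFun hZK0 i) j
    rw [hZK, Matrix.map_apply, Matrix.zero_apply] at this
    rw [Matrix.zero_apply]
    exact hιinj (by rw [this, map_zero])
  · -- `ZK` is injective: derive a contradiction
    exfalso
    obtain ⟨lam, hlam⟩ := Module.End.exists_eigenvalue (Matrix.toLin' ZK)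
    obtain ⟨v, hv⟩ := hlam.exists_hasEigenvector
    have hv0 : v ≠ 0 := hv.2
    have hZv : ZK.mulVec v = lam • v := by
      have := hv.apply_eq_smul
      rwa [Matrix.toLin'_apply] at this
    have hlam0 : lam ≠ 0 := by
      rintro rfl
      rw [zero_smul] at hZv
      have : v ∈ LinearMap.ker (Matrix.toLin' ZK) := by
        rw [LinearMap.mem_ker, Matrix.toLin'_apply, hZv]
      rw [hbot, Submodule.mem_bot] at this
      exact hv0 this
    have hsq := mul_self_of_trace_zero ZK htrK
    -- eigenvalues of `ZK` square to `-det`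
    have heig : ∀ (μ : AlgebraicClosure k) (w : Fin 2 → AlgebraicClosure k), w ≠ 0 → ZK.mulVec w = μ • w → μ * μ = -ZK.det := by
      intro μ w hw hZw
      have h1 : (ZK * ZK).mulVec w = (μ * μ) • w := by
        rw [← Matrix.mulVec_mulVec, hZw, Matrix.mulVec_smul, hZw, smul_smul]
      rw [hsq, Matrix.smul_mulVec, Matrix.one_mulVec] at h1
      by_contra hne
      have h3 : (-ZK.det - μ * μ) • w = 0 := by rw [sub_smul, h1, sub_self]
      rcases smul_eq_zero.mp h3 with h | h
      · exact hne (by linear_combination -h)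
      · exact hw h
    have hlamsq := heig lam v hv0 hZv
    -- `ψ` takes values in `{1, -1}`
    have hψ : ∀ σ, ψ σ = 1 ∨ ψ σ = -1 := by
      intro σ
      have hw0 : (rK rbar σ).mulVec v ≠ 0 := by
        intro h
        have := congrArg (rK rbar σ⁻¹).mulVec h
        rw [Matrix.mulVec_mulVec, rK_inv_mul, Matrix.one_mulVec, Matrix.mulVec_zero] at this
        exact hv0 this
      have hZw : ZK.mulVec ((rK rbar σ).mulVec v) =
          ((ι (ψ σ : k))⁻¹ * lam) • (rK rbar σ).mulVec v := by
        rw [Matrix.mulVec_mulVec, hinvK' σ, Matrix.smul_mulVec, ← Matrix.mulVec_mulVec, hZv,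
          Matrix.mulVec_smul, smul_smul]
      have h1 := heig _ _ hw0 hZw
      rw [← hlamsq] at h1
      have h3 : (ι (ψ σ : k)) * (ι (ψ σ : k)) = 1 := by
        have hc := hunit σ
        have : ((ι (ψ σ : k))⁻¹ * (ι (ψ σ : k))⁻¹) * (lam * lam) = 1 * (lam * lam) := by
          rw [one_mul]; linear_combination h1
        have h4 := mul_right_cancel₀ (mul_ne_zero hlam0 hlam0) this
        rwa [← mul_inv, inv_eq_one] at h4
      have h5 : ((ψ σ : kˣ) : k) * ((ψ σ : kˣ) : k) = 1 := by
        apply hιinj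
        rw [map_mul, h3, map_one]
      have h6 : (((ψ σ : kˣ) : k) - 1) * (((ψ σ : kˣ) : k) + 1) = 0 := by
        linear_combination h5
      rcases mul_eq_zero.mp h6 with h | h
      · left
        exact Units.ext (by rw [Units.val_one]; exact sub_eq_zero.mp h)
      · right
        exact Units.ext (by rw [Units.val_neg, Units.val_one]; exact eq_neg_of_add_eq_zero_left h)
    -- the eigenspace is stable under the kernel of `ψ`
    have hNoker := hNo ψ.ker (ker_eq_top_or_index_eq_two ψ hψ)
    have hstab := hNoker (LinearMap.ker (Matrix.toLin' ZK - lam • LinearMap.id)) (by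
      intro σ hσ x hx
      have hψσ : ψ σ = 1 := MonoidHom.mem_ker.mp hσ
      rw [LinearMap.mem_ker, LinearMap.sub_apply, Matrix.toLin'_apply, LinearMap.smul_apply,
        LinearMap.id_apply, sub_eq_zero] at hx ⊢
      rw [Matrix.mulVec_mulVec, hinvK' σ, hψσ, Units.val_one, map_one, inv_one, one_smul,
        ← Matrix.mulVec_mulVec, hx, Matrix.mulVec_smul])
    have hvmem : v ∈ LinearMap.ker (Matrix.toLin' ZK - lam • LinearMap.id) := by
      rw [LinearMap.mem_ker, LinearMap.sub_apply, Matrix.toLin'_apply, LinearMap.smul_apply,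
        LinearMap.id_apply, hZv, sub_self]
    rcases hstab with hb | ht
    · rw [hb, Submodule.mem_bot] at hvmem
      exact hv0 hvmem
    · -- `ZK = lam • 1`, so the trace is `2 lam ≠ 0`
      have hall : ∀ x : Fin 2 → AlgebraicClosure k, ZK.mulVec x = lam • x := by
        intro x
        have : x ∈ LinearMap.ker (Matrix.toLin' ZK - lam • LinearMap.id) := by
          rw [ht]; exact Submodule.mem_top
        rw [LinearMap.mem_ker, LinearMap.sub_apply, Matrix.toLin'_apply, LinearMap.smul_apply,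
          LinearMap.id_apply, sub_eq_zero] at this
        exact this
      have h00 : ZK 0 0 = lam := by
        have := congrFun (hall (Pi.single 0 1)) 0
        simpa [Matrix.mulVec, dotProduct, Fin.sum_univ_two] using this
      have h11 : ZK 1 1 = lam := by
        have := congrFun (hall (Pi.single 1 1)) 1
        simpa [Matrix.mulVec, dotProduct, Fin.sum_univ_two] using this
      rw [Matrix.trace_fin_two, h00, h11] at htrK
      have h2K : (2 : AlgebraicClosure k) ≠ 0 := by
        have : ι 2 ≠ 0 := by rw [Ne, map_eq_zero]; exact h2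
        rwa [map_ofNat] at this
      have : (2 : AlgebraicClosure k) * lam = 0 := by linear_combination htrK
      rcases mul_eq_zero.mp this with h | h
      · exact h2K h
      · exact hlam0 h

end Twisted


/-! ### The bridge from the hypotheses of S56 (Prelude form) -/

section Bridge

open Fermat.Agent.S53
open scoped TensorProduct

local notation "Γℚ" => (AlgebraicClosure ℚ ≃ₐ[ℚ] AlgebraicClosure ℚ)

variable (ρbar : ResidualGaloisRep k) (rbar : Γℚ →* M₂ k)
  (hrbar : GaloisFactorsThroughFiniteLevel rbar) (e0 : ρbar.Equiv (ofMatRes rbar hrbar))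

/-- The underlying linear equivalence `ρbar.V ≃ k²` of the matrix model. -/
noncomputable def eqv : ρbar.V ≃ₗ[k] (Fin 2 → k) := e0.toLinearEquiv

theorem eqv_apply (σ : Γℚ) (x : ρbar.V) :
    eqv ρbar rbar hrbar e0 (ρbar.ρ σ x) = (rbar σ).mulVec (eqv ρbar rbar hrbar e0 x) :=
  e0.map_apply σ x

/-- `rbar` is the matrix of `ρbar` in the basis transported from the standard one. -/
theorem resMat_eq (σ : Γℚ) :
    resMat ρbar ((Pi.basisFun k (Fin 2)).map (eqv ρbar rbar hrbar e0).symm) σ = rbar σ := by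
  rw [resMat_apply]
  ext i j
  rw [LinearMap.toMatrix_apply, Module.Basis.map_apply, Module.Basis.map_repr,
    LinearEquiv.trans_apply, LinearEquiv.symm_symm, eqv_apply, LinearEquiv.apply_symm_apply,
    Pi.basisFun_repr, Pi.basisFun_apply, Matrix.mulVec_single_one]
  rfl

include hrbar e0 in
/-- Burnside in terms of the matrix model. -/
theorem span_range_eq_top (habs : ρbar.IsAbsolutelyIrreducible) :
    Submodule.span k (Set.range rbar) = ⊤ := by
  have h := span_range_resMat_eq_top ρbar habs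
    ((Pi.basisFun k (Fin 2)).map (eqv ρbar rbar hrbar e0).symm)
  have : Set.range (resMat ρbar ((Pi.basisFun k (Fin 2)).map (eqv ρbar rbar hrbar e0).symm)) =
      Set.range rbar := by
    ext M
    constructor
    · rintro ⟨σ, rfl⟩
      exact ⟨σ, (resMat_eq ρbar rbar hrbar e0 σ).symm⟩
    · rintro ⟨σ, rfl⟩
      exact ⟨σ, resMat_eq ρbar rbar hrbar e0 σ⟩
  rwa [this] at h

include hrbar e0 in
/-- **`H⁰(G_ℚ, ad⁰ ρbar) = 0`** in terms of the matrix model. -/
theorem eq_zero_of_commute_of_absIrr (h2 : (2 : k) ≠ 0) (habs : ρbar.IsAbsolutelyIrreducible)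
    (Z : M₂ k) (htr : Z.trace = 0) (hZ : ∀ σ, rbar σ * Z = Z * rbar σ) : Z = 0 :=
  eq_zero_of_trace_zero_of_commute h2 rbar (span_range_eq_top ρbar rbar hrbar e0 habs) Z htr hZ

/-- The comparison isomorphism `K̄ ⊗ ρbar.V ≃ K̄²`. -/
noncomputable def compK :
    (AlgebraicClosure k ⊗[k] ρbar.V) ≃ₗ[AlgebraicClosure k] (Fin 2 → AlgebraicClosure k) :=
  ((eqv ρbar rbar hrbar e0).baseChange k (AlgebraicClosure k) ρbar.V (Fin 2 → k)).trans
    (TensorProduct.piScalarRight k (AlgebraicClosure k) (AlgebraicClosure k) (Fin 2))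

theorem compK_apply (σ : Γℚ) (x : AlgebraicClosure k ⊗[k] ρbar.V) :
    compK ρbar rbar hrbar e0 ((ρbar.ρ σ).baseChange (AlgebraicClosure k) x) =
      (rK rbar σ).mulVec (compK ρbar rbar hrbar e0 x) := by
  unfold compK rK
  rw [LinearEquiv.trans_apply, LinearEquiv.trans_apply]
  have h1 : ((eqv ρbar rbar hrbar e0).baseChange k (AlgebraicClosure k) ρbar.V (Fin 2 → k))
      ((ρbar.ρ σ).baseChange (AlgebraicClosure k) x) =
      (Matrix.toLin' (rbar σ)).baseChange (AlgebraicClosure k)
        (((eqv ρbar rbar hrbar e0).baseChange k (AlgebraicClosure k) ρbar.V (Fin 2 → k)) x) := by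
    induction x using TensorProduct.induction_on with
    | zero => simp only [map_zero]
    | tmul b v =>
      rw [LinearMap.baseChange_tmul, LinearEquiv.baseChange_tmul, LinearEquiv.baseChange_tmul,
        LinearMap.baseChange_tmul, eqv_apply, Matrix.toLin'_apply]
    | add x y hx hy => simp only [map_add, hx, hy]
  rw [h1, piScalarRight_baseChange]

include hrbar e0 in
/-- Irreducibility of the restriction to `G'` over the algebraic closure, in matrix form. -/
theorem noStableLine_of_forall (G' : Subgroup Γℚ)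
    (h : ∀ V : Submodule (AlgebraicClosure k) (ρbar.baseChange (AlgebraicClosure k)).V,
      (∀ σ ∈ G', ∀ x ∈ V, (ρbar.baseChange (AlgebraicClosure k)).ρ σ x ∈ V) → V = ⊥ ∨ V = ⊤) :
    NoStableLine rbar G' := by
  intro W hW
  set E := compK ρbar rbar hrbar e0 with hE
  have hV := h (W.comap (E : (AlgebraicClosure k ⊗[k] ρbar.V) →ₗ[AlgebraicClosure k] _)) (by
    intro σ hσ x hx
    rw [Submodule.mem_comap] at hx ⊢
    have : E ((ρbar.ρ σ).baseChange (AlgebraicClosure k) x) = (rK rbar σ).mulVec (E x) :=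
      compK_apply ρbar rbar hrbar e0 σ x
    show E ((ρbar.ρ σ).baseChange (AlgebraicClosure k) x) ∈ W
    rw [this]
    exact hW σ hσ _ hx)
  rcases hV with hb | ht
  · left
    refine (Submodule.eq_bot_iff _).mpr fun w hw => ?_
    have : E.symm w ∈ W.comap (E : (AlgebraicClosure k ⊗[k] ρbar.V) →ₗ[AlgebraicClosure k] _) := by
      rw [Submodule.mem_comap]
      show E (E.symm w) ∈ W
      rw [LinearEquiv.apply_symm_apply]
      exact hw
    rw [hb, Submodule.mem_bot] at this
    have h3 := congrArg E this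
    rwa [LinearEquiv.apply_symm_apply, map_zero] at h3
  · right
    refine eq_top_iff.mpr fun w _ => ?_
    have : E.symm w ∈ W.comap (E : (AlgebraicClosure k ⊗[k] ρbar.V) →ₗ[AlgebraicClosure k] _) := by
      rw [ht]; exact Submodule.mem_top
    rw [Submodule.mem_comap] at this
    have h3 : E (E.symm w) ∈ W := this
    rwa [LinearEquiv.apply_symm_apply] at h3

include hrbar e0 in
/-- **`H⁰(G_ℚ, ad⁰ ρbar ⊗ ψ) = 0`** under the hypotheses of S56 (absolute irreducibility of
`ρbar` and of its restrictions to subgroups of index two). -/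
theorem eq_zero_of_twisted_invariant_of_hyp (h2 : (2 : k) ≠ 0)
    (habs : ρbar.IsAbsolutelyIrreducible)
    (hTW : ∀ (K : Type) [Field K] [Algebra k K] (G' : Subgroup Γℚ), G'.index = 2 →
      ∀ V : Submodule K (ρbar.baseChange K).V,
        (∀ σ ∈ G', ∀ x ∈ V, (ρbar.baseChange K).ρ σ x ∈ V) → V = ⊥ ∨ V = ⊤)
    (ψ : Γℚ →* kˣ) (Z : M₂ k) (htr : Z.trace = 0)
    (hinv : ∀ σ, rbar σ * Z = ((ψ σ : kˣ) : k) • (Z * rbar σ)) : Z = 0 := by
  refine eq_zero_of_twisted_invariant h2 rbar ?_ ψ Z htr hinv
  rintro G' (rfl | hG')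
  · refine noStableLine_of_forall ρbar rbar hrbar e0 ⊤ fun V hV => ?_
    exact habs V fun σ x hx => hV σ (Subgroup.mem_top σ) x hx
  · exact noStableLine_of_forall ρbar rbar hrbar e0 G'
      (hTW (AlgebraicClosure k) G' hG')

end Bridge

end Fermat.Agent.S56x.Local.GlobalH0
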