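import Mathlib
import Fermat.Agent.S56x.Dict.Ad0Rep
import Fermat.Agent.S56x.Local.GlobalH0

/-!
# P-S56, block (C): `H⁰(G_ℚ, ad⁰ ρbar) = 0` for the module `ad0Rep p rbar`

`invariants_ad0Rep_eq_bot`, `finrank_invariants_ad0Rep` : the global invariants of
`Dict.ad0Rep p rbar` vanish when the `rbar σ` span `M₂(k)` (Burnside, i.e. `ρbar` absolutely
irreducible) and `p ≠ 2`.
-/

set_option autoImplicit false

namespace Fermat.Agent.S56x.Local.GlobalH0

open Fermat.Agent.S56x.Dict Fermat.Agent.S53 Module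

local notation "Γℚ" => (AlgebraicClosure ℚ ≃ₐ[ℚ] AlgebraicClosure ℚ)
local notation "M₂" => Matrix (Fin 2) (Fin 2)

variable {k : Type} [Field k] (p : ℕ) [Fact p.Prime] [Algebra (ZMod p) k]

/-- `2 ≠ 0` in a field of odd characteristic `p`. -/
theorem two_ne_zero_of_algebra (hp2 : p ≠ 2) : (2 : k) ≠ 0 := by
  have hchar : CharP k p := by
    have := (algebraMap (ZMod p) k).injective
    exact (RingHom.charP_iff (algebraMap (ZMod p) k) this p).mp inferInstance
  intro h0
  have h20 : ((2 : ℕ) : k) = 0 := by exact_mod_cast h0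
  have hdvd := (CharP.cast_eq_zero_iff k p 2).mp h20
  have hp : p.Prime := Fact.out
  exact hp2 ((Nat.prime_dvd_prime_iff_eq hp Nat.prime_two).mp hdvd)

/-- The global invariants of `ad⁰ ρbar` vanish. -/
theorem invariants_ad0Rep_eq_bot (hp2 : p ≠ 2) (rbar : Γℚ →* M₂ k)
    (hspan : Submodule.span k (Set.range rbar) = ⊤) :
    (ad0Rep p rbar).ρ.invariants = ⊥ := by
  refine (Submodule.eq_bot_iff _).mpr fun X hX => ?_
  have hX' : ∀ σ : Γℚ, ad0Representation p rbar σ X = X := fun σ => hX σ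
  have hcomm : ∀ σ : Γℚ, rbar σ * (X : M₂ k) = (X : M₂ k) * rbar σ := by
    intro σ
    have h1 := congrArg (fun Y : ad0 k p => (Y : M₂ k)) (hX' σ)
    simp only [ad0Representation_apply_coe] at h1
    have h2 := congrArg (fun Y : M₂ k => Y * rbar σ) h1
    simp only [Matrix.mul_assoc] at h2
    rw [TanCocycle.rbar_inv_mul, Matrix.mul_one] at h2
    exact h2
  have h0 : (X : M₂ k) = 0 :=
    eq_zero_of_trace_zero_of_commute (two_ne_zero_of_algebra p hp2) rbar hspan (X : M₂ k)
      ((mem_ad0 _).mp X.2) hcomm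
  exact Subtype.ext h0

/-- `h⁰(G_ℚ, ad⁰ ρbar) = 0`. -/
theorem finrank_invariants_ad0Rep (hp2 : p ≠ 2) (rbar : Γℚ →* M₂ k)
    (hspan : Submodule.span k (Set.range rbar) = ⊤) :
    finrank (ZMod p) (ad0Rep p rbar).ρ.invariants = 0 := by
  rw [invariants_ad0Rep_eq_bot p hp2 rbar hspan]
  exact finrank_bot _ _

/-- The same from the hypotheses of S56: `ρbar` absolutely irreducible with matrix model `rbar`. -/
theorem finrank_invariants_ad0Rep_of_absIrr (hp2 : p ≠ 2) (ρbar : ResidualGaloisRep k)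
    (rbar : Γℚ →* M₂ k) (hrbar : GaloisFactorsThroughFiniteLevel rbar)
    (e0 : ρbar.Equiv (ofMatRes rbar hrbar)) (habs : ρbar.IsAbsolutelyIrreducible) :
    finrank (ZMod p) (ad0Rep p rbar).ρ.invariants = 0 :=
  finrank_invariants_ad0Rep p hp2 rbar (span_range_eq_top ρbar rbar hrbar e0 habs)

end Fermat.Agent.S56x.Local.GlobalH0
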