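import Mathlib
import Fermat.Prelude.Def_GaloisRep_CompletionBridge
import Fermat.Prelude.Def_EllipticCurve_FrobeniusTrace
import Fermat.Prelude.Def_ExtEndgame_ProductionDatum
import Fermat.Prelude.Def_ExtCitation_KummerBridge
import Fermat.Agent.S56x.Cheb.ValConj

/-!
# P-S56, block (C): a Frobenius element inside the local Galois group

The local cohomology groups of the Prelude are taken with respect to the homomorphism
`localGaloisToGlobal q : Gal(PadicAlgCl q / ℚ_q) →* Gal(Qbar / ℚ)`.  To bound the local invariants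
at a Taylor–Wiles prime `q` (`S56x/Local/TWPrimeLocal.finrank_invariants_dualTwist_le`) one needs
an element of the *local* group whose image is a Frobenius element at `q`.  This file provides it:

* `exists_frob_on_padicIntegers` : some `σ ∈ Gal(PadicAlgCl q / ℚ_q)` acts as `x ↦ x ^ q` modulo
  the maximal ideal of the valuation ring of `PadicAlgCl q`;
* `exists_local_frobenius` : there is `τ : Gal(PadicAlgCl q / ℚ_q)` such that
  `localGaloisToGlobal q τ` is a Frobenius element at the place `padicPlace q` of `Qbar`;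
* `padicPlace_liesOverPrime`, `mem_padicPlace_nonunits_iff`;
* `exists_primeLocal_frobenius` : the same in the `Nat.Primes`-indexed form of the Prelude;
* `cycloChar_eq_one_of_isFrobeniusAt` : a Frobenius element at `q ≡ 1 mod p` is killed by the
  mod `p` cyclotomic character; `exists_primeLocal_frobenius_cyclo` combines the two.

The proof is the profinite surjectivity `D_Q ↠ Aut((B/Q)/(A/P))` of Mathlib applied to
`A = ℤ_q`, `B =` the valuation ring of `PadicAlgCl q`, `G = Gal(PadicAlgCl q / ℚ_q)`.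
-/

set_option autoImplicit false
set_option linter.style.haveILetI false

open scoped NNReal Pointwise

namespace Fermat.Agent.S56x.Local.FrobLocal

/-! ### The Frobenius automorphism of a residue field extension -/

/-- The `ℓ`-th power map is an automorphism of `B/Q` over `A/P` when `B` is integral over `A`,
`ℓ ∈ P` and `a ^ ℓ ≡ a mod P` for all `a : A`. -/
theorem exists_frobenius_algEquiv_of_pow {A B : Type*} [CommRing A] [CommRing B] [Algebra A B]
    [Algebra.IsIntegral A B] {ℓ : ℕ} (hℓ : ℓ.Prime) (Q : Ideal B) [Q.IsMaximal] (P : Ideal A)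
    [P.IsMaximal] [Q.LiesOver P] (hℓP : (ℓ : A) ∈ P) (hpow : ∀ a : A, a ^ ℓ - a ∈ P) :
    ∃ e : (B ⧸ Q) ≃ₐ[A ⧸ P] (B ⧸ Q), ∀ x, e x = x ^ ℓ := by
  have : Fact ℓ.Prime := ⟨hℓ⟩
  let _ : Field (A ⧸ P) := Ideal.Quotient.field P
  let _ : Field (B ⧸ Q) := Ideal.Quotient.field Q
  have hchar : CharP (B ⧸ Q) ℓ := by
    rw [CharP.charP_iff_prime_eq_zero hℓ]
    have h1 : algebraMap A B (ℓ : A) ∈ Q := by
      have : (ℓ : A) ∈ Q.under A := by rw [← Ideal.over_def Q P]; exact hℓP
      simpa [Ideal.under_def] using this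
    have : (Ideal.Quotient.mk Q) (algebraMap A B (ℓ : A)) = 0 :=
      Ideal.Quotient.eq_zero_iff_mem.mpr h1
    simpa using this
  let f : (B ⧸ Q) →ₐ[A ⧸ P] (B ⧸ Q) :=
    { frobenius (B ⧸ Q) ℓ with
      commutes' := by
        intro r
        obtain ⟨a, rfl⟩ := Ideal.Quotient.mk_surjective r
        simp only [RingHom.toMonoidHom_eq_coe, OneHom.toFun_eq_coe, MonoidHom.toOneHom_coe,
          MonoidHom.coe_coe]
        rw [frobenius_def, ← map_pow, ← map_pow]
        congr 1
        rw [Ideal.Quotient.eq]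
        exact hpow a }
  have : Algebra.IsAlgebraic (A ⧸ P) (B ⧸ Q) := by
    have : Algebra.IsIntegral (A ⧸ P) (B ⧸ Q) := inferInstance
    exact Algebra.IsIntegral.isAlgebraic
  have hbij : Function.Bijective f := Algebra.IsAlgebraic.algHom_bijective f
  exact ⟨AlgEquiv.ofBijective f hbij, fun x => rfl⟩


variable (q : ℕ) [Fact q.Prime]

local notation "Ωq" => PadicAlgCl q
local notation "Gq" => (PadicAlgCl q ≃ₐ[ℚ_[q]] PadicAlgCl q)
/-- The valuation ring of `PadicAlgCl q`, as a type. -/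
abbrev IntegersQ : Type := ↥(padicIntegers q)

/-- The action of the local Galois group on the valuation ring of `PadicAlgCl q`. -/
@[reducible] noncomputable def galActionPadicIntegers : MulSemiringAction Gq (IntegersQ q) where
  smul σ b := ⟨σ (b : Ωq), by
    rw [mem_padicIntegers_iff, nnnorm_padicAlgCl_algEquiv]; exact b.2⟩
  one_smul _ := Subtype.ext rfl
  mul_smul _ _ _ := Subtype.ext rfl
  smul_zero σ := Subtype.ext (map_zero σ)
  smul_add σ _ _ := Subtype.ext (map_add σ _ _)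
  smul_one σ := Subtype.ext (map_one σ)
  smul_mul σ _ _ := Subtype.ext (map_mul σ _ _)

theorem nnnorm_algebraMap_padicInt (a : ℤ_[q]) : ‖algebraMap ℤ_[q] Ωq a‖₊ ≤ 1 := by
  rw [IsScalarTower.algebraMap_apply ℤ_[q] ℚ_[q] Ωq]
  have h := PadicAlgCl.norm_extends q (algebraMap ℤ_[q] ℚ_[q] a)
  have h2 : ‖algebraMap ℤ_[q] ℚ_[q] a‖ ≤ 1 := by
    simpa using PadicInt.norm_le_one a
  rw [← NNReal.coe_le_coe]
  simpa [h] using h2

/-- `ℤ_q → ` the valuation ring of `PadicAlgCl q`. -/
noncomputable def padicIntToIntegers : ℤ_[q] →+* (IntegersQ q) :=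
  (algebraMap ℤ_[q] Ωq).codRestrict (padicIntegers q).toSubring (fun a =>
    (mem_padicIntegers_iff q).2 (nnnorm_algebraMap_padicInt q a))


@[simp] theorem coe_padicIntToIntegers (a : ℤ_[q]) :
    ((padicIntToIntegers q a : IntegersQ q) : Ωq) = algebraMap ℤ_[q] Ωq a := rfl

/-- The `ℤ_q`-algebra structure on the valuation ring of `PadicAlgCl q`. -/
@[reducible] noncomputable def algebraPadicIntegers : Algebra ℤ_[q] (IntegersQ q) :=
  (padicIntToIntegers q).toAlgebra

theorem galActionPadicIntegers_smulComm :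
    letI := galActionPadicIntegers q
    letI := algebraPadicIntegers q
    SMulCommClass Gq ℤ_[q] (IntegersQ q) := by
  letI := galActionPadicIntegers q
  letI := algebraPadicIntegers q
  refine ⟨fun σ a b => ?_⟩
  apply Subtype.ext
  show σ ((padicIntToIntegers q a * b : IntegersQ q) : Ωq) =
    ((padicIntToIntegers q a * (σ • b) : IntegersQ q) : Ωq)
  have hb : ((σ • b : IntegersQ q) : Ωq) = σ (b : Ωq) := rfl
  rw [MulMemClass.coe_mul, MulMemClass.coe_mul, map_mul, hb, coe_padicIntToIntegers,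
    IsScalarTower.algebraMap_apply ℤ_[q] ℚ_[q] Ωq, AlgEquiv.commutes]

theorem galActionPadicIntegers_isInvariant :
    letI := galActionPadicIntegers q
    letI := algebraPadicIntegers q
    Algebra.IsInvariant ℤ_[q] (IntegersQ q) Gq := by
  letI := galActionPadicIntegers q
  letI := algebraPadicIntegers q
  refine ⟨fun b hb => ?_⟩
  have h1 : (b : Ωq) ∈ Set.range (algebraMap ℚ_[q] Ωq) := by
    rw [InfiniteGalois.mem_range_algebraMap_iff_fixed]
    intro f
    exact congrArg Subtype.val (hb f)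
  obtain ⟨x, hx⟩ := h1
  have hx1 : ‖x‖ ≤ 1 := by
    rw [← PadicAlgCl.norm_extends q x, hx]
    have := b.2
    rw [mem_padicIntegers_iff] at this
    exact_mod_cast this
  obtain ⟨a, ha⟩ : ∃ a : ℤ_[q], algebraMap ℤ_[q] ℚ_[q] a = x := ⟨⟨x, hx1⟩, rfl⟩
  refine ⟨a, Subtype.ext ?_⟩
  show algebraMap ℤ_[q] Ωq a = (b : Ωq)
  rw [IsScalarTower.algebraMap_apply ℤ_[q] ℚ_[q] Ωq, ha, hx]


theorem mem_maximalIdeal_padicIntegers_iff (b : IntegersQ q) :
    b ∈ IsLocalRing.maximalIdeal (IntegersQ q) ↔ ‖(b : Ωq)‖₊ < 1 := by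
  rw [ValuationSubring.valuation_lt_one_iff]
  exact ((Valuation.isEquiv_valuation_valuationSubring
    (Valued.v : Valuation Ωq ℝ≥0)).lt_one_iff_lt_one).symm

theorem nnnorm_algebraMap_padicInt_lt_one {a : ℤ_[q]} (ha : ‖a‖ < 1) :
    ‖algebraMap ℤ_[q] Ωq a‖₊ < 1 := by
  rw [IsScalarTower.algebraMap_apply ℤ_[q] ℚ_[q] Ωq]
  have h := PadicAlgCl.norm_extends q (algebraMap ℤ_[q] ℚ_[q] a)
  have h2 : ‖algebraMap ℤ_[q] ℚ_[q] a‖ < 1 := by
    simpa using ha
  rw [← NNReal.coe_lt_coe]
  simpa [h] using h2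

theorem norm_pow_sub_self_lt_one (a : ℤ_[q]) : ‖a ^ q - a‖ < 1 := by
  have h0 : PadicInt.toZMod (a ^ q - a) = 0 := by
    rw [map_sub, map_pow, ZMod.pow_card, sub_self]
  have h1 : a ^ q - a ∈ RingHom.ker (PadicInt.toZMod (p := q)) := h0
  rw [PadicInt.ker_toZMod, PadicInt.maximalIdeal_eq_span_p, Ideal.mem_span_singleton] at h1
  exact (PadicInt.norm_lt_one_iff_dvd _).2 h1

/-- **Frobenius on the valuation ring of `PadicAlgCl q`**: some element of the local Galois group
acts as the `q`-th power map modulo the maximal ideal. -/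
theorem exists_frob_on_padicIntegers :
    ∃ σ : Gq, ∀ b : Ωq, ‖b‖₊ ≤ 1 → ‖σ b - b ^ q‖₊ < 1 := by
  letI := galActionPadicIntegers q
  letI := algebraPadicIntegers q
  have := galActionPadicIntegers_smulComm q
  have := galActionPadicIntegers_isInvariant q
  let _ : TopologicalSpace (IntegersQ q) := ⊥
  have : DiscreteTopology (IntegersQ q) := ⟨rfl⟩
  have : ContinuousSMul Gq (IntegersQ q) := by
    rw [continuousSMul_iff_stabilizer_isOpen]
    intro b
    convert stabilizer_isOpen_of_isIntegral (K := ℚ_[q]) (L := Ωq) (b : Ωq) using 1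
    ext σ
    simp only [SetLike.mem_coe, MulAction.mem_stabilizer_iff]
    constructor
    · intro h
      exact congrArg Subtype.val h
    · intro h
      exact Subtype.ext h
  have hint : Algebra.IsIntegral ℤ_[q] (IntegersQ q) :=
    Algebra.IsInvariant.isIntegral_of_profinite (G := Gq)
  let Q : Ideal (IntegersQ q) := IsLocalRing.maximalIdeal _
  have : Q.IsMaximal := IsLocalRing.maximalIdeal.isMaximal _
  let P : Ideal ℤ_[q] := Q.under ℤ_[q]
  have : P.IsMaximal := Ideal.isMaximal_comap_of_isIntegral_of_isMaximal Q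
  have : Q.LiesOver P := ⟨rfl⟩
  have hmemP : ∀ a : ℤ_[q], ‖a‖ < 1 → a ∈ P := by
    intro a ha
    show algebraMap ℤ_[q] (IntegersQ q) a ∈ Q
    rw [mem_maximalIdeal_padicIntegers_iff]
    exact nnnorm_algebraMap_padicInt_lt_one q ha
  have hqP : ((q : ℕ) : ℤ_[q]) ∈ P := by
    apply hmemP
    rw [PadicInt.norm_lt_one_iff_dvd]
  have hpow : ∀ a : ℤ_[q], a ^ q - a ∈ P := fun a => hmemP _ (norm_pow_sub_self_lt_one q a)
  obtain ⟨e, he⟩ := exists_frobenius_algEquiv_of_pow (Fact.out : q.Prime) Q P hqP hpow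
  obtain ⟨σ, hσ⟩ := Ideal.Quotient.stabilizerHom_surjective_of_profinite (G := Gq) P Q e
  refine ⟨σ.1, fun b hb => ?_⟩
  have h1 := DFunLike.congr_fun hσ (Ideal.Quotient.mk Q ⟨b, hb⟩)
  rw [he, Ideal.Quotient.stabilizerHom_apply, ← map_pow, Ideal.Quotient.eq] at h1
  rw [mem_maximalIdeal_padicIntegers_iff] at h1
  exact h1


/-! ### Transfer to the place `padicPlace q` of `Qbar` -/

theorem mem_padicPlace_nonunits_iff {x : AlgebraicClosure ℚ} :
    x ∈ (padicPlace q).nonunits ↔ ‖padicEmbedding q x‖₊ < 1 := by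
  by_cases hx : x = 0
  · subst hx
    simp [(padicPlace q).nonunits.zero_mem]
  have hιx : padicEmbedding q x ≠ 0 := by
    intro h
    exact hx ((padicEmbedding q).toRingHom.injective (by simpa using h))
  rw [ValuationSubring.mem_nonunits_iff]
  constructor
  · intro h
    by_contra hcon
    rw [not_lt] at hcon
    have h1 : x⁻¹ ∈ padicPlace q := by
      rw [mem_padicPlace_iff, map_inv₀, nnnorm_inv]
      exact inv_le_one_of_one_le₀ hcon
    have h2 := ((padicPlace q).valuation_le_one_iff x⁻¹).2 h1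
    rw [map_inv₀] at h2
    have h3 : (padicPlace q).valuation x ≠ 0 := by
      rw [Ne, map_eq_zero]
      exact hx
    have h4 : (1 : (padicPlace q).ValueGroup) ≤ (padicPlace q).valuation x :=
      (inv_le_one₀ (zero_lt_iff.2 h3)).1 h2
    exact absurd h (not_lt.2 h4)
  · intro h
    by_contra hcon
    rw [not_lt] at hcon
    have h3 : (padicPlace q).valuation x ≠ 0 := by
      rw [Ne, map_eq_zero]
      exact hx
    have h2 : (padicPlace q).valuation x⁻¹ ≤ 1 := by
      rw [map_inv₀]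
      exact (inv_le_one₀ (zero_lt_iff.2 h3)).2 hcon
    have h1 := ((padicPlace q).valuation_le_one_iff x⁻¹).1 h2
    rw [mem_padicPlace_iff, map_inv₀, nnnorm_inv] at h1
    have h5 : ‖padicEmbedding q x‖₊ ≠ 0 := by
      rw [Ne, nnnorm_eq_zero]
      exact hιx
    have h6 : (1 : ℝ≥0) ≤ ‖padicEmbedding q x‖₊ := (inv_le_one₀ (zero_lt_iff.2 h5)).1 h1
    exact absurd h (not_lt.2 h6)

/-- **A Frobenius element in the local Galois group**: there is `τ ∈ Gal(PadicAlgCl q / ℚ_q)`
whose image in `Gal(Qbar/ℚ)` is a Frobenius element at the place `padicPlace q`. -/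
theorem exists_local_frobenius :
    ∃ τ : Gq, (padicPlace q).IsFrobeniusAt (localGaloisToGlobal q τ) q := by
  obtain ⟨σ, hσ⟩ := exists_frob_on_padicIntegers q
  refine ⟨σ, (Fermat.Agent.S56x.Cheb.isFrobeniusAt_iff _ _ _).2 ⟨?_, fun x hx => ?_⟩⟩
  · exact MulAction.mem_stabilizer_iff.1 (localGaloisToGlobal_mem_decompositionSubgroup q σ)
  · rw [mem_padicPlace_nonunits_iff, map_sub, map_pow, padicEmbedding_localGaloisToGlobal]
    exact hσ _ hx


theorem padicPlace_liesOverPrime : (padicPlace q).LiesOverPrime q := by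
  show ((q : ℕ) : AlgebraicClosure ℚ) ∈ (padicPlace q).nonunits
  rw [mem_padicPlace_nonunits_iff, map_natCast]
  have h1 : ((q : ℕ) : Ωq) = algebraMap ℚ_[q] Ωq (q : ℚ_[q]) := by simp
  rw [h1, ← NNReal.coe_lt_coe, coe_nnnorm, PadicAlgCl.norm_extends, NNReal.coe_one]
  exact Padic.norm_p_lt_one

/-- The Frobenius element of `exists_local_frobenius`, in the `Nat.Primes`-indexed form of the
Prelude (`primeLocalGaloisGroup`, `primeLocalToGlobal`, `primeLocalPlace`). -/
theorem exists_primeLocal_frobenius (q : Nat.Primes) :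
    ∃ τ : ExtCitation.primeLocalGaloisGroup q,
      (ExtCitation.primeLocalPlace q).LiesOverPrime (q : ℕ) ∧
      (ExtCitation.primeLocalPlace q).IsFrobeniusAt (ExtCitation.primeLocalToGlobal q τ) (q : ℕ) := by
  haveI : Fact (q : ℕ).Prime := ⟨q.2⟩
  obtain ⟨τ, hτ⟩ := exists_local_frobenius (q : ℕ)
  exact ⟨τ, padicPlace_liesOverPrime (q : ℕ), hτ⟩

/-! ### The mod `p` cyclotomic character at a Frobenius element at `q ≡ 1 mod p` -/

/-- A Frobenius element at a prime `q ≡ 1 mod p` is in the kernel of the mod `p` cyclotomic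
character. -/
theorem cycloChar_eq_one_of_isFrobeniusAt (p : ℕ) [Fact p.Prime] {ℓ : ℕ} (hℓ : ℓ.Prime)
    (hpℓ : p ∣ ℓ - 1) (A : ValuationSubring (AlgebraicClosure ℚ)) (hA : A.LiesOverPrime ℓ)
    (φ : AlgebraicClosure ℚ ≃ₐ[ℚ] AlgebraicClosure ℚ) (hφ : A.IsFrobeniusAt φ ℓ) :
    ExtCitation.cycloChar p φ = 1 := by
  haveI : NeZero p := ⟨(Fact.out : p.Prime).ne_zero⟩
  have hp : p.Prime := Fact.out
  have hℓp : ¬ ℓ ∣ p := by
    intro h
    have h1 : ℓ = p := ((Nat.dvd_prime hp).1 h).resolve_left hℓ.ne_one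
    subst h1
    have h2 : ℓ ≤ ℓ - 1 := Nat.le_of_dvd (Nat.sub_pos_of_lt hℓ.one_lt) hpℓ
    have := hℓ.one_lt
    omega
  apply Units.ext
  show ((modularCyclotomicCharacter (AlgebraicClosure ℚ) (ExtCitation.card_rootsOfUnity_eq_self p)
      (φ : AlgebraicClosure ℚ ≃+* AlgebraicClosure ℚ) : (ZMod p)ˣ) : ZMod p) =
    ((1 : (ZMod p)ˣ) : ZMod p)
  refine (modularCyclotomicCharacter.unique (AlgebraicClosure ℚ)
    (ExtCitation.card_rootsOfUnity_eq_self p)
    (φ : AlgebraicClosure ℚ ≃+* AlgebraicClosure ℚ) (c := ((1 : (ZMod p)ˣ) : ZMod p)) ?_).symm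
  intro t ht
  have ht' : ((t : (AlgebraicClosure ℚ)ˣ) : AlgebraicClosure ℚ) ^ p = 1 := by
    have := (mem_rootsOfUnity _ _).mp ht
    rw [← Units.val_pow_eq_pow_val, this, Units.val_one]
  have h1 : φ ((t : (AlgebraicClosure ℚ)ˣ) : AlgebraicClosure ℚ) =
      ((t : (AlgebraicClosure ℚ)ˣ) : AlgebraicClosure ℚ) ^ ℓ :=
    Fermat.Agent.Gateway.S31Red.frob_apply_rootOfUnity hℓ hA hφ hℓp ht'
  obtain ⟨k, hk⟩ := hpℓ
  have h2 : ℓ = p * k + 1 := by
    have := hℓ.one_lt
    omega
  have h3 : ((1 : (ZMod p)ˣ) : ZMod p).val = 1 := by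
    rw [Units.val_one, ZMod.val_one_eq_one_mod, Nat.one_mod_eq_one]
    exact hp.ne_one
  rw [h3, pow_one]
  show φ ((t : (AlgebraicClosure ℚ)ˣ) : AlgebraicClosure ℚ) = _
  rw [h1, h2, pow_succ, pow_mul, ht', one_pow, one_mul]

/-- The local Frobenius element of `exists_primeLocal_frobenius` at a prime `q ≡ 1 mod p` is in
the kernel of the mod `p` cyclotomic character. -/
theorem exists_primeLocal_frobenius_cyclo (p : ℕ) [Fact p.Prime] (q : Nat.Primes)
    (hpq : p ∣ (q : ℕ) - 1) :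
    ∃ τ : ExtCitation.primeLocalGaloisGroup q,
      (ExtCitation.primeLocalPlace q).LiesOverPrime (q : ℕ) ∧
      (ExtCitation.primeLocalPlace q).IsFrobeniusAt (ExtCitation.primeLocalToGlobal q τ) (q : ℕ) ∧
      ExtCitation.cycloChar p (ExtCitation.primeLocalToGlobal q τ) = 1 := by
  obtain ⟨τ, h1, h2⟩ := exists_primeLocal_frobenius q
  exact ⟨τ, h1, h2, cycloChar_eq_one_of_isFrobeniusAt p q.2 hpq _ h1 _ h2⟩

end Fermat.Agent.S56x.Local.FrobLocal
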