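import Mathlib
import Fermat.Prelude.Def_GroupCohomology_Selmer

/-!
# P-S56, block (C-d): linear algebra at a Taylor–Wiles prime

Let `g ∈ M₂(k)` have characteristic polynomial `(X - α)(X - β)` with `α ≠ β` (the image of a
Frobenius element at a Taylor–Wiles prime).  Then

* `exists_conj_diagonal` : `g` is conjugate to `diag(α, β)`;
* `adInv g` (the trace-zero matrices commuting with `g`) is a line: `finrank_adInv`,
  `finrank_adInv_restrictScalars`;
* `mem_range_ad_iff` : a trace-zero `X` is of the form `g Y g⁻¹ - Y` with `Y` of trace zero iff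
  `tr (X g) = 0`;
* `finrank_ker_dualMap_sub_one` : fixed vectors of the dual of an endomorphism;
* `finrank_invariants_dualTwist_le` : `h⁰` of the restriction of a Tate twist `M^*(χ)` to a local
  group containing an element `φ` with `χ φ = 1` is at most `dim ker (φ - 1 | M)`.
-/

set_option autoImplicit false

namespace Fermat.Agent.S56x.Local.TWPrimeLocal

open Polynomial Module Matrix

local notation "M₂" => Matrix (Fin 2) (Fin 2)

variable {k : Type} [Field k]

/-- A `2 × 2` matrix with two distinct eigenvalues is diagonalisable. -/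
theorem exists_conj_diagonal {g : M₂ k} {α β : k}
    (hg : g.charpoly = (X - C α) * (X - C β)) (hαβ : α ≠ β) :
    ∃ P Q : M₂ k, P * Q = 1 ∧ Q * P = 1 ∧ Q * g * P = Matrix.diagonal ![α, β] := by
  classical
  set f : Module.End k (Fin 2 → k) := Matrix.toLin' g with hf
  have hcp : f.charpoly = (X - C α) * (X - C β) := by rw [hf, Matrix.charpoly_toLin', hg]
  have hα : f.HasEigenvalue α := by
    rw [Module.End.hasEigenvalue_iff_isRoot_charpoly, hcp]
    simp
  have hβ : f.HasEigenvalue β := by
    rw [Module.End.hasEigenvalue_iff_isRoot_charpoly, hcp]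
    simp
  obtain ⟨v0, hv0⟩ := hα.exists_hasEigenvector
  obtain ⟨v1, hv1⟩ := hβ.exists_hasEigenvector
  have hli : LinearIndependent k ![v0, v1] := by
    refine Module.End.eigenvectors_linearIndependent' f ![α, β] ?_ ![v0, v1] ?_
    · intro i j hij
      fin_cases i <;> fin_cases j <;> simp_all
    · intro i
      fin_cases i
      · exact hv0
      · exact hv1
  -- the matrix with columns `v0`, `v1`
  set P : M₂ k := Matrix.of fun i j => (![v0, v1] j) i with hP
  have hPcol : P.col = ![v0, v1] := by
    ext j i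
    rfl
  have hPu : IsUnit P := by
    rw [← Matrix.linearIndependent_cols_iff_isUnit, hPcol]
    exact hli
  obtain ⟨u, hu⟩ := hPu
  have hgv0 : g.mulVec v0 = α • v0 := by
    have := hv0.apply_eq_smul
    rwa [hf, Matrix.toLin'_apply] at this
  have hgv1 : g.mulVec v1 = β • v1 := by
    have := hv1.apply_eq_smul
    rwa [hf, Matrix.toLin'_apply] at this
  have hgP : g * P = P * Matrix.diagonal ![α, β] := by
    ext i j
    rw [Matrix.mul_diagonal]
    fin_cases j
    · have := congrFun hgv0 i
      simp only [Matrix.mulVec, dotProduct, Pi.smul_apply, smul_eq_mul] at this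
      simp only [Matrix.mul_apply, hP, Matrix.of_apply]
      simpa [mul_comm] using this
    · have := congrFun hgv1 i
      simp only [Matrix.mulVec, dotProduct, Pi.smul_apply, smul_eq_mul] at this
      simp only [Matrix.mul_apply, hP, Matrix.of_apply]
      simpa [mul_comm] using this
  refine ⟨P, ((u⁻¹ : (M₂ k)ˣ) : M₂ k), ?_, ?_, ?_⟩
  · rw [← hu]; exact u.mul_inv
  · rw [← hu]; exact u.inv_mul
  · rw [Matrix.mul_assoc, hgP, ← Matrix.mul_assoc, ← hu, u.inv_mul, Matrix.one_mul]


/-! ### The invariants of `Ad g` on trace-zero matrices -/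

/-- The trace-zero matrices commuting with `g`: the invariants of `Ad g` on `ad⁰`. -/
def adInv (g : M₂ k) : Submodule k (M₂ k) where
  carrier := {X | X.trace = 0 ∧ g * X = X * g}
  add_mem' := by
    rintro X Y ⟨hX, hX'⟩ ⟨hY, hY'⟩
    exact ⟨by rw [Matrix.trace_add, hX, hY, add_zero], by rw [Matrix.mul_add, Matrix.add_mul, hX', hY']⟩
  zero_mem' := ⟨Matrix.trace_zero _ _, by rw [Matrix.mul_zero, Matrix.zero_mul]⟩
  smul_mem' := by
    rintro a X ⟨hX, hX'⟩
    exact ⟨by rw [Matrix.trace_smul, hX, smul_zero], by rw [Matrix.mul_smul, Matrix.smul_mul, hX']⟩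

theorem mem_adInv {g X : M₂ k} : X ∈ adInv g ↔ X.trace = 0 ∧ g * X = X * g := Iff.rfl

/-- The invariants for a diagonal matrix with distinct entries. -/
theorem mem_adInv_diagonal_iff {α β : k} (hαβ : α ≠ β) (X : M₂ k) :
    X ∈ adInv (Matrix.diagonal ![α, β]) ↔ X = X 0 0 • Matrix.diagonal ![(1 : k), -1] := by
  constructor
  · rintro ⟨htr, hcomm⟩
    have h01 := congrFun (congrFun hcomm 0) 1
    have h10 := congrFun (congrFun hcomm 1) 0
    rw [Matrix.diagonal_mul, Matrix.mul_diagonal] at h01 h10
    simp only [Matrix.cons_val_zero, Matrix.cons_val_one] at h01 h10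
    have e01 : X 0 1 = 0 := by
      have : (α - β) * X 0 1 = 0 := by linear_combination h01
      rcases mul_eq_zero.mp this with h | h
      · exact absurd (sub_eq_zero.mp h) hαβ
      · exact h
    have e10 : X 1 0 = 0 := by
      have : (α - β) * X 1 0 = 0 := by linear_combination (-1 : k) * h10
      rcases mul_eq_zero.mp this with h | h
      · exact absurd (sub_eq_zero.mp h) hαβ
      · exact h
    have e11 : X 1 1 = - X 0 0 := by
      rw [Matrix.trace_fin_two] at htr
      exact eq_neg_of_add_eq_zero_right htr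
    ext i j
    fin_cases i <;> fin_cases j <;> simp [e01, e10, e11]
  · intro h
    rw [h]
    refine ⟨?_, ?_⟩
    · rw [Matrix.trace_smul, Matrix.trace_fin_two]
      simp
    · rw [Matrix.mul_smul, Matrix.smul_mul, Matrix.diagonal_mul_diagonal, Matrix.diagonal_mul_diagonal]
      congr 2
      ext i
      fin_cases i <;> simp [mul_comm]

section Conj

variable {g P Q : M₂ k} {α β : k}

/-- The generator of the invariants. -/
def adGen (P Q : M₂ k) : M₂ k := P * Matrix.diagonal ![(1 : k), -1] * Q

theorem eq_of_conj (hPQ : P * Q = 1) (hD : Q * g * P = Matrix.diagonal ![α, β]) :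
    g = P * Matrix.diagonal ![α, β] * Q := by
  rw [← hD]
  simp only [← Matrix.mul_assoc]
  rw [hPQ, Matrix.one_mul, Matrix.mul_assoc, hPQ, Matrix.mul_one]

theorem adGen_ne_zero (hQP : Q * P = 1) : adGen (k := k) P Q ≠ 0 := by
  intro h
  have h1 : Q * adGen P Q * P = 0 := by rw [h, Matrix.mul_zero, Matrix.zero_mul]
  have h2 : Q * adGen P Q * P = Matrix.diagonal ![(1 : k), -1] := by
    unfold adGen
    simp only [← Matrix.mul_assoc]
    rw [hQP, Matrix.one_mul, Matrix.mul_assoc, hQP, Matrix.mul_one]
  rw [h2] at h1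
  have := congrFun (congrFun h1 0) 0
  simp at this

theorem trace_conj (hPQ : P * Q = 1) (X : M₂ k) : (Q * X * P).trace = X.trace := by
  rw [Matrix.trace_mul_comm, ← Matrix.mul_assoc, hPQ, Matrix.one_mul]

theorem trace_conj' (hQP : Q * P = 1) (X : M₂ k) : (P * X * Q).trace = X.trace := by
  rw [Matrix.trace_mul_comm, ← Matrix.mul_assoc, hQP, Matrix.one_mul]

/-- Transport of the invariants along a conjugation. -/
theorem conj_mem_adInv_iff (hPQ : P * Q = 1)
    (hD : Q * g * P = Matrix.diagonal ![α, β]) (X : M₂ k) :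
    X ∈ adInv g ↔ Q * X * P ∈ adInv (Matrix.diagonal ![α, β]) := by
  rw [mem_adInv, mem_adInv, trace_conj hPQ, ← hD]
  have e1 : Q * g * P * (Q * X * P) = Q * (g * X) * P := by
    simp only [Matrix.mul_assoc]
    rw [← Matrix.mul_assoc P Q, hPQ, Matrix.one_mul]
  have e2 : Q * X * P * (Q * g * P) = Q * (X * g) * P := by
    simp only [Matrix.mul_assoc]
    rw [← Matrix.mul_assoc P Q, hPQ, Matrix.one_mul]
  rw [e1, e2]
  refine and_congr_right fun _ => ⟨fun h => by rw [h], fun h => ?_⟩
  have h3 := congrArg (fun Y => P * Y * Q) h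
  simp only [← Matrix.mul_assoc] at h3
  rw [hPQ, Matrix.one_mul] at h3
  simp only [Matrix.mul_assoc] at h3
  rw [hPQ, Matrix.mul_one, Matrix.mul_one] at h3
  simpa [Matrix.mul_assoc] using h3

/-- The invariants are the line spanned by `adGen P Q`. -/
theorem adInv_eq_span (hPQ : P * Q = 1) (hQP : Q * P = 1)
    (hD : Q * g * P = Matrix.diagonal ![α, β]) (hαβ : α ≠ β) :
    adInv g = Submodule.span k {adGen P Q} := by
  ext X
  rw [conj_mem_adInv_iff hPQ hD, mem_adInv_diagonal_iff hαβ, Submodule.mem_span_singleton]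
  constructor
  · intro h
    obtain ⟨a, ha⟩ : ∃ a : k, Q * X * P = a • Matrix.diagonal ![(1 : k), -1] := ⟨_, h⟩
    refine ⟨a, ?_⟩
    have hX : X = P * (Q * X * P) * Q := by
      simp only [← Matrix.mul_assoc]
      rw [hPQ, Matrix.one_mul, Matrix.mul_assoc, hPQ, Matrix.mul_one]
    rw [hX, ha]
    unfold adGen
    rw [Matrix.mul_smul, Matrix.smul_mul]
  · rintro ⟨a, rfl⟩
    have h2 : Q * adGen P Q * P = Matrix.diagonal ![(1 : k), -1] := by
      unfold adGen
      simp only [← Matrix.mul_assoc]
      rw [hQP, Matrix.one_mul, Matrix.mul_assoc, hQP, Matrix.mul_one]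
    rw [Matrix.mul_smul, Matrix.smul_mul, h2]
    congr 1
    simp

end Conj

/-- **The invariants of `Ad g` on `ad⁰` form a line** when `g` has distinct eigenvalues. -/
theorem finrank_adInv {g : M₂ k} {α β : k}
    (hg : g.charpoly = (X - C α) * (X - C β)) (hαβ : α ≠ β) : finrank k (adInv g) = 1 := by
  obtain ⟨P, Q, hPQ, hQP, hD⟩ := exists_conj_diagonal hg hαβ
  rw [adInv_eq_span hPQ hQP hD hαβ]
  exact finrank_span_singleton (adGen_ne_zero hQP)

/-- The same over a subfield `F` (e.g. `F = 𝔽_p`): the dimension is `[k : F]`. -/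
theorem finrank_adInv_restrictScalars (F : Type) [Field F] [Algebra F k] {g : M₂ k} {α β : k}
    (hg : g.charpoly = (X - C α) * (X - C β)) (hαβ : α ≠ β) :
    finrank F ((adInv g).restrictScalars F) = finrank F k := by
  have h1 : finrank F ((adInv g).restrictScalars F) = finrank F (adInv g) :=
    LinearEquiv.finrank_eq
      ((Submodule.restrictScalarsEquiv F k (M₂ k) (adInv g)).restrictScalars F)
  rw [h1, ← Module.finrank_mul_finrank F k (adInv g), finrank_adInv hg hαβ, mul_one]


/-- The invariants in terms of the conjugation action `X ↦ g X g⁻¹`. -/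
theorem mem_adInv_iff_conj_eq {g g' : M₂ k} (hgg' : g * g' = 1) (Z : M₂ k) :
    Z ∈ adInv g ↔ Z.trace = 0 ∧ g * Z * g' = Z := by
  have hg'g : g' * g = 1 := mul_eq_one_comm.mp hgg'
  rw [mem_adInv]
  refine and_congr_right fun _ => ⟨fun h => ?_, fun h => ?_⟩
  · rw [h, Matrix.mul_assoc, hgg', Matrix.mul_one]
  · conv_rhs => rw [← h]
    rw [Matrix.mul_assoc, Matrix.mul_assoc, hg'g, Matrix.mul_one]

/-- The conjugation action `X ↦ g X g'` as a linear map. -/
def adMap (g g' : M₂ k) : M₂ k →ₗ[k] M₂ k :=
  (LinearMap.mulLeft k g).comp (LinearMap.mulRight k g')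

@[simp] theorem adMap_apply (g g' Z : M₂ k) : adMap g g' Z = g * Z * g' := by
  simp [adMap, Matrix.mul_assoc]

/-- The invariants of `Ad g` on `ad⁰` as a kernel. -/
theorem adInv_eq_ker {g g' : M₂ k} (hgg' : g * g' = 1) :
    adInv g = LinearMap.ker (Matrix.traceLinearMap (Fin 2) k k) ⊓
      LinearMap.ker (adMap g g' - 1) := by
  ext Z
  rw [mem_adInv_iff_conj_eq hgg', Submodule.mem_inf, LinearMap.mem_ker, LinearMap.mem_ker,
    LinearMap.sub_apply, Module.End.one_apply, sub_eq_zero, adMap_apply]
  rfl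

/-! ### The image of `Ad g - 1` on trace-zero matrices -/

/-- The eigenvalues of an invertible matrix are nonzero. -/
theorem eigenvalues_ne_zero {g g' : M₂ k} {α β : k}
    (hg : g.charpoly = (X - C α) * (X - C β)) (hgg' : g * g' = 1) : α ≠ 0 ∧ β ≠ 0 := by
  have hdet : g.det = α * β := by
    rw [Matrix.det_eq_sign_charpoly_coeff, hg]
    simp [Polynomial.mul_coeff_zero]
  have h1 : g.det * g'.det = 1 := by rw [← Matrix.det_mul, hgg', Matrix.det_one]
  rw [hdet] at h1
  constructor
  · rintro rfl
    rw [zero_mul, zero_mul] at h1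
    exact zero_ne_one h1
  · rintro rfl
    rw [mul_zero, zero_mul] at h1
    exact zero_ne_one h1

/-- The direct computation for a diagonal matrix. -/
theorem diagonal_conj_sub {α β : k} (hα : α ≠ 0) (hβ : β ≠ 0) (hαβ : α ≠ β) (x01 x10 : k) :
    Matrix.diagonal ![α, β] * !![0, x01 * β / (α - β); x10 * α / (β - α), 0] *
        Matrix.diagonal ![α⁻¹, β⁻¹] - !![0, x01 * β / (α - β); x10 * α / (β - α), 0]
      = !![0, x01; x10, 0] := by
  have h1 : α - β ≠ 0 := sub_ne_zero.mpr hαβ
  have h2 : β - α ≠ 0 := sub_ne_zero.mpr (Ne.symm hαβ)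
  ext i j
  rw [Matrix.sub_apply, Matrix.mul_diagonal, Matrix.diagonal_mul]
  fin_cases i <;> fin_cases j
  · simp
  · simp only [Fin.zero_eta, Fin.isValue, Fin.mk_one, Matrix.of_apply,
      Matrix.cons_val', Matrix.cons_val_one, Matrix.cons_val_fin_one, Matrix.cons_val_zero]
    field_simp
  · simp only [Fin.zero_eta, Fin.isValue, Fin.mk_one, Matrix.of_apply,
      Matrix.cons_val', Matrix.cons_val_one, Matrix.cons_val_fin_one, Matrix.cons_val_zero]
    field_simp
  · simp

/-- **The image of `Ad g - 1` on `ad⁰`**: a trace-zero matrix `X` is of the form `g Y g⁻¹ - Y`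
with `Y` of trace zero iff `tr (X g) = 0`. -/
theorem mem_range_ad_iff {g g' : M₂ k} {α β : k}
    (hg : g.charpoly = (X - C α) * (X - C β)) (hαβ : α ≠ β) (hgg' : g * g' = 1)
    (Z : M₂ k) (hZ : Z.trace = 0) :
    (∃ Y : M₂ k, Y.trace = 0 ∧ Z = g * Y * g' - Y) ↔ (Z * g).trace = 0 := by
  have hg'g : g' * g = 1 := mul_eq_one_comm.mp hgg'
  constructor
  · rintro ⟨Y, -, rfl⟩
    rw [Matrix.sub_mul, Matrix.trace_sub, Matrix.mul_assoc, hg'g, Matrix.mul_one,
      Matrix.trace_mul_comm, sub_self]
  · intro htr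
    obtain ⟨hα, hβ⟩ := eigenvalues_ne_zero hg hgg'
    obtain ⟨P, Q, hPQ, hQP, hD⟩ := exists_conj_diagonal hg hαβ
    have hgP : g = P * Matrix.diagonal ![α, β] * Q := eq_of_conj hPQ hD
    have hDD : Matrix.diagonal ![α, β] * Matrix.diagonal ![α⁻¹, β⁻¹] = 1 := by
      rw [Matrix.diagonal_mul_diagonal, ← Matrix.diagonal_one]
      congr 1
      ext i
      fin_cases i <;> simp [hα, hβ]
    have hDD' : Matrix.diagonal ![α⁻¹, β⁻¹] * Matrix.diagonal ![α, β] = 1 :=
      mul_eq_one_comm.mp hDD
    have hg' : g' = P * Matrix.diagonal ![α⁻¹, β⁻¹] * Q := by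
      have h1 : P * Matrix.diagonal ![α⁻¹, β⁻¹] * Q * g = 1 := by
        rw [hgP]
        simp only [Matrix.mul_assoc]
        rw [← Matrix.mul_assoc Q P, hQP, Matrix.one_mul, ← Matrix.mul_assoc (Matrix.diagonal _)
          (Matrix.diagonal _), hDD', Matrix.one_mul, hPQ]
      calc g' = (P * Matrix.diagonal ![α⁻¹, β⁻¹] * Q * g) * g' := by rw [h1, Matrix.one_mul]
        _ = P * Matrix.diagonal ![α⁻¹, β⁻¹] * Q := by
            rw [Matrix.mul_assoc _ g g', hgg', Matrix.mul_one]
    -- the conjugated matrix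
    set W : M₂ k := Q * Z * P with hW
    have hWtr : W.trace = 0 := by rw [hW, trace_conj hPQ, hZ]
    have hWD : (W * Matrix.diagonal ![α, β]).trace = 0 := by
      have : W * Matrix.diagonal ![α, β] = Q * (Z * g) * P := by
        rw [hW, ← hD]
        simp only [Matrix.mul_assoc]
        rw [← Matrix.mul_assoc P Q, hPQ, Matrix.one_mul]
      rw [this, trace_conj hPQ, htr]
    rw [Matrix.trace_fin_two] at hWtr
    rw [Matrix.trace_fin_two, Matrix.mul_diagonal, Matrix.mul_diagonal] at hWD
    simp only [Matrix.cons_val_zero, Matrix.cons_val_one] at hWD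
    have h00 : W 0 0 = 0 := by
      have : (α - β) * W 0 0 = 0 := by linear_combination hWD - β * hWtr
      rcases mul_eq_zero.mp this with h | h
      · exact absurd (sub_eq_zero.mp h) hαβ
      · exact h
    have h11 : W 1 1 = 0 := by rw [h00, zero_add] at hWtr; exact hWtr
    have hWeq : W = !![0, W 0 1; W 1 0, 0] := by
      ext i j
      fin_cases i <;> fin_cases j <;> simp [h00, h11]
    set Y0 : M₂ k := !![0, W 0 1 * β / (α - β); W 1 0 * α / (β - α), 0] with hY0
    have hcomp := diagonal_conj_sub hα hβ hαβ (W 0 1) (W 1 0)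
    rw [← hY0, ← hWeq] at hcomp
    refine ⟨P * Y0 * Q, ?_, ?_⟩
    · rw [trace_conj' hQP, hY0, Matrix.trace_fin_two]
      simp
    · have hZW : Z = P * W * Q := by
        rw [hW]
        simp only [← Matrix.mul_assoc]
        rw [hPQ, Matrix.one_mul, Matrix.mul_assoc, hPQ, Matrix.mul_one]
      rw [hZW, ← hcomp, hgP, hg']
      simp only [Matrix.mul_sub, Matrix.sub_mul, Matrix.mul_assoc]
      rw [← Matrix.mul_assoc Q P, hQP, Matrix.one_mul, ← Matrix.mul_assoc Q P, hQP,
        Matrix.one_mul]

/-! ### Fixed vectors of a dual map, and `h⁰` of a Tate twist -/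

section Dual

variable {F : Type*} [Field F] {M : Type*} [AddCommGroup M] [Module F M] [FiniteDimensional F M]

/-- The fixed space of the transpose has the dimension of the fixed space. -/
theorem finrank_ker_dualMap_sub_one (T : M →ₗ[F] M) :
    finrank F (LinearMap.ker (T.dualMap - 1)) = finrank F (LinearMap.ker (T - 1)) := by
  have h1 : T.dualMap - 1 = (T - 1).dualMap := by
    ext f x
    simp [LinearMap.dualMap_apply]
  rw [h1]
  have h2 := LinearMap.finrank_range_add_finrank_ker (T - 1).dualMap
  have h3 := LinearMap.finrank_range_add_finrank_ker (T - 1)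
  have h4 := LinearMap.finrank_range_dualMap_eq_finrank_range (T - 1)
  have h5 : finrank F (Module.Dual F M) = finrank F M := Subspace.dual_finrank_eq
  omega

end Dual

section RepLevel

variable {F : Type} [Field F] {G H : Type} [Group G] [Group H]

/-- **`h⁰` of a Tate twist at a Taylor–Wiles prime**: if the local group `H → G` contains an
element `φ` on which the twisting character is trivial, the invariants of `H` on `M^*(χ)` have
dimension at most that of the fixed space of `φ` on `M`. -/
theorem finrank_invariants_dualTwist_le (loc : H →* G) (M : Rep F G) [FiniteDimensional F M]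
    (χ : G →* Fˣ) (φ : H) (hχ : χ (loc φ) = 1) :
    finrank F (Rep.res loc (M.dualTwist χ)).ρ.invariants ≤
      finrank F (LinearMap.ker (M.ρ (loc φ) - 1)) := by
  -- the fixed space of `φ⁻¹` on `M` is the fixed space of `φ`
  have hker : LinearMap.ker (M.ρ (loc φ)⁻¹ - 1) = LinearMap.ker (M.ρ (loc φ) - 1) := by
    ext x
    simp only [LinearMap.mem_ker, LinearMap.sub_apply, Module.End.one_apply, sub_eq_zero]
    constructor
    · intro h
      have := congrArg (M.ρ (loc φ)) h
      rw [← Module.End.mul_apply, ← map_mul, mul_inv_cancel, map_one, Module.End.one_apply] at this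
      exact this.symm
    · intro h
      have := congrArg (M.ρ (loc φ)⁻¹) h
      rw [← Module.End.mul_apply, ← map_mul, inv_mul_cancel, map_one, Module.End.one_apply] at this
      exact this.symm
  rw [← hker, ← finrank_ker_dualMap_sub_one (M.ρ (loc φ)⁻¹)]
  refine Submodule.finrank_mono ?_
  intro f hf
  have h1 := hf φ
  rw [LinearMap.mem_ker, LinearMap.sub_apply, Module.End.one_apply, sub_eq_zero]
  have h2 : (M.dualTwist χ).ρ (loc φ) f = f := h1
  rw [Rep.dualTwist_ρ_apply, hχ, Units.val_one, one_smul] at h2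
  exact h2

end RepLevel

end Fermat.Agent.S56x.Local.TWPrimeLocal
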