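import Mathlib
import Fermat.Agent.S53.MatrixRep
import Fermat.Agent.S56x.GW.Interface
import Fermat.Agent.S56x.Dict.Ad0Rep
import Fermat.Agent.S56x.Local.TWPrimeLocal
import Fermat.Agent.S56x.Local.FrobLocal

/-!
# P-S56, block (C4): the local count at a Taylor–Wiles prime

Let `q ≡ 1 mod p` be a prime of `S'`, `q ≠ p`, such that every Frobenius element at every place
over `q` acts through `rbar` with two distinct eigenvalues in `k`.  For `M = ad⁰ ρbar`
(`Dict.ad0Rep p rbar`) and the full local condition `L_q = locH1`: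

* `finrank_fixed_ad0Rep_le` : the fixed space of `Ad rbar(σ)` on `ad⁰` has `𝔽_p`-dimension at
  most `[k : 𝔽_p]` when `rbar σ` has two distinct eigenvalues;
* `finrank_locH0_tateDual_le` : `h⁰(G_q, M^*(1)) ≤ [k : 𝔽_p]`;
* `finrank_locH0_le` : `h⁰(G_q, M) ≤ [k : 𝔽_p]`;
* `finrank_locH1_le` : `h¹(G_q, M) ≤ h⁰(G_q, M) + [k : 𝔽_p]`, from the tame local Euler
  characteristic formula `GWPackage.localEuler_ne`;
* `finrank_locH1_le_of_residual` : the same with the Taylor–Wiles condition stated for a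
  `ResidualGaloisRep` as in `IsTWFamily`, `rbar` being its matrix in a basis.

The Frobenius element of the *local* Galois group comes from `Local/FrobLocal.lean`.
-/

set_option autoImplicit false
set_option linter.unusedSectionVars false

open Polynomial Module groupCohomology ExtCitation

namespace Fermat.Agent.S56x.Local.TWPrimeCount

open Fermat.Agent.S56x.GW Fermat.Agent.S56x.Dict Fermat.Agent.S56x.Local

local notation "Γℚ" => (AlgebraicClosure ℚ ≃ₐ[ℚ] AlgebraicClosure ℚ)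
local notation "M₂" => Matrix (Fin 2) (Fin 2)

variable {k : Type} [Field k] (p : ℕ) [Fact p.Prime] [Algebra (ZMod p) k]
  [Module.Finite (ZMod p) k]

/-- The fixed space of `Ad rbar(σ)` on `ad⁰` is at most a `k`-line when `rbar σ` has two distinct
eigenvalues. -/
theorem finrank_fixed_ad0Rep_le (rbar : Γℚ →* M₂ k) (σ : Γℚ) {α β : k}
    (hg : (rbar σ).charpoly = (X - C α) * (X - C β)) (hαβ : α ≠ β) :
    finrank (ZMod p) (LinearMap.ker ((ad0Rep p rbar).ρ σ - 1)) ≤ finrank (ZMod p) k := by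
  rw [← TWPrimeLocal.finrank_adInv_restrictScalars (ZMod p) hg hαβ]
  have hgg' : rbar σ * rbar σ⁻¹ = 1 := TanCocycle.rbar_mul_inv σ
  let f : LinearMap.ker ((ad0Rep p rbar).ρ σ - 1) →ₗ[ZMod p]
      ((TWPrimeLocal.adInv (rbar σ)).restrictScalars (ZMod p)) :=
    { toFun := fun X => ⟨((X : ad0 k p) : M₂ k), by
        have hX := X.2
        rw [LinearMap.mem_ker, LinearMap.sub_apply, Module.End.one_apply, sub_eq_zero] at hX
        have hX' : rbar σ * ((X : ad0 k p) : M₂ k) * rbar σ⁻¹ = ((X : ad0 k p) : M₂ k) :=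
          congrArg (fun Y : ad0 k p => (Y : M₂ k)) hX
        rw [Submodule.restrictScalars_mem, TWPrimeLocal.mem_adInv_iff_conj_eq hgg']
        exact ⟨(mem_ad0 _).mp (X : ad0 k p).2, hX'⟩⟩
      map_add' := fun X Y => rfl
      map_smul' := fun a X => rfl }
  have hf : Function.Injective f := by
    intro X Y h
    apply Subtype.ext
    apply Subtype.ext
    exact congrArg (fun Z : (TWPrimeLocal.adInv (rbar σ)).restrictScalars (ZMod p) => (Z : M₂ k)) h
  exact LinearMap.finrank_le_finrank_of_injective hf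


/-- The Taylor–Wiles condition at `q` for a matrix representation: every Frobenius element at
every place over `q` has two distinct eigenvalues in `k`. -/
def IsTWAt (rbar : Γℚ →* M₂ k) (q : ℕ) : Prop :=
  ∀ P : ValuationSubring (AlgebraicClosure ℚ), P.LiesOverPrime q →
    ∀ φ : Γℚ, P.IsFrobeniusAt φ q →
      ∃ α β : k, α ≠ β ∧ (rbar φ).charpoly = (X - C α) * (X - C β)

/-- **`h⁰(G_q, ad⁰(1)) ≤ [k : 𝔽_p]` at a Taylor–Wiles prime.** -/
theorem finrank_locH0_tateDual_le (S' : Finset Nat.Primes) (q : ↥S') (rbar : Γℚ →* M₂ k)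
    (hTW : IsTWAt rbar (q.1 : ℕ)) (hpq : p ∣ (q.1 : ℕ) - 1) :
    finrank (ZMod p) (locH0 S' (tateDual p (ad0Rep p rbar)) (Sum.inr q)) ≤
      finrank (ZMod p) k := by
  obtain ⟨τ, hL, hF, hχ⟩ := FrobLocal.exists_primeLocal_frobenius_cyclo p q.1 hpq
  obtain ⟨α, β, hαβ, hg⟩ := hTW _ hL _ hF
  exact (TWPrimeLocal.finrank_invariants_dualTwist_le (primeLocalToGlobal q.1) (ad0Rep p rbar)
    (cycloChar p) τ hχ).trans (finrank_fixed_ad0Rep_le p rbar _ hg hαβ)

/-- **`h⁰(G_q, ad⁰) ≤ [k : 𝔽_p]` at a Taylor–Wiles prime.** -/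
theorem finrank_locH0_le (S' : Finset Nat.Primes) (q : ↥S') (rbar : Γℚ →* M₂ k)
    (hTW : IsTWAt rbar (q.1 : ℕ)) :
    finrank (ZMod p) (locH0 S' (ad0Rep p rbar) (Sum.inr q)) ≤ finrank (ZMod p) k := by
  obtain ⟨τ, hL, hF⟩ := FrobLocal.exists_primeLocal_frobenius q.1
  obtain ⟨α, β, hαβ, hg⟩ := hTW _ hL _ hF
  refine le_trans (Submodule.finrank_mono ?_)
    (finrank_fixed_ad0Rep_le p rbar (primeLocalToGlobal q.1 τ) hg hαβ)
  intro m hm
  have h1 := hm τ
  rw [LinearMap.mem_ker, LinearMap.sub_apply, Module.End.one_apply, sub_eq_zero]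
  exact h1

/-- **The local count at a Taylor–Wiles prime**: with the full local condition,
`h¹(G_q, ad⁰) ≤ h⁰(G_q, ad⁰) + [k : 𝔽_p]`. -/
theorem finrank_locH1_le (B : GWPackage p) (S' : Finset Nat.Primes) (q : ↥S')
    (hqp : q.1 ≠ pPrime p) (rbar : Γℚ →* M₂ k) (hM : IsGoodModule p S' (ad0Rep p rbar))
    (hTW : IsTWAt rbar (q.1 : ℕ)) (hpq : p ∣ (q.1 : ℕ) - 1) :
    finrank (ZMod p) (locH1 S' (ad0Rep p rbar) (Sum.inr q)) ≤
      finrank (ZMod p) (locH0 S' (ad0Rep p rbar) (Sum.inr q)) + finrank (ZMod p) k := by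
  rw [B.localEuler_ne S' (ad0Rep p rbar) hM q hqp]
  exact Nat.add_le_add_left (finrank_locH0_tateDual_le p S' q rbar hTW hpq) _

/-! ### The Taylor–Wiles condition for a `ResidualGaloisRep` -/

/-- The condition of `IsTWFamily` at `q` for `ρbar` gives `IsTWAt` for its matrix in any basis. -/
theorem isTWAt_toMatResOfBasis (ρbar : ResidualGaloisRep k) (b : Module.Basis (Fin 2) k ρbar.V)
    (q : ℕ)
    (h : ∀ P : ValuationSubring (AlgebraicClosure ℚ), P.LiesOverPrime q →
      ∀ φ : Γℚ, P.IsFrobeniusAt φ q →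
        ∃ α β : k, α ≠ β ∧ LinearMap.charpoly (ρbar.ρ φ) = (X - C α) * (X - C β)) :
    IsTWAt (Fermat.Agent.S53.toMatResOfBasis ρbar b) q := by
  intro P hP φ hφ
  obtain ⟨α, β, hαβ, hc⟩ := h P hP φ hφ
  refine ⟨α, β, hαβ, ?_⟩
  rw [Fermat.Agent.S53.toMatResOfBasis_apply, LinearMap.charpoly_toMatrix]
  exact hc

/-- **The local count at a Taylor–Wiles prime**, with the Taylor–Wiles condition in the form of
`IsTWFamily` and `rbar` the matrix of `ρbar` in a basis. -/
theorem finrank_locH1_le_of_residual (B : GWPackage p) (S' : Finset Nat.Primes) (q : ↥S')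
    (hqp : q.1 ≠ pPrime p) (ρbar : ResidualGaloisRep k) (b : Module.Basis (Fin 2) k ρbar.V)
    (hM : IsGoodModule p S' (ad0Rep p (Fermat.Agent.S53.toMatResOfBasis ρbar b)))
    (h : ∀ P : ValuationSubring (AlgebraicClosure ℚ), P.LiesOverPrime (q.1 : ℕ) →
      ∀ φ : Γℚ, P.IsFrobeniusAt φ (q.1 : ℕ) →
        ∃ α β : k, α ≠ β ∧ LinearMap.charpoly (ρbar.ρ φ) = (X - C α) * (X - C β))
    (hpq : p ∣ (q.1 : ℕ) - 1) :
    finrank (ZMod p) (locH1 S' (ad0Rep p (Fermat.Agent.S53.toMatResOfBasis ρbar b)) (Sum.inr q)) ≤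
      finrank (ZMod p) (locH0 S' (ad0Rep p (Fermat.Agent.S53.toMatResOfBasis ρbar b)) (Sum.inr q)) +
        finrank (ZMod p) k :=
  finrank_locH1_le p B S' q hqp _ hM (isTWAt_toMatResOfBasis ρbar b _ h) hpq

end Fermat.Agent.S56x.Local.TWPrimeCount
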