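/-
P-S56 (Taylor–Wiles primes), block (C), item (C-d) (helper53): the tangent space of the
"unipotent inertia" condition at a prime `q ∈ Smin`, `q ≠ p` — PURE MATRIX ALGEBRA.

Setting: a group `G`, a subgroup `I` (inertia), `rbar : G →* M₂(k)` and a map `c : G → M₂(k)` with
`c (s t) = c s + rbar s * c t * rbar s⁻¹` on `I` (a tangent cocycle), such that for every `s ∈ I`

* `rbar s` is unipotent (`trace = 2`, `det = 1`), and `rbar` is non-trivial on `I`;
* `trace (c s) = 0` and `trace (c s * rbar s) = 0`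
  (this is what "the lift `(1 + ε c) rbar` has unipotent inertia" means, `Dict/Conditions`).

Results:

* `exists_std` (Kolchin in dimension 2): after a change of basis `rbar s = (1 a(s); 0 1)` on `I`;
* `c_lower_left_zero` : in that basis `c s` is upper triangular for every `s ∈ I`;
* `exists_coboundary_std`, `exists_coboundary` : if every (admissible) additive character of `I`
  is a multiple of a fixed non-zero one (tame inertia is pro-cyclic) then `c` restricted to `I` is
  a coboundary: `c s = X - rbar s * X * rbar s⁻¹` for all `s ∈ I`, with `trace X = 0`.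
  Hence the class of `c` is unramified: the local condition at `q` is `H¹_unr`.
-/
import Mathlib

set_option autoImplicit false
set_option linter.unusedSectionVars false
set_option maxHeartbeats 400000
set_option linter.unusedSimpArgs false
set_option linter.unnecessarySeqFocus false

namespace Fermat.Agent.S56x.Local.UnipotentTangent

variable {k : Type*} [Field k]

local notation "M₂" => Matrix (Fin 2) (Fin 2)

/-! ### `2 × 2` computations -/

/-- the standard unipotent matrix. -/
def uni (a : k) : M₂ k := !![1, a; 0, 1]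

theorem uni_mul (a b : k) : uni a * uni b = uni (a + b) := by
  unfold uni
  ext i j
  fin_cases i <;> fin_cases j <;>
    simp [Matrix.mul_apply, Fin.sum_univ_two, Matrix.vecMul, dotProduct] <;> ring

theorem uni_zero : uni (0 : k) = 1 := by
  unfold uni
  ext i j
  fin_cases i <;> fin_cases j <;> simp

theorem uni_injective {a b : k} (h : uni a = uni b) : a = b := by
  have := congrFun (congrFun h 0) 1
  simpa [uni] using this

theorem uni_conj (a : k) (Y : M₂ k) :
    uni a * Y * uni (-a) =
      !![Y 0 0 + a * Y 1 0, Y 0 1 + a * (Y 1 1 - Y 0 0) - a ^ 2 * Y 1 0;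
        Y 1 0, Y 1 1 - a * Y 1 0] := by
  unfold uni
  ext i j
  fin_cases i <;> fin_cases j <;>
    simp [Matrix.mul_apply, Fin.sum_univ_two, Matrix.vecMul, dotProduct] <;> ring

theorem trace_mul_uni (a : k) (Y : M₂ k) : (Y * uni a).trace = Y.trace + a * Y 1 0 := by
  unfold uni
  rw [Matrix.trace_fin_two, Matrix.trace_fin_two]
  simp [Matrix.mul_apply, Fin.sum_univ_two]
  ring

/-! ### Standard position -/

section Std

variable {G : Type*} [Group G] (I : Subgroup G) (rbar : G →* M₂ k) (c : G → M₂ k) (a : G → k)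
  (hstd : ∀ s ∈ I, rbar s = uni (a s))
  (hcoc : ∀ s ∈ I, ∀ t ∈ I, c (s * t) = c s + rbar s * c t * rbar s⁻¹)
  (htr : ∀ s ∈ I, (c s).trace = 0)
  (htr' : ∀ s ∈ I, (c s * rbar s).trace = 0)
  (hs0 : ∃ s0 ∈ I, a s0 ≠ 0)

include hstd in
theorem a_mul {s t : G} (hs : s ∈ I) (ht : t ∈ I) : a (s * t) = a s + a t := by
  have h := hstd (s * t) (I.mul_mem hs ht)
  rw [map_mul, hstd s hs, hstd t ht, uni_mul] at h
  exact (uni_injective h).symm

include hstd in
theorem a_one : a 1 = 0 := by
  have h := a_mul I rbar a hstd I.one_mem I.one_mem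
  rw [mul_one] at h
  have : a 1 + 0 = a 1 + a 1 := by rw [add_zero]; exact h
  exact (add_left_cancel this).symm

include hstd in
theorem a_inv {s : G} (hs : s ∈ I) : a s⁻¹ = -a s := by
  have h := a_mul I rbar a hstd hs (I.inv_mem hs)
  rw [mul_inv_cancel, a_one I rbar a hstd] at h
  exact (neg_eq_of_add_eq_zero_right h.symm).symm

include hstd in
theorem rbar_inv {s : G} (hs : s ∈ I) : rbar s⁻¹ = uni (-a s) := by
  rw [hstd _ (I.inv_mem hs), a_inv I rbar a hstd hs]

include hstd hcoc in
/-- the cocycle relation, entrywise. -/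
theorem c_mul_entries {s t : G} (hs : s ∈ I) (ht : t ∈ I) :
    c (s * t) = c s +
      !![c t 0 0 + a s * c t 1 0, c t 0 1 + a s * (c t 1 1 - c t 0 0) - a s ^ 2 * c t 1 0;
        c t 1 0, c t 1 1 - a s * c t 1 0] := by
  rw [hcoc s hs t ht, hstd s hs, rbar_inv I rbar a hstd hs, uni_conj]

include hstd hcoc in
theorem c10_mul {s t : G} (hs : s ∈ I) (ht : t ∈ I) : c (s * t) 1 0 = c s 1 0 + c t 1 0 := by
  rw [c_mul_entries I rbar c a hstd hcoc hs ht]
  simp

include hstd htr htr' in
theorem a_mul_c10 {s : G} (hs : s ∈ I) : a s * c s 1 0 = 0 := by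
  have h := htr' s hs
  rw [hstd s hs, trace_mul_uni, htr s hs, zero_add] at h
  exact h

include hstd hcoc htr htr' hs0 in
/-- **`c s` is upper triangular for `s ∈ I`.** -/
theorem c10_eq_zero {s : G} (hs : s ∈ I) : c s 1 0 = 0 := by
  obtain ⟨s0, hs0I, hs0⟩ := hs0
  have key : ∀ t ∈ I, a t ≠ 0 → c t 1 0 = 0 := by
    intro t ht hat
    have := a_mul_c10 I rbar c a hstd htr htr' ht
    exact (mul_eq_zero.mp this).resolve_left hat
  by_cases has : a s = 0
  · have h1 : a (s * s0) ≠ 0 := by
      rw [a_mul I rbar a hstd hs hs0I, has, zero_add]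
      exact hs0
    have h2 := key (s * s0) (I.mul_mem hs hs0I) h1
    rw [c10_mul I rbar c a hstd hcoc hs hs0I, key s0 hs0I hs0, add_zero] at h2
    exact h2
  · exact key s hs has

include hstd hcoc htr htr' hs0 in
theorem c11_eq {s : G} (hs : s ∈ I) : c s 1 1 = -c s 0 0 := by
  have h := htr s hs
  rw [Matrix.trace_fin_two] at h
  exact (neg_eq_of_add_eq_zero_right h).symm

include hstd hcoc htr htr' hs0 in
/-- the diagonal entry is an additive character of `I`. -/
theorem c00_mul {s t : G} (hs : s ∈ I) (ht : t ∈ I) : c (s * t) 0 0 = c s 0 0 + c t 0 0 := by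
  rw [c_mul_entries I rbar c a hstd hcoc hs ht]
  simp [c10_eq_zero I rbar c a hstd hcoc htr htr' hs0 ht]

include hstd hcoc htr htr' hs0 in
/-- the upper right entry is a twisted character of `I`. -/
theorem c01_mul {s t : G} (hs : s ∈ I) (ht : t ∈ I) :
    c (s * t) 0 1 = c s 0 1 + c t 0 1 - 2 * a s * c t 0 0 := by
  rw [c_mul_entries I rbar c a hstd hcoc hs ht]
  simp [c10_eq_zero I rbar c a hstd hcoc htr htr' hs0 ht,
    c11_eq I rbar c a hstd hcoc htr htr' hs0 ht]
  ring

include hstd hcoc htr htr' hs0 in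
/-- **Standard position**: if every admissible additive character of `I` is a multiple of `a`,
then `c` is a coboundary on `I`. -/
theorem exists_coboundary_std (h2 : (2 : k) ≠ 0) (U : Subgroup G)
    (hU : ∀ u ∈ I, u ∈ U → a u = 0 ∧ c u = 0)
    (hF : ∀ f : G → k, (∀ s ∈ I, ∀ t ∈ I, f (s * t) = f s + f t) →
      (∀ u ∈ I, u ∈ U → f u = 0) → ∃ z : k, ∀ s ∈ I, f s = z * a s) :
    ∃ X : M₂ k, X.trace = 0 ∧ ∀ s ∈ I, c s = X - rbar s * X * rbar s⁻¹ := by
  -- the diagonal character
  obtain ⟨z, hz⟩ := hF (fun s => c s 0 0)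
    (fun s hs t ht => c00_mul I rbar c a hstd hcoc htr htr' hs0 hs ht)
    (fun u hu huU => by rw [(hU u hu huU).2]; rfl)
  -- the corrected upper right character
  obtain ⟨x, hx⟩ := hF (fun s => c s 0 1 + z * a s ^ 2)
    (fun s hs t ht => by
      rw [c01_mul I rbar c a hstd hcoc htr htr' hs0 hs ht, a_mul I rbar a hstd hs ht, hz t ht]
      ring)
    (fun u hu huU => by
      rw [(hU u hu huU).2, (hU u hu huU).1]
      simp)
  refine ⟨!![x / 2, 0; -z, -(x / 2)], ?_, ?_⟩
  · rw [Matrix.trace_fin_two]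
    simp
  · intro s hs
    rw [hstd s hs, rbar_inv I rbar a hstd hs, uni_conj]
    have h00 : c s 0 0 = z * a s := hz s hs
    have h01 : c s 0 1 = x * a s - z * a s ^ 2 := by
      have := hx s hs
      rw [← this]
      ring
    have h10 : c s 1 0 = 0 := c10_eq_zero I rbar c a hstd hcoc htr htr' hs0 hs
    have h11 : c s 1 1 = -(z * a s) := by
      rw [c11_eq I rbar c a hstd hcoc htr htr' hs0 hs, h00]
    ext i j
    fin_cases i <;> fin_cases j
    · simp [h00]
      ring
    · simp [h01]
      field_simp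
      ring
    · simp [h10]
    · simp [h11]
      ring

end Std

/-! ### Kolchin's theorem in dimension two -/

section Kolchin

/-- a unipotent `2 × 2` matrix different from `1` can be conjugated to `(1 1; 0 1)`. -/
theorem exists_conj_eq_uni_one {A : M₂ k} (htr : A.trace = 2) (hdet : A.det = 1) (hA : A ≠ 1) :
    ∃ g g' : M₂ k, g * g' = 1 ∧ g' * g = 1 ∧ g * A * g' = uni 1 := by
  rw [Matrix.trace_fin_two] at htr
  rw [Matrix.det_fin_two] at hdet
  -- entries of `N = A - 1`
  set x := A 0 0 - 1 with hx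
  set y := A 0 1 with hy
  set z := A 1 0 with hz
  have h11 : A 1 1 = 1 - x := by rw [hx]; linear_combination htr
  have h00 : A 0 0 = 1 + x := by rw [hx]; ring
  have hnil : x ^ 2 + y * z = 0 := by
    rw [h00, h11] at hdet
    linear_combination -hdet
  have hAeq : A = !![1 + x, y; z, 1 - x] := by
    rw [Matrix.eta_fin_two A, ← h00, ← h11]
  by_cases hz0 : z = 0
  · have hx0 : x = 0 := by
      rw [hz0, mul_zero, add_zero] at hnil
      exact pow_eq_zero_iff (two_ne_zero) |>.mp hnil
    have hy0 : y ≠ 0 := by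
      intro hy0
      apply hA
      rw [hAeq, hx0, hy0, hz0]
      ext i j
      fin_cases i <;> fin_cases j <;> simp
    refine ⟨!![y⁻¹, 0; 0, 1], !![y, 0; 0, 1], ?_, ?_, ?_⟩
    · ext i j
      fin_cases i <;> fin_cases j <;> simp [Matrix.mul_apply, Fin.sum_univ_two, hy0]
    · ext i j
      fin_cases i <;> fin_cases j <;> simp [Matrix.mul_apply, Fin.sum_univ_two, hy0]
    · rw [hAeq, hx0, hz0]
      unfold uni
      ext i j
      fin_cases i <;> fin_cases j <;>
        simp [Matrix.mul_apply, Fin.sum_univ_two, Matrix.vecMul, dotProduct, hy0]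
  · refine ⟨!![0, z⁻¹; 1, -(x * z⁻¹)], !![x, 1; z, 0], ?_, ?_, ?_⟩
    · ext i j
      fin_cases i <;> fin_cases j <;> simp [Matrix.mul_apply, Fin.sum_univ_two, hz0]
    · ext i j
      fin_cases i <;> fin_cases j <;> simp [Matrix.mul_apply, Fin.sum_univ_two, hz0]
    · rw [hAeq]
      unfold uni
      ext i j
      fin_cases i <;> fin_cases j <;>
        simp [Matrix.mul_apply, Fin.sum_univ_two, Matrix.vecMul, dotProduct, hz0] <;>
        first
          | done
          | (field_simp; done)
          | (field_simp; ring1)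
          | (field_simp; linear_combination hnil)

/-- a unipotent `2 × 2` matrix with vanishing lower left entry is `uni`. -/
theorem eq_uni_of_lower_left_zero {A : M₂ k} (htr : A.trace = 2) (hdet : A.det = 1)
    (h10 : A 1 0 = 0) : A = uni (A 0 1) := by
  rw [Matrix.trace_fin_two] at htr
  rw [Matrix.det_fin_two, h10, mul_zero, sub_zero] at hdet
  have h1 : (A 0 0 - 1) ^ 2 = 0 := by
    have e : A 1 1 = 2 - A 0 0 := by linear_combination htr
    rw [e] at hdet
    linear_combination -hdet
  have h00 : A 0 0 = 1 := by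
    have := pow_eq_zero_iff (two_ne_zero) |>.mp h1
    linear_combination this
  have h11 : A 1 1 = 1 := by
    rw [h00] at htr
    linear_combination htr
  unfold uni
  rw [Matrix.eta_fin_two A, h00, h11, h10]
  simp

/-- unipotent in the characteristic polynomial form. -/
theorem trace_det_of_charpoly {A : M₂ k} (h : A.charpoly = (Polynomial.X - 1) ^ 2) :
    A.trace = 2 ∧ A.det = 1 := by
  rw [Matrix.charpoly_fin_two] at h
  have e : ((Polynomial.X - 1) ^ 2 : Polynomial k) =
      Polynomial.X ^ 2 - Polynomial.C 2 * Polynomial.X + Polynomial.C 1 := by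
    simp only [map_ofNat, map_one]
    ring
  rw [e] at h
  have h1 := congrArg (fun q : Polynomial k => q.coeff 1) h
  have h0 := congrArg (fun q : Polynomial k => q.coeff 0) h
  simp only [Polynomial.coeff_add, Polynomial.coeff_sub, Polynomial.coeff_X_pow,
    Polynomial.coeff_C_mul, Polynomial.coeff_X_one, Polynomial.coeff_X_zero, Polynomial.coeff_C]
    at h1 h0
  constructor
  · simpa using h1
  · simpa using h0

end Kolchin

/-! ### Conjugation -/

section Conj

theorem trace_conj {g g' : M₂ k} (hg : g' * g = 1) (Y : M₂ k) : (g * Y * g').trace = Y.trace := by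
  rw [Matrix.trace_mul_comm, ← Matrix.mul_assoc, hg, Matrix.one_mul]

theorem det_conj {g g' : M₂ k} (hg : g * g' = 1) (Y : M₂ k) : (g * Y * g').det = Y.det := by
  rw [Matrix.det_mul, Matrix.det_mul, mul_comm (g.det), mul_assoc, ← Matrix.det_mul, hg,
    Matrix.det_one, mul_one]

theorem conj_mul {g g' : M₂ k} (hg : g' * g = 1) (Y Z : M₂ k) :
    g * (Y * Z) * g' = (g * Y * g') * (g * Z * g') := by
  calc g * (Y * Z) * g' = g * Y * (1 * Z) * g' := by rw [Matrix.one_mul, Matrix.mul_assoc g Y Z]
    _ = g * Y * (g' * g * Z) * g' := by rw [hg]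
    _ = (g * Y * g') * (g * Z * g') := by simp only [Matrix.mul_assoc]

variable {G : Type*} [Group G]

/-- the conjugate representation. -/
def conjHom {g g' : M₂ k} (hg : g * g' = 1) (hg' : g' * g = 1) (rbar : G →* M₂ k) :
    G →* M₂ k where
  toFun s := g * rbar s * g'
  map_one' := by rw [map_one, Matrix.mul_one, hg]
  map_mul' s t := by rw [map_mul, conj_mul hg']

@[simp] theorem conjHom_apply {g g' : M₂ k} (hg : g * g' = 1) (hg' : g' * g = 1)
    (rbar : G →* M₂ k) (s : G) : conjHom hg hg' rbar s = g * rbar s * g' := rfl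

end Conj

/-! ### General position -/

section Gen

variable {G : Type*} [Group G] (I : Subgroup G) (rbar : G →* M₂ k) (c : G → M₂ k)
  (hunip : ∀ s ∈ I, (rbar s).trace = 2 ∧ (rbar s).det = 1)
  (hram : ∃ s0 ∈ I, rbar s0 ≠ 1)

include hunip hram in
/-- **Kolchin in dimension two**: a group of unipotent `2 × 2` matrices, not all trivial, is
conjugate to a group of upper unitriangular matrices. -/
theorem exists_std :
    ∃ (g g' : M₂ k) (hg : g * g' = 1) (hg' : g' * g = 1) (a : G → k),
      (∀ s ∈ I, conjHom hg hg' rbar s = uni (a s)) ∧ ∃ s0 ∈ I, a s0 ≠ 0 := by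
  obtain ⟨s0, hs0I, hs0⟩ := hram
  obtain ⟨g, g', hg, hg', h0⟩ :=
    exists_conj_eq_uni_one (hunip s0 hs0I).1 (hunip s0 hs0I).2 hs0
  refine ⟨g, g', hg, hg', fun s => (g * rbar s * g') 0 1, ?_, s0, hs0I, ?_⟩
  · intro s hs
    rw [conjHom_apply]
    have htr : (g * rbar s * g').trace = 2 := by rw [trace_conj hg', (hunip s hs).1]
    have hdet : (g * rbar s * g').det = 1 := by rw [det_conj hg, (hunip s hs).2]
    apply eq_uni_of_lower_left_zero htr hdet
    -- the product with `s0` is unipotent
    have h1 : ((g * rbar s * g') * uni 1).trace = 2 := by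
      rw [← h0, ← conj_mul hg', ← map_mul, trace_conj hg']
      exact (hunip _ (I.mul_mem hs hs0I)).1
    rw [trace_mul_uni, htr, one_mul] at h1
    linear_combination h1
  · show (g * rbar s0 * g') 0 1 ≠ 0
    rw [h0]
    simp [uni]

variable (hcoc : ∀ s ∈ I, ∀ t ∈ I, c (s * t) = c s + rbar s * c t * rbar s⁻¹)
  (htr : ∀ s ∈ I, (c s).trace = 0)
  (htr' : ∀ s ∈ I, (c s * rbar s).trace = 0)

include hunip hram hcoc htr htr' in
/-- **`c s` preserves the line fixed by `rbar I`**: `trace (c s * (rbar s0 - 1)) = 0` for all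
`s, s0 ∈ I`. -/
theorem trace_mul_sub_one_eq_zero {s t : G} (hs : s ∈ I) (ht : t ∈ I) :
    (c s * (rbar t - 1)).trace = 0 := by
  obtain ⟨g, g', hg, hg', a, hstd, hs0⟩ := exists_std I rbar hunip hram
  -- transport to standard position
  have hcoc' : ∀ s ∈ I, ∀ t ∈ I, g * c (s * t) * g' =
      g * c s * g' + conjHom hg hg' rbar s * (g * c t * g') * conjHom hg hg' rbar s⁻¹ := by
    intro s hs t ht
    rw [hcoc s hs t ht, Matrix.mul_add, Matrix.add_mul, conj_mul hg', conj_mul hg']
    rfl
  have htrc : ∀ s ∈ I, (g * c s * g').trace = 0 := fun s hs => by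
    rw [trace_conj hg', htr s hs]
  have htrc' : ∀ s ∈ I, (g * c s * g' * conjHom hg hg' rbar s).trace = 0 := fun s hs => by
    rw [conjHom_apply, ← conj_mul hg', trace_conj hg', htr' s hs]
  have h10 := c10_eq_zero I (conjHom hg hg' rbar) (fun s => g * c s * g') a hstd hcoc' htrc
    htrc' hs0 hs
  have e : (c s * (rbar t - 1)).trace = ((g * c s * g') * (uni (a t) - 1)).trace := by
    rw [← hstd t ht, conjHom_apply]
    have : g * rbar t * g' - 1 = g * (rbar t - 1) * g' := by
      rw [Matrix.mul_sub, Matrix.sub_mul, Matrix.mul_one, hg]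
    rw [this, ← conj_mul hg', trace_conj hg']
  rw [e, Matrix.mul_sub, Matrix.mul_one, Matrix.trace_sub, trace_mul_uni, htrc s hs]
  rw [h10]
  ring

include hunip hram hcoc htr htr' in
/-- **The unipotent tangent condition forces unramified classes**: if any two admissible additive
characters of `I` are proportional (tame inertia is pro-cyclic), then `c` is a coboundary on `I`.
Admissible: vanishing on `I ⊓ U`, where `U` is a subgroup on which `rbar = 1` and `c = 0`. -/
theorem exists_coboundary (h2 : (2 : k) ≠ 0) (U : Subgroup G)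
    (hU : ∀ u ∈ I, u ∈ U → rbar u = 1 ∧ c u = 0)
    (hF : ∀ f₁ f₂ : G → k, (∀ s ∈ I, ∀ t ∈ I, f₁ (s * t) = f₁ s + f₁ t) →
      (∀ u ∈ I, u ∈ U → f₁ u = 0) → (∀ s ∈ I, ∀ t ∈ I, f₂ (s * t) = f₂ s + f₂ t) →
      (∀ u ∈ I, u ∈ U → f₂ u = 0) → (∃ s ∈ I, f₁ s ≠ 0) → ∃ z : k, ∀ s ∈ I, f₂ s = z * f₁ s) :
    ∃ X : M₂ k, X.trace = 0 ∧ ∀ s ∈ I, c s = X - rbar s * X * rbar s⁻¹ := by
  obtain ⟨g, g', hg, hg', a, hstd, hs0⟩ := exists_std I rbar hunip hram
  have hcoc' : ∀ s ∈ I, ∀ t ∈ I, g * c (s * t) * g' =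
      g * c s * g' + conjHom hg hg' rbar s * (g * c t * g') * conjHom hg hg' rbar s⁻¹ := by
    intro s hs t ht
    rw [hcoc s hs t ht, Matrix.mul_add, Matrix.add_mul, conj_mul hg', conj_mul hg']
    rfl
  have htrc : ∀ s ∈ I, (g * c s * g').trace = 0 := fun s hs => by
    rw [trace_conj hg', htr s hs]
  have htrc' : ∀ s ∈ I, (g * c s * g' * conjHom hg hg' rbar s).trace = 0 := fun s hs => by
    rw [conjHom_apply, ← conj_mul hg', trace_conj hg', htr' s hs]
  have haU : ∀ u ∈ I, u ∈ U → a u = 0 := by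
    intro u hu huU
    have h1 := hstd u hu
    rw [conjHom_apply, (hU u hu huU).1, Matrix.mul_one, hg, ← uni_zero] at h1
    exact (uni_injective h1).symm
  have hU' : ∀ u ∈ I, u ∈ U → a u = 0 ∧ g * c u * g' = 0 := by
    intro u hu huU
    refine ⟨haU u hu huU, ?_⟩
    rw [(hU u hu huU).2, Matrix.mul_zero, Matrix.zero_mul]
  have hF' : ∀ f : G → k, (∀ s ∈ I, ∀ t ∈ I, f (s * t) = f s + f t) →
      (∀ u ∈ I, u ∈ U → f u = 0) → ∃ z : k, ∀ s ∈ I, f s = z * a s := by
    intro f hf hfU
    exact hF a f (fun s hs t ht => a_mul I (conjHom hg hg' rbar) a hstd hs ht) haU hf hfU hs0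
  obtain ⟨X', hX'tr, hX'⟩ := exists_coboundary_std I (conjHom hg hg' rbar)
    (fun s => g * c s * g') a hstd hcoc' htrc htrc' hs0 h2 U hU' hF'
  refine ⟨g' * X' * g, ?_, ?_⟩
  · rw [trace_conj hg, hX'tr]
  · intro s hs
    have h1 := hX' s hs
    simp only [conjHom_apply] at h1
    -- conjugate back
    have h2' : c s = g' * (g * c s * g') * g := by
      simp only [Matrix.mul_assoc]
      rw [hg', Matrix.mul_one, ← Matrix.mul_assoc, hg', Matrix.one_mul]
    rw [h2', h1, Matrix.mul_sub, Matrix.sub_mul]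
    congr 1
    simp only [Matrix.mul_assoc]
    rw [hg', Matrix.mul_one]
    simp only [← Matrix.mul_assoc]
    rw [hg', Matrix.one_mul]

end Gen

end Fermat.Agent.S56x.Local.UnipotentTangent
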