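/-
P-S56, block (C) (helper53): **additive characters of the inertia group of a place of `ℚ̄` over
`q`, with values in a field in which `q ≠ 0` and trivial on a subgroup of finite level, are
proportional** — hypothesis `(F)` of `Local/UnipotentTangent.exists_coboundary`, discharged in the
language of the Prelude (`P.inertiaSubgroupIn ℚ`, `P.LiesOverPrime q`), and the resulting
unconditional statement `exists_coboundary_inertia` : a tangent cocycle whose lift is unipotent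
on inertia at `q` (and `rbar` ramified at `q`) is a coboundary on the inertia group.

Built on helper15's finite-level dictionary (`Hens/FiniteLevel`, `Hens/TameGlobal`) and on
`Ram/TameStructure.exists_mul_of_additive`.
-/
import Mathlib
import Fermat.Agent.S56x.Hens.TameGlobal
import Fermat.Agent.S56x.Ram.TameStructure
import Fermat.Agent.S56x.Local.UnipotentTangent

set_option autoImplicit false
set_option linter.unusedSectionVars false
set_option maxHeartbeats 400000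
set_option linter.style.haveILetI false
set_option linter.unusedVariables false

namespace Fermat.Agent.S56x.Local.InertiaTame

open IsLocalRing Fermat.Agent.S56x.Hens Fermat.Agent.S56x.Ram

/-! ### Finite Galois level -/

section Level

variable {L : Type*} [Field L] [Algebra ℚ L] [IsGalois ℚ L]
variable (P : ValuationSubring L) (E : IntermediateField ℚ L) [FiniteDimensional ℚ E]
  [IsGalois ℚ E]

/-- every element of the finite-level inertia group lies in Serre's `G₀`. -/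
theorem lowerGroup_one_eq_top [IsDiscreteValuationRing (below P E)] :
    lowerGroup (inertiaLevel P E) (below P E) 1 = ⊤ := by
  rw [eq_top_iff]
  intro σ _
  rw [mem_lowerGroup]
  intro b
  rw [pow_one]
  exact inertiaLevel_hres P E σ b

variable {k : Type*} [Field k]

/-- an additive map on the inertia group vanishing on the part of level `E` only depends on the
restriction to `E`. -/
theorem eq_of_restrict_eq (f : (L ≃ₐ[ℚ] L) → k)
    (hf : ∀ s ∈ P.inertiaSubgroupIn ℚ, ∀ t ∈ P.inertiaSubgroupIn ℚ, f (s * t) = f s + f t)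
    (hfU : ∀ u ∈ P.inertiaSubgroupIn ℚ, u ∈ E.fixingSubgroup → f u = 0)
    {s t : L ≃ₐ[ℚ] L} (hs : s ∈ P.inertiaSubgroupIn ℚ) (ht : t ∈ P.inertiaSubgroupIn ℚ)
    (hst : AlgEquiv.restrictNormalHom E s = AlgEquiv.restrictNormalHom E t) : f s = f t := by
  have h1 : s⁻¹ * t ∈ P.inertiaSubgroupIn ℚ :=
    (P.inertiaSubgroupIn ℚ).mul_mem ((P.inertiaSubgroupIn ℚ).inv_mem hs) ht
  have h2 : s⁻¹ * t ∈ E.fixingSubgroup := by
    rw [← restrictNormalHom_ker_eq, MonoidHom.mem_ker, map_mul, map_inv, hst, inv_mul_cancel]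
  have h3 := hf s hs _ h1
  rw [mul_inv_cancel_left, hfU _ h1 h2, add_zero] at h3
  exact h3.symm

/-- a chosen lift to the inertia group of `P` of an element of the finite-level inertia group. -/
noncomputable def liftI (σ : inertiaLevel P E) : L ≃ₐ[ℚ] L :=
  ((Classical.choose (Subgroup.mem_map.mp σ.2) : P.decompositionSubgroup ℚ) : L ≃ₐ[ℚ] L)

theorem liftI_mem (σ : inertiaLevel P E) : liftI P E σ ∈ P.inertiaSubgroupIn ℚ := by
  have h := (Classical.choose_spec (Subgroup.mem_map.mp σ.2)).1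
  rw [ValuationSubring.inertiaSubgroupIn, Subgroup.mem_map]
  exact ⟨_, h, rfl⟩

theorem restrict_liftI (σ : inertiaLevel P E) :
    AlgEquiv.restrictNormalHom E (liftI P E σ) =
      ((σ : (below P E).decompositionSubgroup ℚ) : E ≃ₐ[ℚ] E) := by
  have h := (Classical.choose_spec (Subgroup.mem_map.mp σ.2)).2
  have h2 := congrArg (fun x : (below P E).decompositionSubgroup ℚ => (x : E ≃ₐ[ℚ] E)) h
  exact h2

/-- **`(F)` at a finite Galois level.** -/
theorem exists_mul_of_additive_level {q : ℕ} [Fact q.Prime] (hP : P.LiesOverPrime q)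
    (hqk : (q : k) ≠ 0) (f₁ f₂ : (L ≃ₐ[ℚ] L) → k)
    (h₁ : ∀ s ∈ P.inertiaSubgroupIn ℚ, ∀ t ∈ P.inertiaSubgroupIn ℚ, f₁ (s * t) = f₁ s + f₁ t)
    (h₁U : ∀ u ∈ P.inertiaSubgroupIn ℚ, u ∈ E.fixingSubgroup → f₁ u = 0)
    (h₂ : ∀ s ∈ P.inertiaSubgroupIn ℚ, ∀ t ∈ P.inertiaSubgroupIn ℚ, f₂ (s * t) = f₂ s + f₂ t)
    (h₂U : ∀ u ∈ P.inertiaSubgroupIn ℚ, u ∈ E.fixingSubgroup → f₂ u = 0)
    (hne : ∃ s ∈ P.inertiaSubgroupIn ℚ, f₁ s ≠ 0) :
    ∃ z : k, ∀ s ∈ P.inertiaSubgroupIn ℚ, f₂ s = z * f₁ s := by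
  have hq : q.Prime := Fact.out
  haveI : IsDiscreteValuationRing (below P E) := isDiscreteValuationRing_below P E hq hP
  haveI : Finite (E ≃ₐ[ℚ] E) := finite_algEquiv_level E
  haveI : Finite (inertiaLevel P E) := inferInstance
  have hqm : ((q : ℕ) : below P E) ∈ maximalIdeal (below P E) := by
    rw [← ValuationSubring.coe_mem_nonunits_iff]
    have := below_liesOverPrime P E hP
    have h2 : ((((q : ℕ) : below P E) : below P E) : E) = ((q : ℕ) : E) := by simp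
    rw [h2]
    exact this
  -- the descended maps
  have hadd : ∀ (f : (L ≃ₐ[ℚ] L) → k),
      (∀ s ∈ P.inertiaSubgroupIn ℚ, ∀ t ∈ P.inertiaSubgroupIn ℚ, f (s * t) = f s + f t) →
      (∀ u ∈ P.inertiaSubgroupIn ℚ, u ∈ E.fixingSubgroup → f u = 0) →
      ∀ σ ∈ lowerGroup (inertiaLevel P E) (below P E) 1,
        ∀ τ ∈ lowerGroup (inertiaLevel P E) (below P E) 1,
          f (liftI P E (σ * τ)) = f (liftI P E σ) + f (liftI P E τ) := by
    intro f hf hfU σ _ τ _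
    rw [← hf _ (liftI_mem P E σ) _ (liftI_mem P E τ)]
    apply eq_of_restrict_eq P E f hf hfU (liftI_mem P E _)
      ((P.inertiaSubgroupIn ℚ).mul_mem (liftI_mem P E σ) (liftI_mem P E τ))
    rw [map_mul, restrict_liftI, restrict_liftI, restrict_liftI]
    rfl
  -- every element of the inertia group comes from the finite level
  have hdesc : ∀ s ∈ P.inertiaSubgroupIn ℚ, ∃ σ : inertiaLevel P E,
        ∀ (f : (L ≃ₐ[ℚ] L) → k),
          (∀ s ∈ P.inertiaSubgroupIn ℚ, ∀ t ∈ P.inertiaSubgroupIn ℚ, f (s * t) = f s + f t) →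
          (∀ u ∈ P.inertiaSubgroupIn ℚ, u ∈ E.fixingSubgroup → f u = 0) →
            f (liftI P E σ) = f s := by
    intro s hs
    have hs' := hs
    rw [ValuationSubring.inertiaSubgroupIn, Subgroup.mem_map] at hs'
    obtain ⟨τ, hτ, rfl⟩ := hs'
    refine ⟨⟨restrictDecomp P E τ, τ, hτ, rfl⟩, fun f hf hfU => ?_⟩
    apply eq_of_restrict_eq P E f hf hfU (liftI_mem P E _) hs
    rw [restrict_liftI]
    rfl
  have hne' : ∃ σ ∈ lowerGroup (inertiaLevel P E) (below P E) 1,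
      (fun σ => f₁ (liftI P E σ)) σ ≠ 0 := by
    obtain ⟨s, hs, hs0⟩ := hne
    obtain ⟨σ, hσ⟩ := hdesc s hs
    refine ⟨σ, by rw [lowerGroup_one_eq_top]; exact Subgroup.mem_top σ, ?_⟩
    show f₁ (liftI P E σ) ≠ 0
    rw [hσ f₁ h₁ h₁U]
    exact hs0
  obtain ⟨z, hz⟩ := TameStructure.exists_mul_of_additive (G := inertiaLevel P E)
    (B := below P E) hqm hqk (fun σ => f₁ (liftI P E σ)) (fun σ => f₂ (liftI P E σ))
    (hadd f₁ h₁ h₁U) (hadd f₂ h₂ h₂U) hne'
  refine ⟨z, fun s hs => ?_⟩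
  obtain ⟨σ, hσ⟩ := hdesc s hs
  have h3 : f₂ (liftI P E σ) = z * f₁ (liftI P E σ) :=
    hz σ (by rw [lowerGroup_one_eq_top]; exact Subgroup.mem_top σ)
  rw [hσ f₁ h₁ h₁U, hσ f₂ h₂ h₂U] at h3
  exact h3

end Level

/-! ### Arbitrary finite level, arbitrary subgroup containing it -/

section Closure

variable {L : Type*} [Field L] [Algebra ℚ L] [IsGalois ℚ L] (P : ValuationSubring L)
variable {k : Type*} [Field k]

/-- **`(F)`**: two additive characters of the inertia group of `P` (over `q`) into a field with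
`q ≠ 0`, vanishing on a subgroup `U` containing the fixing subgroup of a finite extension, are
proportional. -/
theorem exists_mul_of_additive_inertia {q : ℕ} [Fact q.Prime] (hP : P.LiesOverPrime q)
    (hqk : (q : k) ≠ 0) (E₀ : IntermediateField ℚ L) [FiniteDimensional ℚ E₀]
    (U : Subgroup (L ≃ₐ[ℚ] L)) (hU : E₀.fixingSubgroup ≤ U) (f₁ f₂ : (L ≃ₐ[ℚ] L) → k)
    (h₁ : ∀ s ∈ P.inertiaSubgroupIn ℚ, ∀ t ∈ P.inertiaSubgroupIn ℚ, f₁ (s * t) = f₁ s + f₁ t)
    (h₁U : ∀ u ∈ P.inertiaSubgroupIn ℚ, u ∈ U → f₁ u = 0)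
    (h₂ : ∀ s ∈ P.inertiaSubgroupIn ℚ, ∀ t ∈ P.inertiaSubgroupIn ℚ, f₂ (s * t) = f₂ s + f₂ t)
    (h₂U : ∀ u ∈ P.inertiaSubgroupIn ℚ, u ∈ U → f₂ u = 0)
    (hne : ∃ s ∈ P.inertiaSubgroupIn ℚ, f₁ s ≠ 0) :
    ∃ z : k, ∀ s ∈ P.inertiaSubgroupIn ℚ, f₂ s = z * f₁ s := by
  obtain ⟨E, _, _, hle⟩ := exists_finite_galois_ge E₀
  have hEU : E.fixingSubgroup ≤ U := (IntermediateField.fixingSubgroup_antitone hle).trans hU
  exact exists_mul_of_additive_level P E hP hqk f₁ f₂ h₁ (fun u hu huE => h₁U u hu (hEU huE)) h₂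
    (fun u hu huE => h₂U u hu (hEU huE)) hne

local notation "M₂" => Matrix (Fin 2) (Fin 2)

/-- **The unipotent tangent condition forces unramified classes** (unconditional): `rbar` a
representation of `Gal(L/ℚ)`, unipotent and non-trivial on the inertia group of `P` over `q`
(`q ≠ 0` and `2 ≠ 0` in `k`), `c` a cocycle on inertia with `trace (c s) = 0` and
`trace (c s * rbar s) = 0`; if `rbar = 1` and `c = 0` on the part of the inertia group inside a
subgroup `U` of finite level, then `c` is a coboundary on the inertia group, by a trace zero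
matrix. -/
theorem exists_coboundary_inertia {q : ℕ} [Fact q.Prime] (hP : P.LiesOverPrime q)
    (hqk : (q : k) ≠ 0) (h2 : (2 : k) ≠ 0) (rbar : (L ≃ₐ[ℚ] L) →* M₂ k) (c : (L ≃ₐ[ℚ] L) → M₂ k)
    (hunip : ∀ s ∈ P.inertiaSubgroupIn ℚ, (rbar s).trace = 2 ∧ (rbar s).det = 1)
    (hram : ∃ s0 ∈ P.inertiaSubgroupIn ℚ, rbar s0 ≠ 1)
    (hcoc : ∀ s ∈ P.inertiaSubgroupIn ℚ, ∀ t ∈ P.inertiaSubgroupIn ℚ,
      c (s * t) = c s + rbar s * c t * rbar s⁻¹)
    (htr : ∀ s ∈ P.inertiaSubgroupIn ℚ, (c s).trace = 0)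
    (htr' : ∀ s ∈ P.inertiaSubgroupIn ℚ, (c s * rbar s).trace = 0)
    (E₀ : IntermediateField ℚ L) [FiniteDimensional ℚ E₀]
    (U : Subgroup (L ≃ₐ[ℚ] L)) (hU : E₀.fixingSubgroup ≤ U)
    (hUc : ∀ u ∈ P.inertiaSubgroupIn ℚ, u ∈ U → rbar u = 1 ∧ c u = 0) :
    ∃ X : M₂ k, X.trace = 0 ∧
      ∀ s ∈ P.inertiaSubgroupIn ℚ, c s = X - rbar s * X * rbar s⁻¹ :=
  UnipotentTangent.exists_coboundary (P.inertiaSubgroupIn ℚ) rbar c hunip hram hcoc htr htr' h2 U
    hUc (fun f₁ f₂ h₁ h₁U h₂ h₂U hne =>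
      exists_mul_of_additive_inertia P hP hqk E₀ U hU f₁ f₂ h₁ h₁U h₂ h₂U hne)

end Closure

/-! ### The case `L = AlgebraicClosure ℚ`, in the shape of the Prelude -/

section Qbar

local notation "Qb" => AlgebraicClosure ℚ
local notation "M₂" => Matrix (Fin 2) (Fin 2)

variable (P : ValuationSubring Qb) {k : Type*} [Field k]

/-- **`(F)`**, Prelude shape: `U` contains all automorphisms fixing the finite-dimensional
subfield `E₀` pointwise. -/
theorem exists_mul_of_additive_inertia_qbar {q : ℕ} [Fact q.Prime] (hP : P.LiesOverPrime q)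
    (hqk : (q : k) ≠ 0) (E₀ : IntermediateField ℚ Qb) (hfd : FiniteDimensional ℚ E₀)
    (U : Subgroup (Qb ≃ₐ[ℚ] Qb)) (hU : ∀ σ : Qb ≃ₐ[ℚ] Qb, (∀ x ∈ E₀, σ x = x) → σ ∈ U)
    (f₁ f₂ : (Qb ≃ₐ[ℚ] Qb) → k)
    (h₁ : ∀ s ∈ P.inertiaSubgroupIn ℚ, ∀ t ∈ P.inertiaSubgroupIn ℚ, f₁ (s * t) = f₁ s + f₁ t)
    (h₁U : ∀ u ∈ P.inertiaSubgroupIn ℚ, u ∈ U → f₁ u = 0)
    (h₂ : ∀ s ∈ P.inertiaSubgroupIn ℚ, ∀ t ∈ P.inertiaSubgroupIn ℚ, f₂ (s * t) = f₂ s + f₂ t)
    (h₂U : ∀ u ∈ P.inertiaSubgroupIn ℚ, u ∈ U → f₂ u = 0)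
    (hne : ∃ s ∈ P.inertiaSubgroupIn ℚ, f₁ s ≠ 0) :
    ∃ z : k, ∀ s ∈ P.inertiaSubgroupIn ℚ, f₂ s = z * f₁ s := by
  haveI := Fermat.Agent.Lib.isGalois_algebraicClosure_rat
  exact exists_mul_of_additive_inertia P hP hqk E₀ U
    (fun σ hσ => hU σ fun x hx => (IntermediateField.mem_fixingSubgroup_iff E₀ σ).mp hσ x hx)
    f₁ f₂ h₁ h₁U h₂ h₂U hne

/-- **The unipotent tangent condition forces unramified classes**, Prelude shape. -/
theorem exists_coboundary_inertia_qbar {q : ℕ} [Fact q.Prime] (hP : P.LiesOverPrime q)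
    (hqk : (q : k) ≠ 0) (h2 : (2 : k) ≠ 0) (rbar : (Qb ≃ₐ[ℚ] Qb) →* M₂ k)
    (c : (Qb ≃ₐ[ℚ] Qb) → M₂ k)
    (hunip : ∀ s ∈ P.inertiaSubgroupIn ℚ, (rbar s).trace = 2 ∧ (rbar s).det = 1)
    (hram : ∃ s0 ∈ P.inertiaSubgroupIn ℚ, rbar s0 ≠ 1)
    (hcoc : ∀ s ∈ P.inertiaSubgroupIn ℚ, ∀ t ∈ P.inertiaSubgroupIn ℚ,
      c (s * t) = c s + rbar s * c t * rbar s⁻¹)
    (htr : ∀ s ∈ P.inertiaSubgroupIn ℚ, (c s).trace = 0)
    (htr' : ∀ s ∈ P.inertiaSubgroupIn ℚ, (c s * rbar s).trace = 0)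
    (E₀ : IntermediateField ℚ Qb) (hfd : FiniteDimensional ℚ E₀)
    (hE₀ : ∀ σ : Qb ≃ₐ[ℚ] Qb, (∀ x ∈ E₀, σ x = x) → rbar σ = 1 ∧ c σ = 0) :
    ∃ X : M₂ k, X.trace = 0 ∧
      ∀ s ∈ P.inertiaSubgroupIn ℚ, c s = X - rbar s * X * rbar s⁻¹ := by
  haveI := Fermat.Agent.Lib.isGalois_algebraicClosure_rat
  refine exists_coboundary_inertia P hP hqk h2 rbar c hunip hram hcoc htr htr' E₀
    E₀.fixingSubgroup le_rfl (fun u _ huU => hE₀ u fun x hx => ?_)
  exact (IntermediateField.mem_fixingSubgroup_iff E₀ u).mp huU x hx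

end Qbar

end Fermat.Agent.S56x.Local.InertiaTame
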