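import Mathlib
import Fermat.Agent.S56x.Dict.SelMember
import Fermat.Agent.S56x.Local.InertiaTame
import Fermat.Agent.S56x.Local.FrobLocal
import Fermat.Agent.S56x.Cheb.ValConj
import Fermat.Agent.Lib.CFT.Profinite.BridgeNormal

/-!
# P-S56 (C4): the unipotent condition at `q ∈ Smin`, `q ≠ p` gives unramified local classes

Let `c : TanCocycle rbar` be a trace-zero tangent cocycle whose lift is unipotent on inertia at
the prime `q` (`(q : k) ≠ 0`, `(2 : k) ≠ 0`), and assume that `rbar` is ramified at `q`.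

* `exists_mem_inertia_rbar_ne_one` : ramification at `q` is visible on the inertia group of every
  place over `q` (conjugacy of places).
* `exists_coboundary_on_inertia` : for every place `P` over `q` there is a trace-zero matrix `X`
  with `c σ = X - rbar σ * X * rbar σ⁻¹` on the inertia group of `P`
  (`InertiaTame.exists_coboundary_inertia_qbar` with the splitting field of the lift).
* `exists_unramified_local_cocycle` : the localisation at `q` of `c.toClass` is the class of a
  level-constant cocycle of the local Galois group which vanishes on the preimage of the inertia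
  group of `primeLocalPlace q`, i.e. it is an unramified class (`H¹_unr`, in unfolded form).
* `locRes_toClass_mem_of_unipotent` : membership in any submodule `Lq` of the local `H¹`
  containing all such classes.
-/

set_option autoImplicit false
set_option linter.unusedSectionVars false
set_option linter.style.haveILetI false

noncomputable section

namespace Fermat.Agent.S56x.Local.UnipotentMember

open Fermat.Agent.S53 Fermat.Agent.S56x.Dict groupCohomology CategoryTheory ExtCitation Module
open scoped Pointwise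

local notation "Qbar" => AlgebraicClosure ℚ
local notation "Γℚ" => (AlgebraicClosure ℚ ≃ₐ[ℚ] AlgebraicClosure ℚ)
local notation "M₂" => Matrix (Fin 2) (Fin 2)

variable {k : Type} [Field k] {rbar : Γℚ →* M₂ k}

/-- Ramification of `rbar` at `q` is visible on the inertia group of every place over `q`. -/
theorem exists_mem_inertia_rbar_ne_one {q : ℕ} (hq : q.Prime)
    (hram : ¬ ∀ A : ValuationSubring Qbar, A.LiesOverPrime q →
      ∀ σ ∈ A.inertiaSubgroupIn ℚ, rbar σ = 1)
    (P : ValuationSubring Qbar) (hP : P.LiesOverPrime q) :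
    ∃ s ∈ P.inertiaSubgroupIn ℚ, rbar s ≠ 1 := by
  haveI := Fermat.Agent.Lib.CFT.Profinite.Bridge.isGalois_qbar
  push Not at hram
  obtain ⟨A, hA, σ, hσ, hne⟩ := hram
  obtain ⟨τ, hτ⟩ := Fermat.Agent.S56x.Cheb.exists_smul_eq_of_liesOverPrime hq A P hA hP
  refine ⟨τ * σ * τ⁻¹, ?_, fun h => hne ?_⟩
  · rw [← hτ, Fermat.Agent.Lib.CFT.Profinite.Bridge.mem_inertiaSubgroupIn_smul_iff]
    have : τ⁻¹ * (τ * σ * τ⁻¹) * τ = σ := by group
    rw [this]
    exact hσ
  · rw [map_mul, map_mul] at h
    have h1 : rbar σ = rbar τ⁻¹ * (rbar τ * rbar σ * rbar τ⁻¹) * rbar τ := by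
      rw [← Matrix.mul_assoc, ← Matrix.mul_assoc, TanCocycle.rbar_inv_mul, Matrix.one_mul,
        Matrix.mul_assoc, TanCocycle.rbar_inv_mul, Matrix.mul_one]
    rw [h1, h, Matrix.mul_one, TanCocycle.rbar_inv_mul]

/-- **The unipotent tangent condition at a ramified prime**: on the inertia group of every place
over `q` the tangent cocycle is the coboundary of a trace-zero matrix. -/
theorem exists_coboundary_on_inertia (hrbar : GaloisFactorsThroughFiniteLevel rbar)
    (c : TanCocycle rbar) {q : ℕ} [Fact q.Prime] (hqk : (q : k) ≠ 0) (h2 : (2 : k) ≠ 0)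
    (hunip : (c.lift hrbar).IsUnipotentOnInertiaAt q)
    (hram : ¬ ∀ A : ValuationSubring Qbar, A.LiesOverPrime q →
      ∀ σ ∈ A.inertiaSubgroupIn ℚ, rbar σ = 1)
    (P : ValuationSubring Qbar) (hP : P.LiesOverPrime q) :
    ∃ X : M₂ k, X.trace = 0 ∧
      ∀ s ∈ P.inertiaSubgroupIn ℚ, c.c s = X - rbar s * X * rbar s⁻¹ := by
  have hu := (c.isUnipotentOnInertiaAt_lift_iff hrbar q).mp hunip P hP
  refine InertiaTame.exists_coboundary_inertia_qbar P hP hqk h2 rbar c.c
    (fun s hs => UnipotentTangent.trace_det_of_charpoly (hu s hs).1)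
    (exists_mem_inertia_rbar_ne_one (Fact.out : q.Prime) hram P hP)
    (fun s _ t _ => c.map_mul' s t) (fun s hs => (hu s hs).2.2) (fun s hs => (hu s hs).2.1)
    c.splittingField (c.finiteDimensional_splittingField hrbar) (fun σ hσ => ?_)
  rw [← c.mem_fixingSubgroup_splittingField_iff hrbar, IntermediateField.mem_fixingSubgroup_iff]
  exact hσ

variable {p : ℕ} [Fact p.Prime] [Algebra (ZMod p) k]

/-- The coboundary of a trace-zero matrix, as a cocycle of the restriction of `ad⁰ ρbar` along
`f`. -/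
def cobCocycle {H : Type} [Group H] (f : H →* Γℚ) (rbar : Γℚ →* M₂ k) (x : ad0 k p) :
    cocycles₁ (Rep.res f (ad0Rep p rbar)) :=
  ⟨(d₀₁ (Rep.res f (ad0Rep p rbar))).hom x, d₀₁_apply_mem_cocycles₁ _⟩

lemma cobCocycle_apply_coe {H : Type} [Group H] (f : H →* Γℚ) (x : ad0 k p) (h : H) :
    (((cobCocycle f rbar x : cocycles₁ (Rep.res f (ad0Rep p rbar))) h : ad0 k p) : M₂ k) =
      rbar (f h) * x.1 * rbar (f h)⁻¹ - x.1 := rfl

lemma H1π_cobCocycle {H : Type} [Group H] (f : H →* Γℚ) (x : ad0 k p) :
    (H1π (Rep.res f (ad0Rep p rbar))).hom (cobCocycle f rbar x) = 0 := by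
  rw [H1π_eq_zero_iff]
  exact ⟨x, rfl⟩

/-- **(U2)** The localisation at `q` of the class of a trace-zero tangent cocycle whose lift is
unipotent on inertia at the ramified prime `q ≠ p` is an unramified class: it is represented by a
level-constant cocycle vanishing on the preimage of the inertia group of `primeLocalPlace q`. -/
theorem exists_unramified_local_cocycle (hrbar : GaloisFactorsThroughFiniteLevel rbar)
    (c : TanCocycle rbar) (htr : ∀ σ, (c.c σ).trace = 0) (q : Nat.Primes)
    (hqk : ((q : ℕ) : k) ≠ 0) (h2 : (2 : k) ≠ 0)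
    (hunip : (c.lift hrbar).IsUnipotentOnInertiaAt (q : ℕ))
    (hram : ¬ ∀ A : ValuationSubring Qbar, A.LiesOverPrime (q : ℕ) →
      ∀ σ ∈ A.inertiaSubgroupIn ℚ, rbar σ = 1) :
    ∃ c' : cocycles₁ (Rep.res (primeLocalToGlobal q) (ad0Rep p rbar)),
      IsLevelConstant₁ (primeLocalToGlobal q) c' ∧
      (∀ i, primeLocalToGlobal q i ∈ (primeLocalPlace q).inertiaSubgroupIn ℚ → c' i = 0) ∧
      (H1π (Rep.res (primeLocalToGlobal q) (ad0Rep p rbar))).hom c' =
        (locRes (fun q : Nat.Primes => primeLocalToGlobal q) (ad0Rep p rbar) q).hom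
          (c.toClass (p := p) htr) := by
  haveI : Fact (q : ℕ).Prime := ⟨q.2⟩
  have hP : (primeLocalPlace q).LiesOverPrime (q : ℕ) := FrobLocal.padicPlace_liesOverPrime (q : ℕ)
  obtain ⟨X, hXtr, hX⟩ := exists_coboundary_on_inertia hrbar c hqk h2 hunip hram
    (primeLocalPlace q) hP
  set f := primeLocalToGlobal q with hf
  set x : ad0 k p := ⟨X, (mem_ad0 _).mpr hXtr⟩ with hx
  set c₀ : cocycles₁ (Rep.res f (ad0Rep p rbar)) :=
    (mapCocycles₁ f (𝟙 (Rep.res f (ad0Rep p rbar)))).hom (c.toCocycle (p := p) htr) with hc₀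
  refine ⟨c₀ + cobCocycle f rbar x, ?_, ?_, ?_⟩
  · -- level constant
    refine ⟨c.splittingField, c.finiteDimensional_splittingField hrbar, fun g s hs => ?_⟩
    apply Subtype.ext
    show c.c (f (g * s)) + (rbar (f (g * s)) * X * rbar (f (g * s))⁻¹ - X) =
      c.c (f g) + (rbar (f g) * X * rbar (f g)⁻¹ - X)
    have h1 := c.c_mul_of_mem_fixingSubgroup hrbar (f g) (f s) hs
    have h3 : rbar ((f g * f s)⁻¹) = rbar (f g)⁻¹ := by
      have e1 : rbar ((f g * f s)⁻¹) * rbar (f g * f s) = 1 := TanCocycle.rbar_inv_mul _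
      rw [h1.2] at e1
      calc rbar ((f g * f s)⁻¹) = rbar ((f g * f s)⁻¹) * (rbar (f g) * rbar (f g)⁻¹) := by
            rw [TanCocycle.rbar_mul_inv, Matrix.mul_one]
        _ = rbar (f g)⁻¹ := by rw [← Matrix.mul_assoc, e1, Matrix.one_mul]
    rw [map_mul, h1.1, h1.2, h3]
  · -- vanishing on inertia
    intro i hi
    apply Subtype.ext
    show c.c (f i) + (rbar (f i) * X * rbar (f i)⁻¹ - X) = 0
    rw [hX (f i) hi]
    abel
  · rw [map_add, H1π_cobCocycle, add_zero]
    exact (TanCocycle.map_toClass f c htr).symm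

/-- **(U2), membership form**: if a submodule `Lq` of the local `H¹` at `q` contains the classes of
all level-constant cocycles vanishing on the preimage of inertia, then it contains the
localisation of `c.toClass` for every trace-zero tangent cocycle `c` whose lift is unipotent on
inertia at the ramified prime `q`. -/
theorem locRes_toClass_mem_of_unipotent (hrbar : GaloisFactorsThroughFiniteLevel rbar)
    (c : TanCocycle rbar) (htr : ∀ σ, (c.c σ).trace = 0) (q : Nat.Primes)
    (hqk : ((q : ℕ) : k) ≠ 0) (h2 : (2 : k) ≠ 0)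
    (hunip : (c.lift hrbar).IsUnipotentOnInertiaAt (q : ℕ))
    (hram : ¬ ∀ A : ValuationSubring Qbar, A.LiesOverPrime (q : ℕ) →
      ∀ σ ∈ A.inertiaSubgroupIn ℚ, rbar σ = 1)
    (Lq : Submodule (ZMod p) (H1 (Rep.res (primeLocalToGlobal q) (ad0Rep p rbar))))
    (hLq : ∀ c' : cocycles₁ (Rep.res (primeLocalToGlobal q) (ad0Rep p rbar)),
      IsLevelConstant₁ (primeLocalToGlobal q) c' →
      (∀ i, primeLocalToGlobal q i ∈ (primeLocalPlace q).inertiaSubgroupIn ℚ → c' i = 0) →
      (H1π (Rep.res (primeLocalToGlobal q) (ad0Rep p rbar))).hom c' ∈ Lq) :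
    (locRes (fun q : Nat.Primes => primeLocalToGlobal q) (ad0Rep p rbar) q).hom
      (c.toClass (p := p) htr) ∈ Lq := by
  obtain ⟨c', h1, h2', h3⟩ :=
    exists_unramified_local_cocycle (p := p) hrbar c htr q hqk h2 hunip hram
  rw [← h3]
  exact hLq c' h1 h2'

end Fermat.Agent.S56x.Local.UnipotentMember

end
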