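import Fermat.Agent.S56x.Local.UnramFinal
import Fermat.Agent.S56x.Local.LocalInertia

/-!
# P-S56 block (B), L2 (helper92): unramified local cohomology for the inertia subgroup `localInertia q`

Glue of `Local/UnramFinal` with helper3's characterisation `LocalInertia.mem_localInertia_iff` of
the Prelude-side inertia subgroup
`localInertia q = ((primeLocalPlace q).inertiaSubgroupIn ℚ).comap (primeLocalToGlobal q)`:

* `primeFrobData_I_eq_localInertia`, `unrInertiaAt_eq_localInertia`;
* `exists_frobData_localInertia` : a `FrobData` whose inertia is `localInertia q`, with trivial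
  cyclotomic character on inertia for `q ≠ p` (the input `hD` of `Local/EulerTame`);
* `H1unrAt_eq_H1unrOf_localInertia`, `mem_H1unrAt_iff` (unfolded form);
* `finrank_H1unrOf_localInertia` (U3), `pairingAtOf_eq_zero_localInertia` (U4').
-/

set_option autoImplicit false

open CategoryTheory groupCohomology ExtCitation Module

namespace Fermat.Agent.S56x.Local.UnramInertia

open Fermat.Agent.Lib.CFT.Duality Fermat.Agent.Lib.CFT.Duality.LocalTate
open Fermat.Agent.S56x.GW Fermat.Agent.S56x.Local.UnramAbstract
open Fermat.Agent.S56x.Local.UnramLocal Fermat.Agent.S56x.Local.FrobDataLocal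
open Fermat.Agent.S56x.Local.UnramFinal Fermat.Agent.S56x.Local.LocalInertia

local notation "Qbar" => AlgebraicClosure ℚ
local notation "Γℚ" => (AlgebraicClosure ℚ ≃ₐ[ℚ] AlgebraicClosure ℚ)

variable {p : ℕ} [Fact p.Prime] (q : Nat.Primes)

/-- The characterisation of `localInertia q` by roots of unity, in the shape consumed by
`FrobDataLocal.primeFrobData_I_eq`. -/
theorem mem_localInertia_iff_forall :
    letI : Fact (q : ℕ).Prime := ⟨q.2⟩
    ∀ σ : primeLocalGaloisGroup q, σ ∈ localInertia q ↔ ∀ n : ℕ, 0 < n →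
      ∀ z : PadicAlgCl (q : ℕ), z ^ ((q : ℕ) ^ n - 1) = 1 →
        (show PadicAlgCl (q : ℕ) ≃ₐ[ℚ_[(q : ℕ)]] PadicAlgCl (q : ℕ) from σ) z = z := by
  let _ : Fact (q : ℕ).Prime := ⟨q.2⟩
  intro σ
  exact mem_localInertia_iff (q : ℕ) σ

/-- **The inertia subgroup of `primeFrobData q` is `localInertia q`.** -/
theorem primeFrobData_I_eq_localInertia : (primeFrobData q).I = localInertia q :=
  primeFrobData_I_eq q (localInertia q) (mem_localInertia_iff_forall q)

theorem unrInertiaAt_eq_localInertia : unrInertiaAt q = localInertia q :=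
  primeFrobData_I_eq_localInertia q

/-- The same for the literal comap of the global inertia subgroup. -/
theorem primeFrobData_I_eq_comap :
    (primeFrobData q).I =
      ((primeLocalPlace q).inertiaSubgroupIn ℚ).comap (primeLocalToGlobal q) :=
  primeFrobData_I_eq_localInertia q

/-- **The `FrobData` of the local Galois group with inertia `localInertia q`**, and the triviality
of the mod `p` cyclotomic character on inertia for `q ≠ p`. -/
theorem exists_frobData_localInertia (hqp : (q : ℕ) ≠ p) :
    ∃ D : FrobData (primeLocalLevels q), D.I = localInertia q ∧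
      ∀ i ∈ D.I, localCycloChar p q i = 1 :=
  ⟨primeFrobData q, primeFrobData_I_eq_localInertia q,
    fun _ hi => cycloChar_eq_one_of_mem_unrInertiaAt q hqp hi⟩

theorem localCycloChar_eq_one_of_mem_localInertia (hqp : (q : ℕ) ≠ p)
    {i : primeLocalGaloisGroup q} (hi : i ∈ localInertia q) : localCycloChar p q i = 1 := by
  rw [← unrInertiaAt_eq_localInertia] at hi
  exact cycloChar_eq_one_of_mem_unrInertiaAt q hqp hi

variable (M : Rep (ZMod p) Γℚ)

theorem H1unrAt_eq_H1unrOf_localInertia : H1unrAt q M = H1unrOf q (localInertia q) M := by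
  unfold H1unrAt
  rw [unrInertiaAt_eq_localInertia]

/-- Membership in `H1unrAt q M`, unfolded: the class of a level-constant local cocycle vanishing
on every element which maps into the inertia subgroup of `primeLocalPlace q`. -/
theorem mem_H1unrAt_iff (x : H1 (Rep.res (primeLocalToGlobal q) M)) :
    x ∈ H1unrAt q M ↔ ∃ c : cocycles₁ (Rep.res (primeLocalToGlobal q) M),
      IsLevelConstant₁ (primeLocalToGlobal q)
        (c : primeLocalGaloisGroup q → Rep.res (primeLocalToGlobal q) M) ∧
      (∀ i, primeLocalToGlobal q i ∈ (primeLocalPlace q).inertiaSubgroupIn ℚ → c i = 0) ∧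
      (H1π (Rep.res (primeLocalToGlobal q) M)).hom c = x := by
  rw [H1unrAt_eq_H1unrOf_localInertia, mem_H1unrOf_iff]
  constructor
  · rintro ⟨c, ⟨h1, h2⟩, h3⟩
    exact ⟨c, h1, fun i hi => h2 i hi, h3⟩
  · rintro ⟨c, h1, h2, h3⟩
    exact ⟨c, ⟨h1, fun i hi => h2 i hi⟩, h3⟩

variable {M}

/-- **(U3)** `dim H¹_unr(G_q, M) = dim H⁰(G_q, M)` for the inertia subgroup `localInertia q`. -/
theorem finrank_H1unrOf_localInertia [Module.Finite (ZMod p) M]
    (hsm : ∀ m : M, ∃ F : IntermediateField ℚ Qbar, FiniteDimensional ℚ F ∧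
      ∀ s ∈ F.fixingSubgroup, M.ρ s m = m) :
    finrank (ZMod p) (H1unrOf q (localInertia q) M) =
      finrank (ZMod p) (Rep.res (primeLocalToGlobal q) M).ρ.invariants := by
  rw [← H1unrAt_eq_H1unrOf_localInertia]
  exact finrank_H1unrAt q hsm

/-- **(U4')** the local Tate pairing vanishes on `H¹_unr(M) × H¹_unr(M^*(1))`, `q ≠ p`, for the
inertia subgroup `localInertia q`. -/
theorem pairingAtOf_eq_zero_localInertia (hqp : (q : ℕ) ≠ p)
    (B : ∀ q : Nat.Primes, LocalBase p q) [Finite M]
    (hsm : ∀ m : M, ∃ F : IntermediateField ℚ Qbar, FiniteDimensional ℚ F ∧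
      ∀ s ∈ F.fixingSubgroup, M.ρ s m = m)
    {x : H1 (Rep.res (primeLocalToGlobal q) M)} (hx : x ∈ H1unrOf q (localInertia q) M)
    {y : H1 (Rep.res (primeLocalToGlobal q) (tateDual p M))}
    (hy : y ∈ H1unrOf q (localInertia q) (tateDual p M)) :
    pairingAtOf q M B x y = 0 := by
  rw [← H1unrAt_eq_H1unrOf_localInertia] at hx hy
  exact pairingAtOf_eq_zero_of_mem_H1unrAt q hqp B hsm hx hy

end Fermat.Agent.S56x.Local.UnramInertia
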