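import Fermat.Agent.S56x.Local.FlatIface

/-!
# P-S56, block (A): the interface statement (A1) WITH the hypothesis `hsplit` of the frozen S56

`FlatIface.FlatCountStatement` is true as stated, but its proof along the case theorems of
`Local/FlatBridge` (trichotomy of `Local/TameRep`) uses that all eigenvalues of all `rbar σ` lie in
`k` — the hypothesis `hsplit` of the frozen statement S56 (otherwise a quadratic base change of `k`
is needed).  `FlatCountStatementSplit` is (A1) under this extra hypothesis; it is the statement
PROVED by block (A) and CONSUMED by the assembly (the consumers have `Hyp.hsplit`).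
-/

set_option autoImplicit false

noncomputable section

namespace Fermat.Agent.S56x.Local.FlatIface

open Polynomial

variable {k : Type} [Field k] (p : ℕ) [Fact p.Prime]

local notation "Γℚ" => (AlgebraicClosure ℚ ≃ₐ[ℚ] AlgebraicClosure ℚ)
local notation "M₂" => Matrix (Fin 2) (Fin 2)

variable (rbar : Γℚ →* M₂ k)

/-- All eigenvalues of all `rbar σ` lie in `k` (matrix form of `hsplit` of the frozen S56). -/
def EigenvaluesInBase : Prop :=
  ∀ σ : Γℚ, ∃ α β : k, (rbar σ).charpoly = (X - C α) * (X - C β)

/-- **(A1)** under `hsplit`: the statement proved by block (A) and consumed by the assembly. -/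
def FlatCountStatementSplit : Prop :=
  ∀ [Finite k] [CharP k p], p ≠ 2 → ∀ (hrbar : GaloisFactorsThroughFiniteLevel rbar),
    DetIsCycloModP p rbar → EigenvaluesInBase rbar →
      Module.rank k (flatSpan p rbar hrbar) ≤ 4

/-- The unconditional statement implies the one under `hsplit`. -/
theorem flatCountStatementSplit_of_flatCountStatement (h : FlatCountStatement p rbar) :
    FlatCountStatementSplit p rbar := by
  intro _ _ hp2 hrbar hdet _
  exact h hp2 hrbar hdet

end Fermat.Agent.S56x.Local.FlatIface

end
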