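import Fermat.Agent.S56x.Local.FlatBridge
import Fermat.Agent.S56x.Dict.Ad0Rep

/-!
# P-S56 / block A : the standard `AdModel` of `Rep.res φ (ad0Rep p rbar)`

For a group homomorphism `φ : H →* Γℚ` (e.g. `primeLocalToGlobal (pPrime p)`), the restriction of
helper16's `Dict.ad0Rep p rbar` to `H` is a model of `ad⁰` of the matrix representation
`rbar ∘ φ`; so all theorems of `FlatBridge.lean` apply to submodules of
`H1 (Rep.res φ (ad0Rep p rbar))` (block (B)'s local formalism).
-/

set_option autoImplicit false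

namespace Fermat.Agent.S56x.Local.FlatBridge

open Fermat.Agent.S56x.Local.Devissage Fermat.Agent.S56x.Dict groupCohomology

local notation "Γℚ" => (AlgebraicClosure ℚ ≃ₐ[ℚ] AlgebraicClosure ℚ)
local notation "M₂" => Matrix (Fin 2) (Fin 2)

variable {k : Type} [Field k] (p : ℕ) [Fact p.Prime] [Algebra (ZMod p) k]
  {H : Type} [Group H] (φ : H →* Γℚ) (rbar : Γℚ →* M₂ k)

/-- the standard model. -/
def ad0Model : AdModel (Rep.res φ (ad0Rep p rbar)) (ofHom (rbar.comp φ)) where
  ι := (ad0 k p).subtype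
  inj := Subtype.val_injective
  trace_zero a := a.2
  surj X hX := ⟨⟨X, hX⟩, rfl⟩
  equivariant g a := by
    show rbar (φ g) * (a : M₂ k) * rbar ((φ g)⁻¹) = rbar (φ g) * (a : M₂ k) * rbar (φ g⁻¹)
    rw [map_inv φ g]

@[simp] theorem ad0Model_toMat (c : H → (Rep.res φ (ad0Rep p rbar)).V) (g : H) :
    (ad0Model p φ rbar).toMat c g = ((c g : ad0 k p) : M₂ k) := rfl

end Fermat.Agent.S56x.Local.FlatBridge
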