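import Mathlib
import Fermat.Prelude.Def_GaloisRep_Flat
import Fermat.Prelude.Def_ExtEndgame_ProductionDatum
import Fermat.Agent.S56x.Dict.TanCocycle

/-!
# P-S56, block (A) LOCAL FLAT: the interface exported to blocks (B), (C)

Everything is stated at the level of tangent cocycles (`Fermat.Agent.S56x.Dict.TanCocycle`), with
no cohomology formalism, so that it can be consumed both by the dictionary (C) and by the
Greenberg--Wiles block (B).

Fix a matrix model `rbar : Γℚ →* M₂(k)` of the residual representation and write
`G_p := primeLocalGaloisGroup (pPrime p)` (the Galois group of `PadicAlgCl p / ℚ_[p]`) with its map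
`locP : G_p →* Γℚ`.

* `resP c : G_p → M₂(k)`: restriction to `G_p` of a tangent cocycle `c`;
* `cobP X : G_p → M₂(k)`: the local coboundary `τ ↦ X - rbar τ X (rbar τ)⁻¹`;
* `IsFlatTan c`: `c` has values in trace zero matrices and its lift `(1 + ε c) rbar` to the dual
  numbers is flat at `p` (frozen `GaloisRepAdic.IsFlatAt`);
* `flatSpan`: the `k`-span, inside the functions `G_p → M₂(k)`, of the restrictions of the flat
  tangent cocycles and of the trace zero local coboundaries;
* `FlatCountStatement` (**(A1)**, the theorem of block (A)): `rank_k flatSpan ≤ 4`.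
  Since the trace zero coboundaries form a subspace of dimension `3 - h⁰(G_p, ad⁰)`, this is the
  statement `dim_k L_p^{flat} ≤ 1 + h⁰(G_p, ad⁰ rbar)` for the image `L_p^{flat}` of `flatSpan`
  in `H¹(G_p, ad⁰ rbar)`.
* `resP_mem_flatSpan` (**(A2)**): by definition.
-/

set_option autoImplicit false

noncomputable section

namespace Fermat.Agent.S56x.Local.FlatIface

open Fermat.Agent.S56x.Dict ExtCitation

variable {k : Type} [Field k] (p : ℕ) [Fact p.Prime]

local notation "Γℚ" => (AlgebraicClosure ℚ ≃ₐ[ℚ] AlgebraicClosure ℚ)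
local notation "M₂" => Matrix (Fin 2) (Fin 2)

/-- The local Galois group at `p` (Prelude): `Gal(PadicAlgCl p / ℚ_[p])`. -/
abbrev Gp : Type := primeLocalGaloisGroup (pPrime p)

/-- The localisation map `G_p →* Γℚ` (Prelude). -/
def locP : Gp p →* Γℚ := primeLocalToGlobal (pPrime p)

variable (rbar : Γℚ →* M₂ k)

/-- Restriction to `G_p` of a tangent cocycle. -/
def resP (c : TanCocycle rbar) : Gp p → M₂ k := fun τ => c.c (locP p τ)

/-- The local coboundary attached to a matrix `X`. -/
def cobP (X : M₂ k) : Gp p → M₂ k :=
  fun τ => X - rbar (locP p τ) * X * rbar (locP p τ)⁻¹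

/-- A tangent cocycle with values in trace zero matrices whose lift to the dual numbers is flat
at `p`. -/
def IsFlatTan (hrbar : GaloisFactorsThroughFiniteLevel rbar) (c : TanCocycle rbar) : Prop :=
  (∀ σ, (c.c σ).trace = 0) ∧ (c.lift hrbar).IsFlatAt p

/-- The generators of `flatSpan`. -/
def flatGens (hrbar : GaloisFactorsThroughFiniteLevel rbar) : Set (Gp p → M₂ k) :=
  {f | ∃ c : TanCocycle rbar, IsFlatTan p rbar hrbar c ∧ f = resP p rbar c} ∪
    {f | ∃ X : M₂ k, X.trace = 0 ∧ f = cobP p rbar X}

/-- The `k`-span of the restrictions to `G_p` of the flat tangent cocycles together with the trace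
zero local coboundaries. -/
def flatSpan (hrbar : GaloisFactorsThroughFiniteLevel rbar) : Submodule k (Gp p → M₂ k) :=
  Submodule.span k (flatGens p rbar hrbar)

/-- **(A2)**: the restriction of a flat tangent cocycle lies in `flatSpan`. -/
theorem resP_mem_flatSpan (hrbar : GaloisFactorsThroughFiniteLevel rbar) (c : TanCocycle rbar)
    (hc : IsFlatTan p rbar hrbar c) : resP p rbar c ∈ flatSpan p rbar hrbar :=
  Submodule.subset_span (Or.inl ⟨c, hc, rfl⟩)

/-- trace zero local coboundaries lie in `flatSpan`. -/
theorem cobP_mem_flatSpan (hrbar : GaloisFactorsThroughFiniteLevel rbar) (X : M₂ k)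
    (hX : X.trace = 0) : cobP p rbar X ∈ flatSpan p rbar hrbar :=
  Submodule.subset_span (Or.inr ⟨X, hX, rfl⟩)

/-- The determinant of `rbar` is the mod `p` cyclotomic character (the `n = 1` case of the frozen
`DetIsCyclotomic` for the residual representation). -/
def DetIsCycloModP : Prop :=
  ∀ (σ : Γℚ) (a : ℕ), (∀ μ : AlgebraicClosure ℚ, μ ^ p = 1 → σ μ = μ ^ a) →
    (rbar σ).det = (a : k)

/-- **(A1)**, the theorem of block (A): the flat local tangent space, coboundaries included, has
`k`-dimension at most `4 = 1 + 3`. (`Module.rank`, so that the statement includes finite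
dimensionality.) -/
def FlatCountStatement : Prop :=
  ∀ [Finite k] [CharP k p], p ≠ 2 → ∀ (hrbar : GaloisFactorsThroughFiniteLevel rbar),
    DetIsCycloModP p rbar → Module.rank k (flatSpan p rbar hrbar) ≤ 4

end Fermat.Agent.S56x.Local.FlatIface

end
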