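import Mathlib
import Fermat.Agent.S56x.Local.FlatIface
import Fermat.Agent.S56x.Local.FlatBridgeAd0
import Fermat.Agent.S56x.Dict.Ad0Rep
import Fermat.Agent.S56x.Dict.SelMember
import Fermat.Agent.S56x.GW.Interface

/-!
# P-S56 (A)→(C): the flat local condition at `p` as a subspace of `H¹(G_p, ad⁰ ρbar)`

Bridge from block (A)'s interface `Local/FlatIface` (`FlatCountStatement p rbar :
rank_k flatSpan ≤ 4`) to the shape consumed by `Assembly/Final.selmerCount_of_inputs` at the prime
`q = pPrime p` (with `M = ad0Rep p rbar`, `loc = primeLocalToGlobal (pPrime p)`):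

* `LpFlat p rbar hrbar ≤ H1 (Rep.res loc M)` : the `ZMod p`-span of the localisations at `p` of the
  classes of the flat tangent cocycles;
* `LpFlat_le` (FB-1) : `LpFlat ≤ continuousH1 loc (Rep.res loc M)`;
* `locRes_toClass_mem_LpFlat` (FB-2) : membership for a trace-zero tangent cocycle with flat lift;
* `finrank_LpFlat_le` (FB-3) : from `FlatCountStatement`,
  `finrank_{𝔽_p} LpFlat ≤ finrank_{𝔽_p} H⁰(G_p, ad⁰) + [k : 𝔽_p]`.

(The path `Local/FlatBridge.lean` proposed for this file is taken by block (A)'s own bridge, which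
this file uses.)
-/

set_option autoImplicit false
set_option linter.unusedSectionVars false

noncomputable section

namespace Fermat.Agent.S56x.Local.FlatSel

open groupCohomology CategoryTheory Module ExtCitation
open Fermat.Agent.S53 Fermat.Agent.S56x.Dict Fermat.Agent.S56x.Local.Devissage
open Fermat.Agent.S56x.Local.FlatBridge Fermat.Agent.S56x.Local.FlatIface

local notation "Γℚ" => (AlgebraicClosure ℚ ≃ₐ[ℚ] AlgebraicClosure ℚ)
local notation "M₂" => Matrix (Fin 2) (Fin 2)

variable {k : Type} [Field k] (p : ℕ) [Fact p.Prime] [Algebra (ZMod p) k]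
variable (rbar : Γℚ →* M₂ k) (hrbar : GaloisFactorsThroughFiniteLevel rbar)

/-- The localisation map at `p`. -/
local notation "locp" => primeLocalToGlobal (pPrime p)

/-- The local cocycles at `p` of the flat tangent cocycles. -/
def flatCocycles : Set (cocycles₁ (Rep.res (primeLocalToGlobal (pPrime p)) (ad0Rep p rbar))) :=
  {z | ∃ (c : TanCocycle rbar) (hc : IsFlatTan p rbar hrbar c),
    z = (mapCocycles₁ (primeLocalToGlobal (pPrime p))
      (𝟙 (Rep.res (primeLocalToGlobal (pPrime p)) (ad0Rep p rbar)))).hom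
        (c.toCocycle (p := p) hc.1)}

/-- The flat local condition at `p`: the `ZMod p`-span of the localisations at `p` of the classes
of the flat tangent cocycles. -/
def LpFlat : Submodule (ZMod p)
    (H1 (Rep.res (primeLocalToGlobal (pPrime p)) (ad0Rep p rbar))) :=
  Submodule.span (ZMod p) {x | ∃ (c : TanCocycle rbar) (hc : IsFlatTan p rbar hrbar c),
    x = (locRes (fun q : Nat.Primes => primeLocalToGlobal q) (ad0Rep p rbar) (pPrime p)).hom
      (c.toClass (p := p) hc.1)}

/-- `LpFlat` is the span of the classes of the local flat cocycles. -/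
lemma LpFlat_eq_span_image :
    LpFlat p rbar hrbar = Submodule.span (ZMod p)
      ((H1π (Rep.res (primeLocalToGlobal (pPrime p)) (ad0Rep p rbar))).hom ''
        flatCocycles p rbar hrbar) := by
  unfold LpFlat
  congr 1
  ext x
  constructor
  · rintro ⟨c, hc, rfl⟩
    refine ⟨_, ⟨c, hc, rfl⟩, ?_⟩
    exact (TanCocycle.map_toClass (p := p) (primeLocalToGlobal (pPrime p)) c hc.1).symm
  · rintro ⟨z, ⟨c, hc, rfl⟩, rfl⟩
    refine ⟨c, hc, ?_⟩
    exact (TanCocycle.map_toClass (p := p) (primeLocalToGlobal (pPrime p)) c hc.1).symm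

/-- **(FB-1)** the flat local condition consists of continuous classes. -/
theorem LpFlat_le :
    LpFlat p rbar hrbar ≤ continuousH1 (primeLocalToGlobal (pPrime p))
      (Rep.res (primeLocalToGlobal (pPrime p)) (ad0Rep p rbar)) := by
  unfold LpFlat
  rw [Submodule.span_le]
  rintro x ⟨c, hc, rfl⟩
  exact TanCocycle.map_toClass_mem_continuousH1 (p := p) hrbar
    (primeLocalToGlobal (pPrime p)) c hc.1

/-- **(FB-2)** the localisation at `p` of the class of a trace-zero tangent cocycle with flat lift
lies in `LpFlat`. -/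
theorem locRes_toClass_mem_LpFlat (c : TanCocycle rbar) (htr : ∀ σ, (c.c σ).trace = 0)
    (hflat : (c.lift hrbar).IsFlatAt p) :
    (locRes (fun q : Nat.Primes => primeLocalToGlobal q) (ad0Rep p rbar) (pPrime p)).hom
      (c.toClass (p := p) htr) ∈ LpFlat p rbar hrbar :=
  Submodule.subset_span ⟨c, ⟨htr, hflat⟩, rfl⟩

/-! ### The count -/

section Count

/-- The matrix representation `rbar ∘ loc_p`. -/
abbrev ρp : MatRep (Gp p) k := ofHom (rbar.comp (primeLocalToGlobal (pPrime p)))

lemma adMatCob_eq_cobP (X : M₂ k) : adMatCob (ρp p rbar) X = cobP p rbar (-X) := by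
  funext τ
  simp only [adMatCob_apply, cobP, MatRep.Ad, Matrix.mul_neg, Matrix.neg_mul, sub_neg_eq_add]
  change (rbar.comp (primeLocalToGlobal (pPrime p))) τ * X *
    (rbar.comp (primeLocalToGlobal (pPrime p))) τ⁻¹ - X = _
  rw [MonoidHom.comp_apply, MonoidHom.comp_apply, map_inv]
  change _ = -X + rbar (primeLocalToGlobal (pPrime p) τ) * X *
    rbar (primeLocalToGlobal (pPrime p) τ)⁻¹
  abel

/-- The matrix coboundaries lie in `flatSpan`. -/
lemma adMatB_le_flatSpan : adMatB (ρp p rbar) ≤ flatSpan p rbar hrbar := by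
  rintro f ⟨X, hX, rfl⟩
  rw [adMatCob_eq_cobP]
  refine cobP_mem_flatSpan p rbar hrbar (-X) ?_
  rw [Matrix.trace_neg, mem_sl2.1 hX, neg_zero]

/-- The restriction to `sl2` of the coboundary map. -/
def cobSl2 : sl2 k →ₗ[k] (Gp p → M₂ k) := (adMatCob (ρp p rbar)).comp (sl2 k).subtype

lemma range_cobSl2 : LinearMap.range (cobSl2 p rbar) = adMatB (ρp p rbar) := by
  unfold cobSl2 adMatB
  rw [LinearMap.range_comp, Submodule.range_subtype]

lemma finrank_sl2' : finrank k (sl2 k) = 3 := by
  have h1 := LinearMap.finrank_range_add_finrank_ker (Matrix.traceLinearMap (Fin 2) k k)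
  have h2 : LinearMap.range (Matrix.traceLinearMap (Fin 2) k k) = ⊤ := by
    rw [LinearMap.range_eq_top]
    intro x
    refine ⟨!![x, 0; 0, 0], ?_⟩
    simp [Matrix.trace_fin_two]
  rw [h2, finrank_top, Module.finrank_self, Module.finrank_matrix] at h1
  simp only [Fintype.card_fin, Module.finrank_self] at h1
  change 1 + finrank k (sl2 k) = _ at h1
  omega

/-- The kernel of the coboundary map on `sl2` is the centralizer. -/
lemma finrank_ker_cobSl2 :
    finrank k (LinearMap.ker (cobSl2 p rbar)) = finrank k (centralizer (ρp p rbar)) := by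
  have h : (LinearMap.ker (cobSl2 p rbar)).map (sl2 k).subtype = centralizer (ρp p rbar) := by
    ext X
    constructor
    · rintro ⟨Y, hY, rfl⟩
      rw [SetLike.mem_coe, LinearMap.mem_ker] at hY
      refine ⟨mem_sl2.1 Y.2, fun g => ?_⟩
      have := congrFun hY g
      simp only [cobSl2, LinearMap.comp_apply, Submodule.subtype_apply, adMatCob_apply,
        Pi.zero_apply] at this
      exact sub_eq_zero.1 this
    · rintro ⟨h1, h2⟩
      refine ⟨⟨X, mem_sl2.2 h1⟩, ?_, rfl⟩
      rw [SetLike.mem_coe, LinearMap.mem_ker]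
      funext g
      simp only [cobSl2, LinearMap.comp_apply, Submodule.subtype_apply, adMatCob_apply,
        Pi.zero_apply]
      exact sub_eq_zero.2 (h2 g)
  rw [← h]
  exact (Submodule.equivMapOfInjective _ (sl2 k).injective_subtype _).finrank_eq

/-- `dim_k B + dim_k H⁰ = 3`. -/
lemma finrank_adMatB_add :
    finrank k (adMatB (ρp p rbar)) + finrank k (centralizer (ρp p rbar)) = 3 := by
  have h1 := LinearMap.finrank_range_add_finrank_ker (cobSl2 p rbar)
  rw [range_cobSl2, finrank_ker_cobSl2, finrank_sl2'] at h1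
  exact h1

/-- **(FB-3)** the count: `dim_{𝔽_p} LpFlat ≤ h⁰(G_p, ad⁰) + [k : 𝔽_p]`. -/
theorem finrank_LpFlat_le [Finite k] [CharP k p] [Module.Finite (ZMod p) k] (hp2 : p ≠ 2)
    (hdet : DetIsCycloModP p rbar) (hA : FlatCountStatement p rbar) :
    finrank (ZMod p) (LpFlat p rbar hrbar) ≤
      finrank (ZMod p) (Rep.res (primeLocalToGlobal (pPrime p)) (ad0Rep p rbar)).ρ.invariants +
        finrank (ZMod p) k := by
  set m := ad0Model p (primeLocalToGlobal (pPrime p)) rbar with hm
  set Z := flatSpan p rbar hrbar with hZ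
  set B := adMatB (ρp p rbar) with hB
  set c0 := finrank k (centralizer (ρp p rbar)) with hc0
  have hrank : Module.rank k Z ≤ 4 := hA hp2 hrbar hdet
  have : Module.Finite k Z := by
    rw [← Module.rank_lt_aleph0_iff]
    exact lt_of_le_of_lt hrank (by exact_mod_cast Cardinal.natCast_lt_aleph0 (n := 4))
  have hfinZ : finrank k Z ≤ 4 := by
    have : Module.rank k Z ≤ ((4 : ℕ) : Cardinal) := by exact_mod_cast hrank
    exact Module.finrank_le_of_rank_le this
  have hBZ : B ≤ Z := adMatB_le_flatSpan p rbar hrbar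
  -- rank–nullity for `mkQ` restricted to `Z`
  let f : Z →ₗ[k] ((Gp p → M₂ k) ⧸ B) := B.mkQ.comp Z.subtype
  have hrange : LinearMap.range f = Z.map B.mkQ := by
    rw [LinearMap.range_comp, Submodule.range_subtype]
  have hker : LinearMap.ker f = B.comap Z.subtype := by
    rw [LinearMap.ker_comp, Submodule.ker_mkQ]
  have hkerrank : finrank k (LinearMap.ker f) = finrank k B := by
    rw [hker]
    exact (Submodule.comapSubtypeEquivOfLe hBZ).finrank_eq
  have hrn := LinearMap.finrank_range_add_finrank_ker f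
  rw [hrange, hkerrank] at hrn
  have hB3 : finrank k B + c0 = 3 := finrank_adMatB_add p rbar
  have hmap : finrank k (Z.map B.mkQ) ≤ 1 + c0 := by omega
  have : Module.Finite k (Z.map B.mkQ) := by
    rw [← hrange]
    exact Module.Finite.range f
  have hmaprank : Module.rank k (Z.map B.mkQ) ≤ ((1 + c0 : ℕ) : Cardinal) := by
    rw [← Module.finrank_eq_rank]
    exact_mod_cast hmap
  -- representatives
  have hL : ∀ x ∈ LpFlat p rbar hrbar,
      ∃ z : cocycles₁ (Rep.res (primeLocalToGlobal (pPrime p)) (ad0Rep p rbar)),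
        (H1π (Rep.res (primeLocalToGlobal (pPrime p)) (ad0Rep p rbar))).hom z = x ∧
          m.toMat z ∈ Z := by
    rw [LpFlat_eq_span_image]
    refine m.exists_rep_of_mem_span Z (flatCocycles p rbar hrbar) ?_
    rintro z ⟨c, hc, rfl⟩
    have : m.toMat ((mapCocycles₁ (primeLocalToGlobal (pPrime p))
        (𝟙 (Rep.res (primeLocalToGlobal (pPrime p)) (ad0Rep p rbar)))).hom
          (c.toCocycle (p := p) hc.1)) = resP p rbar c := by
      funext τ
      rfl
    rw [this]
    exact resP_mem_flatSpan p rbar hrbar c hc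
  have hmain := m.finrank_le_of_rank_le Z (LpFlat p rbar hrbar) hL (1 + c0) hmaprank
  have hinv := m.finrank_invariants
  rw [hinv]
  calc finrank (ZMod p) (LpFlat p rbar hrbar)
      ≤ finrank (ZMod p) k * (1 + c0) := hmain
    _ = finrank (ZMod p) k * c0 + finrank (ZMod p) k := by ring

end Count

end Fermat.Agent.S56x.Local.FlatSel
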