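/-
helper13 (P-S56, block (C) C4, abstract half): THE IMAGE OF `H¹(W)` IN `H¹(B)` FOR A STABLE
SUBMODULE `W ≤ B` — dimension count without the long exact sequence.

Setting (Prelude formalism): `r : G →* Gal(Qbar/ℚ)`, `B : Rep k G` (`k` a field), `W ≤ B` a
`G`-stable submodule, `subRep B W hW` the sub-representation, `incl : subRep ⟶ B`.

* `imageH1 r B W hW : Submodule k (H1 B)` := image of `continuousH1 r (subRep B W hW)` under
  `H¹(incl)`; `imageH1_le` : it lies in `continuousH1 r B`.
* `stab B W : Submodule k B` := `{b | ∀ g, g b - b ∈ W}` (the preimage of `(B/W)^G`).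
* `finrank_imageH1_add_le` : if `B` is finite-dimensional and smooth along `r`, and the continuous
  `H¹` of the sub-representation is finite-dimensional, then
  `finrank (imageH1) + finrank (stab B W) ≤ finrank (continuousH1 r (subRep)) + finrank W + finrank B^G`.
  (The classes `[g ↦ g b - b]`, `b ∈ stab B W`, are continuous, die in `H¹(B)`, and vanish only for
  `b ∈ W + B^G`.)
-/
import Fermat.Agent.S56x.GW.Interface

set_option autoImplicit false
set_option linter.unusedSectionVars false

noncomputable section

namespace Fermat.Agent.S56x.Local.SubquotCount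

open CategoryTheory groupCohomology Module

local notation "Γℚ" => (AlgebraicClosure ℚ ≃ₐ[ℚ] AlgebraicClosure ℚ)

variable {k : Type} [Field k] {G : Type} [Group G] (r : G →* Γℚ)
  (B : Rep k G) (W : Submodule k B) (hW : ∀ g, W ≤ W.comap (B.ρ g))

/-- the sub-representation on a stable submodule -/
abbrev subRep : Rep k G := Rep.of (B.ρ.subrepresentation W hW)

/-- the inclusion of the sub-representation -/
def incl : subRep B W hW ⟶ B :=
  Rep.ofHom (ρ := B.ρ.subrepresentation W hW) (σ := B.ρ)
    ⟨W.subtype, fun g => by ext w; rfl⟩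

theorem incl_apply (w : W) : (incl B W hW).hom w = (w : B) := rfl


theorem subRep_ρ_coe (g : G) (w : W) :
    (((subRep B W hW).ρ g w : W) : B) = B.ρ g (w : B) := rfl

/-- the image of the continuous `H¹` of the sub-representation in `H¹(B)` -/
def imageH1 : Submodule k (H1 B) :=
  (continuousH1 r (subRep B W hW)).map
    (groupCohomology.map (A := subRep B W hW) (B := B) (MonoidHom.id G) (incl B W hW) 1).hom

/-- `H¹(incl)` on the class of a cocycle -/
theorem map_incl_H1π (c : cocycles₁ (subRep B W hW)) :
    (groupCohomology.map (A := subRep B W hW) (B := B) (MonoidHom.id G) (incl B W hW) 1).hom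
        ((H1π _).hom c) =
      (H1π B).hom (mapCocycles₁ (MonoidHom.id G) (incl B W hW) c) := by
  have h := H1π_comp_map (A := subRep B W hW) (B := B) (MonoidHom.id G) (incl B W hW)
  exact congrArg (fun f => f.hom c) h

theorem coe_mapCocycles₁_incl (c : cocycles₁ (subRep B W hW)) (g : G) :
    (mapCocycles₁ (MonoidHom.id G) (incl B W hW) c : G → B) g = ((c g : W) : B) := rfl

theorem imageH1_le : imageH1 r B W hW ≤ continuousH1 r B := by
  rintro x ⟨y, hy, rfl⟩
  obtain ⟨c, hc, rfl⟩ := (mem_continuousH1_iff r _ y).1 hy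
  rw [map_incl_H1π]
  refine H1π_mem_continuousH1 r B ?_
  obtain ⟨F, hF, h⟩ := hc
  refine ⟨F, hF, fun g s hs => ?_⟩
  rw [coe_mapCocycles₁_incl, coe_mapCocycles₁_incl]
  exact congrArg (fun w : W => (w : B)) (h g s hs)

/-- the elements of `B` which are invariant modulo `W` -/
def stab : Submodule k B where
  carrier := {b | ∀ g, B.ρ g b - b ∈ W}
  add_mem' {a b} ha hb g := by
    have : B.ρ g (a + b) - (a + b) = (B.ρ g a - a) + (B.ρ g b - b) := by
      rw [map_add]; abel
    rw [this]
    exact W.add_mem (ha g) (hb g)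
  zero_mem' g := by simp
  smul_mem' c b hb g := by
    have : B.ρ g (c • b) - c • b = c • (B.ρ g b - b) := by
      rw [map_smul, smul_sub]
    rw [this]
    exact W.smul_mem c (hb g)

theorem mem_stab_iff (b : B) : b ∈ stab B W ↔ ∀ g, B.ρ g b - b ∈ W := Iff.rfl

include hW in
theorem le_stab : W ≤ stab B W := fun _ hw g => W.sub_mem (hW g hw) hw

theorem invariants_le_stab : B.ρ.invariants ≤ stab B W := fun b hb g => by
  rw [hb g, sub_self]
  exact W.zero_mem

/-- the cocycle `g ↦ g b - b` with values in `W`, for `b ∈ stab B W` -/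
def bdCocycle (b : stab B W) : cocycles₁ (subRep B W hW) :=
  ⟨fun g => ⟨B.ρ g (b : B) - b, b.2 g⟩, by
    rw [mem_cocycles₁_iff]
    intro g h
    apply Subtype.ext
    show B.ρ (g * h) (b : B) - b = B.ρ g (B.ρ h (b : B) - b) + (B.ρ g (b : B) - b)
    rw [map_mul, Module.End.mul_apply, map_sub]
    abel⟩

theorem bdCocycle_apply (b : stab B W) (g : G) :
    ((bdCocycle B W hW b g : W) : B) = B.ρ g (b : B) - b := rfl

/-- `b ↦ [g ↦ g b - b]`, as a linear map `stab B W → H¹(subRep)` -/
def bdMap : stab B W →ₗ[k] H1 (subRep B W hW) where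
  toFun b := (H1π _).hom (bdCocycle B W hW b)
  map_add' a b := by
    rw [← map_add]
    congr 1
    apply cocycles₁_ext
    intro g
    apply Subtype.ext
    show B.ρ g ((a + b : stab B W) : B) - (a + b : stab B W) =
      (B.ρ g (a : B) - a) + (B.ρ g (b : B) - b)
    rw [Submodule.coe_add, map_add]
    abel
  map_smul' c b := by
    rw [RingHom.id_apply, ← map_smul]
    congr 1
    apply cocycles₁_ext
    intro g
    apply Subtype.ext
    show B.ρ g ((c • b : stab B W) : B) - (c • b : stab B W) = c • (B.ρ g (b : B) - b)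
    rw [Submodule.coe_smul, map_smul, smul_sub]

theorem bdMap_apply (b : stab B W) : bdMap B W hW b = (H1π _).hom (bdCocycle B W hW b) := rfl

/-- the classes `bdMap b` die in `H¹(B)` -/
theorem map_incl_bdMap (b : stab B W) :
    (groupCohomology.map (A := subRep B W hW) (B := B) (MonoidHom.id G) (incl B W hW) 1).hom
      (bdMap B W hW b) = 0 := by
  rw [bdMap_apply, map_incl_H1π]
  refine (H1π_eq_zero_iff _).2 ⟨(b : B), ?_⟩
  funext g
  rfl

/-- smoothness along `r`: every vector is fixed by the preimage of an open subgroup -/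
def IsSmoothAlong : Prop :=
  ∀ b : B, ∃ F : IntermediateField ℚ (AlgebraicClosure ℚ), FiniteDimensional ℚ F ∧
    ∀ s : G, r s ∈ F.fixingSubgroup → B.ρ s b = b

/-- the classes `bdMap b` are continuous if `B` is smooth along `r` -/
theorem bdMap_mem_continuousH1 (hsm : IsSmoothAlong r B) (b : stab B W) :
    bdMap B W hW b ∈ continuousH1 r (subRep B W hW) := by
  refine H1π_mem_continuousH1 r _ ?_
  obtain ⟨F, hF, h⟩ := hsm (b : B)
  refine ⟨F, hF, fun g s hs => ?_⟩
  apply Subtype.ext
  show B.ρ (g * s) (b : B) - b = B.ρ g (b : B) - b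
  rw [map_mul, Module.End.mul_apply, h s hs]

/-- the kernel of `bdMap` consists of `W + B^G` -/
theorem ker_bdMap_le :
    (LinearMap.ker (bdMap B W hW)).map (stab B W).subtype ≤ W ⊔ B.ρ.invariants := by
  rintro _ ⟨b, hb, rfl⟩
  rw [SetLike.mem_coe, LinearMap.mem_ker, bdMap_apply, H1π_eq_zero_iff] at hb
  obtain ⟨w, hw⟩ := hb
  have hw' : ∀ g, B.ρ g ((b : B) - (w : B)) = (b : B) - (w : B) := by
    intro g
    have h1 := congrFun hw g
    have h2 : ((subRep B W hW).ρ g w - w : W) = bdCocycle B W hW b g := h1
    have h3 := congrArg (fun x : W => (x : B)) h2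
    have h4 : B.ρ g (w : B) - (w : B) = B.ρ g (b : B) - (b : B) := h3
    rw [map_sub]
    have h5 : B.ρ g (b : B) - B.ρ g (w : B) - ((b : B) - (w : B)) =
        -((B.ρ g (w : B) - (w : B)) - (B.ρ g (b : B) - (b : B))) := by abel
    rw [← sub_eq_zero, h5, h4, sub_self, neg_zero]
  have e : ((stab B W).subtype b) = (w : B) + ((b : B) - (w : B)) := by
    rw [Submodule.subtype_apply]; abel
  rw [e]
  exact Submodule.add_mem_sup w.2 hw'

variable [FiniteDimensional k B]

/-- **The count.** -/
theorem finrank_imageH1_add_le (hsm : IsSmoothAlong r B)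
    [Module.Finite k (continuousH1 r (subRep B W hW))] :
    finrank k (imageH1 r B W hW) + finrank k (stab B W) ≤
      finrank k (continuousH1 r (subRep B W hW)) + finrank k W + finrank k B.ρ.invariants := by
  set H := continuousH1 r (subRep B W hW) with hH
  -- the restriction of `H¹(incl)` to the continuous classes
  set f : H →ₗ[k] H1 B :=
    (groupCohomology.map (A := subRep B W hW) (B := B) (MonoidHom.id G) (incl B W hW) 1).hom.comp
      H.subtype with hf
  -- `bdMap` as a map into `H`
  set θ : stab B W →ₗ[k] H :=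
    (bdMap B W hW).codRestrict H (bdMap_mem_continuousH1 r B W hW hsm) with hθ
  have hrange : imageH1 r B W hW = LinearMap.range f := by
    rw [hf, LinearMap.range_comp, Submodule.range_subtype]
    rfl
  have hθker : LinearMap.range θ ≤ LinearMap.ker f := by
    rintro _ ⟨b, rfl⟩
    rw [LinearMap.mem_ker]
    exact map_incl_bdMap B W hW b
  have hkerθ : LinearMap.ker θ = LinearMap.ker (bdMap B W hW) := by
    ext b
    rw [LinearMap.mem_ker, LinearMap.mem_ker, hθ]
    constructor
    · intro h
      have := congrArg (fun x : H => (x : H1 (subRep B W hW))) h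
      simpa using this
    · intro h
      apply Subtype.ext
      simpa using h
  -- rank-nullity for `f` and `θ`
  have h1 := LinearMap.finrank_range_add_finrank_ker f
  have h2 := LinearMap.finrank_range_add_finrank_ker θ
  have h3 : finrank k (LinearMap.range θ) ≤ finrank k (LinearMap.ker f) :=
    Submodule.finrank_mono hθker
  have h4 : finrank k (LinearMap.ker θ) ≤ finrank k W + finrank k B.ρ.invariants := by
    rw [hkerθ]
    have e1 : finrank k (LinearMap.ker (bdMap B W hW)) =
        finrank k ((LinearMap.ker (bdMap B W hW)).map (stab B W).subtype) :=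
      (LinearEquiv.finrank_eq (Submodule.equivMapOfInjective _
        (Submodule.injective_subtype _) _))
    rw [e1]
    refine (Submodule.finrank_mono (ker_bdMap_le B W hW)).trans ?_
    exact Submodule.finrank_add_le_finrank_add_finrank W B.ρ.invariants
  rw [hrange]
  omega

end Fermat.Agent.S56x.Local.SubquotCount
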