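/-
helper13 (P-S56, block (C) C4): THE STRICT-ORDINARY LOCAL CONDITION AT `p` — definition, count,
membership.

Part A (abstract, any `Rep k G` along `r : G →* Gal(Qbar/ℚ)`, on top of `Local/SubquotCount`):
* `finrank_imageH1_le` : `W ≤ W₂` with `G` acting trivially on `W₂/W`,
  `finrank W + d ≤ finrank W₂`, `h¹(W) ≤ 2 d`  ⟹  `finrank (imageH1 W) ≤ d + finrank B^G`.
* `H1π_mem_imageH1` : a continuous cocycle of `B` which becomes `W`-valued after adding the
  coboundary of some `x : B` has its class in `imageH1 W`.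

Part B (matrix coordinates): `B : Rep k₀ G` with an injective `k₀`-linear `ι : B → M₂(k)` onto the
trace-zero matrices, `ι (g b) = R g * ι b * R' g` with `R g`, `R' g` upper triangular,
`R g * R' g = 1`: `filOne` (strictly upper triangular part), `borel` (upper triangular part),
`filOne_stable`, `sub_mem_filOne`, `finrank_filOne_le`, `finrank_borel`, `coordHom` (the coordinate
`filOne → k`, on which `G` acts through `R₀₀ R'₁₁`), and the count `finrank_imageH1_filOne_le`.

Part C (the model `Dict.ad0Rep p rbar` restricted along `f : H →* Gal(Qbar/ℚ)`, basis change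
`g₀`, `h₀ = g₀⁻¹` making `rbar ∘ f` upper triangular): `LpSO`, `LpSO_le`, `finrank_LpSO_le`,
`toClass_mem_LpSO`.

The Kummer input `h¹_cont(G_p, k(ω)) ≤ 2 [k : F_p]` (+ finiteness) enters as the Prop
`KummerBound`.
-/
import Fermat.Agent.S56x.Local.SubquotCount
import Fermat.Agent.S56x.Dict.Ad0Rep

set_option autoImplicit false
set_option linter.unusedSectionVars false

noncomputable section

namespace Fermat.Agent.S56x.Local.StrictOrdCount

open CategoryTheory groupCohomology Module Fermat.Agent.S56x.Local.SubquotCount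

local notation "Γℚ" => (AlgebraicClosure ℚ ≃ₐ[ℚ] AlgebraicClosure ℚ)
local notation "M₂" => Matrix (Fin 2) (Fin 2)

/-! ### Part A: abstract count and membership -/

section Abstract

variable {k : Type} [Field k] {G : Type} [Group G] (r : G →* Γℚ)
  (B : Rep k G) (W : Submodule k B) (hW : ∀ g, W ≤ W.comap (B.ρ g))

/-- **Abstract strict-ordinary count.** -/
theorem finrank_imageH1_le [FiniteDimensional k B] (hsm : IsSmoothAlong r B)
    [Module.Finite k (continuousH1 r (subRep B W hW))]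
    (W₂ : Submodule k B) (hW₂ : ∀ g, ∀ b ∈ W₂, B.ρ g b - b ∈ W) (d : ℕ)
    (hd : finrank k W + d ≤ finrank k W₂)
    (hK : finrank k (continuousH1 r (subRep B W hW)) ≤ 2 * d) :
    finrank k (imageH1 r B W hW) ≤ d + finrank k B.ρ.invariants := by
  have h1 := finrank_imageH1_add_le r B W hW hsm
  have h2 : finrank k W₂ ≤ finrank k (stab B W) :=
    Submodule.finrank_mono (fun b hb g => hW₂ g b hb)
  omega

/-- **Abstract membership.** A continuous cocycle `z` of `B` such that `z + ∂x` is `W`-valued has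
its class in the image of the continuous `H¹` of `W`. -/
theorem H1π_mem_imageH1 (hsm : IsSmoothAlong r B) (z : cocycles₁ B)
    (hz : IsLevelConstant₁ r (z : G → B)) (x : B) (hx : ∀ g, z g + (B.ρ g x - x) ∈ W) :
    (H1π B).hom z ∈ imageH1 r B W hW := by
  -- the `W`-valued cocycle
  have hcoc : (fun g => (⟨z g + (B.ρ g x - x), hx g⟩ : W)) ∈ cocycles₁ (subRep B W hW) := by
    rw [mem_cocycles₁_iff]
    intro g h
    apply Subtype.ext
    show z (g * h) + (B.ρ (g * h) x - x) =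
      B.ρ g (z h + (B.ρ h x - x)) + (z g + (B.ρ g x - x))
    rw [(mem_cocycles₁_iff (z : G → B)).1 z.2 g h, map_mul, Module.End.mul_apply, map_add, map_sub]
    abel
  set z' : cocycles₁ (subRep B W hW) := ⟨_, hcoc⟩ with hz'
  have hz'apply : ∀ g, ((z' g : W) : B) = z g + (B.ρ g x - x) := fun g => rfl
  refine ⟨(H1π _).hom z', H1π_mem_continuousH1 r _ ?_, ?_⟩
  · -- continuity
    obtain ⟨F₁, hF₁, h₁⟩ := hz
    obtain ⟨F₂, hF₂, h₂⟩ := hsm x
    refine ⟨F₁ ⊔ F₂, IntermediateField.finiteDimensional_sup F₁ F₂, fun g s hs => ?_⟩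
    have hs1 : r s ∈ F₁.fixingSubgroup :=
      IntermediateField.fixingSubgroup_antitone le_sup_left hs
    have hs2 : r s ∈ F₂.fixingSubgroup :=
      IntermediateField.fixingSubgroup_antitone le_sup_right hs
    apply Subtype.ext
    rw [hz'apply, hz'apply, h₁ g s hs1, map_mul, Module.End.mul_apply, h₂ s hs2]
  · rw [map_incl_H1π, H1π_eq_iff]
    refine ⟨x, ?_⟩
    funext g
    show B.ρ g x - x = (z' g : B) - z g
    rw [hz'apply]
    abel

end Abstract

/-! ### Part B: matrix coordinates -/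

section Coordinates

variable {k₀ : Type} [Field k₀] {k : Type} [Field k] [Algebra k₀ k] {G : Type} [Group G]
  (B : Rep k₀ G) (ι : B →ₗ[k₀] M₂ k) (R R' : G → M₂ k)

/-- the strictly upper triangular part (`Fil¹`) in the coordinates `ι` -/
def filOne : Submodule k₀ B where
  carrier := {b | ι b 1 0 = 0 ∧ ι b 0 0 = 0}
  add_mem' {a b} ha hb := by
    refine ⟨?_, ?_⟩
    · rw [map_add, Matrix.add_apply, ha.1, hb.1, add_zero]
    · rw [map_add, Matrix.add_apply, ha.2, hb.2, add_zero]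
  zero_mem' := by simp
  smul_mem' c b hb := by
    refine ⟨?_, ?_⟩
    · rw [map_smul, Matrix.smul_apply, hb.1, smul_zero]
    · rw [map_smul, Matrix.smul_apply, hb.2, smul_zero]

/-- the upper triangular part in the coordinates `ι` -/
def borel : Submodule k₀ B where
  carrier := {b | ι b 1 0 = 0}
  add_mem' {a b} ha hb := by
    show ι (a + b) 1 0 = 0
    rw [map_add, Matrix.add_apply, ha, hb, add_zero]
  zero_mem' := by simp
  smul_mem' c b hb := by
    show ι (c • b) 1 0 = 0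
    rw [map_smul, Matrix.smul_apply, hb, smul_zero]

theorem mem_filOne_iff (b : B) : b ∈ filOne B ι ↔ ι b 1 0 = 0 ∧ ι b 0 0 = 0 := Iff.rfl

theorem mem_borel_iff (b : B) : b ∈ borel B ι ↔ ι b 1 0 = 0 := Iff.rfl

theorem filOne_le_borel : filOne B ι ≤ borel B ι := fun _ hb => hb.1

variable (hconj : ∀ g b, ι (B.ρ g b) = R g * ι b * R' g)
  (hRR' : ∀ g, R g * R' g = 1) (hR : ∀ g, R g 1 0 = 0) (hR' : ∀ g, R' g 1 0 = 0)

include hR hR' in
theorem conj_apply_one_zero (g : G) (Y : M₂ k) (hY : Y 1 0 = 0) : (R g * Y * R' g) 1 0 = 0 := by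
  simp only [Matrix.mul_apply, Fin.sum_univ_two, hR g, hR' g, hY]
  ring

include hR' in
theorem conj_apply_zero_zero (g : G) (Y : M₂ k) (hY : Y 1 0 = 0) :
    (R g * Y * R' g) 0 0 = R g 0 0 * R' g 0 0 * Y 0 0 := by
  simp only [Matrix.mul_apply, Fin.sum_univ_two, hR' g, hY]
  ring

theorem conj_apply_zero_one (g : G) (Y : M₂ k) (hY : Y 1 0 = 0) (hY0 : Y 0 0 = 0)
    (hY1 : Y 1 1 = 0) : (R g * Y * R' g) 0 1 = R g 0 0 * R' g 1 1 * Y 0 1 := by
  simp only [Matrix.mul_apply, Fin.sum_univ_two, hY, hY0, hY1]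
  ring

include hRR' hR' in
theorem diag_mul_eq_one (g : G) : R g 0 0 * R' g 0 0 = 1 := by
  have h := congrFun (congrFun (hRR' g) 0) 0
  simp only [Matrix.mul_apply, Fin.sum_univ_two, hR' g, Matrix.one_apply_eq, mul_zero,
    add_zero] at h
  exact h

include hconj hR hR' in
theorem filOne_stable (g : G) : filOne B ι ≤ (filOne B ι).comap (B.ρ g) := by
  intro b hb
  rw [Submodule.mem_comap, mem_filOne_iff, hconj]
  refine ⟨conj_apply_one_zero R R' hR hR' g _ hb.1, ?_⟩
  rw [conj_apply_zero_zero R R' hR' g _ hb.1, hb.2, mul_zero]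

include hconj hRR' hR hR' in
theorem sub_mem_filOne (g : G) (b : B) (hb : b ∈ borel B ι) : B.ρ g b - b ∈ filOne B ι := by
  rw [mem_borel_iff] at hb
  rw [mem_filOne_iff, map_sub, hconj, Matrix.sub_apply, Matrix.sub_apply,
    conj_apply_one_zero R R' hR hR' g _ hb, conj_apply_zero_zero R R' hR' g _ hb,
    diag_mul_eq_one R R' hRR' hR' g, one_mul, hb, sub_self, sub_self]
  exact ⟨rfl, rfl⟩

/-- the coordinate `b ↦ (ι b)₀₁` on `Fil¹` -/
def coordHom : filOne B ι →ₗ[k₀] k where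
  toFun b := ι (b : B) 0 1
  map_add' a b := by
    rw [Submodule.coe_add, map_add, Matrix.add_apply]
  map_smul' c b := by
    rw [Submodule.coe_smul, map_smul, Matrix.smul_apply, RingHom.id_apply]

theorem coordHom_apply (b : filOne B ι) : coordHom B ι b = ι (b : B) 0 1 := rfl

variable (hι : Function.Injective ι) (htr : ∀ b, (ι b).trace = 0)

include htr in
theorem apply_one_one_eq_zero (b : B) (hb : b ∈ filOne B ι) : ι b 1 1 = 0 := by
  have h := htr b
  rw [Matrix.trace_fin_two, hb.2, zero_add] at h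
  exact h

include hι htr in
theorem coordHom_injective : Function.Injective (coordHom B ι) := by
  rw [← LinearMap.ker_eq_bot, LinearMap.ker_eq_bot']
  intro b hb
  apply Subtype.ext
  apply hι
  rw [Submodule.coe_zero, map_zero]
  ext i j
  fin_cases i <;> fin_cases j
  · exact b.2.2
  · exact hb
  · exact b.2.1
  · exact apply_one_one_eq_zero B ι htr b b.2

include hconj hR hR' htr in
/-- `G` acts on `Fil¹` through the character `R₀₀ R'₁₁` in the coordinate `coordHom` -/
theorem coordHom_ρ (g : G) (b : filOne B ι) :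
    coordHom B ι ((subRep B (filOne B ι) (filOne_stable B ι R R' hconj hR hR')).ρ g b) =
      R g 0 0 * R' g 1 1 * coordHom B ι b := by
  show ι (B.ρ g (b : B)) 0 1 = R g 0 0 * R' g 1 1 * ι (b : B) 0 1
  rw [hconj, conj_apply_zero_one R R' g _ b.2.1 b.2.2
    (apply_one_one_eq_zero B ι htr b b.2)]

include hι htr in
theorem finrank_filOne_le [Module.Finite k₀ k] : finrank k₀ (filOne B ι) ≤ finrank k₀ k :=
  LinearMap.finrank_le_finrank_of_injective (coordHom_injective B ι hι htr)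

variable (hsurj : ∀ Y : M₂ k, Y.trace = 0 → Y 1 0 = 0 → ∃ b, ι b = Y)

/-- the coordinates `b ↦ ((ι b)₀₀, (ι b)₀₁)` on the upper triangular part -/
def borelCoord : borel B ι →ₗ[k₀] k × k where
  toFun b := (ι (b : B) 0 0, ι (b : B) 0 1)
  map_add' a b := by
    rw [Submodule.coe_add, map_add, Matrix.add_apply, Matrix.add_apply]
    rfl
  map_smul' c b := by
    rw [Submodule.coe_smul, map_smul, Matrix.smul_apply, Matrix.smul_apply, RingHom.id_apply]
    rfl

include hι htr hsurj in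
theorem borelCoord_bijective : Function.Bijective (borelCoord B ι) := by
  constructor
  · rw [← LinearMap.ker_eq_bot, LinearMap.ker_eq_bot']
    intro b hb
    have h0 : ι (b : B) 0 0 = 0 := congrArg Prod.fst hb
    have h1 : ι (b : B) 0 1 = 0 := congrArg Prod.snd hb
    apply Subtype.ext
    apply hι
    rw [Submodule.coe_zero, map_zero]
    have h := htr (b : B)
    rw [Matrix.trace_fin_two, h0, zero_add] at h
    ext i j
    fin_cases i <;> fin_cases j
    · exact h0
    · exact h1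
    · exact b.2
    · exact h
  · rintro ⟨a, c⟩
    obtain ⟨b, hb⟩ := hsurj !![a, c; 0, -a] (by simp [Matrix.trace_fin_two]) (by simp)
    refine ⟨⟨b, ?_⟩, ?_⟩
    · rw [mem_borel_iff, hb]
      simp
    · show (ι b 0 0, ι b 0 1) = (a, c)
      rw [hb]
      simp

include hι htr hsurj in
theorem finrank_borel [Module.Finite k₀ k] :
    finrank k₀ (borel B ι) = finrank k₀ k + finrank k₀ k := by
  rw [(LinearEquiv.ofBijective (borelCoord B ι)
    (borelCoord_bijective B ι hι htr hsurj)).finrank_eq, Module.finrank_prod]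

variable (r : G →* Γℚ)

include hι htr hsurj hRR' in
/-- **The strict-ordinary count in coordinates.** -/
theorem finrank_imageH1_filOne_le [Module.Finite k₀ k] [FiniteDimensional k₀ B]
    (hsm : IsSmoothAlong r B)
    [Module.Finite k₀ (continuousH1 r
      (subRep B (filOne B ι) (filOne_stable B ι R R' hconj hR hR')))]
    (hK : finrank k₀ (continuousH1 r
      (subRep B (filOne B ι) (filOne_stable B ι R R' hconj hR hR'))) ≤ 2 * finrank k₀ k) :
    finrank k₀ (imageH1 r B (filOne B ι) (filOne_stable B ι R R' hconj hR hR')) ≤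
      finrank k₀ k + finrank k₀ B.ρ.invariants := by
  refine finrank_imageH1_le r B (filOne B ι) _ hsm (borel B ι)
    (fun g b hb => sub_mem_filOne B ι R R' hconj hRR' hR hR' g b hb) (finrank k₀ k) ?_ hK
  rw [finrank_borel B ι hι htr hsurj]
  have := finrank_filOne_le B ι hι htr
  omega

end Coordinates

/-! ### Part C: the model `Dict.ad0Rep p rbar`, restricted along `f : H →* Gal(Qbar/ℚ)` -/

section AdZero

open Fermat.Agent.S56x.Dict ExtCitation

variable (p : ℕ) [Fact p.Prime] {k : Type} [Field k] [Algebra (ZMod p) k]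
  (rbar : Γℚ →* M₂ k) {H : Type} [Group H] (f : H →* Γℚ) (g₀ h₀ : M₂ k)

/-- the local module: `ad⁰ ρbar` restricted along `f` -/
abbrev locAd : Rep (ZMod p) H := Rep.res f (ad0Rep p rbar)

theorem locAd_ρ_coe (h : H) (X : ad0 k p) :
    (((locAd p rbar f).ρ h X : ad0 k p) : M₂ k) = rbar (f h) * X.1 * rbar (f h)⁻¹ := rfl

/-- coordinates on `ad⁰` after the basis change `g₀` (`h₀ = g₀⁻¹`) -/
def conjCoord : locAd p rbar f →ₗ[ZMod p] M₂ k where
  toFun X := g₀ * (X : ad0 k p).1 * h₀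
  map_add' X Y := by
    show g₀ * ((X + Y : ad0 k p) : M₂ k) * h₀ = _
    rw [Submodule.coe_add, Matrix.mul_add, Matrix.add_mul]
  map_smul' a X := by
    show g₀ * ((a • X : ad0 k p) : M₂ k) * h₀ = _
    rw [Submodule.coe_smul, Matrix.mul_smul, Matrix.smul_mul]
    rfl

theorem conjCoord_apply (X : ad0 k p) :
    conjCoord p rbar f g₀ h₀ X = g₀ * X.1 * h₀ := rfl

/-- the conjugated representation matrices -/
def conjR (h : H) : M₂ k := g₀ * rbar (f h) * h₀

/-- the conjugated inverse representation matrices -/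
def conjR' (h : H) : M₂ k := g₀ * rbar (f h)⁻¹ * h₀

variable (hgh : g₀ * h₀ = 1) (hhg : h₀ * g₀ = 1)

include hhg in
theorem conjCoord_ρ (h : H) (X : locAd p rbar f) :
    conjCoord p rbar f g₀ h₀ ((locAd p rbar f).ρ h X) =
      conjR rbar f g₀ h₀ h * conjCoord p rbar f g₀ h₀ X * conjR' rbar f g₀ h₀ h := by
  show g₀ * (rbar (f h) * (X : ad0 k p).1 * rbar (f h)⁻¹) * h₀ =
    g₀ * rbar (f h) * h₀ * (g₀ * (X : ad0 k p).1 * h₀) * (g₀ * rbar (f h)⁻¹ * h₀)
  have e1 : g₀ * rbar (f h) * h₀ * (g₀ * (X : ad0 k p).1 * h₀) * (g₀ * rbar (f h)⁻¹ * h₀) =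
      g₀ * rbar (f h) * (h₀ * g₀) * (X : ad0 k p).1 * (h₀ * g₀) * rbar (f h)⁻¹ * h₀ := by
    simp only [Matrix.mul_assoc]
  rw [e1, hhg, Matrix.mul_one, Matrix.mul_one]
  simp only [Matrix.mul_assoc]

include hgh hhg in
theorem conjR_mul_conjR' (h : H) : conjR rbar f g₀ h₀ h * conjR' rbar f g₀ h₀ h = 1 := by
  show g₀ * rbar (f h) * h₀ * (g₀ * rbar (f h)⁻¹ * h₀) = 1
  have e1 : g₀ * rbar (f h) * h₀ * (g₀ * rbar (f h)⁻¹ * h₀) =
      g₀ * (rbar (f h) * ((h₀ * g₀) * rbar (f h)⁻¹)) * h₀ := by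
    simp only [Matrix.mul_assoc]
  rw [e1, hhg, Matrix.one_mul, TanCocycle.rbar_mul_inv, Matrix.mul_one, hgh]

include hgh hhg in
theorem conjCoord_injective : Function.Injective (conjCoord p rbar f g₀ h₀) := by
  intro X Y hXY
  have h1 : g₀ * (X : ad0 k p).1 * h₀ = g₀ * (Y : ad0 k p).1 * h₀ := hXY
  have h2 : h₀ * (g₀ * (X : ad0 k p).1 * h₀) * g₀ = h₀ * (g₀ * (Y : ad0 k p).1 * h₀) * g₀ := by
    rw [h1]
  have e : ∀ Z : M₂ k, h₀ * (g₀ * Z * h₀) * g₀ = (h₀ * g₀) * Z * (h₀ * g₀) := by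
    intro Z
    simp only [Matrix.mul_assoc]
  rw [e, e, hhg, Matrix.one_mul, Matrix.one_mul, Matrix.mul_one, Matrix.mul_one] at h2
  exact Subtype.ext h2

include hhg in
theorem trace_conjCoord (X : locAd p rbar f) : (conjCoord p rbar f g₀ h₀ X).trace = 0 := by
  show (g₀ * (X : ad0 k p).1 * h₀).trace = 0
  rw [Matrix.trace_mul_comm, ← Matrix.mul_assoc, hhg, Matrix.one_mul]
  exact (X : ad0 k p).2

include hgh in
theorem conjCoord_surj (Y : M₂ k) (hY : Y.trace = 0) :
    ∃ X : locAd p rbar f, conjCoord p rbar f g₀ h₀ X = Y := by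
  have htr : (h₀ * Y * g₀).trace = 0 := by
    rw [Matrix.trace_mul_comm, ← Matrix.mul_assoc, hgh, Matrix.one_mul, hY]
  refine ⟨(⟨h₀ * Y * g₀, (mem_ad0 _).2 htr⟩ : ad0 k p), ?_⟩
  show g₀ * (h₀ * Y * g₀) * h₀ = Y
  have e : g₀ * (h₀ * Y * g₀) * h₀ = (g₀ * h₀) * Y * (g₀ * h₀) := by
    simp only [Matrix.mul_assoc]
  rw [e, hgh, Matrix.one_mul, Matrix.mul_one]

variable (hup : ∀ h : H, (g₀ * rbar (f h) * h₀) 1 0 = 0)

include hup in
theorem conjR_apply_one_zero (h : H) : conjR rbar f g₀ h₀ h 1 0 = 0 := hup h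

include hup in
theorem conjR'_apply_one_zero (h : H) : conjR' rbar f g₀ h₀ h 1 0 = 0 := by
  have := hup h⁻¹
  rwa [map_inv] at this

/-- `Fil¹ ⊆ ad⁰`: the matrices which are strictly upper triangular after the basis change `g₀` -/
abbrev filSO : Submodule (ZMod p) (locAd p rbar f) :=
  filOne (locAd p rbar f) (conjCoord p rbar f g₀ h₀)

include hhg hup in
theorem filSO_stable (h : H) :
    filSO p rbar f g₀ h₀ ≤ (filSO p rbar f g₀ h₀).comap ((locAd p rbar f).ρ h) :=
  filOne_stable (locAd p rbar f) (conjCoord p rbar f g₀ h₀) (conjR rbar f g₀ h₀)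
    (conjR' rbar f g₀ h₀) (conjCoord_ρ p rbar f g₀ h₀ hhg)
    (conjR_apply_one_zero rbar f g₀ h₀ hup) (conjR'_apply_one_zero rbar f g₀ h₀ hup) h

/-- the sub-representation `Fil¹` of `ad⁰ ρbar | H` -/
abbrev filRep : Rep (ZMod p) H :=
  subRep (locAd p rbar f) (filSO p rbar f g₀ h₀) (filSO_stable p rbar f g₀ h₀ hhg hup)

/-- **The strict-ordinary local condition** `L^{SO}`: the image of the continuous `H¹` of `Fil¹`
in `H¹(H, ad⁰ ρbar)`. -/
def LpSO : Submodule (ZMod p) (H1 (locAd p rbar f)) :=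
  imageH1 f (locAd p rbar f) (filSO p rbar f g₀ h₀) (filSO_stable p rbar f g₀ h₀ hhg hup)

/-- (SO-1) -/
theorem LpSO_le : LpSO p rbar f g₀ h₀ hhg hup ≤ continuousH1 f (locAd p rbar f) :=
  imageH1_le f _ _ _

theorem isSmoothAlong_locAd (hrbar : GaloisFactorsThroughFiniteLevel rbar) :
    IsSmoothAlong f (locAd p rbar f) := by
  intro X
  obtain ⟨L, hL, h1⟩ := hrbar
  refine ⟨L, hL, fun s hs => ?_⟩
  have hs' : rbar (f s) = 1 :=
    h1 (f s) ((IntermediateField.mem_fixingSubgroup_iff L (f s)).mp hs)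
  show ad0Representation p rbar (f s) X = X
  rw [ad0Representation_eq_one_of_rbar_eq_one p rbar hs']
  rfl

/-- **The Kummer input**: the continuous `H¹` along `f` of a module on which `H` acts through the
mod `p` cyclotomic character on (a `ZMod p`-subspace of) `k` is finite of dimension
`≤ 2 [k : 𝔽_p]`.  For `f = primeLocalToGlobal (pPrime p)` this is Kummer theory of `ℚ_p`
(`ℚ_pˣ/(ℚ_pˣ)^p` has order `p²`). -/
def KummerBound : Prop :=
  ∀ (A : Rep (ZMod p) H) (j : A →ₗ[ZMod p] k), Function.Injective j →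
    (∀ h a, j (A.ρ h a) = algebraMap (ZMod p) k ((cycloChar p (f h) : (ZMod p)ˣ) : ZMod p) * j a) →
    Module.Finite (ZMod p) (continuousH1 f A) ∧
      finrank (ZMod p) (continuousH1 f A) ≤ 2 * finrank (ZMod p) k

variable (hω : ∀ h : H, (g₀ * rbar (f h) * h₀) 0 0 =
  algebraMap (ZMod p) k ((cycloChar p (f h) : (ZMod p)ˣ) : ZMod p) * (g₀ * rbar (f h) * h₀) 1 1)

include hgh hω in
/-- `H` acts on `Fil¹` through the mod `p` cyclotomic character -/
theorem coordHom_filRep_ρ (h : H) (b : filSO p rbar f g₀ h₀) :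
    coordHom (locAd p rbar f) (conjCoord p rbar f g₀ h₀)
        ((filRep p rbar f g₀ h₀ hhg hup).ρ h b) =
      algebraMap (ZMod p) k ((cycloChar p (f h) : (ZMod p)ˣ) : ZMod p) *
        coordHom (locAd p rbar f) (conjCoord p rbar f g₀ h₀) b := by
  rw [coordHom_ρ (locAd p rbar f) (conjCoord p rbar f g₀ h₀) (conjR rbar f g₀ h₀)
    (conjR' rbar f g₀ h₀) (conjCoord_ρ p rbar f g₀ h₀ hhg)
    (conjR_apply_one_zero rbar f g₀ h₀ hup) (conjR'_apply_one_zero rbar f g₀ h₀ hup)
    (trace_conjCoord p rbar f g₀ h₀ hhg) h b]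
  congr 1
  -- `R₀₀ R'₁₁ = ω R₁₁ R'₁₁ = ω`
  have h11 : conjR rbar f g₀ h₀ h 1 1 * conjR' rbar f g₀ h₀ h 1 1 = 1 := by
    have hh := congrFun (congrFun (conjR_mul_conjR' rbar f g₀ h₀ hgh hhg h) 1) 1
    simp only [Matrix.mul_apply, Fin.sum_univ_two, conjR_apply_one_zero rbar f g₀ h₀ hup h,
      Matrix.one_apply_eq, zero_mul, zero_add] at hh
    exact hh
  show (g₀ * rbar (f h) * h₀) 0 0 * conjR' rbar f g₀ h₀ h 1 1 = _
  rw [hω h, mul_assoc]
  show _ * (conjR rbar f g₀ h₀ h 1 1 * conjR' rbar f g₀ h₀ h 1 1) = _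
  rw [h11, mul_one]

include hgh hω in
/-- (SO-2) **the count**: `dim L^{SO} ≤ [k : 𝔽_p] + h⁰(H, ad⁰ ρbar)`. -/
theorem finrank_LpSO_le [Module.Finite (ZMod p) k]
    (hrbar : GaloisFactorsThroughFiniteLevel rbar) (hK : KummerBound p (k := k) f) :
    finrank (ZMod p) (LpSO p rbar f g₀ h₀ hhg hup) ≤
      finrank (ZMod p) k + finrank (ZMod p) (locAd p rbar f).ρ.invariants := by
  obtain ⟨hfin, hle⟩ := hK (filRep p rbar f g₀ h₀ hhg hup)
    (coordHom (locAd p rbar f) (conjCoord p rbar f g₀ h₀))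
    (coordHom_injective _ _ (conjCoord_injective p rbar f g₀ h₀ hgh hhg)
      (trace_conjCoord p rbar f g₀ h₀ hhg))
    (coordHom_filRep_ρ p rbar f g₀ h₀ hgh hhg hup hω)
  have := hfin
  have : FiniteDimensional (ZMod p) (locAd p rbar f) := finiteDimensional_ad0 p
  exact finrank_imageH1_filOne_le (locAd p rbar f) (conjCoord p rbar f g₀ h₀)
    (conjR rbar f g₀ h₀) (conjR' rbar f g₀ h₀) (conjCoord_ρ p rbar f g₀ h₀ hhg)
    (conjR_mul_conjR' rbar f g₀ h₀ hgh hhg)
    (conjR_apply_one_zero rbar f g₀ h₀ hup) (conjR'_apply_one_zero rbar f g₀ h₀ hup)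
    (conjCoord_injective p rbar f g₀ h₀ hgh hhg) (trace_conjCoord p rbar f g₀ h₀ hhg)
    (fun Y hY _ => conjCoord_surj p rbar f g₀ h₀ hgh Y hY) f
    (isSmoothAlong_locAd p rbar f hrbar) hle

/-- the restriction along `f` of a tangent cocycle is continuous -/
theorem isLevelConstant₁_res (c : TanCocycle rbar) (htr : ∀ σ, (c.c σ).trace = 0) :
    IsLevelConstant₁ f
      (((mapCocycles₁ f (𝟙 (Rep.res f (ad0Rep p rbar)))).hom (c.toCocycle (p := p) htr) :
        cocycles₁ (Rep.res f (ad0Rep p rbar))) : H → locAd p rbar f) := by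
  obtain ⟨L, hL, h0⟩ := c.open'
  refine ⟨L, hL, fun g s hs => ?_⟩
  have hs' : c.c (f s) = 0 :=
    h0 (f s) ((IntermediateField.mem_fixingSubgroup_iff L (f s)).mp hs)
  apply Subtype.ext
  show c.c (f (g * s)) = c.c (f g)
  rw [map_mul, c.map_mul', hs', Matrix.mul_zero, Matrix.zero_mul, add_zero]

include hgh in
/-- (SO-3) **membership**: a trace-zero tangent cocycle whose restriction along `f` is, after
adding the coboundary of some `X : M₂ k`, strictly upper triangular in the basis `g₀`, has its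
localisation in `L^{SO}`. -/
theorem toClass_mem_LpSO (hp2 : p ≠ 2) (hrbar : GaloisFactorsThroughFiniteLevel rbar)
    (c : TanCocycle rbar) (htr : ∀ σ, (c.c σ).trace = 0) (X : M₂ k)
    (hX : ∀ h : H,
      (g₀ * (c.c (f h) + (X - rbar (f h) * X * rbar (f h)⁻¹)) * h₀) 1 0 = 0 ∧
      (g₀ * (c.c (f h) + (X - rbar (f h) * X * rbar (f h)⁻¹)) * h₀) 0 0 = 0) :
    (groupCohomology.map f (𝟙 (Rep.res f (ad0Rep p rbar))) 1).hom (c.toClass (p := p) htr) ∈
      LpSO p rbar f g₀ h₀ hhg hup := by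
  have h2 : (2 : k) ≠ 0 := by
    have hchar : CharP k p := by
      have := (algebraMap (ZMod p) k).injective
      exact (RingHom.charP_iff (algebraMap (ZMod p) k) this p).mp inferInstance
    intro h0
    have h20 : ((2 : ℕ) : k) = 0 := by exact_mod_cast h0
    have hdvd := (CharP.cast_eq_zero_iff k p 2).mp h20
    have hp : p.Prime := Fact.out
    exact hp2 ((Nat.prime_dvd_prime_iff_eq hp Nat.prime_two).mp hdvd)
  -- the trace-zero part of `X`
  set X0 : M₂ k := X - (X.trace / 2) • (1 : M₂ k) with hX0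
  have hX0tr : X0.trace = 0 := by
    rw [hX0, Matrix.trace_sub, Matrix.trace_smul, Matrix.trace_one, Fintype.card_fin,
      smul_eq_mul]
    push_cast
    field_simp
    ring
  have hconj : ∀ σ, X0 - rbar σ * X0 * rbar σ⁻¹ = X - rbar σ * X * rbar σ⁻¹ := by
    intro σ
    rw [hX0]
    simp only [Matrix.mul_sub, Matrix.sub_mul, Matrix.mul_smul, Matrix.smul_mul, Matrix.mul_one]
    rw [TanCocycle.rbar_mul_inv]
    abel
  rw [TanCocycle.map_toClass]
  refine H1π_mem_imageH1 f (locAd p rbar f) (filSO p rbar f g₀ h₀)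
    (filSO_stable p rbar f g₀ h₀ hhg hup) (isSmoothAlong_locAd p rbar f hrbar) _
    (isLevelConstant₁_res p rbar f c htr)
    ((⟨-X0, by rw [mem_ad0, Matrix.trace_neg, hX0tr, neg_zero]⟩ : ad0 k p)) (fun h => ?_)
  have key : conjCoord p rbar f g₀ h₀
      ((((mapCocycles₁ f (𝟙 (Rep.res f (ad0Rep p rbar)))).hom (c.toCocycle (p := p) htr) :
        cocycles₁ (Rep.res f (ad0Rep p rbar))) h : locAd p rbar f) +
        ((locAd p rbar f).ρ h (⟨-X0, by rw [mem_ad0, Matrix.trace_neg, hX0tr, neg_zero]⟩ : ad0 k p) -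
          (⟨-X0, by rw [mem_ad0, Matrix.trace_neg, hX0tr, neg_zero]⟩ : ad0 k p))) =
      g₀ * (c.c (f h) + (X - rbar (f h) * X * rbar (f h)⁻¹)) * h₀ := by
    show g₀ * (c.c (f h) + (rbar (f h) * (-X0) * rbar (f h)⁻¹ - (-X0))) * h₀ = _
    rw [← hconj (f h)]
    congr 2
    rw [Matrix.mul_neg, Matrix.neg_mul]
    abel
  rw [mem_filOne_iff, key]
  exact hX h

end AdZero

/-! ### Part D: at the place `p` of `extArithIndex S`, in the formalism of `GW/Interface` -/

section AtP

open Fermat.Agent.S56x.Dict ExtCitation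

variable (p : ℕ) [Fact p.Prime] {k : Type} [Field k] [Algebra (ZMod p) k]
  (rbar : Γℚ →* M₂ k) (g₀ h₀ : M₂ k) (hgh : g₀ * h₀ = 1) (hhg : h₀ * g₀ = 1)
  (hup : ∀ h : primeLocalGaloisGroup (pPrime p),
    (g₀ * rbar (primeLocalToGlobal (pPrime p) h) * h₀) 1 0 = 0)
  (S : Finset Nat.Primes) (hpS : pPrime p ∈ S)

/-- the type of local conditions at a place of `extArithIndex S` (as in `GW/Interface`) -/
abbrev LocCond (S : Finset Nat.Primes) (M : Rep (ZMod p) Γℚ) (v : extArithIndex S) : Type :=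
  Submodule (ZMod p) (H1 (Rep.res (extArithLoc S v) M))

/-- the strict-ordinary local condition at the place `p` of `extArithIndex S` -/
def LpSOAt : LocCond p S (ad0Rep p rbar) (Sum.inr ⟨pPrime p, hpS⟩) :=
  LpSO p rbar (primeLocalToGlobal (pPrime p)) g₀ h₀ hhg hup

/-- (SO-1) -/
theorem LpSOAt_le :
    LpSOAt p rbar g₀ h₀ hhg hup S hpS ≤ GW.locH1 S (ad0Rep p rbar) (Sum.inr ⟨pPrime p, hpS⟩) :=
  LpSO_le p rbar (primeLocalToGlobal (pPrime p)) g₀ h₀ hhg hup

include hgh in
/-- (SO-2) -/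
theorem finrank_LpSOAt_le [Module.Finite (ZMod p) k]
    (hω : ∀ h : primeLocalGaloisGroup (pPrime p),
      (g₀ * rbar (primeLocalToGlobal (pPrime p) h) * h₀) 0 0 =
        algebraMap (ZMod p) k
          ((cycloChar p (primeLocalToGlobal (pPrime p) h) : (ZMod p)ˣ) : ZMod p) *
          (g₀ * rbar (primeLocalToGlobal (pPrime p) h) * h₀) 1 1)
    (hrbar : GaloisFactorsThroughFiniteLevel rbar)
    (hK : KummerBound p (k := k) (primeLocalToGlobal (pPrime p))) :
    finrank (ZMod p) (LpSOAt p rbar g₀ h₀ hhg hup S hpS) ≤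
      finrank (ZMod p) k +
        finrank (ZMod p) (GW.locH0 S (ad0Rep p rbar) (Sum.inr ⟨pPrime p, hpS⟩)) :=
  finrank_LpSO_le p rbar (primeLocalToGlobal (pPrime p)) g₀ h₀ hgh hhg hup hω hrbar hK

include hgh in
/-- (SO-3) -/
theorem locRes_toClass_mem_LpSOAt (hp2 : p ≠ 2) (hrbar : GaloisFactorsThroughFiniteLevel rbar)
    (c : TanCocycle rbar) (htr : ∀ σ, (c.c σ).trace = 0) (X : M₂ k)
    (hX : ∀ h : primeLocalGaloisGroup (pPrime p),
      (g₀ * (c.c (primeLocalToGlobal (pPrime p) h) +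
        (X - rbar (primeLocalToGlobal (pPrime p) h) * X *
          rbar (primeLocalToGlobal (pPrime p) h)⁻¹)) * h₀) 1 0 = 0 ∧
      (g₀ * (c.c (primeLocalToGlobal (pPrime p) h) +
        (X - rbar (primeLocalToGlobal (pPrime p) h) * X *
          rbar (primeLocalToGlobal (pPrime p) h)⁻¹)) * h₀) 0 0 = 0) :
    (locRes (extArithLoc S) (ad0Rep p rbar) (Sum.inr ⟨pPrime p, hpS⟩)).hom
        (c.toClass (p := p) htr) ∈ LpSOAt p rbar g₀ h₀ hhg hup S hpS :=
  toClass_mem_LpSO p rbar (primeLocalToGlobal (pPrime p)) g₀ h₀ hgh hhg hup hp2 hrbar c htr X hX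

end AtP

end Fermat.Agent.S56x.Local.StrictOrdCount
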