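import Mathlib
import Fermat.Agent.S56x.Local.StrictOrdCount

/-!
# P-S56 (C4): the strict-ordinary local condition at `p`, packaged for `Assembly/Final`

`Assembly/Final.selmerCount_of_inputs` needs, for `cond = condSO`, ONE submodule `Lq (pPrime p)`
of the local `H¹` at `p`, independent of the tangent cocycle.  Here:

* `SOData p rbar g₀ h₀` : `g₀` (with inverse `h₀`) conjugates `rbar` restricted to the
  decomposition group of `P₀ = primeLocalPlace (pPrime p)` into upper triangular form with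
  unramified quotient character and `(0,0)`-entry `= ω · (1,1)`-entry.
* `LpSOFinal p rbar` : `StrictOrdCount.LpSO` for a chosen `SOData` (and `⊥` if there is none).
* `LpSOFinal_le`, `finrank_LpSOFinal_le` : (SO-1), (SO-2) in the shape of `Final`'s `hLq`, `hLp`.
* `LineData p rbar c P` : the conclusion of `(SOT-1) StrictOrdTangent.exists_line_data` (the
  strict-ordinary line of the lift of `c`, straightened by a coboundary), as a Prop.
* `locRes_toClass_mem_LpSOFinal` : (SO-3) membership `hLqmem`, from `LineData` at `P₀` and an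
  inertia element `σ₀` with `det rbar σ₀ ≠ 1` (uniqueness of the line).
* the matrix lemmas `line_unique` (SOL-1) and `transfer` (SOL-2).
-/

set_option autoImplicit false
set_option linter.unusedSectionVars false
set_option linter.style.haveILetI false

noncomputable section

namespace Fermat.Agent.S56x.Local.StrictOrdFinal

open CategoryTheory groupCohomology Module ExtCitation Fermat.Agent.S53 Fermat.Agent.S56x.Dict
  Fermat.Agent.S56x.Local.StrictOrdCount

local notation "Qbar" => AlgebraicClosure ℚ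
local notation "Γℚ" => (AlgebraicClosure ℚ ≃ₐ[ℚ] AlgebraicClosure ℚ)
local notation "M₂" => Matrix (Fin 2) (Fin 2)

/-! ### Matrix algebra: uniqueness of the line and transfer -/

section MatrixAlgebra

variable {k : Type} [Field k]

/-- `2 × 2` products, entrywise. -/
lemma mul_apply_two (A B : M₂ k) (i j : Fin 2) : (A * B) i j = A i 0 * B 0 j + A i 1 * B 1 j := by
  rw [Matrix.mul_apply, Fin.sum_univ_two]

/-- **(SOL-1), one half.** If `g₀ A h₀` and `g₁ A h₁` are both upper triangular with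
`(1,1)`-entry `1` and `det A ≠ 1`, then `g₁ h₀` is upper triangular. -/
theorem line_unique_aux {g₀ h₀ g₁ h₁ A : M₂ k} (h00 : g₀ * h₀ = 1) (h11' : h₁ * g₁ = 1)
    (hA0 : (g₀ * A * h₀) 1 0 = 0) (hA0' : (g₀ * A * h₀) 1 1 = 1)
    (hA1 : (g₁ * A * h₁) 1 0 = 0) (hA1' : (g₁ * A * h₁) 1 1 = 1) (hdet : A.det ≠ 1) :
    (g₁ * h₀) 1 0 = 0 := by
  -- `A₁ T = T A₀` with `T = g₁ h₀`
  have hcomm : (g₁ * A * h₁) * (g₁ * h₀) = (g₁ * h₀) * (g₀ * A * h₀) := by
    have e1 : (g₁ * A * h₁) * (g₁ * h₀) = g₁ * A * (h₁ * g₁) * h₀ := by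
      simp only [Matrix.mul_assoc]
    have e2 : (g₁ * h₀) * (g₀ * A * h₀) = g₁ * (h₀ * g₀) * A * h₀ := by
      simp only [Matrix.mul_assoc]
    have h00' : h₀ * g₀ = 1 := mul_eq_one_comm.mp h00
    rw [e1, e2, h11', h00', Matrix.mul_one, Matrix.mul_one]
  have hdet0 : (g₀ * A * h₀).det = A.det := by
    rw [Matrix.det_mul, Matrix.det_mul, mul_comm (g₀.det), mul_assoc, ← Matrix.det_mul, h00,
      Matrix.det_one, mul_one]
  have ha : (g₀ * A * h₀) 0 0 = A.det := by
    rw [← hdet0, Matrix.det_fin_two, hA0, hA0', mul_one, mul_zero, sub_zero]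
  have h10 := congrFun (congrFun hcomm 1) 0
  rw [mul_apply_two (g₁ * A * h₁) (g₁ * h₀) 1 0, mul_apply_two (g₁ * h₀) (g₀ * A * h₀) 1 0,
    hA1, hA1', hA0, ha] at h10
  have h3 : (g₁ * h₀) 1 0 * (1 - A.det) = 0 := by
    rw [mul_sub, mul_one, sub_eq_zero]
    rw [zero_mul, zero_add, one_mul, mul_zero, add_zero] at h10
    exact h10
  rcases mul_eq_zero.mp h3 with h | h
  · exact h
  · exact absurd (sub_eq_zero.mp h).symm hdet

/-- **(SOL-1)** uniqueness of the line: both base change matrices between two upper triangular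
forms (quotient character `1` at `A`, `det A ≠ 1`) are upper triangular. -/
theorem line_unique {g₀ h₀ g₁ h₁ A : M₂ k} (h00 : g₀ * h₀ = 1) (h00' : h₀ * g₀ = 1)
    (h11 : g₁ * h₁ = 1) (h11' : h₁ * g₁ = 1)
    (hA0 : (g₀ * A * h₀) 1 0 = 0) (hA0' : (g₀ * A * h₀) 1 1 = 1)
    (hA1 : (g₁ * A * h₁) 1 0 = 0) (hA1' : (g₁ * A * h₁) 1 1 = 1) (hdet : A.det ≠ 1) :
    (g₁ * h₀) 1 0 = 0 ∧ (g₀ * h₁) 1 0 = 0 :=
  ⟨line_unique_aux h00 h11' hA0 hA0' hA1 hA1' hdet,
    line_unique_aux h11 h00' hA1 hA1' hA0 hA0' hdet⟩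

/-- **(SOL-2)** transfer of the strictly upper triangular shape between two bases with the same
line. -/
theorem transfer {g₀ h₀ g₁ h₁ Y : M₂ k} (h11' : h₁ * g₁ = 1)
    (hT : (g₁ * h₀) 1 0 = 0) (hYtr : Y.trace = 0)
    (hY10 : (g₁ * Y * h₁) 1 0 = 0) (hY00 : (g₁ * Y * h₁) 0 0 = 0) :
    (g₀ * Y * h₀) 1 0 = 0 ∧ (g₀ * Y * h₀) 0 0 = 0 := by
  have hfac : g₀ * Y * h₀ = (g₀ * h₁) * (g₁ * Y * h₁) * (g₁ * h₀) := by
    have e : (g₀ * h₁) * (g₁ * Y * h₁) * (g₁ * h₀) = g₀ * (h₁ * g₁) * Y * (h₁ * g₁) * h₀ := by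
      simp only [Matrix.mul_assoc]
    rw [e, h11', Matrix.mul_one, Matrix.mul_one]
  have hZtr : (g₁ * Y * h₁).trace = 0 := by
    rw [Matrix.trace_mul_comm, ← Matrix.mul_assoc, h11', Matrix.one_mul, hYtr]
  have hZ11 : (g₁ * Y * h₁) 1 1 = 0 := by
    rw [Matrix.trace_fin_two, hY00, zero_add] at hZtr
    exact hZtr
  generalize g₁ * Y * h₁ = Z at hfac hY10 hY00 hZ11
  generalize g₀ * h₁ = U at hfac
  generalize g₁ * h₀ = V at hfac hT
  constructor
  · rw [hfac, mul_apply_two (U * Z) V 1 0, mul_apply_two U Z 1 0, mul_apply_two U Z 1 1, hY00,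
      hY10, hZ11, hT]
    ring
  · rw [hfac, mul_apply_two (U * Z) V 0 0, mul_apply_two U Z 0 0, mul_apply_two U Z 0 1, hY00,
      hY10, hZ11, hT]
    ring

end MatrixAlgebra

/-! ### The packaged local condition -/

variable (p : ℕ) [Fact p.Prime] {k : Type} [Field k] [Algebra (ZMod p) k] (rbar : Γℚ →* M₂ k)

/-- The image of the local Galois group at `p` lies in the decomposition group of
`primeLocalPlace (pPrime p)`. -/
theorem primeLocalToGlobal_mem_decompositionSubgroup (h : primeLocalGaloisGroup (pPrime p)) :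
    primeLocalToGlobal (pPrime p) h ∈ (primeLocalPlace (pPrime p)).decompositionSubgroup ℚ :=
  localGaloisToGlobal_mem_decompositionSubgroup p h

/-- The inertia group of a place is contained in its decomposition group. -/
theorem mem_decompositionSubgroup_of_mem_inertia {P : ValuationSubring Qbar} {σ : Γℚ}
    (hσ : σ ∈ P.inertiaSubgroupIn ℚ) : σ ∈ P.decompositionSubgroup ℚ := by
  unfold ValuationSubring.inertiaSubgroupIn at hσ
  rw [Subgroup.mem_map] at hσ
  obtain ⟨g, -, rfl⟩ := hσ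
  exact g.2

/-- `g₀` (inverse `h₀`) puts `rbar` on the decomposition group of `P₀ = primeLocalPlace p` in
strict-ordinary shape: upper triangular, unramified quotient character, and
`(0,0)`-entry `= ω · (1,1)`-entry. -/
def SOData (g₀ h₀ : M₂ k) : Prop :=
  g₀ * h₀ = 1 ∧ h₀ * g₀ = 1 ∧
  (∀ σ ∈ (primeLocalPlace (pPrime p)).decompositionSubgroup ℚ, (g₀ * rbar σ * h₀) 1 0 = 0) ∧
  (∀ σ ∈ (primeLocalPlace (pPrime p)).inertiaSubgroupIn ℚ, (g₀ * rbar σ * h₀) 1 1 = 1) ∧
  (∀ σ ∈ (primeLocalPlace (pPrime p)).decompositionSubgroup ℚ, (g₀ * rbar σ * h₀) 0 0 =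
    algebraMap (ZMod p) k ((cycloChar p σ : (ZMod p)ˣ) : ZMod p) * (g₀ * rbar σ * h₀) 1 1)

variable {p rbar}

theorem SOData.hup {g₀ h₀ : M₂ k} (d : SOData p rbar g₀ h₀)
    (h : primeLocalGaloisGroup (pPrime p)) :
    (g₀ * rbar (primeLocalToGlobal (pPrime p) h) * h₀) 1 0 = 0 :=
  d.2.2.1 _ (primeLocalToGlobal_mem_decompositionSubgroup p h)

theorem SOData.hω {g₀ h₀ : M₂ k} (d : SOData p rbar g₀ h₀)
    (h : primeLocalGaloisGroup (pPrime p)) :
    (g₀ * rbar (primeLocalToGlobal (pPrime p) h) * h₀) 0 0 =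
      algebraMap (ZMod p) k
        ((cycloChar p (primeLocalToGlobal (pPrime p) h) : (ZMod p)ˣ) : ZMod p) *
        (g₀ * rbar (primeLocalToGlobal (pPrime p) h) * h₀) 1 1 :=
  d.2.2.2.2 _ (primeLocalToGlobal_mem_decompositionSubgroup p h)

variable (p rbar)

/-- The strict-ordinary local condition for given `SOData`. -/
def LpSOOf {g₀ h₀ : M₂ k} (d : SOData p rbar g₀ h₀) :
    Submodule (ZMod p) (H1 (Rep.res (primeLocalToGlobal (pPrime p)) (ad0Rep p rbar))) :=
  LpSO p rbar (primeLocalToGlobal (pPrime p)) g₀ h₀ d.2.1 d.hup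

open Classical in
/-- **The strict-ordinary local condition at `p`**, independent of all choices of cocycles:
`LpSO` for a chosen strict-ordinary basis of `rbar | D_p` (and `⊥` if `rbar | D_p` has no such
basis, in which case there is no strict-ordinary lift at all). -/
def LpSOFinal :
    Submodule (ZMod p) (H1 (Rep.res (primeLocalToGlobal (pPrime p)) (ad0Rep p rbar))) :=
  if h : ∃ g₀ h₀ : M₂ k, SOData p rbar g₀ h₀ then LpSOOf p rbar h.choose_spec.choose_spec else ⊥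

theorem LpSOFinal_eq_of_exists (h : ∃ g₀ h₀ : M₂ k, SOData p rbar g₀ h₀) :
    LpSOFinal p rbar = LpSOOf p rbar h.choose_spec.choose_spec := by
  unfold LpSOFinal
  exact dif_pos h

theorem LpSOFinal_eq_bot (h : ¬ ∃ g₀ h₀ : M₂ k, SOData p rbar g₀ h₀) :
    LpSOFinal p rbar = ⊥ := by
  unfold LpSOFinal
  exact dif_neg h

/-- (SO-1) in the shape of `hLq` of `Assembly/Final`. -/
theorem LpSOFinal_le :
    LpSOFinal p rbar ≤ continuousH1 (primeLocalToGlobal (pPrime p))
      (Rep.res (primeLocalToGlobal (pPrime p)) (ad0Rep p rbar)) := by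
  by_cases h : ∃ g₀ h₀ : M₂ k, SOData p rbar g₀ h₀
  · rw [LpSOFinal_eq_of_exists p rbar h]
    exact LpSO_le p rbar (primeLocalToGlobal (pPrime p)) _ _ _ _
  · rw [LpSOFinal_eq_bot p rbar h]
    exact bot_le

/-- (SO-2) in the shape of `hLp` of `Assembly/Final`. -/
theorem finrank_LpSOFinal_le [Module.Finite (ZMod p) k]
    (hrbar : GaloisFactorsThroughFiniteLevel rbar)
    (hK : KummerBound p (k := k) (primeLocalToGlobal (pPrime p))) :
    finrank (ZMod p) (LpSOFinal p rbar) ≤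
      finrank (ZMod p) (Rep.res (primeLocalToGlobal (pPrime p)) (ad0Rep p rbar)).ρ.invariants +
        finrank (ZMod p) k := by
  by_cases h : ∃ g₀ h₀ : M₂ k, SOData p rbar g₀ h₀
  · rw [LpSOFinal_eq_of_exists p rbar h]
    have d := h.choose_spec.choose_spec
    rw [add_comm]
    exact finrank_LpSO_le p rbar (primeLocalToGlobal (pPrime p)) _ _ d.1 d.2.1 d.hup d.hω hrbar hK
  · rw [LpSOFinal_eq_bot p rbar h, finrank_bot]
    exact Nat.zero_le _

/-- The conclusion of `(SOT-1) StrictOrdTangent.exists_line_data` for the tangent cocycle `c` at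
the place `P`: a basis change `g₁` (inverse `h₁`) and a matrix `X` such that `rbar | D_P` is in
strict-ordinary shape and `c + ∂X` is strictly upper triangular on `D_P`. -/
def LineData (c : TanCocycle rbar) (P : ValuationSubring Qbar) : Prop :=
  ∃ g₁ h₁ X : M₂ k, g₁ * h₁ = 1 ∧ h₁ * g₁ = 1 ∧
    (∀ σ ∈ P.decompositionSubgroup ℚ, (g₁ * rbar σ * h₁) 1 0 = 0) ∧
    (∀ σ ∈ P.inertiaSubgroupIn ℚ, (g₁ * rbar σ * h₁) 1 1 = 1) ∧
    (∀ σ ∈ P.decompositionSubgroup ℚ, ∀ a : ℕ,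
      (∀ μ : Qbar, μ ^ p = 1 → σ μ = μ ^ a) →
        (g₁ * rbar σ * h₁) 0 0 = (a : k) * (g₁ * rbar σ * h₁) 1 1) ∧
    (∀ σ ∈ P.decompositionSubgroup ℚ,
      (g₁ * (c.c σ + (X - rbar σ * X * rbar σ⁻¹)) * h₁) 1 0 = 0 ∧
      (g₁ * (c.c σ + (X - rbar σ * X * rbar σ⁻¹)) * h₁) 0 0 = 0)

/-- Galois action on a `p`-th root of unity through `cycloExp`. -/
theorem apply_eq_pow_cycloExp (σ : Γℚ) {ζ : Qbar} (hζ : ζ ^ p = 1) :
    σ ζ = ζ ^ ExtCitation.cycloExp p σ := by
  have hp : p.Prime := Fact.out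
  have : NeZero p := ⟨hp.ne_zero⟩
  have hζ0 : ζ ≠ 0 := by
    rintro rfl
    rw [zero_pow hp.ne_zero] at hζ
    exact zero_ne_one hζ
  have hmem : Units.mk0 ζ hζ0 ∈ rootsOfUnity p Qbar := by
    rw [mem_rootsOfUnity]
    exact Units.ext (by simpa using hζ)
  have := modularCyclotomicCharacter.spec Qbar
    (ExtCitation.card_rootsOfUnity_eq_self p) (σ : Qbar ≃+* Qbar) hmem
  simpa [ExtCitation.cycloExp] using this

variable {p rbar}

/-- `LineData` at `P₀` gives `SOData`. -/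
theorem LineData.soData {c : TanCocycle rbar}
    (hl : LineData p rbar c (primeLocalPlace (pPrime p))) :
    ∃ g₁ h₁ X : M₂ k, SOData p rbar g₁ h₁ ∧
      ∀ σ ∈ (primeLocalPlace (pPrime p)).decompositionSubgroup ℚ,
        (g₁ * (c.c σ + (X - rbar σ * X * rbar σ⁻¹)) * h₁) 1 0 = 0 ∧
        (g₁ * (c.c σ + (X - rbar σ * X * rbar σ⁻¹)) * h₁) 0 0 = 0 := by
  obtain ⟨g₁, h₁, X, e1, e2, hup, hin, hω, hX⟩ := hl
  refine ⟨g₁, h₁, X, ⟨e1, e2, hup, hin, fun σ hσ => ?_⟩, hX⟩
  rw [ExtCitation.coe_cycloChar, map_natCast]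
  exact hω σ hσ _ fun μ hμ => apply_eq_pow_cycloExp p σ hμ

/-- (SO-3) **membership**, in the shape of `hLqmem` of `Assembly/Final`: the localisation at `p`
of the class of a trace-zero tangent cocycle with `LineData` at `P₀` lies in `LpSOFinal`, provided
some inertia element at `P₀` has `det rbar ≠ 1` (uniqueness of the line). -/
theorem locRes_toClass_mem_LpSOFinal (hp2 : p ≠ 2)
    (hrbar : GaloisFactorsThroughFiniteLevel rbar)
    (hram : ∃ σ ∈ (primeLocalPlace (pPrime p)).inertiaSubgroupIn ℚ, (rbar σ).det ≠ 1)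
    (c : TanCocycle rbar) (htr : ∀ σ, (c.c σ).trace = 0)
    (hl : LineData p rbar c (primeLocalPlace (pPrime p))) :
    (locRes (fun q : Nat.Primes => primeLocalToGlobal q) (ad0Rep p rbar) (pPrime p)).hom
      (c.toClass (p := p) htr) ∈ LpSOFinal p rbar := by
  obtain ⟨g₁, h₁, X, d₁, hX⟩ := hl.soData
  have hex : ∃ g₀ h₀ : M₂ k, SOData p rbar g₀ h₀ := ⟨g₁, h₁, d₁⟩
  rw [LpSOFinal_eq_of_exists p rbar hex]
  have d₀ := hex.choose_spec.choose_spec
  set g₀ := hex.choose with hg₀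
  set h₀ := hex.choose_spec.choose with hh₀
  obtain ⟨σ₀, hσ₀, hdet⟩ := hram
  have hσ₀D := mem_decompositionSubgroup_of_mem_inertia hσ₀
  obtain ⟨hT, -⟩ := line_unique d₀.1 d₀.2.1 d₁.1 d₁.2.1 (d₀.2.2.1 σ₀ hσ₀D) (d₀.2.2.2.1 σ₀ hσ₀)
    (d₁.2.2.1 σ₀ hσ₀D) (d₁.2.2.2.1 σ₀ hσ₀) hdet
  refine toClass_mem_LpSO p rbar (primeLocalToGlobal (pPrime p)) g₀ h₀ d₀.1 d₀.2.1 d₀.hup hp2
    hrbar c htr X (fun h => ?_)
  have hD := primeLocalToGlobal_mem_decompositionSubgroup p h
  have hYtr : (c.c (primeLocalToGlobal (pPrime p) h) +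
      (X - rbar (primeLocalToGlobal (pPrime p) h) * X *
        rbar (primeLocalToGlobal (pPrime p) h)⁻¹)).trace = 0 := by
    rw [Matrix.trace_add, Matrix.trace_sub, htr, zero_add, Matrix.trace_mul_comm,
      ← Matrix.mul_assoc, TanCocycle.rbar_inv_mul, Matrix.one_mul, sub_self]
  exact transfer d₁.2.1 hT hYtr (hX _ hD).1 (hX _ hD).2

end Fermat.Agent.S56x.Local.StrictOrdFinal

end
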