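import Mathlib
import Fermat.Prelude.Def_GroupCohomology_ContinuousUnramified
import Fermat.Agent.Lib.CFT.Local.PowerIndex
import Fermat.Agent.S56x.Hopf.PthPower

/-!
# P-S56 (C4/A): `dim H¹_cont(G_{ℚ_p}, N) ≤ 2 dim N` for `N ≅ μ_p ⊗ N₀`

The hypothesis `hK` of the strict-ordinary local count: if the local Galois group
`Gal(PadicAlgCl p/ℚ_p)` acts on a finite `𝔽_p`-space `N` through the mod `p` cyclotomic character
(e.g. `N = Fil¹ ≅ k(ω)`), then the continuous `H¹` (Prelude formalism) has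
`𝔽_p`-dimension `≤ 2 · dim N` (`p` odd).

Proof = Kummer theory over `ℚ_p` itself: for a functional `λ` on `N` and a cocycle `c`,
`g ↦ ζ ^ λ(c g)` is a multiplicative 1-cocycle with values in a finite Galois layer (the twist by
`ω` is exactly the Galois action on `μ_p`), hence a coboundary `g α / α` by Hilbert 90, and
`α ^ p ∈ ℚ_pˣ`; the class of `c` is determined by the classes of the `α_i ^ p` in
`ℚ_pˣ / (ℚ_pˣ)^p`, a group of order `p²` (frozen `Lib/CFT/Local/PowerIndex` + `μ_p(ℚ_p) = 1`).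

* generic part (`F`, `Ω/F` Galois, any `p`): `exists_unit_of_twisted`,
  `exists_twisted_kummerGen`, `pow_mem_range_of_twisted`, `exists_eq_add_of_pow_eq`,
  `IsTwCocycle`, `exists_classMap`;
* `padic_eq_one_of_pow_eq_one`, `index_range_pow_padic`;
* `finrank_continuousH1_cyclo_le` (main), `finrank_continuousH1_omega_le` (Prelude names).
-/

set_option autoImplicit false

namespace Fermat.Agent.S56x.Local.KummerOmega

open IntermediateField

section Exponent

variable {R : Type*} [CommMonoid R] (p : ℕ) [Fact p.Prime]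

/-- `ζ ^ a` for `a : ZMod p`. -/
def zp (ζ : R) (a : ZMod p) : R := ζ ^ a.val

variable {p}

lemma zp_zero (ζ : R) : zp p ζ 0 = 1 := by simp [zp]

lemma zp_add {ζ : R} (hζ : ζ ^ p = 1) (a b : ZMod p) : zp p ζ (a + b) = zp p ζ a * zp p ζ b := by
  unfold zp
  rw [← pow_add, ZMod.val_add]
  conv_rhs => rw [← Nat.mod_add_div (a.val + b.val) p]
  rw [pow_add, pow_mul, hζ, one_pow, mul_one]

lemma zp_mul {ζ : R} (hζ : ζ ^ p = 1) (a b : ZMod p) : zp p ζ (a * b) = zp p (zp p ζ a) b := by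
  unfold zp
  rw [← pow_mul, ZMod.val_mul]
  conv_rhs => rw [← Nat.mod_add_div (a.val * b.val) p]
  rw [pow_add, pow_mul, hζ, one_pow, mul_one]

omit [Fact (Nat.Prime p)] in
lemma zp_pow_p {ζ : R} (hζ : ζ ^ p = 1) (a : ZMod p) : zp p ζ a ^ p = 1 := by
  unfold zp
  rw [← pow_mul, mul_comm, pow_mul, hζ, one_pow]

lemma zp_eq_one_iff {ζ : R} (hζ : IsPrimitiveRoot ζ p) (a : ZMod p) : zp p ζ a = 1 ↔ a = 0 := by
  unfold zp
  constructor
  · intro h
    have h1 : p ∣ a.val := (hζ.pow_eq_one_iff_dvd _).mp h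
    have h2 : a.val < p := ZMod.val_lt a
    have h3 : a.val = 0 := Nat.eq_zero_of_dvd_of_lt h1 h2
    exact (ZMod.val_eq_zero a).mp h3
  · rintro rfl
    simp

lemma zp_sub_mul {ζ : R} (hζ : ζ ^ p = 1) (a b : ZMod p) :
    zp p ζ (a - b) * zp p ζ b = zp p ζ a := by
  rw [← zp_add hζ, sub_add_cancel]

end Exponent

section Twisted

variable {p : ℕ} [Fact p.Prime]

/-- Twisted Hilbert 90 on a finite Galois layer. -/
theorem exists_unit_of_twisted {K₀ K₁ : Type*} [Field K₀] [Field K₁] [Algebra K₀ K₁]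
    [FiniteDimensional K₀ K₁] {ζ : K₁} (hζ : ζ ^ p = 1) (ω χ : Gal(K₁/K₀) → ZMod p)
    (hω : ∀ σ : Gal(K₁/K₀), σ ζ = zp p ζ (ω σ))
    (hχ : ∀ σ τ, χ (σ * τ) = χ σ + ω σ * χ τ) :
    ∃ β : K₁ˣ, ∀ σ : Gal(K₁/K₀), σ (β : K₁) = zp p ζ (χ σ) * β := by
  let ζu : K₁ˣ := Units.ofPowEqOne ζ p hζ (Fact.out : p.Prime).ne_zero
  have hζup : ζu ^ p = 1 := Units.ext (by simp [ζu])
  let f : Gal(K₁/K₀) → K₁ˣ := fun σ => zp p ζu (χ σ)
  have hact : ∀ (σ : Gal(K₁/K₀)) (a : ZMod p), σ • zp p ζu a = zp p ζu (ω σ * a) := by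
    intro σ a
    apply Units.ext
    rw [mul_comm, zp_mul hζup]
    simp only [zp, AlgEquiv.smul_units_def, Units.coe_map, MonoidHom.coe_coe,
      Units.val_pow_eq_pow_val, map_pow]
    simp only [ζu, Units.val_ofPowEqOne]
    rw [hω σ]
    simp [zp, ← pow_mul, mul_comm]
  have hf : groupCohomology.IsMulCocycle₁ f := by
    intro σ τ
    show zp p ζu (χ (σ * τ)) = σ • zp p ζu (χ τ) * zp p ζu (χ σ)
    rw [hχ, zp_add hζup, hact, mul_comm]
  obtain ⟨β, hβ⟩ := groupCohomology.isMulCoboundary₁_of_isMulCocycle₁_of_aut_to_units f hf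
  refine ⟨β, fun σ => ?_⟩
  have h1 := hβ σ
  rw [div_eq_iff_eq_mul] at h1
  have h2 := congrArg (fun u : K₁ˣ => (u : K₁)) h1
  simpa [f, ζu, zp, AlgEquiv.smul_units_def] using h2

variable {F Ω : Type*} [Field F] [Field Ω] [Algebra F Ω] [IsGalois F Ω]

/-- **Twisted Hilbert 90.**  `ω` the mod `p` cyclotomic character of `Gal(Ω/F)` (w.r.t. `ζ`),
`χ : Gal(Ω/F) → ZMod p` an `ω`-twisted homomorphism (`χ (g h) = χ g + ω g * χ h`), locally
constant.  Then `g ↦ ζ ^ χ g` is a multiplicative coboundary: there is `α ∈ Ωˣ` with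
`g α = ζ ^ χ(g) * α` for all `g`. -/
theorem exists_twisted_kummerGen {ζ : Ω} (hζ : ζ ^ p = 1) (ω χ : Gal(Ω/F) → ZMod p)
    (hω : ∀ g : Gal(Ω/F), g ζ = zp p ζ (ω g))
    (hχ : ∀ g h, χ (g * h) = χ g + ω g * χ h)
    (hloc : ∃ E : IntermediateField F Ω, FiniteDimensional F E ∧
      ∀ g, ∀ s ∈ E.fixingSubgroup, χ (g * s) = χ g ∧ ω (g * s) = ω g) :
    ∃ α : Ωˣ, ∀ g : Gal(Ω/F), g (α : Ω) = zp p ζ (χ g) * α := by
  obtain ⟨E, hEfin, hE⟩ := hloc
  have hζint : IsIntegral F ζ := by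
    refine ⟨Polynomial.X ^ p - 1, Polynomial.monic_X_pow_sub_C 1 (Fact.out : p.Prime).ne_zero, ?_⟩
    simp [hζ]
  have : FiniteDimensional F F⟮ζ⟯ := IntermediateField.adjoin.finiteDimensional hζint
  have : FiniteDimensional F ↥(E ⊔ F⟮ζ⟯) := IntermediateField.finiteDimensional_sup E F⟮ζ⟯
  let K : IntermediateField F Ω := normalClosure F ↥(E ⊔ F⟮ζ⟯) Ω
  have hKfin : FiniteDimensional F K := normalClosure.is_finiteDimensional F _ Ω
  have hKnorm : Normal F K := normalClosure.normal F _ Ω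
  have hEK : E ≤ K := le_trans le_sup_left (IntermediateField.le_normalClosure _)
  have hζK : ζ ∈ K :=
    (IntermediateField.le_normalClosure _) (le_sup_right (a := E)
      (IntermediateField.mem_adjoin_simple_self F ζ))
  let res : Gal(Ω/F) →* Gal(K/F) := AlgEquiv.restrictNormalHom K
  have hres : Function.Surjective res := AlgEquiv.restrictNormalHom_surjective Ω
  let sec : Gal(K/F) → Gal(Ω/F) := Function.surjInv hres
  have hsec : ∀ σ, res (sec σ) = σ := Function.surjInv_eq hres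
  have hresapp : ∀ (g : Gal(Ω/F)) (x : K), ((res g x : K) : Ω) = g (x : Ω) := fun g x =>
    AlgEquiv.restrictNormal_commutes g K x
  -- `χ`, `ω` only depend on the restriction to `K`
  have hdesc : ∀ g g' : Gal(Ω/F), res g = res g' → χ g = χ g' ∧ ω g = ω g' := by
    intro g g' h
    have hs : g⁻¹ * g' ∈ E.fixingSubgroup := by
      apply IntermediateField.fixingSubgroup_le hEK
      rw [← IntermediateField.restrictNormalHom_ker K, MonoidHom.mem_ker, map_mul, map_inv]
      show (res g)⁻¹ * res g' = 1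
      rw [h, inv_mul_cancel]
    have := hE g _ hs
    rw [mul_inv_cancel_left] at this
    exact ⟨this.1.symm, this.2.symm⟩
  let ζK : K := ⟨ζ, hζK⟩
  have hζKp : ζK ^ p = 1 := Subtype.ext (by simp [ζK, hζ])
  obtain ⟨β, hβ⟩ := exists_unit_of_twisted (K₀ := F) (K₁ := K) hζKp
    (fun σ => ω (sec σ)) (fun σ => χ (sec σ))
    (fun σ => by
      apply Subtype.ext
      have h1 := hresapp (sec σ) ζK
      rw [hsec] at h1
      rw [h1]
      simp only [ζK]
      rw [hω]
      simp [zp])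
    (fun σ τ => by
      have h1 : res (sec (σ * τ)) = res (sec σ * sec τ) := by
        rw [hsec, map_mul, hsec, hsec]
      rw [(hdesc _ _ h1).1, hχ])
  refine ⟨Units.map (algebraMap K Ω : K →* Ω) β, fun g => ?_⟩
  have h1 := hβ (res g)
  have h3 : χ (sec (res g)) = χ g := (hdesc _ _ (hsec _)).1
  have h4 := congrArg (fun x : K => (x : Ω)) h1
  simp only [h3, hresapp, MulMemClass.coe_mul] at h4
  show g (algebraMap K Ω (β : K)) = _ * algebraMap K Ω (β : K)
  rw [show algebraMap K Ω (β : K) = ((β : K) : Ω) from rfl, h4]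
  congr 1

end Twisted


section Compare

variable {F Ω : Type*} [Field F] [Field Ω] [Algebra F Ω] [IsGalois F Ω]
  {p : ℕ} [Fact p.Prime]

lemma zp_injective {ζ : Ω} (hζ : IsPrimitiveRoot ζ p) {a b : ZMod p}
    (h : zp p ζ a = zp p ζ b) : a = b := by
  have hζp : ζ ^ p = 1 := hζ.pow_eq_one
  have h1 := zp_sub_mul hζp a b
  rw [h] at h1
  have hb : zp p ζ b ≠ 0 := by
    intro h0
    have := zp_pow_p hζp b
    rw [h0, zero_pow (Fact.out : p.Prime).ne_zero] at this
    exact zero_ne_one this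
  have h2 : zp p ζ (a - b) = 1 := by
    have : zp p ζ (a - b) * zp p ζ b = 1 * zp p ζ b := by rw [h1, one_mul]
    exact mul_right_cancel₀ hb this
  exact sub_eq_zero.mp ((zp_eq_one_iff hζ _).mp h2)

omit [Fact (Nat.Prime p)] in
/-- The `p`-th power of a twisted Kummer generator lies in the base field. -/
theorem pow_mem_range_of_twisted {ζ : Ω} (hζ : ζ ^ p = 1) {χ : Gal(Ω/F) → ZMod p} {α : Ωˣ}
    (hα : ∀ g : Gal(Ω/F), g (α : Ω) = zp p ζ (χ g) * α) :
    (α : Ω) ^ p ∈ Set.range (algebraMap F Ω) := by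
  rw [InfiniteGalois.mem_range_algebraMap_iff_fixed]
  intro g
  rw [map_pow, hα, mul_pow, zp_pow_p hζ, one_mul]

omit [IsGalois F Ω] in
/-- Two twisted Kummer generators whose `p`-th powers differ by a `p`-th power of the base
field belong to cohomologous twisted homomorphisms. -/
theorem exists_eq_add_of_pow_eq {ζ : Ω} (hζ : IsPrimitiveRoot ζ p) (ω χ χ' : Gal(Ω/F) → ZMod p)
    (hω : ∀ g : Gal(Ω/F), g ζ = zp p ζ (ω g))
    {α α' : Ωˣ} (hα : ∀ g : Gal(Ω/F), g (α : Ω) = zp p ζ (χ g) * α)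
    (hα' : ∀ g : Gal(Ω/F), g (α' : Ω) = zp p ζ (χ' g) * α')
    (b : F) (h : (α : Ω) ^ p = (α' : Ω) ^ p * algebraMap F Ω b ^ p) :
    ∃ t : ZMod p, ∀ g, χ g = χ' g + (ω g - 1) * t := by
  have hζp : ζ ^ p = 1 := hζ.pow_eq_one
  have hp0 : p ≠ 0 := (Fact.out : p.Prime).ne_zero
  have hb0 : algebraMap F Ω b ≠ 0 := by
    intro h0
    rw [h0, zero_pow hp0, mul_zero] at h
    exact (pow_ne_zero p α.ne_zero) h
  set γ : Ω := α * (α' : Ω)⁻¹ * (algebraMap F Ω b)⁻¹ with hγ
  have hγp : γ ^ p = 1 := by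
    rw [hγ, mul_pow, mul_pow, h, inv_pow, inv_pow]
    field_simp
  obtain ⟨i, -, hi⟩ := hζ.eq_pow_of_pow_eq_one hγp
  refine ⟨(i : ZMod p), fun g => ?_⟩
  have hzi : zp p ζ (i : ZMod p) = γ := by
    unfold zp
    rw [ZMod.val_natCast, ← hi]
    conv_rhs => rw [← Nat.mod_add_div i p]
    rw [pow_add, pow_mul, hζp, one_pow, mul_one]
  -- two computations of `g γ`
  have h1 : g γ = zp p ζ (χ g - χ' g) * γ := by
    rw [hγ, map_mul, map_mul, map_inv₀, map_inv₀, hα, hα', AlgEquiv.commutes]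
    rw [← zp_sub_mul hζp (χ g) (χ' g)]
    have hz : zp p ζ (χ' g) ≠ 0 := by
      intro h0
      have := zp_pow_p hζp (χ' g)
      rw [h0, zero_pow hp0] at this
      exact zero_ne_one this
    field_simp
  have h2 : g γ = zp p ζ (ω g * (i : ZMod p)) := by
    rw [← hzi, zp_mul hζp, ← hω]
    simp [zp]
  have h3 : zp p ζ (ω g * (i : ZMod p)) = zp p ζ (χ g - χ' g + (i : ZMod p)) := by
    rw [← h2, h1, zp_add hζp, hzi]
  have h4 := zp_injective hζ h3
  linear_combination -h4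

end Compare


section Classes

variable {F Ω : Type*} [Field F] [Field Ω] [Algebra F Ω] [IsGalois F Ω]
  {p : ℕ} [Fact p.Prime]
  {N : Type*} [AddCommGroup N] [Module (ZMod p) N] [Module.Finite (ZMod p) N]

/-- Locally constant `ω`-twisted 1-cocycles `Gal(Ω/F) → N`. -/
structure IsTwCocycle (ω : Gal(Ω/F) → ZMod p) (c : Gal(Ω/F) → N) : Prop where
  map_mul : ∀ g h, c (g * h) = c g + ω g • c h
  loc : ∃ E : IntermediateField F Ω, FiniteDimensional F E ∧
    ∀ g, ∀ s ∈ E.fixingSubgroup, c (g * s) = c g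

/-- **Kummer classification, injectivity part.**  The `ω`-twisted locally constant cocycles with
values in an `𝔽_p`-space `N` of dimension `n` (i.e. the continuous cocycles of `N ≅ μ_p^n`) are
classified, modulo coboundaries, by `n`-tuples of elements of `Fˣ / (Fˣ)^p`. -/
theorem exists_classMap {ζ : Ω} (hζ : IsPrimitiveRoot ζ p) (ω : Gal(Ω/F) → ZMod p)
    (hω : ∀ g : Gal(Ω/F), g ζ = zp p ζ (ω g)) :
    ∃ Φ : {c : Gal(Ω/F) → N // IsTwCocycle ω c} →
        (Fin (Module.finrank (ZMod p) N) → Fˣ ⧸ (powMonoidHom p : Fˣ →* Fˣ).range),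
      ∀ c c', Φ c = Φ c' → ∃ m : N, ∀ g, c.1 g = c'.1 g + (ω g • m - m) := by
  classical
  have hζp : ζ ^ p = 1 := hζ.pow_eq_one
  have hp0 : p ≠ 0 := (Fact.out : p.Prime).ne_zero
  let b := Module.finBasis (ZMod p) N
  have hζint : IsIntegral F ζ := by
    refine ⟨Polynomial.X ^ p - 1, Polynomial.monic_X_pow_sub_C 1 hp0, ?_⟩
    simp [hζp]
  have hFζ : FiniteDimensional F F⟮ζ⟯ := IntermediateField.adjoin.finiteDimensional hζint
  -- `ω` is constant modulo the fixing subgroup of `F(ζ)`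
  have hωloc : ∀ g : Gal(Ω/F), ∀ s ∈ (F⟮ζ⟯).fixingSubgroup, ω (g * s) = ω g := by
    intro g s hs
    apply zp_injective hζ
    rw [← hω, ← hω, AlgEquiv.mul_apply]
    congr 1
    exact (IntermediateField.mem_fixingSubgroup_iff _ _).mp hs ζ
      (IntermediateField.mem_adjoin_simple_self F ζ)
  have h1 : ∀ (c : {c : Gal(Ω/F) → N // IsTwCocycle ω c}) (i : Fin (Module.finrank (ZMod p) N)),
      ∃ α : Ωˣ, ∀ g : Gal(Ω/F), g (α : Ω) = zp p ζ (b.repr (c.1 g) i) * α := by
    intro c i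
    obtain ⟨E, hEfin, hE⟩ := c.2.loc
    refine exists_twisted_kummerGen hζp ω (fun g => b.repr (c.1 g) i) hω ?_ ?_
    · intro g h
      rw [c.2.map_mul, map_add, map_smul]
      simp
    · have : FiniteDimensional F ↥(E ⊔ F⟮ζ⟯) := IntermediateField.finiteDimensional_sup E F⟮ζ⟯
      refine ⟨E ⊔ F⟮ζ⟯, inferInstance, fun g s hs => ⟨?_, ?_⟩⟩
      · show b.repr (c.1 (g * s)) i = b.repr (c.1 g) i
        rw [hE g s (IntermediateField.fixingSubgroup_le le_sup_left hs)]
      · exact hωloc g s (IntermediateField.fixingSubgroup_le le_sup_right hs)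
  choose α hα using h1
  have h2 : ∀ c i, ∃ a : Fˣ, algebraMap F Ω (a : F) = (α c i : Ω) ^ p := by
    intro c i
    obtain ⟨y, hy⟩ := pow_mem_range_of_twisted hζp (hα c i)
    have hy0 : y ≠ 0 := by
      rintro rfl
      rw [map_zero] at hy
      exact pow_ne_zero p (α c i).ne_zero hy.symm
    exact ⟨Units.mk0 y hy0, hy⟩
  choose a ha using h2
  refine ⟨fun c i => QuotientGroup.mk (a c i), fun c c' hcc' => ?_⟩
  have h3 : ∀ i, ∃ t : ZMod p, ∀ g, b.repr (c.1 g) i = b.repr (c'.1 g) i + (ω g - 1) * t := by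
    intro i
    have hi := congrFun hcc' i
    rw [QuotientGroup.eq] at hi
    obtain ⟨u, hu⟩ := hi
    rw [powMonoidHom_apply] at hu
    have hu' : (a c' i : F) = (a c i : F) * (u : F) ^ p := by
      have := congrArg (fun x : Fˣ => (x : F)) hu
      simp only [Units.val_pow_eq_pow_val, Units.val_mul, Units.val_inv_eq_inv_val] at this
      rw [this]
      field_simp
    have hu'' : (a c i : F) = (a c' i : F) * ((u : F)⁻¹) ^ p := by
      rw [hu', inv_pow]
      field_simp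
    refine exists_eq_add_of_pow_eq hζ ω _ _ hω (hα c i) (hα c' i) ((u : F)⁻¹) ?_
    rw [← ha, ← ha, hu'', map_mul, map_pow]
  choose t ht using h3
  refine ⟨∑ i, t i • b i, fun g => ?_⟩
  apply b.repr.injective
  ext i
  rw [ht i g]
  simp only [map_add, map_sub, map_smul, map_sum, Finsupp.coe_add, Finsupp.coe_sub,
    Finsupp.coe_smul, Pi.add_apply, Pi.sub_apply, Pi.smul_apply, smul_eq_mul,
    Finsupp.coe_finsetSum, Finset.sum_apply, Module.Basis.repr_self]
  simp only [Finsupp.single_apply, mul_ite, mul_one, mul_zero, Finset.sum_ite_eq',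
    Finset.mem_univ, if_true]
  ring

end Classes


section Padic

variable (p : ℕ) [Fact p.Prime]

/-- `ℤ_p` is `p`-adically separated. -/
lemma padicInt_eq_zero_of_forall_dvd (x : ℤ_[p]) (hx : ∀ n : ℕ, (p : ℤ_[p]) ^ n ∣ x) : x = 0 := by
  have h : x ∈ (⨅ n : ℕ, IsLocalRing.maximalIdeal ℤ_[p] ^ n) := by
    rw [Ideal.mem_iInf]
    intro n
    rw [PadicInt.maximalIdeal_eq_span_p, Ideal.span_singleton_pow, Ideal.mem_span_singleton]
    exact hx n
  rw [Ideal.iInf_pow_eq_bot_of_isLocalRing _ (IsLocalRing.maximalIdeal.isMaximal _).ne_top] at h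
  exact h

/-- For `p` odd, `ℤ_p` contains no nontrivial `p`-th root of unity. -/
lemma padicInt_eq_one_of_pow_eq_one (hp2 : p ≠ 2) (y : ℤ_[p]) (hy : y ^ p = 1) : y = 1 := by
  have hp : p.Prime := Fact.out
  -- `y ≡ 1 mod p`
  have h1 : PadicInt.toZMod y = 1 := by
    have h2 : (PadicInt.toZMod y) ^ p = 1 := by rw [← map_pow, hy, map_one]
    rwa [ZMod.pow_card] at h2
  have h3 : y - 1 ∈ RingHom.ker (PadicInt.toZMod (p := p)) := by
    rw [RingHom.mem_ker, map_sub, h1, map_one, sub_self]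
  rw [PadicInt.ker_toZMod, PadicInt.maximalIdeal_eq_span_p, Ideal.mem_span_singleton] at h3
  have h4 : y - 1 = 0 := by
    refine Fermat.Agent.S56x.Hopf.PthPower.pp1 (R := ℤ_[p]) (ϖ := (p : ℤ_[p])) (p := p) (e := 1)
      (a := 1) (u := 1) hp ?_ ?_ (padicInt_eq_zero_of_forall_dvd p) ?_ ?_ ?_
    · intro x hx
      rcases mul_eq_zero.mp hx with h | h
      · exact absurd h (by exact_mod_cast hp.ne_zero)
      · exact h
    · simp
    · have := hp.two_le
      omega
    · simpa using h3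
    · rw [add_sub_cancel, hy]
  exact sub_eq_zero.mp h4

/-- For `p` odd, `ℚ_p` contains no nontrivial `p`-th root of unity. -/
lemma padic_eq_one_of_pow_eq_one (hp2 : p ≠ 2) (x : ℚ_[p]) (hx : x ^ p = 1) : x = 1 := by
  have hp : p.Prime := Fact.out
  have hnorm : ‖x‖ = 1 := by
    have h1 : ‖x‖ ^ p = 1 := by rw [← norm_pow, hx, norm_one]
    exact (pow_eq_one_iff_of_nonneg (norm_nonneg x) hp.ne_zero).mp h1
  let y : ℤ_[p] := ⟨x, hnorm.le⟩
  have hy : y ^ p = 1 := by
    apply Subtype.ext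
    rw [PadicInt.coe_pow, PadicInt.coe_one]
    exact hx
  have := padicInt_eq_one_of_pow_eq_one p hp2 y hy
  have h2 := congrArg (fun z : ℤ_[p] => (z : ℚ_[p])) this
  simpa [y] using h2

instance finite_residueField_padicInt : Finite (IsLocalRing.ResidueField ℤ_[p]) :=
  Finite.of_equiv _ (PadicInt.residueField (p := p)).symm.toEquiv

/-- `[ℚ_pˣ : (ℚ_pˣ)^p] = p²` for `p` odd. -/
theorem index_range_pow_padic (hp2 : p ≠ 2) :
    (powMonoidHom p : ℚ_[p]ˣ →* ℚ_[p]ˣ).range.index = p ^ 2 := by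
  have hp : p.Prime := Fact.out
  have hn : ((p : ℕ) : ℤ_[p]) ≠ 0 := by exact_mod_cast hp.ne_zero
  rw [Fermat.Agent.Lib.CFT.Local.PowerIndex.index_range_pow_units ℤ_[p] ℚ_[p] p hn]
  have h1 : Nat.card (rootsOfUnity p ℚ_[p]) = 1 := by
    have : rootsOfUnity p ℚ_[p] = ⊥ := by
      rw [Subgroup.eq_bot_iff_forall]
      intro u hu
      rw [mem_rootsOfUnity] at hu
      apply Units.ext
      apply padic_eq_one_of_pow_eq_one p hp2
      have := congrArg (fun z : ℚ_[p]ˣ => (z : ℚ_[p])) hu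
      simpa using this
    rw [this, Subgroup.card_bot]
  have h2 : Nat.card (ℤ_[p] ⧸ Ideal.span {((p : ℕ) : ℤ_[p])}) = p := by
    rw [← PadicInt.maximalIdeal_eq_span_p]
    have e : (ℤ_[p] ⧸ IsLocalRing.maximalIdeal ℤ_[p]) ≃ ZMod p :=
      (PadicInt.residueField (p := p)).toEquiv
    rw [Nat.card_congr e, Nat.card_zmod]
  rw [h1, h2]
  ring

end Padic


section Main

open groupCohomology ExtCitation

variable {p : ℕ} [Fact p.Prime]

local notation "Qbar" => AlgebraicClosure ℚ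
local notation "Ωp" => PadicAlgCl p
local notation "Gp" => (PadicAlgCl p ≃ₐ[ℚ_[p]] PadicAlgCl p)

/-- the defining property of the mod `p` cyclotomic character. -/
theorem cycloChar_spec (σ : Qbar ≃ₐ[ℚ] Qbar) (ζ : Qbar) (hζ : ζ ^ p = 1) :
    σ ζ = ζ ^ ((cycloChar p σ : (ZMod p)ˣ) : ZMod p).val := by
  have : NeZero p := ⟨(Fact.out : p.Prime).ne_zero⟩
  have h := modularCyclotomicCharacter.spec Qbar (card_rootsOfUnity_eq_self p)
    (σ : Qbar ≃+* Qbar)
    (t := ((rootsOfUnity.mkOfPowEq ζ hζ : rootsOfUnity p Qbar) : Qbarˣ))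
    (rootsOfUnity.mkOfPowEq ζ hζ).2
  simpa [cycloChar] using h

theorem exists_primitiveRoot_Qbar : ∃ ζ : Qbar, IsPrimitiveRoot ζ p := by
  have : NeZero p := ⟨(Fact.out : p.Prime).ne_zero⟩
  have : NeZero (p : Qbar) := ⟨Nat.cast_ne_zero.mpr (NeZero.ne p)⟩
  exact HasEnoughRootsOfUnity.exists_primitiveRoot Qbar p

/-- the local mod `p` cyclotomic character (as a function to `ZMod p`). -/
noncomputable def omegaLoc (p : ℕ) [Fact p.Prime] (g : PadicAlgCl p ≃ₐ[ℚ_[p]] PadicAlgCl p) :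
    ZMod p :=
  ((cycloChar p (localGaloisToGlobal p g) : (ZMod p)ˣ) : ZMod p)

/-- level-constant functions on the local Galois group are locally constant. -/
theorem exists_finite_of_isLevelConstant {X : Type*} (c : Gp → X)
    (hc : IsLevelConstant₁ (localGaloisToGlobal p) c) :
    ∃ E : IntermediateField ℚ_[p] Ωp, FiniteDimensional ℚ_[p] E ∧
      ∀ g, ∀ s ∈ E.fixingSubgroup, c (g * s) = c g := by
  classical
  obtain ⟨F', hF'fin, hF'⟩ := hc
  let b := Module.finBasis ℚ F'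
  let S : Set Ωp := Set.range fun i => padicEmbedding p ((b i : F') : Qbar)
  have hSfin : S.Finite := Set.finite_range _
  have hfd : FiniteDimensional ℚ_[p] (IntermediateField.adjoin ℚ_[p] S) := by
    have : Finite S := hSfin
    exact IntermediateField.finiteDimensional_adjoin
      (fun x _ => (Algebra.IsAlgebraic.isAlgebraic x).isIntegral)
  refine ⟨IntermediateField.adjoin ℚ_[p] S, hfd, fun g s hs => hF' g s ?_⟩
  rw [IntermediateField.mem_fixingSubgroup_iff]
  intro x hx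
  -- `x` is a `ℚ`-combination of the basis
  have hfix : ∀ i, localGaloisToGlobal p s ((b i : F') : Qbar) = ((b i : F') : Qbar) := by
    intro i
    apply (padicEmbedding p).toRingHom.injective
    show padicEmbedding p _ = padicEmbedding p _
    rw [padicEmbedding_localGaloisToGlobal]
    exact (IntermediateField.mem_fixingSubgroup_iff _ _).mp hs _
      (IntermediateField.subset_adjoin ℚ_[p] S ⟨i, rfl⟩)
  have hx' : (⟨x, hx⟩ : F') = ∑ i, b.repr ⟨x, hx⟩ i • b i := (b.sum_repr ⟨x, hx⟩).symm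
  have hx'' : x = ∑ i, b.repr ⟨x, hx⟩ i • ((b i : F') : Qbar) := by
    have := congrArg (fun y : F' => (y : Qbar)) hx'
    simp only [AddSubmonoidClass.coe_finsetSum, IntermediateField.coe_smul] at this
    exact this
  show localGaloisToGlobal p s x = x
  rw [hx'', map_sum]
  refine Finset.sum_congr rfl fun i _ => ?_
  rw [Algebra.smul_def, map_mul, AlgEquiv.commutes, hfix]

/-- **Main theorem.**  If `Gal(PadicAlgCl p/ℚ_p)` acts on the finite `𝔽_p`-space `N` through the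
mod `p` cyclotomic character, then `dim H¹_cont(G_{ℚ_p}, N) ≤ 2 dim N` (`p` odd). -/
theorem finrank_continuousH1_cyclo_le (hp2 : p ≠ 2) (N : Rep (ZMod p) Gp)
    [Module.Finite (ZMod p) N]
    (hN : ∀ (g : Gp) (n : N),
      N.ρ g n = ((cycloChar p (localGaloisToGlobal p g) : (ZMod p)ˣ) : ZMod p) • n) :
    Module.finrank (ZMod p) (continuousH1 (localGaloisToGlobal p) N) ≤
      2 * Module.finrank (ZMod p) N := by
  classical
  have hp : p.Prime := Fact.out
  replace hN : ∀ (g : Gp) (n : N), N.ρ g n = omegaLoc p g • n := hN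
  obtain ⟨ζ0, hζ0⟩ := exists_primitiveRoot_Qbar (p := p)
  set ζ : Ωp := padicEmbedding p ζ0 with hζdef
  have hζ : IsPrimitiveRoot ζ p := hζ0.map_of_injective (padicEmbedding p).toRingHom.injective
  have hω : ∀ g : Gp, g ζ = zp p ζ (omegaLoc p g) := by
    intro g
    rw [hζdef, ← padicEmbedding_localGaloisToGlobal, cycloChar_spec _ ζ0 hζ0.pow_eq_one, map_pow]
    rfl
  obtain ⟨Φ, hΦ⟩ := exists_classMap (F := ℚ_[p]) (Ω := Ωp) (N := N) hζ (omegaLoc p) hω
  -- representatives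
  have hrep : ∀ x : continuousH1 (localGaloisToGlobal p) N,
      ∃ c : cocycles₁ N, IsLevelConstant₁ (localGaloisToGlobal p) c ∧ (H1π N).hom c = x.1 :=
    fun x => (mem_continuousH1_iff _ N x.1).mp x.2
  choose c hc1 hc2 using hrep
  have htw : ∀ x, IsTwCocycle (omegaLoc p) (c x : Gp → N) := by
    intro x
    refine ⟨fun g h => ?_, exists_finite_of_isLevelConstant _ (hc1 x)⟩
    rw [(mem_cocycles₁_iff (c x : Gp → N)).mp (c x).2 g h, hN, add_comm]
  let Ψ : continuousH1 (localGaloisToGlobal p) N →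
      (Fin (Module.finrank (ZMod p) N) → ℚ_[p]ˣ ⧸ (powMonoidHom p : ℚ_[p]ˣ →* ℚ_[p]ˣ).range) :=
    fun x => Φ ⟨c x, htw x⟩
  have hΨ : Function.Injective Ψ := by
    intro x x' hxx'
    obtain ⟨m, hm⟩ := hΦ _ _ hxx'
    apply Subtype.ext
    rw [← hc2 x, ← hc2 x', H1π_eq_iff]
    refine ⟨m, ?_⟩
    funext g
    have := hm g
    simp only at this
    simp [this, hN]
  -- counting
  have hidx := index_range_pow_padic p hp2
  have hfi : (powMonoidHom p : ℚ_[p]ˣ →* ℚ_[p]ˣ).range.FiniteIndex :=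
    ⟨by rw [hidx]; exact pow_ne_zero 2 hp.ne_zero⟩
  have hQfin : Finite (ℚ_[p]ˣ ⧸ (powMonoidHom p : ℚ_[p]ˣ →* ℚ_[p]ˣ).range) :=
    Subgroup.finite_quotient_of_finiteIndex
  have hXfin : Finite (continuousH1 (localGaloisToGlobal p) N) := Finite.of_injective Ψ hΨ
  have hcard := Nat.card_le_card_of_injective Ψ hΨ
  rw [Nat.card_fun, Nat.card_fin] at hcard
  have hQ : Nat.card (ℚ_[p]ˣ ⧸ (powMonoidHom p : ℚ_[p]ˣ →* ℚ_[p]ˣ).range) = p ^ 2 := by
    rw [← Subgroup.index_eq_card, hidx]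
  rw [hQ, Module.natCard_eq_pow_finrank (K := ZMod p), Nat.card_zmod, ← pow_mul] at hcard
  exact (Nat.pow_le_pow_iff_right hp.one_lt).mp hcard

/-- The same statement with the Prelude names: `hK` of `S56x/Local/StrictOrdCount`. -/
theorem finrank_continuousH1_omega_le (hp2 : p ≠ 2)
    (N : Rep (ZMod p) (primeLocalGaloisGroup (pPrime p))) [Module.Finite (ZMod p) N]
    (hN : ∀ (g : primeLocalGaloisGroup (pPrime p)) (n : N),
      N.ρ g n = ((cycloChar p (primeLocalToGlobal (pPrime p) g) : (ZMod p)ˣ) : ZMod p) • n) :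
    Module.finrank (ZMod p) (continuousH1 (primeLocalToGlobal (pPrime p)) N) ≤
      2 * Module.finrank (ZMod p) N :=
  finrank_continuousH1_cyclo_le hp2 N hN

end Main

end Fermat.Agent.S56x.Local.KummerOmega
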