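/-
helper13 (P-S56, block (C) C4): the Kummer input of the strict-ordinary local count, discharged.

* `finite_continuousH1_cyclo` : the continuous `H¹` of a finite `𝔽_p[G_{ℚ_p}]`-module on which the
  local Galois group acts through the mod `p` cyclotomic character is FINITE (`p` odd); this is the
  finiteness half of helper32's `KummerOmega.finrank_continuousH1_cyclo_le` (same injection
  `KummerOmega.exists_classMap` into tuples of elements of `ℚ_pˣ/(ℚ_pˣ)^p`).
* `kummerBound` : the Prop `StrictOrdCount.KummerBound p (primeLocalToGlobal (pPrime p))`.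
* `finrank_LpSOAt_le` : (SO-2) without the hypothesis `hK`.
-/
import Fermat.Agent.S56x.Local.StrictOrdCount
import Fermat.Agent.S56x.Local.KummerOmega

set_option autoImplicit false
set_option linter.unusedSectionVars false

noncomputable section

namespace Fermat.Agent.S56x.Local.StrictOrdKummer

open CategoryTheory groupCohomology ExtCitation Module Fermat.Agent.S56x.Local.KummerOmega
  Fermat.Agent.S56x.Local.StrictOrdCount Fermat.Agent.S56x.Dict

local notation "Γℚ" => (AlgebraicClosure ℚ ≃ₐ[ℚ] AlgebraicClosure ℚ)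
local notation "M₂" => Matrix (Fin 2) (Fin 2)

variable {p : ℕ} [Fact p.Prime]

local notation "Ωp" => PadicAlgCl p
local notation "Gp" => (PadicAlgCl p ≃ₐ[ℚ_[p]] PadicAlgCl p)

/-- **Finiteness** of the continuous `H¹` of a cyclotomic module of the local Galois group. -/
theorem finite_continuousH1_cyclo (hp2 : p ≠ 2) (N : Rep (ZMod p) Gp)
    [Module.Finite (ZMod p) N]
    (hN : ∀ (g : Gp) (n : N),
      N.ρ g n = ((cycloChar p (localGaloisToGlobal p g) : (ZMod p)ˣ) : ZMod p) • n) :
    Finite (continuousH1 (localGaloisToGlobal p) N) := by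
  classical
  have hp : p.Prime := Fact.out
  replace hN : ∀ (g : Gp) (n : N), N.ρ g n = omegaLoc p g • n := hN
  obtain ⟨ζ0, hζ0⟩ := exists_primitiveRoot_Qbar (p := p)
  set ζ : Ωp := padicEmbedding p ζ0 with hζdef
  have hζ : IsPrimitiveRoot ζ p := hζ0.map_of_injective (padicEmbedding p).toRingHom.injective
  have hω : ∀ g : Gp, g ζ = zp p ζ (omegaLoc p g) := by
    intro g
    rw [hζdef, ← padicEmbedding_localGaloisToGlobal, cycloChar_spec _ ζ0 hζ0.pow_eq_one, map_pow]
    rfl
  obtain ⟨Φ, hΦ⟩ := exists_classMap (F := ℚ_[p]) (Ω := Ωp) (N := N) hζ (omegaLoc p) hω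
  have hrep : ∀ x : continuousH1 (localGaloisToGlobal p) N,
      ∃ c : cocycles₁ N, IsLevelConstant₁ (localGaloisToGlobal p) c ∧ (H1π N).hom c = x.1 :=
    fun x => (mem_continuousH1_iff _ N x.1).mp x.2
  choose c hc1 hc2 using hrep
  have htw : ∀ x, IsTwCocycle (omegaLoc p) (c x : Gp → N) := by
    intro x
    refine ⟨fun g h => ?_, exists_finite_of_isLevelConstant _ (hc1 x)⟩
    rw [(mem_cocycles₁_iff (c x : Gp → N)).mp (c x).2 g h, hN, add_comm]
  let Ψ : continuousH1 (localGaloisToGlobal p) N →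
      (Fin (Module.finrank (ZMod p) N) → ℚ_[p]ˣ ⧸ (powMonoidHom p : ℚ_[p]ˣ →* ℚ_[p]ˣ).range) :=
    fun x => Φ ⟨c x, htw x⟩
  have hΨ : Function.Injective Ψ := by
    intro x x' hxx'
    obtain ⟨m, hm⟩ := hΦ _ _ hxx'
    apply Subtype.ext
    rw [← hc2 x, ← hc2 x', H1π_eq_iff]
    refine ⟨m, ?_⟩
    funext g
    have := hm g
    simp only at this
    simp [this, hN]
  have hidx := index_range_pow_padic p hp2
  have hfi : (powMonoidHom p : ℚ_[p]ˣ →* ℚ_[p]ˣ).range.FiniteIndex :=
    ⟨by rw [hidx]; exact pow_ne_zero 2 hp.ne_zero⟩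
  have hQfin : Finite (ℚ_[p]ˣ ⧸ (powMonoidHom p : ℚ_[p]ˣ →* ℚ_[p]ˣ).range) :=
    Subgroup.finite_quotient_of_finiteIndex
  exact Finite.of_injective Ψ hΨ

/-- **The Kummer input of `StrictOrdCount`**, for the local Galois group at `p` (`p` odd). -/
theorem kummerBound (hp2 : p ≠ 2) {k : Type} [Field k] [Algebra (ZMod p) k]
    [Module.Finite (ZMod p) k] :
    KummerBound p (k := k) (primeLocalToGlobal (pPrime p)) := by
  intro A j hj hω
  have hfinA : Module.Finite (ZMod p) A := Module.Finite.of_injective j hj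
  have hN : ∀ (g : primeLocalGaloisGroup (pPrime p)) (a : A),
      A.ρ g a = ((cycloChar p (primeLocalToGlobal (pPrime p) g) : (ZMod p)ˣ) : ZMod p) • a := by
    intro g a
    apply hj
    rw [hω, map_smul, Algebra.smul_def]
  refine ⟨?_, ?_⟩
  · have hfin : Finite (continuousH1 (primeLocalToGlobal (pPrime p)) A) :=
      finite_continuousH1_cyclo hp2 A hN
    exact Module.Finite.of_finite
  · calc finrank (ZMod p) (continuousH1 (primeLocalToGlobal (pPrime p)) A)
        ≤ 2 * finrank (ZMod p) A := finrank_continuousH1_omega_le hp2 A hN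
      _ ≤ 2 * finrank (ZMod p) k :=
        Nat.mul_le_mul_left 2 (LinearMap.finrank_le_finrank_of_injective hj)

/-- (SO-2), final form: `dim L_p^{SO} ≤ [k : 𝔽_p] + h⁰(G_p, ad⁰ ρbar)`. -/
theorem finrank_LpSOAt_le (hp2 : p ≠ 2) {k : Type} [Field k] [Algebra (ZMod p) k]
    [Module.Finite (ZMod p) k] (rbar : Γℚ →* M₂ k) (g₀ h₀ : M₂ k) (hgh : g₀ * h₀ = 1)
    (hhg : h₀ * g₀ = 1)
    (hup : ∀ h : primeLocalGaloisGroup (pPrime p),
      (g₀ * rbar (primeLocalToGlobal (pPrime p) h) * h₀) 1 0 = 0)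
    (hω : ∀ h : primeLocalGaloisGroup (pPrime p),
      (g₀ * rbar (primeLocalToGlobal (pPrime p) h) * h₀) 0 0 =
        algebraMap (ZMod p) k
          ((cycloChar p (primeLocalToGlobal (pPrime p) h) : (ZMod p)ˣ) : ZMod p) *
          (g₀ * rbar (primeLocalToGlobal (pPrime p) h) * h₀) 1 1)
    (hrbar : GaloisFactorsThroughFiniteLevel rbar)
    (S : Finset Nat.Primes) (hpS : pPrime p ∈ S) :
    finrank (ZMod p) (LpSOAt p rbar g₀ h₀ hhg hup S hpS) ≤
      finrank (ZMod p) k +
        finrank (ZMod p) (GW.locH0 S (ad0Rep p rbar) (Sum.inr ⟨pPrime p, hpS⟩)) :=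
  StrictOrdCount.finrank_LpSOAt_le p rbar g₀ h₀ hgh hhg hup S hpS hω hrbar (kummerBound hp2)

end Fermat.Agent.S56x.Local.StrictOrdKummer
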