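/-
P-S56, block (C), leaf (SOT-1) (helper54): the strict-ordinary condition on the lift of a tangent
cocycle, in matrix terms.

For `c : TanCocycle rbar` whose lift `(1 + ε c) rbar` over `k[ε]` is strict-ordinary at `p`, and
a place `P` over `p`: there are a basis change `g₁`, `h₁ = g₁⁻¹` of `k²` and `X : M₂(k)` such that
in the new basis `rbar` is upper triangular on the decomposition group, its lower right entry
is `1` on inertia, its diagonal entries have ratio the mod `p` cyclotomic character, and the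
cocycle `c + ∂X` is STRICTLY upper triangular on the decomposition group.
-/
import Mathlib
import Fermat.Prelude.Def_GaloisRep_StrictOrdinary
import Fermat.Agent.S56x.Dict.Conditions

set_option autoImplicit false
set_option linter.unusedSectionVars false
set_option linter.style.haveILetI false

noncomputable section

namespace Fermat.Agent.S56x.Local.StrictOrdTangent

open TrivSqZeroExt Fermat.Agent.S53 Fermat.Agent.S56x.Dict

local notation "Γℚ" => (AlgebraicClosure ℚ ≃ₐ[ℚ] AlgebraicClosure ℚ)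
local notation "M₂" => Matrix (Fin 2) (Fin 2)

variable {k : Type} [Field k]

/-! ### Vectors over the dual numbers -/

/-- the constant vector -/
def cst (w : Fin 2 → k) : Fin 2 → DualNumber k := fun i => inl (w i)

/-- the constant part of a vector -/
def fstV (u : Fin 2 → DualNumber k) : Fin 2 → k := fun i => (u i).fst

/-- the `ε`-part of a vector -/
def sndV (u : Fin 2 → DualNumber k) : Fin 2 → k := fun i => (u i).snd

@[simp] lemma fstV_cst (w : Fin 2 → k) : fstV (cst w) = w := by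
  funext i; simp [fstV, cst]

@[simp] lemma sndV_cst (w : Fin 2 → k) : sndV (cst w) = 0 := by
  funext i; simp [sndV, cst]

lemma fstV_dn_mulVec (R B : M₂ k) (u : Fin 2 → DualNumber k) :
    fstV ((dn R B).mulVec u) = R.mulVec (fstV u) := by
  funext i
  simp [Matrix.mulVec, dotProduct, Fin.sum_univ_two, fstV]

lemma sndV_dn_mulVec (R B : M₂ k) (u : Fin 2 → DualNumber k) :
    sndV ((dn R B).mulVec u) = R.mulVec (sndV u) + B.mulVec (fstV u) := by
  funext i
  fin_cases i <;> simp [Matrix.mulVec, dotProduct, Fin.sum_univ_two, fstV, sndV] <;> ring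

lemma fstV_smul (x : DualNumber k) (u : Fin 2 → DualNumber k) :
    fstV (x • u) = x.fst • fstV u := by
  funext i
  simp [fstV]

lemma sndV_smul (x : DualNumber k) (u : Fin 2 → DualNumber k) :
    sndV (x • u) = x.fst • sndV u + x.snd • fstV u := by
  funext i
  simp [fstV, sndV]

lemma fstV_sub (u u' : Fin 2 → DualNumber k) : fstV (u - u') = fstV u - fstV u' := by
  funext i; simp [fstV]

lemma sndV_sub (u u' : Fin 2 → DualNumber k) : sndV (u - u') = sndV u - sndV u' := by
  funext i; simp [sndV]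

lemma vec_ext {u u' : Fin 2 → DualNumber k} (h1 : fstV u = fstV u') (h2 : sndV u = sndV u') :
    u = u' := by
  funext i
  exact TrivSqZeroExt.ext (congrFun h1 i) (congrFun h2 i)


/-! ### Matrix bookkeeping over `k` -/

/-- a nonzero vector is the first column of an invertible matrix -/
lemma exists_basis_change (v₀ : Fin 2 → k) (hv₀ : v₀ ≠ 0) :
    ∃ g h : M₂ k, g * h = 1 ∧ h * g = 1 ∧ ∀ i, h i 0 = v₀ i := by
  by_cases h0 : v₀ 0 = 0
  · have h1 : v₀ 1 ≠ 0 := by
      intro h1
      apply hv₀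
      funext i
      fin_cases i
      · exact h0
      · exact h1
    refine ⟨!![0, (v₀ 1)⁻¹; 1, 0], !![0, 1; v₀ 1, 0], ?_, ?_, ?_⟩
    · ext i j
      fin_cases i <;> fin_cases j <;> simp [Matrix.mul_apply, Fin.sum_univ_two, h1]
    · ext i j
      fin_cases i <;> fin_cases j <;> simp [Matrix.mul_apply, Fin.sum_univ_two, h1]
    · intro i
      fin_cases i
      · simp [h0]
      · simp
  · refine ⟨!![(v₀ 0)⁻¹, 0; -(v₀ 1 * (v₀ 0)⁻¹), 1], !![v₀ 0, 0; v₀ 1, 1], ?_, ?_, ?_⟩
    · ext i j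
      fin_cases i <;> fin_cases j <;> simp [Matrix.mul_apply, Fin.sum_univ_two, h0]
    · ext i j
      fin_cases i <;> fin_cases j <;> simp [Matrix.mul_apply, Fin.sum_univ_two, h0]
    · intro i
      fin_cases i <;> simp

/-- entries of a conjugate via `mulVec` on the columns -/
lemma conj_apply (g R h : M₂ k) (i j : Fin 2) :
    (g * R * h) i j = g.mulVec (R.mulVec (fun b => h b j)) i := by
  simp only [Matrix.mul_apply, Matrix.mulVec, dotProduct, Fin.sum_univ_two]
  ring

lemma mulVec_col (g h : M₂ k) (hgh : g * h = 1) (j i : Fin 2) :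
    g.mulVec (fun b => h b j) i = (1 : M₂ k) i j := by
  rw [← hgh]
  simp only [Matrix.mul_apply, Matrix.mulVec, dotProduct]

/-- the conjugation identity `(1 + εX) (1 + εC) R = (1 + εC') R (1 + εX)`. -/
lemma conj_identity (R Rinv C X : M₂ k) (hR : Rinv * R = 1) :
    dn 1 X * dn R (C * R) = dn R ((C + (X - R * X * Rinv)) * R) * dn 1 X := by
  rw [dn_mul, dn_mul]
  congr 1
  · simp
  · simp only [Matrix.one_mul, Matrix.mul_one, Matrix.add_mul, Matrix.sub_mul, Matrix.mul_assoc]
    rw [hR, Matrix.mul_one]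
    abel

lemma dn_one_mul_dn_one_neg (X : M₂ k) : dn 1 X * dn 1 (-X) = 1 := by
  rw [dn_mul]; simp [dn_one]


/-! ### The two transport lemmas -/

section Transport

variable (R Rinv C X : M₂ k) (hR : Rinv * R = 1) (vA : Fin 2 → DualNumber k)
  (hX : X.mulVec (fstV vA) = - sndV vA)

include hX in
/-- `(1 + εX)` moves the generator of the line to its constant part. -/
lemma dn_one_mulVec_gen : (dn 1 X).mulVec vA = cst (fstV vA) := by
  apply vec_ext
  · rw [fstV_dn_mulVec, Matrix.one_mulVec, fstV_cst]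
  · rw [sndV_dn_mulVec, Matrix.one_mulVec, hX, sndV_cst]
    abel

include hR hX in
/-- the eigen-relation on the line, transported to the constant line -/
lemma transport_eigen (x : DualNumber k)
    (h : (dn R (C * R)).mulVec vA = x • vA) :
    R.mulVec (fstV vA) = x.fst • fstV vA ∧
      ((C + (X - R * X * Rinv)) * R).mulVec (fstV vA) = x.snd • fstV vA := by
  have h1 : (dn R ((C + (X - R * X * Rinv)) * R)).mulVec (cst (fstV vA)) =
      x • cst (fstV vA) := by
    rw [← dn_one_mulVec_gen X vA hX, Matrix.mulVec_mulVec, ← conj_identity R Rinv C X hR,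
      ← Matrix.mulVec_mulVec, h, Matrix.mulVec_smul]
  refine ⟨?_, ?_⟩
  · have := congrArg fstV h1
    rwa [fstV_dn_mulVec, fstV_smul, fstV_cst] at this
  · have := congrArg sndV h1
    rw [sndV_dn_mulVec, sndV_smul, fstV_cst, sndV_cst, Matrix.mulVec_zero, zero_add, smul_zero,
      zero_add] at this
    exact this

include hR hX in
/-- the quotient relation, transported to the constant line -/
lemma transport_quot (z : DualNumber k) (w : Fin 2 → k)
    (h : ∀ u : Fin 2 → DualNumber k, ∃ s : DualNumber k,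
      s • vA = (dn R (C * R)).mulVec u - z • u) :
    ∃ s : DualNumber k, R.mulVec w - z.fst • w = s.fst • fstV vA ∧
      ((C + (X - R * X * Rinv)) * R).mulVec w - z.snd • w = s.snd • fstV vA := by
  obtain ⟨s, hs⟩ := h ((dn 1 (-X)).mulVec (cst w))
  refine ⟨s, ?_⟩
  have hPQ : (dn 1 X).mulVec ((dn 1 (-X)).mulVec (cst w)) = cst w := by
    rw [Matrix.mulVec_mulVec, dn_one_mul_dn_one_neg, Matrix.one_mulVec]
  have h1 : s • cst (fstV vA) =
      (dn R ((C + (X - R * X * Rinv)) * R)).mulVec (cst w) - z • cst w := by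
    have := congrArg (dn 1 X).mulVec hs
    rw [Matrix.mulVec_smul, dn_one_mulVec_gen X vA hX, Matrix.mulVec_sub, Matrix.mulVec_smul,
      Matrix.mulVec_mulVec, conj_identity R Rinv C X hR, ← Matrix.mulVec_mulVec, hPQ] at this
    exact this
  refine ⟨?_, ?_⟩
  · have := congrArg fstV h1
    rw [fstV_smul, fstV_cst, fstV_sub, fstV_dn_mulVec, fstV_smul, fstV_cst] at this
    exact this.symm
  · have := congrArg sndV h1
    rw [sndV_smul, fstV_cst, sndV_cst, smul_zero, zero_add, sndV_sub, sndV_dn_mulVec, sndV_smul,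
      fstV_cst, sndV_cst, Matrix.mulVec_zero, zero_add, smul_zero, zero_add] at this
    exact this.symm

end Transport


/-! ### Entries in the adapted basis -/

section Entries

variable (g h : M₂ k) (hgh : g * h = 1) (v₀ w : Fin 2 → k)
  (hcol0 : (fun b => h b 0) = v₀) (hcol1 : (fun b => h b 1) = w)

include hgh hcol0 in
lemma entries_col0 (M : M₂ k) (α : k) (h0 : M.mulVec v₀ = α • v₀) :
    (g * M * h) 1 0 = 0 ∧ (g * M * h) 0 0 = α := by
  have hg0 : ∀ i, g.mulVec v₀ i = (1 : M₂ k) i 0 := fun i => by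
    rw [← hcol0]; exact mulVec_col g h hgh 0 i
  refine ⟨?_, ?_⟩
  · rw [conj_apply, hcol0, h0, Matrix.mulVec_smul, Pi.smul_apply, hg0]
    simp
  · rw [conj_apply, hcol0, h0, Matrix.mulVec_smul, Pi.smul_apply, hg0]
    simp

include hgh hcol0 hcol1 in
lemma entries_col1 (M : M₂ k) (β γ : k) (h1 : M.mulVec w - β • w = γ • v₀) :
    (g * M * h) 1 1 = β := by
  have hg0 : ∀ i, g.mulVec v₀ i = (1 : M₂ k) i 0 := fun i => by
    rw [← hcol0]; exact mulVec_col g h hgh 0 i
  have hg1 : ∀ i, g.mulVec w i = (1 : M₂ k) i 1 := fun i => by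
    rw [← hcol1]; exact mulVec_col g h hgh 1 i
  have h1' : M.mulVec w = γ • v₀ + β • w := by
    rw [← h1]; abel
  rw [conj_apply, hcol1, h1', Matrix.mulVec_add, Matrix.mulVec_smul, Matrix.mulVec_smul,
    Pi.add_apply, Pi.smul_apply, Pi.smul_apply, hg0, hg1]
  simp

end Entries


/-! ### The main statement -/

section Main

variable {p : ℕ} [Fact p.Prime] {rbar : Γℚ →* M₂ k}

lemma trace_conj_cocycle (R Rinv C X : M₂ k) (hR : Rinv * R = 1) (hC : C.trace = 0) :
    (C + (X - R * X * Rinv)).trace = 0 := by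
  rw [Matrix.trace_add, Matrix.trace_sub, hC, Matrix.trace_mul_comm, ← Matrix.mul_assoc, hR,
    Matrix.one_mul]
  simp

/-- **(SOT-1)** the line data of a strict-ordinary lift of a tangent cocycle. -/
theorem exists_line_data (hp2 : p ≠ 2) [CharP k p]
    (hrbar : GaloisFactorsThroughFiniteLevel rbar)
    (c : TanCocycle rbar) (htr : ∀ σ, (c.c σ).trace = 0)
    (hSO : (c.lift hrbar).IsStrictOrdinaryAt p) (P : ValuationSubring (AlgebraicClosure ℚ))
    (hP : P.LiesOverPrime p) :
    ∃ g₁ h₁ X : M₂ k, g₁ * h₁ = 1 ∧ h₁ * g₁ = 1 ∧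
      (∀ σ ∈ P.decompositionSubgroup ℚ, (g₁ * rbar σ * h₁) 1 0 = 0) ∧
      (∀ σ ∈ P.inertiaSubgroupIn ℚ, (g₁ * rbar σ * h₁) 1 1 = 1) ∧
      (∀ σ ∈ P.decompositionSubgroup ℚ, ∀ a : ℕ,
        (∀ μ : AlgebraicClosure ℚ, μ ^ p = 1 → σ μ = μ ^ a) →
        (g₁ * rbar σ * h₁) 0 0 = (a : k) * (g₁ * rbar σ * h₁) 1 1) ∧
      (∀ σ ∈ P.decompositionSubgroup ℚ,
        (g₁ * (c.c σ + (X - rbar σ * X * rbar σ⁻¹)) * h₁) 1 0 = 0 ∧
        (g₁ * (c.c σ + (X - rbar σ * X * rbar σ⁻¹)) * h₁) 0 0 = 0) := by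
  have hp : p.Prime := Fact.out
  have h2 : (2 : k) ≠ 0 := by
    intro h
    have h' : ((2 : ℕ) : k) = 0 := by exact_mod_cast h
    rw [CharP.cast_eq_zero_iff k p] at h'
    exact hp2 ((Nat.prime_dvd_prime_iff_eq hp Nat.prime_two).mp h')
  obtain ⟨L, ⟨b, hLb⟩, hD, hI, hxz⟩ := hSO.2 P hP
  -- the generator of the line
  have hmem : ∀ u : (c.lift hrbar).V, u ∈ L ↔ ∃ s : DualNumber k, s • b 0 = u := by
    intro u
    rw [hLb]
    exact Submodule.mem_span_singleton
  have hvL : b 0 ∈ L := (hmem (b 0)).mpr ⟨1, one_smul _ _⟩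
  obtain ⟨vA, hvA⟩ : ∃ vA : Fin 2 → DualNumber k, vA = b 0 := ⟨b 0, rfl⟩
  have hmem' : ∀ u : Fin 2 → DualNumber k, (show (c.lift hrbar).V from u) ∈ L →
      ∃ s : DualNumber k, s • vA = u := by
    intro u hu
    obtain ⟨s, hs⟩ := (hmem _).mp hu
    refine ⟨s, ?_⟩
    rw [hvA]
    exact hs
  -- its constant part is nonzero
  have hv₀ : fstV vA ≠ 0 := by
    intro h0
    have heps : (DualNumber.eps : DualNumber k) • vA = 0 := by
      apply vec_ext
      · rw [fstV_smul, DualNumber.fst_eps, zero_smul]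
        funext i; simp [fstV]
      · rw [sndV_smul, DualNumber.fst_eps, zero_smul, h0, smul_zero, zero_add]
        funext i; simp [sndV]
    have heps' : (DualNumber.eps : DualNumber k) • b 0 = 0 := by
      rw [hvA] at heps
      exact heps
    have h1 : b.repr ((DualNumber.eps : DualNumber k) • b 0) = 0 := by
      rw [heps', map_zero]
    rw [map_smul, b.repr_self] at h1
    have h3 := DFunLike.congr_fun h1 0
    simp only [Finsupp.smul_single, smul_eq_mul, mul_one, Finsupp.single_eq_same,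
      Finsupp.coe_zero, Pi.zero_apply] at h3
    have h4 := congrArg TrivSqZeroExt.snd h3
    rw [DualNumber.snd_eps] at h4
    simp at h4
  obtain ⟨g, h, hgh, hhg, hcol⟩ := exists_basis_change (fstV vA) hv₀
  have hcol0 : (fun b => h b 0) = fstV vA := funext hcol
  set w : Fin 2 → k := fun b => h b 1 with hw
  -- the matrix `X`
  set X : M₂ k := Matrix.of fun i j => - sndV vA i * g 0 j with hXdef
  have hX : X.mulVec (fstV vA) = - sndV vA := by
    have hg0 : g.mulVec (fstV vA) 0 = 1 := by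
      rw [← hcol0, mulVec_col g h hgh 0 0]; simp
    funext i
    have : X.mulVec (fstV vA) i = - sndV vA i * g.mulVec (fstV vA) 0 := by
      simp only [hXdef, Matrix.mulVec, dotProduct, Matrix.of_apply, Fin.sum_univ_two]
      ring
    rw [this, hg0, mul_one, Pi.neg_apply]
  -- facts at an element of the decomposition group
  have key : ∀ σ ∈ P.decompositionSubgroup ℚ, ∃ x z s : DualNumber k,
      (rbar σ).mulVec (fstV vA) = x.fst • fstV vA ∧
      ((c.c σ + (X - rbar σ * X * rbar σ⁻¹)) * rbar σ).mulVec (fstV vA) = x.snd • fstV vA ∧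
      (rbar σ).mulVec w - z.fst • w = s.fst • fstV vA ∧
      ((c.c σ + (X - rbar σ * X * rbar σ⁻¹)) * rbar σ).mulVec w - z.snd • w =
        s.snd • fstV vA ∧
      ∀ a : ℕ, (∀ μ : AlgebraicClosure ℚ, μ ^ p = 1 → σ μ = μ ^ a) →
        x.fst = (a : k) * z.fst ∧ x.snd = (a : k) * z.snd := by
    intro σ hσ
    obtain ⟨x, z, hx, hz, hcyc⟩ := hxz σ hσ
    have hx' : (dn (rbar σ) (c.c σ * rbar σ)).mulVec vA = x • vA := by
      rw [hvA]; exact hx (b 0) hvL
    obtain ⟨e1, e2⟩ := transport_eigen (rbar σ) (rbar σ⁻¹) (c.c σ) X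
      (TanCocycle.rbar_inv_mul σ) vA hX x hx'
    obtain ⟨s, e3, e4⟩ := transport_quot (rbar σ) (rbar σ⁻¹) (c.c σ) X
      (TanCocycle.rbar_inv_mul σ) vA hX z w (fun u => hmem' _ (hz u))
    refine ⟨x, z, s, e1, e2, e3, e4, fun a ha => ?_⟩
    have h1 := hcyc 1 a (fun μ hμ => ha μ (by rwa [pow_one] at hμ))
    have hp0 : ((p ^ 1 : ℕ) : DualNumber k) = 0 := by
      rw [pow_one]
      apply TrivSqZeroExt.ext
      · rw [TrivSqZeroExt.fst_natCast, CharP.cast_eq_zero k p, TrivSqZeroExt.fst_zero]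
      · rw [TrivSqZeroExt.snd_natCast, TrivSqZeroExt.snd_zero]
    rw [hp0, Ideal.span_singleton_eq_bot.mpr rfl, Ideal.mem_bot, sub_eq_zero] at h1
    refine ⟨?_, ?_⟩
    · have := congrArg TrivSqZeroExt.fst h1
      rw [TrivSqZeroExt.fst_mul, TrivSqZeroExt.fst_natCast] at this
      exact this
    · have := congrArg TrivSqZeroExt.snd h1
      rw [TrivSqZeroExt.snd_mul, TrivSqZeroExt.fst_natCast, TrivSqZeroExt.snd_natCast] at this
      simpa using this
  refine ⟨g, h, X, hgh, hhg, ?_, ?_, ?_, ?_⟩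
  · intro σ hσ
    obtain ⟨x, z, s, e1, -, -, -, -⟩ := key σ hσ
    exact (entries_col0 g h hgh (fstV vA) hcol0 (rbar σ) x.fst e1).1
  · intro σ hσ
    obtain ⟨s, hs⟩ := hmem' ((dn (rbar σ) (c.c σ * rbar σ)).mulVec (cst w) - cst w)
      (hI σ hσ (cst w))
    have h1 := congrArg fstV hs
    rw [fstV_smul, fstV_sub, fstV_dn_mulVec, fstV_cst] at h1
    have h1' : (rbar σ).mulVec w - (1 : k) • w = s.fst • fstV vA := by
      rw [one_smul]; exact h1.symm
    exact entries_col1 g h hgh (fstV vA) w hcol0 rfl (rbar σ) 1 s.fst h1'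
  · intro σ hσ a ha
    obtain ⟨x, z, s, e1, -, e3, -, hcyc⟩ := key σ hσ
    rw [(entries_col0 g h hgh (fstV vA) hcol0 (rbar σ) x.fst e1).2,
      entries_col1 g h hgh (fstV vA) w hcol0 rfl (rbar σ) z.fst s.fst e3]
    exact (hcyc a ha).1
  · intro σ hσ
    obtain ⟨x, z, s, e1, e2, e3, e4, hcyc⟩ := key σ hσ
    obtain ⟨a, ha⟩ := exists_nat_pow_on_roots p hp.pos σ
    obtain ⟨hx0, hx1⟩ := hcyc a ha
    set C' : M₂ k := c.c σ + (X - rbar σ * X * rbar σ⁻¹) with hC'
    set Cm : M₂ k := g * C' * h with hCm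
    set Rm : M₂ k := g * rbar σ * h with hRm
    have hprod : g * (C' * rbar σ) * h = Cm * Rm := by
      rw [hCm, hRm]
      have : g * C' * h * (g * rbar σ * h) = g * C' * ((h * g) * (rbar σ * h)) := by
        simp only [Matrix.mul_assoc]
      rw [this, hhg, Matrix.one_mul]
      simp only [Matrix.mul_assoc]
    obtain ⟨r10, r00⟩ := entries_col0 g h hgh (fstV vA) hcol0 (rbar σ) x.fst e1
    have r11 := entries_col1 g h hgh (fstV vA) w hcol0 rfl (rbar σ) z.fst s.fst e3
    obtain ⟨m10, m00⟩ := entries_col0 g h hgh (fstV vA) hcol0 (C' * rbar σ) x.snd e2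
    have m11 := entries_col1 g h hgh (fstV vA) w hcol0 rfl (C' * rbar σ) z.snd s.snd e4
    rw [hprod, Matrix.mul_apply, Fin.sum_univ_two] at m10 m00 m11
    -- `x₀ ≠ 0`
    have hx0ne : x.fst ≠ 0 := by
      intro h0
      rw [h0, zero_smul] at e1
      apply hv₀
      have := congrArg (rbar σ⁻¹).mulVec e1
      rwa [Matrix.mulVec_mulVec, TanCocycle.rbar_inv_mul, Matrix.one_mulVec,
        Matrix.mulVec_zero] at this
    have hCm10 : Cm 1 0 = 0 := by
      rw [show Rm 1 0 = 0 from r10, show Rm 0 0 = x.fst from r00, mul_zero, add_zero] at m10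
      exact (mul_eq_zero.mp m10).resolve_right hx0ne
    refine ⟨hCm10, ?_⟩
    have e00 : Cm 0 0 * x.fst = x.snd := by
      rw [show Rm 1 0 = 0 from r10, show Rm 0 0 = x.fst from r00, mul_zero, add_zero] at m00
      exact m00
    have e11 : Cm 1 1 * z.fst = z.snd := by
      rw [hCm10, zero_mul, zero_add, show Rm 1 1 = z.fst from r11] at m11
      exact m11
    have htrC : Cm.trace = 0 := by
      rw [hCm, Matrix.trace_mul_comm, ← Matrix.mul_assoc, hhg, Matrix.one_mul]
      exact trace_conj_cocycle (rbar σ) (rbar σ⁻¹) (c.c σ) X (TanCocycle.rbar_inv_mul σ) (htr σ)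
    rw [Matrix.trace_fin_two] at htrC
    have heq : Cm 0 0 = Cm 1 1 := by
      have h1 : Cm 0 0 * x.fst = Cm 1 1 * x.fst := by
        rw [e00, hx1, ← e11, hx0]; ring
      exact mul_right_cancel₀ hx0ne h1
    have h2' : (2 : k) * Cm 0 0 = 0 := by
      rw [two_mul]; nth_rewrite 2 [heq]; exact htrC
    exact (mul_eq_zero.mp h2').resolve_left h2

end Main

end Fermat.Agent.S56x.Local.StrictOrdTangent

end
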