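import Mathlib
import Fermat.Agent.Lib.Ram.GaloisLower
import Fermat.Agent.Lib.Ram.HerbrandCor
import Fermat.Agent.S56x.Local.PadicFinite

/-!
# P-S56, block (A): the shared definition of BOUNDED ramification (helper35, architect (A))

ONE definition used by the Thm-A side (`Fontaine/ThmA`), by the algebra of bounded functions
(`Local/BddAlg`), by the bridge to tangent cocycles (`Local/FlatBdd`) and by the Kummer side
(`BoundedKummer` instantiated `p`-adically).

* `ramNum p E` : the lower numbering (Serre's `i_G`, helper12's `GaloisLower.lowerNumbering`) of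
  `Gal(E/ℚ_p)` for a finite subextension `E` of `PadicAlgCl p / ℚ_[p]`, computed on the complete
  discrete valuation ring `OE p E` of helper83's `PadicFinite`;
* `IsBddField p E` : `E/ℚ_p` finite Galois with all upper ramification groups (Serre numbering,
  helper74's `LowerNumbering.UpperBounded`) trivial above `1/(p-1)` — Fontaine's bound for finite
  flat group schemes killed by `p` over `ℤ_p`;
* `IsBddFun p f` : a function on `Gal(PadicAlgCl p/ℚ_p)` which is right invariant under the
  fixing subgroup of a bounded field.
-/

set_option autoImplicit false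

noncomputable section

namespace Fermat.Agent.S56x.Local.BddDef

open Fermat.Agent.Lib.Ram Fermat.Agent.S56x.Local.PadicFinite

variable (p : ℕ) [Fact p.Prime]

/-- The local Galois group `Gal(PadicAlgCl p / ℚ_[p])`. -/
abbrev GQp : Type := PadicAlgCl p ≃ₐ[ℚ_[p]] PadicAlgCl p

/-- The lower numbering of `Gal(E/ℚ_p)`, `E` a finite subextension of `PadicAlgCl p`. -/
def ramNum (E : IntermediateField ℚ_[p] (PadicAlgCl p)) [FiniteDimensional ℚ_[p] E] :
    LowerNumbering (E ≃ₐ[ℚ_[p]] E) :=
  GaloisLower.lowerNumbering ℤ_[p] ℚ_[p] E (OE p E)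

/-- `E/ℚ_p` is finite Galois and its upper ramification groups `G^v` (Serre) are trivial for
`v > 1/(p-1)`. -/
def IsBddField (E : IntermediateField ℚ_[p] (PadicAlgCl p)) : Prop :=
  ∃ (_ : FiniteDimensional ℚ_[p] E), IsGalois ℚ_[p] E ∧
    (ramNum p E).UpperBounded (1 / ((p : ℝ) - 1))

/-- A function on the local Galois group which is right invariant under the fixing subgroup of a
bounded finite Galois extension of `ℚ_p`. -/
def IsBddFun {X : Type*} (f : GQp p → X) : Prop :=
  ∃ E : IntermediateField ℚ_[p] (PadicAlgCl p), IsBddField p E ∧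
    ∀ (g s : GQp p), s ∈ E.fixingSubgroup → f (g * s) = f g

end Fermat.Agent.S56x.Local.BddDef

end
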