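/-
P-S56, block (A) LOCAL FLAT, tower companion of `PadicFinite` (helper83): for finite subextensions
`E ≤ E'` of `PadicAlgCl p / ℚ_[p]`: the inclusion `OE p E → OE p E'`, its equivariance, the fixed
points of `Gal(E'/E)` in `OE p E'`, and the relative ramification index.
-/
import Mathlib
import Fermat.Agent.S56x.Local.PadicFinite

set_option autoImplicit false
set_option linter.unusedSectionVars false

open IsLocalRing

namespace Fermat.Agent.S56x.Local.PadicTower

open Fermat.Agent.S56x.Local.PadicFinite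

variable {p : ℕ} [Fact p.Prime] {E E' : IntermediateField ℚ_[p] (PadicAlgCl p)} (h : E ≤ E')

theorem norm_inclusion (x : E) : ‖IntermediateField.inclusion h x‖ = ‖x‖ := rfl

/-- the inclusion of rings of integers in a tower `E ≤ E'`. -/
noncomputable def inclusionOE : OE p E →+* OE p E' :=
  (((IntermediateField.inclusion h : E →ₐ[ℚ_[p]] E') : E →+* E').comp (OE p E).subtype).codRestrict
    (OE p E') (fun x => by
      rw [mem_OE]
      exact norm_le_one x)

@[simp] theorem coe_inclusionOE (x : OE p E) :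
    ((inclusionOE h x : OE p E') : E') = IntermediateField.inclusion h (x : E) := rfl

theorem coe_coe_inclusionOE (x : OE p E) :
    (((inclusionOE h x : OE p E') : E') : PadicAlgCl p) = ((x : E) : PadicAlgCl p) := rfl

theorem inclusionOE_injective : Function.Injective (inclusionOE h) := by
  intro x y hxy
  have h1 := congrArg (fun z : OE p E' => ((z : E') : PadicAlgCl p)) hxy
  exact Subtype.ext (Subtype.ext h1)

theorem norm_inclusionOE (x : OE p E) : ‖((inclusionOE h x : OE p E') : E')‖ = ‖(x : E)‖ := rfl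

/-- an element of `OE p E'` lies in the image of `OE p E` iff it lies in `E`. -/
theorem mem_range_inclusionOE_iff (x : OE p E') :
    x ∈ Set.range (inclusionOE h) ↔ ((x : E') : PadicAlgCl p) ∈ E := by
  constructor
  · rintro ⟨y, rfl⟩
    exact (y : E).2
  · intro hx
    have hy : (⟨((x : E') : PadicAlgCl p), hx⟩ : E) ∈ OE p E := by
      rw [mem_OE]
      exact norm_le_one x
    exact ⟨⟨_, hy⟩, Subtype.ext (Subtype.ext rfl)⟩

theorem isUnit_inclusionOE_iff (x : OE p E) : IsUnit (inclusionOE h x) ↔ IsUnit x := by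
  rw [isUnit_iff_norm_eq_one, isUnit_iff_norm_eq_one, norm_inclusionOE]

instance isLocalHom_inclusionOE [FiniteDimensional ℚ_[p] E] [FiniteDimensional ℚ_[p] E'] :
    IsLocalHom (inclusionOE h) :=
  ⟨fun x hx => (isUnit_inclusionOE_iff h x).mp hx⟩

/-- **equivariance**: if `σ'` on `E'` restricts to `σ` on `E`, the inclusion intertwines them. -/
theorem inclusionOE_smul (σ : E ≃ₐ[ℚ_[p]] E) (σ' : E' ≃ₐ[ℚ_[p]] E')
    (hσ : ∀ y : E, σ' (IntermediateField.inclusion h y) = IntermediateField.inclusion h (σ y))
    (x : OE p E) : inclusionOE h (σ • x) = σ' • inclusionOE h x := by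
  apply Subtype.ext
  rw [coe_inclusionOE, coe_smul_OE, coe_smul_OE, coe_inclusionOE, hσ]

/-- every automorphism of `E'` restricts to `E` when `E / ℚ_[p]` is normal. -/
theorem exists_restrict [Normal ℚ_[p] E] (σ' : E' ≃ₐ[ℚ_[p]] E') :
    ∃ σ : E ≃ₐ[ℚ_[p]] E,
      ∀ y : E, σ' (IntermediateField.inclusion h y) = IntermediateField.inclusion h (σ y) := by
  let _ : Algebra E E' := (IntermediateField.inclusion h).toRingHom.toAlgebra
  have : IsScalarTower ℚ_[p] E E' := IsScalarTower.of_algebraMap_eq (fun x => by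
    change algebraMap ℚ_[p] E' x = IntermediateField.inclusion h (algebraMap ℚ_[p] E x)
    rw [AlgHom.commutes])
  refine ⟨σ'.restrictNormal E, fun y => ?_⟩
  exact (AlgEquiv.restrictNormal_commutes σ' E y).symm

/-- **fixed points**: for `E' / ℚ_[p]` finite Galois, the elements of `OE p E'` fixed by all
automorphisms of `E'` that fix `E` pointwise are exactly the image of `OE p E`. -/
theorem fixed_iff_mem_range_inclusionOE [FiniteDimensional ℚ_[p] E'] [Normal ℚ_[p] E']
    (x : OE p E') :
    (∀ σ' : E' ≃ₐ[ℚ_[p]] E',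
        (∀ y : E, σ' (IntermediateField.inclusion h y) = IntermediateField.inclusion h y) →
          σ' • x = x) ↔ x ∈ Set.range (inclusionOE h) := by
  constructor
  · intro hfix
    have hgal : IsGalois ℚ_[p] E' := ⟨⟩
    set K : IntermediateField ℚ_[p] E' := (IntermediateField.inclusion h).fieldRange with hK
    have hmem : (x : E') ∈ IntermediateField.fixedField K.fixingSubgroup := by
      rw [IntermediateField.mem_fixedField_iff]
      intro σ' hσ'
      have h1 : ∀ y : E, σ' (IntermediateField.inclusion h y) = IntermediateField.inclusion h y := by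
        intro y
        exact (IntermediateField.mem_fixingSubgroup_iff K σ').mp hσ' _ ⟨y, rfl⟩
      have := congrArg (fun z : OE p E' => (z : E')) (hfix σ' h1)
      simpa using this
    rw [IsGalois.fixedField_fixingSubgroup] at hmem
    obtain ⟨y, hy⟩ := hmem
    rw [mem_range_inclusionOE_iff]
    have : ((x : E') : PadicAlgCl p) = (y : PadicAlgCl p) := by
      rw [← hy]; rfl
    rw [this]
    exact y.2
  · rintro ⟨y, rfl⟩ σ' hσ'
    apply Subtype.ext
    rw [coe_smul_OE, coe_inclusionOE, hσ']

section Ramification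

variable [FiniteDimensional ℚ_[p] E] [FiniteDimensional ℚ_[p] E']

theorem inv_p_pow_injective :
    Function.Injective (fun n : ℕ => ((p : ℝ)⁻¹) ^ n) := by
  have hp : (1 : ℝ) < p := by exact_mod_cast (Fact.out : p.Prime).one_lt
  have h0 : (0 : ℝ) < (p : ℝ)⁻¹ := inv_pos.mpr (by linarith)
  have h1 : (p : ℝ)⁻¹ ≠ 1 := (inv_lt_one_of_one_lt₀ hp).ne
  exact pow_right_injective₀ h0 h1

/-- **relative ramification index**: `v_{E'}(x) = r · v_E(x)` for `x ∈ O_E`. -/
theorem exists_relRamificationIndex :
    ∃ r : ℕ, 0 < r ∧ ∀ x : OE p E,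
      IsDiscreteValuationRing.addVal (OE p E') (inclusionOE h x)
        = (r : ℕ∞) * IsDiscreteValuationRing.addVal (OE p E) x := by
  obtain ⟨e, he, -, He⟩ := exists_ramificationIndex (p := p) (E := E)
  obtain ⟨e', he', -, He'⟩ := exists_ramificationIndex (p := p) (E := E')
  -- the basic relation
  have key : ∀ (x : OE p E) (n n' : ℕ), IsDiscreteValuationRing.addVal (OE p E) x = n →
      IsDiscreteValuationRing.addVal (OE p E') (inclusionOE h x) = n' → n * e' = n' * e := by
    intro x n n' hn hn'
    have h1 := He x n hn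
    have h2 := He' (inclusionOE h x) n' hn'
    rw [norm_inclusionOE] at h2
    apply inv_p_pow_injective (p := p)
    change ((p : ℝ)⁻¹) ^ (n * e') = ((p : ℝ)⁻¹) ^ (n' * e)
    rw [pow_mul, ← h1, pow_mul, ← h2, ← pow_mul, ← pow_mul, mul_comm]
  have hfin : ∀ x : OE p E, x ≠ 0 →
      ∃ n' : ℕ, IsDiscreteValuationRing.addVal (OE p E') (inclusionOE h x) = n' := by
    intro x hx
    have hne : inclusionOE h x ≠ 0 := by
      intro h0
      exact hx (inclusionOE_injective h (by rw [h0, map_zero]))
    have : IsDiscreteValuationRing.addVal (OE p E') (inclusionOE h x) ≠ ⊤ := by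
      rw [Ne, IsDiscreteValuationRing.addVal_eq_top_iff]; exact hne
    exact ⟨_, (ENat.natCast_toNat this).symm⟩
  have hfin0 : ∀ x : OE p E, x ≠ 0 →
      ∃ n : ℕ, IsDiscreteValuationRing.addVal (OE p E) x = n := by
    intro x hx
    have : IsDiscreteValuationRing.addVal (OE p E) x ≠ ⊤ := by
      rw [Ne, IsDiscreteValuationRing.addVal_eq_top_iff]; exact hx
    exact ⟨_, (ENat.natCast_toNat this).symm⟩
  obtain ⟨ϖ, hϖ⟩ := IsDiscreteValuationRing.exists_irreducible (OE p E)
  have hϖ1 : IsDiscreteValuationRing.addVal (OE p E) ϖ = (1 : ℕ) := by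
    rw [IsDiscreteValuationRing.addVal_uniformizer hϖ]; rfl
  obtain ⟨r, hr⟩ := hfin ϖ hϖ.ne_zero
  have hre : e' = r * e := by
    have := key ϖ 1 r hϖ1 hr
    omega
  have hr0 : 0 < r := by
    rcases Nat.eq_zero_or_pos r with h0 | h0
    · subst h0; omega
    · exact h0
  refine ⟨r, hr0, fun x => ?_⟩
  by_cases hx : x = 0
  · subst hx
    rw [map_zero, IsDiscreteValuationRing.addVal_zero, IsDiscreteValuationRing.addVal_zero,
      ENat.mul_top]
    exact_mod_cast hr0.ne'
  · obtain ⟨n, hn⟩ := hfin0 x hx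
    obtain ⟨n', hn'⟩ := hfin x hx
    have h1 := key x n n' hn hn'
    rw [hre] at h1
    have h2 : n' = r * n := by
      have : n' * e = (r * n) * e := by rw [← h1]; ring
      exact Nat.eq_of_mul_eq_mul_right he this
    rw [hn, hn', h2]
    push_cast
    rfl

/-- the absolute ramification indices multiply. -/
theorem ramificationIndex_mul :
    ∃ r e e' : ℕ, 0 < r ∧ 0 < e ∧
      IsDiscreteValuationRing.addVal (OE p E) ((p : ℕ) : OE p E) = e ∧
      IsDiscreteValuationRing.addVal (OE p E') ((p : ℕ) : OE p E') = e' ∧ e' = r * e ∧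
      ∀ x : OE p E, IsDiscreteValuationRing.addVal (OE p E') (inclusionOE h x)
        = (r : ℕ∞) * IsDiscreteValuationRing.addVal (OE p E) x := by
  obtain ⟨r, hr, H⟩ := exists_relRamificationIndex (p := p) h
  obtain ⟨e, he, hpe, -⟩ := exists_ramificationIndex (p := p) (E := E)
  obtain ⟨e', -, hpe', -⟩ := exists_ramificationIndex (p := p) (E := E')
  refine ⟨r, e, e', hr, he, hpe, hpe', ?_, H⟩
  have h1 := H ((p : ℕ) : OE p E)
  rw [map_natCast, hpe', hpe] at h1
  exact_mod_cast h1

end Ramification

end Fermat.Agent.S56x.Local.PadicTower
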