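/-
P-S56, block (A) LOCAL FLAT, relative AKLB companion of `PadicFinite` / `PadicTower` (helper83):
for finite subextensions `E ≤ E'` of `PadicAlgCl p / ℚ_[p]`, the full AKLB instance package over the
base `(OE p E, E)`:  `Algebra E E'`, `Algebra (OE p E) (OE p E')`, the scalar towers,
`IsIntegralClosure (OE p E') (OE p E) E'`, `Module.Finite`, `Module.Free`, `Module.IsTorsionFree`,
`IsLocalHom`, separability of the residue extension, `FiniteDimensional E E'`, `IsGalois E E'`.

Everything is provided twice:
* as reducible definitions / theorems taking `h : E ≤ E'` explicitly (use with `letI` / `haveI`);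
* as `scoped instance`s under `[Fact (E ≤ E')]`
  (`open scoped Fermat.Agent.S56x.Local.PadicAKLB`, then `haveI : Fact (E ≤ E') := ⟨h⟩`).
-/
import Mathlib
import Fermat.Agent.Lib.CFT.Local.Basic
import Fermat.Agent.S56x.Local.PadicFinite
import Fermat.Agent.S56x.Local.PadicTower

set_option autoImplicit false
set_option linter.unusedSectionVars false
set_option linter.style.haveILetI false

open IsLocalRing

namespace Fermat.Agent.S56x.Local.PadicAKLB

open Fermat.Agent.S56x.Local.PadicFinite Fermat.Agent.S56x.Local.PadicTower
open Fermat.Agent.Lib.CFT.Local

variable {p : ℕ} [Fact p.Prime] {E E' E'' : IntermediateField ℚ_[p] (PadicAlgCl p)}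

/-! ### The field level -/

section Field

variable (h : E ≤ E')

/-- `E'` as an algebra over the smaller field `E`. -/
@[reducible] noncomputable def algebraField : Algebra E E' :=
  (IntermediateField.inclusion h).toRingHom.toAlgebra

theorem algebraMap_field_apply (x : E) :
    letI := algebraField h
    algebraMap E E' x = IntermediateField.inclusion h x := rfl

theorem coe_algebraMap_field (x : E) :
    letI := algebraField h
    ((algebraMap E E' x : E') : PadicAlgCl p) = (x : PadicAlgCl p) := rfl

theorem towerQpField :
    letI := algebraField h
    IsScalarTower ℚ_[p] E E' :=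
  letI := algebraField h
  IsScalarTower.of_algebraMap_eq (fun x => by
    change algebraMap ℚ_[p] E' x = IntermediateField.inclusion h (algebraMap ℚ_[p] E x)
    rw [AlgHom.commutes])

theorem towerFieldCl :
    letI := algebraField h
    IsScalarTower E E' (PadicAlgCl p) :=
  letI := algebraField h
  IsScalarTower.of_algebraMap_eq (fun _ => rfl)

theorem towerField (h' : E' ≤ E'') :
    letI := algebraField h
    letI := algebraField h'
    letI := algebraField (h.trans h')
    IsScalarTower E E' E'' :=
  letI := algebraField h
  letI := algebraField h'
  letI := algebraField (h.trans h')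
  IsScalarTower.of_algebraMap_eq (fun _ => rfl)

theorem finiteDimensionalField [FiniteDimensional ℚ_[p] E'] :
    letI := algebraField h
    FiniteDimensional E E' :=
  letI := algebraField h
  haveI := towerQpField h
  FiniteDimensional.right ℚ_[p] E E'

theorem normalField [Normal ℚ_[p] E'] :
    letI := algebraField h
    Normal E E' :=
  letI := algebraField h
  haveI := towerQpField h
  Normal.tower_top_of_normal ℚ_[p] E E'

theorem isGaloisField [Normal ℚ_[p] E'] :
    letI := algebraField h
    IsGalois E E' :=
  letI := algebraField h
  haveI := towerQpField h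
  haveI : IsGalois ℚ_[p] E' := ⟨⟩
  IsGalois.tower_top_of_isGalois ℚ_[p] E E'

end Field

/-! ### The integer level -/

section Integers

variable (h : E ≤ E')

/-- `OE p E'` as an algebra over `OE p E`. -/
@[reducible] noncomputable def algebraOE : Algebra (OE p E) (OE p E') := (inclusionOE h).toAlgebra

theorem algebraMap_OE_apply (x : OE p E) :
    letI := algebraOE h
    algebraMap (OE p E) (OE p E') x = inclusionOE h x := rfl

theorem coe_algebraMap_OE_OE (x : OE p E) :
    letI := algebraOE h
    (((algebraMap (OE p E) (OE p E') x : OE p E') : E') : PadicAlgCl p) = ((x : E) : PadicAlgCl p) :=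
  rfl

/-- `E'` as an algebra over `OE p E` (through `E`). -/
@[reducible] noncomputable def algebraOEField : Algebra (OE p E) E' :=
  ((IntermediateField.inclusion h).toRingHom.comp (OE p E).subtype).toAlgebra

theorem algebraMap_OE_field_apply (x : OE p E) :
    letI := algebraOEField h
    algebraMap (OE p E) E' x = IntermediateField.inclusion h (x : E) := rfl

theorem towerOEFieldField :
    letI := algebraField h
    letI := algebraOEField h
    IsScalarTower (OE p E) E E' :=
  letI := algebraField h
  letI := algebraOEField h
  IsScalarTower.of_algebraMap_eq (fun _ => rfl)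

theorem towerOEOEField :
    letI := algebraOE h
    letI := algebraOEField h
    IsScalarTower (OE p E) (OE p E') E' :=
  letI := algebraOE h
  letI := algebraOEField h
  IsScalarTower.of_algebraMap_eq (fun _ => rfl)

theorem towerZpOEOE :
    letI := algebraOE h
    IsScalarTower ℤ_[p] (OE p E) (OE p E') :=
  letI := algebraOE h
  IsScalarTower.of_algebraMap_eq (fun a => by
    apply Subtype.ext
    apply Subtype.ext
    rfl)

theorem towerZpOEField :
    letI := algebraOEField h
    IsScalarTower ℤ_[p] (OE p E) E' :=
  letI := algebraOEField h
  IsScalarTower.of_algebraMap_eq (fun a => by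
    apply Subtype.ext
    rfl)

theorem towerOE (h' : E' ≤ E'') :
    letI := algebraOE h
    letI := algebraOE h'
    letI := algebraOE (h.trans h')
    IsScalarTower (OE p E) (OE p E') (OE p E'') :=
  letI := algebraOE h
  letI := algebraOE h'
  letI := algebraOE (h.trans h')
  IsScalarTower.of_algebraMap_eq (fun _ => rfl)

theorem towerOEOEField' (h' : E' ≤ E'') :
    letI := algebraOE h
    letI := algebraOEField h'
    letI := algebraOEField (h.trans h')
    IsScalarTower (OE p E) (OE p E') E'' :=
  letI := algebraOE h
  letI := algebraOEField h'
  letI := algebraOEField (h.trans h')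
  IsScalarTower.of_algebraMap_eq (fun _ => rfl)

theorem towerOEFieldField' (h' : E' ≤ E'') :
    letI := algebraOEField h
    letI := algebraField h'
    letI := algebraOEField (h.trans h')
    IsScalarTower (OE p E) E' E'' :=
  letI := algebraOEField h
  letI := algebraField h'
  letI := algebraOEField (h.trans h')
  IsScalarTower.of_algebraMap_eq (fun _ => rfl)

theorem algebraMap_OE_OE_injective :
    letI := algebraOE h
    Function.Injective (algebraMap (OE p E) (OE p E')) :=
  inclusionOE_injective h

theorem isLocalHom_algebraMap_OE [FiniteDimensional ℚ_[p] E] [FiniteDimensional ℚ_[p] E'] :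
    letI := algebraOE h
    IsLocalHom (algebraMap (OE p E) (OE p E')) :=
  isLocalHom_inclusionOE h

/-- **`OE p E'` is the integral closure of `OE p E` in `E'`.** -/
theorem isIntegralClosure_OE_OE :
    letI := algebraOE h
    letI := algebraOEField h
    IsIntegralClosure (OE p E') (OE p E) E' := by
  letI := algebraOE h
  letI := algebraOEField h
  haveI := towerOEOEField h
  haveI := towerZpOEField h
  refine ⟨Subtype.val_injective, fun {x} => ⟨fun hx => ?_, ?_⟩⟩
  · have h1 : Algebra.IsIntegral ℤ_[p] (OE p E) := IsIntegralClosure.isIntegral_algebra ℤ_[p] E
    have h2 : IsIntegral ℤ_[p] x := isIntegral_trans x hx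
    exact (IsIntegralClosure.isIntegral_iff (R := ℤ_[p]) (A := OE p E') (B := E')).mp h2
  · rintro ⟨y, rfl⟩
    have h2 : IsIntegral ℤ_[p] (algebraMap (OE p E') E' y) :=
      (IsIntegralClosure.isIntegral_iff (R := ℤ_[p]) (A := OE p E') (B := E')).mpr ⟨y, rfl⟩
    exact h2.tower_top

end Integers

/-! ### Finiteness, freeness, residue fields -/

section Finite

variable (h : E ≤ E') [FiniteDimensional ℚ_[p] E] [FiniteDimensional ℚ_[p] E']

theorem moduleFinite_OE_OE :
    letI := algebraOE h
    Module.Finite (OE p E) (OE p E') :=
  letI := algebraOE h
  haveI := towerZpOEOE h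
  Module.Finite.of_restrictScalars_finite ℤ_[p] (OE p E) (OE p E')

theorem isTorsionFree_OE_OE :
    letI := algebraOE h
    Module.IsTorsionFree (OE p E) (OE p E') :=
  letI := algebraOE h
  Module.isTorsionFree_iff_algebraMap_injective.mpr (algebraMap_OE_OE_injective h)

theorem isTorsionFree_OE_field :
    letI := algebraOEField h
    Module.IsTorsionFree (OE p E) E' :=
  letI := algebraOEField h
  Module.isTorsionFree_iff_algebraMap_injective.mpr (fun x y hxy => by
    have h1 := congrArg (fun z : E' => (z : PadicAlgCl p)) hxy
    exact Subtype.ext (Subtype.ext h1))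

theorem moduleFree_OE_OE :
    letI := algebraOE h
    Module.Free (OE p E) (OE p E') := by
  letI := algebraField h
  letI := algebraOE h
  letI := algebraOEField h
  haveI := towerOEOEField h
  haveI := towerOEFieldField h
  haveI := isIntegralClosure_OE_OE h
  haveI := finiteDimensionalField h
  exact ext_free (OE p E) E E' (OE p E')

theorem finrank_OE_OE :
    letI := algebraField h
    letI := algebraOE h
    Module.finrank (OE p E) (OE p E') = Module.finrank E E' := by
  letI := algebraField h
  letI := algebraOE h
  letI := algebraOEField h
  haveI := towerOEOEField h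
  haveI := towerOEFieldField h
  haveI := isIntegralClosure_OE_OE h
  haveI := finiteDimensionalField h
  exact ext_finrank (OE p E) E E' (OE p E')

theorem isSeparable_residueField :
    letI := algebraOE h
    haveI := isLocalHom_algebraMap_OE h
    Algebra.IsSeparable (ResidueField (OE p E)) (ResidueField (OE p E')) := by
  letI := algebraOE h
  haveI := isLocalHom_algebraMap_OE h
  haveI : Module.Finite (ResidueField (OE p E)) (ResidueField (OE p E')) :=
    Module.Finite.of_finite
  exact Algebra.IsAlgebraic.isSeparable_of_perfectField

theorem finite_residueField :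
    letI := algebraOE h
    haveI := isLocalHom_algebraMap_OE h
    Module.Finite (ResidueField (OE p E)) (ResidueField (OE p E')) := by
  letI := algebraOE h
  haveI := isLocalHom_algebraMap_OE h
  exact Module.Finite.of_finite

end Finite

/-! ### The same package as scoped instances under `[Fact (E ≤ E')]` -/

section Scoped

variable [hE : Fact (E ≤ E')]

noncomputable scoped instance instAlgebraField : Algebra E E' := algebraField hE.out

scoped instance instTowerQpField : IsScalarTower ℚ_[p] E E' := towerQpField hE.out

scoped instance instTowerFieldCl : IsScalarTower E E' (PadicAlgCl p) := towerFieldCl hE.out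

noncomputable scoped instance instAlgebraOE : Algebra (OE p E) (OE p E') := algebraOE hE.out

noncomputable scoped instance instAlgebraOEField : Algebra (OE p E) E' := algebraOEField hE.out

scoped instance instTowerOEFieldField : IsScalarTower (OE p E) E E' := towerOEFieldField hE.out

scoped instance instTowerOEOEField : IsScalarTower (OE p E) (OE p E') E' := towerOEOEField hE.out

scoped instance instTowerZpOEOE : IsScalarTower ℤ_[p] (OE p E) (OE p E') := towerZpOEOE hE.out

scoped instance instTowerZpOEField : IsScalarTower ℤ_[p] (OE p E) E' := towerZpOEField hE.out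

scoped instance instIsIntegralClosure : IsIntegralClosure (OE p E') (OE p E) E' :=
  isIntegralClosure_OE_OE hE.out

scoped instance instFiniteDimensionalField [FiniteDimensional ℚ_[p] E'] : FiniteDimensional E E' :=
  finiteDimensionalField hE.out

scoped instance instNormalField [Normal ℚ_[p] E'] : Normal E E' := normalField hE.out

scoped instance instIsGaloisField [Normal ℚ_[p] E'] : IsGalois E E' := isGaloisField hE.out

section

variable [FiniteDimensional ℚ_[p] E] [FiniteDimensional ℚ_[p] E']

scoped instance instIsLocalHom : IsLocalHom (algebraMap (OE p E) (OE p E')) :=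
  isLocalHom_algebraMap_OE hE.out

scoped instance instModuleFinite : Module.Finite (OE p E) (OE p E') := moduleFinite_OE_OE hE.out

scoped instance instIsTorsionFree : Module.IsTorsionFree (OE p E) (OE p E') :=
  isTorsionFree_OE_OE hE.out

scoped instance instIsTorsionFreeField : Module.IsTorsionFree (OE p E) E' :=
  isTorsionFree_OE_field hE.out

scoped instance instModuleFree : Module.Free (OE p E) (OE p E') := moduleFree_OE_OE hE.out

scoped instance instIsSeparableResidue :
    Algebra.IsSeparable (ResidueField (OE p E)) (ResidueField (OE p E')) :=
  isSeparable_residueField hE.out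

scoped instance instFiniteResidue :
    Module.Finite (ResidueField (OE p E)) (ResidueField (OE p E')) :=
  finite_residueField hE.out

theorem finrank_OE_OE' : Module.finrank (OE p E) (OE p E') = Module.finrank E E' :=
  finrank_OE_OE hE.out

end

/-- three-step towers. -/
scoped instance instTowerField [hE' : Fact (E' ≤ E'')] [Fact (E ≤ E'')] :
    IsScalarTower E E' E'' := towerField hE.out hE'.out

scoped instance instTowerOE [hE' : Fact (E' ≤ E'')] [Fact (E ≤ E'')] :
    IsScalarTower (OE p E) (OE p E') (OE p E'') := towerOE hE.out hE'.out

scoped instance instTowerOEOEField' [hE' : Fact (E' ≤ E'')] [Fact (E ≤ E'')] :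
    IsScalarTower (OE p E) (OE p E') E'' := towerOEOEField' hE.out hE'.out

scoped instance instTowerOEFieldField' [hE' : Fact (E' ≤ E'')] [Fact (E ≤ E'')] :
    IsScalarTower (OE p E) E' E'' := towerOEFieldField' hE.out hE'.out

end Scoped

end Fermat.Agent.S56x.Local.PadicAKLB
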