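/-
P-S56, block (A): the ramification index of a finite Galois `E / ℚ_p` inside `PadicAlgCl p` in the
three forms used downstream (helper83, requested by helper47):
`v_E(p) = e(E/ℚ_p) = #(inertia group) = (ramNum p E).e0`, and the tameness criterion.
-/
import Mathlib
import Fermat.Agent.Lib.CFT.Local.DVRVal
import Fermat.Agent.Lib.CFT.Local.Unramified
import Fermat.Agent.Lib.Ram.TameCriterion
import Fermat.Agent.Lib.Ram.Prop3Hom
import Fermat.Agent.S56x.Local.PadicFinite
import Fermat.Agent.S56x.Local.BddDef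

set_option autoImplicit false
set_option linter.unusedSectionVars false
set_option linter.style.haveILetI false

open IsLocalRing

namespace Fermat.Agent.S56x.Local.PadicE0

open Fermat.Agent.S56x.Local.PadicFinite Fermat.Agent.S56x.Local.BddDef
open Fermat.Agent.Lib.Ram Fermat.Agent.Lib.Ram.GaloisLower
open Fermat.Agent.Lib.CFT.Local Fermat.Agent.Lib.CFT.Local.Unramified

variable {p : ℕ} [Fact p.Prime] (E : IntermediateField ℚ_[p] (PadicAlgCl p))
  [FiniteDimensional ℚ_[p] E]

instance isTorsionFree_Zp_OE : Module.IsTorsionFree ℤ_[p] (OE p E) :=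
  ext_isTorsionFree ℤ_[p] ℚ_[p] E (OE p E)

/-- the inertia group of `Lib/CFT/Local/Unramified` is the `0`-th lower ramification group. -/
theorem inertiaGroup_eq_lowerGroup_zero :
    inertiaGroup ℤ_[p] ℚ_[p] E (OE p E) = (ramNum p E).lowerGroup 0 := by
  ext σ
  rw [mem_inertiaGroup_iff]
  exact (mem_lowerGroup_zero_iff (A := ℤ_[p]) (K := ℚ_[p]) (L := E) (B := OE p E) σ).symm

/-- `(ramNum p E).e0` is the order of the inertia group. -/
theorem e0_eq_card_inertiaGroup :
    (ramNum p E).e0 = Nat.card (inertiaGroup ℤ_[p] ℚ_[p] E (OE p E)) := by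
  rw [inertiaGroup_eq_lowerGroup_zero]
  exact TameCriterion.e0_eq_card_lowerGroup_zero (ramNum p E)

/-- the Mathlib inertia degree is the residue degree of `Lib/CFT/Local/UnramifiedCore`. -/
theorem resDeg_eq_resDegree_OE :
    resDeg ℤ_[p] (OE p E) = Unramified.resDegree ℤ_[p] (OE p E) := by
  unfold resDeg Unramified.resDegree
  rw [Ideal.inertiaDeg_eq_of_isMaximal (maximalIdeal ℤ_[p]) (maximalIdeal (OE p E))]
  rfl

/-- **`e(E/ℚ_p) = #I`**: the ramification index is the order of the inertia group. -/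
theorem ramIdx_eq_card_inertiaGroup [IsGalois ℚ_[p] E] :
    ramIdx ℤ_[p] (OE p E) = Nat.card (inertiaGroup ℤ_[p] ℚ_[p] E (OE p E)) := by
  have h1 := card_inertiaGroup_mul_resDegree ℤ_[p] ℚ_[p] E (OE p E)
  have h2 := ramIdx_mul_resDeg ℤ_[p] (OE p E)
  rw [resDeg_eq_resDegree_OE, finrank_OE] at h2
  have hf : 0 < Unramified.resDegree ℤ_[p] (OE p E) := by
    rw [← resDeg_eq_resDegree_OE]
    exact resDeg_pos ℤ_[p] (OE p E)
  exact Nat.eq_of_mul_eq_mul_right hf (h2.trans h1.symm)

/-- **`e(E/ℚ_p) = e0`**. -/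
theorem ramIdx_eq_e0 [IsGalois ℚ_[p] E] : ramIdx ℤ_[p] (OE p E) = (ramNum p E).e0 := by
  rw [ramIdx_eq_card_inertiaGroup, e0_eq_card_inertiaGroup]

/-- **`v_E(p) = e(E/ℚ_p)`** (ramification index form). -/
theorem addVal_p_eq_ramIdx :
    IsDiscreteValuationRing.addVal (OE p E) ((p : ℕ) : OE p E) =
      (ramIdx ℤ_[p] (OE p E) : ℕ∞) := by
  have h := Prop3Hom.addVal_algebraMap ℤ_[p] (OE p E) ((p : ℕ) : ℤ_[p])
  rw [map_natCast] at h
  rw [h, IsDiscreteValuationRing.addVal_uniformizer PadicInt.irreducible_p]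
  simp

/-- **`v_E(p) = e0`**: the valuation of `p` in `OE p E` is the order of the inertia group, in the
form `LowerNumbering.e0` of the arithmetic lower numbering `ramNum p E`. -/
theorem addVal_p_eq_e0 [IsGalois ℚ_[p] E] :
    IsDiscreteValuationRing.addVal (OE p E) ((p : ℕ) : OE p E) = ((ramNum p E).e0 : ℕ∞) := by
  rw [addVal_p_eq_ramIdx, ramIdx_eq_e0]

/-- `e0 · f = [E : ℚ_p]`. -/
theorem e0_mul_resDegree [IsGalois ℚ_[p] E] :
    (ramNum p E).e0 * Unramified.resDegree ℤ_[p] (OE p E) = Module.finrank ℚ_[p] E := by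
  rw [e0_eq_card_inertiaGroup]
  exact card_inertiaGroup_mul_resDegree ℤ_[p] ℚ_[p] E (OE p E)

theorem e0_dvd_finrank [IsGalois ℚ_[p] E] : (ramNum p E).e0 ∣ Module.finrank ℚ_[p] E :=
  Dvd.intro _ (e0_mul_resDegree E)

/-- **tameness criterion**: `p ∤ e0` implies `G_1 = 1`. -/
theorem isTame_of_coprime (hc : Nat.Coprime (ramNum p E).e0 p) : (ramNum p E).IsTame :=
  TameCriterion.isTame_of_coprime (A := ℤ_[p]) (K := ℚ_[p]) (L := E) (B := OE p E)
    natCast_p_mem_maximalIdeal hc

/-- if `p ∤ [E : ℚ_p]` then `E/ℚ_p` is tame. -/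
theorem isTame_of_finrank_coprime [IsGalois ℚ_[p] E]
    (hc : Nat.Coprime (Module.finrank ℚ_[p] E) p) : (ramNum p E).IsTame :=
  isTame_of_coprime E (Nat.Coprime.coprime_dvd_left (e0_dvd_finrank E) hc)

/-- tame Galois extensions are bounded. -/
theorem isBddField_of_tame [IsGalois ℚ_[p] E] (ht : (ramNum p E).IsTame) : IsBddField p E := by
  refine ⟨inferInstance, inferInstance, (ht.upperBounded (ramNum p E)).mono _ ?_⟩
  have hp : (1 : ℝ) < p := by exact_mod_cast (Fact.out : p.Prime).one_lt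
  have : (0 : ℝ) < (p : ℝ) - 1 := by linarith
  positivity

theorem isBddField_of_coprime [IsGalois ℚ_[p] E] (hc : Nat.Coprime (ramNum p E).e0 p) :
    IsBddField p E :=
  isBddField_of_tame E (isTame_of_coprime E hc)

/-- **norm versus additive valuation**, with `e = e0`: `‖x‖ ^ e0 = p ^ (- v_E(x))`. -/
theorem norm_pow_e0 [IsGalois ℚ_[p] E] (x : OE p E) (n : ℕ)
    (hx : IsDiscreteValuationRing.addVal (OE p E) x = n) :
    ‖(x : E)‖ ^ (ramNum p E).e0 = ((p : ℝ)⁻¹) ^ n := by
  obtain ⟨e, -, he, hnorm⟩ := exists_ramificationIndex (p := p) (E := E)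
  have hee : e = (ramNum p E).e0 := by
    have h := addVal_p_eq_e0 E
    rw [he] at h
    exact_mod_cast h
  rw [← hee]
  exact hnorm x n hx

/-- an element of additive valuation `1` is irreducible. -/
theorem irreducible_of_addVal_eq_one {π : OE p E}
    (h : IsDiscreteValuationRing.addVal (OE p E) π = 1) : Irreducible π := by
  obtain ⟨ϖ, hϖ⟩ := IsDiscreteValuationRing.exists_irreducible (OE p E)
  have hπ0 : π ≠ 0 := by
    rintro rfl
    rw [IsDiscreteValuationRing.addVal_zero] at h
    exact ENat.top_ne_one h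
  obtain ⟨m, u, hu⟩ := IsDiscreteValuationRing.eq_unit_mul_pow_irreducible hπ0 hϖ
  have hm : IsDiscreteValuationRing.addVal (OE p E) π = m :=
    IsDiscreteValuationRing.addVal_def π u hϖ m hu
  have hm1 : m = 1 := by
    rw [hm] at h
    exact_mod_cast h
  subst hm1
  rw [pow_one] at hu
  rw [hu]
  exact (irreducible_units_mul u).mpr hϖ

/-- **Eisenstein-type criterion**: if `π ^ e0` is associated to `p` then `π` is a uniformizer of
`OE p E` (e.g. `π ^ (p-1) = -p` in a field with `e0 = p - 1`). -/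
theorem irreducible_of_pow_e0_associated [IsGalois ℚ_[p] E] {π : OE p E}
    (h : Associated (π ^ (ramNum p E).e0) ((p : ℕ) : OE p E)) : Irreducible π := by
  apply irreducible_of_addVal_eq_one
  have h1 : IsDiscreteValuationRing.addVal (OE p E) (π ^ (ramNum p E).e0) =
      ((ramNum p E).e0 : ℕ∞) := by
    rw [Prop3Hom.addVal_eq_of_associated h, addVal_p_eq_e0]
  rw [IsDiscreteValuationRing.addVal_pow] at h1
  have he0 : 0 < (ramNum p E).e0 := (ramNum p E).e0_pos
  generalize IsDiscreteValuationRing.addVal (OE p E) π = a at h1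
  cases a with
  | top =>
    exfalso
    rw [nsmul_eq_mul, ENat.mul_top (by exact_mod_cast he0.ne')] at h1
    exact ENat.top_ne_natCast _ h1
  | coe a =>
    have h2 : (ramNum p E).e0 * a = (ramNum p E).e0 := by
      rw [nsmul_eq_mul] at h1
      exact_mod_cast h1
    have ha : a = 1 := by
      have := Nat.eq_of_mul_eq_mul_left he0 (h2.trans (mul_one _).symm)
      exact this
    rw [ha]
    rfl

end Fermat.Agent.S56x.Local.PadicE0
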