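import Mathlib
import Fermat.Agent.S56x.Local.BoundedKummerB
import Fermat.Agent.S56x.Local.PadicAKLB
import Fermat.Agent.S56x.Local.PadicE0
import Fermat.Agent.S56x.Local.BddDef
import Fermat.Agent.Lib.Ram.Prop3Hom
import Fermat.Agent.Lib.Ram.GaloisTower

/-!
# P-S56, block (A), BACKUP (helper45): `BoundedKummerPadic` by the TOWER route

For finite Galois `K ≤ M` over `ℚ_p` inside `PadicAlgCl p`, `M` bounded (Fontaine's bound
`1/(p-1)`), `K / ℚ_p` tame with `ζ_p ∈ K`, `e(K/ℚ_p) = (p-1) m`: every `u ∈ K^×` which has a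
`p`-th root in `M` lies in `U_K^(e) · K^×p`.

Route: `L := K(α)`; `Prop3Hom.homFormula` for the two towers `ℚ_p ⊆ K ⊆ M` and `K ⊆ L ⊆ M`
(relative base `(OE p K, K)`, instances of `PadicAKLB`), `GaloisTower.upperBounded_sub_of_tame_tower`
and `TransportHom.upperBounded_of_hom` give that `Gal(L/K)` is upper bounded by `e/(p-1) = m`, hence
every single break of `L/K` is `≤ m` (`BoundedKummerB.BreakLe`); conclude by
`BoundedKummerB.exists_mul_pow_mem_of_break_le`.
-/

set_option autoImplicit false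
set_option linter.style.haveILetI false
set_option linter.unusedSectionVars false

open IsLocalRing IntermediateField Polynomial
open Fermat.Agent.S56x.Local.PadicFinite Fermat.Agent.S56x.Local.PadicTower
open Fermat.Agent.Lib.Ram Fermat.Agent.Lib.Ram.GaloisLower
open Fermat.Agent.S56x.Local.BddDef
open scoped Fermat.Agent.S56x.Local.PadicAKLB

namespace Fermat.Agent.S56x.Local.BoundedKummerPadicB

/-! ### Kummer extensions of prime degree (Mathlib only) -/

section Kummer

variable {K Ω : Type*} [Field K] [Field Ω] [Algebra K Ω] {p : ℕ}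

theorem forall_pow_ne_of_not_mem_range (hp : p.Prime) {ζ : K} (hζ : IsPrimitiveRoot ζ p) {u : K}
    {α : Ω} (hα : α ^ p = algebraMap K Ω u) (hαK : α ∉ (algebraMap K Ω).range) :
    ∀ b : K, b ^ p ≠ u := by
  intro b hb
  haveI : NeZero p := ⟨hp.ne_zero⟩
  apply hαK
  by_cases hb0 : b = 0
  · subst hb0
    rw [zero_pow hp.ne_zero] at hb
    rw [← hb, map_zero] at hα
    exact ⟨0, by rw [map_zero, pow_eq_zero_iff hp.ne_zero |>.mp hα]⟩
  · have hb0' : algebraMap K Ω b ≠ 0 := (map_ne_zero_iff _ (algebraMap K Ω).injective).mpr hb0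
    have h1 : (α / algebraMap K Ω b) ^ p = 1 := by
      rw [div_pow, hα, ← hb, map_pow, div_self (pow_ne_zero _ hb0')]
    have hζ' : IsPrimitiveRoot (algebraMap K Ω ζ) p :=
      hζ.map_of_injective (algebraMap K Ω).injective
    obtain ⟨i, -, hi⟩ := hζ'.eq_pow_of_pow_eq_one h1
    refine ⟨ζ ^ i * b, ?_⟩
    rw [map_mul, map_pow, hi, div_mul_cancel₀ _ hb0']

theorem minpoly_eq_X_pow_sub_C (hp : p.Prime) {ζ : K} (hζ : IsPrimitiveRoot ζ p) {u : K}
    {α : Ω} (hα : α ^ p = algebraMap K Ω u) (hαK : α ∉ (algebraMap K Ω).range) :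
    minpoly K α = X ^ p - C u := by
  have hirr := X_pow_sub_C_irreducible_of_prime hp (forall_pow_ne_of_not_mem_range hp hζ hα hαK)
  refine (minpoly.eq_of_irreducible_of_monic hirr ?_ (monic_X_pow_sub_C u hp.ne_zero)).symm
  simp [hα]

theorem isIntegral_of_pow_eq (hp : p.Prime) {u : K} {α : Ω} (hα : α ^ p = algebraMap K Ω u) :
    IsIntegral K α :=
  ⟨X ^ p - C u, monic_X_pow_sub_C u hp.ne_zero, by simp [hα]⟩

/-- `K(α) / K` has degree `p`. -/
theorem finrank_adjoin_simple (hp : p.Prime) {ζ : K} (hζ : IsPrimitiveRoot ζ p) {u : K}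
    {α : Ω} (hα : α ^ p = algebraMap K Ω u) (hαK : α ∉ (algebraMap K Ω).range) :
    Module.finrank K K⟮α⟯ = p := by
  rw [IntermediateField.adjoin.finrank (isIntegral_of_pow_eq hp hα),
    minpoly_eq_X_pow_sub_C hp hζ hα hαK, natDegree_X_pow_sub_C]

/-- `K(α) / K` is Galois. -/
theorem isGalois_adjoin_simple (hp : p.Prime) {ζ : K} (hζ : IsPrimitiveRoot ζ p) {u : K}
    {α : Ω} (hα : α ^ p = algebraMap K Ω u) (hαK : α ∉ (algebraMap K Ω).range) :
    IsGalois K K⟮α⟯ := by
  have hirr := X_pow_sub_C_irreducible_of_prime hp (forall_pow_ne_of_not_mem_range hp hζ hα hαK)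
  have hprim : (primitiveRoots p K).Nonempty := ⟨ζ, (mem_primitiveRoots hp.pos).2 hζ⟩
  haveI := Fact.mk hirr
  haveI := isSplittingField_AdjoinRoot_X_pow_sub_C hprim hirr
  haveI : IsGalois K (AdjoinRoot (X ^ p - C u)) :=
    isGalois_of_isSplittingField_X_pow_sub_C hprim hirr _
  have e := IntermediateField.adjoinRootEquivAdjoin K (isIntegral_of_pow_eq hp hα)
  rw [minpoly_eq_X_pow_sub_C hp hζ hα hαK] at e
  exact IsGalois.of_algEquiv e

end Kummer

/-! ### The field `K(α)` inside `PadicAlgCl p` -/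

variable {p : ℕ} [Fact p.Prime]

section Adj

variable (K : IntermediateField ℚ_[p] (PadicAlgCl p)) (α : PadicAlgCl p)

/-- `K(α)` as an intermediate field of `PadicAlgCl p / ℚ_[p]`. -/
noncomputable def adj : IntermediateField ℚ_[p] (PadicAlgCl p) :=
  (IntermediateField.adjoin K {α}).restrictScalars ℚ_[p]

theorem mem_adj_iff (x : PadicAlgCl p) : x ∈ adj K α ↔ x ∈ IntermediateField.adjoin K {α} :=
  Iff.rfl

theorem le_adj : K ≤ adj K α := fun x hx =>
  (IntermediateField.adjoin K {α}).algebraMap_mem ⟨x, hx⟩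

theorem self_mem_adj : α ∈ adj K α := IntermediateField.mem_adjoin_simple_self K α

variable {K α}

theorem adj_le {M : IntermediateField ℚ_[p] (PadicAlgCl p)} (hKM : K ≤ M) (hα : α ∈ M) :
    adj K α ≤ M := by
  intro x hx
  have h1 : IntermediateField.adjoin K {α} ≤ IntermediateField.extendScalars hKM := by
    rw [IntermediateField.adjoin_le_iff]
    intro y hy
    rw [Set.mem_singleton_iff] at hy
    subst hy
    exact hα
  exact h1 hx

end Adj

section Over

variable (K L : IntermediateField ℚ_[p] (PadicAlgCl p)) [hKL : Fact (K ≤ L)]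
  (L₀ : IntermediateField K (PadicAlgCl p)) (hL : ∀ x, x ∈ L ↔ x ∈ L₀)

/-- identification of `L` (a `K`-algebra through the inclusion) with the intermediate field `L₀`
of `PadicAlgCl p / K` with the same elements. -/
noncomputable def toOver : L ≃ₐ[K] L₀ where
  toFun x := ⟨x.1, (hL _).1 x.2⟩
  invFun y := ⟨y.1, (hL _).2 y.2⟩
  left_inv _ := rfl
  right_inv _ := rfl
  map_mul' _ _ := rfl
  map_add' _ _ := rfl
  commutes' _ := rfl

end Over

/-! ### The main theorem -/

section Main

open Fermat.Agent.S56x.Local.BoundedKummerB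

variable (K M : IntermediateField ℚ_[p] (PadicAlgCl p))

/-- **Bounded Kummer generators, `p`-adic form** (tower route). -/
theorem exists_mul_pow_mem (hKM : K ≤ M) (hM : IsBddField p M)
    [FiniteDimensional ℚ_[p] K] [IsGalois ℚ_[p] K] (ht : (ramNum p K).IsTame)
    (ζ : K) (hζ : IsPrimitiveRoot ζ p) (m : ℕ) (he : (ramNum p K).e0 = (p - 1) * m)
    (hp2 : p ≠ 2) (u : K) (hu : u ≠ 0) (α : PadicAlgCl p) (hαM : α ∈ M)
    (hα : α ^ p = (u : PadicAlgCl p)) :
    ∃ z : K, z ≠ 0 ∧ ∃ a : OE p K, ((a : K)) = u * z ^ p ∧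
      a - 1 ∈ maximalIdeal (OE p K) ^ (ramNum p K).e0 := by
  have hp : p.Prime := Fact.out
  by_cases hαK : α ∈ (algebraMap K (PadicAlgCl p)).range
  · obtain ⟨x, hx⟩ := hαK
    have hxp : x ^ p = u := by
      apply (algebraMap K (PadicAlgCl p)).injective
      rw [map_pow, hx]
      exact hα
    have hx0 : x ≠ 0 := by
      rintro rfl
      rw [zero_pow hp.ne_zero] at hxp
      exact hu hxp.symm
    refine ⟨x⁻¹, inv_ne_zero hx0, 1, ?_, ?_⟩
    · rw [← hxp, inv_pow, mul_inv_cancel₀ (pow_ne_zero _ hx0)]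
      rfl
    · rw [sub_self]
      exact zero_mem _
  · obtain ⟨hfdM, hgalM, hbM⟩ := hM
    have hKL : K ≤ adj K α := le_adj K α
    have hLM : adj K α ≤ M := adj_le hKM hαM
    haveI : Fact (K ≤ adj K α) := ⟨hKL⟩
    haveI : Fact (adj K α ≤ M) := ⟨hLM⟩
    haveI : Fact (K ≤ M) := ⟨hKM⟩
    haveI : FiniteDimensional ℚ_[p] (adj K α) := FiniteDimensional.left ℚ_[p] (adj K α) M
    let φ : (adj K α) ≃ₐ[K] (IntermediateField.adjoin K {α}) :=
      toOver K (adj K α) _ (fun x => Iff.rfl)
    have hdeg : Module.finrank K (adj K α) = p := by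
      rw [φ.toLinearEquiv.finrank_eq]
      exact finrank_adjoin_simple hp hζ hα hαK
    haveI : IsGalois K (adj K α) := by
      haveI := isGalois_adjoin_simple hp hζ hα hαK
      exact IsGalois.of_algEquiv φ.symm
    obtain ⟨s, hs⟩ : ∃ s : (adj K α) ≃ₐ[K] (adj K α), s ≠ 1 := by
      have hcard : Nat.card ((adj K α) ≃ₐ[K] (adj K α)) = p := by
        rw [IsGalois.card_aut_eq_finrank, hdeg]
      haveI : Nontrivial ((adj K α) ≃ₐ[K] (adj K α)) := by
        rw [← Finite.one_lt_card_iff_nontrivial, hcard]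
        exact hp.one_lt
      exact exists_ne 1
    -- every single break of `K(α)/K` is at most `m`
    have hbr : BreakLe (OE p K) K (adj K α) (OE p (adj K α)) m := by
      intro b s' hs' hall hsb
      have hp1 : (0 : ℝ) < (p : ℝ) - 1 := by
        have : (2 : ℝ) ≤ p := by exact_mod_cast hp.two_le
        linarith
      have hv : (0 : ℝ) ≤ 1 / ((p : ℝ) - 1) := by positivity
      letI i1 : Fintype (GaloisTower.resHom ℚ_[p] K M).ker := Fintype.ofFinite _
      letI : Fintype (Prop3Hom.res ℚ_[p] K M).ker := i1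
      have h1 : Transport.HomFormula (lowerNumbering ℤ_[p] ℚ_[p] M (OE p M))
          (GaloisTower.resHom ℚ_[p] K M) (lowerNumbering ℤ_[p] ℚ_[p] K (OE p K)) :=
        Prop3Hom.homFormula (A := ℤ_[p]) (K := ℚ_[p]) (L := K) (M := M) (B := OE p K)
          (C := OE p M)
      have hb1 : (lowerNumbering (OE p K) K M (OE p M)).UpperBounded
          ((lowerNumbering ℤ_[p] ℚ_[p] K (OE p K)).e0 * (1 / ((p : ℝ) - 1))) :=
        GaloisTower.upperBounded_sub_of_tame_tower (A := ℤ_[p]) (K := ℚ_[p]) (L := K) (M := M)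
          (B := OE p K) (C := OE p M) h1 ht hv hbM
      letI i2 : Fintype (GaloisTower.resHom K (adj K α) M).ker := Fintype.ofFinite _
      letI : Fintype (Prop3Hom.res K (adj K α) M).ker := i2
      have h2 : Transport.HomFormula (lowerNumbering (OE p K) K M (OE p M))
          (GaloisTower.resHom K (adj K α) M)
          (lowerNumbering (OE p K) K (adj K α) (OE p (adj K α))) :=
        Prop3Hom.homFormula (A := OE p K) (K := K) (L := adj K α) (M := M)
          (B := OE p (adj K α)) (C := OE p M)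
      have hb2 : (lowerNumbering (OE p K) K (adj K α) (OE p (adj K α))).UpperBounded
          ((lowerNumbering ℤ_[p] ℚ_[p] K (OE p K)).e0 * (1 / ((p : ℝ) - 1))) :=
        TransportHom.upperBounded_of_hom _ (GaloisTower.resHom_surjective K (adj K α) M) h2 hb1
      have h3 := (lowerNumbering (OE p K) K (adj K α) (OE p (adj K α))).break_le_of_upperBounded
        hall hs' hsb hb2
      have he' : (lowerNumbering ℤ_[p] ℚ_[p] K (OE p K)).e0 = (p - 1) * m := he
      rw [he'] at h3
      have h4 : (((p - 1) * m : ℕ) : ℝ) * (1 / ((p : ℝ) - 1)) = m := by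
        rw [Nat.cast_mul, Nat.cast_sub hp.one_lt.le, Nat.cast_one]
        field_simp
      rw [h4] at h3
      exact_mod_cast h3
    -- the remaining inputs of the abstract lemma
    have hperf : ∀ a : ResidueField (OE p K), ∃ b, b ^ p = a := by
      intro a
      obtain ⟨b, hb⟩ := surjective_frobenius (ResidueField (OE p K)) p a
      exact ⟨b, hb⟩
    have hrank : Module.finrank (OE p K) (OE p (adj K α)) = Module.finrank K (adj K α) :=
      PadicAKLB.finrank_OE_OE'
    have he0 : 0 < (ramNum p K).e0 := (ramNum p K).e0_pos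
    have heA := PadicE0.addVal_p_eq_e0 K
    have hαL : (⟨α, self_mem_adj K α⟩ : adj K α) ^ p = algebraMap K (adj K α) u :=
      Subtype.ext hα
    obtain ⟨z, hz, a, ha, ha1⟩ := exists_mul_pow_mem_of_break_le (A := OE p K) (K := K)
      (L := adj K α) (B := OE p (adj K α)) hp hp2 hζ hperf hdeg hrank he0 he heA hu hαL hs hbr
    exact ⟨z, hz, a, ha, ha1⟩

end Main

end Fermat.Agent.S56x.Local.BoundedKummerPadicB
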