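import Fermat.Agent.S56x.Local.CW1Padic
import Fermat.Agent.S56x.Local.BoundedKummerPadicB

/-!
# P-S56, block (A) (helper45): `CW1Padic.BoundedKummerStatement p`, literally

The adapter from `BoundedKummerPadicB.exists_mul_pow_mem` (tower route) to the Prop consumed by
`CW1Padic.rank_H1A_le_one` (helper10).
-/

set_option autoImplicit false
set_option linter.unusedSectionVars false

open IsLocalRing
open Fermat.Agent.S56x.Local.BddDef Fermat.Agent.S56x.Local.PadicFinite

namespace Fermat.Agent.S56x.Local.BoundedKummerStmtB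

variable (p : ℕ) [Fact p.Prime]

/-- **`BoundedKummerStatement`**, unconditional. -/
theorem boundedKummerStatement : CW1Padic.BoundedKummerStatement p := by
  intro K M _ _ hp2 hKM hM ht ζ hζ hζK e m he0 _ he u hu α hαM hα
  subst he0
  have hζ' : IsPrimitiveRoot (⟨ζ, hζK⟩ : K) p :=
    IsPrimitiveRoot.of_map_of_injective (f := algebraMap K (PadicAlgCl p)) hζ
      (algebraMap K (PadicAlgCl p)).injective
  exact BoundedKummerPadicB.exists_mul_pow_mem K M hKM hM ht ⟨ζ, hζK⟩ hζ' m he hp2 u hu α hαM hα

end Fermat.Agent.S56x.Local.BoundedKummerStmtB
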