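/-
P-S56, block (A), count side (helper83): **abelian + tame ⇒ `e ∣ p - 1`** for finite Galois
`L / ℚ_p` inside `PadicAlgCl p`, and the resulting `ℚ_p`-shape data `e_L = p - 1`,
`p = - π^(p-1)`, `π` a uniformizer (hypotheses `hϖ`, `hpe` of `CWAssembly`).

Serre's `θ₀ : I → k_L^×` (`S56x/Ram/TameStructure`) is injective on the inertia group of a tame
extension; conjugating by a Frobenius lift `φ` gives `θ₀(φ σ φ⁻¹) = θ₀(σ)^p`; for abelian `G` this
forces `θ₀(σ) ∈ 𝔽_p^×`.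
-/
import Mathlib
import Fermat.Agent.Lib.CFT.Local.Unramified
import Fermat.Agent.S56x.Ram.TameStructure
import Fermat.Agent.S56x.Local.PadicInertia
import Fermat.Agent.S56x.Local.PadicE0

set_option autoImplicit false
set_option linter.unusedSectionVars false
set_option linter.style.haveILetI false

open IsLocalRing

namespace Fermat.Agent.S56x.Local.AbelianTameE0

open Fermat.Agent.S56x.Local.PadicFinite Fermat.Agent.S56x.Local.PadicInertia
open Fermat.Agent.S56x.Local.BddDef Fermat.Agent.S56x.Local.PadicE0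
open Fermat.Agent.Lib.CFT.Local Fermat.Agent.Lib.CFT.Local.Unramified
open Fermat.Agent.S56x.Ram Fermat.Agent.S56x.Ram.TameStructure

variable {p : ℕ} [Fact p.Prime] (L : IntermediateField ℚ_[p] (PadicAlgCl p))
  [FiniteDimensional ℚ_[p] L]

theorem card_residueField_Zp : Nat.card (ResidueField ℤ_[p]) = p := by
  rw [Nat.card_congr (PadicInt.residueField (p := p)).toEquiv, Nat.card_zmod]

/-- the inertia group of the frozen library is `lowerGroup 1` of `S56x/Ram/Lower`. -/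
theorem inertiaGroup_eq_lowerGroup_one :
    inertiaGroup ℤ_[p] ℚ_[p] L (OE p L) = lowerGroup (L ≃ₐ[ℚ_[p]] L) (OE p L) 1 := by
  ext σ
  rw [mem_inertiaGroup_iff_smul, mem_lowerGroup]
  simp only [pow_one]

/-- **a Frobenius lift**: there is `φ ∈ Gal(L/ℚ_p)` with `φ b ≡ b^p mod 𝔪`. -/
theorem exists_frobenius_lift [IsGalois ℚ_[p] L] :
    ∃ φ : L ≃ₐ[ℚ_[p]] L, ∀ b : OE p L, residue (OE p L) (φ • b) = residue (OE p L) b ^ p := by
  haveI : Finite (ResidueField ℤ_[p]) :=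
    Finite.of_equiv _ (PadicInt.residueField (p := p)).symm.toEquiv
  obtain ⟨φ, hφ⟩ := exists_residueGalHom_eq_frobRes ℤ_[p] ℚ_[p] L (OE p L)
  refine ⟨φ, fun b => ?_⟩
  have h1 := congrArg (fun f => f (residue (OE p L) b)) hφ
  simp only [residueGalHom_residue, frobRes_apply, galRestrict_eq_smul] at h1
  rw [h1, card_residueField_Zp]

section Main

variable [IsGalois ℚ_[p] L]

/-- in a tame extension, Serre's `θ₀` is injective on the inertia group. -/
theorem theta_injective (hc : Nat.Coprime (Nat.card (L ≃ₐ[ℚ_[p]] L)) p) {ϖ : OE p L}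
    (hϖ : Irreducible ϖ) :
    Function.Injective (theta (G := L ≃ₐ[ℚ_[p]] L) hϖ) := by
  rw [injective_iff_map_eq_one]
  intro σ hσ
  have h1 : (σ : L ≃ₐ[ℚ_[p]] L) ∈ tameKer (L ≃ₐ[ℚ_[p]] L) (OE p L) :=
    mem_tameKer_of_theta_eq_one hϖ hσ
  obtain ⟨n, hn⟩ := exists_pow_eq_one (q := p) natCast_p_mem_maximalIdeal h1
  have hord : orderOf (σ : L ≃ₐ[ℚ_[p]] L) ∣ p ^ n := orderOf_dvd_of_pow_eq_one hn
  have hord2 : orderOf (σ : L ≃ₐ[ℚ_[p]] L) ∣ Nat.card (L ≃ₐ[ℚ_[p]] L) := orderOf_dvd_natCard _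
  have h2 : orderOf (σ : L ≃ₐ[ℚ_[p]] L) = 1 :=
    Nat.eq_one_of_dvd_coprimes (Nat.Coprime.pow_right n hc) hord2 hord
  exact Subtype.ext (orderOf_eq_one_iff.mp h2)

/-- for abelian `Gal(L/ℚ_p)`, `θ₀` takes values in the Frobenius-fixed points. -/
theorem theta_pow_eq (hab : ∀ σ τ : L ≃ₐ[ℚ_[p]] L, σ * τ = τ * σ) {ϖ : OE p L}
    (hϖ : Irreducible ϖ) (σ : ↥(lowerGroup (L ≃ₐ[ℚ_[p]] L) (OE p L) 1)) :
    theta hϖ σ ^ p = theta hϖ σ := by
  obtain ⟨φ, hφ⟩ := exists_frobenius_lift L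
  have h1 := residue_unitOf_conj hϖ φ σ.2
  have h2 : φ * (σ : L ≃ₐ[ℚ_[p]] L) * φ⁻¹ = σ := by
    rw [hab φ, mul_inv_cancel_right]
  rw [h2, hφ] at h1
  rw [theta_apply]
  exact h1.symm

theorem theta_pow_pred_eq_one (hab : ∀ σ τ : L ≃ₐ[ℚ_[p]] L, σ * τ = τ * σ) {ϖ : OE p L}
    (hϖ : Irreducible ϖ) (σ : ↥(lowerGroup (L ≃ₐ[ℚ_[p]] L) (OE p L) 1)) :
    theta hϖ σ ^ (p - 1) = 1 := by
  have hp := (Fact.out : p.Prime)
  have h0 : theta hϖ σ ≠ 0 := by
    intro h
    have h1 : theta hϖ σ * theta hϖ σ⁻¹ = 1 := by rw [← map_mul, mul_inv_cancel, map_one]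
    rw [h, zero_mul] at h1
    exact zero_ne_one h1
  have h1 := theta_pow_eq L hab hϖ σ
  have h2 : theta hϖ σ ^ (p - 1) * theta hϖ σ = 1 * theta hϖ σ := by
    rw [← pow_succ, Nat.sub_add_cancel hp.one_le, h1, one_mul]
  exact mul_right_cancel₀ h0 h2

/-- **abelian + tame ⇒ `e ≤ p - 1`** (inertia group form). -/
theorem card_inertia_le (hab : ∀ σ τ : L ≃ₐ[ℚ_[p]] L, σ * τ = τ * σ)
    (hc : Nat.Coprime (Nat.card (L ≃ₐ[ℚ_[p]] L)) p) :
    Nat.card ↥(lowerGroup (L ≃ₐ[ℚ_[p]] L) (OE p L) 1) ≤ p - 1 := by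
  classical
  have hp := (Fact.out : p.Prime)
  obtain ⟨ϖ, hϖ⟩ := IsDiscreteValuationRing.exists_irreducible (OE p L)
  have hpos : 0 < p - 1 := by have := hp.two_le; omega
  let f : ↥(lowerGroup (L ≃ₐ[ℚ_[p]] L) (OE p L) 1) →
      {x : ResidueField (OE p L) // x ∈ Polynomial.nthRootsFinset (p - 1)
        (1 : ResidueField (OE p L))} :=
    fun σ => ⟨theta hϖ σ, (Polynomial.mem_nthRootsFinset hpos _).mpr
      (theta_pow_pred_eq_one L hab hϖ σ)⟩
  have hf : Function.Injective f := by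
    intro σ τ h
    exact theta_injective L hc hϖ (congrArg Subtype.val h)
  have h1 := Nat.card_le_card_of_injective f hf
  refine h1.trans ?_
  rw [Nat.card_eq_fintype_card, Fintype.card_coe]
  unfold Polynomial.nthRootsFinset
  exact (Multiset.toFinset_card_le _).trans (Polynomial.card_nthRoots _ _)

/-- **abelian + tame ⇒ `e0 ≤ p - 1`.** -/
theorem e0_le (hab : ∀ σ τ : L ≃ₐ[ℚ_[p]] L, σ * τ = τ * σ)
    (hc : Nat.Coprime (Module.finrank ℚ_[p] L) p) : (ramNum p L).e0 ≤ p - 1 := by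
  rw [e0_eq_card_inertiaGroup, inertiaGroup_eq_lowerGroup_one]
  apply card_inertia_le L hab
  rw [IsGalois.card_aut_eq_finrank]
  exact hc

end Main

section Shape

variable [IsGalois ℚ_[p] L]

/-- `(p - 1) ∣ e0` as soon as `L` contains a `(p-1)`-th root of `-p` (or of any associate of
`p`). -/
theorem pred_mul_addVal_eq_e0 {π : OE p L}
    (hπ : Associated (π ^ (p - 1)) ((p : ℕ) : OE p L)) :
    ∃ a : ℕ, IsDiscreteValuationRing.addVal (OE p L) π = a ∧ (p - 1) * a = (ramNum p L).e0 := by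
  have hp := (Fact.out : p.Prime)
  have hpos : 0 < p - 1 := by have := hp.two_le; omega
  have h1 : IsDiscreteValuationRing.addVal (OE p L) (π ^ (p - 1)) =
      ((ramNum p L).e0 : ℕ∞) := by
    rw [Fermat.Agent.Lib.Ram.Prop3Hom.addVal_eq_of_associated hπ, addVal_p_eq_e0]
  rw [IsDiscreteValuationRing.addVal_pow, nsmul_eq_mul] at h1
  generalize IsDiscreteValuationRing.addVal (OE p L) π = a at h1
  cases a with
  | top =>
    exfalso
    rw [ENat.mul_top (by exact_mod_cast hpos.ne')] at h1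
    exact ENat.top_ne_natCast _ h1
  | coe a =>
    refine ⟨a, rfl, ?_⟩
    exact_mod_cast h1

/-- **the `ℚ_p`-shape**: `L / ℚ_p` abelian of degree prime to `p` containing `π` with
`π ^ (p-1)` associated to `p`: then `e0 = p - 1` and `π` is a uniformizer. -/
theorem e0_eq_pred_and_irreducible (hab : ∀ σ τ : L ≃ₐ[ℚ_[p]] L, σ * τ = τ * σ)
    (hc : Nat.Coprime (Module.finrank ℚ_[p] L) p) {π : OE p L}
    (hπ : Associated (π ^ (p - 1)) ((p : ℕ) : OE p L)) :
    (ramNum p L).e0 = p - 1 ∧ Irreducible π := by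
  have hp := (Fact.out : p.Prime)
  have hpos : 0 < p - 1 := by have := hp.two_le; omega
  obtain ⟨a, ha, hae⟩ := pred_mul_addVal_eq_e0 L hπ
  have hle := e0_le L hab hc
  have he0 : 0 < (ramNum p L).e0 := (ramNum p L).e0_pos
  have ha1 : a = 1 := by
    rcases Nat.lt_or_ge a 1 with h | h
    · have : a = 0 := by omega
      rw [this, mul_zero] at hae
      omega
    · rcases Nat.lt_or_ge 1 a with h2 | h2
      · exfalso
        have : (p - 1) * 2 ≤ (p - 1) * a := Nat.mul_le_mul_left _ h2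
        omega
      · omega
  rw [ha1, mul_one] at hae
  refine ⟨hae.symm, ?_⟩
  apply irreducible_of_addVal_eq_one
  rw [ha, ha1]
  rfl

/-- **`hϖ` + `hpe` of `CWAssembly`**: for `π ^ (p-1) = -p`, `p = c₀ π^(p-1)` with `c₀ = -1`. -/
theorem exists_shape (hab : ∀ σ τ : L ≃ₐ[ℚ_[p]] L, σ * τ = τ * σ)
    (hc : Nat.Coprime (Module.finrank ℚ_[p] L) p) {π : OE p L}
    (hπ : π ^ (p - 1) = -((p : ℕ) : OE p L)) :
    Irreducible π ∧ (ramNum p L).e0 = p - 1 ∧
      ∃ c₀ : (OE p L)ˣ, ((p : ℕ) : OE p L) = c₀ * π ^ (p - 1) := by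
  have hass : Associated (π ^ (p - 1)) ((p : ℕ) : OE p L) := by
    refine ⟨-1, ?_⟩
    rw [hπ]
    simp
  obtain ⟨he, hirr⟩ := e0_eq_pred_and_irreducible L hab hc hass
  refine ⟨hirr, he, -1, ?_⟩
  rw [hπ]
  simp

end Shape

end Fermat.Agent.S56x.Local.AbelianTameE0
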