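/-
P-S56 block (A), FlatCount glue: the subalgebra `𝒜` of "bounded" functions.

Part 1 (abstract): for a group `Γ` and a nonempty DIRECTED family `𝒩` of subgroups, the functions
`Γ → k` which are right-invariant under some `N ∈ 𝒩` form a subalgebra `invAlg 𝒩` of `Γ → k`.
Functions of a homomorphism which is trivial on some `N ∈ 𝒩` belong to it (matrix entries of a
representation factoring through `Γ / N`), and the construction restricts to subgroups.

Part 2 (fields): for a Galois extension `Ω / K` and a predicate `Bdd` on intermediate fields which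
holds for `⊥` and is stable under compositum of finite Galois subextensions, the family
`{E.fixingSubgroup | E finite Galois, Bdd E}` is directed; `bddAlg Bdd` is the resulting algebra
of functions on `Gal(Ω/K)` (application: `Bdd E` = "the upper ramification groups of `Gal(E/K)`
vanish above `1/(p-1)`").
Mathlib only.
-/
import Mathlib

set_option autoImplicit false
set_option linter.unusedSectionVars false

namespace Fermat.Agent.S56x.Local.BoundedAlg

/-! ### Part 1: invariant functions for a directed family of subgroups -/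

section Abstract

variable {Γ : Type*} [Group Γ] {k : Type*} [CommSemiring k]

/-- `f` is right-invariant under the subgroup `N`. -/
def RightInv (N : Subgroup Γ) {X : Type*} (f : Γ → X) : Prop := ∀ g, ∀ s ∈ N, f (g * s) = f g

lemma RightInv.mono {N N' : Subgroup Γ} (h : N' ≤ N) {X : Type*} {f : Γ → X}
    (hf : RightInv N f) : RightInv N' f := fun g s hs => hf g s (h hs)

lemma RightInv.comp {N : Subgroup Γ} {X Y : Type*} {f : Γ → X} (hf : RightInv N f) (φ : X → Y) :
    RightInv N (fun g => φ (f g)) := fun g s hs => by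
  show φ (f (g * s)) = φ (f g)
  rw [hf g s hs]

lemma rightInv_of_hom {M : Type*} [Monoid M] (r : Γ →* M) {N : Subgroup Γ}
    (hr : ∀ s ∈ N, r s = 1) : RightInv N r := fun g s hs => by rw [map_mul, hr s hs, mul_one]

/-- A nonempty family of subgroups which is directed downwards. -/
structure IsDirectedFamily (𝒩 : Set (Subgroup Γ)) : Prop where
  nonempty : 𝒩.Nonempty
  directed : ∀ N₁ ∈ 𝒩, ∀ N₂ ∈ 𝒩, ∃ N ∈ 𝒩, N ≤ N₁ ⊓ N₂

/-- The algebra of functions right-invariant under some member of a directed family. -/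
def invAlg (k : Type*) [CommSemiring k] {𝒩 : Set (Subgroup Γ)} (h𝒩 : IsDirectedFamily 𝒩) :
    Subalgebra k (Γ → k) where
  carrier := {f | ∃ N ∈ 𝒩, RightInv N f}
  mul_mem' := by
    rintro f f' ⟨N, hN, hf⟩ ⟨N', hN', hf'⟩
    obtain ⟨N'', hN'', hle⟩ := h𝒩.directed N hN N' hN'
    refine ⟨N'', hN'', fun g s hs => ?_⟩
    change f (g * s) * f' (g * s) = f g * f' g
    rw [hf g s (hle hs).1, hf' g s (hle hs).2]
  add_mem' := by
    rintro f f' ⟨N, hN, hf⟩ ⟨N', hN', hf'⟩
    obtain ⟨N'', hN'', hle⟩ := h𝒩.directed N hN N' hN'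
    refine ⟨N'', hN'', fun g s hs => ?_⟩
    change f (g * s) + f' (g * s) = f g + f' g
    rw [hf g s (hle hs).1, hf' g s (hle hs).2]
  algebraMap_mem' r := by
    obtain ⟨N, hN⟩ := h𝒩.nonempty
    exact ⟨N, hN, fun _ _ _ => rfl⟩

lemma mem_invAlg {𝒩 : Set (Subgroup Γ)} {h𝒩 : IsDirectedFamily 𝒩} {f : Γ → k} :
    f ∈ invAlg k h𝒩 ↔ ∃ N ∈ 𝒩, RightInv N f := Iff.rfl

/-- Any function of a homomorphism trivial on a member of the family is in the algebra. -/
lemma comp_hom_mem_invAlg {𝒩 : Set (Subgroup Γ)} (h𝒩 : IsDirectedFamily 𝒩) {M : Type*} [Monoid M]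
    (r : Γ →* M) {N : Subgroup Γ} (hN : N ∈ 𝒩) (hr : ∀ s ∈ N, r s = 1) (φ : M → k) :
    (fun g => φ (r g)) ∈ invAlg k h𝒩 :=
  ⟨N, hN, (rightInv_of_hom r hr).comp φ⟩

/-- Any function of a right-invariant map is in the algebra (e.g. entries of a cocycle which
factors through `Γ / N`). -/
lemma comp_mem_invAlg {𝒩 : Set (Subgroup Γ)} (h𝒩 : IsDirectedFamily 𝒩) {X : Type*}
    (c : Γ → X) {N : Subgroup Γ} (hN : N ∈ 𝒩) (hc : RightInv N c) (φ : X → k) :
    (fun g => φ (c g)) ∈ invAlg k h𝒩 :=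
  ⟨N, hN, hc.comp φ⟩

/-- A cocycle-like map `c (g * s) = c g + ρ g (c s)` vanishing on `N` is right-invariant. -/
lemma rightInv_of_cocycle {X : Type*} [AddMonoid X] (act : Γ → X → X) (hact : ∀ g, act g 0 = 0)
    (c : Γ → X) (hc : ∀ g h, c (g * h) = c g + act g (c h)) {N : Subgroup Γ}
    (hN : ∀ s ∈ N, c s = 0) : RightInv N c := fun g s hs => by
  rw [hc, hN s hs, hact, add_zero]

/-- The restriction of a directed family to a subgroup. -/
def restrictFamily (𝒩 : Set (Subgroup Γ)) (Γ' : Subgroup Γ) : Set (Subgroup Γ') :=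
  {N' | ∃ N ∈ 𝒩, N' = N.subgroupOf Γ'}

lemma isDirectedFamily_restrict {𝒩 : Set (Subgroup Γ)} (h𝒩 : IsDirectedFamily 𝒩)
    (Γ' : Subgroup Γ) : IsDirectedFamily (restrictFamily 𝒩 Γ') where
  nonempty := by
    obtain ⟨N, hN⟩ := h𝒩.nonempty
    exact ⟨_, N, hN, rfl⟩
  directed := by
    rintro _ ⟨N₁, hN₁, rfl⟩ _ ⟨N₂, hN₂, rfl⟩
    obtain ⟨N, hN, hle⟩ := h𝒩.directed N₁ hN₁ N₂ hN₂
    refine ⟨_, ⟨N, hN, rfl⟩, ?_⟩
    intro s hs
    rw [Subgroup.mem_subgroupOf] at hs
    exact ⟨Subgroup.mem_subgroupOf.2 (hle hs).1, Subgroup.mem_subgroupOf.2 (hle hs).2⟩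

/-- Restriction of functions maps the algebra of `Γ` into the algebra of the subgroup `Γ'`
(the hypothesis `hres` of `Devissage.rank_induced_le_one`). -/
lemma restrict_mem_invAlg {𝒩 : Set (Subgroup Γ)} (h𝒩 : IsDirectedFamily 𝒩) (Γ' : Subgroup Γ)
    {f : Γ → k} (hf : f ∈ invAlg k h𝒩) :
    (fun g : Γ' => f g) ∈ invAlg k (isDirectedFamily_restrict h𝒩 Γ') := by
  obtain ⟨N, hN, hfN⟩ := hf
  refine ⟨_, ⟨N, hN, rfl⟩, fun g s hs => ?_⟩
  exact hfN g s (Subgroup.mem_subgroupOf.1 hs)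

end Abstract

/-! ### Part 2: the family of fixing subgroups of bounded finite Galois subextensions -/

section Fields

variable {K Ω : Type*} [Field K] [Field Ω] [Algebra K Ω]

/-- The fixing subgroups of the finite Galois subextensions satisfying `Bdd`. -/
def fieldFamily (Bdd : IntermediateField K Ω → Prop) : Set (Subgroup (Ω ≃ₐ[K] Ω)) :=
  {N | ∃ E : IntermediateField K Ω, FiniteDimensional K E ∧ IsGalois K E ∧ Bdd E ∧
    N = E.fixingSubgroup}

/-- `Bdd` holds for `⊥` and is stable under compositum of finite Galois subextensions. -/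
structure IsCompositumStable (Bdd : IntermediateField K Ω → Prop) : Prop where
  bot : Bdd ⊥
  sup : ∀ E₁ E₂ : IntermediateField K Ω, FiniteDimensional K E₁ → IsGalois K E₁ →
    FiniteDimensional K E₂ → IsGalois K E₂ → Bdd E₁ → Bdd E₂ → Bdd (E₁ ⊔ E₂)

lemma isDirectedFamily_fieldFamily {Bdd : IntermediateField K Ω → Prop}
    (h : IsCompositumStable Bdd) : IsDirectedFamily (fieldFamily Bdd) where
  nonempty := ⟨_, ⊥, inferInstance, inferInstance, h.bot, rfl⟩
  directed := by
    rintro _ ⟨E₁, hfd₁, hg₁, hb₁, rfl⟩ _ ⟨E₂, hfd₂, hg₂, hb₂, rfl⟩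
    refine ⟨_, ⟨E₁ ⊔ E₂, inferInstance, ?_, h.sup E₁ E₂ hfd₁ hg₁ hfd₂ hg₂ hb₁ hb₂, rfl⟩, ?_⟩
    · have : Normal K ↥(E₁ ⊔ E₂) := IntermediateField.normal_sup K Ω E₁ E₂
      have : Algebra.IsSeparable K ↥(E₁ ⊔ E₂) := by
        have := hg₁.to_isSeparable
        have := hg₂.to_isSeparable
        infer_instance
      exact ⟨⟩
    · rw [IntermediateField.fixingSubgroup_sup]

/-- The algebra of bounded functions on `Gal(Ω/K)`. -/
def bddAlg (k : Type*) [CommSemiring k] {Bdd : IntermediateField K Ω → Prop}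
    (h : IsCompositumStable Bdd) : Subalgebra k ((Ω ≃ₐ[K] Ω) → k) :=
  invAlg k (isDirectedFamily_fieldFamily h)

lemma mem_bddAlg {k : Type*} [CommSemiring k] {Bdd : IntermediateField K Ω → Prop}
    {h : IsCompositumStable Bdd} {f : (Ω ≃ₐ[K] Ω) → k} :
    f ∈ bddAlg k h ↔ ∃ E : IntermediateField K Ω, FiniteDimensional K E ∧ IsGalois K E ∧ Bdd E ∧
      RightInv E.fixingSubgroup f := by
  constructor
  · rintro ⟨_, ⟨E, h1, h2, h3, rfl⟩, hf⟩
    exact ⟨E, h1, h2, h3, hf⟩
  · rintro ⟨E, h1, h2, h3, hf⟩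
    exact ⟨_, ⟨E, h1, h2, h3, rfl⟩, hf⟩

/-- Entries of a representation which is trivial on `Gal(Ω/E)`, `E` bounded, are bounded. -/
lemma comp_hom_mem_bddAlg {k : Type*} [CommSemiring k] {Bdd : IntermediateField K Ω → Prop}
    (h : IsCompositumStable Bdd) {M : Type*} [Monoid M] (r : (Ω ≃ₐ[K] Ω) →* M)
    (E : IntermediateField K Ω) [FiniteDimensional K E] [IsGalois K E] (hE : Bdd E)
    (hr : ∀ s ∈ E.fixingSubgroup, r s = 1) (φ : M → k) :
    (fun g => φ (r g)) ∈ bddAlg k h :=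
  comp_hom_mem_invAlg (isDirectedFamily_fieldFamily h) r
    (show E.fixingSubgroup ∈ fieldFamily Bdd from ⟨E, inferInstance, inferInstance, hE, rfl⟩) hr φ

end Fields

end Fermat.Agent.S56x.Local.BoundedAlg
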