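/-
P-S56 block (A), FlatCount glue (helper97): the CONCRETE algebra of bounded functions on
`GQp p = Gal(PadicAlgCl p / ℚ_[p])`, over helper35's shared definitions `Local/BddDef`
(`ramNum`, `IsBddField`, `IsBddFun`).

* `bddAlg p k : Subalgebra k (GQp p → k)` is DEFINED as the subalgebra generated by the bounded
  functions, so it is one fixed object with no hypothesis in its type;
* `mem_bddAlg_of_isBddFun`, `comp_hom_mem_bddAlg`, `comp_mem_bddAlg` : membership (unconditional);
* `SupStatement p` : compositum of two bounded fields is bounded (the one arithmetic input,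
  proved in `Local/BddField` by helper83: `supStatement`);
* `isBddFun_of_mem_bddAlg hsup`, `mem_bddAlg_iff hsup` : under `SupStatement`, the members are
  exactly the bounded functions; UNCONDITIONAL forms `mem_bddAlg_iff_isBddFun`,
  `isBddFun_of_mem`, `mem_bddAlgOn_iff_isBddFunOn`, `isBddFunOn_of_mem`;
* the same for a subgroup `Γ'` of `GQp p` (`IsBddFunOn`, `bddAlgOn`), and the restriction lemma
  `restrict_mem_bddAlgOn` (unconditional).
-/
import Fermat.Agent.S56x.Local.BddDef
import Fermat.Agent.S56x.Local.BddField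
import Fermat.Agent.S56x.Local.BoundedAlg

set_option autoImplicit false

noncomputable section

namespace Fermat.Agent.S56x.Local.BddAlg

open Fermat.Agent.Lib.Ram Fermat.Agent.S56x.Local.PadicFinite Fermat.Agent.S56x.Local.BddDef
open Fermat.Agent.S56x.Local.BoundedAlg

variable (p : ℕ) [Fact p.Prime]

/-! ### The statement that bounded fields are stable under compositum -/

/-- The compositum of two bounded fields is bounded (to be supplied by `Local/BddField`). -/
def SupStatement : Prop :=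
  ∀ E₁ E₂ : IntermediateField ℚ_[p] (PadicAlgCl p),
    IsBddField p E₁ → IsBddField p E₂ → IsBddField p (E₁ ⊔ E₂)

variable {p}

theorem isCompositumStable_of_sup (hsup : SupStatement p) :
    IsCompositumStable (K := ℚ_[p]) (Ω := PadicAlgCl p) (IsBddField p) where
  bot := BddField.isBddField_bot
  sup := fun E₁ E₂ _ _ _ _ h₁ h₂ => hsup E₁ E₂ h₁ h₂

/-! ### Bounded functions on a subgroup -/

section On

variable (p)

/-- A function on a subgroup `Γ'` of the local Galois group which is right invariant under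
`Γ' ∩ Gal(·/E)` for a bounded field `E`. -/
def IsBddFunOn (Γ' : Subgroup (GQp p)) {X : Type*} (f : Γ' → X) : Prop :=
  ∃ E : IntermediateField ℚ_[p] (PadicAlgCl p), IsBddField p E ∧
    ∀ (g s : Γ'), (s : GQp p) ∈ E.fixingSubgroup → f (g * s) = f g

variable {p}

theorem isBddFunOn_iff_rightInv {Γ' : Subgroup (GQp p)} {X : Type*} {f : Γ' → X} :
    IsBddFunOn p Γ' f ↔ ∃ E : IntermediateField ℚ_[p] (PadicAlgCl p), IsBddField p E ∧
      RightInv (E.fixingSubgroup.subgroupOf Γ') f := by
  constructor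
  · rintro ⟨E, hE, h⟩
    exact ⟨E, hE, fun g s hs => h g s (Subgroup.mem_subgroupOf.1 hs)⟩
  · rintro ⟨E, hE, h⟩
    exact ⟨E, hE, fun g s hs => h g s (Subgroup.mem_subgroupOf.2 hs)⟩

theorem isBddFun_iff_rightInv {X : Type*} {f : GQp p → X} :
    IsBddFun p f ↔ ∃ E : IntermediateField ℚ_[p] (PadicAlgCl p), IsBddField p E ∧
      RightInv E.fixingSubgroup f := by
  constructor
  · rintro ⟨E, hE, h⟩
    exact ⟨E, hE, fun g s hs => h g s hs⟩
  · rintro ⟨E, hE, h⟩
    exact ⟨E, hE, fun g s hs => h g s hs⟩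

theorem isBddFun_restrict {X : Type*} {f : GQp p → X} (hf : IsBddFun p f)
    (Γ' : Subgroup (GQp p)) : IsBddFunOn p Γ' (fun g : Γ' => f g) := by
  obtain ⟨E, hE, h⟩ := hf
  exact ⟨E, hE, fun g s hs => h g s hs⟩

theorem isBddFun_comp {X Y : Type*} {f : GQp p → X} (hf : IsBddFun p f) (φ : X → Y) :
    IsBddFun p (fun g => φ (f g)) := by
  obtain ⟨E, hE, h⟩ := hf
  exact ⟨E, hE, fun g s hs => by show φ (f (g * s)) = φ (f g); rw [h g s hs]⟩

theorem isBddFunOn_comp {Γ' : Subgroup (GQp p)} {X Y : Type*} {f : Γ' → X}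
    (hf : IsBddFunOn p Γ' f) (φ : X → Y) : IsBddFunOn p Γ' (fun g => φ (f g)) := by
  obtain ⟨E, hE, h⟩ := hf
  exact ⟨E, hE, fun g s hs => by show φ (f (g * s)) = φ (f g); rw [h g s hs]⟩

/-- A homomorphism which is trivial on `Gal(·/E)`, `E` bounded, is a bounded function. -/
theorem isBddFun_of_hom {M : Type*} [Monoid M] (r : GQp p →* M)
    {E : IntermediateField ℚ_[p] (PadicAlgCl p)} (hE : IsBddField p E)
    (hr : ∀ s ∈ E.fixingSubgroup, r s = 1) : IsBddFun p r :=
  ⟨E, hE, fun g s hs => by rw [map_mul, hr s hs, mul_one]⟩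

/-- Bounded functions mod a smaller bounded-field: monotonicity in the field. -/
theorem isBddFun_of_le {X : Type*} {f : GQp p → X}
    {E E' : IntermediateField ℚ_[p] (PadicAlgCl p)} (hE' : IsBddField p E') (hle : E ≤ E')
    (h : ∀ (g s : GQp p), s ∈ E.fixingSubgroup → f (g * s) = f g) : IsBddFun p f :=
  ⟨E', hE', fun g s hs => h g s (IntermediateField.fixingSubgroup_le hle hs)⟩

end On

/-! ### The algebras -/

variable (p)

/-- The algebra of bounded functions on the local Galois group: generated by the functions which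
are right invariant under `Gal(·/E)` for a bounded field `E`. -/
def bddAlg (k : Type*) [CommSemiring k] : Subalgebra k (GQp p → k) :=
  Algebra.adjoin k {f | IsBddFun p f}

/-- The algebra of bounded functions on a subgroup `Γ'` of the local Galois group. -/
def bddAlgOn (Γ' : Subgroup (GQp p)) (k : Type*) [CommSemiring k] : Subalgebra k (Γ' → k) :=
  Algebra.adjoin k {f | IsBddFunOn p Γ' f}

variable {p} {k : Type*} [CommSemiring k]

theorem mem_bddAlg_of_isBddFun {f : GQp p → k} (hf : IsBddFun p f) : f ∈ bddAlg p k :=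
  Algebra.subset_adjoin hf

theorem mem_bddAlgOn_of_isBddFunOn {Γ' : Subgroup (GQp p)} {f : Γ' → k}
    (hf : IsBddFunOn p Γ' f) : f ∈ bddAlgOn p Γ' k :=
  Algebra.subset_adjoin hf

/-- Entries of a representation which is trivial on `Gal(·/E)`, `E` bounded, are bounded. -/
theorem comp_hom_mem_bddAlg {M : Type*} [Monoid M] (r : GQp p →* M)
    {E : IntermediateField ℚ_[p] (PadicAlgCl p)} (hE : IsBddField p E)
    (hr : ∀ s ∈ E.fixingSubgroup, r s = 1) (φ : M → k) :
    (fun g => φ (r g)) ∈ bddAlg p k :=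
  mem_bddAlg_of_isBddFun (isBddFun_comp (isBddFun_of_hom r hE hr) φ)

/-- Any function of a bounded map is in the algebra (entries of a cocycle which is right
invariant under `Gal(·/E)`). -/
theorem comp_mem_bddAlg {X : Type*} {c : GQp p → X} (hc : IsBddFun p c) (φ : X → k) :
    (fun g => φ (c g)) ∈ bddAlg p k :=
  mem_bddAlg_of_isBddFun (isBddFun_comp hc φ)

/-- The restriction homomorphism `(GQp p → k) → (Γ' → k)`. -/
def restrictAlgHom (Γ' : Subgroup (GQp p)) (k : Type*) [CommSemiring k] :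
    (GQp p → k) →ₐ[k] (Γ' → k) :=
  AlgHom.pi (fun g : Γ' => Pi.evalAlgHom k (fun _ : GQp p => k) (g : GQp p))

@[simp] theorem restrictAlgHom_apply (Γ' : Subgroup (GQp p)) (f : GQp p → k) (g : Γ') :
    restrictAlgHom Γ' k f g = f g := rfl

/-- Restriction to a subgroup maps bounded functions to bounded functions (the hypothesis `hres`
of `FlatBridge.finrank_classSpan_le_of_tame`). -/
theorem restrict_mem_bddAlgOn (Γ' : Subgroup (GQp p)) {f : GQp p → k} (hf : f ∈ bddAlg p k) :
    (fun g : Γ' => f g) ∈ bddAlgOn p Γ' k := by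
  have hle : bddAlg p k ≤ (bddAlgOn p Γ' k).comap (restrictAlgHom Γ' k) := by
    refine Algebra.adjoin_le ?_
    intro f hf
    exact mem_bddAlgOn_of_isBddFunOn (isBddFun_restrict hf Γ')
  exact hle hf

/-! ### Under `SupStatement`: the members are exactly the bounded functions -/

theorem bddAlg_eq (hsup : SupStatement p) :
    bddAlg p k = BoundedAlg.bddAlg k (isCompositumStable_of_sup hsup) := by
  apply le_antisymm
  · refine Algebra.adjoin_le ?_
    rintro f ⟨E, hE, h⟩
    obtain ⟨hfd, hgal, hb⟩ := hE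
    exact mem_bddAlg.2 ⟨E, hfd, hgal, ⟨hfd, hgal, hb⟩, fun g s hs => h g s hs⟩
  · intro f hf
    obtain ⟨E, _, _, hE, h⟩ := mem_bddAlg.1 hf
    exact mem_bddAlg_of_isBddFun ⟨E, hE, fun g s hs => h g s hs⟩

theorem isBddFun_of_mem_bddAlg (hsup : SupStatement p) {f : GQp p → k} (hf : f ∈ bddAlg p k) :
    IsBddFun p f := by
  rw [bddAlg_eq hsup] at hf
  obtain ⟨E, _, _, hE, h⟩ := mem_bddAlg.1 hf
  exact ⟨E, hE, fun g s hs => h g s hs⟩

theorem mem_bddAlg_iff (hsup : SupStatement p) {f : GQp p → k} :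
    f ∈ bddAlg p k ↔ IsBddFun p f :=
  ⟨isBddFun_of_mem_bddAlg hsup, mem_bddAlg_of_isBddFun⟩

theorem bddAlgOn_eq (hsup : SupStatement p) (Γ' : Subgroup (GQp p)) :
    bddAlgOn p Γ' k =
      invAlg k (isDirectedFamily_restrict
        (isDirectedFamily_fieldFamily (isCompositumStable_of_sup hsup)) Γ') := by
  apply le_antisymm
  · refine Algebra.adjoin_le ?_
    rintro f ⟨E, hE, h⟩
    obtain ⟨hfd, hgal, hb⟩ := hE
    refine ⟨_, ⟨E.fixingSubgroup, ⟨E, hfd, hgal, ⟨hfd, hgal, hb⟩, rfl⟩, rfl⟩, fun g s hs => ?_⟩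
    exact h g s (Subgroup.mem_subgroupOf.1 hs)
  · rintro f ⟨_, ⟨_, ⟨E, _, _, hE, rfl⟩, rfl⟩, h⟩
    exact mem_bddAlgOn_of_isBddFunOn ⟨E, hE, fun g s hs => h g s (Subgroup.mem_subgroupOf.2 hs)⟩

theorem isBddFunOn_of_mem_bddAlgOn (hsup : SupStatement p) {Γ' : Subgroup (GQp p)} {f : Γ' → k}
    (hf : f ∈ bddAlgOn p Γ' k) : IsBddFunOn p Γ' f := by
  rw [bddAlgOn_eq hsup] at hf
  obtain ⟨_, ⟨_, ⟨E, _, _, hE, rfl⟩, rfl⟩, h⟩ := hf
  exact ⟨E, hE, fun g s hs => h g s (Subgroup.mem_subgroupOf.2 hs)⟩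

theorem mem_bddAlgOn_iff (hsup : SupStatement p) {Γ' : Subgroup (GQp p)} {f : Γ' → k} :
    f ∈ bddAlgOn p Γ' k ↔ IsBddFunOn p Γ' f :=
  ⟨isBddFunOn_of_mem_bddAlgOn hsup, mem_bddAlgOn_of_isBddFunOn⟩

/-! ### Unconditional forms (with `Local/BddField.isBddField_sup`) -/

variable (p) in
theorem supStatement : SupStatement p := fun _ _ h₁ h₂ => BddField.isBddField_sup h₁ h₂

theorem isBddFun_of_mem {f : GQp p → k} (hf : f ∈ bddAlg p k) : IsBddFun p f :=
  isBddFun_of_mem_bddAlg (supStatement p) hf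

theorem mem_bddAlg_iff_isBddFun {f : GQp p → k} : f ∈ bddAlg p k ↔ IsBddFun p f :=
  mem_bddAlg_iff (supStatement p)

theorem isBddFunOn_of_mem {Γ' : Subgroup (GQp p)} {f : Γ' → k} (hf : f ∈ bddAlgOn p Γ' k) :
    IsBddFunOn p Γ' f :=
  isBddFunOn_of_mem_bddAlgOn (supStatement p) hf

theorem mem_bddAlgOn_iff_isBddFunOn {Γ' : Subgroup (GQp p)} {f : Γ' → k} :
    f ∈ bddAlgOn p Γ' k ↔ IsBddFunOn p Γ' f :=
  mem_bddAlgOn_iff (supStatement p)

/-- Finitely many bounded functions are simultaneously right invariant under `Gal(·/E)` for ONE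
bounded field `E`. -/
theorem exists_common_field {ι : Type*} [Finite ι] {X : ι → Type*} (f : ∀ i, GQp p → X i)
    (hf : ∀ i, IsBddFun p (f i)) :
    ∃ E : IntermediateField ℚ_[p] (PadicAlgCl p), IsBddField p E ∧
      ∀ i (g s : GQp p), s ∈ E.fixingSubgroup → f i (g * s) = f i g := by
  classical
  cases nonempty_fintype ι
  choose E hE h using hf
  refine ⟨Finset.univ.sup E, ?_, fun i g s hs => h i g s ?_⟩
  · have : ∀ T : Finset ι, IsBddField p (T.sup E) := by
      intro T
      induction T using Finset.induction_on with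
      | empty => simpa using (BddField.isBddField_bot (p := p))
      | insert a T _ ih => rw [Finset.sup_insert]; exact BddField.isBddField_sup (hE a) ih
    exact this _
  · exact IntermediateField.fixingSubgroup_le (Finset.le_sup (Finset.mem_univ i)) hs

end Fermat.Agent.S56x.Local.BddAlg

end
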