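import Mathlib

/-!
# P-S56 / block A / LOC-1 : abstract dévissage, basic layer

Model-agnostic scalar cocycles for a character `χ : Γ →* kˣ` of an abstract group `Γ`,
relative to a subalgebra `𝒜` of "admissible" functions `Γ → k`
(in the application: locally constant functions killed by the Fontaine-bounded subgroup).

* `Z1 χ`   : functions `u` with `u (g h) = u g + χ g * u h`
* `B1 χ`   : functions `g ↦ χ g * m - m`
* `Z1A 𝒜 χ := Z1 χ ⊓ 𝒜`
* `H1A 𝒜 χ` : the image of `Z1A 𝒜 χ` in `(Γ → k) ⧸ B1 χ`   ("admissible H¹(Γ, k(χ))")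

plus two general rank lemmas.
-/

set_option autoImplicit false

namespace Fermat.Agent.S56x.Local.Devissage

open Module

universe u v

section RankLemmas

variable {k : Type v} [Field k] {W : Type u} [AddCommGroup W] [Module k W]

/-- A vector space in which any two vectors are linearly dependent has rank `≤ 1`. -/
theorem rank_le_one_of_pairwise_dependent
    (h : ∀ x y : W, ∃ l l' : k, (l ≠ 0 ∨ l' ≠ 0) ∧ l • x + l' • y = 0) :
    Module.rank k W ≤ 1 := by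
  rw [rank_le_one_iff]
  by_cases hW : ∀ x : W, x = 0
  · exact ⟨0, fun v => ⟨0, by rw [hW v]; simp⟩⟩
  · rw [not_forall] at hW
    obtain ⟨x₀, hx₀⟩ := hW
    refine ⟨x₀, fun y => ?_⟩
    obtain ⟨l, l', hll, hxy⟩ := h x₀ y
    have hl' : l' ≠ 0 := by
      intro h0
      rw [h0, zero_smul, add_zero] at hxy
      rcases hll with hl | hl
      · exact hx₀ ((smul_eq_zero.1 hxy).resolve_left hl)
      · exact hl h0
    refine ⟨-(l'⁻¹ * l), ?_⟩
    have : l' • y = -(l • x₀) := eq_neg_of_add_eq_zero_right hxy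
    calc (-(l'⁻¹ * l)) • x₀ = l'⁻¹ • (-(l • x₀)) := by
          rw [neg_smul, mul_smul, smul_neg]
      _ = l'⁻¹ • (l' • y) := by rw [this]
      _ = y := by rw [smul_smul, inv_mul_cancel₀ hl', one_smul]

/-- In a space of rank `≤ 1`, every vector is a multiple of any nonzero vector. -/
theorem exists_smul_eq_of_rank_le_one (h : Module.rank k W ≤ 1) {x : W} (hx : x ≠ 0) (y : W) :
    ∃ c : k, y = c • x := by
  rw [rank_le_one_iff] at h
  obtain ⟨v₀, hv₀⟩ := h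
  obtain ⟨r, hr⟩ := hv₀ x
  obtain ⟨r', hr'⟩ := hv₀ y
  have hr0 : r ≠ 0 := by
    rintro rfl
    exact hx (by rw [← hr, zero_smul])
  refine ⟨r' * r⁻¹, ?_⟩
  rw [← hr, ← hr', smul_smul, mul_assoc, inv_mul_cancel₀ hr0, mul_one]

/-- Rank transfer along a linear map: if `f` detects membership in `B` on `Z`
(`f z ∈ B' → z ∈ B` for `z ∈ Z`), the image of `Z` modulo `B` has rank at most that of the image of
`f Z` modulo `B'`. -/
theorem rank_map_mkQ_le_of_detects {V V' : Type u} [AddCommGroup V] [Module k V] [AddCommGroup V']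
    [Module k V'] (f : V →ₗ[k] V') (B : Submodule k V) (B' : Submodule k V') (Z : Submodule k V)
    (h : ∀ z ∈ Z, f z ∈ B' → z ∈ B) :
    Module.rank k (Z.map B.mkQ) ≤ Module.rank k ((Z.map f).map B'.mkQ) := by
  let φ₁ : Z →ₗ[k] V ⧸ B := B.mkQ ∘ₗ Z.subtype
  let φ₂ : Z →ₗ[k] V' ⧸ B' := B'.mkQ ∘ₗ f ∘ₗ Z.subtype
  have hker : LinearMap.ker φ₂ ≤ LinearMap.ker φ₁ := by
    intro z hz
    have hz' : B'.mkQ (f z) = 0 := hz
    rw [Submodule.mkQ_apply, Submodule.Quotient.mk_eq_zero] at hz'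
    have := h z z.2 hz'
    show B.mkQ (z : V) = 0
    rw [Submodule.mkQ_apply, Submodule.Quotient.mk_eq_zero]
    exact this
  have e₁ : LinearMap.range φ₁ = Z.map B.mkQ := by
    rw [LinearMap.range_comp, Submodule.range_subtype]
  have e₂ : LinearMap.range φ₂ = (Z.map f).map B'.mkQ := by
    rw [LinearMap.range_comp, LinearMap.range_comp, Submodule.range_subtype]
  rw [← e₁, ← e₂, ← (LinearMap.quotKerEquivRange φ₁).rank_eq, ← (LinearMap.quotKerEquivRange φ₂).rank_eq]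
  exact LinearMap.rank_le_of_surjective (Submodule.factor hker) (Submodule.factor_surjective hker)

end RankLemmas

variable {Γ : Type u} [Group Γ] {k : Type v} [Field k]

/-- twisted 1-cocycles: `u (g h) = u g + χ g * u h`. -/
def Z1 (χ : Γ →* kˣ) : Submodule k (Γ → k) where
  carrier := {u | ∀ g h, u (g * h) = u g + (χ g : k) * u h}
  add_mem' := by
    intro u u' hu hu' g h
    simp only [Pi.add_apply, hu g h, hu' g h]
    ring
  zero_mem' := by
    intro g h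
    simp
  smul_mem' := by
    intro c u hu g h
    simp only [Pi.smul_apply, smul_eq_mul, hu g h]
    ring

theorem mem_Z1 {χ : Γ →* kˣ} {u : Γ → k} :
    u ∈ Z1 χ ↔ ∀ g h, u (g * h) = u g + (χ g : k) * u h := Iff.rfl

/-- the coboundary map `m ↦ (g ↦ χ g * m - m)`. -/
def cob (χ : Γ →* kˣ) : k →ₗ[k] (Γ → k) where
  toFun m := fun g => (χ g : k) * m - m
  map_add' := by
    intro m m'
    funext g
    simp only [Pi.add_apply]
    ring
  map_smul' := by
    intro c m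
    funext g
    simp only [Pi.smul_apply, smul_eq_mul, RingHom.id_apply]
    ring

@[simp] theorem cob_apply (χ : Γ →* kˣ) (m : k) (g : Γ) : cob χ m g = (χ g : k) * m - m := rfl

/-- coboundaries. -/
def B1 (χ : Γ →* kˣ) : Submodule k (Γ → k) := LinearMap.range (cob χ)

theorem mem_B1 {χ : Γ →* kˣ} {u : Γ → k} : u ∈ B1 χ ↔ ∃ m : k, cob χ m = u := LinearMap.mem_range

theorem cob_mem_Z1 (χ : Γ →* kˣ) (m : k) : cob χ m ∈ Z1 χ := by
  intro g h
  simp only [cob_apply, map_mul, Units.val_mul]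
  ring

theorem B1_le_Z1 (χ : Γ →* kˣ) : B1 χ ≤ Z1 χ := by
  rintro u ⟨m, rfl⟩
  exact cob_mem_Z1 χ m

@[simp] theorem cob_one (m : k) : cob (1 : Γ →* kˣ) m = 0 := by
  funext g
  simp

theorem B1_one : B1 (1 : Γ →* kˣ) = ⊥ := by
  rw [eq_bot_iff]
  rintro u ⟨m, rfl⟩
  simp

theorem mem_Z1_one {u : Γ → k} : u ∈ Z1 (1 : Γ →* kˣ) ↔ ∀ g h, u (g * h) = u g + u h := by
  simp [mem_Z1]

/-- the character as a `k`-valued function. -/
def chr (χ : Γ →* kˣ) : Γ → k := fun g => (χ g : k)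

@[simp] theorem chr_apply (χ : Γ →* kˣ) (g : Γ) : chr χ g = (χ g : k) := rfl

theorem chr_inv_apply (χ : Γ →* kˣ) (g : Γ) : chr χ⁻¹ g = ((χ g : k))⁻¹ := by
  simp [chr]

theorem chr_mul_chr_inv (χ : Γ →* kˣ) (g : Γ) : chr χ g * chr χ⁻¹ g = 1 := by
  simp [chr]

theorem chr_inv_mul_chr (χ : Γ →* kˣ) (g : Γ) : chr χ⁻¹ g * chr χ g = 1 := by
  simp [chr]

variable (𝒜 : Subalgebra k (Γ → k))

/-- admissible cocycles. -/
def Z1A (χ : Γ →* kˣ) : Submodule k (Γ → k) := Z1 χ ⊓ Subalgebra.toSubmodule 𝒜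

theorem mem_Z1A {χ : Γ →* kˣ} {u : Γ → k} : u ∈ Z1A 𝒜 χ ↔ u ∈ Z1 χ ∧ u ∈ 𝒜 := by
  simp [Z1A]

/-- constants are admissible. -/
theorem const_mem (c : k) : (fun _ : Γ => c) ∈ 𝒜 := by
  have h := 𝒜.algebraMap_mem c
  have e : (algebraMap k (Γ → k)) c = fun _ : Γ => c := by
    funext g
    simp [Pi.algebraMap_apply]
  rwa [e] at h

theorem cob_mem (χ : Γ →* kˣ) (hχ : chr χ ∈ 𝒜) (m : k) : cob χ m ∈ 𝒜 := by
  have h1 : (fun g => chr χ g * m) ∈ 𝒜 := by
    have := 𝒜.mul_mem hχ (const_mem 𝒜 m)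
    exact this
  have := 𝒜.sub_mem h1 (const_mem 𝒜 m)
  exact this

theorem B1_le_Z1A (χ : Γ →* kˣ) (hχ : chr χ ∈ 𝒜) : B1 χ ≤ Z1A 𝒜 χ := by
  rintro u ⟨m, rfl⟩
  exact (mem_Z1A 𝒜).2 ⟨cob_mem_Z1 χ m, cob_mem 𝒜 χ hχ m⟩

/-- "admissible `H¹(Γ, k(χ))`": the image of the admissible cocycles modulo coboundaries. -/
def H1A (χ : Γ →* kˣ) : Submodule k ((Γ → k) ⧸ B1 χ) := (Z1A 𝒜 χ).map (B1 χ).mkQ

/-- If admissible `H¹(k(χ))` has rank `≤ 1` and `b` is an admissible cocycle that is not a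
coboundary, every admissible cocycle is `l • b + coboundary`. -/
theorem exists_eq_smul_add_cob {χ : Γ →* kˣ} (h : Module.rank k (H1A 𝒜 χ) ≤ 1) {b : Γ → k}
    (hb : b ∈ Z1A 𝒜 χ) (hbn : b ∉ B1 χ) {u : Γ → k} (hu : u ∈ Z1A 𝒜 χ) :
    ∃ l m : k, u = l • b + cob χ m := by
  let xb : H1A 𝒜 χ := ⟨(B1 χ).mkQ b, Submodule.mem_map_of_mem hb⟩
  let xu : H1A 𝒜 χ := ⟨(B1 χ).mkQ u, Submodule.mem_map_of_mem hu⟩
  have hxb : xb ≠ 0 := by
    intro h0
    have : (B1 χ).mkQ b = 0 := congrArg Subtype.val h0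
    rw [Submodule.mkQ_apply, Submodule.Quotient.mk_eq_zero] at this
    exact hbn this
  obtain ⟨c, hc⟩ := exists_smul_eq_of_rank_le_one h hxb xu
  have hc' : (B1 χ).mkQ u = c • (B1 χ).mkQ b := congrArg Subtype.val hc
  have : (B1 χ).mkQ (u - c • b) = 0 := by
    rw [map_sub, map_smul, hc', sub_self]
  rw [Submodule.mkQ_apply, Submodule.Quotient.mk_eq_zero] at this
  obtain ⟨m, hm⟩ := this
  refine ⟨c, m, ?_⟩
  rw [hm]
  abel

/-- If admissible `H¹(k(χ))` has rank `≤ 1`, any two admissible cocycles are dependent modulo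
coboundaries. -/
theorem exists_dependent_mod_cob {χ : Γ →* kˣ} (h : Module.rank k (H1A 𝒜 χ) ≤ 1) {u u' : Γ → k}
    (hu : u ∈ Z1A 𝒜 χ) (hu' : u' ∈ Z1A 𝒜 χ) :
    ∃ l l' m : k, (l ≠ 0 ∨ l' ≠ 0) ∧ l • u + l' • u' = cob χ m := by
  by_cases hub : u ∈ B1 χ
  · obtain ⟨m, hm⟩ := hub
    exact ⟨1, 0, m, Or.inl one_ne_zero, by rw [hm]; simp⟩
  · obtain ⟨l, m, hlm⟩ := exists_eq_smul_add_cob 𝒜 h hu hub hu'
    refine ⟨-l, 1, m, Or.inr one_ne_zero, ?_⟩
    rw [hlm]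
    simp only [neg_smul, one_smul]
    abel

/-- rank zero reformulation. -/
theorem mem_B1_of_rank_eq_zero {χ : Γ →* kˣ} (h : Module.rank k (H1A 𝒜 χ) = 0) {u : Γ → k}
    (hu : u ∈ Z1A 𝒜 χ) : u ∈ B1 χ := by
  rw [rank_zero_iff_forall_zero] at h
  have := h ⟨(B1 χ).mkQ u, Submodule.mem_map_of_mem hu⟩
  have h0 : (B1 χ).mkQ u = 0 := congrArg Subtype.val this
  rwa [Submodule.mkQ_apply, Submodule.Quotient.mk_eq_zero] at h0

end Fermat.Agent.S56x.Local.Devissage
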