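import Mathlib

/-!
# P-S56, block (A), LOC-2c (helper48): counting equivariant homs along a filtration

Generic dévissage count (no units, `Mathlib` only).  `N` a group, `A` a commutative group,
`G` any type of "operators", acting on `N` by arbitrary maps `ρN g : N → N` and on `A` by group
endomorphisms `ρA g : A →* A`.

* `eqHom ρN ρA S : Subgroup (N →* A)` : the homs `f : N →* A` with values in the subgroup `S ≤ A`
  that are equivariant: `f (ρN g n) = ρA g (f n)`;
* `finite_and_card_le` (**step**): if `γ : S →* Y` is equivariant (for `ρY : G → Y →* Y`) with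
  kernel inside `S'`, then
  `#eqHom S ≤ #eqHom S' * #eqHom_Y ⊤` (and finiteness propagates);
* `chain_card_le` (**chain**): along `S a ≥ S (a+1) ≥ ... ≥ S b` with `#eqHom (S b) ≤ 1`:
  `#eqHom (S a) ≤ ∏_{a ≤ i < b} c i` if each step is bounded by `c i`.
-/

set_option autoImplicit false
set_option linter.unusedSectionVars false

namespace Fermat.Agent.S56x.Local.FiltrationCount

section Defs

variable {G N A : Type*} [Group N] [CommGroup A]
  (ρN : G → N → N) (ρA : G → A →* A)

/-- the group of equivariant homs `N →* A` with values in the subgroup `S`. -/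
def eqHom (S : Subgroup A) : Subgroup (N →* A) where
  carrier := {f | (∀ n, f n ∈ S) ∧ ∀ g n, f (ρN g n) = ρA g (f n)}
  one_mem' := ⟨fun _ => S.one_mem, fun g n => by
    rw [MonoidHom.one_apply, MonoidHom.one_apply, map_one]⟩
  mul_mem' := by
    rintro f f' ⟨h1, h2⟩ ⟨h1', h2'⟩
    exact ⟨fun n => S.mul_mem (h1 n) (h1' n), fun g n => by
      rw [MonoidHom.mul_apply, MonoidHom.mul_apply, h2, h2', map_mul]⟩
  inv_mem' := by
    rintro f ⟨h1, h2⟩
    exact ⟨fun n => S.inv_mem (h1 n), fun g n => by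
      rw [MonoidHom.inv_apply, MonoidHom.inv_apply, h2, map_inv]⟩

variable {ρN ρA}

theorem mem_eqHom {S : Subgroup A} {f : N →* A} :
    f ∈ eqHom ρN ρA S ↔ (∀ n, f n ∈ S) ∧ ∀ g n, f (ρN g n) = ρA g (f n) := Iff.rfl

theorem eqHom_mono {S T : Subgroup A} (h : S ≤ T) : eqHom ρN ρA S ≤ eqHom ρN ρA T :=
  fun _ hf => ⟨fun n => h (hf.1 n), hf.2⟩

variable (ρN ρA) in
theorem eqHom_bot : eqHom ρN ρA (⊥ : Subgroup A) = ⊥ := by
  rw [eq_bot_iff]
  intro f hf
  rw [Subgroup.mem_bot]
  ext n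
  exact Subgroup.mem_bot.mp (hf.1 n)

variable (ρN ρA) in
theorem card_eqHom_bot : Nat.card (eqHom ρN ρA (⊥ : Subgroup A)) = 1 := by
  rw [eqHom_bot]
  exact Subgroup.card_bot

variable (ρN ρA) in
theorem finite_eqHom_bot : Finite (eqHom ρN ρA (⊥ : Subgroup A)) := by
  rw [eqHom_bot]
  infer_instance

variable (ρN ρA) in
/-- finiteness for a finite source and a finite target. -/
theorem finite_eqHom [Finite N] [Finite A] (S : Subgroup A) : Finite (eqHom ρN ρA S) :=
  Finite.of_injective (fun f : eqHom ρN ρA S => ((f : N →* A) : N → A))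
    (fun _ _ h => Subtype.ext (DFunLike.coe_injective h))

end Defs

section Step

variable {G N A Y : Type*} [Group N] [CommGroup A] [CommGroup Y]
  (ρN : G → N → N) (ρA : G → A →* A) (ρY : G → Y →* Y)

/-- composition of an `S`-valued hom with `γ : S →* Y`. -/
def pushHom (S : Subgroup A) (γ : S →* Y) : eqHom ρN ρA S →* (N →* Y) where
  toFun f := γ.comp ((f : N →* A).codRestrict S f.2.1)
  map_one' := by
    ext n
    exact map_one γ
  map_mul' f f' := by
    ext n
    exact map_mul γ ⟨(f : N →* A) n, f.2.1 n⟩ ⟨(f' : N →* A) n, f'.2.1 n⟩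

theorem pushHom_apply (S : Subgroup A) (γ : S →* Y) (f : eqHom ρN ρA S) (n : N) :
    pushHom ρN ρA S γ f n = γ ⟨(f : N →* A) n, f.2.1 n⟩ := rfl

variable {ρN ρA ρY}

theorem pushHom_mem {S : Subgroup A} {γ : S →* Y}
    (hequiv : ∀ g (a : S) (h : ρA g a ∈ S), γ ⟨ρA g a, h⟩ = ρY g (γ a))
    (f : eqHom ρN ρA S) : pushHom ρN ρA S γ f ∈ eqHom ρN ρY ⊤ := by
  refine ⟨fun _ => Subgroup.mem_top _, fun g n => ?_⟩
  rw [pushHom_apply, pushHom_apply, ← hequiv g ⟨(f : N →* A) n, f.2.1 n⟩
    (by rw [← f.2.2 g n]; exact f.2.1 _)]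
  congr 1
  exact Subtype.ext (f.2.2 g n)

theorem mem_of_pushHom_eq_one {S S' : Subgroup A} {γ : S →* Y}
    (hker : ∀ a : S, γ a = 1 → (a : A) ∈ S') {f : eqHom ρN ρA S}
    (hf : pushHom ρN ρA S γ f = 1) : (f : N →* A) ∈ eqHom ρN ρA S' := by
  refine ⟨fun n => ?_, f.2.2⟩
  have h := DFunLike.congr_fun hf n
  rw [pushHom_apply, MonoidHom.one_apply] at h
  exact hker _ h

/-- **The step of the count**: if `γ : S →* Y` is equivariant with `ker γ ⊆ S'`, then the number of
equivariant homs into `S` is at most the number of equivariant homs into `S'` times the number of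
equivariant homs into `Y`. -/
theorem finite_and_card_le {S S' : Subgroup A} (γ : S →* Y)
    (hker : ∀ a : S, γ a = 1 → (a : A) ∈ S')
    (hequiv : ∀ g (a : S) (h : ρA g a ∈ S), γ ⟨ρA g a, h⟩ = ρY g (γ a))
    [hS' : Finite (eqHom ρN ρA S')] [hY : Finite (eqHom ρN ρY ⊤)] :
    Finite (eqHom ρN ρA S) ∧
      Nat.card (eqHom ρN ρA S) ≤ Nat.card (eqHom ρN ρA S') * Nat.card (eqHom ρN ρY ⊤) := by
  set Φ := pushHom ρN ρA S γ with hΦ
  -- the kernel injects into `eqHom S'`
  let ι : Φ.ker → eqHom ρN ρA S' := fun x =>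
    ⟨((x : eqHom ρN ρA S) : N →* A), mem_of_pushHom_eq_one hker (MonoidHom.mem_ker.mp x.2)⟩
  have hι : Function.Injective ι := fun x y h => by
    apply Subtype.ext
    apply Subtype.ext
    exact congrArg (fun z : eqHom ρN ρA S' => (z : N →* A)) h
  have hrange : Φ.range ≤ eqHom ρN ρY ⊤ := by
    rintro _ ⟨f, rfl⟩
    exact pushHom_mem hequiv f
  have : Finite Φ.ker := Finite.of_injective ι hι
  have : Finite Φ.range := Finite.of_injective (Subgroup.inclusion hrange)
    (Subgroup.inclusion_injective hrange)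
  have h1 : Nat.card Φ.ker * Nat.card Φ.range = Nat.card (eqHom ρN ρA S) := by
    rw [← Subgroup.index_ker, Subgroup.card_mul_index]
  have h2 : Nat.card Φ.ker ≤ Nat.card (eqHom ρN ρA S') := Nat.card_le_card_of_injective ι hι
  have h3 : Nat.card Φ.range ≤ Nat.card (eqHom ρN ρY ⊤) := Subgroup.card_le_of_le hrange
  have hfin : Finite (eqHom ρN ρA S) := by
    apply Nat.finite_of_card_ne_zero
    rw [← h1]
    exact Nat.mul_ne_zero Nat.card_pos.ne' Nat.card_pos.ne'
  exact ⟨hfin, h1 ▸ Nat.mul_le_mul h2 h3⟩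

/-- the step when the two levels coincide. -/
theorem finite_and_card_le_of_eq {S S' : Subgroup A} (h : S = S')
    [hS' : Finite (eqHom ρN ρA S')] :
    Finite (eqHom ρN ρA S) ∧
      Nat.card (eqHom ρN ρA S) ≤ Nat.card (eqHom ρN ρA S') * 1 := by
  subst h
  exact ⟨hS', by rw [mul_one]⟩

end Step

section Chain

variable {G N A : Type*} [Group N] [CommGroup A]
  {ρN : G → N → N} {ρA : G → A →* A}

/-- **The chain count**: if `#eqHom (S i) ≤ #eqHom (S (i+1)) * c i` for `a ≤ i < b` and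
`#eqHom (S b) ≤ 1`, then `#eqHom (S a) ≤ ∏_{a ≤ i < b} c i`. -/
theorem chain_card_le (S : ℕ → Subgroup A) (c : ℕ → ℕ) {a b : ℕ} (hab : a ≤ b)
    (hb : Finite (eqHom ρN ρA (S b)) ∧ Nat.card (eqHom ρN ρA (S b)) ≤ 1)
    (hstep : ∀ i, a ≤ i → i < b → Finite (eqHom ρN ρA (S (i + 1))) →
      Finite (eqHom ρN ρA (S i)) ∧
        Nat.card (eqHom ρN ρA (S i)) ≤ Nat.card (eqHom ρN ρA (S (i + 1))) * c i) :
    Finite (eqHom ρN ρA (S a)) ∧
      Nat.card (eqHom ρN ρA (S a)) ≤ ∏ i ∈ Finset.Ico a b, c i := by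
  obtain ⟨d, rfl⟩ := Nat.exists_eq_add_of_le hab
  clear hab
  induction d generalizing a with
  | zero =>
    rw [Nat.add_zero, Finset.Ico_self, Finset.prod_empty]
    exact hb
  | succ d ih =>
    have hb' : Finite (eqHom ρN ρA (S (a + 1 + d))) ∧
        Nat.card (eqHom ρN ρA (S (a + 1 + d))) ≤ 1 := by
      rw [show a + 1 + d = a + (d + 1) by omega]
      exact hb
    have hstep' : ∀ i, a + 1 ≤ i → i < a + 1 + d → Finite (eqHom ρN ρA (S (i + 1))) →
        Finite (eqHom ρN ρA (S i)) ∧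
          Nat.card (eqHom ρN ρA (S i)) ≤ Nat.card (eqHom ρN ρA (S (i + 1))) * c i :=
      fun i hi hi' => hstep i (by omega) (by omega)
    obtain ⟨hfin, hcard⟩ := ih hb' hstep'
    obtain ⟨hfin', hcard'⟩ := hstep a le_rfl (by omega) hfin
    refine ⟨hfin', ?_⟩
    rw [Finset.prod_eq_prod_Ico_succ_bot (by omega : a < a + (d + 1)), mul_comm,
      show a + (d + 1) = a + 1 + d by omega]
    exact le_trans hcard' (Nat.mul_le_mul_right _ hcard)

end Chain

end Fermat.Agent.S56x.Local.FiltrationCount
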