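import Mathlib
import Fermat.Agent.S56x.Local.DevissageBasic
import Fermat.Agent.S56x.Local.FiltrationCount

/-!
# P-S56, block (A) (helper48): the character-wise count (CW), abstract half

In helper50's formalism (`S56x/Local/DevissageBasic`): `Γ` a group, `k` a finite field of
characteristic `p`, `χ : Γ →* kˣ`, `𝒜 ≤ (Γ → k)` the admissible functions,
`H1A 𝒜 χ` = admissible cocycles modulo coboundaries.

DATA (an abstract "Kummer pairing"): a normal subgroup `ΓL ≤ Γ` of finite index prime to `p` on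
which `χ` is trivial; a commutative group `A` (think `Lˣ ⧸ (Lˣ)^p`) with operators
`ρA : Γ → A →* A`, a stable subgroup `S ≤ A` (think `W_b`), a function `ω : Γ → ZMod p`
(the cyclotomic character) and a pairing `pr : ΓL → A → ZMod p`
(`s (a^{1/p}) = ζ ^ (pr s a) · a^{1/p}`) such that
* `hmul`  : `pr s (a * b) = pr s a + pr s b`;
* `hconj` : `pr s (ρA g a) = ω g * pr (g⁻¹ s g) a`;
* `hinj`  : `a ∈ S`, `pr s a = 0` for all `s` implies `a = 1`;
* `hsurj` : for every admissible cocycle `u` and every additive `l : k →+ ZMod p` there is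
  `a ∈ S` with `pr s a = l (u s)` for all `s ∈ ΓL`  (boundedness ⇒ Kummer generator in `W_b`).

CONCLUSIONS, with `N := Multiplicative (k →+ ZMod p)` and
`twistN χ ω g l = (x ↦ ω g * l ((χ g)⁻¹ * x))`:
* `card_H1A_le`  : `#H1A 𝒜 χ ≤ #eqHom (twistN χ ω) ρA S` (and finiteness);
* `rank_H1A_le_one` : if the right side is `≤ #k` then `Module.rank k (H1A 𝒜 χ) ≤ 1`;
* `rank_H1A_eq_zero` : if it is `≤ 1` then the rank is `0`.
-/

set_option autoImplicit false
set_option linter.unusedSectionVars false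
set_option linter.style.haveILetI false

namespace Fermat.Agent.S56x.Local.CWAbstract

open Fermat.Agent.S56x.Local.Devissage Fermat.Agent.S56x.Local.FiltrationCount

universe u v w

/-! ### Cocycles vanishing on a subgroup of index prime to `p` are coboundaries -/

section Average

variable {Γ : Type u} [Group Γ] {k : Type v} [Field k]

theorem cocycle_one {χ : Γ →* kˣ} {u : Γ → k} (hu : u ∈ Z1 χ) : u 1 = 0 := by
  have h := hu 1 1
  rw [mul_one, map_one, Units.val_one, one_mul] at h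
  exact left_eq_add.mp h

theorem cocycle_inv {χ : Γ →* kˣ} {u : Γ → k} (hu : u ∈ Z1 χ) (g : Γ) :
    u g⁻¹ + ((χ g : k))⁻¹ * u g = 0 := by
  have h := hu g⁻¹ g
  rw [inv_mul_cancel, cocycle_one hu, map_inv, Units.val_inv_eq_inv_val] at h
  exact h.symm

/-- for `s` in the kernel of `χ`: `u (g⁻¹ s g) = χ(g)⁻¹ u(s)`. -/
theorem cocycle_conj {χ : Γ →* kˣ} {u : Γ → k} (hu : u ∈ Z1 χ) (g : Γ) {s : Γ}
    (hs : χ s = 1) : u (g⁻¹ * s * g) = ((χ g : k))⁻¹ * u s := by
  rw [hu (g⁻¹ * s) g, hu g⁻¹ s, map_mul, hs, mul_one, map_inv, Units.val_inv_eq_inv_val]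
  linear_combination cocycle_inv hu g

/-- **averaging**: a cocycle vanishing on a subgroup of finite index invertible in `k` is a
coboundary. -/
theorem mem_B1_of_restrict_eq_zero (χ : Γ →* kˣ) (ΓL : Subgroup Γ) [ΓL.FiniteIndex]
    (hidx : (ΓL.index : k) ≠ 0) {u : Γ → k} (hu : u ∈ Z1 χ) (hres : ∀ s ∈ ΓL, u s = 0) :
    u ∈ B1 χ := by
  classical
  haveI : Fintype (Γ ⧸ ΓL) := Subgroup.fintypeQuotientOfFiniteIndex
  let ubar : Γ ⧸ ΓL → k := Quotient.lift (s := QuotientGroup.leftRel ΓL) u (fun a b hab => by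
    have h1 : a⁻¹ * b ∈ ΓL := QuotientGroup.leftRel_apply.mp hab
    have h2 : b = a * (a⁻¹ * b) := by group
    rw [h2, hu, hres _ h1, mul_zero, add_zero])
  have hubar : ∀ g : Γ, ubar (g : Γ ⧸ ΓL) = u g := fun g => rfl
  set T : k := ∑ x : Γ ⧸ ΓL, ubar x with hT
  have hcard : (Fintype.card (Γ ⧸ ΓL) : k) = (ΓL.index : k) := by
    rw [Subgroup.index_eq_card, Nat.card_eq_fintype_card]
  have key : ∀ h : Γ, T = (ΓL.index : k) * u h + (χ h : k) * T := by
    intro h
    calc T = ∑ x : Γ ⧸ ΓL, ubar (h • x) := (Equiv.sum_comp (MulAction.toPerm h) ubar).symm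
      _ = ∑ x : Γ ⧸ ΓL, (u h + (χ h : k) * ubar x) := by
          refine Finset.sum_congr rfl fun x _ => ?_
          induction x using QuotientGroup.induction_on with
          | H g => rw [MulAction.Quotient.smul_mk, hubar, hubar, smul_eq_mul, hu]
      _ = (ΓL.index : k) * u h + (χ h : k) * T := by
          rw [Finset.sum_add_distrib, Finset.sum_const, Finset.card_univ, ← Finset.mul_sum,
            nsmul_eq_mul, hcard]
  refine mem_B1.mpr ⟨-((ΓL.index : k)⁻¹ * T), ?_⟩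
  funext g
  rw [cob_apply]
  have h1 := key g
  field_simp
  linear_combination h1

end Average

/-! ### Size and rank over a finite field -/

section Rank

variable {k : Type v} [Field k] [Finite k] {W : Type w} [AddCommGroup W] [Module k W]

theorem rank_le_one_of_card_le [Finite W] (h : Nat.card W ≤ Nat.card k) :
    Module.rank k W ≤ 1 := by
  haveI : Module.Finite k W := Module.Finite.of_finite
  have hk : 1 < Nat.card k := Finite.one_lt_card
  have h1 : Nat.card W = Nat.card k ^ Module.finrank k W := Module.natCard_eq_pow_finrank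
  rw [h1] at h
  have h2 : Module.finrank k W ≤ 1 := by
    by_contra hn
    have h3 : Nat.card k ^ 1 < Nat.card k ^ Module.finrank k W :=
      Nat.pow_lt_pow_right hk (by omega)
    rw [pow_one] at h3
    omega
  rw [← Module.finrank_eq_rank]
  exact_mod_cast h2

theorem rank_eq_zero_of_card_le_one [Finite W] (h : Nat.card W ≤ 1) :
    Module.rank k W = 0 := by
  haveI : Subsingleton W := (Finite.card_le_one_iff_subsingleton.mp h)
  exact rank_subsingleton' k W

end Rank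

/-! ### The Kummer map -/

section Kummer

variable {Γ : Type u} [Group Γ] {k : Type v} [Field k] {p : ℕ}

/-- the twisted operators on `N = Multiplicative (k →+ ZMod p)`:
`(g · l) x = ω g * l ((χ g)⁻¹ * x)`. -/
def twistN (χ : Γ →* kˣ) (ω : Γ → ZMod p) (g : Γ) (l : Multiplicative (k →+ ZMod p)) :
    Multiplicative (k →+ ZMod p) :=
  Multiplicative.ofAdd ((AddMonoidHom.mulLeft (ω g)).comp
    ((Multiplicative.toAdd l).comp (AddMonoidHom.mulLeft (((χ g : k))⁻¹))))

theorem twistN_apply (χ : Γ →* kˣ) (ω : Γ → ZMod p) (g : Γ) (l : Multiplicative (k →+ ZMod p))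
    (x : k) : Multiplicative.toAdd (twistN χ ω g l) x
      = ω g * Multiplicative.toAdd l (((χ g : k))⁻¹ * x) := rfl

/-- additive functionals `k →+ ZMod p` separate the points of a field of characteristic `p`. -/
theorem eq_zero_of_forall_functional [Fact p.Prime] [CharP k p] {x : k}
    (h : ∀ l : k →+ ZMod p, l x = 0) : x = 0 := by
  letI : Algebra (ZMod p) k := ZMod.algebra k p
  rw [← Module.forall_dual_apply_eq_zero_iff (ZMod p)]
  intro f
  exact h f.toAddMonoidHom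

variable [Fact p.Prime] [CharP k p]
  (𝒜 : Subalgebra k (Γ → k)) (χ : Γ →* kˣ)
  (ΓL : Subgroup Γ) [hnorm : ΓL.Normal] [ΓL.FiniteIndex]
  {A : Type w} [CommGroup A] (ρA : Γ → A →* A) (S : Subgroup A)
  (ω : Γ → ZMod p) (pr : ΓL → A → ZMod p)

/-- conjugation `s ↦ g⁻¹ s g` on the normal subgroup `ΓL`. -/
def conjL (g : Γ) (s : ΓL) : ΓL :=
  ⟨g⁻¹ * s * g, by
    have := hnorm.conj_mem s s.2 g⁻¹
    rwa [inv_inv] at this⟩

omit [Fact (Nat.Prime p)] [CharP k p] [ΓL.FiniteIndex] in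
theorem coe_conjL (g : Γ) (s : ΓL) : ((conjL ΓL g s : ΓL) : Γ) = g⁻¹ * s * g := rfl

/-- the hypotheses on the pairing, bundled as a proposition. -/
def IsKummerPairing : Prop :=
  (∀ s ∈ ΓL, χ s = 1) ∧
  (∀ s a b, pr s (a * b) = pr s a + pr s b) ∧
  (∀ g (s : ΓL) a, pr s (ρA g a) = ω g * pr (conjL ΓL g s) a) ∧
  (∀ g a, a ∈ S → ρA g a ∈ S) ∧
  (∀ a ∈ S, (∀ s, pr s a = 0) → a = 1) ∧
  (∀ u ∈ Z1A 𝒜 χ, ∀ l : k →+ ZMod p, ∃ a ∈ S, ∀ s : ΓL, pr s a = l (u s))

variable {𝒜 χ ΓL ρA S ω pr}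

section Basic

variable (hP : IsKummerPairing 𝒜 χ ΓL ρA S ω pr)
include hP

theorem pr_one (s : ΓL) : pr s 1 = 0 := by
  have h := hP.2.1 s 1 1
  rw [mul_one] at h
  exact left_eq_add.mp h

theorem pr_inv (s : ΓL) (a : A) : pr s a⁻¹ = - pr s a := by
  have h := hP.2.1 s a a⁻¹
  rw [mul_inv_cancel, pr_one hP] at h
  exact eq_neg_of_add_eq_zero_right h.symm

/-- uniqueness of the Kummer generator in `S`. -/
theorem eq_of_pr_eq {a b : A} (ha : a ∈ S) (hb : b ∈ S) (h : ∀ s, pr s a = pr s b) : a = b := by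
  have h1 : a * b⁻¹ = 1 := by
    refine hP.2.2.2.2.1 _ (S.mul_mem ha (S.inv_mem hb)) (fun s => ?_)
    rw [hP.2.1, pr_inv hP, h s, add_neg_cancel]
  exact mul_inv_eq_one.mp h1

end Basic

/-- the Kummer generator of `l ∘ u` on `ΓL`. -/
noncomputable def gen (hP : IsKummerPairing 𝒜 χ ΓL ρA S ω pr) (u : Z1A 𝒜 χ)
    (l : k →+ ZMod p) : A :=
  (hP.2.2.2.2.2 u u.2 l).choose

theorem gen_mem (hP : IsKummerPairing 𝒜 χ ΓL ρA S ω pr) (u : Z1A 𝒜 χ) (l : k →+ ZMod p) :
    gen hP u l ∈ S := (hP.2.2.2.2.2 u u.2 l).choose_spec.1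

theorem pr_gen (hP : IsKummerPairing 𝒜 χ ΓL ρA S ω pr) (u : Z1A 𝒜 χ) (l : k →+ ZMod p)
    (s : ΓL) : pr s (gen hP u l) = l ((u : Γ → k) s) := (hP.2.2.2.2.2 u u.2 l).choose_spec.2 s

/-- **the Kummer map** `u ↦ (l ↦ a_{l,u})`, an equivariant hom `N →* A` with values in `S`. -/
noncomputable def kum (hP : IsKummerPairing 𝒜 χ ΓL ρA S ω pr) (u : Z1A 𝒜 χ) :
    eqHom (twistN χ ω) ρA S :=
  ⟨{ toFun := fun l => gen hP u (Multiplicative.toAdd l)
     map_one' := by
       refine eq_of_pr_eq hP (gen_mem hP u _) S.one_mem (fun s => ?_)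
       rw [pr_gen hP, pr_one hP]
       rfl
     map_mul' := fun l l' => by
       refine eq_of_pr_eq hP (gen_mem hP u _) (S.mul_mem (gen_mem hP u _) (gen_mem hP u _))
         (fun s => ?_)
       rw [hP.2.1, pr_gen hP, pr_gen hP, pr_gen hP]
       rfl },
   fun l => gen_mem hP u _,
   fun g l => by
     refine eq_of_pr_eq hP (gen_mem hP u _) (hP.2.2.2.1 g _ (gen_mem hP u _)) (fun s => ?_)
     show pr s (gen hP u (Multiplicative.toAdd (twistN χ ω g l)))
       = pr s (ρA g (gen hP u (Multiplicative.toAdd l)))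
     rw [hP.2.2.1, pr_gen hP, pr_gen hP, twistN_apply, coe_conjL,
       cocycle_conj ((mem_Z1A 𝒜).mp u.2).1 g (hP.1 s s.2)]⟩

theorem kum_apply (hP : IsKummerPairing 𝒜 χ ΓL ρA S ω pr) (u : Z1A 𝒜 χ)
    (l : Multiplicative (k →+ ZMod p)) :
    ((kum hP u : eqHom (twistN χ ω) ρA S) : Multiplicative (k →+ ZMod p) →* A) l
      = gen hP u (Multiplicative.toAdd l) := rfl

/-- the Kummer map detects coboundaries. -/
theorem sub_mem_B1_of_kum_eq (hP : IsKummerPairing 𝒜 χ ΓL ρA S ω pr)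
    (hidx : ¬ p ∣ ΓL.index) {u u' : Z1A 𝒜 χ} (h : kum hP u = kum hP u') :
    ((u : Γ → k) - (u' : Γ → k)) ∈ B1 χ := by
  have hZ : ((u : Γ → k) - (u' : Γ → k)) ∈ Z1 χ :=
    (Z1 χ).sub_mem ((mem_Z1A 𝒜).mp u.2).1 ((mem_Z1A 𝒜).mp u'.2).1
  have hidx' : (ΓL.index : k) ≠ 0 := by
    rw [Ne, CharP.cast_eq_zero_iff k p]
    exact hidx
  refine mem_B1_of_restrict_eq_zero χ ΓL hidx' hZ (fun s hs => ?_)
  rw [Pi.sub_apply, sub_eq_zero]
  refine sub_eq_zero.mp (eq_zero_of_forall_functional (p := p) (fun l => ?_))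
  rw [map_sub, sub_eq_zero]
  have h1 := pr_gen hP u l ⟨s, hs⟩
  have h2 := pr_gen hP u' l ⟨s, hs⟩
  have h3 : gen hP u l = gen hP u' l := by
    have := congrArg (fun f : eqHom (twistN χ ω) ρA S =>
      (f : Multiplicative (k →+ ZMod p) →* A) (Multiplicative.ofAdd l)) h
    exact this
  rw [← h1, ← h2, h3]

/-- a choice of admissible cocycle representing a class in `H1A`. -/
noncomputable def repr (x : H1A 𝒜 χ) : Z1A 𝒜 χ :=
  ⟨(Submodule.mem_map.mp x.2).choose, (Submodule.mem_map.mp x.2).choose_spec.1⟩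

theorem mkQ_repr (x : H1A 𝒜 χ) : (B1 χ).mkQ ((repr x : Z1A 𝒜 χ) : Γ → k) = x :=
  (Submodule.mem_map.mp x.2).choose_spec.2

/-- **the injection `H1A 𝒜 χ ↪ eqHom N S`.** -/
theorem kum_repr_injective (hP : IsKummerPairing 𝒜 χ ΓL ρA S ω pr) (hidx : ¬ p ∣ ΓL.index) :
    Function.Injective (fun x : H1A 𝒜 χ => kum hP (repr x)) := by
  intro x y hxy
  have h := sub_mem_B1_of_kum_eq hP hidx hxy
  apply Subtype.ext
  rw [← mkQ_repr x, ← mkQ_repr y, ← sub_eq_zero, ← map_sub, Submodule.mkQ_apply,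
    Submodule.Quotient.mk_eq_zero]
  exact h

variable [Finite k]

theorem finite_H1A (hP : IsKummerPairing 𝒜 χ ΓL ρA S ω pr) (hidx : ¬ p ∣ ΓL.index)
    [Finite (eqHom (twistN χ ω) ρA S)] : Finite (H1A 𝒜 χ) :=
  Finite.of_injective _ (kum_repr_injective hP hidx)

/-- **(CW), cardinality form.** -/
theorem card_H1A_le (hP : IsKummerPairing 𝒜 χ ΓL ρA S ω pr) (hidx : ¬ p ∣ ΓL.index)
    [Finite (eqHom (twistN χ ω) ρA S)] :
    Nat.card (H1A 𝒜 χ) ≤ Nat.card (eqHom (twistN χ ω) ρA S) :=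
  Nat.card_le_card_of_injective _ (kum_repr_injective hP hidx)

/-- **(CW1)**: if there are at most `#k` equivariant homs `N → S`, the admissible `H¹(k(χ))` has
rank `≤ 1`. -/
theorem rank_H1A_le_one (hP : IsKummerPairing 𝒜 χ ΓL ρA S ω pr) (hidx : ¬ p ∣ ΓL.index)
    [Finite (eqHom (twistN χ ω) ρA S)]
    (hcount : Nat.card (eqHom (twistN χ ω) ρA S) ≤ Nat.card k) :
    Module.rank k (H1A 𝒜 χ) ≤ 1 := by
  haveI := finite_H1A hP hidx
  exact rank_le_one_of_card_le (le_trans (card_H1A_le hP hidx) hcount)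

/-- **(CW0)**: if the only equivariant hom `N → S` is trivial, the admissible `H¹(k(χ))`
vanishes. -/
theorem rank_H1A_eq_zero (hP : IsKummerPairing 𝒜 χ ΓL ρA S ω pr) (hidx : ¬ p ∣ ΓL.index)
    [Finite (eqHom (twistN χ ω) ρA S)]
    (hcount : Nat.card (eqHom (twistN χ ω) ρA S) ≤ 1) :
    Module.rank k (H1A 𝒜 χ) = 0 := by
  haveI := finite_H1A hP hidx
  exact rank_eq_zero_of_card_le_one (le_trans (card_H1A_le hP hidx) hcount)

end Kummer

end Fermat.Agent.S56x.Local.CWAbstract
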