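import Mathlib
import Fermat.Agent.S56x.Local.CWAbstract

/-!
# P-S56, block (A) (helper48): elementary counts of equivariant homs out of `N = k^∨(ω χ⁻¹)`

`N = Multiplicative (k →+ ZMod p)` with the operators `twistN χ ω` of `S56x/Local/CWAbstract`.

* `eq_one_of_shift` : an equivariant hom `h` with `h (λ ∘ (a * ·)) = h λ` for one `a ≠ 1` is trivial;
* `card_eqHom_le_one_of_inert` (**HD2'**): if some `g₀` acts trivially on the target and
  `(ω g₀ : k) ≠ χ g₀`, the only equivariant hom is trivial;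
* `card_addHom_zmod`, `card_dual_dual` : `#(M →+ ZMod p) = #M`;
* `card_eqHom_omega_le` : `#Hom_Γ(N, 𝔽_p(ω)) ≤ #k`;
* `card_eqHom_omega_le_one` : `#Hom_Γ(N, 𝔽_p(ω)) ≤ 1` if `χ ≠ 1`.
-/

set_option autoImplicit false
set_option linter.unusedSectionVars false
set_option linter.style.haveILetI false

namespace Fermat.Agent.S56x.Local.HomCountBasic

open Fermat.Agent.S56x.Local.FiltrationCount Fermat.Agent.S56x.Local.CWAbstract

universe u v w

section Shift

variable {k : Type v} [Field k] {p : ℕ}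

/-- precomposition of an additive functional with multiplication by `a`. -/
def shift (a : k) (l : k →+ ZMod p) : k →+ ZMod p := l.comp (AddMonoidHom.mulLeft a)

@[simp] theorem shift_apply (a : k) (l : k →+ ZMod p) (x : k) : shift a l x = l (a * x) := rfl

theorem shift_shift (a b : k) (l : k →+ ZMod p) : shift a (shift b l) = shift (b * a) l := by
  ext x
  simp [mul_assoc]

theorem shift_one (l : k →+ ZMod p) : shift (1 : k) l = l := by
  ext x
  simp

theorem shift_sub (a b : k) (l : k →+ ZMod p) : shift (a - b) l = shift a l - shift b l := by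
  ext x
  simp [sub_mul]

/-- functionals are `ZMod p`-linear: `c * l x = l ((c.val : k) * x)`. -/
theorem zmod_mul_apply [Fact p.Prime] (c : ZMod p) (l : k →+ ZMod p) (x : k) :
    c * l x = l (((c.val : ℕ) : k) * x) := by
  have h1 : ((c.val : ℕ) : k) * x = c.val • x := by rw [nsmul_eq_mul]
  rw [h1, map_nsmul, nsmul_eq_mul, ZMod.natCast_zmod_val]

end Shift

section Vanish

variable {Γ : Type u} [Group Γ] {k : Type v} [Field k] {p : ℕ} [Fact p.Prime]
  {Y : Type w} [CommGroup Y]

/-- a hom `h : N →* Y` invariant under the shift by some `a ≠ 1` is trivial. -/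
theorem eq_one_of_shift (h : Multiplicative (k →+ ZMod p) →* Y) {a : k} (ha : a ≠ 1)
    (hinv : ∀ l : k →+ ZMod p, h (Multiplicative.ofAdd (shift a l)) = h (Multiplicative.ofAdd l)) :
    h = 1 := by
  have hne : a - 1 ≠ 0 := sub_ne_zero.mpr ha
  have h1 : ∀ l : k →+ ZMod p, h (Multiplicative.ofAdd (shift (a - 1) l)) = 1 := by
    intro l
    rw [shift_sub, shift_one, sub_eq_add_neg, ofAdd_add, ofAdd_neg, map_mul, map_inv, hinv,
      mul_inv_cancel]
  ext l
  have h2 := h1 (shift (a - 1)⁻¹ (Multiplicative.toAdd l))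
  rw [shift_shift, inv_mul_cancel₀ hne, shift_one] at h2
  exact h2

variable (χ : Γ →* kˣ) (ω : Γ → ZMod p) (ρY : Γ → Y →* Y)

/-- `twistN χ ω g` is the shift by `(ω g : k) * (χ g)⁻¹`. -/
theorem twistN_eq_shift (g : Γ) (l : Multiplicative (k →+ ZMod p)) :
    twistN χ ω g l = Multiplicative.ofAdd
      (shift ((((ω g).val : ℕ) : k) * ((χ g : k))⁻¹) (Multiplicative.toAdd l)) := by
  apply Multiplicative.toAdd.injective
  ext x
  rw [twistN_apply, toAdd_ofAdd, shift_apply, zmod_mul_apply, mul_assoc]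

/-- **(HD2')** if some `g₀` acts trivially on the target and `(ω g₀ : k) ≠ χ g₀`, every
equivariant hom `N → Y` is trivial. -/
theorem eqHom_eq_bot_of_inert {g₀ : Γ} (hg₀ : ∀ y, ρY g₀ y = y)
    (hne : (((ω g₀).val : ℕ) : k) ≠ (χ g₀ : k)) :
    eqHom (twistN χ ω) ρY ⊤ = ⊥ := by
  rw [eq_bot_iff]
  intro h hh
  rw [Subgroup.mem_bot]
  refine eq_one_of_shift h (a := (((ω g₀).val : ℕ) : k) * ((χ g₀ : k))⁻¹) ?_ (fun l => ?_)
  · intro h1
    apply hne
    have hχ : (χ g₀ : k) ≠ 0 := (χ g₀).ne_zero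
    field_simp at h1
    exact h1
  · have := hh.2 g₀ (Multiplicative.ofAdd l)
    rw [hg₀, twistN_eq_shift] at this
    exact this

theorem card_eqHom_le_one_of_inert {g₀ : Γ} (hg₀ : ∀ y, ρY g₀ y = y)
    (hne : (((ω g₀).val : ℕ) : k) ≠ (χ g₀ : k)) :
    Finite (eqHom (twistN χ ω) ρY ⊤) ∧ Nat.card (eqHom (twistN χ ω) ρY ⊤) ≤ 1 := by
  rw [eqHom_eq_bot_of_inert χ ω ρY hg₀ hne]
  exact ⟨inferInstance, Subgroup.card_bot.le⟩

end Vanish

/-! ### The size of a dual -/

section Dual

variable {p : ℕ} [Fact p.Prime]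

/-- a finite `ZMod p`-vector space and its dual have the same size. -/
theorem card_addHom_zmod (M : Type*) [AddCommGroup M] [Module (ZMod p) M] [Finite M] :
    Nat.card (M →+ ZMod p) = Nat.card M := by
  haveI : Module.Finite (ZMod p) M := Module.Finite.of_finite
  have e : (M →+ ZMod p) ≃ Module.Dual (ZMod p) M :=
    { toFun := fun f => AddMonoidHom.toZModLinearMap p f
      invFun := fun f => f.toAddMonoidHom
      left_inv := fun f => by ext x; rfl
      right_inv := fun f => by ext x; rfl }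
  rw [Nat.card_congr e, Module.natCard_eq_pow_finrank (K := ZMod p) (V := Module.Dual (ZMod p) M),
    Subspace.dual_finrank_eq, ← Module.natCard_eq_pow_finrank]

end Dual

section Omega

variable {Γ : Type u} [Group Γ] {k : Type v} [Field k] [Finite k] {p : ℕ} [Fact p.Prime]
  [CharP k p]
  (χ : Γ →* kˣ) (ω : Γ → ZMod p)
  (ρY : Γ → Multiplicative (ZMod p) →* Multiplicative (ZMod p))

/-- `#(N →* Multiplicative (ZMod p)) = #k`. -/
theorem card_hom_N : Nat.card (Multiplicative (k →+ ZMod p) →* Multiplicative (ZMod p))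
    = Nat.card k := by
  letI : Algebra (ZMod p) k := ZMod.algebra k p
  have e : (Multiplicative (k →+ ZMod p) →* Multiplicative (ZMod p)) ≃
      ((k →+ ZMod p) →+ ZMod p) := AddMonoidHom.toMultiplicative.symm
  haveI : Finite (k →+ ZMod p) :=
    Finite.of_injective (fun f : k →+ ZMod p => (f : k → ZMod p)) DFunLike.coe_injective
  rw [Nat.card_congr e, card_addHom_zmod, card_addHom_zmod]

/-- `#Hom_Γ(N, 𝔽_p(ω)) ≤ #k` (any operators on the target). -/
theorem card_eqHom_omega_le :
    Finite (eqHom (twistN χ ω) ρY ⊤) ∧ Nat.card (eqHom (twistN χ ω) ρY ⊤) ≤ Nat.card k := by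
  haveI : Finite (Multiplicative (k →+ ZMod p) →* Multiplicative (ZMod p)) :=
    Nat.finite_of_card_ne_zero (by rw [card_hom_N]; exact Nat.card_pos.ne')
  refine ⟨inferInstance, ?_⟩
  rw [← card_hom_N (k := k) (p := p)]
  exact Subgroup.card_le_card_group _

/-- `#Hom_Γ(N, 𝔽_p(ω)) ≤ 1` if `χ ≠ 1`: here the target operators are `y ↦ ω g • y`. -/
theorem card_eqHom_omega_le_one
    (hρY : ∀ g y, Multiplicative.toAdd (ρY g y) = ω g * Multiplicative.toAdd y)
    {g₀ : Γ} (hω : ω g₀ ≠ 0) (hχ : χ g₀ ≠ 1) :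
    Finite (eqHom (twistN χ ω) ρY ⊤) ∧ Nat.card (eqHom (twistN χ ω) ρY ⊤) ≤ 1 := by
  have hbot : eqHom (twistN χ ω) ρY ⊤ = ⊥ := by
    rw [eq_bot_iff]
    intro h hh
    rw [Subgroup.mem_bot]
    have hχ' : ((χ g₀ : k))⁻¹ ≠ 1 := by
      intro h1
      apply hχ
      apply Units.ext
      rw [Units.val_one]
      exact inv_eq_one.mp h1
    refine eq_one_of_shift h hχ' (fun l => ?_)
    have h1 := hh.2 g₀ (Multiplicative.ofAdd l)
    -- additive form of the equivariance
    have h2 : twistN χ ω g₀ (Multiplicative.ofAdd l)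
        = Multiplicative.ofAdd ((ω g₀).val • shift ((χ g₀ : k))⁻¹ l) := by
      apply Multiplicative.toAdd.injective
      ext x
      rw [twistN_apply, toAdd_ofAdd, toAdd_ofAdd, AddMonoidHom.smul_apply, shift_apply,
        nsmul_eq_mul, ZMod.natCast_zmod_val]
    rw [h2, ofAdd_nsmul, map_pow] at h1
    have h3 := congrArg Multiplicative.toAdd h1
    rw [hρY, toAdd_pow, nsmul_eq_mul, ZMod.natCast_zmod_val] at h3
    have h4 := mul_left_cancel₀ hω h3
    exact Multiplicative.toAdd.injective h4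
  rw [hbot]
  exact ⟨inferInstance, Subgroup.card_bot.le⟩

end Omega

end Fermat.Agent.S56x.Local.HomCountBasic
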