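import Mathlib
import Fermat.Agent.Lib.CFT.Local.UnitsFiltration

/-!
# P-S56, block (A), helper file for LOC-2 (helper47): the unit filtration of a DVR and `p`-th powers

`B` a discrete valuation ring with uniformiser `ϖ`, `p` a prime with `p = c₀ ϖ^e` (`c₀` a unit,
`e ≥ 1`), `U^(i) = principalUnits B i` and `gr_i = gradedResidueHom hϖ i : U^(i) → k`
(`Lib/CFT/Local/UnitsFiltration`, import-only).

* `one_add_pow_prime` : `(1 + t)^p = 1 + t^p + p t (1 + t r)`;
* `pow_prime_mem` : `u ∈ U^(i) ⇒ u^p ∈ U^(j)` for `j ≤ min (p i, i + e)`;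
* `graded_pow_prime` : `gr_j (u^p) = [j = p i] (gr_i u)^p + [j = i + e] c̄₀ (gr_i u)`;
  corollaries `graded_pow_prime_low` (`i (p-1) < e`), `_high` (`i (p-1) > e`), `_crit`;
* `exists_exact_level` : every `w ≠ 1` in `U^(1)` has an exact level;
* `pow_prime_mem_succ` : **no `p`-th powers at levels prime to `p` below the top**: for
  `1 ≤ j`, `p ∤ j`, `j (p - 1) < e p`: `w^p ∈ U^(j) ⇒ w^p ∈ U^(j+1)`;
* `exists_pow_prime_approx_low` : for a perfect residue field and `i (p-1) < e`: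
  `U^(p i) ⊆ U^(p i + 1) (U^(i))^p`;
* `exists_pow_prime_approx_high` : for `i (p-1) > e`: `U^(i+e) ⊆ U^(i+e+1) (U^(i))^p`;
* `graded_map` : Galois equivariance, `gr_i (σ u) = (residue c)^i σ̄ (gr_i u)` if `σ ϖ = c ϖ`.
-/

set_option autoImplicit false
set_option linter.unusedSectionVars false
set_option linter.style.haveILetI false

open IsLocalRing Finset

namespace Fermat.Agent.S56x.Local.UnitPow

open Fermat.Agent.Lib.CFT.Local.UnitsFiltration

section Binomial

variable {R : Type*} [CommRing R]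

/-- `(1 + t)^p = 1 + t^p + p t (1 + t r)`. -/
theorem one_add_pow_prime {p : ℕ} (hp : p.Prime) (t : R) :
    ∃ r : R, (1 + t) ^ p = 1 + t ^ p + p * t * (1 + t * r) := by
  have h := add_pow_prime_eq hp t 1
  have h1 : (1 : ℕ) ∈ Finset.Ioo 0 p := Finset.mem_Ioo.2 ⟨Nat.zero_lt_one, hp.one_lt⟩
  rw [← Finset.add_sum_erase _ _ h1] at h
  have h2 : p.choose 1 / p = 1 := by rw [Nat.choose_one_right, Nat.div_self hp.pos]
  refine ⟨∑ k ∈ (Finset.Ioo 0 p).erase 1, t ^ (k - 2) * ((p.choose k / p : ℕ) : R), ?_⟩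
  have h3 : ∑ k ∈ (Finset.Ioo 0 p).erase 1,
      t ^ (k - 1) * 1 ^ (p - k - 1) * ((p.choose k / p : ℕ) : R) =
      t * ∑ k ∈ (Finset.Ioo 0 p).erase 1, t ^ (k - 2) * ((p.choose k / p : ℕ) : R) := by
    rw [Finset.mul_sum]
    refine Finset.sum_congr rfl fun k hk => ?_
    have hk1 : k ≠ 1 := Finset.ne_of_mem_erase hk
    have hk0 : 0 < k := (Finset.mem_Ioo.1 (Finset.mem_of_mem_erase hk)).1
    have : k - 1 = (k - 2) + 1 := by omega
    rw [this, pow_succ, one_pow]
    ring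
  rw [h3, h2] at h
  rw [add_comm 1 t, h]
  simp only [Nat.sub_self, pow_zero, one_pow, Nat.cast_one, mul_one]
  ring

end Binomial

section DVR

variable {B : Type*} [CommRing B] [IsDomain B] [IsDiscreteValuationRing B]
  {ϖ : B} (hϖ : Irreducible ϖ) {p : ℕ} (hp : p.Prime) {c₀ : Bˣ} {e : ℕ}
  (hpe : (p : B) = c₀ * ϖ ^ e)

include hp hpe in
/-- the expansion of `(1 + ϖ^i x)^p`. -/
theorem one_add_pow_mul_pow_prime (i : ℕ) (x : B) :
    ∃ r : B, (1 + ϖ ^ i * x) ^ p =
      1 + ϖ ^ (p * i) * x ^ p + ϖ ^ (i + e) * (c₀ * x * (1 + ϖ ^ i * x * r)) := by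
  obtain ⟨r, hr⟩ := one_add_pow_prime hp (ϖ ^ i * x)
  refine ⟨r, ?_⟩
  rw [hr, hpe, mul_pow, ← pow_mul, mul_comm i p, pow_add]
  ring

include hϖ in
theorem residue_pow_uniformizer (m : ℕ) :
    residue B (ϖ ^ m) = if m = 0 then 1 else 0 := by
  split_ifs with h
  · rw [h, pow_zero, map_one]
  · rw [map_pow, (residue_eq_zero_iff ϖ).2, zero_pow h]
    rw [hϖ.maximalIdeal_eq]
    exact Ideal.mem_span_singleton_self ϖ

include hp hpe in
/-- **`p`-th powers and the filtration, general form.** -/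
theorem graded_pow_prime {i j : ℕ} (hi : 1 ≤ i) (hj : 1 ≤ j) (hj1 : j ≤ p * i) (hj2 : j ≤ i + e)
    {u : Bˣ} (hu : u ∈ principalUnits B i) :
    ∃ hmem : u ^ p ∈ principalUnits B j,
      Multiplicative.toAdd (gradedResidueHom hϖ j hj ⟨u ^ p, hmem⟩) =
        (if j = p * i then
            (Multiplicative.toAdd (gradedResidueHom hϖ i hi ⟨u, hu⟩)) ^ p else 0) +
          (if j = i + e then
            residue B c₀ * Multiplicative.toAdd (gradedResidueHom hϖ i hi ⟨u, hu⟩) else 0) := by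
  obtain ⟨x, hx⟩ := exists_eq_one_add_pow_mul hϖ hu
  obtain ⟨r, hr⟩ := one_add_pow_mul_pow_prime hp hpe i x
  have key : ((u ^ p : Bˣ) : B) = 1 + ϖ ^ j *
      (ϖ ^ (p * i - j) * x ^ p + ϖ ^ (i + e - j) * (c₀ * x * (1 + ϖ ^ i * x * r))) := by
    push_cast
    rw [hx, hr]
    have e1 : ϖ ^ (p * i) = ϖ ^ j * ϖ ^ (p * i - j) := by
      rw [← pow_add, Nat.add_sub_cancel' hj1]
    have e2 : ϖ ^ (i + e) = ϖ ^ j * ϖ ^ (i + e - j) := by
      rw [← pow_add, Nat.add_sub_cancel' hj2]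
    rw [e1, e2]
    ring
  have hmem : u ^ p ∈ principalUnits B j := by
    rw [mem_principalUnits_iff, key, add_sub_cancel_left]
    exact pow_mul_mem_maximalIdeal_pow hϖ j _
  refine ⟨hmem, ?_⟩
  rw [gradedResidueHom_apply_of_eq hϖ j hj ⟨u ^ p, hmem⟩ key,
    gradedResidueHom_apply_of_eq hϖ i hi ⟨u, hu⟩ hx, toAdd_ofAdd, toAdd_ofAdd]
  have hi0 : i ≠ 0 := by omega
  simp only [map_add, map_mul, map_pow, map_one, residue_pow_uniformizer hϖ]
  have h1 : (p * i - j = 0) ↔ j = p * i := by omega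
  have h2 : (i + e - j = 0) ↔ j = i + e := by omega
  simp only [h1, h2, hi0, if_false, zero_mul, add_zero, mul_one]
  split_ifs <;> ring

include hϖ hp hpe in
theorem pow_prime_mem {i j : ℕ} (hi : 1 ≤ i) (hj1 : j ≤ p * i) (hj2 : j ≤ i + e)
    {u : Bˣ} (hu : u ∈ principalUnits B i) : u ^ p ∈ principalUnits B j := by
  rcases Nat.eq_zero_or_pos j with rfl | hj
  · rw [principalUnits_zero]; exact Subgroup.mem_top _
  · exact (graded_pow_prime hϖ hp hpe hi hj hj1 hj2 hu).1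

include hp hpe in
/-- below the critical level: `gr_{p i} (u^p) = (gr_i u)^p`. -/
theorem graded_pow_prime_low {i : ℕ} (hi : 1 ≤ i) (hlow : p * i < i + e)
    {u : Bˣ} (hu : u ∈ principalUnits B i) :
    ∃ hmem : u ^ p ∈ principalUnits B (p * i),
      Multiplicative.toAdd (gradedResidueHom hϖ (p * i)
        (by have := hp.pos; nlinarith) ⟨u ^ p, hmem⟩) =
        (Multiplicative.toAdd (gradedResidueHom hϖ i hi ⟨u, hu⟩)) ^ p := by
  have hj : 1 ≤ p * i := by have := hp.pos; nlinarith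
  obtain ⟨hmem, h⟩ := graded_pow_prime hϖ hp hpe hi hj le_rfl hlow.le hu
  refine ⟨hmem, ?_⟩
  rw [h, if_pos rfl, if_neg hlow.ne, add_zero]

include hp hpe in
/-- above the critical level: `gr_{i + e} (u^p) = c̄₀ (gr_i u)`. -/
theorem graded_pow_prime_high {i : ℕ} (hi : 1 ≤ i) (hhigh : i + e < p * i)
    {u : Bˣ} (hu : u ∈ principalUnits B i) :
    ∃ hmem : u ^ p ∈ principalUnits B (i + e),
      Multiplicative.toAdd (gradedResidueHom hϖ (i + e) (by omega) ⟨u ^ p, hmem⟩) =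
        residue B c₀ * Multiplicative.toAdd (gradedResidueHom hϖ i hi ⟨u, hu⟩) := by
  obtain ⟨hmem, h⟩ := graded_pow_prime hϖ hp hpe hi (by omega : 1 ≤ i + e) hhigh.le le_rfl hu
  refine ⟨hmem, ?_⟩
  rw [h, if_neg hhigh.ne, if_pos rfl, zero_add]

include hp hpe in
/-- at the critical level `p i = i + e`: `gr_{p i} (u^p) = (gr_i u)^p + c̄₀ (gr_i u)`. -/
theorem graded_pow_prime_crit {i : ℕ} (hi : 1 ≤ i) (hcrit : p * i = i + e)
    {u : Bˣ} (hu : u ∈ principalUnits B i) :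
    ∃ hmem : u ^ p ∈ principalUnits B (p * i),
      Multiplicative.toAdd (gradedResidueHom hϖ (p * i)
        (by have := hp.pos; nlinarith) ⟨u ^ p, hmem⟩) =
        (Multiplicative.toAdd (gradedResidueHom hϖ i hi ⟨u, hu⟩)) ^ p +
          residue B c₀ * Multiplicative.toAdd (gradedResidueHom hϖ i hi ⟨u, hu⟩) := by
  have hj : 1 ≤ p * i := by have := hp.pos; nlinarith
  obtain ⟨hmem, h⟩ := graded_pow_prime hϖ hp hpe hi hj le_rfl hcrit.le hu
  refine ⟨hmem, ?_⟩
  rw [h, if_pos rfl, if_pos hcrit]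

/-! ### Exact levels -/

include hϖ in
/-- every `w ≠ 1` in `U^(1)` has an exact level. -/
theorem exists_exact_level {w : Bˣ} (hw : w ∈ principalUnits B 1) (hw1 : w ≠ 1) :
    ∃ i : ℕ, 1 ≤ i ∧ w ∈ principalUnits B i ∧ w ∉ principalUnits B (i + 1) := by
  have hne : (w : B) - 1 ≠ 0 := by
    intro h
    apply hw1
    ext
    rw [Units.val_one]
    exact sub_eq_zero.1 h
  obtain ⟨i, v, hv⟩ := IsDiscreteValuationRing.eq_unit_mul_pow_irreducible hne hϖ
  have hmem : w ∈ principalUnits B i := by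
    rw [mem_principalUnits_iff, hv, mul_comm]
    exact pow_mul_mem_maximalIdeal_pow hϖ i _
  have hnot : w ∉ principalUnits B (i + 1) := by
    rw [mem_principalUnits_iff, mem_maximalIdeal_pow_iff hϖ, hv]
    rintro ⟨x, hx⟩
    have h1 : ϖ ^ i * (v : B) = ϖ ^ i * (ϖ * x) := by rw [mul_comm, hx, pow_succ]; ring
    have h2 := mul_left_cancel₀ (pow_ne_zero i hϖ.ne_zero) h1
    exact hϖ.not_isUnit (isUnit_of_mul_isUnit_left (h2 ▸ v.isUnit))
  refine ⟨i, ?_, hmem, hnot⟩
  by_contra h0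
  have hi0 : i = 0 := by omega
  subst hi0
  exact hnot (by simpa using hw)

/-- membership in `U^(i+1)` in terms of the graded map. -/
theorem mem_succ_iff_graded_eq_zero {i : ℕ} (hi : 1 ≤ i) {u : Bˣ} (hu : u ∈ principalUnits B i) :
    u ∈ principalUnits B (i + 1) ↔
      Multiplicative.toAdd (gradedResidueHom hϖ i hi ⟨u, hu⟩) = 0 := by
  have h := ker_gradedResidueHom hϖ i hi
  have h1 : (⟨u, hu⟩ : principalUnits B i) ∈ (gradedResidueHom hϖ i hi).ker ↔
      (⟨u, hu⟩ : principalUnits B i) ∈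
        (principalUnits B (i + 1)).subgroupOf (principalUnits B i) := by rw [h]
  rw [MonoidHom.mem_ker, Subgroup.mem_subgroupOf] at h1
  rw [← h1]
  constructor
  · intro h2; rw [h2]; rfl
  · intro h2
    exact Multiplicative.toAdd.injective h2

include hϖ hpe in
/-- the residue characteristic is `p`. -/
theorem residue_prime_eq_zero (he : 1 ≤ e) : ((p : ℕ) : ResidueField B) = 0 := by
  have h : residue B ((p : ℕ) : B) = 0 := by
    rw [hpe, map_mul, residue_pow_uniformizer hϖ, if_neg (by omega), mul_zero]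
  rwa [map_natCast] at h

include hϖ hp hpe in
/-- a unit whose `p`-th power is a principal unit is a principal unit. -/
theorem mem_one_of_pow_prime_mem (he : 1 ≤ e) {w : Bˣ} (hw : w ^ p ∈ principalUnits B 1) :
    w ∈ principalUnits B 1 := by
  haveI : Fact p.Prime := ⟨hp⟩
  haveI : CharP (ResidueField B) p :=
    (CharP.charP_iff_prime_eq_zero hp).2 (residue_prime_eq_zero hϖ hpe he)
  rw [mem_principalUnits_iff, pow_one, ← residue_eq_zero_iff, map_sub, map_one] at hw ⊢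
  push_cast at hw
  rw [map_pow, ← one_pow p, ← sub_pow_char] at hw
  exact pow_eq_zero_iff hp.ne_zero |>.1 hw

include hϖ hp hpe in
/-- **No `p`-th powers at levels prime to `p` below the top.** -/
theorem pow_prime_mem_succ (he : 1 ≤ e) {j : ℕ} (hj : 1 ≤ j) (hpj : ¬ p ∣ j)
    (htop : j * (p - 1) < e * p) {w : Bˣ} (hw : w ^ p ∈ principalUnits B j) :
    w ^ p ∈ principalUnits B (j + 1) := by
  have hp2 := hp.two_le
  have hw1 : w ∈ principalUnits B 1 :=
    mem_one_of_pow_prime_mem hϖ hp hpe he (principalUnits_le hj hw)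
  rcases eq_or_ne w 1 with rfl | hne
  · rw [one_pow]; exact Subgroup.one_mem _
  obtain ⟨i, hi, hwi, hwi'⟩ := exists_exact_level hϖ hw1 hne
  obtain ⟨q, hq⟩ : ∃ q, p = q + 1 := ⟨p - 1, by omega⟩
  have hq' : p - 1 = q := by omega
  rw [hq'] at htop
  rcases lt_trichotomy (p * i) (i + e) with hlt | heq | hgt
  · -- exact level `p i`
    obtain ⟨hmem, hgr⟩ := graded_pow_prime_low hϖ hp hpe hi hlt hwi
    have hne0 : Multiplicative.toAdd (gradedResidueHom hϖ i hi ⟨w, hwi⟩) ≠ 0 := fun h0 =>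
      hwi' ((mem_succ_iff_graded_eq_zero hϖ hi hwi).2 h0)
    have hnot : w ^ p ∉ principalUnits B (p * i + 1) := by
      intro hmem'
      have h0 := (mem_succ_iff_graded_eq_zero hϖ (by nlinarith) hmem).1 hmem'
      rw [hgr] at h0
      exact hne0 (pow_eq_zero_iff hp.ne_zero |>.1 h0)
    have hle : j ≤ p * i := by
      by_contra hcon
      exact hnot (principalUnits_le (by omega) hw)
    have hne' : j ≠ p * i := fun h => hpj ⟨i, h⟩
    exact principalUnits_le (by omega) hmem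
  · have hmem := pow_prime_mem hϖ hp hpe hi le_rfl heq.le hwi
    refine principalUnits_le ?_ hmem
    have h1 : q * i = e := by
      have : (q + 1) * i = i + e := by rw [← hq]; exact heq
      nlinarith
    have h2 : j * q < p * i * q := by
      calc j * q < e * p := htop
        _ = p * i * q := by rw [← h1]; ring
    have hq0 : 0 < q := by omega
    have := Nat.lt_of_mul_lt_mul_right h2
    omega
  · have hmem := pow_prime_mem hϖ hp hpe hi hgt.le le_rfl hwi
    refine principalUnits_le ?_ hmem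
    have h1 : e < q * i := by
      have : i + e < (q + 1) * i := by rw [← hq]; exact hgt
      nlinarith
    have h2 : j * q < (i + e) * q := by
      calc j * q < e * p := htop
        _ = e * q + e := by rw [hq]; ring
        _ < e * q + q * i := by omega
        _ = (i + e) * q := by ring
    have := Nat.lt_of_mul_lt_mul_right h2
    omega

include hϖ hp hpe in
/-- **Absorption below the critical level** (perfect residue field): for `p i < i + e`,
`U^(p i) ⊆ U^(p i + 1) · (U^(i))^p`. -/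
theorem exists_pow_prime_approx_low {i : ℕ} (hi : 1 ≤ i) (hlow : p * i < i + e)
    (hperf : ∀ a : ResidueField B, ∃ b, b ^ p = a) {y : Bˣ}
    (hy : y ∈ principalUnits B (p * i)) :
    ∃ x ∈ principalUnits B i, y * (x ^ p)⁻¹ ∈ principalUnits B (p * i + 1) := by
  have hj : 1 ≤ p * i := by have := hp.pos; nlinarith
  obtain ⟨b, hb⟩ := hperf (Multiplicative.toAdd (gradedResidueHom hϖ (p * i) hj ⟨y, hy⟩))
  obtain ⟨x, hx⟩ := gradedResidueHom_surjective hϖ i hi (Multiplicative.ofAdd b)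
  obtain ⟨hmem, hgr⟩ := graded_pow_prime_low hϖ hp hpe hi hlow x.2
  refine ⟨x, x.2, ?_⟩
  have hmem2 : y * ((x : Bˣ) ^ p)⁻¹ ∈ principalUnits B (p * i) :=
    Subgroup.mul_mem _ hy (Subgroup.inv_mem _ hmem)
  rw [mem_succ_iff_graded_eq_zero hϖ hj hmem2]
  have h1 : (⟨y * ((x : Bˣ) ^ p)⁻¹, hmem2⟩ : principalUnits B (p * i)) =
      ⟨y, hy⟩ * (⟨(x : Bˣ) ^ p, hmem⟩ : principalUnits B (p * i))⁻¹ := rfl
  rw [h1, map_mul, map_inv, toAdd_mul, toAdd_inv, hgr]
  have h2 : (⟨(x : Bˣ), x.2⟩ : principalUnits B i) = x := rfl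
  rw [h2, hx, toAdd_ofAdd, hb, add_neg_cancel]

include hϖ hp hpe in
/-- **Absorption above the critical level**: for `i + e < p i`,
`U^(i + e) ⊆ U^(i + e + 1) · (U^(i))^p`. -/
theorem exists_pow_prime_approx_high {i : ℕ} (hi : 1 ≤ i) (hhigh : i + e < p * i) {y : Bˣ}
    (hy : y ∈ principalUnits B (i + e)) :
    ∃ x ∈ principalUnits B i, y * (x ^ p)⁻¹ ∈ principalUnits B (i + e + 1) := by
  have hj : 1 ≤ i + e := by omega
  have hc0 : residue B (c₀ : B) ≠ 0 := by
    rw [Ne, residue_eq_zero_iff]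
    exact fun h => (mem_maximalIdeal _).1 h c₀.isUnit
  set a := Multiplicative.toAdd (gradedResidueHom hϖ (i + e) hj ⟨y, hy⟩) with ha
  obtain ⟨x, hx⟩ := gradedResidueHom_surjective hϖ i hi
    (Multiplicative.ofAdd ((residue B (c₀ : B))⁻¹ * a))
  obtain ⟨hmem, hgr⟩ := graded_pow_prime_high hϖ hp hpe hi hhigh x.2
  refine ⟨x, x.2, ?_⟩
  have hmem2 : y * ((x : Bˣ) ^ p)⁻¹ ∈ principalUnits B (i + e) :=
    Subgroup.mul_mem _ hy (Subgroup.inv_mem _ hmem)
  rw [mem_succ_iff_graded_eq_zero hϖ hj hmem2]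
  have h1 : (⟨y * ((x : Bˣ) ^ p)⁻¹, hmem2⟩ : principalUnits B (i + e)) =
      ⟨y, hy⟩ * (⟨(x : Bˣ) ^ p, hmem⟩ : principalUnits B (i + e))⁻¹ := rfl
  rw [h1, map_mul, map_inv, toAdd_mul, toAdd_inv, hgr]
  have h2 : (⟨(x : Bˣ), x.2⟩ : principalUnits B i) = x := rfl
  rw [h2, hx, toAdd_ofAdd, ← mul_assoc, mul_inv_cancel₀ hc0, one_mul, ← ha, add_neg_cancel]

/-! ### Galois equivariance -/

/-- change of uniformiser: `gr_i` with respect to `ϖ` and to `ϖ' = c ϖ`. -/
theorem graded_change {ϖ' : B} (hϖ' : Irreducible ϖ') {c : B} (hc : ϖ' = c * ϖ) {i : ℕ}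
    (hi : 1 ≤ i) (u : principalUnits B i) :
    Multiplicative.toAdd (gradedResidueHom hϖ i hi u) =
      residue B c ^ i * Multiplicative.toAdd (gradedResidueHom hϖ' i hi u) := by
  have hu := unitCoeff_spec hϖ' i u
  have hpow : ϖ' ^ i = c ^ i * ϖ ^ i := by rw [hc, mul_pow]
  have hu2 : ((u : Bˣ) : B) = 1 + ϖ ^ i * (c ^ i * unitCoeff hϖ' i u) := by
    rw [hu, hpow]; ring
  rw [gradedResidueHom_apply_of_eq hϖ i hi u hu2, gradedResidueHom_apply_of_eq hϖ' i hi u hu,
    toAdd_ofAdd, toAdd_ofAdd, map_mul, map_pow]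

/-- **Equivariance of the graded maps**: if `σ ϖ = c ϖ` then
`gr_i (σ u) = (residue c)^i · σ̄ (gr_i u)`. -/
theorem graded_map (σ : B →+* B) [IsLocalHom σ] {c : B} (hc : σ ϖ = c * ϖ)
    (hσϖ : Irreducible (σ ϖ)) {i : ℕ} (hi : 1 ≤ i) (u : principalUnits B i) :
    Multiplicative.toAdd (gradedResidueHom hϖ i hi
        ⟨Units.map (σ : B →* B) u, map_mem_principalUnits σ u.2⟩) =
      residue B c ^ i *
        ResidueField.map σ (Multiplicative.toAdd (gradedResidueHom hϖ i hi u)) := by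
  rw [graded_change hϖ hσϖ hc hi, gradedResidueHom_map σ hϖ hσϖ i hi u, toAdd_ofAdd]

end DVR

end Fermat.Agent.S56x.Local.UnitPow
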