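import Mathlib
import Fermat.Agent.S56x.Local.UnitPow
import Fermat.Agent.S56x.Hopf.PthPower

/-!
# P-S56, block (A), LOC-2 (helper39): the unit filtration modulo `p`-th powers

`B` a discrete valuation ring with uniformiser `ϖ`, `k` its residue field, `p` a prime with
`p = c₀ ϖ^e` (`c₀` a unit, `e ≥ 1`).  `U^(i) = principalUnits B i` and the graded coordinate
`grade hϖ i hi u hu ∈ k` of `u = 1 + ϖ^i x ∈ U^(i)` (the class of `x`) come from
`Lib/CFT/Local/UnitsFiltration` (import-only); the behaviour of `p`-th powers on the filtration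
comes from `S56x/Local/UnitPow` (helper47) and `S56x/Hopf/PthPower` (helper78).

We describe the filtration `W^(i) := U^(i) · Bˣᵖ` (`powLevel B p i`) of `Bˣ / Bˣᵖ`, i.e. the
structure of `W_b = U^(e) Bˣᵖ / Bˣᵖ` and of all the other levels:

* `mem_powLevel_succ_iff_of_not_dvd` : for `p ∤ i`, `i (p - 1) < e p`, `u ∈ U^(i)`:
  `u ∈ W^(i+1) ↔ grade_i u = 0`  (so `W^(i)/W^(i+1) = k` via `grade_i`);
* `powLevel_eq_succ_of_dvd` : for `p ∣ i`, `i (p - 1) < e p`, `k` perfect: `W^(i) = W^(i+1)`;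
* `mem_powLevel_succ_iff_top` : at the top `i = p j`, `j (p - 1) = e`, `u ∈ U^(i)`:
  `u ∈ W^(i+1) ↔ grade_i u ∈ {a^p + c̄₀ a}`;
* `principalUnits_le_pthPowers` : `B` complete, `e p < i (p - 1)`: `U^(i) ≤ Bˣᵖ`;
* `grade_map` : `grade_i (σ u) = θ^i σ̄ (grade_i u)` for a local endomorphism `σ`, `σ ϖ = c ϖ`,
  `θ = c̄` (so `W^(i)/W^(i+1) = k(θ^i)` as a Galois module);
* `top_action` : if `ζ ∈ B` is a primitive `p`-th root of unity, `σ ζ = ζ^m` and `σ̄` is a power
  of Frobenius, then `σ u ≡ u^m` modulo `W^(top+1)` for `u ∈ U^(top)`: the Galois group acts on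
  the top piece through the cyclotomic character;
* `exists_top_functional` : for finite `k` the top piece has order dividing `p`: there is an
  additive `τ : k → ZMod p` with kernel `{a^p + c̄₀ a}`.
-/

set_option autoImplicit false
set_option linter.unusedSectionVars false
set_option linter.style.haveILetI false

open IsLocalRing

namespace Fermat.Agent.S56x.Local.UnitFiltration

open Fermat.Agent.Lib.CFT.Local.UnitsFiltration Fermat.Agent.S56x.Local.UnitPow

/-! ### The graded coordinate -/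

section Grade

variable {B : Type*} [CommRing B] [IsDomain B] [IsDiscreteValuationRing B]
  {ϖ : B} (hϖ : Irreducible ϖ)

/-- the `i`-th graded coordinate of `u ∈ U^(i)`: the residue class of `x` if `u = 1 + ϖ^i x`. -/
noncomputable def grade (i : ℕ) (hi : 1 ≤ i) (u : Bˣ) (hu : u ∈ principalUnits B i) :
    ResidueField B :=
  Multiplicative.toAdd (gradedResidueHom hϖ i hi ⟨u, hu⟩)

theorem grade_def (i : ℕ) (hi : 1 ≤ i) (u : Bˣ) (hu : u ∈ principalUnits B i) :
    grade hϖ i hi u hu = Multiplicative.toAdd (gradedResidueHom hϖ i hi ⟨u, hu⟩) := rfl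

theorem grade_congr {i : ℕ} (hi : 1 ≤ i) {u v : Bˣ} (huv : u = v)
    (hu : u ∈ principalUnits B i) (hv : v ∈ principalUnits B i) :
    grade hϖ i hi u hu = grade hϖ i hi v hv := by
  subst huv; rfl

theorem grade_eq_of_eq {i : ℕ} (hi : 1 ≤ i) {u : Bˣ} (hu : u ∈ principalUnits B i) {x : B}
    (h : (u : B) = 1 + ϖ ^ i * x) : grade hϖ i hi u hu = residue B x := by
  rw [grade_def, gradedResidueHom_apply_of_eq hϖ i hi ⟨u, hu⟩ h, toAdd_ofAdd]

theorem grade_one {i : ℕ} (hi : 1 ≤ i) :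
    grade hϖ i hi 1 (Subgroup.one_mem _) = 0 := by
  rw [grade_eq_of_eq hϖ hi (Subgroup.one_mem _) (x := 0) (by simp), map_zero]

theorem grade_mul {i : ℕ} (hi : 1 ≤ i) {u v : Bˣ} (hu : u ∈ principalUnits B i)
    (hv : v ∈ principalUnits B i) :
    grade hϖ i hi (u * v) (Subgroup.mul_mem _ hu hv) =
      grade hϖ i hi u hu + grade hϖ i hi v hv := by
  have h1 : (⟨u * v, Subgroup.mul_mem _ hu hv⟩ : principalUnits B i) = ⟨u, hu⟩ * ⟨v, hv⟩ := rfl
  rw [grade_def, h1, map_mul, toAdd_mul]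
  rfl

theorem grade_inv {i : ℕ} (hi : 1 ≤ i) {u : Bˣ} (hu : u ∈ principalUnits B i) :
    grade hϖ i hi u⁻¹ (Subgroup.inv_mem _ hu) = - grade hϖ i hi u hu := by
  have h1 : (⟨u⁻¹, Subgroup.inv_mem _ hu⟩ : principalUnits B i) = (⟨u, hu⟩)⁻¹ := rfl
  rw [grade_def, h1, map_inv, toAdd_inv]
  rfl

theorem grade_mul_inv {i : ℕ} (hi : 1 ≤ i) {u v : Bˣ} (hu : u ∈ principalUnits B i)
    (hv : v ∈ principalUnits B i) :
    grade hϖ i hi (u * v⁻¹) (Subgroup.mul_mem _ hu (Subgroup.inv_mem _ hv)) =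
      grade hϖ i hi u hu - grade hϖ i hi v hv := by
  rw [grade_mul hϖ hi hu (Subgroup.inv_mem _ hv), grade_inv hϖ hi hv, sub_eq_add_neg]

theorem grade_pow {i : ℕ} (hi : 1 ≤ i) {u : Bˣ} (hu : u ∈ principalUnits B i) (n : ℕ) :
    grade hϖ i hi (u ^ n) (Subgroup.pow_mem _ hu n) = (n : ResidueField B) * grade hϖ i hi u hu := by
  induction n with
  | zero =>
    rw [Nat.cast_zero, zero_mul]
    exact (grade_congr hϖ hi (pow_zero u) _ (Subgroup.one_mem _)).trans (grade_one hϖ hi)
  | succ n ih =>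
    rw [grade_congr hϖ hi (pow_succ u n) _ (Subgroup.mul_mem _ (Subgroup.pow_mem _ hu n) hu),
      grade_mul hϖ hi (Subgroup.pow_mem _ hu n) hu, ih]
    push_cast
    ring

/-- `grade_i u = 0` iff `u ∈ U^(i+1)`. -/
theorem grade_eq_zero_iff {i : ℕ} (hi : 1 ≤ i) {u : Bˣ} (hu : u ∈ principalUnits B i) :
    grade hϖ i hi u hu = 0 ↔ u ∈ principalUnits B (i + 1) :=
  (mem_succ_iff_graded_eq_zero hϖ hi hu).symm

theorem grade_surjective {i : ℕ} (hi : 1 ≤ i) (a : ResidueField B) :
    ∃ (u : Bˣ) (hu : u ∈ principalUnits B i), grade hϖ i hi u hu = a := by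
  obtain ⟨x, hx⟩ := gradedResidueHom_surjective hϖ i hi (Multiplicative.ofAdd a)
  refine ⟨x, x.2, ?_⟩
  rw [grade_def]
  have : (⟨(x : Bˣ), x.2⟩ : principalUnits B i) = x := rfl
  rw [this, hx, toAdd_ofAdd]

/-- two elements of `U^(i)` with the same graded coordinate differ by an element of `U^(i+1)`. -/
theorem mul_inv_mem_succ_of_grade_eq {i : ℕ} (hi : 1 ≤ i) {u v : Bˣ}
    (hu : u ∈ principalUnits B i) (hv : v ∈ principalUnits B i)
    (h : grade hϖ i hi u hu = grade hϖ i hi v hv) : u * v⁻¹ ∈ principalUnits B (i + 1) := by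
  rw [← grade_eq_zero_iff hϖ hi (Subgroup.mul_mem _ hu (Subgroup.inv_mem _ hv)),
    grade_mul_inv hϖ hi hu hv, h, sub_self]

/-- **Galois equivariance**: if `σ ϖ = c ϖ` then `grade_i (σ u) = c̄^i · σ̄ (grade_i u)`. -/
theorem grade_map (σ : B →+* B) [IsLocalHom σ] {c : B} (hc : σ ϖ = c * ϖ)
    (hσϖ : Irreducible (σ ϖ)) {i : ℕ} (hi : 1 ≤ i) {u : Bˣ} (hu : u ∈ principalUnits B i) :
    grade hϖ i hi (Units.map (σ : B →* B) u) (map_mem_principalUnits σ hu) =
      residue B c ^ i * ResidueField.map σ (grade hϖ i hi u hu) :=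
  graded_map hϖ σ hc hσϖ hi ⟨u, hu⟩

end Grade

/-! ### The filtration `W^(i) = U^(i) Bˣᵖ` -/

section PowLevel

variable (B : Type*) [CommRing B] [IsLocalRing B]

/-- the subgroup of `p`-th powers of units. -/
def pthPowers (p : ℕ) : Subgroup Bˣ := (powMonoidHom p : Bˣ →* Bˣ).range

/-- `W^(i) := U^(i) · Bˣᵖ`. -/
def powLevel (p i : ℕ) : Subgroup Bˣ := principalUnits B i ⊔ pthPowers B p

variable {B}

theorem mem_pthPowers_iff {p : ℕ} {u : Bˣ} : u ∈ pthPowers B p ↔ ∃ w : Bˣ, w ^ p = u := by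
  unfold pthPowers
  rw [MonoidHom.mem_range]
  rfl

theorem pow_mem_pthPowers (p : ℕ) (w : Bˣ) : w ^ p ∈ pthPowers B p :=
  mem_pthPowers_iff.2 ⟨w, rfl⟩

theorem mem_powLevel_iff {p i : ℕ} {u : Bˣ} :
    u ∈ powLevel B p i ↔ ∃ v ∈ principalUnits B i, ∃ w : Bˣ, u = v * w ^ p := by
  unfold powLevel
  rw [Subgroup.mem_sup]
  constructor
  · rintro ⟨v, hv, z, hz, rfl⟩
    obtain ⟨w, rfl⟩ := mem_pthPowers_iff.1 hz
    exact ⟨v, hv, w, rfl⟩
  · rintro ⟨v, hv, w, rfl⟩
    exact ⟨v, hv, w ^ p, pow_mem_pthPowers p w, rfl⟩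

theorem principalUnits_le_powLevel (p i : ℕ) : principalUnits B i ≤ powLevel B p i := le_sup_left

theorem pthPowers_le_powLevel (p i : ℕ) : pthPowers B p ≤ powLevel B p i := le_sup_right

theorem powLevel_antitone (p : ℕ) : Antitone (powLevel B p) := fun _ _ hij =>
  sup_le_sup_right (principalUnits_le hij) _

theorem powLevel_zero (p : ℕ) : powLevel B p 0 = ⊤ := by
  unfold powLevel
  rw [principalUnits_zero, top_sup_eq]

/-- `p`-th powers are stable under ring endomorphisms. -/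
theorem map_mem_pthPowers (σ : B →+* B) {p : ℕ} {u : Bˣ} (hu : u ∈ pthPowers B p) :
    Units.map (σ : B →* B) u ∈ pthPowers B p := by
  obtain ⟨w, rfl⟩ := mem_pthPowers_iff.1 hu
  rw [map_pow]
  exact pow_mem_pthPowers p _

/-- the filtration `W^(i)` is stable under local endomorphisms. -/
theorem map_mem_powLevel (σ : B →+* B) [IsLocalHom σ] {p i : ℕ} {u : Bˣ}
    (hu : u ∈ powLevel B p i) : Units.map (σ : B →* B) u ∈ powLevel B p i := by
  obtain ⟨v, hv, w, rfl⟩ := mem_powLevel_iff.1 hu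
  rw [map_mul, map_pow]
  exact mem_powLevel_iff.2 ⟨_, map_mem_principalUnits σ hv, _, rfl⟩

end PowLevel

/-! ### The structure of the filtration `W^(i)` -/

section Structure

variable {B : Type*} [CommRing B] [IsDomain B] [IsDiscreteValuationRing B]
  {ϖ : B} (hϖ : Irreducible ϖ) {p : ℕ} (hp : p.Prime) {c₀ : Bˣ} {e : ℕ}
  (hpe : (p : B) = c₀ * ϖ ^ e)

include hp hpe in
/-- **Levels prime to `p` below the top**: `W^(i)/W^(i+1) = k` through `grade_i`. -/
theorem mem_powLevel_succ_iff_of_not_dvd (he : 1 ≤ e) {i : ℕ} (hi : 1 ≤ i) (hpi : ¬ p ∣ i)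
    (htop : i * (p - 1) < e * p) {u : Bˣ} (hu : u ∈ principalUnits B i) :
    u ∈ powLevel B p (i + 1) ↔ grade hϖ i hi u hu = 0 := by
  rw [grade_eq_zero_iff]
  constructor
  · intro h
    obtain ⟨v, hv, w, rfl⟩ := mem_powLevel_iff.1 h
    have hw : w ^ p ∈ principalUnits B i := by
      have h1 : w ^ p = v⁻¹ * (v * w ^ p) := by rw [inv_mul_cancel_left]
      rw [h1]
      exact Subgroup.mul_mem _ (Subgroup.inv_mem _ (principalUnits_le (Nat.le_succ i) hv)) hu
    exact Subgroup.mul_mem _ hv (pow_prime_mem_succ hϖ hp hpe he hi hpi htop hw)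
  · intro h
    exact principalUnits_le_powLevel p (i + 1) h

include hϖ hp hpe in
/-- **Levels divisible by `p` below the top** (perfect residue field): `W^(i) = W^(i+1)`. -/
theorem powLevel_eq_succ_of_dvd (hperf : ∀ a : ResidueField B, ∃ b, b ^ p = a) {i : ℕ}
    (hi : 1 ≤ i) (hpi : p ∣ i) (htop : i * (p - 1) < e * p) :
    powLevel B p i = powLevel B p (i + 1) := by
  refine le_antisymm (sup_le ?_ le_sup_right) (powLevel_antitone p (Nat.le_succ i))
  intro y hy
  obtain ⟨i', rfl⟩ := hpi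
  have hp2 := hp.two_le
  have hi' : 1 ≤ i' := by
    rcases Nat.eq_zero_or_pos i' with h | h
    · subst h; omega
    · exact h
  obtain ⟨q, hq⟩ : ∃ q, p = q + 1 := ⟨p - 1, by omega⟩
  have hq' : p - 1 = q := by omega
  rw [hq'] at htop
  have hlow : p * i' < i' + e := by
    have h1 : i' * q * p < e * p := by
      calc i' * q * p = p * i' * q := by ring
        _ < e * p := htop
    have h2 : i' * q < e := Nat.lt_of_mul_lt_mul_right h1
    calc p * i' = i' + i' * q := by rw [hq]; ring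
      _ < i' + e := by omega
  obtain ⟨x, -, hxy⟩ := exists_pow_prime_approx_low hϖ hp hpe hi' hlow hperf hy
  exact mem_powLevel_iff.2 ⟨y * (x ^ p)⁻¹, hxy, x, by rw [inv_mul_cancel_right]⟩

include hp hpe in
/-- the graded coordinate at the top level `p j`, `p j = j + e`, of a `p`-th power lies in the
image of `a ↦ a^p + c̄₀ a`. -/
theorem exists_grade_pow_prime_top (he : 1 ≤ e) {j : ℕ} (hj : 1 ≤ j) (hcrit : p * j = j + e)
    (hpj : 1 ≤ p * j) {w : Bˣ} (hw : w ^ p ∈ principalUnits B (p * j)) :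
    ∃ a : ResidueField B, grade hϖ (p * j) hpj (w ^ p) hw = a ^ p + residue B c₀ * a := by
  have hp2 := hp.two_le
  have hw1 : w ∈ principalUnits B 1 :=
    mem_one_of_pow_prime_mem hϖ hp hpe he (principalUnits_le hpj hw)
  rcases eq_or_ne w 1 with rfl | hne
  · refine ⟨0, ?_⟩
    rw [grade_congr hϖ hpj (one_pow p) hw (Subgroup.one_mem _), grade_one, zero_pow hp.ne_zero,
      mul_zero, add_zero]
  obtain ⟨i, hi, hwi, hwi'⟩ := exists_exact_level hϖ hw1 hne
  rcases lt_trichotomy (p * i) (i + e) with hlt | heq | hgt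
  · -- exact level `p i < p j`: impossible
    exfalso
    obtain ⟨hmem, hgr⟩ := graded_pow_prime_low hϖ hp hpe hi hlt hwi
    have hne0 : Multiplicative.toAdd (gradedResidueHom hϖ i hi ⟨w, hwi⟩) ≠ 0 := fun h0 =>
      hwi' ((mem_succ_iff_graded_eq_zero hϖ hi hwi).2 h0)
    have hnot : w ^ p ∉ principalUnits B (p * i + 1) := by
      intro hmem'
      have h0 := (mem_succ_iff_graded_eq_zero hϖ (by nlinarith) hmem).1 hmem'
      rw [hgr] at h0
      exact hne0 (pow_eq_zero_iff hp.ne_zero |>.1 h0)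
    have hij : i < j := by
      by_contra hcon
      have hji : j ≤ i := not_lt.1 hcon
      have h1 : p * j ≤ p * i := Nat.mul_le_mul_left p hji
      obtain ⟨q, hq⟩ : ∃ q, p = q + 1 := ⟨p - 1, by omega⟩
      rw [hq] at hlt hcrit h1
      have h2 : q * j ≤ q * i := Nat.mul_le_mul_left q hji
      nlinarith
    have h3 : p * i + 1 ≤ p * j := by
      have : p * i < p * j := Nat.mul_lt_mul_of_pos_left hij hp.pos
      omega
    exact hnot (principalUnits_le h3 hw)
  · -- the critical level: `i = j`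
    have hij : i = j := by
      obtain ⟨q, hq⟩ : ∃ q, p = q + 1 := ⟨p - 1, by omega⟩
      rw [hq] at heq hcrit
      have h1 : q * i = e := by nlinarith
      have h2 : q * j = e := by nlinarith
      have hq0 : 0 < q := by omega
      exact Nat.eq_of_mul_eq_mul_left hq0 (h1.trans h2.symm)
    subst hij
    obtain ⟨hmem, hgr⟩ := graded_pow_prime_crit hϖ hp hpe hi heq hwi
    exact ⟨Multiplicative.toAdd (gradedResidueHom hϖ i hi ⟨w, hwi⟩), hgr⟩
  · -- above the critical level: `w^p ∈ U^(p j + 1)`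
    refine ⟨0, ?_⟩
    rw [zero_pow hp.ne_zero, mul_zero, add_zero, grade_eq_zero_iff]
    have hmem := pow_prime_mem hϖ hp hpe hi hgt.le le_rfl hwi
    refine principalUnits_le ?_ hmem
    have hji : j < i := by
      by_contra hcon
      have hij : i ≤ j := not_lt.1 hcon
      obtain ⟨q, hq⟩ : ∃ q, p = q + 1 := ⟨p - 1, by omega⟩
      rw [hq] at hgt hcrit
      have h2 : q * i ≤ q * j := Nat.mul_le_mul_left q hij
      nlinarith
    omega

include hp hpe in
/-- **The top level** `i = p j`, `j (p - 1) = e`: `W^(i)/W^(i+1) = k / {a^p + c̄₀ a}`. -/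
theorem mem_powLevel_succ_iff_top (he : 1 ≤ e) {j : ℕ} (hj : 1 ≤ j) (hcrit : p * j = j + e)
    (hpj : 1 ≤ p * j) {u : Bˣ} (hu : u ∈ principalUnits B (p * j)) :
    u ∈ powLevel B p (p * j + 1) ↔
      ∃ a : ResidueField B, grade hϖ (p * j) hpj u hu = a ^ p + residue B c₀ * a := by
  constructor
  · intro h
    obtain ⟨v, hv, w, rfl⟩ := mem_powLevel_iff.1 h
    have hv' : v ∈ principalUnits B (p * j) := principalUnits_le (Nat.le_succ _) hv
    have hw : w ^ p ∈ principalUnits B (p * j) := by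
      have h1 : w ^ p = v⁻¹ * (v * w ^ p) := by rw [inv_mul_cancel_left]
      rw [h1]
      exact Subgroup.mul_mem _ (Subgroup.inv_mem _ hv') hu
    obtain ⟨a, ha⟩ := exists_grade_pow_prime_top hϖ hp hpe he hj hcrit hpj hw
    refine ⟨a, ?_⟩
    rw [← ha, grade_congr hϖ hpj rfl hu (Subgroup.mul_mem _ hv' hw), grade_mul hϖ hpj hv' hw,
      (grade_eq_zero_iff hϖ hpj hv').2 hv, zero_add]
  · rintro ⟨a, ha⟩
    obtain ⟨x, hx, hxa⟩ := grade_surjective hϖ hj a
    obtain ⟨hmem, hgr⟩ := graded_pow_prime_crit hϖ hp hpe hj hcrit hx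
    have hgr' : grade hϖ (p * j) hpj (x ^ p) hmem = a ^ p + residue B c₀ * a := by
      rw [← hxa]; exact hgr
    have h1 := mul_inv_mem_succ_of_grade_eq hϖ hpj hu hmem (ha.trans hgr'.symm)
    exact mem_powLevel_iff.2 ⟨u * (x ^ p)⁻¹, h1, x, by rw [inv_mul_cancel_right]⟩

include hϖ hp hpe in
/-- **Above the top** (complete case): for `e p < i (p - 1)` every element of `U^(i)` is a
`p`-th power (of an element of `U^(i - e)`). -/
theorem exists_pow_prime_eq_of_top_lt [IsAdicComplete (maximalIdeal B) B] {i : ℕ}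
    (htop : e * p < i * (p - 1)) {u : Bˣ} (hu : u ∈ principalUnits B i) :
    ∃ w ∈ principalUnits B (i - e), w ^ p = u := by
  have hp2 := hp.two_le
  obtain ⟨q, hq⟩ : ∃ q, p = q + 1 := ⟨p - 1, by omega⟩
  have hq' : p - 1 = q := by omega
  have hq0 : 0 < q := by omega
  have hei : e < i := by
    rw [hq'] at htop
    have h1 : e * q < i * q := by
      calc e * q ≤ e * p := Nat.mul_le_mul_left e (by omega)
        _ < i * q := htop
    exact Nat.lt_of_mul_lt_mul_right h1
  have ha : e < (i - e) * (p - 1) := by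
    rw [hq'] at htop ⊢
    have h1 : (i - e) * q + e * q = i * q := by rw [← Nat.add_mul, Nat.sub_add_cancel hei.le]
    have h2 : e * p = e * q + e := by rw [hq]; ring
    omega
  have hmax : maximalIdeal B = Ideal.span {ϖ} := hϖ.maximalIdeal_eq
  haveI : IsAdicComplete (Ideal.span {ϖ}) B := hmax ▸ (inferInstance : IsAdicComplete _ B)
  obtain ⟨d, hd⟩ := exists_eq_one_add_pow_mul hϖ hu
  have hdvd : ϖ ^ ((i - e) + e) ∣ ϖ ^ i * d := by
    rw [Nat.sub_add_cancel hei.le]
    exact Dvd.intro _ rfl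
  obtain ⟨x, hx, hxp⟩ := Fermat.Agent.S56x.Hopf.PthPower.pp2_adic hp hpe ha hdvd
  obtain ⟨x', rfl⟩ := hx
  have hie : 1 ≤ i - e := by omega
  have hxmem : ϖ ^ (i - e) * x' ∈ maximalIdeal B ^ (i - e) :=
    pow_mul_mem_maximalIdeal_pow hϖ _ _
  refine ⟨oneAddUnit hie _ hxmem, oneAddUnit_mem hie _ hxmem, ?_⟩
  ext
  push_cast
  rw [hd, ← hxp]
  simp [oneAddUnit]

include hϖ hp hpe in
/-- **Above the top** (complete case): `U^(i) ≤ Bˣᵖ` for `e p < i (p - 1)`. -/
theorem principalUnits_le_pthPowers [IsAdicComplete (maximalIdeal B) B] {i : ℕ}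
    (htop : e * p < i * (p - 1)) : principalUnits B i ≤ pthPowers B p := by
  intro u hu
  obtain ⟨w, -, hw⟩ := exists_pow_prime_eq_of_top_lt hϖ hp hpe htop hu
  exact mem_pthPowers_iff.2 ⟨w, hw⟩

include hϖ hp hpe in
theorem powLevel_eq_pthPowers [IsAdicComplete (maximalIdeal B) B] {i : ℕ}
    (htop : e * p < i * (p - 1)) : powLevel B p i = pthPowers B p :=
  le_antisymm (sup_le (principalUnits_le_pthPowers hϖ hp hpe htop) le_rfl) le_sup_right

end Structure

/-! ### Finite residue fields: two lemmas on finite fields -/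

section FiniteField

variable {k : Type*} [Field k] [Finite k] {p : ℕ} [Fact p.Prime] [CharP k p]

/-- every ring endomorphism of a finite field of characteristic `p` is a power of Frobenius. -/
theorem exists_frobenius_pow (f : k →+* k) : ∃ n : ℕ, ∀ a : k, f a = a ^ p ^ n := by
  letI : Algebra (ZMod p) k := ZMod.algebra k p
  let f' : k →ₐ[ZMod p] k :=
    { f with
      commutes' := fun r => by
        have h : f.comp (algebraMap (ZMod p) k) = algebraMap (ZMod p) k := Subsingleton.elim _ _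
        exact RingHom.congr_fun h r }
  obtain ⟨n, hn⟩ := (FiniteField.bijective_frobeniusAlgHom_pow (ZMod p) k).2 f'
  refine ⟨n.1, fun a => ?_⟩
  have h1 : f a = f' a := rfl
  have h2 := DFunLike.congr_fun hn a
  simp only at h2
  rw [h1, ← h2, AlgHom.coe_pow, FiniteField.coe_frobeniusAlgHom, pow_iterate, ZMod.card]

/-- the cokernel of `a ↦ a^p + c a` on a finite field of characteristic `p` has order dividing
`p`: it embeds into `ZMod p`. -/
theorem exists_functional_range_eq_ker (c : k) :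
    ∃ τ : k →+ ZMod p, ∀ y : k, τ y = 0 ↔ ∃ a : k, y = a ^ p + c * a := by
  classical
  letI : Algebra (ZMod p) k := ZMod.algebra k p
  haveI : Fintype k := Fintype.ofFinite k
  let f0 : k →+ k :=
    { toFun := fun a => a ^ p + c * a
      map_zero' := by simp [zero_pow (Fact.out : p.Prime).ne_zero]
      map_add' := fun a b => by rw [add_pow_char]; ring }
  let f : k →ₗ[ZMod p] k := f0.toZModLinearMap p
  have hf : ∀ a, f a = a ^ p + c * a := fun a => rfl
  -- the kernel has at most `p` elements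
  have hp : p.Prime := Fact.out
  have hker : Module.finrank (ZMod p) (LinearMap.ker f) ≤ 1 := by
    have hpoly : (Polynomial.X ^ p + Polynomial.C c * Polynomial.X : Polynomial k) ≠ 0 := by
      intro h
      have := congrArg (fun q => Polynomial.coeff q p) h
      simp [Polynomial.coeff_X_pow, Polynomial.coeff_C_mul, Polynomial.coeff_X,
        hp.ne_one.symm] at this
    have hdeg : (Polynomial.X ^ p + Polynomial.C c * Polynomial.X : Polynomial k).natDegree ≤ p := by
      refine (Polynomial.natDegree_add_le _ _).trans (max_le ?_ ?_)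
      · rw [Polynomial.natDegree_X_pow]
      · refine (Polynomial.natDegree_C_mul_le _ _).trans ?_
        rw [Polynomial.natDegree_X]
        exact hp.one_lt.le
    have hcard : Fintype.card (LinearMap.ker f) ≤ p := by
      have hinj : Function.Injective (fun a : LinearMap.ker f =>
          (⟨(a : k), by
            rw [Multiset.mem_toFinset, Polynomial.mem_roots hpoly, Polynomial.IsRoot.def]
            have h1 : f (a : k) = 0 := LinearMap.mem_ker.1 a.2
            rw [hf] at h1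
            simpa using h1⟩ :
            (Polynomial.X ^ p + Polynomial.C c * Polynomial.X : Polynomial k).roots.toFinset)) := by
        intro a b hab
        have := congrArg Subtype.val hab
        exact Subtype.ext this
      have h1 := Fintype.card_le_of_injective _ hinj
      rw [Fintype.card_coe] at h1
      exact h1.trans ((Multiset.toFinset_card_le _).trans ((Polynomial.card_roots' _).trans hdeg))
    rw [Module.card_eq_pow_finrank (K := ZMod p) (V := LinearMap.ker f), ZMod.card] at hcard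
    by_contra hcon
    have h2 : 2 ≤ Module.finrank (ZMod p) (LinearMap.ker f) := by omega
    have h3 : p ^ 2 ≤ p ^ Module.finrank (ZMod p) (LinearMap.ker f) :=
      Nat.pow_le_pow_right hp.pos h2
    have h4 : p * 2 ≤ p * p := Nat.mul_le_mul_left p hp.two_le
    have h5 := hp.pos
    nlinarith
  have hquot : Module.finrank (ZMod p) (k ⧸ LinearMap.range f) ≤
      Module.finrank (ZMod p) (ZMod p) := by
    rw [Module.finrank_self]
    have h1 := LinearMap.finrank_range_add_finrank_ker f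
    have h2 := Submodule.finrank_quotient_add_finrank (LinearMap.range f)
    omega
  obtain ⟨g, hg⟩ := finrank_le_iff_exists_linearMap.mp hquot
  refine ⟨(g.comp (LinearMap.range f).mkQ).toAddMonoidHom, fun y => ?_⟩
  have h1 : (g.comp (LinearMap.range f).mkQ).toAddMonoidHom y =
      g ((LinearMap.range f).mkQ y) := rfl
  rw [h1, ← map_zero g, hg.eq_iff, Submodule.mkQ_apply, Submodule.Quotient.mk_eq_zero,
    LinearMap.mem_range]
  constructor
  · rintro ⟨a, ha⟩
    exact ⟨a, by rw [← ha, hf]⟩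
  · rintro ⟨a, ha⟩
    exact ⟨a, by rw [ha, hf]⟩

end FiniteField

/-! ### The top piece and the cyclotomic character -/

section Cyclotomic

variable {B : Type*} [CommRing B] [IsDomain B] [IsDiscreteValuationRing B]
  {ϖ : B} (hϖ : Irreducible ϖ) {p : ℕ} (hp : p.Prime) {c₀ : Bˣ} {e : ℕ}
  (hpe : (p : B) = c₀ * ϖ ^ e)

include hϖ hp hpe in
/-- **`ζ - 1` for a primitive `p`-th root of unity `ζ ∈ B`**: `ζ - 1 = λ₀ ϖ^j` with
`j (p - 1) = e` (written `p j = j + e`) and `λ̄₀^(p-1) = - c̄₀`. -/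
theorem exists_zeta_sub_one_eq (he : 1 ≤ e) {ζ : B} (hζ : ζ ^ p = 1) (hζ1 : ζ ≠ 1) :
    ∃ (l₀ : Bˣ) (j : ℕ), 1 ≤ j ∧ ζ - 1 = l₀ * ϖ ^ j ∧ p * j = j + e ∧
      residue B (l₀ : B) ^ (p - 1) = - residue B (c₀ : B) := by
  have hp2 := hp.two_le
  obtain ⟨q, hq⟩ : ∃ q, p = q + 1 := ⟨p - 1, by omega⟩
  have hq' : p - 1 = q := by omega
  have hne : ζ - 1 ≠ 0 := sub_ne_zero.2 hζ1
  obtain ⟨j, l₀, hl⟩ := IsDiscreteValuationRing.eq_unit_mul_pow_irreducible hne hϖ
  obtain ⟨r, hr⟩ := one_add_pow_prime hp (ζ - 1)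
  rw [add_sub_cancel, hζ] at hr
  -- `(ζ - 1)^(p-1) = - p (1 + (ζ - 1) r)`
  have h1 : (ζ - 1) ^ q = -((p : B) * (1 + (ζ - 1) * r)) := by
    have h2 : (ζ - 1) * ((ζ - 1) ^ q + (p : B) * (1 + (ζ - 1) * r)) = 0 := by
      have h3 : (ζ - 1) ^ p = (ζ - 1) * (ζ - 1) ^ q := by rw [hq, pow_succ']
      have h4 : (0 : B) = (ζ - 1) ^ p + p * (ζ - 1) * (1 + (ζ - 1) * r) := by
        have := hr
        linear_combination this
      rw [mul_add, ← h3]
      linear_combination -h4
    rcases mul_eq_zero.1 h2 with h5 | h5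
    · exact absurd h5 hne
    · exact eq_neg_of_add_eq_zero_left h5
  have hpm : (p : B) ∈ maximalIdeal B := by
    rw [hpe, hϖ.maximalIdeal_eq]
    refine Ideal.mul_mem_left _ _ (Ideal.pow_mem_of_mem _ (Ideal.mem_span_singleton_self ϖ) e ?_)
    omega
  -- `j ≥ 1`
  have hj : 1 ≤ j := by
    by_contra hcon
    have hj0 : j = 0 := by omega
    rw [hj0, pow_zero, mul_one] at hl
    have hu : IsUnit ((ζ - 1) ^ q) := by rw [hl]; exact (l₀.isUnit).pow q
    rw [h1] at hu
    have hmem : -((p : B) * (1 + (ζ - 1) * r)) ∈ maximalIdeal B :=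
      Ideal.neg_mem_iff _ |>.2 (Ideal.mul_mem_right _ _ hpm)
    exact (mem_maximalIdeal _).1 hmem hu
  have hlm : ζ - 1 ∈ maximalIdeal B := by
    rw [hl, hϖ.maximalIdeal_eq]
    refine Ideal.mul_mem_left _ _ (Ideal.pow_mem_of_mem _ (Ideal.mem_span_singleton_self ϖ) j ?_)
    omega
  -- `1 + (ζ - 1) r` is a unit with residue `1`
  have hres1 : residue B (1 + (ζ - 1) * r) = 1 := by
    rw [map_add, map_one, map_mul, (residue_eq_zero_iff _).2 hlm, zero_mul, add_zero]
  have hv : IsUnit (1 + (ζ - 1) * r) := by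
    by_contra hcon
    have : residue B (1 + (ζ - 1) * r) = 0 := (residue_eq_zero_iff _).2 ((mem_maximalIdeal _).2 hcon)
    rw [hres1] at this
    exact one_ne_zero this
  obtain ⟨v, hv⟩ := hv
  have h6 : ((l₀ ^ q : Bˣ) : B) * ϖ ^ (j * q) = ((-(c₀ * v) : Bˣ) : B) * ϖ ^ e := by
    push_cast
    rw [hv, pow_mul, ← mul_pow, ← hl, h1, hpe]
    ring
  have hje : j * q = e := IsDiscreteValuationRing.unit_mul_pow_congr_pow hϖ hϖ _ _ _ _ h6
  have hunit : l₀ ^ q = -(c₀ * v) := IsDiscreteValuationRing.unit_mul_pow_congr_unit hϖ _ _ _ _ h6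
  refine ⟨l₀, j, hj, hl, ?_, ?_⟩
  · rw [hq, ← hje]; ring
  · rw [hq']
    have h7 := congrArg (fun x : Bˣ => residue B (x : B)) hunit
    simp only [Units.val_pow_eq_pow_val, Units.val_neg, Units.val_mul, map_pow, map_neg,
      map_mul] at h7
    rw [h7, hv, hres1, mul_one]

include hϖ hp hpe in
/-- **The Galois action on the top piece is through the cyclotomic character**: if `ζ ∈ B` is a
primitive `p`-th root of unity, `σ ζ = ζ^m` and `σ̄` is a power of the Frobenius, then
`σ u ≡ u^m` modulo `W^(top + 1)` for every `u ∈ U^(top)`, `top = p j`, `j (p - 1) = e`. -/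
theorem top_action (he : 1 ≤ e) {j : ℕ} (hj : 1 ≤ j) (hcrit : p * j = j + e)
    {ζ : B} (hζ : ζ ^ p = 1) (hζ1 : ζ ≠ 1) (σ : B →+* B) [IsLocalHom σ] {c : B}
    (hc : σ ϖ = c * ϖ) (hσϖ : Irreducible (σ ϖ)) {m : ℕ} (hσζ : σ ζ = ζ ^ m)
    (hFrob : ∃ n : ℕ, ∀ a : ResidueField B, ResidueField.map σ a = a ^ p ^ n)
    {u : Bˣ} (hu : u ∈ principalUnits B (p * j)) :
    Units.map (σ : B →* B) u * (u ^ m)⁻¹ ∈ powLevel B p (p * j + 1) := by
  have hp2 := hp.two_le
  haveI : Fact p.Prime := ⟨hp⟩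
  haveI : CharP (ResidueField B) p :=
    (CharP.charP_iff_prime_eq_zero hp).2 (residue_prime_eq_zero hϖ hpe he)
  have hpj : 1 ≤ p * j := by nlinarith
  obtain ⟨l₀, j', hj', hl, hcrit', hl₀⟩ := exists_zeta_sub_one_eq hϖ hp hpe he hζ hζ1
  have hjj : j' = j := by
    obtain ⟨q, hq⟩ : ∃ q, p = q + 1 := ⟨p - 1, by omega⟩
    rw [hq] at hcrit hcrit'
    have h1 : q * j' = e := by nlinarith
    have h2 : q * j = e := by nlinarith
    have hq0 : 0 < q := by omega
    exact Nat.eq_of_mul_eq_mul_left hq0 (h1.trans h2.symm)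
  subst hjj
  -- notation in the residue field
  set L : ResidueField B := residue B (l₀ : B) with hL
  set θ : ResidueField B := residue B c with hθ
  have hL0 : L ≠ 0 := by
    rw [hL, Ne, residue_eq_zero_iff]
    exact fun h => (mem_maximalIdeal _).1 h l₀.isUnit
  -- the relation `σ̄ L · θ^j = L · m`
  have hrel : ResidueField.map σ L * θ ^ j' = L * (m : ResidueField B) := by
    obtain ⟨s, hs⟩ := exists_one_add_pow_eq (ζ - 1) m
    rw [add_sub_cancel] at hs
    have h1 : σ (ζ - 1) = (ζ - 1) * ((m : B) + (ζ - 1) * s) := by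
      rw [map_sub, map_one, hσζ, hs]; ring
    rw [hl, map_mul, map_pow, hc, mul_pow] at h1
    have h2 : ϖ ^ j' * (σ (l₀ : B) * c ^ j') =
        ϖ ^ j' * ((l₀ : B) * ((m : B) + (l₀ : B) * ϖ ^ j' * s)) := by
      linear_combination h1
    have h3 := mul_left_cancel₀ (pow_ne_zero j' hϖ.ne_zero) h2
    have h4 := congrArg (residue B) h3
    have h5 : residue B (ϖ ^ j') = 0 := by
      rw [residue_pow_uniformizer hϖ, if_neg (by omega)]
    simp only [map_mul, map_add, map_pow, map_natCast, h5, mul_zero, zero_mul, add_zero] at h4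
    rw [hL, hθ, ResidueField.map_residue]
    exact h4
  obtain ⟨n, hn⟩ := hFrob
  set y := grade hϖ (p * j') hpj u hu with hy
  have hmem : Units.map (σ : B →* B) u * (u ^ m)⁻¹ ∈ principalUnits B (p * j') :=
    Subgroup.mul_mem _ (map_mem_principalUnits σ hu)
      (Subgroup.inv_mem _ (Subgroup.pow_mem _ hu m))
  rw [mem_powLevel_succ_iff_top hϖ hp hpe he hj hcrit hpj hmem,
    grade_mul_inv hϖ hpj (map_mem_principalUnits σ hu) (Subgroup.pow_mem _ hu m),
    grade_map hϖ σ hc hσϖ hpj hu, grade_pow hϖ hpj hu m, ← hy, ← hθ]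
  -- now a computation in the residue field
  set z : ResidueField B := y / L ^ p with hz
  have hyz : y = L ^ p * z := by rw [hz]; field_simp
  set t : ResidueField B := ∑ i ∈ Finset.range n, z ^ p ^ i with ht
  have htel : t ^ p - t = z ^ p ^ n - z := by
    rw [ht, sum_pow_char]
    have h1 : ∀ i ∈ Finset.range n, (z ^ p ^ i) ^ p = z ^ p ^ (i + 1) := fun i _ => by
      rw [← pow_mul, ← pow_succ]
    rw [Finset.sum_congr rfl h1]
    have h2 : ∑ x ∈ Finset.range n, z ^ p ^ (x + 1) + z ^ p ^ 0 =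
        ∑ i ∈ Finset.range n, z ^ p ^ i + z ^ p ^ n := by
      rw [← Finset.sum_range_succ' (fun i => z ^ p ^ i) n, Finset.sum_range_succ]
    rw [pow_zero, pow_one] at h2
    linear_combination h2
  have hmp : (m : ResidueField B) ^ p = m := by
    have h := congrArg (ZMod.castHom (dvd_refl p) (ResidueField B)) (ZMod.pow_card (m : ZMod p))
    rw [map_pow, map_natCast] at h
    exact h
  have hLp : L ^ p = L ^ (p - 1) * L := by
    rw [← pow_succ]; congr 1; omega
  refine ⟨L * m * t, ?_⟩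
  have hσy : ResidueField.map σ y = ResidueField.map σ L ^ p * z ^ p ^ n := by
    rw [hyz, map_mul, map_pow, hn z]
  have hθp : θ ^ (p * j') * ResidueField.map σ L ^ p = L ^ p * m := by
    rw [mul_comm p j', pow_mul, ← mul_pow, mul_comm, hrel, mul_pow, hmp]
  have h8 : θ ^ (p * j') * ResidueField.map σ y - m * y = L ^ p * m * (z ^ p ^ n - z) := by
    rw [hσy, ← mul_assoc, hθp, hyz]; ring
  have hc0 : residue B (c₀ : B) = -L ^ (p - 1) := by rw [hl₀, neg_neg]
  rw [h8, ← htel, mul_pow, mul_pow, hmp, hc0, hLp]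
  ring

include hϖ hp hpe in
/-- `top_action` for a finite residue field: every local endomorphism induces a power of the
Frobenius on the residue field. -/
theorem top_action_of_finite [Finite (ResidueField B)] (he : 1 ≤ e) {j : ℕ} (hj : 1 ≤ j)
    (hcrit : p * j = j + e) {ζ : B} (hζ : ζ ^ p = 1) (hζ1 : ζ ≠ 1) (σ : B →+* B) [IsLocalHom σ]
    {c : B} (hc : σ ϖ = c * ϖ) (hσϖ : Irreducible (σ ϖ)) {m : ℕ} (hσζ : σ ζ = ζ ^ m)
    {u : Bˣ} (hu : u ∈ principalUnits B (p * j)) :
    Units.map (σ : B →* B) u * (u ^ m)⁻¹ ∈ powLevel B p (p * j + 1) := by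
  haveI : Fact p.Prime := ⟨hp⟩
  haveI : CharP (ResidueField B) p :=
    (CharP.charP_iff_prime_eq_zero hp).2 (residue_prime_eq_zero hϖ hpe he)
  exact top_action hϖ hp hpe he hj hcrit hζ hζ1 σ hc hσϖ hσζ
    (exists_frobenius_pow (ResidueField.map σ)) hu

include hϖ hp hpe in
/-- **The top piece has order dividing `p`** (finite residue field): there is an additive
`τ : k → ZMod p` whose kernel is `{a^p + c̄₀ a}`; hence `u ↦ τ (grade_top u)` identifies
`W^(top)/W^(top+1)` with a subgroup of `ZMod p`. -/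
theorem exists_top_functional [Finite (ResidueField B)] (he : 1 ≤ e) :
    ∃ τ : ResidueField B →+ ZMod p, ∀ y : ResidueField B,
      τ y = 0 ↔ ∃ a : ResidueField B, y = a ^ p + residue B (c₀ : B) * a := by
  haveI : Fact p.Prime := ⟨hp⟩
  haveI : CharP (ResidueField B) p :=
    (CharP.charP_iff_prime_eq_zero hp).2 (residue_prime_eq_zero hϖ hpe he)
  exact exists_functional_range_eq_ker (residue B (c₀ : B))

end Cyclotomic

end Fermat.Agent.S56x.Local.UnitFiltration
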