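/-
P-S56, block (A), leaf LOC-2c (helper48): the structure of `W := U^(e) (Bˣ)^p / (Bˣ)^p` for a
discrete valuation ring `B` with `(p) = (ϖ ^ e)`.

On top of `Lib/CFT/Local/UnitsFiltration` (`principalUnits`, `gradedResidueHom`; import-only) and
`S56x/Local/UnitPow` (helper82; `p`-th powers on the filtration).

* `pthPowers B p`, `W B p j ≤ Bˣ ⧸ pthPowers B p` (image of `U^(j)`), `W_antitone`;
* `W_eq_succ_low` : `W (p i) = W (p i + 1)` below the top (perfect residue field);
* `W_eq_succ_high`, `W_eq_bot_of_high` : `W j = ⊥` above the top, given that some `U^(N)` consists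
  of `p`-th powers (complete case);
* `levelW` : for `p ∤ j` below the top the graded map descends to `W j →* k`, surjective with
  kernel `W (j+1)` (`W j / W (j+1) = gr^j U = k`);
* the top piece (`p j₀ = j₀ + e`): `gr_top (w ^ p) ∈ {x ^ p + c x}`, the character `tauW` and its
  Galois equivariance (`ω`);
* an abstract dimension lemma for invariants along a finite filtration.
-/
import Mathlib
import Fermat.Agent.Lib.CFT.Local.UnitsFiltration
import Fermat.Agent.S56x.Local.UnitPow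

set_option autoImplicit false
set_option linter.unusedSectionVars false

open IsLocalRing

namespace Fermat.Agent.S56x.Local.WbFiltration

open Fermat.Agent.Lib.CFT.Local.UnitsFiltration Fermat.Agent.S56x.Local.UnitPow

/-! ### `p`-th powers and the groups `W j` -/

section Defs

variable (B : Type*) [CommRing B] [IsLocalRing B] (p : ℕ)

/-- The subgroup of `p`-th powers of units. -/
def pthPowers : Subgroup Bˣ := (powMonoidHom p : Bˣ →* Bˣ).range

variable {B p}

omit [IsLocalRing B] in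
theorem mem_pthPowers {u : Bˣ} : u ∈ pthPowers B p ↔ ∃ w : Bˣ, w ^ p = u := Iff.rfl

omit [IsLocalRing B] in
theorem pow_mem_pthPowers (w : Bˣ) : w ^ p ∈ pthPowers B p := ⟨w, rfl⟩

variable (B p)

/-- `W j` : the image of `U^(j)` in `Bˣ / (Bˣ)^p`. -/
def W (j : ℕ) : Subgroup (Bˣ ⧸ pthPowers B p) :=
  (principalUnits B j).map (QuotientGroup.mk' (pthPowers B p))

variable {B p}

theorem mem_W {j : ℕ} {q : Bˣ ⧸ pthPowers B p} :
    q ∈ W B p j ↔ ∃ u ∈ principalUnits B j, (QuotientGroup.mk u : Bˣ ⧸ pthPowers B p) = q :=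
  Iff.rfl

theorem mk_mem_W {j : ℕ} {u : Bˣ} (hu : u ∈ principalUnits B j) :
    (QuotientGroup.mk u : Bˣ ⧸ pthPowers B p) ∈ W B p j := ⟨u, hu, rfl⟩

/-- `mk u ∈ W j` iff `u` is in `U^(j)` up to a `p`-th power. -/
theorem mk_mem_W_iff {j : ℕ} {u : Bˣ} :
    (QuotientGroup.mk u : Bˣ ⧸ pthPowers B p) ∈ W B p j ↔
      ∃ w : Bˣ, u * (w ^ p)⁻¹ ∈ principalUnits B j := by
  constructor
  · rintro ⟨v, hv, hvu⟩
    rw [QuotientGroup.mk'_apply, QuotientGroup.eq] at hvu
    obtain ⟨w, hw⟩ := hvu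
    refine ⟨w, ?_⟩
    have : u * (w ^ p)⁻¹ = v := by
      have hw' : w ^ p = v⁻¹ * u := hw
      rw [hw']
      group
    rwa [this]
  · rintro ⟨w, hw⟩
    refine ⟨u * (w ^ p)⁻¹, hw, ?_⟩
    rw [QuotientGroup.mk'_apply, QuotientGroup.eq]
    exact ⟨w, by show w ^ p = _; group⟩

theorem W_antitone : Antitone (W B p) := fun _ _ hij =>
  Subgroup.map_mono (principalUnits_antitone hij)

theorem W_zero : W B p 0 = ⊤ := by
  rw [W, principalUnits_zero, ← MonoidHom.range_eq_map, QuotientGroup.range_mk']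

/-- every element of `Bˣ / (Bˣ)^p` is killed by `p`. -/
theorem pow_eq_one (q : Bˣ ⧸ pthPowers B p) : q ^ p = 1 := by
  induction q using QuotientGroup.induction_on with
  | H u =>
    rw [← QuotientGroup.mk_pow, QuotientGroup.eq_one_iff]
    exact pow_mem_pthPowers u

end Defs

/-! ### The chain `W j` in a discrete valuation ring -/

section DVR

variable {B : Type*} [CommRing B] [IsDomain B] [IsDiscreteValuationRing B]
  {ϖ : B} (hϖ : Irreducible ϖ) {p : ℕ} (hp : p.Prime) {c₀ : Bˣ} {e : ℕ}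
  (hpe : (p : B) = c₀ * ϖ ^ e)

/-- the graded map on elements (additive notation). -/
noncomputable def gr (i : ℕ) (hi : 1 ≤ i) (u : principalUnits B i) : ResidueField B :=
  Multiplicative.toAdd (gradedResidueHom hϖ i hi u)

theorem gr_mul (i : ℕ) (hi : 1 ≤ i) (u v : principalUnits B i) :
    gr hϖ i hi (u * v) = gr hϖ i hi u + gr hϖ i hi v := by
  unfold gr; rw [map_mul, toAdd_mul]

theorem gr_one (i : ℕ) (hi : 1 ≤ i) : gr hϖ i hi 1 = 0 := by
  unfold gr; rw [map_one, toAdd_one]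

theorem gr_inv (i : ℕ) (hi : 1 ≤ i) (u : principalUnits B i) :
    gr hϖ i hi u⁻¹ = -gr hϖ i hi u := by
  unfold gr; rw [map_inv, toAdd_inv]

theorem gr_eq_zero_iff (i : ℕ) (hi : 1 ≤ i) (u : principalUnits B i) :
    gr hϖ i hi u = 0 ↔ (u : Bˣ) ∈ principalUnits B (i + 1) :=
  (mem_succ_iff_graded_eq_zero hϖ hi u.2).symm

theorem gr_surjective (i : ℕ) (hi : 1 ≤ i) : Function.Surjective (gr hϖ i hi) := fun x => by
  obtain ⟨u, hu⟩ := gradedResidueHom_surjective hϖ i hi (Multiplicative.ofAdd x)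
  exact ⟨u, by unfold gr; rw [hu]; rfl⟩

include hϖ hp hpe in
/-- **Collapse at the levels divisible by `p` below the top** (perfect residue field). -/
theorem W_eq_succ_low {i : ℕ} (hi : 1 ≤ i) (hlow : p * i < i + e)
    (hperf : ∀ a : ResidueField B, ∃ b, b ^ p = a) : W B p (p * i) = W B p (p * i + 1) := by
  refine le_antisymm ?_ (W_antitone (Nat.le_succ _))
  rintro q ⟨y, hy, rfl⟩
  obtain ⟨x, -, hx⟩ := exists_pow_prime_approx_low hϖ hp hpe hi hlow hperf hy
  rw [QuotientGroup.mk'_apply]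
  exact mk_mem_W_iff.mpr ⟨x, hx⟩

include hϖ hp hpe in
/-- **Collapse above the top.** -/
theorem W_eq_succ_high {i : ℕ} (hi : 1 ≤ i) (hhigh : i + e < p * i) :
    W B p (i + e) = W B p (i + e + 1) := by
  refine le_antisymm ?_ (W_antitone (Nat.le_succ _))
  rintro q ⟨y, hy, rfl⟩
  obtain ⟨x, -, hx⟩ := exists_pow_prime_approx_high hϖ hp hpe hi hhigh hy
  rw [QuotientGroup.mk'_apply]
  exact mk_mem_W_iff.mpr ⟨x, hx⟩

include hϖ hp hpe in
/-- Above the top all `W j` coincide. -/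
theorem W_eq_of_high {j : ℕ} (hj : e * p < j * (p - 1)) {n : ℕ} (hjn : j ≤ n) :
    W B p j = W B p n := by
  obtain ⟨p', rfl⟩ : ∃ p', p = p' + 1 := ⟨p - 1, (Nat.succ_pred_eq_of_pos hp.pos).symm⟩
  rw [Nat.add_sub_cancel] at hj
  induction n, hjn using Nat.le_induction with
  | base => rfl
  | succ n hjn ih =>
    rw [ih]
    have hen : e < n := by
      by_contra h
      have : j ≤ e := le_trans hjn (not_lt.mp h)
      nlinarith
    obtain ⟨i, rfl⟩ : ∃ i, n = i + e := ⟨n - e, by omega⟩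
    have hi : 1 ≤ i := by omega
    refine W_eq_succ_high hϖ hp hpe hi ?_
    nlinarith

include hϖ hp hpe in
/-- **Above the top `W j` is trivial**, provided some `U^(N)` consists of `p`-th powers (e.g. `B`
complete: (PP2)). -/
theorem W_eq_bot_of_high {N : ℕ} (hN : principalUnits B N ≤ pthPowers B p) {j : ℕ}
    (hj : e * p < j * (p - 1)) : W B p j = ⊥ := by
  rw [W_eq_of_high hϖ hp hpe hj (le_max_left j N), eq_bot_iff]
  rintro q ⟨u, hu, rfl⟩
  rw [QuotientGroup.mk'_apply, Subgroup.mem_bot, QuotientGroup.eq_one_iff]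
  exact hN (principalUnits_antitone (le_max_right j N) hu)

/-! ### Exactness at the levels prime to `p` -/

include hϖ hp hpe in
/-- **Exactness**: for `p ∤ j` below the top, an element of `U^(j)` whose class lies in `W (j+1)`
lies in `U^(j+1)`. -/
theorem mem_succ_of_mk_mem_W (he : 1 ≤ e) {j : ℕ} (hj : 1 ≤ j) (hpj : ¬ p ∣ j)
    (htop : j * (p - 1) < e * p) {u : Bˣ} (hu : u ∈ principalUnits B j)
    (hq : (QuotientGroup.mk u : Bˣ ⧸ pthPowers B p) ∈ W B p (j + 1)) :
    u ∈ principalUnits B (j + 1) := by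
  obtain ⟨w, hw⟩ := mk_mem_W_iff.mp hq
  have hwj : w ^ p ∈ principalUnits B j := by
    have h1 := (principalUnits B j).mul_mem ((principalUnits B j).inv_mem
      (principalUnits_antitone (Nat.le_succ j) hw)) hu
    have h2 : (u * (w ^ p)⁻¹)⁻¹ * u = w ^ p := by group
    rwa [h2] at h1
  have hw1 := pow_prime_mem_succ hϖ hp hpe he hj hpj htop hwj
  have h3 : u = u * (w ^ p)⁻¹ * w ^ p := by group
  rw [h3]
  exact (principalUnits B (j + 1)).mul_mem hw hw1

include hϖ hp hpe in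
/-- for `p ∤ j` below the top, the graded map only depends on the class modulo `p`-th powers. -/
theorem gr_eq_of_mk_eq (he : 1 ≤ e) {j : ℕ} (hj : 1 ≤ j) (hpj : ¬ p ∣ j)
    (htop : j * (p - 1) < e * p) (u v : principalUnits B j)
    (h : (QuotientGroup.mk (u : Bˣ) : Bˣ ⧸ pthPowers B p) = QuotientGroup.mk (v : Bˣ)) :
    gr hϖ j hj u = gr hϖ j hj v := by
  have h1 : (QuotientGroup.mk ((u * v⁻¹ : principalUnits B j) : Bˣ) : Bˣ ⧸ pthPowers B p)
      ∈ W B p (j + 1) := by
    have : (QuotientGroup.mk ((u * v⁻¹ : principalUnits B j) : Bˣ) : Bˣ ⧸ pthPowers B p) = 1 := by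
      push_cast
      rw [QuotientGroup.mk_mul, QuotientGroup.mk_inv, h, mul_inv_cancel]
    rw [this]
    exact (W B p (j + 1)).one_mem
  have h2 := mem_succ_of_mk_mem_W hϖ hp hpe he hj hpj htop (u * v⁻¹).2 h1
  rw [← gr_eq_zero_iff hϖ j hj, gr_mul, gr_inv] at h2
  exact sub_eq_zero.mp (by rw [sub_eq_add_neg]; exact h2)

/-! ### `W j / W (j+1) = k` for `p ∤ j` below the top -/

section LevelW

variable (he : 1 ≤ e) {j : ℕ} (hj : 1 ≤ j) (hpj : ¬ p ∣ j) (htop : j * (p - 1) < e * p)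

/-- a representative in `U^(j)` of an element of `W j`. -/
noncomputable def repW {j : ℕ} (q : W B p j) : principalUnits B j :=
  ⟨Classical.choose q.2, (Classical.choose_spec q.2).1⟩

theorem mk_repW {j : ℕ} (q : W B p j) :
    (QuotientGroup.mk ((repW q : principalUnits B j) : Bˣ) : Bˣ ⧸ pthPowers B p) = q :=
  (Classical.choose_spec q.2).2

/-- **the graded map on `W j`** (`p ∤ j` below the top). -/
noncomputable def levelW : W B p j →* Multiplicative (ResidueField B) where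
  toFun q := Multiplicative.ofAdd (gr hϖ j hj (repW q))
  map_one' := by
    rw [← ofAdd_zero, ← gr_one hϖ j hj]
    congr 1
    exact gr_eq_of_mk_eq hϖ hp hpe he hj hpj htop _ _ (by rw [mk_repW]; rfl)
  map_mul' q r := by
    rw [← ofAdd_add, ← gr_mul]
    congr 1
    refine gr_eq_of_mk_eq hϖ hp hpe he hj hpj htop _ _ ?_
    rw [mk_repW]
    push_cast
    rw [QuotientGroup.mk_mul, mk_repW, mk_repW]

theorem levelW_mk (u : principalUnits B j) :
    levelW hϖ hp hpe he hj hpj htop ⟨QuotientGroup.mk (u : Bˣ), mk_mem_W u.2⟩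
      = Multiplicative.ofAdd (gr hϖ j hj u) := by
  show Multiplicative.ofAdd (gr hϖ j hj (repW _)) = _
  congr 1
  exact gr_eq_of_mk_eq hϖ hp hpe he hj hpj htop _ _ (by rw [mk_repW])

theorem levelW_surjective : Function.Surjective (levelW hϖ hp hpe he hj hpj htop) := fun x => by
  obtain ⟨u, hu⟩ := gr_surjective hϖ j hj (Multiplicative.toAdd x)
  exact ⟨⟨QuotientGroup.mk (u : Bˣ), mk_mem_W u.2⟩, by rw [levelW_mk, hu]; rfl⟩

/-- the kernel of `levelW` is `W (j+1)`. -/
theorem levelW_eq_one_iff (q : W B p j) :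
    levelW hϖ hp hpe he hj hpj htop q = 1 ↔ (q : Bˣ ⧸ pthPowers B p) ∈ W B p (j + 1) := by
  obtain ⟨q, u, hu, rfl⟩ := q
  rw [show (⟨(QuotientGroup.mk' (pthPowers B p)) u, ⟨u, hu, rfl⟩⟩ : W B p j)
      = ⟨QuotientGroup.mk ((⟨u, hu⟩ : principalUnits B j) : Bˣ), mk_mem_W hu⟩ from rfl,
    levelW_mk, ← ofAdd_zero, Multiplicative.ofAdd.apply_eq_iff_eq, gr_eq_zero_iff]
  constructor
  · intro h
    exact mk_mem_W h
  · intro h
    exact mem_succ_of_mk_mem_W hϖ hp hpe he hj hpj htop hu h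

theorem levelW_ker :
    (levelW hϖ hp hpe he hj hpj htop).ker = (W B p (j + 1)).subgroupOf (W B p j) := by
  ext q
  rw [MonoidHom.mem_ker, levelW_eq_one_iff, Subgroup.mem_subgroupOf]

end LevelW

/-! ### Galois equivariance -/

section Galois

omit [IsDomain B] [IsDiscreteValuationRing B] in
/-- a ring automorphism is a local homomorphism. -/
theorem isLocalHom_ringEquiv [IsLocalRing B] (σ : B ≃+* B) : IsLocalHom (σ : B →+* B) :=
  ⟨fun a ha => by
    have h := ha.map (σ.symm : B →+* B)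
    simpa using h⟩

variable (σ : B ≃+* B)

/-- the action of a ring automorphism on units. -/
def actU : Bˣ →* Bˣ := Units.map ((σ : B →+* B) : B →* B)

omit [IsDomain B] [IsDiscreteValuationRing B] in
@[simp] theorem coe_actU (u : Bˣ) : ((actU σ u : Bˣ) : B) = σ u := rfl

theorem actU_mem_principalUnits {j : ℕ} {u : Bˣ} (hu : u ∈ principalUnits B j) :
    actU σ u ∈ principalUnits B j :=
  haveI := isLocalHom_ringEquiv σ
  map_mem_principalUnits (σ : B →+* B) hu

variable (p) in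
/-- the action of a ring automorphism on `Bˣ / (Bˣ)^p`. -/
def actQ : Bˣ ⧸ pthPowers B p →* Bˣ ⧸ pthPowers B p :=
  QuotientGroup.map _ _ (actU σ) (by
    rintro _ ⟨w, rfl⟩
    exact ⟨actU σ w, by
      show actU σ w ^ p = actU σ (w ^ p)
      rw [map_pow]⟩)

omit [IsDomain B] [IsDiscreteValuationRing B] in
theorem actQ_mk [IsLocalRing B] (u : Bˣ) :
    actQ p σ (QuotientGroup.mk u) = QuotientGroup.mk (actU σ u) := rfl

theorem actQ_mem_W {j : ℕ} {q : Bˣ ⧸ pthPowers B p} (hq : q ∈ W B p j) :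
    actQ p σ q ∈ W B p j := by
  obtain ⟨u, hu, rfl⟩ := hq
  exact ⟨actU σ u, actU_mem_principalUnits σ hu, rfl⟩

include hϖ in
/-- **equivariance of the graded maps**: if `σ ϖ = c ϖ` then
`gr_j (σ u) = (c mod 𝔪)^j · σ̄ (gr_j u)`. -/
theorem gr_actU {c : B} (hc : σ ϖ = c * ϖ) {j : ℕ} (hj : 1 ≤ j) (u : principalUnits B j) :
    gr hϖ j hj ⟨actU σ u, actU_mem_principalUnits σ u.2⟩ =
      residue B c ^ j * ResidueField.map (σ : B →+* B) (gr hϖ j hj u) := by
  have := isLocalHom_ringEquiv σ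
  have hσϖ : Irreducible ((σ : B →+* B) ϖ) := (MulEquiv.irreducible_iff σ.toMulEquiv).mpr hϖ
  exact graded_map hϖ (σ : B →+* B) hc hσϖ hj u

variable (he : 1 ≤ e) {j : ℕ} (hj : 1 ≤ j) (hpj : ¬ p ∣ j) (htop : j * (p - 1) < e * p)

/-- **equivariance of `levelW`**: `W j / W (j+1) = k(θ^j)`. -/
theorem levelW_actQ {c : B} (hc : σ ϖ = c * ϖ) (q : W B p j) :
    Multiplicative.toAdd (levelW hϖ hp hpe he hj hpj htop ⟨actQ p σ q, actQ_mem_W σ q.2⟩) =
      residue B c ^ j * ResidueField.map (σ : B →+* B)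
        (Multiplicative.toAdd (levelW hϖ hp hpe he hj hpj htop q)) := by
  obtain ⟨q, u, hu, rfl⟩ := q
  have h1 : levelW hϖ hp hpe he hj hpj htop
      ⟨(QuotientGroup.mk' (pthPowers B p)) u, ⟨u, hu, rfl⟩⟩
      = Multiplicative.ofAdd (gr hϖ j hj ⟨u, hu⟩) :=
    levelW_mk hϖ hp hpe he hj hpj htop ⟨u, hu⟩
  have h2 : levelW hϖ hp hpe he hj hpj htop
      ⟨actQ p σ ((QuotientGroup.mk' (pthPowers B p)) u),
        actQ_mem_W σ (⟨u, hu, rfl⟩ : (QuotientGroup.mk' (pthPowers B p)) u ∈ W B p j)⟩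
      = Multiplicative.ofAdd (gr hϖ j hj ⟨actU σ u, actU_mem_principalUnits σ hu⟩) :=
    levelW_mk hϖ hp hpe he hj hpj htop ⟨actU σ u, actU_mem_principalUnits σ hu⟩
  rw [h1, h2, toAdd_ofAdd, toAdd_ofAdd]
  exact gr_actU hϖ σ hc hj ⟨u, hu⟩

end Galois

/-! ### The top piece: `p j₀ = j₀ + e` -/

section Top

variable (he : 1 ≤ e) {j₀ : ℕ} (hj₀ : 1 ≤ j₀) (hcrit : p * j₀ = j₀ + e)

include hp hj₀ in
theorem one_le_top : 1 ≤ p * j₀ := le_trans hj₀ (Nat.le_mul_of_pos_left j₀ hp.pos)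

include hϖ hp hpe he in
/-- the residue field has characteristic `p`. -/
theorem charP_residueField : CharP (ResidueField B) p :=
  (CharP.charP_iff_prime_eq_zero hp).mpr (residue_prime_eq_zero hϖ hpe he)

/-- `ψ x = x ^ p + c x`, the `p`-th power map on the critical graded piece. -/
noncomputable def psi : ResidueField B →+ ResidueField B :=
  haveI := charP_residueField hϖ hp hpe he
  haveI : Fact p.Prime := ⟨hp⟩
  { toFun := fun x => x ^ p + residue B c₀ * x
    map_zero' := by simp [hp.ne_zero]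
    map_add' := fun x y => by rw [add_pow_char, mul_add]; ring }

theorem psi_apply (x : ResidueField B) :
    psi hϖ hp hpe he x = x ^ p + residue B c₀ * x := rfl

/-- the image of `ψ`. -/
noncomputable def Psi : AddSubgroup (ResidueField B) := (psi hϖ hp hpe he).range

include hj₀ hcrit in
/-- **`p`-th powers at the top level**: if `w ^ p ∈ U^(top)` then its graded value is of the form
`x ^ p + c x`. -/
theorem gr_top_pow_mem_Psi {w : Bˣ} (hw : w ^ p ∈ principalUnits B (p * j₀)) :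
    gr hϖ (p * j₀) (one_le_top hp hj₀) ⟨w ^ p, hw⟩ ∈ Psi hϖ hp hpe he := by
  have htop1 := one_le_top hp hj₀
  obtain ⟨p', rfl⟩ : ∃ p', p = p' + 1 := ⟨p - 1, (Nat.succ_pred_eq_of_pos hp.pos).symm⟩
  have hp'e : p' * j₀ = e := by nlinarith
  have hw1 : w ∈ principalUnits B 1 :=
    mem_one_of_pow_prime_mem hϖ hp hpe he (principalUnits_antitone htop1 hw)
  by_cases hw0 : w = 1
  · subst hw0
    refine ⟨0, ?_⟩
    rw [map_zero]
    symm
    rw [gr_eq_zero_iff]
    show (1 : Bˣ) ^ (p' + 1) ∈ _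
    rw [one_pow]
    exact Subgroup.one_mem _
  obtain ⟨i, hi, hwi, hwi'⟩ := exists_exact_level hϖ hw1 hw0
  have hgi : gr hϖ i hi ⟨w, hwi⟩ ≠ 0 := fun h => hwi' ((gr_eq_zero_iff hϖ i hi ⟨w, hwi⟩).mp h)
  rcases lt_trichotomy i j₀ with hlt | heq | hgt
  · -- below the critical level: impossible
    exfalso
    have hlow : (p' + 1) * i < i + e := by nlinarith
    obtain ⟨hmem, hval⟩ := graded_pow_prime_low hϖ hp hpe hi hlow hwi
    have hne : Multiplicative.toAdd (gradedResidueHom hϖ ((p' + 1) * i)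
        (by have := hp.pos; nlinarith) ⟨w ^ (p' + 1), hmem⟩) ≠ 0 := by
      rw [hval]
      exact pow_ne_zero _ hgi
    apply hne
    rw [← mem_succ_iff_graded_eq_zero hϖ (by have := hp.pos; nlinarith) hmem]
    refine principalUnits_antitone ?_ hw
    nlinarith
  · -- the critical level
    subst heq
    obtain ⟨hmem, hval⟩ := graded_pow_prime_crit hϖ hp hpe hi hcrit hwi
    exact ⟨gr hϖ i hi ⟨w, hwi⟩, by rw [psi_apply]; exact hval.symm⟩
  · -- above the critical level
    have hhigh : i + e < (p' + 1) * i := by nlinarith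
    obtain ⟨hmem, -⟩ := graded_pow_prime_high hϖ hp hpe hi hhigh hwi
    refine ⟨0, ?_⟩
    rw [map_zero]
    symm
    rw [gr_eq_zero_iff]
    refine principalUnits_antitone ?_ hmem
    show (p' + 1) * j₀ + 1 ≤ i + e
    nlinarith

include hj₀ hcrit in
/-- two elements of `U^(top)` with the same class modulo `p`-th powers have the same graded
value modulo `Ψ`. -/
theorem gr_top_sub_mem_Psi (u v : principalUnits B (p * j₀))
    (h : (QuotientGroup.mk (u : Bˣ) : Bˣ ⧸ pthPowers B p) = QuotientGroup.mk (v : Bˣ)) :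
    gr hϖ (p * j₀) (one_le_top hp hj₀) u - gr hϖ (p * j₀) (one_le_top hp hj₀) v
      ∈ Psi hϖ hp hpe he := by
  rw [eq_comm, QuotientGroup.eq] at h
  obtain ⟨w, hw⟩ := h
  have hw' : w ^ p = (v : Bˣ)⁻¹ * u := hw
  have hmem : w ^ p ∈ principalUnits B (p * j₀) := by
    rw [hw']
    exact (principalUnits B _).mul_mem ((principalUnits B _).inv_mem v.2) u.2
  have key := gr_top_pow_mem_Psi hϖ hp hpe he hj₀ hcrit hmem
  have : (⟨w ^ p, hmem⟩ : principalUnits B (p * j₀)) = v⁻¹ * u := Subtype.ext hw'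
  rw [this, gr_mul, gr_inv] at key
  rwa [sub_eq_neg_add]

/-- **the top graded map** `W top → k / Ψ`. -/
noncomputable def topW : W B p (p * j₀) →* Multiplicative (ResidueField B ⧸ Psi hϖ hp hpe he) where
  toFun q := Multiplicative.ofAdd
    (QuotientAddGroup.mk (gr hϖ (p * j₀) (one_le_top hp hj₀) (repW q)))
  map_one' := by
    rw [← ofAdd_zero]
    congr 1
    rw [QuotientAddGroup.eq_zero_iff]
    have h := gr_top_sub_mem_Psi hϖ hp hpe he hj₀ hcrit (repW (1 : W B p (p * j₀))) 1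
      (by rw [mk_repW]; rfl)
    rwa [gr_one, sub_zero] at h
  map_mul' q r := by
    rw [← ofAdd_add, ← QuotientAddGroup.mk_add, ← gr_mul]
    congr 1
    rw [QuotientAddGroup.eq_iff_sub_mem]
    refine gr_top_sub_mem_Psi hϖ hp hpe he hj₀ hcrit _ _ ?_
    rw [mk_repW]
    push_cast
    rw [QuotientGroup.mk_mul, mk_repW, mk_repW]

theorem topW_mk (u : principalUnits B (p * j₀)) :
    topW hϖ hp hpe he hj₀ hcrit ⟨QuotientGroup.mk (u : Bˣ), mk_mem_W u.2⟩
      = Multiplicative.ofAdd (QuotientAddGroup.mk (gr hϖ (p * j₀) (one_le_top hp hj₀) u)) := by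
  show Multiplicative.ofAdd (QuotientAddGroup.mk (gr hϖ (p * j₀) _ (repW _))) = _
  congr 1
  rw [QuotientAddGroup.eq_iff_sub_mem]
  exact gr_top_sub_mem_Psi hϖ hp hpe he hj₀ hcrit _ _ (by rw [mk_repW])

theorem topW_surjective : Function.Surjective (topW hϖ hp hpe he hj₀ hcrit) := fun x => by
  obtain ⟨y, hy⟩ := QuotientAddGroup.mk_surjective (Multiplicative.toAdd x)
  obtain ⟨u, hu⟩ := gr_surjective hϖ (p * j₀) (one_le_top hp hj₀) y
  exact ⟨⟨QuotientGroup.mk (u : Bˣ), mk_mem_W u.2⟩, by rw [topW_mk, hu, hy]; rfl⟩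

/-- the kernel of `topW` is `W (top + 1)`. -/
theorem topW_eq_one_iff (q : W B p (p * j₀)) :
    topW hϖ hp hpe he hj₀ hcrit q = 1 ↔ (q : Bˣ ⧸ pthPowers B p) ∈ W B p (p * j₀ + 1) := by
  obtain ⟨q, u, hu, rfl⟩ := q
  rw [show (⟨(QuotientGroup.mk' (pthPowers B p)) u, ⟨u, hu, rfl⟩⟩ : W B p (p * j₀))
      = ⟨QuotientGroup.mk ((⟨u, hu⟩ : principalUnits B (p * j₀)) : Bˣ), mk_mem_W hu⟩ from rfl,
    topW_mk, ← ofAdd_zero, Multiplicative.ofAdd.apply_eq_iff_eq, QuotientAddGroup.eq_zero_iff]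
  constructor
  · rintro ⟨x, hx⟩
    obtain ⟨w, hw⟩ := gr_surjective hϖ j₀ hj₀ x
    obtain ⟨hmem, hval⟩ := graded_pow_prime_crit hϖ hp hpe hj₀ hcrit w.2
    refine mk_mem_W_iff.mpr ⟨w, ?_⟩
    have h1 : gr hϖ (p * j₀) (one_le_top hp hj₀) (⟨u, hu⟩ * ⟨(w : Bˣ) ^ p, hmem⟩⁻¹) = 0 := by
      rw [gr_mul, gr_inv, ← hx, psi_apply, ← hw]
      have : gr hϖ (p * j₀) (one_le_top hp hj₀) ⟨(w : Bˣ) ^ p, hmem⟩
          = gr hϖ j₀ hj₀ w ^ p + residue B c₀ * gr hϖ j₀ hj₀ w := hval
      rw [this, add_neg_cancel]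
    exact (gr_eq_zero_iff hϖ _ _ _).mp h1
  · intro h
    obtain ⟨w, hw⟩ := mk_mem_W_iff.mp h
    have hwp : w ^ p ∈ principalUnits B (p * j₀) := by
      have h1 := (principalUnits B (p * j₀)).mul_mem ((principalUnits B (p * j₀)).inv_mem
        (principalUnits_antitone (Nat.le_succ _) hw)) hu
      have h2 : (u * (w ^ p)⁻¹)⁻¹ * u = w ^ p := by group
      rwa [h2] at h1
    have key := gr_top_pow_mem_Psi hϖ hp hpe he hj₀ hcrit hwp
    have h3 : (⟨u, hu⟩ : principalUnits B (p * j₀))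
        = ⟨u * (w ^ p)⁻¹, principalUnits_antitone (Nat.le_succ _) hw⟩ * ⟨w ^ p, hwp⟩ :=
      Subtype.ext (by show u = u * (w ^ p)⁻¹ * w ^ p; group)
    rw [h3, gr_mul, (gr_eq_zero_iff hϖ _ _ _).mpr hw, zero_add]
    exact key

theorem topW_ker : (topW hϖ hp hpe he hj₀ hcrit).ker
    = (W B p (p * j₀ + 1)).subgroupOf (W B p (p * j₀)) := by
  ext q
  rw [MonoidHom.mem_ker, topW_eq_one_iff, Subgroup.mem_subgroupOf]

/-! #### The size of the top piece -/

/-- `k / Ψ` has at most `p` elements (finite residue field). -/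
theorem card_quot_Psi_le [Finite (ResidueField B)] :
    Nat.card (ResidueField B ⧸ Psi hϖ hp hpe he) ≤ p := by
  classical
  set ψ := psi hϖ hp hpe he with hψ
  -- `|k / range| = |ker|`
  have h1 : Nat.card (ResidueField B) = Nat.card ψ.ker * Nat.card ψ.range := by
    rw [AddSubgroup.card_eq_card_quotient_mul_card_addSubgroup ψ.ker, mul_comm]
    congr 1
    exact Nat.card_congr (QuotientAddGroup.quotientKerEquivRange ψ).toEquiv
  have h2 : Nat.card (ResidueField B) =
      Nat.card (ResidueField B ⧸ ψ.range) * Nat.card ψ.range :=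
    AddSubgroup.card_eq_card_quotient_mul_card_addSubgroup ψ.range
  have hpos : 0 < Nat.card ψ.range := Nat.card_pos
  have h3 : Nat.card (ResidueField B ⧸ ψ.range) = Nat.card ψ.ker :=
    Nat.eq_of_mul_eq_mul_right hpos (h2.symm.trans h1)
  show Nat.card (ResidueField B ⧸ ψ.range) ≤ p
  rw [h3]
  -- the kernel consists of roots of `X ^ p + c X`
  let f : Polynomial (ResidueField B) :=
    Polynomial.X ^ p + Polynomial.C (residue B c₀) * Polynomial.X
  have hdeg : f.natDegree = p := by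
    have h1 : (Polynomial.C (residue B (c₀ : B)) * Polynomial.X).degree
        < (Polynomial.X ^ p : Polynomial (ResidueField B)).degree := by
      rw [Polynomial.degree_X_pow]
      refine lt_of_le_of_lt (Polynomial.degree_C_mul_X_le _) ?_
      exact_mod_cast hp.one_lt
    rw [Polynomial.natDegree_add_eq_left_of_degree_lt h1, Polynomial.natDegree_X_pow]
  have hf0 : f ≠ 0 := fun h => by
    rw [h, Polynomial.natDegree_zero] at hdeg
    exact hp.ne_zero hdeg.symm
  have hsub : (ψ.ker : Set (ResidueField B)) ⊆ (f.roots.toFinset : Set (ResidueField B)) := by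
    intro x hx
    have hx' : x ^ p + residue B c₀ * x = 0 := hx
    simp only [Finset.mem_coe, Multiset.mem_toFinset, Polynomial.mem_roots hf0,
      Polynomial.IsRoot.def, f, Polynomial.eval_add, Polynomial.eval_pow, Polynomial.eval_X,
      Polynomial.eval_mul, Polynomial.eval_C]
    exact hx'
  calc Nat.card ψ.ker = Nat.card (ψ.ker : Set (ResidueField B)) := rfl
    _ ≤ Nat.card (f.roots.toFinset : Set (ResidueField B)) :=
        Nat.card_mono (Finset.finite_toSet _) hsub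
    _ = f.roots.toFinset.card := Nat.card_eq_card_toFinset _ |>.trans (by simp)
    _ ≤ Multiset.card f.roots := Multiset.toFinset_card_le _
    _ ≤ f.natDegree := Polynomial.card_roots' f
    _ = p := hdeg

end Top

end DVR

end Fermat.Agent.S56x.Local.WbFiltration
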