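import Mathlib
import Fermat.Agent.S56x.Local.WbFiltration
import Fermat.Agent.S56x.Local.UnitFiltration

/-!
# P-S56, block (A), LOC-2c (helper48): the top piece of `W` in the quotient language

Wrapper around helper39's `S56x/Local/UnitFiltration` (`powLevel`, `top_action`,
`exists_top_functional`) for the quotient-group filtration `W B p j ≤ Bˣ ⧸ (Bˣ)^p` of
`S56x/Local/WbFiltration`.

* `mem_powLevel_iff_mk_mem_W` : `u ∈ powLevel B p j ↔ mk u ∈ W B p j`  (dictionary);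
* `topW_actQ` / `topW_actQ_of_finite` : if `ζ` is a primitive `p`-th root of unity in `B` and
  `σ ζ = ζ ^ m`, then `topW (σ q) = topW q ^ m` (the Galois group acts on the top piece through
  the cyclotomic character);
* `tauQ : k ⧸ Ψ →+ ZMod p` injective (finite residue field), `tauW : W top →* Multiplicative (ZMod p)`
  with kernel `W (top + 1)` and `tauW (σ q) = tauW q ^ m`.
-/

set_option autoImplicit false
set_option linter.unusedSectionVars false
set_option linter.style.haveILetI false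

open IsLocalRing

namespace Fermat.Agent.S56x.Local.WbTop

open Fermat.Agent.Lib.CFT.Local.UnitsFiltration Fermat.Agent.S56x.Local.WbFiltration

/-! ### Dictionary `powLevel` ↔ `W` -/

section Dict

variable {B : Type*} [CommRing B] [IsLocalRing B] {p : ℕ}

/-- the two encodings of `W^(j) = U^(j) (Bˣ)^p` agree. -/
theorem mem_powLevel_iff_mk_mem_W {j : ℕ} {u : Bˣ} :
    u ∈ UnitFiltration.powLevel B p j ↔
      (QuotientGroup.mk u : Bˣ ⧸ pthPowers B p) ∈ W B p j := by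
  rw [UnitFiltration.mem_powLevel_iff, mk_mem_W_iff]
  constructor
  · rintro ⟨v, hv, w, rfl⟩
    refine ⟨w, ?_⟩
    have : v * w ^ p * (w ^ p)⁻¹ = v := by group
    rwa [this]
  · rintro ⟨w, hw⟩
    exact ⟨u * (w ^ p)⁻¹, hw, w, by group⟩

/-- the subgroup `powLevel B p j` is the preimage of `W B p j`. -/
theorem powLevel_eq_comap (j : ℕ) :
    UnitFiltration.powLevel B p j = (W B p j).comap (QuotientGroup.mk' (pthPowers B p)) := by
  ext u
  rw [Subgroup.mem_comap]
  exact mem_powLevel_iff_mk_mem_W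

end Dict

/-! ### The cyclotomic action on the top piece -/

section Top

variable {B : Type*} [CommRing B] [IsDomain B] [IsDiscreteValuationRing B]
  {ϖ : B} (hϖ : Irreducible ϖ) {p : ℕ} (hp : p.Prime) {c₀ : Bˣ} {e : ℕ}
  (hpe : (p : B) = c₀ * ϖ ^ e)
  (he : 1 ≤ e) {j₀ : ℕ} (hj₀ : 1 ≤ j₀) (hcrit : p * j₀ = j₀ + e)

/-- **the Galois action on the top piece is through the cyclotomic character** (quotient
language): if `σ ζ = ζ ^ m` for a primitive `p`-th root of unity `ζ ∈ B` and `σ` induces a power of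
the Frobenius on the residue field, then `topW (σ q) = topW q ^ m`. -/
theorem topW_actQ {ζ : B} (hζ : ζ ^ p = 1) (hζ1 : ζ ≠ 1) (σ : B ≃+* B) {c : B}
    (hc : σ ϖ = c * ϖ) {m : ℕ} (hσζ : σ ζ = ζ ^ m)
    (hFrob : ∃ n : ℕ, ∀ a : ResidueField B,
      haveI := isLocalHom_ringEquiv σ
      ResidueField.map (σ : B →+* B) a = a ^ p ^ n)
    (q : W B p (p * j₀)) :
    topW hϖ hp hpe he hj₀ hcrit ⟨actQ p σ q, actQ_mem_W σ q.2⟩
      = topW hϖ hp hpe he hj₀ hcrit q ^ m := by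
  haveI := isLocalHom_ringEquiv σ
  have hσϖ : Irreducible ((σ : B →+* B) ϖ) := (MulEquiv.irreducible_iff σ.toMulEquiv).mpr hϖ
  obtain ⟨q, u, hu, rfl⟩ := q
  have hact := UnitFiltration.top_action hϖ hp hpe he hj₀ hcrit hζ hζ1 (σ : B →+* B) hc hσϖ
    hσζ hFrob hu
  rw [mem_powLevel_iff_mk_mem_W] at hact
  -- the three elements of `W top`
  set q₁ : W B p (p * j₀) := ⟨QuotientGroup.mk u, mk_mem_W hu⟩ with hq₁
  set q₂ : W B p (p * j₀) := ⟨actQ p σ (QuotientGroup.mk u), actQ_mem_W σ (mk_mem_W hu)⟩ with hq₂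
  have hmem : ((q₂ * (q₁ ^ m)⁻¹ : W B p (p * j₀)) : Bˣ ⧸ pthPowers B p)
      ∈ W B p (p * j₀ + 1) := by
    have : ((q₂ * (q₁ ^ m)⁻¹ : W B p (p * j₀)) : Bˣ ⧸ pthPowers B p)
        = QuotientGroup.mk (Units.map ((σ : B →+* B) : B →* B) u * (u ^ m)⁻¹) := by
      push_cast
      rfl
    rw [this]
    exact hact
  have h1 := (topW_eq_one_iff hϖ hp hpe he hj₀ hcrit (q₂ * (q₁ ^ m)⁻¹)).mpr hmem
  rw [map_mul, map_inv, map_pow, mul_inv_eq_one] at h1
  exact h1

/-- `topW_actQ` for a finite residue field (no Frobenius hypothesis). -/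
theorem topW_actQ_of_finite [Finite (ResidueField B)] {ζ : B} (hζ : ζ ^ p = 1) (hζ1 : ζ ≠ 1)
    (σ : B ≃+* B) {c : B} (hc : σ ϖ = c * ϖ) {m : ℕ} (hσζ : σ ζ = ζ ^ m)
    (q : W B p (p * j₀)) :
    topW hϖ hp hpe he hj₀ hcrit ⟨actQ p σ q, actQ_mem_W σ q.2⟩
      = topW hϖ hp hpe he hj₀ hcrit q ^ m := by
  haveI := isLocalHom_ringEquiv σ
  haveI : Fact p.Prime := ⟨hp⟩
  haveI : CharP (ResidueField B) p := charP_residueField hϖ hp hpe he
  exact topW_actQ hϖ hp hpe he hj₀ hcrit hζ hζ1 σ hc hσζ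
    (UnitFiltration.exists_frobenius_pow (ResidueField.map (σ : B →+* B))) q

/-! ### The top piece inside `ZMod p` (finite residue field) -/

section Finite

variable [Finite (ResidueField B)]

/-- helper39's functional `τ : k →+ ZMod p` with kernel `Ψ` (a choice). -/
noncomputable def tauK : ResidueField B →+ ZMod p :=
  (UnitFiltration.exists_top_functional hϖ hp hpe he).choose

theorem tauK_eq_zero_iff (y : ResidueField B) :
    tauK hϖ hp hpe he y = 0 ↔ y ∈ Psi hϖ hp hpe he := by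
  rw [tauK, (UnitFiltration.exists_top_functional hϖ hp hpe he).choose_spec y]
  constructor
  · rintro ⟨a, rfl⟩
    exact ⟨a, psi_apply hϖ hp hpe he a⟩
  · rintro ⟨a, rfl⟩
    exact ⟨a, psi_apply hϖ hp hpe he a⟩

/-- the induced injection `k ⧸ Ψ →+ ZMod p`. -/
noncomputable def tauQ : ResidueField B ⧸ Psi hϖ hp hpe he →+ ZMod p :=
  QuotientAddGroup.lift (Psi hϖ hp hpe he) (tauK hϖ hp hpe he)
    (fun y hy => (tauK_eq_zero_iff hϖ hp hpe he y).mpr hy)

theorem tauQ_mk (y : ResidueField B) :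
    tauQ hϖ hp hpe he (QuotientAddGroup.mk y) = tauK hϖ hp hpe he y := rfl

theorem tauQ_injective : Function.Injective (tauQ hϖ hp hpe he) := by
  rw [injective_iff_map_eq_zero]
  intro x hx
  obtain ⟨y, rfl⟩ := QuotientAddGroup.mk_surjective x
  rw [tauQ_mk, tauK_eq_zero_iff] at hx
  exact (QuotientAddGroup.eq_zero_iff y).mpr hx

/-- **the top graded map with values in `ZMod p`**. -/
noncomputable def tauW : W B p (p * j₀) →* Multiplicative (ZMod p) :=
  (AddMonoidHom.toMultiplicative (tauQ hϖ hp hpe he)).comp (topW hϖ hp hpe he hj₀ hcrit)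

theorem tauW_apply (q : W B p (p * j₀)) :
    tauW hϖ hp hpe he hj₀ hcrit q = Multiplicative.ofAdd
      (tauQ hϖ hp hpe he (Multiplicative.toAdd (topW hϖ hp hpe he hj₀ hcrit q))) := rfl

theorem tauW_mk (u : principalUnits B (p * j₀)) :
    tauW hϖ hp hpe he hj₀ hcrit ⟨QuotientGroup.mk (u : Bˣ), mk_mem_W u.2⟩
      = Multiplicative.ofAdd (tauK hϖ hp hpe he (gr hϖ (p * j₀) (one_le_top hp hj₀) u)) := by
  rw [tauW_apply, topW_mk]
  rfl

theorem tauW_eq_one_iff (q : W B p (p * j₀)) :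
    tauW hϖ hp hpe he hj₀ hcrit q = 1 ↔ (q : Bˣ ⧸ pthPowers B p) ∈ W B p (p * j₀ + 1) := by
  rw [← topW_eq_one_iff hϖ hp hpe he hj₀ hcrit q, tauW_apply, ← ofAdd_zero,
    Multiplicative.ofAdd.apply_eq_iff_eq, ← map_zero (tauQ hϖ hp hpe he),
    (tauQ_injective hϖ hp hpe he).eq_iff]
  rfl

theorem tauW_ker : (tauW hϖ hp hpe he hj₀ hcrit).ker
    = (W B p (p * j₀ + 1)).subgroupOf (W B p (p * j₀)) := by
  ext q
  rw [MonoidHom.mem_ker, tauW_eq_one_iff, Subgroup.mem_subgroupOf]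

/-- **`W top / W (top+1) ↪ 𝔽_p(ω)`**: the Galois group acts on the top piece through the
cyclotomic character. -/
theorem tauW_actQ {ζ : B} (hζ : ζ ^ p = 1) (hζ1 : ζ ≠ 1)
    (σ : B ≃+* B) {c : B} (hc : σ ϖ = c * ϖ) {m : ℕ} (hσζ : σ ζ = ζ ^ m)
    (q : W B p (p * j₀)) :
    tauW hϖ hp hpe he hj₀ hcrit ⟨actQ p σ q, actQ_mem_W σ q.2⟩
      = tauW hϖ hp hpe he hj₀ hcrit q ^ m := by
  rw [tauW, MonoidHom.comp_apply, MonoidHom.comp_apply,
    topW_actQ_of_finite hϖ hp hpe he hj₀ hcrit hζ hζ1 σ hc hσζ q, map_pow]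

end Finite

end Top

end Fermat.Agent.S56x.Local.WbTop
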