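import Mathlib
import Fermat.Agent.S56x.Local.WbTop
import Fermat.Agent.S56x.Local.FiltrationCount

/-!
# P-S56, block (A), LOC-2c (helper48): the count of equivariant homs into `W_a`

`B` a discrete valuation ring with finite residue field `k`, `p = c₀ ϖ^e`, `e = j₀ (p - 1)`
(`hcrit : p * j₀ = j₀ + e`), `ζ ∈ B` a primitive `p`-th root of unity, `U^(N₀) ⊆ (Bˣ)^p` for some
`N₀` (complete case: helper39's `UnitFiltration.principalUnits_le_pthPowers`).
A family of ring automorphisms `σ g : B ≃+* B` (`g : G`, `G` any type) with `σ g ϖ = c g * ϖ` and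
`σ g ζ = ζ ^ m g`; a finite group `N` with operators `ρN : G → N → N`.

`W_a = W B p a ≤ Bˣ ⧸ (Bˣ)^p` is the image of `U^(a)`; the operators act on it through
`actA σ g = actQ p (σ g)`.  **Theorem** `card_eqHom_W_le`: for `1 ≤ a ≤ p j₀`
`#Hom_G(N, W_a) ≤ (∏_{a ≤ j < p j₀, p ∤ j} #Hom_G(N, k(θ^j))) * #Hom_G(N, 𝔽_p(ω))`
where `k(θ^j) = Multiplicative k` with `g` acting by `x ↦ (c g mod 𝔪)^j · σ̄_g x` (`actK σ c j`) and
`𝔽_p(ω) = Multiplicative (ZMod p)` with `g` acting by `x ↦ x ^ m g` (`actOmega p m`).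
-/

set_option autoImplicit false
set_option linter.unusedSectionVars false
set_option linter.style.haveILetI false

open IsLocalRing

namespace Fermat.Agent.S56x.Local.WbCount

open Fermat.Agent.Lib.CFT.Local.UnitsFiltration Fermat.Agent.S56x.Local.WbFiltration
  Fermat.Agent.S56x.Local.WbTop Fermat.Agent.S56x.Local.FiltrationCount

section Actions

variable {B : Type*} [CommRing B] [IsDomain B] [IsDiscreteValuationRing B]
  {G : Type*}

/-- the operators on `Bˣ ⧸ (Bˣ)^p`. -/
def actA (p : ℕ) (σ : G → B ≃+* B) (g : G) : Bˣ ⧸ pthPowers B p →* Bˣ ⧸ pthPowers B p :=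
  actQ p (σ g)

/-- the operators on `k(θ^j)`: `x ↦ (c g mod 𝔪)^j · σ̄_g x`. -/
noncomputable def actK (σ : G → B ≃+* B) (c : G → B) (j : ℕ) (g : G) :
    Multiplicative (ResidueField B) →* Multiplicative (ResidueField B) :=
  AddMonoidHom.toMultiplicative
    ((AddMonoidHom.mulLeft (residue B (c g) ^ j)).comp
      (ResidueField.map ((σ g : B ≃+* B) : B →+* B)).toAddMonoidHom)

theorem actK_apply (σ : G → B ≃+* B) (c : G → B) (j : ℕ) (g : G)
    (x : Multiplicative (ResidueField B)) :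
    Multiplicative.toAdd (actK σ c j g x) = residue B (c g) ^ j *
      ResidueField.map ((σ g : B ≃+* B) : B →+* B) (Multiplicative.toAdd x) := rfl

/-- the operators on `𝔽_p(ω)`: `x ↦ x ^ m g`. -/
def actOmega (p : ℕ) (m : G → ℕ) (g : G) :
    Multiplicative (ZMod p) →* Multiplicative (ZMod p) := powMonoidHom (m g)

end Actions

section Count

variable {B : Type*} [CommRing B] [IsDomain B] [IsDiscreteValuationRing B]
  [Finite (ResidueField B)]
  {ϖ : B} (hϖ : Irreducible ϖ) {p : ℕ} (hp : p.Prime) {c₀ : Bˣ} {e : ℕ}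
  (hpe : (p : B) = c₀ * ϖ ^ e)
  (he : 1 ≤ e) {j₀ : ℕ} (hj₀ : 1 ≤ j₀) (hcrit : p * j₀ = j₀ + e)
  {N₀ : ℕ} (hN : principalUnits B N₀ ≤ pthPowers B p)
  {ζ : B} (hζ : ζ ^ p = 1) (hζ1 : ζ ≠ 1)
  {G : Type*} (σ : G → B ≃+* B) {c : G → B} (hc : ∀ g, σ g ϖ = c g * ϖ)
  {m : G → ℕ} (hm : ∀ g, σ g ζ = ζ ^ m g)
  {N : Type*} [Group N] [Finite N] (ρN : G → N → N)

include hϖ hp hpe he hj₀ hcrit hζ hζ1 hc hm in
/-- the step at the top level. -/
theorem step_top [Finite (eqHom (A := Bˣ ⧸ pthPowers B p) ρN (actA p σ) (W B p (p * j₀ + 1)))] :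
    Finite (eqHom (A := Bˣ ⧸ pthPowers B p) ρN (actA p σ) (W B p (p * j₀))) ∧
      Nat.card (eqHom (A := Bˣ ⧸ pthPowers B p) ρN (actA p σ) (W B p (p * j₀))) ≤
        Nat.card (eqHom (A := Bˣ ⧸ pthPowers B p) ρN (actA p σ) (W B p (p * j₀ + 1)))
          * Nat.card (eqHom ρN (actOmega p m) ⊤) := by
  haveI : NeZero p := ⟨hp.ne_zero⟩
  haveI : Finite (eqHom ρN (actOmega p m) ⊤) := finite_eqHom _ _ _
  exact finite_and_card_le (A := Bˣ ⧸ pthPowers B p) (ρN := ρN) (ρA := actA p σ)
    (ρY := actOmega p m)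
    (S := W B p (p * j₀)) (S' := W B p (p * j₀ + 1)) (tauW hϖ hp hpe he hj₀ hcrit)
    (fun q hq => (tauW_eq_one_iff hϖ hp hpe he hj₀ hcrit q).mp hq)
    (fun g q h => tauW_actQ hϖ hp hpe he hj₀ hcrit hζ hζ1 (σ g) (hc g) (hm g) q)

include hϖ hp hpe he hc in
/-- the step at a level prime to `p` below the top. -/
theorem step_prime {i : ℕ} (hi1 : 1 ≤ i) (hpi : ¬ p ∣ i) (hitop : i * (p - 1) < e * p)
    [Finite (eqHom (A := Bˣ ⧸ pthPowers B p) ρN (actA p σ) (W B p (i + 1)))] :
    Finite (eqHom (A := Bˣ ⧸ pthPowers B p) ρN (actA p σ) (W B p i)) ∧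
      Nat.card (eqHom (A := Bˣ ⧸ pthPowers B p) ρN (actA p σ) (W B p i)) ≤
        Nat.card (eqHom (A := Bˣ ⧸ pthPowers B p) ρN (actA p σ) (W B p (i + 1)))
          * Nat.card (eqHom ρN (actK σ c i) ⊤) := by
  haveI : Finite (eqHom ρN (actK σ c i) ⊤) := finite_eqHom _ _ _
  exact finite_and_card_le (A := Bˣ ⧸ pthPowers B p) (ρN := ρN) (ρA := actA p σ)
    (ρY := actK σ c i)
    (S := W B p i) (S' := W B p (i + 1)) (levelW hϖ hp hpe he hi1 hpi hitop)
    (fun q hq => (levelW_eq_one_iff hϖ hp hpe he hi1 hpi hitop q).mp hq)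
    (fun g q h => by
      apply Multiplicative.toAdd.injective
      rw [actK_apply]
      exact levelW_actQ hϖ hp hpe (σ g) he hi1 hpi hitop (hc g) q)

include hϖ hp hpe he hj₀ hcrit hN hζ hζ1 hc hm in
/-- **The count along the unit filtration modulo `p`-th powers.** -/
theorem card_eqHom_W_le {a : ℕ} (ha : 1 ≤ a) (ha' : a ≤ p * j₀) :
    Finite (eqHom (A := Bˣ ⧸ pthPowers B p) ρN (actA p σ) (W B p a)) ∧
      Nat.card (eqHom (A := Bˣ ⧸ pthPowers B p) ρN (actA p σ) (W B p a)) ≤
        (∏ j ∈ Finset.Ico a (p * j₀),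
          if p ∣ j then 1 else Nat.card (eqHom ρN (actK σ c j) ⊤))
          * Nat.card (eqHom ρN (actOmega p m) ⊤) := by
  haveI : Fact p.Prime := ⟨hp⟩
  haveI : CharP (ResidueField B) p := charP_residueField hϖ hp hpe he
  have hp2 := hp.two_le
  -- arithmetic of the top level
  have htopeq : p * j₀ * (p - 1) = e * p := by
    obtain ⟨p', rfl⟩ : ∃ p', p = p' + 1 := ⟨p - 1, by omega⟩
    rw [Nat.add_sub_cancel]
    nlinarith
  have hperf : ∀ x : ResidueField B, ∃ b, b ^ p = x := fun x => by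
    haveI : Fintype (ResidueField B) := Fintype.ofFinite _
    exact surjective_frobenius (ResidueField B) p x
  have hbot : W B p (p * j₀ + 1) = ⊥ := by
    refine W_eq_bot_of_high hϖ hp hpe hN ?_
    rw [add_mul, htopeq]
    omega
  have key := chain_card_le (A := Bˣ ⧸ pthPowers B p) (ρN := ρN) (ρA := actA p σ) (W B p)
    (fun i => if i = p * j₀ then Nat.card (eqHom ρN (actOmega p m) ⊤)
      else if p ∣ i then 1 else Nat.card (eqHom ρN (actK σ c i) ⊤))
    (show a ≤ p * j₀ + 1 by omega)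
    (by
      rw [hbot]
      exact ⟨finite_eqHom_bot _ _, (card_eqHom_bot _ _).le⟩)
    (by
      intro i hai hib hfin
      by_cases hit : i = p * j₀
      · -- the top level
        rw [if_pos hit, hit]
        rw [hit] at hfin
        exact step_top hϖ hp hpe he hj₀ hcrit hζ hζ1 σ hc hm ρN
      · have hilt : i < p * j₀ := by omega
        have hi1 : 1 ≤ i := le_trans ha hai
        rw [if_neg hit]
        by_cases hpi : p ∣ i
        · -- collapse
          rw [if_pos hpi]
          obtain ⟨i', hi'eq⟩ := hpi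
          have hi' : 1 ≤ i' := by
            rcases Nat.eq_zero_or_pos i' with h | h
            · rw [h] at hi'eq; omega
            · exact h
          have hi'j : i' < j₀ := by
            rw [hi'eq] at hilt
            exact lt_of_mul_lt_mul_left hilt (Nat.zero_le p)
          have hlow : p * i' < i' + e := by
            obtain ⟨p', rfl⟩ : ∃ p', p = p' + 1 := ⟨p - 1, by omega⟩
            nlinarith
          have heq : W B p i = W B p (i + 1) := by
            rw [hi'eq]
            exact W_eq_succ_low hϖ hp hpe hi' hlow hperf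
          exact finite_and_card_le_of_eq (A := Bˣ ⧸ pthPowers B p) (ρN := ρN)
            (ρA := actA p σ) heq
        · -- a level prime to `p`
          rw [if_neg hpi]
          have hitop : i * (p - 1) < e * p := by
            rw [← htopeq]
            exact Nat.mul_lt_mul_of_pos_right hilt (by omega)
          exact step_prime hϖ hp hpe he σ hc ρN hi1 hpi hitop)
  refine ⟨key.1, le_trans key.2 (le_of_eq ?_)⟩
  rw [Finset.prod_Ico_succ_top ha']
  congr 1
  · refine Finset.prod_congr rfl (fun i hi => ?_)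
    have : i ≠ p * j₀ := (Finset.mem_Ico.mp hi).2.ne
    rw [if_neg this]
  · rw [if_pos rfl]

include hϖ hp hpe he hj₀ hcrit hN hζ hζ1 hc hm in
/-- the same count, with the product over the levels prime to `p`. -/
theorem card_eqHom_W_le' {a : ℕ} (ha : 1 ≤ a) (ha' : a ≤ p * j₀) :
    Nat.card (eqHom (A := Bˣ ⧸ pthPowers B p) ρN (actA p σ) (W B p a)) ≤
      (∏ j ∈ (Finset.Ico a (p * j₀)).filter (fun j => ¬ p ∣ j),
          Nat.card (eqHom ρN (actK σ c j) ⊤))
        * Nat.card (eqHom ρN (actOmega p m) ⊤) := by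
  have h := (card_eqHom_W_le hϖ hp hpe he hj₀ hcrit hN hζ hζ1 σ hc hm ρN ha ha').2
  rw [Finset.prod_filter]
  refine le_trans h (le_of_eq ?_)
  congr 1
  refine Finset.prod_congr rfl (fun j _ => ?_)
  by_cases hpj : p ∣ j
  · rw [if_pos hpj, if_neg (not_not.mpr hpj)]
  · rw [if_neg hpj, if_pos hpj]

end Count

end Fermat.Agent.S56x.Local.WbCount
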