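import Mathlib
import Fermat.Agent.S56x.Local.WbCount
import Fermat.Agent.S56x.Local.HomCountBasic

/-!
# P-S56, block (A) (helper48): the character-wise count (CW), count assembly

Combines `CWAbstract` (Kummer pairing ⇒ `#H1A ≤ #Hom_Γ(N, W_a)`), `WbCount` (the count along the
unit filtration) and `HomCountBasic` (elementary factor counts), hypothesis-style in
* `hP : IsKummerPairing 𝒜 χ ΓL (actA p σ) (W B p a) ω pr` — the arithmetic Kummer pairing on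
  `A₀ = Bˣ ⧸ (Bˣ)^p`, `S₀ = W B p a` (`B = O_L`);
* the descent inequality (HD1) of helper90 for the single graded piece (Q_p-shape).

* `rank_H1A_le_one_of_bound` / `rank_H1A_eq_zero_of_bound` : general shape, the product of the
  factor counts is `≤ #k` (resp. `≤ 1`);
* `rank_H1A_le_one_Qp` (**CW1**) and `rank_H1A_eq_zero_Qp` (**CW0**) : the `ℚ_p`-shape
  `e = p - 1`, `top = p`, one graded piece `j = p - 1` on which the operators act through the
  residue field automorphisms only (`residue (c g) ^ (p - 1) = 1`).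
-/

set_option autoImplicit false
set_option linter.unusedSectionVars false
set_option linter.style.haveILetI false

open IsLocalRing

namespace Fermat.Agent.S56x.Local.CWLocal

open Fermat.Agent.Lib.CFT.Local.UnitsFiltration Fermat.Agent.S56x.Local.WbFiltration
  Fermat.Agent.S56x.Local.WbCount Fermat.Agent.S56x.Local.FiltrationCount
  Fermat.Agent.S56x.Local.CWAbstract Fermat.Agent.S56x.Local.HomCountBasic
  Fermat.Agent.S56x.Local.Devissage

section General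

variable {B : Type*} [CommRing B] [IsDomain B] [IsDiscreteValuationRing B]
  [Finite (ResidueField B)]
  {ϖ : B} (hϖ : Irreducible ϖ) {p : ℕ} [hpF : Fact p.Prime] {c₀ : Bˣ} {e : ℕ}
  (hpe : (p : B) = c₀ * ϖ ^ e)
  (he : 1 ≤ e) {j₀ : ℕ} (hj₀ : 1 ≤ j₀) (hcrit : p * j₀ = j₀ + e)
  {N₀ : ℕ} (hN : principalUnits B N₀ ≤ pthPowers B p)
  {ζ : B} (hζ : ζ ^ p = 1) (hζ1 : ζ ≠ 1)
  {Γ : Type*} [Group Γ] (σ : Γ → B ≃+* B) {c : Γ → B} (hc : ∀ g, σ g ϖ = c g * ϖ)
  {m : Γ → ℕ} (hm : ∀ g, σ g ζ = ζ ^ m g)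
  {k : Type*} [Field k] [Finite k] [CharP k p]
  {𝒜 : Subalgebra k (Γ → k)} {χ : Γ →* kˣ}
  {ΓL : Subgroup Γ} [ΓL.Normal] [ΓL.FiniteIndex]
  {ω : Γ → ZMod p} {pr : ΓL → (Bˣ ⧸ pthPowers B p) → ZMod p}

instance finite_N : Finite (Multiplicative (k →+ ZMod p)) :=
  Finite.of_injective (fun f : Multiplicative (k →+ ZMod p) =>
    ((Multiplicative.toAdd f : k →+ ZMod p) : k → ZMod p))
    (fun _ _ h => Multiplicative.toAdd.injective (DFunLike.coe_injective h))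

include hϖ hpe he hj₀ hcrit hN hζ hζ1 hc hm in
/-- (CW1), general shape: the product of the factor counts is at most `#k`. -/
theorem rank_H1A_le_one_of_bound {a : ℕ} (ha : 1 ≤ a) (ha' : a ≤ p * j₀)
    (hP : IsKummerPairing 𝒜 χ ΓL (actA p σ) (W B p a) ω pr) (hidx : ¬ p ∣ ΓL.index)
    (hbound : (∏ j ∈ (Finset.Ico a (p * j₀)).filter (fun j => ¬ p ∣ j),
        Nat.card (eqHom (twistN χ ω) (actK σ c j) ⊤))
      * Nat.card (eqHom (twistN χ ω) (actOmega p m) ⊤) ≤ Nat.card k) :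
    Module.rank k (H1A 𝒜 χ) ≤ 1 := by
  obtain ⟨hfin, hcard⟩ := card_eqHom_W_le hϖ hpF.out hpe he hj₀ hcrit hN hζ hζ1 σ hc hm
    (twistN χ ω) ha ha'
  have hcard' := card_eqHom_W_le' hϖ hpF.out hpe he hj₀ hcrit hN hζ hζ1 σ hc hm
    (twistN χ ω) ha ha'
  haveI := hfin
  exact rank_H1A_le_one hP hidx (le_trans hcard' hbound)

include hϖ hpe he hj₀ hcrit hN hζ hζ1 hc hm in
/-- (CW0), general shape: the product of the factor counts is at most `1`. -/
theorem rank_H1A_eq_zero_of_bound {a : ℕ} (ha : 1 ≤ a) (ha' : a ≤ p * j₀)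
    (hP : IsKummerPairing 𝒜 χ ΓL (actA p σ) (W B p a) ω pr) (hidx : ¬ p ∣ ΓL.index)
    (hbound : (∏ j ∈ (Finset.Ico a (p * j₀)).filter (fun j => ¬ p ∣ j),
        Nat.card (eqHom (twistN χ ω) (actK σ c j) ⊤))
      * Nat.card (eqHom (twistN χ ω) (actOmega p m) ⊤) ≤ 1) :
    Module.rank k (H1A 𝒜 χ) = 0 := by
  obtain ⟨hfin, hcard⟩ := card_eqHom_W_le hϖ hpF.out hpe he hj₀ hcrit hN hζ hζ1 σ hc hm
    (twistN χ ω) ha ha'
  have hcard' := card_eqHom_W_le' hϖ hpF.out hpe he hj₀ hcrit hN hζ hζ1 σ hc hm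
    (twistN χ ω) ha ha'
  haveI := hfin
  exact rank_H1A_eq_zero hP hidx (le_trans hcard' hbound)

end General

/-! ### The `ℚ_p`-shape: `e = p - 1`, one graded piece -/

section Qp

variable {B : Type*} [CommRing B] [IsDomain B] [IsDiscreteValuationRing B]
  [Finite (ResidueField B)]
  {ϖ : B} (hϖ : Irreducible ϖ) {p : ℕ} [hpF : Fact p.Prime] {c₀ : Bˣ}
  (hpe : (p : B) = c₀ * ϖ ^ (p - 1))
  {N₀ : ℕ} (hN : principalUnits B N₀ ≤ pthPowers B p)
  {ζ : B} (hζ : ζ ^ p = 1) (hζ1 : ζ ≠ 1)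
  {Γ : Type*} [Group Γ] (σ : Γ → B ≃+* B) {c : Γ → B} (hc : ∀ g, σ g ϖ = c g * ϖ)
  {m : Γ → ℕ} (hm : ∀ g, σ g ζ = ζ ^ m g)
  {k : Type*} [Field k] [Finite k] [CharP k p]
  {𝒜 : Subalgebra k (Γ → k)} {χ : Γ →* kˣ}
  {ΓL : Subgroup Γ} [ΓL.Normal] [ΓL.FiniteIndex]
  {ω : Γ → ZMod p} {pr : ΓL → (Bˣ ⧸ pthPowers B p) → ZMod p}

omit [IsDomain B] [IsDiscreteValuationRing B] [Finite (ResidueField B)] in
/-- the set of levels `p - 1 ≤ j < p`, `p ∤ j` is `{p - 1}`. -/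
theorem filter_Ico_eq (hp2 : 2 ≤ p) :
    (Finset.Ico (p - 1) (p * 1)).filter (fun j => ¬ p ∣ j) = {p - 1} := by
  ext j
  rw [Finset.mem_filter, Finset.mem_Ico, Finset.mem_singleton, mul_one]
  constructor
  · rintro ⟨⟨h1, h2⟩, -⟩
    omega
  · rintro rfl
    refine ⟨⟨le_rfl, by omega⟩, fun hdvd => ?_⟩
    have := Nat.le_of_dvd (by omega) hdvd
    omega

omit [Finite k] in
theorem natCast_val_eq_one_iff (a : ZMod p) : ((a.val : ℕ) : k) = 1 ↔ a = 1 := by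
  constructor
  · intro h
    have h1 : ((a.val : ℕ) : k) = ((1 : ℕ) : k) := by rw [h, Nat.cast_one]
    rw [CharP.natCast_eq_natCast k p] at h1
    have h2 : ((a.val : ℕ) : ZMod p) = ((1 : ℕ) : ZMod p) :=
      (ZMod.natCast_eq_natCast_iff _ _ _).mpr h1
    rwa [ZMod.natCast_zmod_val, Nat.cast_one] at h2
  · rintro rfl
    rw [ZMod.val_one, Nat.cast_one]

/-- the operators on `𝔽_p(ω)` are `y ↦ ω g • y` when `ω g = (m g : ZMod p)`. -/
theorem actOmega_toAdd (hω : ∀ g, ω g = (m g : ZMod p)) (g : Γ)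
    (y : Multiplicative (ZMod p)) :
    Multiplicative.toAdd (actOmega p m g y) = ω g * Multiplicative.toAdd y := by
  show Multiplicative.toAdd (y ^ m g) = _
  rw [toAdd_pow, nsmul_eq_mul, hω]

include hϖ hpe hN hζ hζ1 hc hm in
/-- **(CW1), `ℚ_p`-shape.** -/
theorem rank_H1A_le_one_Qp (hp2 : 2 ≤ p - 1)
    (hP : IsKummerPairing 𝒜 χ ΓL (actA p σ) (W B p (p - 1)) ω pr) (hidx : ¬ p ∣ ΓL.index)
    (hω : ∀ g, ω g = (m g : ZMod p)) (hω0 : ∀ g, ω g ≠ 0)
    (hc1 : ∀ g, residue B (c g) ^ (p - 1) = 1)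
    (hinert : ∃ g₀, (∀ y, ResidueField.map ((σ g₀ : B ≃+* B) : B →+* B) y = y) ∧ ω g₀ ≠ 1)
    (hHD1 : χ ≠ 1 → Nat.card (eqHom (twistN χ ω) (actK σ c (p - 1)) ⊤) ≤ Nat.card k) :
    Module.rank k (H1A 𝒜 χ) ≤ 1 := by
  have hp := hpF.out
  have hcrit : p * 1 = 1 + (p - 1) := by omega
  refine rank_H1A_le_one_of_bound hϖ hpe (by omega) le_rfl hcrit hN hζ hζ1 σ hc hm
    (a := p - 1) (by omega) (by omega) hP hidx ?_
  rw [filter_Ico_eq (by omega), Finset.prod_singleton]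
  by_cases hχ : χ = 1
  · -- the graded piece contributes nothing
    obtain ⟨g₀, hg₀, hωg₀⟩ := hinert
    have h1 := (card_eqHom_le_one_of_inert χ ω (actK σ c (p - 1)) (g₀ := g₀)
      (fun y => by
        apply Multiplicative.toAdd.injective
        rw [actK_apply, hc1, one_mul, hg₀])
      (by
        rw [hχ, MonoidHom.one_apply, Units.val_one, Ne, natCast_val_eq_one_iff]
        exact hωg₀)).2
    have h2 := (card_eqHom_omega_le χ ω (actOmega p m)).2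
    calc _ ≤ 1 * Nat.card k := Nat.mul_le_mul h1 h2
      _ = Nat.card k := one_mul _
  · -- the top piece contributes nothing
    obtain ⟨g₁, hg₁⟩ : ∃ g₁, χ g₁ ≠ 1 := by
      by_contra hcon
      simp only [not_exists, not_not] at hcon
      exact hχ (MonoidHom.ext hcon)
    have h2 := (card_eqHom_omega_le_one χ ω (actOmega p m) (actOmega_toAdd hω)
      (hω0 g₁) hg₁).2
    calc _ ≤ Nat.card k * 1 := Nat.mul_le_mul (hHD1 hχ) h2
      _ = Nat.card k := mul_one _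

include hϖ hpe hN hζ hζ1 hc hm in
/-- **(CW0), `ℚ_p`-shape**: `χ ≠ 1` and `χ ≠ ω` on inertia. -/
theorem rank_H1A_eq_zero_Qp (hp2 : 2 ≤ p - 1)
    (hP : IsKummerPairing 𝒜 χ ΓL (actA p σ) (W B p (p - 1)) ω pr) (hidx : ¬ p ∣ ΓL.index)
    (hω : ∀ g, ω g = (m g : ZMod p)) (hω0 : ∀ g, ω g ≠ 0)
    (hc1 : ∀ g, residue B (c g) ^ (p - 1) = 1)
    (hχ : χ ≠ 1)
    (hinert : ∃ g₀, (∀ y, ResidueField.map ((σ g₀ : B ≃+* B) : B →+* B) y = y) ∧
      (((ω g₀).val : ℕ) : k) ≠ (χ g₀ : k)) :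
    Module.rank k (H1A 𝒜 χ) = 0 := by
  have hp := hpF.out
  have hcrit : p * 1 = 1 + (p - 1) := by omega
  refine rank_H1A_eq_zero_of_bound hϖ hpe (by omega) le_rfl hcrit hN hζ hζ1 σ hc hm
    (a := p - 1) (by omega) (by omega) hP hidx ?_
  rw [filter_Ico_eq (by omega), Finset.prod_singleton]
  obtain ⟨g₀, hg₀, hne⟩ := hinert
  have h1 := (card_eqHom_le_one_of_inert χ ω (actK σ c (p - 1)) (g₀ := g₀)
    (fun y => by
      apply Multiplicative.toAdd.injective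
      rw [actK_apply, hc1, one_mul, hg₀]) hne).2
  obtain ⟨g₁, hg₁⟩ : ∃ g₁, χ g₁ ≠ 1 := by
    by_contra hcon
    simp only [not_exists, not_not] at hcon
    exact hχ (MonoidHom.ext hcon)
  have h2 := (card_eqHom_omega_le_one χ ω (actOmega p m) (actOmega_toAdd hω)
    (hω0 g₁) hg₁).2
  calc _ ≤ 1 * 1 := Nat.mul_le_mul h1 h2
    _ = 1 := one_mul _

end Qp

end Fermat.Agent.S56x.Local.CWLocal
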