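import Mathlib

/-!
# P-S56, block (A), LOC: Kummer description of `H¹` over a field containing `μ_p`

Formalism-free (cocycles and fields), Mathlib only.

* Part 1 (`exists_kummerGen`): `Ω / L` Galois (possibly infinite), `ζ ∈ L` a primitive `p`-th root
  of unity, `χ : Gal(Ω/L) →* Multiplicative (ZMod p)` trivial on the fixing subgroup of a finite
  subextension.  Then there is `α ∈ Ωˣ` with `α ^ p ∈ L` and `s α = ζ ^ χ(s) · α` for all `s`
  (Hilbert 90 on a finite Galois layer).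
-/

set_option autoImplicit false
set_option linter.unusedSectionVars false
set_option linter.style.haveILetI false
set_option linter.unnecessarySimpa false

noncomputable section

namespace Fermat.Agent.S56x.Local.KummerH1

open IntermediateField

/-! ### Part 1: Kummer generators over the base field `L` -/

section Base

variable {L Ω : Type*} [Field L] [Field Ω] [Algebra L Ω] [IsGalois L Ω]
  (p : ℕ) [Fact p.Prime]

/-- `ζ ^ a` for `a : ZMod p`, when `ζ ^ p = 1`. -/
theorem pow_val_add {R : Type*} [Monoid R] {ζ : R} (hζ : ζ ^ p = 1) (a b : ZMod p) :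
    ζ ^ (a + b).val = ζ ^ a.val * ζ ^ b.val := by
  rw [← pow_add, ZMod.val_add]
  conv_rhs => rw [← Nat.mod_add_div (a.val + b.val) p]
  rw [pow_add, pow_mul, hζ, one_pow, mul_one]

/-- Hilbert 90 for a `μ_p`-valued character of a finite Galois group. -/
theorem exists_unit_of_char {K₀ K₁ : Type*} [Field K₀] [Field K₁] [Algebra K₀ K₁]
    [FiniteDimensional K₀ K₁] {ζ : K₀} (hζ : ζ ^ p = 1)
    (ψ : Gal(K₁/K₀) →* Multiplicative (ZMod p)) :
    ∃ β : K₁ˣ, ∀ σ : Gal(K₁/K₀),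
      σ (β : K₁) = algebraMap K₀ K₁ ζ ^ (Multiplicative.toAdd (ψ σ)).val * β := by
  have hζK : (algebraMap K₀ K₁ ζ) ^ p = 1 := by rw [← map_pow, hζ, map_one]
  let ζu : K₁ˣ := Units.ofPowEqOne _ p hζK (Fact.out : p.Prime).ne_zero
  have hζu : ζu ^ p = 1 := Units.ext (by simpa [ζu] using hζK)
  let f : Gal(K₁/K₀) → K₁ˣ := fun σ => ζu ^ (Multiplicative.toAdd (ψ σ)).val
  have hσζ : ∀ (σ : Gal(K₁/K₀)) (n : ℕ), σ • (ζu ^ n) = ζu ^ n := by
    intro σ n
    apply Units.ext
    simp [ζu, AlgEquiv.smul_units_def]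
  have hf : groupCohomology.IsMulCocycle₁ f := by
    intro σ τ
    show ζu ^ _ = σ • (ζu ^ _) * ζu ^ _
    rw [hσζ, map_mul, toAdd_mul, pow_val_add p hζu, mul_comm]
  obtain ⟨β, hβ⟩ := groupCohomology.isMulCoboundary₁_of_isMulCocycle₁_of_aut_to_units f hf
  refine ⟨β, fun σ => ?_⟩
  have h1 := hβ σ
  rw [div_eq_iff_eq_mul] at h1
  have h2 := congrArg (fun u : K₁ˣ => (u : K₁)) h1
  simpa [f, ζu, AlgEquiv.smul_units_def] using h2

/-- `α` is a Kummer generator for the character `χ`: `α ^ p ∈ L` and `s α = ζ ^ χ(s) · α`. -/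
def IsKummerGen (ζ : L) (χ : Gal(Ω/L) → ZMod p) (α : Ωˣ) : Prop :=
  ((α : Ω) ^ p ∈ Set.range (algebraMap L Ω)) ∧
    ∀ s : Gal(Ω/L), s (α : Ω) = algebraMap L Ω ζ ^ (χ s).val * α

theorem exists_kummerGen {ζ : L} (hζ : ζ ^ p = 1)
    (χ : Gal(Ω/L) →* Multiplicative (ZMod p))
    (hχ : ∃ K : IntermediateField L Ω, FiniteDimensional L K ∧
      ∀ s ∈ K.fixingSubgroup, χ s = 1) :
    ∃ α : Ωˣ, IsKummerGen p ζ (fun s => Multiplicative.toAdd (χ s)) α := by
  obtain ⟨K₀, hK₀fin, hK₀⟩ := hχ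
  -- a finite Galois layer containing `K₀`
  let K : IntermediateField L Ω := normalClosure L K₀ Ω
  haveI : FiniteDimensional L K := normalClosure.is_finiteDimensional L K₀ Ω
  haveI : Normal L K := normalClosure.normal L K₀ Ω
  have hK₀K : K₀ ≤ K := IntermediateField.le_normalClosure K₀
  have hK : ∀ s ∈ K.fixingSubgroup, χ s = 1 := fun s hs =>
    hK₀ s (IntermediateField.fixingSubgroup_le hK₀K hs)
  -- the restriction map and the induced character of `Gal(K/L)`
  let r : Gal(Ω/L) →* Gal(K/L) := AlgEquiv.restrictNormalHom K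
  have hr : Function.Surjective r := AlgEquiv.restrictNormalHom_surjective Ω
  have hker : r.ker ≤ χ.ker := by
    intro s hs
    rw [MonoidHom.mem_ker]
    apply hK
    have : s ∈ (AlgEquiv.restrictNormalHom K : Gal(Ω/L) →* Gal(K/L)).ker := hs
    rwa [IntermediateField.restrictNormalHom_ker] at this
  let χbar : Gal(K/L) →* Multiplicative (ZMod p) := r.liftOfSurjective hr ⟨χ, hker⟩
  have hχbar : ∀ s, χbar (r s) = χ s := fun s =>
    r.liftOfRightInverse_comp_apply _ (Function.rightInverse_surjInv hr) ⟨χ, hker⟩ s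
  have hζK : (algebraMap L K ζ) ^ p = 1 := by rw [← map_pow, hζ, map_one]
  obtain ⟨β, hβ'⟩ := exists_unit_of_char p hζ χbar
  refine ⟨Units.map (algebraMap K Ω : K →* Ω) β, ?_, ?_⟩
  · -- `α ^ p ∈ L`
    rw [InfiniteGalois.mem_range_algebraMap_iff_fixed]
    intro s
    have h1 : s (algebraMap K Ω (β : K)) = algebraMap K Ω (r s (β : K)) :=
      (AlgEquiv.restrictNormal_commutes s K (β : K)).symm
    show s ((algebraMap K Ω (β : K)) ^ p) = (algebraMap K Ω (β : K)) ^ p
    rw [map_pow, h1, hβ' (r s), map_mul, mul_pow, ← map_pow, ← pow_mul, mul_comm _ p, pow_mul,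
      hζK, one_pow, map_one, one_mul]
  · intro s
    have h1 : s (algebraMap K Ω (β : K)) = algebraMap K Ω (r s (β : K)) :=
      (AlgEquiv.restrictNormal_commutes s K (β : K)).symm
    show s (algebraMap K Ω (β : K)) = _ * algebraMap K Ω (β : K)
    rw [h1, hβ' (r s), map_mul, map_pow, hχbar, ← IsScalarTower.algebraMap_apply]

end Base


/-! ### Part 2: the absolute setting `G = Gal(Ω/F)`, `L` an intermediate field -/

section Absolute

variable {F Ω : Type*} [Field F] [Field Ω] [Algebra F Ω] [IsGalois F Ω]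
  (p : ℕ) [Fact p.Prime] (L : IntermediateField F Ω)

theorem pow_val_mul {R : Type*} [Monoid R] {ζ : R} (hζ : ζ ^ p = 1) (a b : ZMod p) :
    ζ ^ (a * b).val = (ζ ^ a.val) ^ b.val := by
  rw [← pow_mul, ZMod.val_mul]
  conv_rhs => rw [← Nat.mod_add_div (a.val * b.val) p]
  rw [pow_add, pow_mul, hζ, one_pow, mul_one]

theorem pow_val_eq_one_iff {R : Type*} [CommMonoid R] {ζ : R} (hζ : IsPrimitiveRoot ζ p)
    (a : ZMod p) : ζ ^ a.val = 1 ↔ a = 0 := by
  constructor
  · intro h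
    have h1 : p ∣ a.val := (hζ.pow_eq_one_iff_dvd _).mp h
    have h2 : a.val < p := ZMod.val_lt a
    have h3 : a.val = 0 := Nat.eq_zero_of_dvd_of_lt h1 h2
    exact (ZMod.val_eq_zero a).mp h3
  · rintro rfl
    simp

/-- `α` is a Kummer generator over `L` for (the restriction to `G_L` of) `χ`. -/
def IsKummerGenRel (ζ : Ω) (χ : Gal(Ω/F) → ZMod p) (α : Ωˣ) : Prop :=
  ((α : Ω) ^ p ∈ L) ∧ ∀ s ∈ L.fixingSubgroup, s (α : Ω) = ζ ^ (χ s).val * α

variable {p L}

/-- **(K1)** existence of Kummer generators. -/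
theorem exists_kummerGenRel [FiniteDimensional F L] {ζ : Ω} (hζ : ζ ^ p = 1) (hζL : ζ ∈ L)
    (χ : Gal(Ω/F) → ZMod p)
    (hadd : ∀ s ∈ L.fixingSubgroup, ∀ t ∈ L.fixingSubgroup, χ (s * t) = χ s + χ t)
    (hloc : ∃ E : IntermediateField F Ω, FiniteDimensional F E ∧
      ∀ t ∈ L.fixingSubgroup, t ∈ E.fixingSubgroup → χ t = 0) :
    ∃ α : Ωˣ, IsKummerGenRel p L ζ χ α := by
  obtain ⟨E, hEfin, hE⟩ := hloc
  have hle : L ≤ E ⊔ L := le_sup_right
  let K : IntermediateField ↥L Ω := extendScalars hle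
  haveI : FiniteDimensional F ↥(E ⊔ L) := IntermediateField.finiteDimensional_sup E L
  have h1 : Module.finrank F ↥L * relfinrank L (E ⊔ L) = Module.finrank F ↥(E ⊔ L) :=
    finrank_bot_mul_relfinrank hle
  have h2 : 0 < Module.finrank F ↥(E ⊔ L) := Module.finrank_pos
  have h3 : 0 < Module.finrank ↥L ↥K := by
    rw [← relfinrank_eq_finrank_of_le hle]
    rw [← h1] at h2
    exact Nat.pos_of_mul_pos_left h2
  haveI : FiniteDimensional ↥L ↥K := Module.finite_of_finrank_pos h3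
  let e : ↥L.fixingSubgroup ≃* Gal(Ω/↥L) := IntermediateField.fixingSubgroupEquiv L
  have he : ∀ (s' : Gal(Ω/↥L)) (x : Ω), ((e.symm s' : L.fixingSubgroup) : Gal(Ω/F)) x = s' x :=
    fun _ _ => rfl
  have he' : ∀ (s : L.fixingSubgroup) (x : Ω), (e s) x = (s : Gal(Ω/F)) x := fun _ _ => rfl
  let χ' : Gal(Ω/↥L) →* Multiplicative (ZMod p) :=
    { toFun := fun s' => Multiplicative.ofAdd (χ ((e.symm s' : L.fixingSubgroup) : Gal(Ω/F)))
      map_one' := by
        have h := hadd 1 (one_mem _) 1 (one_mem _)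
        rw [mul_one] at h
        have h0 : χ 1 = 0 := by
          have := congrArg (fun x => x - χ 1) h
          simpa using this.symm
        show Multiplicative.ofAdd (χ ((e.symm 1 : L.fixingSubgroup) : Gal(Ω/F))) = 1
        rw [map_one, Subgroup.coe_one, h0]
        rfl
      map_mul' := fun a b => by
        show Multiplicative.ofAdd (χ ((e.symm (a * b) : L.fixingSubgroup) : Gal(Ω/F))) = _
        rw [map_mul, Subgroup.coe_mul, hadd _ (e.symm a).2 _ (e.symm b).2]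
        rfl }
  have hχ' : ∃ K : IntermediateField ↥L Ω, FiniteDimensional ↥L K ∧
      ∀ s ∈ K.fixingSubgroup, χ' s = 1 := by
    refine ⟨K, inferInstance, fun s' hs' => ?_⟩
    show Multiplicative.ofAdd (χ ((e.symm s' : L.fixingSubgroup) : Gal(Ω/F))) = 1
    rw [hE _ (e.symm s').2 ?_]
    · rfl
    · rw [IntermediateField.mem_fixingSubgroup_iff]
      intro y hy
      rw [he]
      exact (IntermediateField.mem_fixingSubgroup_iff K s').mp hs' y
        (show y ∈ E ⊔ L from (le_sup_left : E ≤ E ⊔ L) hy)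
  have hζ' : (⟨ζ, hζL⟩ : ↥L) ^ p = 1 := Subtype.ext (by simpa using hζ)
  obtain ⟨α, hα1, hα2⟩ := exists_kummerGen p hζ' χ' hχ'
  refine ⟨α, ?_, fun s hs => ?_⟩
  · obtain ⟨y, hy⟩ := hα1
    rw [← hy]
    exact y.2
  · have h := hα2 (e ⟨s, hs⟩)
    rw [he'] at h
    rw [h]
    show (algebraMap ↥L Ω ⟨ζ, hζL⟩) ^
      (χ ((e.symm (e ⟨s, hs⟩) : L.fixingSubgroup) : Gal(Ω/F))).val * _ = _
    rw [MulEquiv.symm_apply_apply]
    rfl

/-- products of Kummer generators. -/
theorem IsKummerGenRel.mul {ζ : Ω} (hζ : ζ ^ p = 1) {χ₁ χ₂ : Gal(Ω/F) → ZMod p} {α₁ α₂ : Ωˣ}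
    (h₁ : IsKummerGenRel p L ζ χ₁ α₁) (h₂ : IsKummerGenRel p L ζ χ₂ α₂) :
    IsKummerGenRel p L ζ (fun s => χ₁ s + χ₂ s) (α₁ * α₂) := by
  refine ⟨?_, fun s hs => ?_⟩
  · rw [Units.val_mul, mul_pow]
    exact mul_mem h₁.1 h₂.1
  · rw [Units.val_mul, map_mul, h₁.2 s hs, h₂.2 s hs, pow_val_add p hζ]
    ring

/-- **(K5)** an element of `G_L` fixes the Kummer generator iff the character vanishes on it. -/
theorem IsKummerGenRel.apply_eq_iff {ζ : Ω} (hζ : IsPrimitiveRoot ζ p) {χ : Gal(Ω/F) → ZMod p}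
    {α : Ωˣ} (h : IsKummerGenRel p L ζ χ α) {s : Gal(Ω/F)} (hs : s ∈ L.fixingSubgroup) :
    s (α : Ω) = α ↔ χ s = 0 := by
  rw [h.2 s hs, ← pow_val_eq_one_iff p hζ (χ s)]
  constructor
  · intro h1
    have h2 : (ζ ^ (χ s).val - 1) * (α : Ω) = 0 := by rw [sub_mul, h1, one_mul, sub_self]
    rcases mul_eq_zero.mp h2 with h3 | h3
    · exact sub_eq_zero.mp h3
    · exact absurd h3 α.ne_zero
  · intro h1
    rw [h1, one_mul]

/-- the Kummer generator lies in `L` iff the character vanishes on `G_L`. -/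
theorem IsKummerGenRel.mem_iff {ζ : Ω} (hζ : IsPrimitiveRoot ζ p) {χ : Gal(Ω/F) → ZMod p}
    {α : Ωˣ} (h : IsKummerGenRel p L ζ χ α) :
    (α : Ω) ∈ L ↔ ∀ s ∈ L.fixingSubgroup, χ s = 0 := by
  constructor
  · intro hα s hs
    rw [← h.apply_eq_iff hζ hs]
    exact (IntermediateField.mem_fixingSubgroup_iff L s).mp hs _ hα
  · intro hχ
    rw [← InfiniteGalois.fixedField_fixingSubgroup L, IntermediateField.mem_fixedField_iff]
    intro s hs
    exact (h.apply_eq_iff hζ hs).mpr (hχ s hs)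

/-- two Kummer generators of the same character differ by an element of `L`. -/
theorem IsKummerGenRel.div_mem {ζ : Ω} {χ : Gal(Ω/F) → ZMod p} {α α' : Ωˣ}
    (h : IsKummerGenRel p L ζ χ α) (h' : IsKummerGenRel p L ζ χ α') :
    ((α' / α : Ωˣ) : Ω) ∈ L := by
  rw [← InfiniteGalois.fixedField_fixingSubgroup L, IntermediateField.mem_fixedField_iff]
  intro s hs
  rw [Units.val_div_eq_div_val, map_div₀, h.2 s hs, h'.2 s hs]
  by_cases hz : ζ ^ (χ s).val = 0
  · have h1 := h.2 s hs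
    rw [hz, zero_mul] at h1
    exact absurd ((map_eq_zero_iff s s.injective).mp h1) α.ne_zero
  · rw [mul_div_mul_left _ _ hz]

end Absolute


/-! ### Part 3: equivariance under `Gal(Ω/F)` when `L / F` is normal -/

section Equivariance

variable {F Ω : Type*} [Field F] [Field Ω] [Algebra F Ω] [IsGalois F Ω]
  {p : ℕ} [Fact p.Prime] {L : IntermediateField F Ω} [Normal F L]

theorem apply_mem_of_normal (g : Gal(Ω/F)) {x : Ω} (hx : x ∈ L) : g x ∈ L := by
  have h := AlgHom.fieldRange_of_normal (E := L) ((g : Ω →ₐ[F] Ω).comp L.val)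
  rw [← h]
  exact ⟨⟨x, hx⟩, rfl⟩

theorem conj_mem_fixingSubgroup (g : Gal(Ω/F)) {s : Gal(Ω/F)} (hs : s ∈ L.fixingSubgroup) :
    g⁻¹ * s * g ∈ L.fixingSubgroup := by
  rw [IntermediateField.mem_fixingSubgroup_iff] at hs ⊢
  intro x hx
  show g⁻¹ (s (g x)) = x
  rw [hs _ (apply_mem_of_normal g hx)]
  exact g.symm_apply_apply x

/-- **(K3)** `g α` is a Kummer generator for the conjugated and twisted character. -/
theorem IsKummerGenRel.map {ζ : Ω} (hζ : ζ ^ p = 1) {χ : Gal(Ω/F) → ZMod p} {α : Ωˣ}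
    (h : IsKummerGenRel p L ζ χ α) (g : Gal(Ω/F)) (a : ZMod p) (hg : g ζ = ζ ^ a.val) :
    IsKummerGenRel p L ζ (fun s => a * χ (g⁻¹ * s * g))
      (Units.map ((g : Ω →ₐ[F] Ω) : Ω →* Ω) α) := by
  refine ⟨?_, fun s hs => ?_⟩
  · show (g (α : Ω)) ^ p ∈ L
    rw [← map_pow]
    exact apply_mem_of_normal g h.1
  · show s (g (α : Ω)) = ζ ^ (a * χ (g⁻¹ * s * g)).val * g (α : Ω)
    have h1 : s (g (α : Ω)) = g ((g⁻¹ * s * g) (α : Ω)) := by
      show s (g (α : Ω)) = g (g⁻¹ (s (g (α : Ω))))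
      exact (g.apply_symm_apply _).symm
    rw [h1, h.2 _ (conj_mem_fixingSubgroup g hs), map_mul, map_pow, hg, pow_val_mul p hζ]

end Equivariance

/-! ### Part 4: inflation–restriction for a subgroup of index prime to `p` -/

section InfRes

variable {p : ℕ} [Fact p.Prime] {G M : Type*} [Group G] [AddCommGroup M] [Module (ZMod p) M]

/-- **(K4)** a cocycle vanishing on a subgroup of finite index prime to `p` is a coboundary. -/
theorem exists_coboundary_of_restrict_eq_zero (ρ : Representation (ZMod p) G M) (N : Subgroup G)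
    [N.FiniteIndex] (hN : ¬ p ∣ N.index) (c : G → M)
    (hc : ∀ g h, c (g * h) = c g + ρ g (c h)) (hcN : ∀ s ∈ N, c s = 0) :
    ∃ m : M, ∀ g, c g = ρ g m - m := by
  classical
  haveI : Fintype (G ⧸ N) := Subgroup.fintypeQuotientOfFiniteIndex
  let cbar : G ⧸ N → M := Quotient.lift (s := QuotientGroup.leftRel N) c (fun a b hab => by
    have h1 : a⁻¹ * b ∈ N := QuotientGroup.leftRel_apply.mp hab
    have h2 : b = a * (a⁻¹ * b) := by group
    rw [h2, hc, hcN _ h1, map_zero, add_zero])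
  have hcbar : ∀ g : G, cbar (g : G ⧸ N) = c g := fun g => rfl
  set T : M := ∑ x : G ⧸ N, cbar x with hT
  have hcard : (Fintype.card (G ⧸ N) : ZMod p) = (N.index : ZMod p) := by
    rw [Subgroup.index_eq_card, Nat.card_eq_fintype_card]
  have key : ∀ h : G, T = (N.index : ZMod p) • c h + ρ h T := by
    intro h
    calc T = ∑ x : G ⧸ N, cbar (h • x) := (Equiv.sum_comp (MulAction.toPerm h) cbar).symm
      _ = ∑ x : G ⧸ N, (c h + ρ h (cbar x)) := by
          refine Finset.sum_congr rfl fun x _ => ?_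
          induction x using QuotientGroup.induction_on with
          | H g => rw [MulAction.Quotient.smul_mk, hcbar, hcbar, smul_eq_mul, hc]
      _ = (N.index : ZMod p) • c h + ρ h T := by
          rw [Finset.sum_add_distrib, Finset.sum_const, Finset.card_univ, ← map_sum,
            ← Nat.cast_smul_eq_nsmul (ZMod p), hcard]
  have hu : (N.index : ZMod p) ≠ 0 := by
    rw [Ne, ZMod.natCast_eq_zero_iff]
    exact hN
  refine ⟨-((N.index : ZMod p)⁻¹ • T), fun g => ?_⟩
  have h1 : (N.index : ZMod p) • c g = T - ρ g T := eq_sub_of_add_eq (key g).symm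
  have h2 : c g = (N.index : ZMod p)⁻¹ • (T - ρ g T) := by
    rw [← h1, smul_smul, inv_mul_cancel₀ hu, one_smul]
  rw [h2, map_neg, map_smul, smul_sub]
  abel

end InfRes

/-! ### Part 5: the Kummer description of a cocycle -/

section Cocycle

variable {F Ω : Type*} [Field F] [Field Ω] [Algebra F Ω] [IsGalois F Ω]
  {p : ℕ} [Fact p.Prime] {L : IntermediateField F Ω}
  {M : Type*} [AddCommGroup M] [Module (ZMod p) M] (ρ : Representation (ZMod p) Gal(Ω/F) M)
  (c : Gal(Ω/F) → M)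

/-- **(K0)** a cocycle is additive on a subgroup acting trivially. -/
theorem cocycle_mul_of_mem (hc : ∀ g h, c (g * h) = c g + ρ g (c h))
    (hρ : ∀ s ∈ L.fixingSubgroup, ρ s = 1) {s : Gal(Ω/F)} (hs : s ∈ L.fixingSubgroup)
    (t : Gal(Ω/F)) : c (s * t) = c s + c t := by
  rw [hc, hρ s hs]
  rfl

theorem cocycle_one (hc : ∀ g h, c (g * h) = c g + ρ g (c h)) : c 1 = 0 := by
  have h := hc 1 1
  rw [mul_one, map_one] at h
  have h2 : c 1 + c 1 = c 1 + 0 := by rw [add_zero]; exact h.symm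
  exact add_left_cancel h2

/-- **(K0)** conjugation formula. -/
theorem cocycle_conj (hc : ∀ g h, c (g * h) = c g + ρ g (c h))
    (hρ : ∀ s ∈ L.fixingSubgroup, ρ s = 1) (g : Gal(Ω/F)) {s : Gal(Ω/F)}
    (hs : s ∈ L.fixingSubgroup) : c (g⁻¹ * s * g) = ρ g⁻¹ (c s) := by
  have h1 : c (g⁻¹ * g) = c g⁻¹ + ρ g⁻¹ (c g) := hc _ _
  rw [inv_mul_cancel, cocycle_one ρ c hc] at h1
  rw [mul_assoc, hc, cocycle_mul_of_mem ρ c hc hρ hs, map_add, ← add_assoc, add_right_comm, ← h1,
    zero_add]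

/-- **(K1)** Kummer generators of the characters `λ ∘ c`. -/
theorem exists_kummerGenRel_cocycle [FiniteDimensional F L] {ζ : Ω} (hζ : ζ ^ p = 1)
    (hζL : ζ ∈ L) (hc : ∀ g h, c (g * h) = c g + ρ g (c h))
    (hρ : ∀ s ∈ L.fixingSubgroup, ρ s = 1)
    (hloc : ∃ E : IntermediateField F Ω, FiniteDimensional F E ∧
      ∀ t ∈ E.fixingSubgroup, c t = 0)
    (lam : M →ₗ[ZMod p] ZMod p) :
    ∃ α : Ωˣ, IsKummerGenRel p L ζ (fun s => lam (c s)) α := by
  refine exists_kummerGenRel hζ hζL _ (fun s hs t _ => ?_) ?_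
  · rw [cocycle_mul_of_mem ρ c hc hρ hs, map_add]
  · obtain ⟨E, hE, h⟩ := hloc
    exact ⟨E, hE, fun t _ ht => by rw [h t ht, map_zero]⟩

/-- **(K3)** equivariance of the Kummer generators of a cocycle. -/
theorem IsKummerGenRel.map_cocycle [Normal F L] {ζ : Ω} (hζ : ζ ^ p = 1)
    (hc : ∀ g h, c (g * h) = c g + ρ g (c h)) (hρ : ∀ s ∈ L.fixingSubgroup, ρ s = 1)
    {lam : M →ₗ[ZMod p] ZMod p} {α : Ωˣ}
    (h : IsKummerGenRel p L ζ (fun s => lam (c s)) α) (g : Gal(Ω/F)) (a : ZMod p)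
    (hg : g ζ = ζ ^ a.val) :
    IsKummerGenRel p L ζ (fun s => (a • lam.comp (ρ g⁻¹)) (c s))
      (Units.map ((g : Ω →ₐ[F] Ω) : Ω →* Ω) α) := by
  have h1 := h.map hζ g a hg
  refine ⟨h1.1, fun s hs => ?_⟩
  rw [h1.2 s hs]
  show ζ ^ (a * lam (c (g⁻¹ * s * g))).val * _ = ζ ^ (a • lam (ρ g⁻¹ (c s))).val * _
  rw [cocycle_conj ρ c hc hρ g hs, smul_eq_mul]

/-- **(K4)** if all the Kummer generators of `c` lie in `L` and `[G : G_L]` is prime to `p`, then
`c` is a coboundary. -/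
theorem exists_coboundary_of_kummerGen_mem [L.fixingSubgroup.FiniteIndex]
    (hL : ¬ p ∣ L.fixingSubgroup.index) {ζ : Ω} (hζ : IsPrimitiveRoot ζ p)
    (hc : ∀ g h, c (g * h) = c g + ρ g (c h))
    (hα : ∀ lam : M →ₗ[ZMod p] ZMod p, ∃ α : Ωˣ,
      IsKummerGenRel p L ζ (fun s => lam (c s)) α ∧ (α : Ω) ∈ L) :
    ∃ m : M, ∀ g, c g = ρ g m - m := by
  refine exists_coboundary_of_restrict_eq_zero ρ L.fixingSubgroup hL c hc fun s hs => ?_
  rw [← Module.forall_dual_apply_eq_zero_iff (ZMod p)]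
  intro lam
  obtain ⟨α, h1, h2⟩ := hα lam
  exact (h1.mem_iff hζ).mp h2 s hs

/-- **(K5)** the kernel of `c` on `G_L` is the fixing subgroup of the Kummer generators. -/
theorem cocycle_eq_zero_iff {ζ : Ω} (hζ : IsPrimitiveRoot ζ p)
    (α : (M →ₗ[ZMod p] ZMod p) → Ωˣ)
    (hα : ∀ lam, IsKummerGenRel p L ζ (fun s => lam (c s)) (α lam))
    {s : Gal(Ω/F)} (hs : s ∈ L.fixingSubgroup) :
    c s = 0 ↔ ∀ lam, s (α lam : Ω) = α lam := by
  rw [← Module.forall_dual_apply_eq_zero_iff (ZMod p)]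
  exact forall_congr' fun lam => ((hα lam).apply_eq_iff hζ hs).symm

/-- the index of the fixing subgroup of a finite Galois subextension. -/
theorem index_fixingSubgroup [FiniteDimensional F L] [IsGalois F L] :
    L.fixingSubgroup.index = Module.finrank F L := by
  rw [← IntermediateField.restrictNormalHom_ker L, Subgroup.index_ker,
    MonoidHom.range_eq_top.mpr (AlgEquiv.restrictNormalHom_surjective Ω), Subgroup.card_top,
    IsGalois.card_aut_eq_finrank]

end Cocycle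

end Fermat.Agent.S56x.Local.KummerH1
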