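import Mathlib
import Fermat.Agent.S56x.Local.KummerH1
import Fermat.Agent.S56x.Local.CWAbstract

/-!
# P-S56, block (A) (helper10): the concrete Kummer pairing = arithmetic instance of
`CWAbstract.IsKummerPairing` (field-generic half)

`Ω / F` a Galois extension (possibly infinite; think `PadicAlgCl p / ℚ_[p]` or `/ ℚ_{p²}`),
`L` a finite Galois subextension containing a primitive `p`-th root of unity `ζ`, and every
element of `L` has a `p`-th root in `Ω` (`hroot`).  With `Γ = Gal(Ω/F)`: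

* `ΓL := L.fixingSubgroup` (normal, of finite index `[L : F]`);
* `KGroup p L := Lˣ ⧸ (Lˣ)^p` with the operators `rhoA p L g` (`g` acting through `g|_L`);
* `omega hζ g : ZMod p` the mod `p` cyclotomic exponent, `g ζ = ζ ^ (omega hζ g)`;
* `pr … s a : ZMod p` the Kummer pairing, `s α = ζ ^ (pr s [x]) · α` for every `α` with
  `α ^ p = x` (`pr_spec`, `pr_eq_of`).

Exports the fields of `CWAbstract.IsKummerPairing` which do not involve the admissible functions
`𝒜` nor the subgroup `S`: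

* `pr_mul`   : `pr s (a * b) = pr s a + pr s b`;
* `pr_rhoA`  : `pr s (rhoA g a) = omega g * pr (conjL ΓL g s) a`;
* `eq_one_of_pr_eq_zero` : `(∀ s, pr s a = 0) → a = 1`  (for ALL `a`);
* `exists_pr_eq` : every additive `f : ΓL → ZMod p` which is trivial on the fixing subgroup of a
  finite subextension is `pr · [x]` for some `x : Lˣ`, with an explicit Kummer generator `α`,
  `α ^ p = x`, `s α = ζ ^ (f s) α`; `kummerGen_mem` : `α ∈ M` as soon as `f` vanishes on `G_M`;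
* `isKummerPairing` : the assembly, with the two remaining hypotheses (stability of `S`, and
  `hsurj` = boundedness ⇒ Kummer generator in `S`) as hypotheses.
-/

set_option autoImplicit false
set_option linter.unusedSectionVars false
set_option linter.style.haveILetI false

noncomputable section

namespace Fermat.Agent.S56x.Local.KummerPairing

open IntermediateField Fermat.Agent.S56x.Local.KummerH1 Fermat.Agent.S56x.Local.CWAbstract
  Fermat.Agent.S56x.Local.Devissage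

variable {F Ω : Type*} [Field F] [Field Ω] [Algebra F Ω] [IsGalois F Ω]
  (p : ℕ) [Fact p.Prime] (L : IntermediateField F Ω)

/-! ### The group `Lˣ ⧸ (Lˣ)^p` and its operators -/

/-- the subgroup of `p`-th powers of `Lˣ`. -/
def pthPowers : Subgroup (↥L)ˣ := (powMonoidHom p : (↥L)ˣ →* (↥L)ˣ).range

theorem mem_pthPowers_iff (x : (↥L)ˣ) : x ∈ pthPowers p L ↔ ∃ y : (↥L)ˣ, y ^ p = x := Iff.rfl

/-- `Lˣ ⧸ (Lˣ)^p`. -/
abbrev KGroup : Type _ := (↥L)ˣ ⧸ pthPowers p L

variable [Normal F L]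

/-- `g|_L` on the units of `L`. -/
def unitsAct (g : Gal(Ω/F)) : (↥L)ˣ →* (↥L)ˣ :=
  Units.map ((AlgEquiv.restrictNormal g L : ↥L ≃ₐ[F] ↥L) : ↥L →* ↥L)

theorem coe_unitsAct (g : Gal(Ω/F)) (x : (↥L)ˣ) :
    (((unitsAct L g x : (↥L)ˣ) : ↥L) : Ω) = g ((x : ↥L) : Ω) :=
  AlgEquiv.restrictNormal_commutes g L (x : ↥L)

theorem unitsAct_one (x : (↥L)ˣ) : unitsAct L (1 : Gal(Ω/F)) x = x := by
  apply Units.ext
  apply Subtype.ext
  rw [coe_unitsAct]
  rfl

theorem unitsAct_mul (g h : Gal(Ω/F)) (x : (↥L)ˣ) :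
    unitsAct L (g * h) x = unitsAct L g (unitsAct L h x) := by
  apply Units.ext
  apply Subtype.ext
  rw [coe_unitsAct, coe_unitsAct, coe_unitsAct]
  rfl

/-- the operators on `Lˣ ⧸ (Lˣ)^p`. -/
def rhoA (g : Gal(Ω/F)) : KGroup p L →* KGroup p L :=
  QuotientGroup.map (pthPowers p L) (pthPowers p L) (unitsAct L g) (by
    rintro _ ⟨y, rfl⟩
    exact ⟨unitsAct L g y, by simp [map_pow]⟩)

theorem rhoA_mk (g : Gal(Ω/F)) (x : (↥L)ˣ) :
    rhoA p L g (QuotientGroup.mk x) = QuotientGroup.mk (unitsAct L g x) := rfl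

theorem rhoA_one (a : KGroup p L) : rhoA p L (1 : Gal(Ω/F)) a = a := by
  induction a using QuotientGroup.induction_on with
  | H x => rw [rhoA_mk, unitsAct_one]

theorem rhoA_mul (g h : Gal(Ω/F)) (a : KGroup p L) :
    rhoA p L (g * h) a = rhoA p L g (rhoA p L h a) := by
  induction a using QuotientGroup.induction_on with
  | H x => rw [rhoA_mk, rhoA_mk, rhoA_mk, unitsAct_mul]

/-! ### The exponent of an element of `G_L` on a `p`-th root -/

variable {p L} {ζ : Ω} (hζ : IsPrimitiveRoot ζ p)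

include hζ in
omit [Normal F L] in
/-- existence of the Kummer exponent. -/
theorem exists_exp {α : Ω} (hα0 : α ≠ 0) (hα : α ^ p ∈ L) {s : Gal(Ω/F)}
    (hs : s ∈ L.fixingSubgroup) : ∃ j : ZMod p, s α = ζ ^ j.val * α := by
  haveI : NeZero p := ⟨(Fact.out : p.Prime).ne_zero⟩
  have h1 : (s α / α) ^ p = 1 := by
    rw [div_pow, ← map_pow, (IntermediateField.mem_fixingSubgroup_iff L s).mp hs _ hα,
      div_self (pow_ne_zero _ hα0)]
  obtain ⟨i, hi, hi2⟩ := hζ.eq_pow_of_pow_eq_one h1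
  refine ⟨(i : ZMod p), ?_⟩
  rw [ZMod.val_natCast_of_lt hi, hi2, div_mul_cancel₀ _ hα0]

include hζ in
omit [Normal F L] [IsGalois F Ω] in
/-- uniqueness of the Kummer exponent. -/
theorem exp_unique {α β : Ω} (hα0 : α ≠ 0) {j j' : ZMod p}
    (h : β = ζ ^ j.val * α) (h' : β = ζ ^ j'.val * α) : j = j' := by
  have h1 : ζ ^ j.val = ζ ^ j'.val := mul_right_cancel₀ hα0 (h.symm.trans h')
  exact ZMod.val_injective p (hζ.pow_inj (ZMod.val_lt j) (ZMod.val_lt j') h1)

variable (hζL : ζ ∈ L) (hroot : ∀ x : ↥L, ∃ α : Ω, α ^ p = (x : Ω))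

/-- a chosen `p`-th root in `Ω` of a unit of `L`. -/
def root (x : (↥L)ˣ) : Ω := (hroot (x : ↥L)).choose

omit [Normal F L] [IsGalois F Ω] in
theorem root_pow (x : (↥L)ˣ) : root hroot x ^ p = ((x : ↥L) : Ω) := (hroot (x : ↥L)).choose_spec

omit [Normal F L] [IsGalois F Ω] in
theorem coe_unit_ne_zero (x : (↥L)ˣ) : ((x : ↥L) : Ω) ≠ 0 := by
  intro h
  exact x.ne_zero (Subtype.ext h)

omit [Normal F L] [IsGalois F Ω] in
theorem ne_zero_of_pow_eq {α : Ω} {x : (↥L)ˣ} (hα : α ^ p = ((x : ↥L) : Ω)) : α ≠ 0 := by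
  intro h
  rw [h, zero_pow (Fact.out : p.Prime).ne_zero] at hα
  exact coe_unit_ne_zero x hα.symm

omit [Normal F L] [IsGalois F Ω] in
theorem pow_mem_of_pow_eq {α : Ω} {x : (↥L)ˣ} (hα : α ^ p = ((x : ↥L) : Ω)) : α ^ p ∈ L := by
  rw [hα]
  exact (x : ↥L).2

/-- the Kummer exponent `kp x s`: `s (x^{1/p}) = ζ ^ (kp x s) · x^{1/p}`. -/
def kp (x : (↥L)ˣ) (s : L.fixingSubgroup) : ZMod p :=
  (exists_exp hζ (ne_zero_of_pow_eq (root_pow hroot x)) (pow_mem_of_pow_eq (root_pow hroot x))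
    s.2).choose

omit [Normal F L] in
theorem kp_root (x : (↥L)ˣ) (s : L.fixingSubgroup) :
    (s : Gal(Ω/F)) (root hroot x) = ζ ^ (kp hζ hroot x s).val * root hroot x :=
  (exists_exp hζ (ne_zero_of_pow_eq (root_pow hroot x)) (pow_mem_of_pow_eq (root_pow hroot x))
    s.2).choose_spec

include hζL in
omit [Normal F L] in
/-- **characterisation**: `kp x s` is the exponent of `s` on EVERY `p`-th root of `x`. -/
theorem kp_spec {x : (↥L)ˣ} {α : Ω} (hα : α ^ p = ((x : ↥L) : Ω)) (s : L.fixingSubgroup) :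
    (s : Gal(Ω/F)) α = ζ ^ (kp hζ hroot x s).val * α := by
  haveI : NeZero p := ⟨(Fact.out : p.Prime).ne_zero⟩
  have hr0 : root hroot x ≠ 0 := ne_zero_of_pow_eq (root_pow hroot x)
  have h1 : (α / root hroot x) ^ p = 1 := by
    rw [div_pow, hα, root_pow, div_self (coe_unit_ne_zero x)]
  obtain ⟨i, -, hi⟩ := hζ.eq_pow_of_pow_eq_one h1
  have h2 : α = ζ ^ i * root hroot x := by rw [hi, div_mul_cancel₀ _ hr0]
  have h3 : (s : Gal(Ω/F)) ζ = ζ :=
    (IntermediateField.mem_fixingSubgroup_iff L s).mp s.2 ζ hζL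
  rw [h2, map_mul, map_pow, h3, kp_root hζ hroot x s]
  ring

include hζL in
omit [Normal F L] in
theorem kp_eq_of {x : (↥L)ˣ} {α : Ω} (hα : α ^ p = ((x : ↥L) : Ω)) (s : L.fixingSubgroup)
    {j : ZMod p} (h : (s : Gal(Ω/F)) α = ζ ^ j.val * α) : kp hζ hroot x s = j :=
  exp_unique hζ (ne_zero_of_pow_eq hα) (kp_spec hζ hζL hroot hα s) h

include hζL in
omit [Normal F L] in
theorem kp_mul (x y : (↥L)ˣ) (s : L.fixingSubgroup) :
    kp hζ hroot (x * y) s = kp hζ hroot x s + kp hζ hroot y s := by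
  have hα : (root hroot x * root hroot y) ^ p = (((x * y : (↥L)ˣ) : ↥L) : Ω) := by
    rw [mul_pow, root_pow, root_pow]
    rfl
  refine kp_eq_of hζ hζL hroot hα s ?_
  rw [map_mul, kp_root hζ hroot x s, kp_root hζ hroot y s, pow_val_add p hζ.pow_eq_one]
  ring

include hζL in
omit [Normal F L] in
theorem kp_pow (y : (↥L)ˣ) (s : L.fixingSubgroup) : kp hζ hroot (y ^ p) s = 0 := by
  have hα : (((y : ↥L) : Ω)) ^ p = (((y ^ p : (↥L)ˣ) : ↥L) : Ω) := rfl
  refine kp_eq_of hζ hζL hroot hα s ?_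
  rw [ZMod.val_zero, pow_zero, one_mul]
  exact (IntermediateField.mem_fixingSubgroup_iff L s).mp s.2 _ (y : ↥L).2

/-- `kp · s` as a homomorphism `Lˣ →* Multiplicative (ZMod p)`. -/
def kpHom (s : L.fixingSubgroup) : (↥L)ˣ →* Multiplicative (ZMod p) :=
  MonoidHom.mk' (fun x => Multiplicative.ofAdd (kp hζ hroot x s)) (fun x y => by
    rw [kp_mul hζ hζL hroot]
    rfl)

/-- the pairing on `Lˣ ⧸ (Lˣ)^p`, multiplicative form. -/
def prHom (s : L.fixingSubgroup) : KGroup p L →* Multiplicative (ZMod p) :=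
  QuotientGroup.lift (pthPowers p L) (kpHom hζ hζL hroot s) (by
    rintro _ ⟨y, rfl⟩
    show Multiplicative.ofAdd (kp hζ hroot (y ^ p) s) = 1
    rw [kp_pow hζ hζL hroot]
    rfl)

/-- **the Kummer pairing** `pr s a : ZMod p`. -/
def pr (s : L.fixingSubgroup) (a : KGroup p L) : ZMod p :=
  Multiplicative.toAdd (prHom hζ hζL hroot s a)

omit [Normal F L] in
theorem pr_mk (s : L.fixingSubgroup) (x : (↥L)ˣ) :
    pr hζ hζL hroot s (QuotientGroup.mk x) = kp hζ hroot x s := rfl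

omit [Normal F L] in
/-- `hmul`. -/
theorem pr_mul (s : L.fixingSubgroup) (a b : KGroup p L) :
    pr hζ hζL hroot s (a * b) = pr hζ hζL hroot s a + pr hζ hζL hroot s b := by
  unfold pr
  rw [map_mul]
  rfl

omit [Normal F L] in
/-- `s α = ζ ^ (pr s [x]) · α` for every `p`-th root `α` of `x`. -/
theorem pr_spec {x : (↥L)ˣ} {α : Ω} (hα : α ^ p = ((x : ↥L) : Ω)) (s : L.fixingSubgroup) :
    (s : Gal(Ω/F)) α = ζ ^ (pr hζ hζL hroot s (QuotientGroup.mk x)).val * α :=
  kp_spec hζ hζL hroot hα s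

omit [Normal F L] in
theorem pr_eq_of {x : (↥L)ˣ} {α : Ω} (hα : α ^ p = ((x : ↥L) : Ω)) (s : L.fixingSubgroup)
    {j : ZMod p} (h : (s : Gal(Ω/F)) α = ζ ^ j.val * α) :
    pr hζ hζL hroot s (QuotientGroup.mk x) = j :=
  kp_eq_of hζ hζL hroot hα s h

/-! ### The cyclotomic exponent and the conjugation formula -/

/-- the mod `p` cyclotomic exponent: `g ζ = ζ ^ (omega hζ g)`. -/
def omega (g : Gal(Ω/F)) : ZMod p :=
  haveI : NeZero p := ⟨(Fact.out : p.Prime).ne_zero⟩
  ((hζ.autToPow F g : (ZMod p)ˣ) : ZMod p)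

omit [Normal F L] [IsGalois F Ω] in
theorem omega_spec (g : Gal(Ω/F)) : g ζ = ζ ^ (omega hζ g).val := by
  haveI : NeZero p := ⟨(Fact.out : p.Prime).ne_zero⟩
  exact (hζ.autToPow_spec F g).symm

omit [Normal F L] [IsGalois F Ω] in
theorem omega_mul (g h : Gal(Ω/F)) : omega hζ (g * h) = omega hζ g * omega hζ h := by
  haveI : NeZero p := ⟨(Fact.out : p.Prime).ne_zero⟩
  unfold omega
  rw [map_mul, Units.val_mul]

omit [Normal F L] [IsGalois F Ω] in
theorem omega_ne_zero (g : Gal(Ω/F)) : omega hζ g ≠ 0 := by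
  haveI : NeZero p := ⟨(Fact.out : p.Prime).ne_zero⟩
  exact Units.ne_zero _

variable [FiniteDimensional F L]

/-- `G_L` is normal in `Gal(Ω/F)`. -/
instance normal_fixingSubgroup : (L.fixingSubgroup).Normal := by
  haveI : IsGalois F L := ⟨⟩
  exact (InfiniteGalois.normal_iff_isGalois L).mpr inferInstance

/-- `G_L` has finite index. -/
instance finiteIndex_fixingSubgroup : (L.fixingSubgroup).FiniteIndex := by
  haveI : IsGalois F L := ⟨⟩
  refine ⟨?_⟩
  rw [index_fixingSubgroup]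
  exact Module.finrank_pos.ne'

theorem index_fixingSubgroup_eq : (L.fixingSubgroup).index = Module.finrank F L := by
  haveI : IsGalois F L := ⟨⟩
  exact index_fixingSubgroup

/-- `hconj`: `pr s (g · a) = ω(g) · pr (g⁻¹ s g) a`. -/
theorem pr_rhoA (g : Gal(Ω/F)) (s : L.fixingSubgroup) (a : KGroup p L) :
    pr hζ hζL hroot s (rhoA p L g a) =
      omega hζ g * pr hζ hζL hroot (conjL L.fixingSubgroup g s) a := by
  induction a using QuotientGroup.induction_on with
  | H x =>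
    rw [rhoA_mk]
    set α := root hroot x with hαdef
    have hα : α ^ p = ((x : ↥L) : Ω) := root_pow hroot x
    have hβ : (g α) ^ p = (((unitsAct L g x : (↥L)ˣ) : ↥L) : Ω) := by
      rw [← map_pow, hα, coe_unitsAct]
    refine pr_eq_of hζ hζL hroot hβ s ?_
    have h1 : (s : Gal(Ω/F)) (g α) = g (((conjL L.fixingSubgroup g s : L.fixingSubgroup) :
        Gal(Ω/F)) α) := by
      rw [coe_conjL]
      show (s : Gal(Ω/F)) (g α) = g (g⁻¹ ((s : Gal(Ω/F)) (g α)))
      exact (g.apply_symm_apply _).symm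
    rw [h1, pr_spec hζ hζL hroot hα (conjL L.fixingSubgroup g s), map_mul, map_pow,
      omega_spec hζ g, pow_val_mul p hζ.pow_eq_one]

/-- `hinj`: the pairing is non-degenerate on the right. -/
theorem eq_one_of_pr_eq_zero (a : KGroup p L)
    (h : ∀ s : L.fixingSubgroup, pr hζ hζL hroot s a = 0) : a = 1 := by
  induction a using QuotientGroup.induction_on with
  | H x =>
    set α := root hroot x with hαdef
    have hα : α ^ p = ((x : ↥L) : Ω) := root_pow hroot x
    have hα0 : α ≠ 0 := ne_zero_of_pow_eq hα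
    have hmem : α ∈ L := by
      rw [← InfiniteGalois.fixedField_fixingSubgroup L, IntermediateField.mem_fixedField_iff]
      intro s hs
      have := pr_spec hζ hζL hroot hα ⟨s, hs⟩
      rw [h ⟨s, hs⟩, ZMod.val_zero, pow_zero, one_mul] at this
      exact this
    have hy0 : (⟨α, hmem⟩ : ↥L) ≠ 0 := fun h0 => hα0 (congrArg Subtype.val h0)
    refine (QuotientGroup.eq_one_iff x).mpr ⟨Units.mk0 ⟨α, hmem⟩ hy0, ?_⟩
    apply Units.ext
    apply Subtype.ext
    exact hα

/-! ### Surjectivity: every continuous character of `G_L` of exponent `p` is a Kummer character -/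

/-- **bridge for `hsurj`**: an additive `f : G_L → ZMod p`, trivial on the fixing subgroup of a
finite subextension, is `pr · [x]`, with Kummer generator `α`. -/
theorem exists_pr_eq (f : L.fixingSubgroup → ZMod p) (hadd : ∀ s t, f (s * t) = f s + f t)
    (hloc : ∃ E : IntermediateField F Ω, FiniteDimensional F E ∧
      ∀ t : L.fixingSubgroup, (t : Gal(Ω/F)) ∈ E.fixingSubgroup → f t = 0) :
    ∃ (x : (↥L)ˣ) (α : Ω), α ^ p = ((x : ↥L) : Ω) ∧
      (∀ s : L.fixingSubgroup, pr hζ hζL hroot s (QuotientGroup.mk x) = f s) ∧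
      ∀ s : L.fixingSubgroup, (s : Gal(Ω/F)) α = ζ ^ (f s).val * α := by
  classical
  let χ : Gal(Ω/F) → ZMod p := fun s => if hs : s ∈ L.fixingSubgroup then f ⟨s, hs⟩ else 0
  have hχ : ∀ s : L.fixingSubgroup, χ s = f s := fun s => by
    show (if hs : (s : Gal(Ω/F)) ∈ L.fixingSubgroup then f ⟨s, hs⟩ else 0) = f s
    rw [dif_pos s.2]
  obtain ⟨E, hEfin, hE⟩ := hloc
  obtain ⟨α, hα1, hα2⟩ := exists_kummerGenRel (p := p) (L := L) hζ.pow_eq_one hζL χ
    (fun s hs t ht => by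
      have := hadd ⟨s, hs⟩ ⟨t, ht⟩
      rw [← hχ ⟨s, hs⟩, ← hχ ⟨t, ht⟩, ← hχ (⟨s, hs⟩ * ⟨t, ht⟩)] at this
      exact this)
    ⟨E, hEfin, fun t ht htE => by
      rw [← Subtype.coe_mk t ht, hχ ⟨t, ht⟩]
      exact hE ⟨t, ht⟩ htE⟩
  have hx0 : (⟨(α : Ω) ^ p, hα1⟩ : ↥L) ≠ 0 := fun h0 =>
    pow_ne_zero p α.ne_zero (congrArg Subtype.val h0)
  refine ⟨Units.mk0 ⟨(α : Ω) ^ p, hα1⟩ hx0, (α : Ω), rfl, fun s => ?_, fun s => ?_⟩
  · refine pr_eq_of hζ hζL hroot (x := Units.mk0 ⟨(α : Ω) ^ p, hα1⟩ hx0) rfl s ?_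
    rw [hα2 s s.2, hχ s]
  · rw [hα2 s s.2, hχ s]

omit [Normal F L] [FiniteDimensional F L] in
/-- the Kummer generator lies in every field `M` on whose fixing subgroup `f` vanishes. -/
theorem kummerGen_mem {f : L.fixingSubgroup → ZMod p} {α : Ω}
    (hα : ∀ s : L.fixingSubgroup, (s : Gal(Ω/F)) α = ζ ^ (f s).val * α)
    (M : IntermediateField F Ω) (hLM : L ≤ M)
    (hf : ∀ s : L.fixingSubgroup, (s : Gal(Ω/F)) ∈ M.fixingSubgroup → f s = 0) : α ∈ M := by
  rw [← InfiniteGalois.fixedField_fixingSubgroup M, IntermediateField.mem_fixedField_iff]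
  intro s hs
  have hsL : s ∈ L.fixingSubgroup := IntermediateField.fixingSubgroup_antitone hLM hs
  have := hα ⟨s, hsL⟩
  rw [hf ⟨s, hsL⟩ hs, ZMod.val_zero, pow_zero, one_mul] at this
  exact this

/-! ### Assembly -/

/-- **The arithmetic instance of `CWAbstract.IsKummerPairing`**, modulo the two hypotheses which
involve the admissible functions and the subgroup `S` (`= W_b`): stability of `S` and
`hsurj` (boundedness ⇒ the Kummer generator lies in `S`). -/
theorem isKummerPairing {k : Type*} [Field k] [CharP k p]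
    (𝒜 : Subalgebra k (Gal(Ω/F) → k)) (χ : Gal(Ω/F) →* kˣ)
    (hχ : ∀ s ∈ L.fixingSubgroup, χ s = 1)
    (S : Subgroup (KGroup p L)) (hS : ∀ g a, a ∈ S → rhoA p L g a ∈ S)
    (hsurj : ∀ u ∈ Z1A 𝒜 χ, ∀ l : k →+ ZMod p, ∃ a ∈ S, ∀ s : L.fixingSubgroup,
      pr hζ hζL hroot s a = l (u s)) :
    IsKummerPairing 𝒜 χ L.fixingSubgroup (rhoA p L) S (omega hζ) (pr hζ hζL hroot) :=
  ⟨hχ, fun s a b => pr_mul hζ hζL hroot s a b, fun g s a => pr_rhoA hζ hζL hroot g s a, hS,
    fun a _ h => eq_one_of_pr_eq_zero hζ hζL hroot a h, hsurj⟩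

end Fermat.Agent.S56x.Local.KummerPairing
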