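import Mathlib
import Fermat.Agent.S56x.Local.KummerPairing
import Fermat.Agent.S56x.Local.WbCount

/-!
# P-S56, block (A) (helper10): the Kummer pairing on `Bˣ ⧸ (Bˣ)^p`, `B = O_L`

Transport of `KummerPairing` (the pairing on `Lˣ ⧸ (Lˣ)^p`) to the group
`A₀ = Bˣ ⧸ WbFiltration.pthPowers B p` on which the counts of `WbCount` / `CWLocal` live, for an
integrally closed local domain `B` with fraction field `L` (e.g. the ring of integers of a finite
extension `L` of `ℚ_p`).

* `unitsIncl : Bˣ →* Lˣ`, `iota : Bˣ ⧸ (Bˣ)^p →* Lˣ ⧸ (Lˣ)^p`, `iota_injective`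
  (a unit which is a `p`-th power in `L` is the `p`-th power of a unit: `B` integrally closed);
* `iota_actQ` : equivariance, for ring automorphisms `σ g` of `B` compatible with `g|_L`;
* `prInt s a := pr s (iota a)` with `prInt_mul`, `prInt_actA` (`hconj` for `WbCount.actA p σ`),
  `eq_one_of_prInt_eq_zero` (`hinj`);
* `exists_prInt_eq` (`hsurj`) from the hypothesis `HB` ("Kummer generators of admissible
  characters can be normalised into `U^(e)`" = Fontaine's bound + `BoundedKummerPadic`) and the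
  continuity of the admissible functions;
* `isKummerPairing_int` : `IsKummerPairing 𝒜 χ G_L (actA p σ) (W B p e) ω prInt`, exactly the
  hypothesis `hP` of `CWLocal.rank_H1A_le_one_Qp` / `rank_H1A_eq_zero_Qp`.
-/

set_option autoImplicit false
set_option linter.unusedSectionVars false
set_option linter.style.haveILetI false
set_option linter.overlappingInstances false

noncomputable section

namespace Fermat.Agent.S56x.Local.KummerPairingInt

open IntermediateField IsLocalRing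
open Fermat.Agent.S56x.Local.KummerH1 Fermat.Agent.S56x.Local.CWAbstract
  Fermat.Agent.S56x.Local.Devissage Fermat.Agent.S56x.Local.KummerPairing
  Fermat.Agent.Lib.CFT.Local.UnitsFiltration Fermat.Agent.S56x.Local.WbCount

variable {F Ω : Type*} [Field F] [Field Ω] [Algebra F Ω] [IsGalois F Ω]
  (p : ℕ) [Fact p.Prime] (L : IntermediateField F Ω)
  (B : Type*) [CommRing B] [IsDomain B] [IsLocalRing B] [Algebra B ↥L]

/-! ### From units of `B` to units of `L` -/

/-- `Bˣ → Lˣ`. -/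
def unitsIncl : Bˣ →* (↥L)ˣ := Units.map ((algebraMap B ↥L : B →+* ↥L) : B →* ↥L)

theorem coe_unitsIncl (u : Bˣ) : ((unitsIncl L B u : (↥L)ˣ) : ↥L) = algebraMap B ↥L (u : B) := rfl

/-- `Bˣ ⧸ (Bˣ)^p → Lˣ ⧸ (Lˣ)^p`. -/
def iota : Bˣ ⧸ WbFiltration.pthPowers B p →* KGroup p L :=
  QuotientGroup.map (WbFiltration.pthPowers B p) (KummerPairing.pthPowers p L) (unitsIncl L B) (by
    rintro _ ⟨w, rfl⟩
    exact ⟨unitsIncl L B w, (map_pow (unitsIncl L B) w p).symm⟩)

theorem iota_mk (u : Bˣ) :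
    iota p L B (QuotientGroup.mk u) = QuotientGroup.mk (unitsIncl L B u) := rfl

variable [IsFractionRing B ↥L] [IsIntegrallyClosed B]

/-- a unit of `B` which is a `p`-th power in `L` is the `p`-th power of a unit of `B`. -/
theorem exists_unit_pow_eq {u : Bˣ} {y : (↥L)ˣ} (hy : y ^ p = unitsIncl L B u) :
    ∃ w : Bˣ, w ^ p = u := by
  have hp0 : p ≠ 0 := (Fact.out : p.Prime).ne_zero
  have h1 : ((y : ↥L)) ^ p = algebraMap B ↥L (u : B) := by
    have := congrArg (fun t : (↥L)ˣ => (t : ↥L)) hy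
    simpa [coe_unitsIncl] using this
  have hint : IsIntegral B (y : ↥L) := by
    refine IsIntegral.of_pow (Nat.pos_of_ne_zero hp0) ?_
    rw [h1]
    exact isIntegral_algebraMap
  obtain ⟨b, hb⟩ := IsIntegrallyClosed.isIntegral_iff.mp hint
  have hbp : b ^ p = (u : B) := by
    apply IsFractionRing.injective B ↥L
    rw [map_pow, hb, h1]
  have hbu : IsUnit b := by
    have : IsUnit (b ^ p) := hbp ▸ u.isUnit
    exact (isUnit_pow_iff hp0).mp this
  refine ⟨hbu.unit, ?_⟩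
  apply Units.ext
  rw [Units.val_pow_eq_pow_val, IsUnit.unit_spec]
  exact hbp

theorem iota_injective : Function.Injective (iota p L B) := by
  rw [injective_iff_map_eq_one]
  intro a ha
  induction a using QuotientGroup.induction_on with
  | H u =>
    rw [iota_mk, QuotientGroup.eq_one_iff] at ha
    obtain ⟨y, hy⟩ := ha
    obtain ⟨w, hw⟩ := exists_unit_pow_eq p L B (u := u) (y := y) hy
    exact (QuotientGroup.eq_one_iff u).mpr ⟨w, hw⟩

/-! ### Equivariance -/

variable [Normal F L] (σ : Gal(Ω/F) → B ≃+* B)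
  (hσ : ∀ (g : Gal(Ω/F)) (b : B),
    ((algebraMap B ↥L (σ g b) : ↥L) : Ω) = g ((algebraMap B ↥L b : ↥L) : Ω))

include hσ in
omit [IsFractionRing B ↥L] [IsIntegrallyClosed B] in
theorem unitsIncl_actU (g : Gal(Ω/F)) (u : Bˣ) :
    unitsIncl L B (WbFiltration.actU (σ g) u) = unitsAct L g (unitsIncl L B u) := by
  apply Units.ext
  apply Subtype.ext
  rw [coe_unitsAct, coe_unitsIncl, coe_unitsIncl, WbFiltration.coe_actU]
  exact hσ g (u : B)

include hσ in
omit [IsFractionRing B ↥L] [IsIntegrallyClosed B] in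
theorem iota_actQ (g : Gal(Ω/F)) (a : Bˣ ⧸ WbFiltration.pthPowers B p) :
    iota p L B (actA p σ g a) = rhoA p L g (iota p L B a) := by
  induction a using QuotientGroup.induction_on with
  | H u =>
    show iota p L B (WbFiltration.actQ p (σ g) (QuotientGroup.mk u)) = _
    rw [WbFiltration.actQ_mk, iota_mk, iota_mk, rhoA_mk, unitsIncl_actU L B σ hσ]

/-! ### The transported pairing -/

variable {p L} {ζ : Ω} (hζ : IsPrimitiveRoot ζ p) (hζL : ζ ∈ L)
  (hroot : ∀ x : ↥L, ∃ α : Ω, α ^ p = (x : Ω))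

/-- the Kummer pairing on `Bˣ ⧸ (Bˣ)^p`. -/
def prInt (s : L.fixingSubgroup) (a : Bˣ ⧸ WbFiltration.pthPowers B p) : ZMod p :=
  pr hζ hζL hroot s (iota p L B a)

omit [IsFractionRing B ↥L] [IsIntegrallyClosed B] [Normal F L] in
theorem prInt_mul (s : L.fixingSubgroup) (a b : Bˣ ⧸ WbFiltration.pthPowers B p) :
    prInt B hζ hζL hroot s (a * b) = prInt B hζ hζL hroot s a + prInt B hζ hζL hroot s b := by
  unfold prInt
  rw [map_mul, pr_mul]

omit [IsFractionRing B ↥L] [IsIntegrallyClosed B] [Normal F L] in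
theorem prInt_mk (s : L.fixingSubgroup) (u : Bˣ) :
    prInt B hζ hζL hroot s (QuotientGroup.mk u) =
      pr hζ hζL hroot s (QuotientGroup.mk (unitsIncl L B u)) := rfl

variable [FiniteDimensional F L]

include hσ in
omit [IsFractionRing B ↥L] [IsIntegrallyClosed B] in
/-- `hconj` for the operators `WbCount.actA p σ`. -/
theorem prInt_actA (g : Gal(Ω/F)) (s : L.fixingSubgroup)
    (a : Bˣ ⧸ WbFiltration.pthPowers B p) :
    prInt B hζ hζL hroot s (actA p σ g a) =
      omega hζ g * prInt B hζ hζL hroot (conjL L.fixingSubgroup g s) a := by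
  unfold prInt
  rw [iota_actQ p L B σ hσ, pr_rhoA]

/-- `hinj`. -/
theorem eq_one_of_prInt_eq_zero (a : Bˣ ⧸ WbFiltration.pthPowers B p)
    (h : ∀ s : L.fixingSubgroup, prInt B hζ hζL hroot s a = 0) : a = 1 := by
  have h1 : iota p L B a = 1 := eq_one_of_pr_eq_zero hζ hζL hroot _ h
  rw [← map_one (iota p L B)] at h1
  exact iota_injective p L B h1

/-! ### `hsurj` and the assembly -/

variable {k : Type*} [Field k] [CharP k p]
  (𝒜 : Subalgebra k (Gal(Ω/F) → k)) (χ : Gal(Ω/F) →* kˣ)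

/-- **`hsurj`**: admissible cocycles have their Kummer generators in `W B p e`, given
* `hcont`: admissible functions are right-invariant under the fixing subgroup of a finite
  subextension (continuity);
* `HB`: every Kummer generator `(x, α)` of `l ∘ u|_{G_L}`, `u` admissible, can be normalised
  into the principal units of level `e`: `x z^p = b ∈ U^(e)` (Fontaine's bound). -/
theorem exists_prInt_eq (e : ℕ)
    (hχ : ∀ s ∈ L.fixingSubgroup, χ s = 1)
    (hcont : ∀ f ∈ 𝒜, ∃ E : IntermediateField F Ω, FiniteDimensional F E ∧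
      ∀ (g : Gal(Ω/F)) (t : Gal(Ω/F)), t ∈ E.fixingSubgroup → f (g * t) = f g)
    (HB : ∀ u ∈ Z1A 𝒜 χ, ∀ (l : k →+ ZMod p) (x : (↥L)ˣ) (α : Ω), α ^ p = ((x : ↥L) : Ω) →
      (∀ s : L.fixingSubgroup, (s : Gal(Ω/F)) α = ζ ^ (l (u s)).val * α) →
      ∃ (z : (↥L)ˣ) (b : Bˣ), b ∈ principalUnits B e ∧ unitsIncl L B b = x * z ^ p)
    (u : Gal(Ω/F) → k) (hu : u ∈ Z1A 𝒜 χ) (l : k →+ ZMod p) :
    ∃ a ∈ WbFiltration.W B p e, ∀ s : L.fixingSubgroup,
      prInt B hζ hζL hroot s a = l (u s) := by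
  have huZ : u ∈ Z1 χ := ((mem_Z1A 𝒜).mp hu).1
  have hu𝒜 : u ∈ 𝒜 := ((mem_Z1A 𝒜).mp hu).2
  have hadd : ∀ s t : L.fixingSubgroup,
      l (u ((s * t : L.fixingSubgroup) : Gal(Ω/F))) = l (u s) + l (u t) := by
    intro s t
    rw [Subgroup.coe_mul, huZ (s : Gal(Ω/F)) (t : Gal(Ω/F)), hχ s s.2, Units.val_one, one_mul,
      map_add]
  obtain ⟨E, hEfin, hE⟩ := hcont u hu𝒜
  have hloc : ∃ E : IntermediateField F Ω, FiniteDimensional F E ∧
      ∀ t : L.fixingSubgroup, (t : Gal(Ω/F)) ∈ E.fixingSubgroup → l (u t) = 0 := by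
    refine ⟨E, hEfin, fun t ht => ?_⟩
    have h1 := hE 1 (t : Gal(Ω/F)) ht
    rw [one_mul, cocycle_one huZ] at h1
    rw [h1, map_zero]
  obtain ⟨x, α, hα, hpr, hact⟩ :=
    exists_pr_eq hζ hζL hroot (fun s : L.fixingSubgroup => l (u s)) hadd hloc
  obtain ⟨z, b, hb, hbx⟩ := HB u hu l x α hα hact
  refine ⟨QuotientGroup.mk b, WbFiltration.mk_mem_W hb, fun s => ?_⟩
  rw [prInt_mk, hbx, ← hpr s]
  have h2 : (QuotientGroup.mk x : KGroup p L) = QuotientGroup.mk (x * z ^ p) :=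
    QuotientGroup.eq.mpr ⟨z, by rw [inv_mul_cancel_left]; rfl⟩
  rw [← h2]

include hσ in
/-- **The Kummer pairing on `(Bˣ ⧸ (Bˣ)^p, W B p e)`**: the hypothesis `hP` of
`CWLocal.rank_H1A_le_one_Qp` / `CWLocal.rank_H1A_eq_zero_Qp`. -/
theorem isKummerPairing_int [IsDiscreteValuationRing B] (e : ℕ)
    (hχ : ∀ s ∈ L.fixingSubgroup, χ s = 1)
    (hcont : ∀ f ∈ 𝒜, ∃ E : IntermediateField F Ω, FiniteDimensional F E ∧
      ∀ (g : Gal(Ω/F)) (t : Gal(Ω/F)), t ∈ E.fixingSubgroup → f (g * t) = f g)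
    (HB : ∀ u ∈ Z1A 𝒜 χ, ∀ (l : k →+ ZMod p) (x : (↥L)ˣ) (α : Ω), α ^ p = ((x : ↥L) : Ω) →
      (∀ s : L.fixingSubgroup, (s : Gal(Ω/F)) α = ζ ^ (l (u s)).val * α) →
      ∃ (z : (↥L)ˣ) (b : Bˣ), b ∈ principalUnits B e ∧ unitsIncl L B b = x * z ^ p) :
    IsKummerPairing 𝒜 χ L.fixingSubgroup (actA p σ) (WbFiltration.W B p e) (omega hζ)
      (prInt B hζ hζL hroot) :=
  ⟨hχ, fun s a b => prInt_mul B hζ hζL hroot s a b,
    fun g s a => prInt_actA B σ hσ hζ hζL hroot g s a,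
    fun g _ ha => WbFiltration.actQ_mem_W (σ g) ha,
    fun a _ h => eq_one_of_prInt_eq_zero B hζ hζL hroot a h,
    fun u hu l => exists_prInt_eq B hζ hζL hroot 𝒜 χ e hχ hcont HB u hu l⟩

end Fermat.Agent.S56x.Local.KummerPairingInt
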