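import Mathlib
import Fermat.Agent.S56x.Local.KummerPairingInt
import Fermat.Agent.S56x.Local.CWLocal

/-!
# P-S56, block (A) (helper10): (CW1)/(CW0) from the concrete Kummer pairing

Composition of `KummerPairingInt.isKummerPairing_int` (the Kummer pairing on `Bˣ ⧸ (Bˣ)^p`,
`B = O_L`) with helper48's `CWLocal.rank_H1A_le_one_Qp` / `rank_H1A_eq_zero_Qp`, in the
field-generic setting: `Ω / F` Galois (think `PadicAlgCl p / ℚ_[p]`), `L` a finite Galois
subextension containing `ζ_p`, `B` a discrete valuation ring with finite residue field and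
fraction field `L` (think `OE p L`), with `p = c₀ ϖ^(p-1)` (the `ℚ_p`-shape `e_L = p - 1`), ring
automorphisms `σ g` of `B` compatible with `g|_L`.

Remaining hypotheses (all arithmetic inputs with owners):
* `hN`     : `U^(N₀) ≤ (Bˣ)^p` (complete case; `UnitFiltration`);
* `hc1`, `hinert`, `hidx` : the tame structure of `L / F` (`CWPadicData`, helper48);
* `hcont`  : admissible functions are continuous (`BddAlg`, helper97);
* `HB`     : Fontaine's bound ⇒ the Kummer generators of admissible cocycles can be normalised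
  into `U^(p-1)` (`BoundedKummerPadic`, helper47);
* `hHD1`   : the descent inequality (`CharCountHom`, helper90).

* `exists_zetaB` : `ζ` comes from `B`;
* `rank_H1A_le_one` (**CW1**), `rank_H1A_eq_zero` (**CW0**).
-/

set_option autoImplicit false
set_option linter.unusedSectionVars false
set_option linter.style.haveILetI false
set_option linter.overlappingInstances false

noncomputable section

namespace Fermat.Agent.S56x.Local.CWAssembly

open IntermediateField IsLocalRing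
open Fermat.Agent.S56x.Local.KummerH1 Fermat.Agent.S56x.Local.CWAbstract
  Fermat.Agent.S56x.Local.Devissage Fermat.Agent.S56x.Local.KummerPairing
  Fermat.Agent.S56x.Local.KummerPairingInt Fermat.Agent.S56x.Local.FiltrationCount
  Fermat.Agent.Lib.CFT.Local.UnitsFiltration Fermat.Agent.S56x.Local.WbCount

variable {F Ω : Type*} [Field F] [Field Ω] [Algebra F Ω] [IsGalois F Ω]
  {p : ℕ} [Fact p.Prime] {L : IntermediateField F Ω} [Normal F L] [FiniteDimensional F L]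
  {ζ : Ω} (hζ : IsPrimitiveRoot ζ p) (hζL : ζ ∈ L)
  (hroot : ∀ x : ↥L, ∃ α : Ω, α ^ p = (x : Ω))
  (B : Type*) [CommRing B] [IsDomain B] [IsDiscreteValuationRing B] [Finite (ResidueField B)]
  [Algebra B ↥L] [IsFractionRing B ↥L]
  (σ : Gal(Ω/F) → B ≃+* B)
  (hσ : ∀ (g : Gal(Ω/F)) (b : B),
    ((algebraMap B ↥L (σ g b) : ↥L) : Ω) = g ((algebraMap B ↥L b : ↥L) : Ω))

omit [IsGalois F Ω] [Normal F L] [FiniteDimensional F L] [Finite (ResidueField B)] in
/-- the map `B → Ω` is injective. -/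
theorem coe_algebraMap_injective :
    Function.Injective (fun b : B => ((algebraMap B ↥L b : ↥L) : Ω)) := fun _ _ h =>
  IsFractionRing.injective B ↥L (Subtype.ext h)

include hζ hζL in
omit [IsGalois F Ω] [Normal F L] [FiniteDimensional F L] [Finite (ResidueField B)] in
/-- `ζ` comes from `B` (integrally closed). -/
theorem exists_zetaB : ∃ ζB : B, ((algebraMap B ↥L ζB : ↥L) : Ω) = ζ ∧ ζB ^ p = 1 ∧ ζB ≠ 1 := by
  have hp := (Fact.out : p.Prime)
  have h1 : (⟨ζ, hζL⟩ : ↥L) ^ p = 1 := Subtype.ext (by simpa using hζ.pow_eq_one)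
  have hint : IsIntegral B (⟨ζ, hζL⟩ : ↥L) := by
    refine IsIntegral.of_pow hp.pos ?_
    rw [h1]
    exact isIntegral_one
  obtain ⟨b, hb⟩ := IsIntegrallyClosed.isIntegral_iff.mp hint
  have hbζ : ((algebraMap B ↥L b : ↥L) : Ω) = ζ := by rw [hb]
  refine ⟨b, hbζ, ?_, ?_⟩
  · apply coe_algebraMap_injective (L := L) B
    show ((algebraMap B ↥L (b ^ p) : ↥L) : Ω) = ((algebraMap B ↥L 1 : ↥L) : Ω)
    rw [map_pow, map_one, hb, h1]
  · rintro rfl
    rw [map_one] at hbζ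
    exact hζ.ne_one hp.one_lt hbζ.symm

variable {ϖ : B} (hϖ : Irreducible ϖ) {c₀ : Bˣ} (hpe : (p : B) = c₀ * ϖ ^ (p - 1))
  {N₀ : ℕ} (hN : principalUnits B N₀ ≤ WbFiltration.pthPowers B p)
  {c : Gal(Ω/F) → B} (hc : ∀ g, σ g ϖ = c g * ϖ)
  (hc1 : ∀ g, residue B (c g) ^ (p - 1) = 1)
  (hp2 : 2 ≤ p - 1) (hidx : ¬ p ∣ Module.finrank F L)
  {k : Type*} [Field k] [Finite k] [CharP k p]
  (𝒜 : Subalgebra k (Gal(Ω/F) → k)) (χ : Gal(Ω/F) →* kˣ)
  (hχ : ∀ s ∈ L.fixingSubgroup, χ s = 1)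
  (hcont : ∀ f ∈ 𝒜, ∃ E : IntermediateField F Ω, FiniteDimensional F E ∧
    ∀ (g : Gal(Ω/F)) (t : Gal(Ω/F)), t ∈ E.fixingSubgroup → f (g * t) = f g)
  (HB : ∀ u ∈ Z1A 𝒜 χ, ∀ (l : k →+ ZMod p) (x : (↥L)ˣ) (α : Ω), α ^ p = ((x : ↥L) : Ω) →
    (∀ s : L.fixingSubgroup, (s : Gal(Ω/F)) α = ζ ^ (l (u s)).val * α) →
    ∃ (z : (↥L)ˣ) (b : Bˣ), b ∈ principalUnits B (p - 1) ∧ unitsIncl L B b = x * z ^ p)

include hζL hroot hσ hϖ hpe hN hc hc1 hp2 hidx hχ hcont HB in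
/-- **(CW1)**: `rank_k H¹_𝒜(k(χ)) ≤ 1`. -/
theorem rank_H1A_le_one
    (hinert : ∃ g₀, (∀ y, ResidueField.map ((σ g₀ : B ≃+* B) : B →+* B) y = y) ∧
      omega hζ g₀ ≠ 1)
    (hHD1 : χ ≠ 1 →
      Nat.card (eqHom (twistN χ (omega hζ)) (actK σ c (p - 1)) ⊤) ≤ Nat.card k) :
    Module.rank k (H1A 𝒜 χ) ≤ 1 := by
  haveI : NeZero p := ⟨(Fact.out : p.Prime).ne_zero⟩
  obtain ⟨ζB, hζB, hζBp, hζB1⟩ := exists_zetaB hζ hζL B
  have hm : ∀ g, σ g ζB = ζB ^ (omega hζ g).val := by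
    intro g
    apply coe_algebraMap_injective (L := L) B
    show ((algebraMap B ↥L (σ g ζB) : ↥L) : Ω) = ((algebraMap B ↥L (ζB ^ (omega hζ g).val) : ↥L) : Ω)
    rw [hσ g ζB, hζB, map_pow, SubmonoidClass.coe_pow, hζB, omega_spec hζ g]
  have hP := isKummerPairing_int B σ hσ hζ hζL hroot 𝒜 χ (p - 1) hχ hcont HB
  refine CWLocal.rank_H1A_le_one_Qp hϖ hpe hN hζBp hζB1 σ hc hm hp2 hP ?_
    (fun g => (ZMod.natCast_zmod_val _).symm) (omega_ne_zero hζ) hc1 hinert hHD1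
  rw [index_fixingSubgroup_eq]
  exact hidx

include hζL hroot hσ hϖ hpe hN hc hc1 hp2 hidx hχ hcont HB in
/-- **(CW0)**: `H¹_𝒜(k(χ)) = 0` for `χ ≠ 1` which differs from `ω` on an inert element. -/
theorem rank_H1A_eq_zero (hχ1 : χ ≠ 1)
    (hinert : ∃ g₀, (∀ y, ResidueField.map ((σ g₀ : B ≃+* B) : B →+* B) y = y) ∧
      (((omega hζ g₀).val : ℕ) : k) ≠ (χ g₀ : k)) :
    Module.rank k (H1A 𝒜 χ) = 0 := by
  haveI : NeZero p := ⟨(Fact.out : p.Prime).ne_zero⟩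
  obtain ⟨ζB, hζB, hζBp, hζB1⟩ := exists_zetaB hζ hζL B
  have hm : ∀ g, σ g ζB = ζB ^ (omega hζ g).val := by
    intro g
    apply coe_algebraMap_injective (L := L) B
    show ((algebraMap B ↥L (σ g ζB) : ↥L) : Ω) = ((algebraMap B ↥L (ζB ^ (omega hζ g).val) : ↥L) : Ω)
    rw [hσ g ζB, hζB, map_pow, SubmonoidClass.coe_pow, hζB, omega_spec hζ g]
  have hP := isKummerPairing_int B σ hσ hζ hζL hroot 𝒜 χ (p - 1) hχ hcont HB
  refine CWLocal.rank_H1A_eq_zero_Qp hϖ hpe hN hζBp hζB1 σ hc hm hp2 hP ?_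
    (fun g => (ZMod.natCast_zmod_val _).symm) (omega_ne_zero hζ) hc1 hχ1 hinert
  rw [index_fixingSubgroup_eq]
  exact hidx

end Fermat.Agent.S56x.Local.CWAssembly
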