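/-
P-S56, block (A), count side (helper83): the concrete operator family on `OE p L` and the
elementary arithmetic inputs of `CWAssembly` for a finite Galois `L / ℚ_p` inside `PadicAlgCl p`.
-/
import Mathlib
import Fermat.Agent.S56x.Local.PadicFinite
import Fermat.Agent.S56x.Local.PadicInertia
import Fermat.Agent.S56x.Local.BddDef

set_option autoImplicit false
set_option linter.unusedSectionVars false
set_option linter.style.haveILetI false

open IsLocalRing

namespace Fermat.Agent.S56x.Local.CWPadicOps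

open Fermat.Agent.S56x.Local.PadicFinite Fermat.Agent.S56x.Local.PadicInertia
open Fermat.Agent.S56x.Local.BddDef

variable {p : ℕ} [Fact p.Prime] (L : IntermediateField ℚ_[p] (PadicAlgCl p))

/-! ### An inertia element moving `ζ_p` -/

section Inert

variable [FiniteDimensional ℚ_[p] L] [Normal ℚ_[p] L]

/-- a `p`-th root of unity in `OE p L` is `≡ 1` modulo the maximal ideal. -/
theorem sub_one_mem_maximalIdeal_of_pow_eq_one {z : OE p L} (hz : z ^ p = 1) :
    z - 1 ∈ maximalIdeal (OE p L) := by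
  rw [← residue_eq_zero_iff, map_sub, map_one, sub_eq_zero]
  have h1 : (residue (OE p L) z) ^ p = 1 := by rw [← map_pow, hz, map_one]
  have h2 : (residue (OE p L) z - 1) ^ p = 0 := by
    rw [sub_pow_char, h1, one_pow, sub_self]
  exact sub_eq_zero.mp (pow_eq_zero_iff (Fact.out : p.Prime).ne_zero |>.mp h2)

/-- **an inertia element moves `ζ_p`** (`p ≥ 3`): `ℚ_p(ζ_p)/ℚ_p` is ramified. -/
theorem exists_inertia_ne {z : OE p L} (hz : IsPrimitiveRoot z p) (hp2 : 2 ≤ p - 1) :
    ∃ σ : L ≃ₐ[ℚ_[p]] L, (∀ b : OE p L, σ • b - b ∈ maximalIdeal (OE p L)) ∧ σ • z ≠ z := by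
  by_contra hcon
  replace hcon : ∀ σ : L ≃ₐ[ℚ_[p]] L, (∀ b : OE p L, σ • b - b ∈ maximalIdeal (OE p L)) →
      σ • z = z := by
    intro σ hσ
    by_contra hne
    exact hcon ⟨σ, hσ, hne⟩
  have hp := (Fact.out : p.Prime)
  have hp1 : 1 < p := hp.one_lt
  -- `z - 1` is inertia-fixed, hence divisible by `p`
  have hfix : ∀ σ : L ≃ₐ[ℚ_[p]] L, (∀ b : OE p L, σ • b - b ∈ maximalIdeal (OE p L)) →
      σ • (z - 1) = z - 1 := by
    intro σ hσ
    rw [smul_sub, smul_one, hcon σ hσ]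
  obtain ⟨w, hw⟩ := inertia_fixed_dvd (z - 1)
    (sub_one_mem_maximalIdeal_of_pow_eq_one L hz.pow_eq_one) hfix
  -- every `1 - z^(k+1)` is divisible by `p`
  have hdvd : ∀ k : ℕ, ((p : ℕ) : OE p L) ∣ 1 - z ^ (k + 1) := by
    intro k
    have h1 : (z - 1) ∣ z ^ (k + 1) - 1 := by
      simpa using sub_dvd_pow_sub_pow z 1 (k + 1)
    have h2 : ((p : ℕ) : OE p L) ∣ z ^ (k + 1) - 1 := (Dvd.intro _ hw.symm).trans h1
    rw [← neg_sub]
    exact (dvd_neg).mpr h2
  -- the product formula `∏ (1 - z^(k+1)) = p`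
  obtain ⟨n, hn⟩ : ∃ n, p = n + 1 := ⟨p - 1, by omega⟩
  have hprod : ∏ k ∈ Finset.range n, (1 - z ^ (k + 1)) = ((n + 1 : ℕ) : OE p L) := by
    have := IsPrimitiveRoot.prod_one_sub_pow_eq_order (R := OE p L) (n := n) (μ := z)
      (by rw [← hn]; exact hz)
    rw [this]
    push_cast
    rfl
  have hpow : ((p : ℕ) : OE p L) ^ n ∣ ∏ k ∈ Finset.range n, (1 - z ^ (k + 1)) := by
    have := Finset.prod_dvd_prod_of_dvd (s := Finset.range n) (fun _ : ℕ => ((p : ℕ) : OE p L))
      (fun k => 1 - z ^ (k + 1)) (fun k _ => hdvd k)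
    simpa using this
  rw [hprod, ← hn] at hpow
  -- `p^2 ∣ p`, so `p` is a unit
  have hn2 : 2 ≤ n := by omega
  have h3 : ((p : ℕ) : OE p L) ^ 2 ∣ ((p : ℕ) : OE p L) := (pow_dvd_pow _ hn2).trans hpow
  have hp0 : ((p : ℕ) : OE p L) ≠ 0 := natCast_p_ne_zero
  obtain ⟨c, hc⟩ := h3
  have h4 : ((p : ℕ) : OE p L) * 1 = ((p : ℕ) : OE p L) * (((p : ℕ) : OE p L) * c) := by
    rw [mul_one, ← mul_assoc, ← sq]; exact hc
  have h5 := mul_left_cancel₀ hp0 h4
  have hunit : IsUnit ((p : ℕ) : OE p L) := IsUnit.of_mul_eq_one c h5.symm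
  exact (mem_maximalIdeal _).mp natCast_p_mem_maximalIdeal hunit

end Inert

/-! ### The operator family `GQp p → OE p L ≃+* OE p L` -/

section Ops

variable [Normal ℚ_[p] L]

/-- restriction `Gal(PadicAlgCl p/ℚ_p) → Gal(L/ℚ_p)`. -/
noncomputable def resL : GQp p →* (L ≃ₐ[ℚ_[p]] L) := AlgEquiv.restrictNormalHom L

theorem coe_resL (g : GQp p) (x : L) : ((resL L g x : L) : PadicAlgCl p) = g (x : PadicAlgCl p) :=
  AlgEquiv.restrictNormal_commutes g L x

theorem resL_surjective : Function.Surjective (resL L) :=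
  AlgEquiv.restrictNormalHom_surjective (F := ℚ_[p]) (K₁ := L) (PadicAlgCl p)

theorem resL_eq_one_iff (g : GQp p) : resL L g = 1 ↔ g ∈ L.fixingSubgroup := by
  rw [IntermediateField.mem_fixingSubgroup_iff]
  constructor
  · intro h x hx
    have := coe_resL L g ⟨x, hx⟩
    rw [h] at this
    exact this.symm
  · intro h
    ext x
    rw [coe_resL]
    exact h x x.2

/-- **the operators**: `g` acts on `OE p L` through its restriction to `L`. -/
noncomputable def sigmaOE (g : GQp p) : OE p L ≃+* OE p L :=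
  MulSemiringAction.toRingEquiv (L ≃ₐ[ℚ_[p]] L) (OE p L) (resL L g)

theorem sigmaOE_apply (g : GQp p) (b : OE p L) : sigmaOE L g b = resL L g • b := rfl

/-- **compatibility** (the hypothesis `hσ` of `CWAssembly`). -/
theorem coe_sigmaOE (g : GQp p) (b : OE p L) :
    ((algebraMap (OE p L) ↥L (sigmaOE L g b) : ↥L) : PadicAlgCl p) =
      g ((algebraMap (OE p L) ↥L b : ↥L) : PadicAlgCl p) := by
  show (((resL L g • b : OE p L) : L) : PadicAlgCl p) = g ((b : L) : PadicAlgCl p)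
  rw [coe_smul_OE, coe_resL]

theorem sigmaOE_mul (g h : GQp p) (b : OE p L) :
    sigmaOE L (g * h) b = sigmaOE L g (sigmaOE L h b) := by
  rw [sigmaOE_apply, sigmaOE_apply, sigmaOE_apply, map_mul, mul_smul]

theorem sigmaOE_one (b : OE p L) : sigmaOE L 1 b = b := by
  rw [sigmaOE_apply, map_one, one_smul]

theorem sigmaOE_of_mem_fixingSubgroup {g : GQp p} (hg : g ∈ L.fixingSubgroup) (b : OE p L) :
    sigmaOE L g b = b := by
  rw [sigmaOE_apply, (resL_eq_one_iff L g).mpr hg, one_smul]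

theorem sigmaOE_algebraMap (g : GQp p) (a : ℤ_[p]) :
    sigmaOE L g (algebraMap ℤ_[p] (OE p L) a) = algebraMap ℤ_[p] (OE p L) a := by
  apply Subtype.ext
  apply Subtype.ext
  have h := coe_sigmaOE L g (algebraMap ℤ_[p] (OE p L) a)
  rw [show ((algebraMap (OE p L) ↥L (algebraMap ℤ_[p] (OE p L) a) : ↥L) : PadicAlgCl p) =
    algebraMap ℚ_[p] (PadicAlgCl p) (a : ℚ_[p]) from rfl, AlgEquiv.commutes] at h
  exact h

theorem sigmaOE_natCast (g : GQp p) (n : ℕ) : sigmaOE L g (n : OE p L) = (n : OE p L) :=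
  map_natCast (sigmaOE L g) n

/-- the induced map on the residue field is trivial iff the restriction is in the inertia
group. -/
theorem residueField_map_sigmaOE_eq_iff [FiniteDimensional ℚ_[p] L] (g : GQp p) :
    (∀ y : ResidueField (OE p L),
      ResidueField.map ((sigmaOE L g : OE p L ≃+* OE p L) : OE p L →+* OE p L) y = y) ↔
      ∀ b : OE p L, resL L g • b - b ∈ maximalIdeal (OE p L) := by
  constructor
  · intro h b
    have h1 := h (residue (OE p L) b)
    rw [ResidueField.map_residue] at h1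
    rw [← residue_eq_zero_iff, map_sub, sub_eq_zero]
    exact h1
  · intro h y
    obtain ⟨b, rfl⟩ := residue_surjective y
    rw [ResidueField.map_residue]
    have h1 := h b
    rw [← residue_eq_zero_iff, map_sub, sub_eq_zero] at h1
    exact h1

/-- **an inert element moving `ζ_p`** (the hypothesis `hinert` of `CWAssembly`, before the
translation `g ζ = ζ ^ ω(g)`). -/
theorem exists_inert_ne [FiniteDimensional ℚ_[p] L] {ζ : PadicAlgCl p} (hζ : IsPrimitiveRoot ζ p)
    (hζL : ζ ∈ L) (hp2 : 2 ≤ p - 1) :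
    ∃ g₀ : GQp p, (∀ y : ResidueField (OE p L),
      ResidueField.map ((sigmaOE L g₀ : OE p L ≃+* OE p L) : OE p L →+* OE p L) y = y) ∧
      g₀ ζ ≠ ζ := by
  have hp := (Fact.out : p.Prime)
  -- `ζ` as an element of `OE p L`
  have hζ1 : ‖(⟨ζ, hζL⟩ : L)‖ ≤ 1 := by
    have h1 : (⟨ζ, hζL⟩ : L) ^ p = 1 := Subtype.ext (by simpa using hζ.pow_eq_one)
    have h2 : ‖(⟨ζ, hζL⟩ : L)‖ ^ p = 1 := by rw [← norm_pow, h1, norm_one]
    exact ((pow_eq_one_iff_of_nonneg (norm_nonneg _) hp.ne_zero).mp h2).le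
  let z : OE p L := ⟨⟨ζ, hζL⟩, mem_OE.mpr hζ1⟩
  have hz : IsPrimitiveRoot z p := by
    have hinj : Function.Injective (fun b : OE p L => ((b : L) : PadicAlgCl p)) :=
      fun _ _ h => Subtype.ext (Subtype.ext h)
    let φ : OE p L →* PadicAlgCl p :=
      { toFun := fun b => ((b : L) : PadicAlgCl p), map_one' := rfl, map_mul' := fun _ _ => rfl }
    exact IsPrimitiveRoot.of_map_of_injective (f := φ) (by exact hζ) hinj
  obtain ⟨σ, hσ, hne⟩ := exists_inertia_ne L hz hp2
  obtain ⟨g₀, rfl⟩ := resL_surjective L σ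
  refine ⟨g₀, (residueField_map_sigmaOE_eq_iff L g₀).mpr hσ, fun h => hne ?_⟩
  apply Subtype.ext
  apply Subtype.ext
  rw [coe_smul_OE, coe_resL]
  exact h

/-- **tame action on a uniformizer** (the hypotheses `hc`, `hc1` of `CWAssembly`): if
`π ^ n ∈ ℤ_p` then every `g` multiplies `π` by an `n`-th root of unity. -/
theorem exists_sigmaOE_eq_mul {π : OE p L} (hπ0 : π ≠ 0) {n : ℕ} {a : ℤ_[p]}
    (hπ : π ^ n = algebraMap ℤ_[p] (OE p L) a) (g : GQp p) :
    ∃ c : OE p L, sigmaOE L g π = c * π ∧ c ^ n = 1 := by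
  -- work in the field `L`
  have hπL : ((π : OE p L) : L) ≠ 0 := fun h => hπ0 (Subtype.ext h)
  have hnorm : ‖((sigmaOE L g π : OE p L) : L)‖ = ‖(π : L)‖ := by
    rw [sigmaOE_apply, coe_smul_OE, norm_algEquiv]
  have hc : ((sigmaOE L g π : OE p L) : L) / (π : L) ∈ OE p L := by
    rw [mem_OE, norm_div, hnorm, div_self (norm_ne_zero_iff.mpr hπL)]
  refine ⟨⟨_, hc⟩, ?_, ?_⟩
  · apply Subtype.ext
    rw [Subring.coe_mul]
    exact (div_mul_cancel₀ _ hπL).symm
  · apply Subtype.ext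
    rw [Subring.coe_pow, Subring.coe_one]
    show (((sigmaOE L g π : OE p L) : L) / (π : L)) ^ n = 1
    rw [div_pow, ← Subring.coe_pow, ← Subring.coe_pow, ← map_pow, hπ, sigmaOE_algebraMap]
    refine div_self ?_
    rw [← hπ, Subring.coe_pow]
    exact pow_ne_zero _ hπL

end Ops

end Fermat.Agent.S56x.Local.CWPadicOps
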