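/-
P-S56, block (A) LOCAL FLAT, file LOC-6c (helper90): the descent count, HOM FORM.

`N = Multiplicative (k →+ ZMod p)` with the operators `CWAbstract.twistN χ ω` and the target
`Y = Multiplicative l` with the operators `ρY g y = cc g * τ g y` (a twisted semilinear "action" of a
mere family `τ : Γ → l →+* l`, `cc : Γ → l`; no action axioms).  If every `τ g` is bijective, every
`cc g` is nonzero and the elements of `l` fixed by all the `τ g` satisfy `b ^ p = b`
(i.e. the fixed field is the prime field), then

  `#Hom_Γ(N, Y) = #FiltrationCount.eqHom (twistN χ ω) ρY ⊤ ≤ #k`     (`card_eqHom_le`, (HD1)).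

Proof: an Artin-type minimal relation argument (`coeff_eq_zero_of_closed`) shows that equivariant
homs which are independent over `𝔽_p` are independent over `l` in `Hom_{𝔽_p}(k^∨, l)`, whose
`l`-dimension is `dim_{𝔽_p} k`.
-/
import Mathlib
import Fermat.Agent.S56x.Local.CWAbstract
import Fermat.Agent.S56x.Local.FiltrationCount

set_option autoImplicit false
set_option linter.unusedSectionVars false
set_option linter.style.haveILetI false

namespace Fermat.Agent.S56x.Local.CharCountHom

open Fermat.Agent.S56x.Local.FiltrationCount Fermat.Agent.S56x.Local.CWAbstract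

/-! ## Part 1: the Artin-type descent for a family of endomorphisms of the coefficient field -/

section Artin

variable {l : Type*} [Field l] {E : Type*} [AddCommGroup E] [Module l E] {Γ : Type*}

/-- **Descent, elementwise form, for families.** `σ g : l →+* l` a family of ring endomorphisms such
that the relations `∑ b i • v i = 0` are stable under applying `σ g` to the coefficients.  If every
relation with coefficients fixed by all `σ g` is trivial, then every relation is trivial. -/
theorem coeff_eq_zero_of_closed {ι : Type*} (σ : Γ → l →+* l) (v : ι → E) (s : Finset ι)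
    (hclosed : ∀ (g : Γ) (b : ι → l), ∑ i ∈ s, b i • v i = 0 → ∑ i ∈ s, σ g (b i) • v i = 0)
    (hF : ∀ b : ι → l, (∀ (g : Γ) (i : ι), σ g (b i) = b i) → ∑ i ∈ s, b i • v i = 0 →
      ∀ i ∈ s, b i = 0) :
    ∀ a : ι → l, ∑ i ∈ s, a i • v i = 0 → ∀ i ∈ s, a i = 0 := by
  classical
  -- strong induction on the size of the support of `a` inside `s`
  suffices H : ∀ (n : ℕ) (a : ι → l), (s.filter fun i => a i ≠ 0).card ≤ n →
      ∑ i ∈ s, a i • v i = 0 → ∀ i ∈ s, a i = 0 from
    fun a ha => H _ a le_rfl ha
  intro n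
  induction n with
  | zero =>
    intro a hcard _ i hi
    by_contra hne
    have : i ∈ s.filter fun i => a i ≠ 0 := Finset.mem_filter.2 ⟨hi, hne⟩
    have h0 : (s.filter fun i => a i ≠ 0) = ∅ := Finset.card_eq_zero.1 (Nat.le_zero.1 hcard)
    rw [h0] at this
    exact absurd this (Finset.notMem_empty i)
  | succ n ih =>
    intro a hcard ha
    by_contra hcon
    push Not at hcon
    obtain ⟨i₀, hi₀s, hi₀⟩ := hcon
    -- normalise
    set a' : ι → l := fun i => a i / a i₀ with ha'
    have ha'rel : ∑ i ∈ s, a' i • v i = 0 := by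
      have : ∑ i ∈ s, a' i • v i = (a i₀)⁻¹ • ∑ i ∈ s, a i • v i := by
        rw [Finset.smul_sum]
        refine Finset.sum_congr rfl fun i _ => ?_
        rw [smul_smul, ha']
        congr 1
        show a i / a i₀ = (a i₀)⁻¹ * a i
        rw [div_eq_mul_inv, mul_comm]
      rw [this, ha, smul_zero]
    have ha'i₀ : a' i₀ = 1 := by rw [ha']; exact div_self hi₀
    have hsupp : ∀ i, a' i ≠ 0 → a i ≠ 0 := by
      intro i hi h
      apply hi
      rw [ha']
      simp [h]
    -- all `a' i` are invariant
    have hinv : ∀ (g : Γ), ∀ i ∈ s, σ g (a' i) = a' i := by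
      intro g
      have hrel : ∑ i ∈ s, (σ g (a' i) - a' i) • v i = 0 := by
        have h1 : ∑ i ∈ s, σ g (a' i) • v i = 0 := hclosed g a' ha'rel
        simp only [sub_smul, Finset.sum_sub_distrib, h1, ha'rel, sub_zero]
      have hcard' : (s.filter fun i => σ g (a' i) - a' i ≠ 0).card ≤ n := by
        have hsub : (s.filter fun i => σ g (a' i) - a' i ≠ 0) ⊆
            (s.filter fun i => a i ≠ 0).erase i₀ := by
          intro i hi
          rw [Finset.mem_filter] at hi
          rw [Finset.mem_erase, Finset.mem_filter]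
          refine ⟨?_, hi.1, ?_⟩
          · rintro rfl
            apply hi.2
            rw [ha'i₀, map_one, sub_self]
          · apply hsupp
            intro h0
            apply hi.2
            rw [h0, map_zero, sub_self]
        have h3 := Finset.card_le_card hsub
        have h4 : ((s.filter fun i => a i ≠ 0).erase i₀).card + 1 =
            (s.filter fun i => a i ≠ 0).card :=
          Finset.card_erase_add_one (Finset.mem_filter.2 ⟨hi₀s, hi₀⟩)
        omega
      intro i hi
      exact sub_eq_zero.1 (ih _ hcard' hrel i hi)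
    -- replace `a'` by an everywhere invariant family
    set b : ι → l := fun i => if i ∈ s then a' i else 0 with hb
    have hbinv : ∀ (g : Γ) (i : ι), σ g (b i) = b i := by
      intro g i
      rw [hb]
      by_cases hi : i ∈ s
      · simp only [hi, if_true]; exact hinv g i hi
      · simp only [hi, if_false, map_zero]
    have hbrel : ∑ i ∈ s, b i • v i = 0 := by
      rw [← ha'rel]
      refine Finset.sum_congr rfl fun i hi => ?_
      rw [hb]; simp only [hi, if_true]
    have := hF b hbinv hbrel i₀ hi₀s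
    rw [hb] at this
    simp only [hi₀s, if_true] at this
    rw [ha'i₀] at this
    exact one_ne_zero this

end Artin

/-! ## Part 2: the space `Hom_{𝔽_p}(k^∨, l)` and the equivariant homs inside it -/

section Space

variable {Γ : Type*} [Group Γ] {k : Type*} [Field k] {p : ℕ} [Fact p.Prime]
  {l : Type*} [Field l] [Algebra (ZMod p) l]

/-- ring endomorphisms fix the prime field. -/
theorem ringHom_algebraMap_zmod (f : l →+* l) (a : ZMod p) :
    f (algebraMap (ZMod p) l a) = algebraMap (ZMod p) l a := by
  have h := RingHom.ext_zmod (f.comp (algebraMap (ZMod p) l)) (algebraMap (ZMod p) l)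
  exact congrArg (fun φ => φ a) h

/-- the additive form of `twistN`. -/
def tw (χ : Γ →* kˣ) (ω : Γ → ZMod p) (g : Γ) (lam : k →+ ZMod p) : k →+ ZMod p :=
  Multiplicative.toAdd (twistN χ ω g (Multiplicative.ofAdd lam))

variable (χ : Γ →* kˣ) (ω : Γ → ZMod p) (τ : Γ → l →+* l) (cc : Γ → l)

/-- the `𝔽_p`-subspace of `Hom_{𝔽_p}(k^∨, l)` of the equivariant maps:
`H (twistN g λ) = cc g * τ g (H λ)`. -/
def eqSub : Submodule (ZMod p) ((k →+ ZMod p) →ₗ[ZMod p] l) where
  carrier := {H | ∀ (g : Γ) (lam : k →+ ZMod p), H (tw χ ω g lam) = cc g * τ g (H lam)}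
  add_mem' := by
    intro H H' hH hH' g lam
    rw [LinearMap.add_apply, LinearMap.add_apply, hH g lam, hH' g lam, map_add, mul_add]
  zero_mem' := by
    intro g lam
    rw [LinearMap.zero_apply, LinearMap.zero_apply, map_zero, mul_zero]
  smul_mem' := by
    intro c H hH g lam
    rw [LinearMap.smul_apply, LinearMap.smul_apply, hH g lam, Algebra.smul_def, Algebra.smul_def,
      map_mul, ringHom_algebraMap_zmod]
    ring

theorem mem_eqSub {H : (k →+ ZMod p) →ₗ[ZMod p] l} :
    H ∈ eqSub χ ω τ cc ↔ ∀ (g : Γ) (lam : k →+ ZMod p), H (tw χ ω g lam) = cc g * τ g (H lam) :=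
  Iff.rfl

variable [CharP l p]

/-- **independence over `𝔽_p` implies independence over `l`** for equivariant maps. -/
theorem linearIndependent_of_mem_eqSub (hτ : ∀ g, Function.Bijective (τ g))
    (hcc : ∀ g, cc g ≠ 0) (hfix : ∀ b : l, (∀ g, τ g b = b) → b ^ p = b)
    {ι : Type*} (v : ι → (k →+ ZMod p) →ₗ[ZMod p] l) (hv : ∀ i, v i ∈ eqSub χ ω τ cc)
    (hind : LinearIndependent (ZMod p) v) : LinearIndependent l v := by
  classical
  rw [linearIndependent_iff'] at hind ⊢
  intro s a ha i hi
  -- the inverse family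
  let e : Γ → l ≃+* l := fun g => RingEquiv.ofBijective (τ g) (hτ g)
  have he : ∀ g x, e g x = τ g x := fun g x => rfl
  refine coeff_eq_zero_of_closed (fun g => ((e g).symm : l →+* l)) v s ?_ ?_ a ha i hi
  · -- relations are stable under `τ g ⁻¹`
    intro g b hb
    apply LinearMap.ext
    intro lam
    have h1 := LinearMap.congr_fun hb (tw χ ω g lam)
    rw [LinearMap.sum_apply, LinearMap.zero_apply] at h1
    have h2 : cc g * ∑ i ∈ s, b i * τ g (v i lam) = 0 := by
      rw [← h1, Finset.mul_sum]
      refine Finset.sum_congr rfl fun i _ => ?_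
      rw [LinearMap.smul_apply, hv i g lam, smul_eq_mul]
      ring
    have h3 : ∑ i ∈ s, b i * τ g (v i lam) = 0 := by
      rcases mul_eq_zero.mp h2 with h | h
      · exact absurd h (hcc g)
      · exact h
    have h4 := congrArg (e g).symm h3
    rw [map_sum, map_zero] at h4
    rw [LinearMap.sum_apply, LinearMap.zero_apply, ← h4]
    refine Finset.sum_congr rfl fun i _ => ?_
    rw [LinearMap.smul_apply, smul_eq_mul, map_mul, ← he g (v i lam), RingEquiv.symm_apply_apply]
    rfl
  · -- invariant coefficients lie in the prime field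
    intro b hb hrel j hj
    have hb' : ∀ j, ∃ c : ZMod p, algebraMap (ZMod p) l c = b j := by
      intro j
      have h1 : ∀ g, τ g (b j) = b j := by
        intro g
        have h2 : (e g).symm (b j) = b j := hb g j
        rw [← he, ← h2, RingEquiv.apply_symm_apply, h2]
      have h2 : b j ∈ (⊥ : Subfield l) :=
        (Subfield.mem_bot_iff_pow_eq_self l p).mpr (hfix _ h1)
      rw [← ZMod.fieldRange_castHom_eq_bot p, RingHom.mem_fieldRange] at h2
      obtain ⟨c, hc⟩ := h2
      refine ⟨c, ?_⟩
      rw [← hc]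
      exact congrArg (fun φ : ZMod p →+* l => φ c) (RingHom.ext_zmod _ _)
    choose c hc using hb'
    have h1 : ∑ j ∈ s, c j • v j = 0 := by
      rw [← hrel]
      refine Finset.sum_congr rfl fun j _ => ?_
      rw [← hc j, algebraMap_smul]
    have h2 := hind s c h1 j hj
    rw [← hc j, h2, map_zero]

end Space

/-! ## Part 3: dimensions and the count -/

section Count

variable {Γ : Type*} [Group Γ] {k : Type*} [Field k] [Finite k] {p : ℕ} [Fact p.Prime]
  [CharP k p] {l : Type*} [Field l] [Algebra (ZMod p) l]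

instance finite_dual : Finite (k →+ ZMod p) :=
  Finite.of_injective (fun f : k →+ ZMod p => (f : k → ZMod p)) DFunLike.coe_injective

/-- `#(k →+ ZMod p) = #k`. -/
theorem card_dual : Nat.card (k →+ ZMod p) = Nat.card k := by
  letI : Algebra (ZMod p) k := ZMod.algebra k p
  haveI : Module.Finite (ZMod p) k := Module.Finite.of_finite
  have e : (k →+ ZMod p) ≃ Module.Dual (ZMod p) k :=
    { toFun := fun f => AddMonoidHom.toZModLinearMap p f
      invFun := fun f => f.toAddMonoidHom
      left_inv := fun f => by ext x; rfl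
      right_inv := fun f => by ext x; rfl }
  rw [Nat.card_congr e, Module.natCard_eq_pow_finrank (K := ZMod p) (V := Module.Dual (ZMod p) k),
    Subspace.dual_finrank_eq, ← Module.natCard_eq_pow_finrank]

/-- `Hom_{𝔽_p}(k^∨, l) ≃ l^d`, `d = dim_{𝔽_p} k^∨`. -/
noncomputable def homEquiv :
    (Fin (Module.finrank (ZMod p) (k →+ ZMod p)) → l) ≃ₗ[l] ((k →+ ZMod p) →ₗ[ZMod p] l) :=
  haveI : Module.Finite (ZMod p) (k →+ ZMod p) := Module.Finite.of_finite
  (Module.finBasis (ZMod p) (k →+ ZMod p)).constr l

instance finite_hom : Module.Finite l ((k →+ ZMod p) →ₗ[ZMod p] l) :=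
  Module.Finite.equiv (homEquiv (k := k) (p := p) (l := l))

theorem finrank_hom : Module.finrank l ((k →+ ZMod p) →ₗ[ZMod p] l)
    = Module.finrank (ZMod p) (k →+ ZMod p) := by
  rw [← (homEquiv (k := k) (p := p) (l := l)).finrank_eq, Module.finrank_fin_fun]

variable (χ : Γ →* kˣ) (ω : Γ → ZMod p) (τ : Γ → l →+* l) (cc : Γ → l) [CharP l p]

/-- the `𝔽_p`-dimension of the equivariant maps is at most `dim_{𝔽_p} k`. -/
theorem rank_eqSub_le (hτ : ∀ g, Function.Bijective (τ g))
    (hcc : ∀ g, cc g ≠ 0) (hfix : ∀ b : l, (∀ g, τ g b = b) → b ^ p = b) :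
    Module.rank (ZMod p) (eqSub χ ω τ cc)
      ≤ (Module.finrank (ZMod p) (k →+ ZMod p) : ℕ) := by
  classical
  apply rank_le
  intro s hs
  have h1 : LinearIndependent (ZMod p)
      (fun i : s => ((i : eqSub χ ω τ cc) : (k →+ ZMod p) →ₗ[ZMod p] l)) :=
    hs.map' (eqSub χ ω τ cc).subtype (Submodule.ker_subtype _)
  have h2 := linearIndependent_of_mem_eqSub χ ω τ cc hτ hcc hfix
    (fun i : s => ((i : eqSub χ ω τ cc) : (k →+ ZMod p) →ₗ[ZMod p] l))
    (fun i => (i : eqSub χ ω τ cc).2) h1
  have h3 := h2.fintype_card_le_finrank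
  rw [finrank_hom] at h3
  simpa using h3

theorem finite_eqSub (hτ : ∀ g, Function.Bijective (τ g))
    (hcc : ∀ g, cc g ≠ 0) (hfix : ∀ b : l, (∀ g, τ g b = b) → b ^ p = b) :
    Module.Finite (ZMod p) (eqSub χ ω τ cc) := by
  rw [← Module.rank_lt_aleph0_iff]
  exact lt_of_le_of_lt (rank_eqSub_le χ ω τ cc hτ hcc hfix) Cardinal.natCast_lt_aleph0

/-- **the count, subspace form**: `#{equivariant maps} ≤ #k`. -/
theorem card_eqSub_le (hτ : ∀ g, Function.Bijective (τ g))
    (hcc : ∀ g, cc g ≠ 0) (hfix : ∀ b : l, (∀ g, τ g b = b) → b ^ p = b) :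
    Finite (eqSub χ ω τ cc) ∧ Nat.card (eqSub χ ω τ cc) ≤ Nat.card k := by
  haveI := finite_eqSub χ ω τ cc hτ hcc hfix
  haveI : Module.Finite (ZMod p) (k →+ ZMod p) := Module.Finite.of_finite
  haveI : Finite (eqSub χ ω τ cc) := Module.finite_of_finite (ZMod p)
  refine ⟨inferInstance, ?_⟩
  have h1 : Module.finrank (ZMod p) (eqSub χ ω τ cc)
      ≤ Module.finrank (ZMod p) (k →+ ZMod p) :=
    Module.finrank_le_of_rank_le (rank_eqSub_le χ ω τ cc hτ hcc hfix)
  rw [← card_dual (k := k) (p := p), Module.natCard_eq_pow_finrank (K := ZMod p)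
    (V := eqSub χ ω τ cc), Module.natCard_eq_pow_finrank (K := ZMod p) (V := k →+ ZMod p)]
  exact Nat.pow_le_pow_right Nat.card_pos h1

end Count

/-! ## Part 4: the statement for `FiltrationCount.eqHom` -/

section Final

variable {Γ : Type*} [Group Γ] {k : Type*} [Field k] [Finite k] {p : ℕ} [Fact p.Prime]
  [CharP k p] {l : Type*} [Field l] [CharP l p]
  (χ : Γ →* kˣ) (ω : Γ → ZMod p) (τ : Γ → l →+* l) (cc : Γ → l)
  (ρY : Γ → Multiplicative l →* Multiplicative l)
  (hρY : ∀ g y, Multiplicative.toAdd (ρY g y) = cc g * τ g (Multiplicative.toAdd y))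

/-- the additive, `𝔽_p`-linear form of an equivariant hom. -/
def toLin [Algebra (ZMod p) l] (h : Multiplicative (k →+ ZMod p) →* Multiplicative l) :
    (k →+ ZMod p) →ₗ[ZMod p] l :=
  (AddMonoidHom.toMultiplicative.symm h).toZModLinearMap p

theorem toLin_apply [Algebra (ZMod p) l] (h : Multiplicative (k →+ ZMod p) →* Multiplicative l)
    (lam : k →+ ZMod p) : toLin h lam = Multiplicative.toAdd (h (Multiplicative.ofAdd lam)) := rfl

theorem toLin_injective [Algebra (ZMod p) l] :
    Function.Injective (toLin (k := k) (p := p) (l := l)) := by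
  intro h h' hh
  ext lam
  have := LinearMap.congr_fun hh (Multiplicative.toAdd lam)
  rw [toLin_apply, toLin_apply] at this
  exact this

include hρY in
theorem toLin_mem [Algebra (ZMod p) l] {h : Multiplicative (k →+ ZMod p) →* Multiplicative l}
    (hh : h ∈ eqHom (twistN χ ω) ρY ⊤) : toLin h ∈ eqSub χ ω τ cc := by
  intro g lam
  rw [toLin_apply, toLin_apply, ← hρY, ← hh.2 g (Multiplicative.ofAdd lam)]
  rfl

include hρY in
/-- **(HD1) the descent count, hom form.** -/
theorem card_eqHom_le (hτ : ∀ g, Function.Bijective (τ g)) (hcc : ∀ g, cc g ≠ 0)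
    (hfix : ∀ b : l, (∀ g, τ g b = b) → b ^ p = b) :
    Finite (eqHom (twistN χ ω) ρY ⊤) ∧ Nat.card (eqHom (twistN χ ω) ρY ⊤) ≤ Nat.card k := by
  letI : Algebra (ZMod p) l := ZMod.algebra l p
  obtain ⟨hfin, hcard⟩ := card_eqSub_le χ ω τ cc hτ hcc hfix
  let ι : eqHom (twistN χ ω) ρY ⊤ → eqSub χ ω τ cc := fun h =>
    ⟨toLin (h : Multiplicative (k →+ ZMod p) →* Multiplicative l),
      toLin_mem χ ω τ cc ρY hρY h.2⟩
  have hι : Function.Injective ι := by
    intro h h' hh
    apply Subtype.ext
    apply toLin_injective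
    exact congrArg (fun z : eqSub χ ω τ cc => (z : (k →+ ZMod p) →ₗ[ZMod p] l)) hh
  exact ⟨Finite.of_injective ι hι, le_trans (Nat.card_le_card_of_injective ι hι) hcard⟩

end Final

end Fermat.Agent.S56x.Local.CharCountHom
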