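import Mathlib
import Fermat.Agent.S56x.Local.CWAssembly
import Fermat.Agent.S56x.Local.CWPadicOps
import Fermat.Agent.S56x.Local.BddAlg
import Fermat.Agent.S56x.Local.PadicE0
import Fermat.Agent.S56x.Local.CharCountHom
import Fermat.Agent.S56x.Local.UnitFiltration

/-!
# P-S56, block (A) (helper10): (CW1) over `ℚ_p` for the algebra of bounded functions

The `p`-adic instantiation of `CWAssembly.rank_H1A_le_one`: `Ω = PadicAlgCl p`, `F = ℚ_[p]`,
`B = OE p L`, `σ = CWPadicOps.sigmaOE L`, `𝒜 = BddAlg.bddAlg p k`.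

Everything is discharged except three arithmetic inputs, stated as `Prop`s in terms of landed
definitions:

* `TameDataStatement p k` : (L1), for a character `χ : G_{ℚ_p} → kˣ` with open kernel there is a
  finite Galois `L ∋ ζ_p` splitting `χ`, of degree prime to `p`, with a uniformizer `ϖ` such that
  `p = c₀ ϖ^(p-1)` and `ϖ^(p-1) ∈ ℤ_p` (`CWPadicData`, helper48);
* `BoundedKummerStatement p` : Fontaine's bound ⇒ Kummer generators can be normalised into
  `U^(e)` (`BoundedKummerPadic`, helper47);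
* `ResidueFixStatement p` : the residue field elements fixed by `Gal(E/ℚ_p)` are in `𝔽_p`
  (`ResidueFix`, helper90).

Main theorem: `rank_H1A_le_one`.
-/

set_option autoImplicit false
set_option linter.unusedSectionVars false
set_option linter.style.haveILetI false
set_option linter.overlappingInstances false
set_option linter.unnecessarySimpa false

noncomputable section

namespace Fermat.Agent.S56x.Local.CW1Padic

open IntermediateField IsLocalRing
open Fermat.Agent.S56x.Local.KummerH1 Fermat.Agent.S56x.Local.CWAbstract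
  Fermat.Agent.S56x.Local.Devissage Fermat.Agent.S56x.Local.KummerPairing
  Fermat.Agent.S56x.Local.KummerPairingInt Fermat.Agent.S56x.Local.FiltrationCount
  Fermat.Agent.Lib.CFT.Local.UnitsFiltration Fermat.Agent.S56x.Local.WbCount
  Fermat.Agent.S56x.Local.BddDef Fermat.Agent.S56x.Local.PadicFinite
  Fermat.Agent.S56x.Local.CWPadicOps Fermat.Agent.S56x.Local.BddAlg

variable (p : ℕ) [Fact p.Prime]

/-- **(L1) tame data**: a finite Galois `L/ℚ_p` splitting `χ`, containing `ζ_p`, of degree prime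
to `p`, with `e(L/ℚ_p) = p - 1` and a uniformizer whose `(p-1)`-st power lies in `ℤ_p`. -/
def TameDataStatement (k : Type*) [Field k] : Prop :=
  ∀ [Finite k] [CharP k p], p ≠ 2 → ∀ χ : GQp p →* kˣ,
    (∃ E : IntermediateField ℚ_[p] (PadicAlgCl p), FiniteDimensional ℚ_[p] E ∧
      ∀ s ∈ E.fixingSubgroup, χ s = 1) →
    ∃ (L : IntermediateField ℚ_[p] (PadicAlgCl p)) (_ : FiniteDimensional ℚ_[p] L)
      (_ : IsGalois ℚ_[p] L) (ζ : PadicAlgCl p) (ϖ : OE p L) (c₀ : (OE p L)ˣ) (a : ℤ_[p]),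
      IsPrimitiveRoot ζ p ∧ ζ ∈ L ∧ (∀ s ∈ L.fixingSubgroup, χ s = 1) ∧
      ¬ p ∣ Module.finrank ℚ_[p] L ∧ Irreducible ϖ ∧
      ((p : ℕ) : OE p L) = c₀ * ϖ ^ (p - 1) ∧
      ϖ ^ (p - 1) = algebraMap ℤ_[p] (OE p L) a

/-- **Fontaine's bound ⇒ Kummer generators in `U^(e)`** (`BoundedKummerPadic`): `K` tame finite
Galois over `ℚ_p` containing `ζ_p`, `v_K(p) = e = (p-1) m`; if `α^p = u ∈ Kˣ` and `α` lies in a
bounded field `M ⊇ K` then `u ∈ U_K^(e) · (Kˣ)^p`. -/
def BoundedKummerStatement : Prop :=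
  ∀ (K M : IntermediateField ℚ_[p] (PadicAlgCl p)) [FiniteDimensional ℚ_[p] K]
    [IsGalois ℚ_[p] K], p ≠ 2 → K ≤ M → IsBddField p M → (ramNum p K).IsTame →
    ∀ ζ : PadicAlgCl p, IsPrimitiveRoot ζ p → ζ ∈ K →
    ∀ e m : ℕ, (ramNum p K).e0 = e →
      IsDiscreteValuationRing.addVal (OE p K) ((p : ℕ) : OE p K) = (e : ℕ∞) → e = (p - 1) * m →
    ∀ u : K, u ≠ 0 → ∀ α : PadicAlgCl p, α ∈ M → α ^ p = (u : PadicAlgCl p) →
      ∃ z : K, z ≠ 0 ∧ ∃ a : OE p K, (a : K) = u * z ^ p ∧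
        a - 1 ∈ maximalIdeal (OE p K) ^ e

/-- **the residue field elements fixed by the Galois group are in `𝔽_p`** (`ResidueFix`). -/
def ResidueFixStatement : Prop :=
  ∀ (E : IntermediateField ℚ_[p] (PadicAlgCl p)) [FiniteDimensional ℚ_[p] E] [IsGalois ℚ_[p] E]
    (b : ResidueField (OE p E)),
    (∀ σ : E ≃ₐ[ℚ_[p]] E,
      ResidueField.map ((MulSemiringAction.toRingEquiv (E ≃ₐ[ℚ_[p]] E) (OE p E) σ :
        OE p E ≃+* OE p E) : OE p E →+* OE p E) b = b) → b ^ p = b

variable {p}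

/-- a unit of `OE p L` from an element congruent to `1` modulo the maximal ideal. -/
theorem isUnit_of_sub_one_mem {L : IntermediateField ℚ_[p] (PadicAlgCl p)}
    [FiniteDimensional ℚ_[p] L] {a : OE p L} {e : ℕ} (he : 1 ≤ e)
    (ha : a - 1 ∈ maximalIdeal (OE p L) ^ e) : IsUnit a := by
  by_contra hna
  have h1 : a ∈ maximalIdeal (OE p L) := (mem_maximalIdeal _).mpr hna
  have h2 : a - 1 ∈ maximalIdeal (OE p L) :=
    Ideal.pow_le_self (Nat.one_le_iff_ne_zero.mp he) ha
  have h3 : (1 : OE p L) ∈ maximalIdeal (OE p L) := by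
    have := (maximalIdeal (OE p L)).sub_mem h1 h2
    simpa using this
  exact (maximalIdeal.isMaximal (OE p L)).ne_top ((Ideal.eq_top_iff_one _).mpr h3)

variable {k : Type*} [Field k]

/-- **(CW1) over `ℚ_p`** for the algebra of bounded functions. -/
theorem rank_H1A_le_one [Finite k] [CharP k p] (hp2 : p ≠ 2)
    (hT : TameDataStatement p k) (hBK : BoundedKummerStatement p) (hRF : ResidueFixStatement p)
    (χ : GQp p →* kˣ) (hχ : chr χ ∈ bddAlg p k) :
    Module.rank k (H1A (bddAlg p k) χ) ≤ 1 := by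
  have hp := (Fact.out : p.Prime)
  have hp2' : 2 ≤ p - 1 := by
    have := hp.two_le
    omega
  -- Step 0: `χ` has open kernel
  obtain ⟨E₀, ⟨hE₀fin, -, -⟩, hE₀χ⟩ := isBddFun_of_mem hχ
  have hχE₀ : ∀ s ∈ E₀.fixingSubgroup, χ s = 1 := by
    intro s hs
    have h1 := hE₀χ 1 s hs
    rw [one_mul] at h1
    apply Units.ext
    rw [Units.val_one]
    have h2 : chr χ (1 : GQp p) = 1 := by simp [chr]
    rw [h2] at h1
    exact h1
  -- Step 1: the tame data
  obtain ⟨L, hLfin, hLgal, ζ, ϖ, c₀, a, hζ, hζL, hχL, hidx, hϖ, hpe, hϖa⟩ :=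
    hT hp2 χ ⟨E₀, hE₀fin, hχE₀⟩
  haveI := hLfin
  haveI := hLgal
  haveI : Normal ℚ_[p] L := IsGalois.to_normal
  have hroot : ∀ x : ↥L, ∃ α : PadicAlgCl p, α ^ p = (x : PadicAlgCl p) := fun x =>
    IsAlgClosed.exists_pow_nat_eq _ hp.pos
  -- the multipliers `c g`
  choose c hc hcpow using fun g : GQp p => exists_sigmaOE_eq_mul L hϖ.ne_zero hϖa g
  have hc1 : ∀ g, residue (OE p L) (c g) ^ (p - 1) = 1 := fun g => by
    rw [← map_pow, hcpow g, map_one]
  -- `hN`: complete case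
  have hpe' : ((p : ℕ) : OE p L) = c₀ * ϖ ^ (p - 1) := hpe
  have hN : principalUnits (OE p L) (p + 1) ≤ WbFiltration.pthPowers (OE p L) p := by
    have htop : (p - 1) * p < (p + 1) * (p - 1) := by
      have : 0 < p - 1 := by omega
      nlinarith
    exact UnitFiltration.principalUnits_le_pthPowers hϖ hp hpe' htop
  -- `hcont`
  have hcont : ∀ f ∈ bddAlg p k, ∃ E : IntermediateField ℚ_[p] (PadicAlgCl p),
      FiniteDimensional ℚ_[p] E ∧
      ∀ (g t : GQp p), t ∈ E.fixingSubgroup → f (g * t) = f g := by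
    intro f hf
    obtain ⟨E, ⟨hfin, -, -⟩, h⟩ := isBddFun_of_mem hf
    exact ⟨E, hfin, h⟩
  -- tameness of `L`
  have hcop : Nat.Coprime (Module.finrank ℚ_[p] L) p :=
    (Nat.Coprime.symm ((Nat.Prime.coprime_iff_not_dvd hp).mpr hidx))
  have htame : (ramNum p L).IsTame := PadicE0.isTame_of_finrank_coprime L hcop
  have hLbdd : IsBddField p L := PadicE0.isBddField_of_tame L htame
  have heA : IsDiscreteValuationRing.addVal (OE p L) ((p : ℕ) : OE p L) = ((p - 1 : ℕ) : ℕ∞) := by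
    rw [hpe', IsDiscreteValuationRing.addVal_mul, IsDiscreteValuationRing.addVal_pow,
      IsDiscreteValuationRing.addVal_uniformizer hϖ]
    simp
  have he0 : (ramNum p L).e0 = p - 1 := by
    have h := PadicE0.addVal_p_eq_e0 L
    rw [heA] at h
    exact_mod_cast h.symm
  -- `HB`
  have HB : ∀ u ∈ Z1A (bddAlg p k) χ, ∀ (l : k →+ ZMod p) (x : (↥L)ˣ) (α : PadicAlgCl p),
      α ^ p = ((x : ↥L) : PadicAlgCl p) →
      (∀ s : L.fixingSubgroup, (s : GQp p) α = ζ ^ (l (u s)).val * α) →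
      ∃ (z : (↥L)ˣ) (b : (OE p L)ˣ), b ∈ principalUnits (OE p L) (p - 1) ∧
        KummerPairingInt.unitsIncl L (OE p L) b = x * z ^ p := by
    intro u hu l x α hα hact
    have huZ : u ∈ Z1 χ := ((mem_Z1A _).mp hu).1
    have hu𝒜 : u ∈ bddAlg p k := ((mem_Z1A _).mp hu).2
    obtain ⟨E, hE, hEu⟩ := isBddFun_of_mem hu𝒜
    have hM : IsBddField p (E ⊔ L) := BddField.isBddField_sup hE hLbdd
    have hαM : α ∈ E ⊔ L := by
      refine kummerGen_mem (L := L) (f := fun s : L.fixingSubgroup => l (u s)) hact (E ⊔ L)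
        le_sup_right (fun s hs => ?_)
      have hsE : (s : GQp p) ∈ E.fixingSubgroup :=
        IntermediateField.fixingSubgroup_antitone (le_sup_left : E ≤ E ⊔ L) hs
      have h1 := hEu 1 (s : GQp p) hsE
      rw [one_mul, cocycle_one huZ] at h1
      show l (u s) = 0
      rw [h1, map_zero]
    obtain ⟨z, hz, a', ha', ha'1⟩ := hBK L (E ⊔ L) hp2 le_sup_right hM htame ζ hζ hζL (p - 1) 1
      he0 heA (mul_one _).symm (x : ↥L) x.ne_zero α hαM hα
    have hunit : IsUnit a' := isUnit_of_sub_one_mem (by omega) ha'1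
    refine ⟨Units.mk0 z hz, hunit.unit, ?_, ?_⟩
    · rw [mem_principalUnits_iff]
      exact ha'1
    · apply Units.ext
      rw [KummerPairingInt.coe_unitsIncl]
      show ((hunit.unit : OE p L) : ↥L) = _
      rw [IsUnit.unit_spec, ha']
      simp
  -- `hinert`
  have hinert : ∃ g₀ : GQp p, (∀ y, ResidueField.map
      ((sigmaOE L g₀ : OE p L ≃+* OE p L) : OE p L →+* OE p L) y = y) ∧ omega hζ g₀ ≠ 1 := by
    obtain ⟨g₀, h1, h2⟩ := exists_inert_ne L hζ hζL hp2'
    refine ⟨g₀, h1, fun h => h2 ?_⟩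
    have := omega_spec hζ g₀
    rw [h, ZMod.val_one, pow_one] at this
    exact this
  -- `hHD1`
  have hHD1 : χ ≠ 1 → Nat.card (eqHom (twistN χ (omega hζ))
      (actK (sigmaOE L) c (p - 1)) ⊤) ≤ Nat.card k := by
    intro _
    refine (CharCountHom.card_eqHom_le χ (omega hζ)
      (fun g => ResidueField.map ((sigmaOE L g : OE p L ≃+* OE p L) : OE p L →+* OE p L))
      (fun g => residue (OE p L) (c g) ^ (p - 1)) (actK (sigmaOE L) c (p - 1))
      (fun g y => actK_apply (sigmaOE L) c (p - 1) g y) ?_ ?_ ?_).2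
    · intro g
      exact (ResidueField.mapEquiv (sigmaOE L g)).bijective
    · intro g
      rw [hc1 g]
      exact one_ne_zero
    · intro b hb
      refine hRF L b (fun σ => ?_)
      obtain ⟨g, rfl⟩ := resL_surjective L σ
      exact hb g
  exact CWAssembly.rank_H1A_le_one hζ hζL hroot (OE p L) (sigmaOE L) (coe_sigmaOE L) hϖ hpe' hN
    hc hc1 hp2' hidx (bddAlg p k) χ hχL hcont HB hinert hHD1

end Fermat.Agent.S56x.Local.CW1Padic
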