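/-
P-S56, block (A), count side (helper83): **`ℚ_p(ζ_p)` contains a `(p-1)`-th root of `-p`**.
For a finite extension `L / ℚ_p` inside `PadicAlgCl p` containing a primitive `p`-th root of unity
there is `π ∈ OE p L` with `π ^ (p - 1) = -p`.

Proof: `p = ∏_{k=1}^{p-1} (1 - ζ^k) = (1 - ζ)^(p-1) ∏ ε_k`, `ε_k = 1 + ζ + … + ζ^(k-1) ≡ k mod 𝔪`,
so `-p = (1-ζ)^(p-1) u` with `u ≡ -(p-1)! ≡ 1 mod 𝔪` (Wilson); Hensel's lemma in the complete
discrete valuation ring `OE p L` gives `u = w^(p-1)`; `π := (1 - ζ) w`.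
-/
import Mathlib
import Fermat.Agent.Lib.CFT.Local.Unramified
import Fermat.Agent.S56x.Local.PadicFinite

set_option autoImplicit false
set_option linter.unusedSectionVars false
set_option linter.style.haveILetI false

open IsLocalRing Polynomial

namespace Fermat.Agent.S56x.Local.PadicPiRoot

open Fermat.Agent.S56x.Local.PadicFinite
open Fermat.Agent.Lib.CFT.Local.Unramified

variable {p : ℕ} [Fact p.Prime] (L : IntermediateField ℚ_[p] (PadicAlgCl p))
  [FiniteDimensional ℚ_[p] L]

/-- a `p`-th root of unity in `OE p L` has residue `1`. -/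
theorem residue_eq_one_of_pow_eq_one {z : OE p L} (hz : z ^ p = 1) :
    residue (OE p L) z = 1 := by
  have h1 : (residue (OE p L) z) ^ p = 1 := by rw [← map_pow, hz, map_one]
  have h2 : (residue (OE p L) z - 1) ^ p = 0 := by
    rw [sub_pow_char, h1, one_pow, sub_self]
  exact sub_eq_zero.mp (pow_eq_zero_iff (Fact.out : p.Prime).ne_zero |>.mp h2)

/-- Wilson's theorem in a field of characteristic `p`. -/
theorem factorial_eq_neg_one (k : Type*) [Field k] [CharP k p] :
    (((p - 1).factorial : ℕ) : k) = -1 := by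
  have h := ZMod.wilsons_lemma p
  have h2 := congrArg (ZMod.castHom (dvd_refl p) k) h
  rwa [map_natCast, map_neg, map_one] at h2

/-- `(p - 1)`-th roots of principal units exist (Hensel). -/
theorem exists_pow_pred_eq {u : OE p L} (hu : residue (OE p L) u = 1) :
    ∃ w : OE p L, w ^ (p - 1) = u ∧ residue (OE p L) w = 1 := by
  have hp := (Fact.out : p.Prime)
  haveI : HenselianLocalRing (OE p L) := henselianLocalRing_of_isAdicComplete (OE p L)
  have hmonic : (X ^ (p - 1) - C u : (OE p L)[X]).Monic :=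
    monic_X_pow_sub_C u (by have := hp.two_le; omega)
  obtain ⟨w, hw, hw1⟩ := HenselianLocalRing.is_henselian (X ^ (p - 1) - C u : (OE p L)[X]) hmonic 1
    (by
      rw [eval_sub, eval_pow, eval_X, eval_C, one_pow, ← residue_eq_zero_iff, map_sub, map_one, hu,
        sub_self])
    (by
      rw [derivative_sub, derivative_C, sub_zero, derivative_X_pow, eval_mul, eval_C, eval_pow,
        eval_X, one_pow, mul_one]
      -- `p - 1` is a unit
      have h1 : residue (OE p L) (((p - 1 : ℕ) : OE p L)) ≠ 0 := by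
        rw [map_natCast]
        intro h0
        have := (CharP.cast_eq_zero_iff (ResidueField (OE p L)) p (p - 1)).mp h0
        have := Nat.le_of_dvd (by have := hp.two_le; omega) this
        have := hp.two_le
        omega
      by_contra hnu
      exact h1 ((residue_eq_zero_iff _).mpr ((mem_maximalIdeal _).mpr hnu)))
  refine ⟨w, ?_, ?_⟩
  · rw [IsRoot, eval_sub, eval_pow, eval_X, eval_C, sub_eq_zero] at hw
    exact hw
  · rw [← residue_eq_zero_iff, map_sub, map_one, sub_eq_zero] at hw1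
    exact hw1

/-- **`-p` is a `(p-1)`-th power in `OE p L` as soon as `ζ_p ∈ L`.** -/
theorem exists_pow_pred_eq_neg_p {z : OE p L} (hz : IsPrimitiveRoot z p) :
    ∃ π : OE p L, π ^ (p - 1) = -((p : ℕ) : OE p L) := by
  have hp := (Fact.out : p.Prime)
  obtain ⟨n, hn⟩ : ∃ n, p = n + 1 := ⟨p - 1, by have := hp.two_le; omega⟩
  have hn1 : p - 1 = n := by omega
  have hres : residue (OE p L) z = 1 := residue_eq_one_of_pow_eq_one L hz.pow_eq_one
  -- the product formula
  have hprod : ∏ k ∈ Finset.range n, (1 - z ^ (k + 1)) = ((p : ℕ) : OE p L) := by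
    have := IsPrimitiveRoot.prod_one_sub_pow_eq_order (R := OE p L) (n := n) (μ := z)
      (by rw [← hn]; exact hz)
    rw [this]
    have h2 : ((p : ℕ) : OE p L) = ((n + 1 : ℕ) : OE p L) := congrArg (Nat.cast) hn
    rw [h2]
    push_cast
    rfl
  -- factor out `(1 - z)`
  have hfac : ∀ k : ℕ, 1 - z ^ (k + 1) = (1 - z) * ∑ i ∈ Finset.range (k + 1), z ^ i :=
    fun k => (mul_neg_geom_sum z (k + 1)).symm
  have hprod2 : (1 - z) ^ n * ∏ k ∈ Finset.range n, ∑ i ∈ Finset.range (k + 1), z ^ i =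
      ((p : ℕ) : OE p L) := by
    rw [← hprod, Finset.prod_congr rfl (fun k _ => hfac k), Finset.prod_mul_distrib,
      Finset.prod_const, Finset.card_range]
  set ε : OE p L := ∏ k ∈ Finset.range n, ∑ i ∈ Finset.range (k + 1), z ^ i with hε
  -- `ε ≡ (p-1)! ≡ -1`
  have hεres : residue (OE p L) ε = -1 := by
    rw [hε, map_prod]
    have h1 : ∀ k ∈ Finset.range n,
        residue (OE p L) (∑ i ∈ Finset.range (k + 1), z ^ i) = ((k + 1 : ℕ) : ResidueField (OE p L)) := by
      intro k _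
      rw [map_sum]
      simp only [map_pow, hres, one_pow, Finset.sum_const, Finset.card_range, nsmul_eq_mul, mul_one]
    rw [Finset.prod_congr rfl h1, ← Nat.cast_prod, Finset.prod_range_add_one_eq_factorial, ← hn1]
    exact factorial_eq_neg_one (ResidueField (OE p L))
  obtain ⟨w, hw, -⟩ := exists_pow_pred_eq L (u := -ε) (by rw [map_neg, hεres, neg_neg])
  refine ⟨(1 - z) * w, ?_⟩
  rw [mul_pow, hw, hn1, mul_neg, hprod2]

omit [FiniteDimensional ℚ_[p] L] in
/-- a primitive `p`-th root of unity of `PadicAlgCl p` lying in `L` comes from `OE p L`. -/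
theorem exists_isPrimitiveRoot_OE {ζ : PadicAlgCl p} (hζ : IsPrimitiveRoot ζ p) (hζL : ζ ∈ L) :
    ∃ z : OE p L, ((z : L) : PadicAlgCl p) = ζ ∧ IsPrimitiveRoot z p := by
  have hp := (Fact.out : p.Prime)
  have hζ1 : ‖(⟨ζ, hζL⟩ : L)‖ ≤ 1 := by
    have h1 : (⟨ζ, hζL⟩ : L) ^ p = 1 := Subtype.ext (by simpa using hζ.pow_eq_one)
    have h2 : ‖(⟨ζ, hζL⟩ : L)‖ ^ p = 1 := by rw [← norm_pow, h1, norm_one]
    exact ((pow_eq_one_iff_of_nonneg (norm_nonneg _) hp.ne_zero).mp h2).le
  refine ⟨⟨⟨ζ, hζL⟩, mem_OE.mpr hζ1⟩, rfl, ?_⟩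
  have hinj : Function.Injective (fun b : OE p L => ((b : L) : PadicAlgCl p)) :=
    fun _ _ h => Subtype.ext (Subtype.ext h)
  let φ : OE p L →* PadicAlgCl p :=
    { toFun := fun b => ((b : L) : PadicAlgCl p), map_one' := rfl, map_mul' := fun _ _ => rfl }
  exact IsPrimitiveRoot.of_map_of_injective (f := φ) (by exact hζ) hinj

/-- **`ζ_p ∈ L ⇒ (-p)^{1/(p-1)} ∈ L`**, in the shape used by `CWAssembly`. -/
theorem exists_pi {ζ : PadicAlgCl p} (hζ : IsPrimitiveRoot ζ p) (hζL : ζ ∈ L) :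
    ∃ π : OE p L, π ^ (p - 1) = -((p : ℕ) : OE p L) := by
  obtain ⟨z, -, hz⟩ := exists_isPrimitiveRoot_OE L hζ hζL
  exact exists_pow_pred_eq_neg_p L hz

end Fermat.Agent.S56x.Local.PadicPiRoot
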