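/-
P-S56, block (A), count side (helper83): **the tame data (L1) of `CW1Padic`**, literal Prop
`CW1Padic.TameDataStatement p k`.

`L := AbelianLevel.levelField χ ζ` (helper48: finite Galois abelian of degree prime to `p`,
`ζ_p ∈ L`, `χ` trivial on `G_L`), `π ∈ OE p L` with `π^(p-1) = -p` (`PadicPiRoot.exists_pi`),
`e(L/ℚ_p) = p - 1`, `π` a uniformizer, `p = -π^(p-1)` (`AbelianTameE0.exists_shape`).
-/
import Mathlib
import Fermat.Agent.S56x.Local.CW1Padic
import Fermat.Agent.S56x.Local.AbelianLevel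
import Fermat.Agent.S56x.Local.AbelianTameE0
import Fermat.Agent.S56x.Local.PadicPiRoot

set_option autoImplicit false
set_option linter.unusedSectionVars false
set_option linter.style.haveILetI false

namespace Fermat.Agent.S56x.Local.CW1Data

open Fermat.Agent.S56x.Local.PadicFinite Fermat.Agent.S56x.Local.BddDef
open Fermat.Agent.S56x.Local.AbelianLevel

variable {p : ℕ} [Fact p.Prime]

theorem exists_primitiveRoot_p : ∃ ζ : PadicAlgCl p, IsPrimitiveRoot ζ p := by
  haveI : NeZero ((p : ℕ) : PadicAlgCl p) := ⟨by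
    have : (p : ℕ) ≠ 0 := (Fact.out : p.Prime).ne_zero
    exact_mod_cast this⟩
  exact HasEnoughRootsOfUnity.exists_primitiveRoot (PadicAlgCl p) p

/-- the order of `kˣ` is prime to `p` for a finite field of characteristic `p`. -/
theorem not_dvd_card_units (k : Type*) [Field k] [Finite k] [CharP k p] :
    ¬ p ∣ Nat.card kˣ := by
  classical
  have hp := (Fact.out : p.Prime)
  letI : Fintype k := Fintype.ofFinite k
  rw [Nat.card_eq_fintype_card, Fintype.card_units]
  obtain ⟨n, hn⟩ := FiniteField.card k p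
  intro hdvd
  have h1 : p ∣ Fintype.card k := by
    rw [hn.2]
    exact dvd_pow_self p (PNat.ne_zero n)
  have h2 : 0 < Fintype.card k := Fintype.card_pos
  have h3 : p ∣ 1 := by
    have h4 : Fintype.card k = (Fintype.card k - 1) + 1 := by omega
    rw [h4] at h1
    exact (Nat.dvd_add_right hdvd).mp h1
  exact hp.one_lt.ne' (Nat.dvd_one.mp h3)

/-- **`CW1Padic.TameDataStatement p k`.** -/
theorem tameDataStatement (k : Type*) [Field k] : CW1Padic.TameDataStatement p k := by
  intro _ _ hp2 χ hE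
  obtain ⟨E₀, hE₀fin, hχ⟩ := hE
  haveI := hE₀fin
  have hp := (Fact.out : p.Prime)
  have hp0 : 0 < p := hp.pos
  obtain ⟨ζ, hζ⟩ := exists_primitiveRoot_p (p := p)
  have hY : ¬ p ∣ Nat.card kˣ := not_dvd_card_units k
  -- the level field
  set L : IntermediateField ℚ_[p] (PadicAlgCl p) := levelField χ ζ with hL
  haveI hLfin : FiniteDimensional ℚ_[p] L := finiteDimensional_levelField hχ hζ hp0
  haveI hLgal : IsGalois ℚ_[p] L := isGalois_levelField hχ hζ hp0
  have hζL : ζ ∈ L := zeta_mem_levelField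
  have hχL : ∀ s ∈ L.fixingSubgroup, χ s = 1 := fun s hs => chi_eq_one_of_mem hχ hζ hp0 hs
  have hidx : ¬ p ∣ Module.finrank ℚ_[p] L := not_dvd_finrank_levelField hχ hζ hp0 hY hp
  have hab : ∀ σ τ : L ≃ₐ[ℚ_[p]] L, σ * τ = τ * σ := levelField_comm hχ hζ hp0
  have hc : Nat.Coprime (Module.finrank ℚ_[p] L) p :=
    (Nat.Coprime.symm ((Nat.Prime.coprime_iff_not_dvd hp).mpr hidx))
  -- the uniformizer
  obtain ⟨π, hπ⟩ := PadicPiRoot.exists_pi L hζ hζL
  obtain ⟨hirr, -, c₀, hc₀⟩ := AbelianTameE0.exists_shape L hab hc hπ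
  refine ⟨L, hLfin, hLgal, ζ, π, c₀, -((p : ℕ) : ℤ_[p]), hζ, hζL, hχL, hidx, hirr, hc₀, ?_⟩
  rw [hπ, map_neg, map_natCast]

end Fermat.Agent.S56x.Local.CW1Data
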