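import Mathlib
import Fermat.Prelude.Def_GaloisRep_Flat
import Fermat.Prelude.Def_GaloisRep_CompletionBridge
import Fermat.Agent.S56x.Dict.TanCocycle
import Fermat.Agent.S56x.Local.BddDef

/-!
# P-S56, block (A): flat tangent cocycles are BOUNDED (helper35)

`ThmAStatement p` is the statement of Fontaine's Theorem A in the shape produced by
`Fontaine/ThmA.lean` (for a flat `ρ` and a level `I ∋ p` the action of `Gal(PadicAlgCl p/ℚ_p)` on
`V/IV` factors through `Gal(L/ℚ_p)` for a BOUNDED field `L`, `BddDef.IsBddField`).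

From it: for a tangent cocycle `c` of `rbar` whose lift `(1 + ε c) rbar` to the dual numbers is flat
at `p`, the functions `τ ↦ rbar (loc τ)` and `τ ↦ c (loc τ)` on the local Galois group (and all
their matrix entries) are bounded functions (`BddDef.IsBddFun`): these are the hypotheses
`hFA`, `hbA`, `hη'` of the case theorems of `Local/FlatBridge.lean`.
-/

set_option autoImplicit false

noncomputable section

namespace Fermat.Agent.S56x.Local.FlatBdd

open Fermat.Agent.S56x.Dict Fermat.Agent.S56x.Local.BddDef Fermat.Agent.S53 TrivSqZeroExt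

local notation "Γℚ" => (AlgebraicClosure ℚ ≃ₐ[ℚ] AlgebraicClosure ℚ)
local notation "M₂" => Matrix (Fin 2) (Fin 2)

variable (p : ℕ) [Fact p.Prime]

/-- **Fontaine's Theorem A** in the shape consumed by the count (proved in `Fontaine/ThmA.lean`):
the action of the local Galois group on a level `V/IV` (`p ∈ I`) of a flat representation factors
through the Galois group of a bounded extension. -/
def ThmAStatement : Prop :=
  ∀ {A : Type} [CommRing A] [IsLocalRing A] (ρ : GaloisRepAdic A), p ≠ 2 → ρ.IsFlatAt p →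
    ∀ I : Ideal A, Finite (A ⧸ I) → (p : A) ∈ I →
      ∃ L : IntermediateField ℚ_[p] (PadicAlgCl p), IsBddField p L ∧
        ∀ τ : GQp p, τ ∈ L.fixingSubgroup →
          ∀ x, ρ.levelAction I (localGaloisToGlobal p τ) x = x

variable {p}
variable {k : Type} [Field k] {rbar : Γℚ →* M₂ k}

/-- If `σ` acts trivially on the bottom level of `ofMat r`, then `r σ = 1`. -/
theorem eq_one_of_levelAction_bot {A : Type} [CommRing A] [IsLocalRing A]
    (r : Γℚ →* M₂ A) (hr : IsMatCont r) (σ : Γℚ)
    (h : ∀ x, (ofMat r hr).levelAction ⊥ σ x = x) : r σ = 1 := by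
  have hbot : (⊥ : Ideal A) • (⊤ : Submodule A (ofMat r hr).V) = ⊥ := Submodule.bot_smul _
  have key : ∀ v : Fin 2 → A, (r σ).mulVec v = v := by
    intro v
    have h1 := h (Submodule.Quotient.mk (v : (ofMat r hr).V))
    have h2 : (ofMat r hr).levelAction ⊥ σ (Submodule.Quotient.mk (v : (ofMat r hr).V)) =
        Submodule.Quotient.mk ((ofMat r hr).ρ σ (v : (ofMat r hr).V)) := rfl
    rw [h2] at h1
    have h3 := (Submodule.Quotient.eq _).mp h1
    rw [hbot, Submodule.mem_bot] at h3
    exact sub_eq_zero.mp h3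
  ext i j
  have := congrFun (key (Pi.single j 1)) i
  simpa [Matrix.mulVec_single, Matrix.one_apply, Pi.single_apply, eq_comm] using this

/-- the lift of a tangent cocycle at `σ` is trivial iff `rbar σ = 1` and `c σ = 0`. -/
theorem liftMat_eq_one_iff (c : TanCocycle rbar) (σ : Γℚ) :
    c.liftMat σ = 1 ↔ rbar σ = 1 ∧ c.c σ = 0 := by
  rw [TanCocycle.liftMat_apply, ← dn_one]
  constructor
  · intro h
    obtain ⟨h1, h2⟩ := dn_injective h
    refine ⟨h1, ?_⟩
    rw [h1, Matrix.mul_one] at h2
    exact h2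
  · rintro ⟨h1, h2⟩
    rw [h1, h2, Matrix.zero_mul]

variable (p)

/-- **Flat tangent cocycles are bounded**: there is a bounded field `L` such that `rbar` and `c`
are trivial on the image of its fixing subgroup. -/
theorem exists_bddField_of_isFlatAt (hA : ThmAStatement p) [Finite k] [CharP k p] (hp2 : p ≠ 2)
    (hrbar : GaloisFactorsThroughFiniteLevel rbar) (c : TanCocycle rbar)
    (hc : (c.lift hrbar).IsFlatAt p) :
    ∃ L : IntermediateField ℚ_[p] (PadicAlgCl p), IsBddField p L ∧
      ∀ τ : GQp p, τ ∈ L.fixingSubgroup →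
        rbar (localGaloisToGlobal p τ) = 1 ∧ c.c (localGaloisToGlobal p τ) = 0 := by
  have hfin : Finite (DualNumber k ⧸ (⊥ : Ideal (DualNumber k))) := by
    have : Finite (DualNumber k) :=
      Finite.of_injective (fun x : DualNumber k => (x.fst, x.snd))
        (fun x y h => TrivSqZeroExt.ext (congrArg Prod.fst h) (congrArg Prod.snd h))
    exact Finite.of_surjective _ (Ideal.Quotient.mk_surjective)
  have hpbot : ((p : ℕ) : DualNumber k) ∈ (⊥ : Ideal (DualNumber k)) := by
    rw [Ideal.mem_bot]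
    have : ((p : ℕ) : DualNumber k) = TrivSqZeroExt.inlHom k k ((p : ℕ) : k) :=
      (map_natCast (TrivSqZeroExt.inlHom k k) p).symm
    rw [this, CharP.cast_eq_zero k p, map_zero]
  obtain ⟨L, hL, hfix⟩ := hA (c.lift hrbar) hp2 hc ⊥ hfin hpbot
  refine ⟨L, hL, fun τ hτ => ?_⟩
  have h1 : c.liftMat (localGaloisToGlobal p τ) = 1 :=
    eq_one_of_levelAction_bot c.liftMat (c.isMatCont_liftMat hrbar) _ (hfix τ hτ)
  exact (liftMat_eq_one_iff c _).1 h1

/-- `τ ↦ rbar (loc τ)` is a bounded function, for `rbar` admitting a flat tangent cocycle. -/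
theorem isBddFun_rbar (hA : ThmAStatement p) [Finite k] [CharP k p] (hp2 : p ≠ 2)
    (hrbar : GaloisFactorsThroughFiniteLevel rbar) (c : TanCocycle rbar)
    (hc : (c.lift hrbar).IsFlatAt p) :
    IsBddFun p (fun τ : GQp p => rbar (localGaloisToGlobal p τ)) := by
  obtain ⟨L, hL, h⟩ := exists_bddField_of_isFlatAt p hA hp2 hrbar c hc
  refine ⟨L, hL, fun g s hs => ?_⟩
  show rbar (localGaloisToGlobal p (g * s)) = rbar (localGaloisToGlobal p g)
  rw [map_mul, map_mul, (h s hs).1, mul_one]

/-- `τ ↦ c (loc τ)` is a bounded function, for a flat tangent cocycle `c`. -/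
theorem isBddFun_cocycle (hA : ThmAStatement p) [Finite k] [CharP k p] (hp2 : p ≠ 2)
    (hrbar : GaloisFactorsThroughFiniteLevel rbar) (c : TanCocycle rbar)
    (hc : (c.lift hrbar).IsFlatAt p) :
    IsBddFun p (fun τ : GQp p => c.c (localGaloisToGlobal p τ)) := by
  obtain ⟨L, hL, h⟩ := exists_bddField_of_isFlatAt p hA hp2 hrbar c hc
  refine ⟨L, hL, fun g s hs => ?_⟩
  show c.c (localGaloisToGlobal p (g * s)) = c.c (localGaloisToGlobal p g)
  rw [map_mul, c.map_mul', (h s hs).2, Matrix.mul_zero, Matrix.zero_mul, add_zero]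

/-- post-composition preserves boundedness. -/
theorem IsBddFun.comp {X Y : Type*} {f : GQp p → X} (hf : IsBddFun p f) (Φ : X → Y) :
    IsBddFun p (fun τ => Φ (f τ)) := by
  obtain ⟨E, hE, h⟩ := hf
  exact ⟨E, hE, fun g s hs => congrArg Φ (h g s hs)⟩

/-- matrix entries of `τ ↦ rbar (loc τ)` are bounded. -/
theorem isBddFun_rbar_entry (hA : ThmAStatement p) [Finite k] [CharP k p] (hp2 : p ≠ 2)
    (hrbar : GaloisFactorsThroughFiniteLevel rbar) (c : TanCocycle rbar)
    (hc : (c.lift hrbar).IsFlatAt p) (i j : Fin 2) :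
    IsBddFun p (fun τ : GQp p => rbar (localGaloisToGlobal p τ) i j) :=
  IsBddFun.comp p (isBddFun_rbar p hA hp2 hrbar c hc) (fun m => m i j)

/-- matrix entries of `τ ↦ c (loc τ)` are bounded. -/
theorem isBddFun_cocycle_entry (hA : ThmAStatement p) [Finite k] [CharP k p] (hp2 : p ≠ 2)
    (hrbar : GaloisFactorsThroughFiniteLevel rbar) (c : TanCocycle rbar)
    (hc : (c.lift hrbar).IsFlatAt p) (i j : Fin 2) :
    IsBddFun p (fun τ : GQp p => c.c (localGaloisToGlobal p τ) i j) :=
  IsBddFun.comp p (isBddFun_cocycle p hA hp2 hrbar c hc) (fun m => m i j)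

end Fermat.Agent.S56x.Local.FlatBdd

end
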