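import Fermat.Agent.S56x.Local.FlatCountFinal
import Fermat.Agent.S56x.Local.FlatBdd
import Fermat.Agent.S56x.Local.BddAlg
import Fermat.Agent.S56x.Fontaine.ThmAFinal

/-!
# P-S56 / block (A): the inputs of `FlatCountFinal.rank_flatSpan_le_four`

`FlatCountFinal.rank_flatSpan_le_four` proves the conclusion of
`FlatIface.FlatCountStatementSplit p rbar` (`rank_k flatSpan ≤ 4`) from four inputs over a
subalgebra `𝒜` of functions on `G_p`.  Here `𝒜 := bddAlgP p k`, the algebra of BOUNDED functions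
(`BddAlg.bddAlg p k`, transported along the definitional equality `Gp p = GQp p`), and

* `thmAStatement : FlatBdd.ThmAStatement p` : Fontaine's Theorem A (`Fontaine/ThmAFinal.thmA`) in
  the shape consumed by `Local/FlatBdd`;
* `hThmA` : **input (1)**, unconditional: entries of `rbar|G_p` and of the restrictions of the
  flat tangent cocycles are bounded functions;
* `CW1Statement p k`, `CSlotStatement p rbar`, `IndStatement p rbar` : the inputs (2), (3), (4) as
  `Prop`s in the LITERAL shapes of `FlatCountFinal.rank_flatSpan_le_four` (with `𝒜 = bddAlgP p k`),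
  under all the hypotheses available in `FlatIface.FlatCountStatementSplit`;
* `flatCountStatementSplit` : `FlatIface.FlatCountStatementSplit p rbar` from (2), (3), (4).
-/

set_option autoImplicit false
set_option linter.unusedSectionVars false

noncomputable section

namespace Fermat.Agent.S56x.Local.FlatCountInputs

open Fermat.Agent.S56x.Local.Devissage Fermat.Agent.S56x.Local.FlatIface
  Fermat.Agent.S56x.Local.FlatBridge Fermat.Agent.S56x.Local.TameRep
  Fermat.Agent.S56x.Local.BddDef Fermat.Agent.S56x.Dict Module Matrix ExtCitation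

local notation "Γℚ" => (AlgebraicClosure ℚ ≃ₐ[ℚ] AlgebraicClosure ℚ)
local notation "M₂" => Matrix (Fin 2) (Fin 2)

variable (p : ℕ) [Fact p.Prime]

/-- **Fontaine's Theorem A** in the shape consumed by `Local/FlatBdd`. -/
theorem thmAStatement : FlatBdd.ThmAStatement p := fun ρ _ hflat I hI hpI =>
  Fermat.Agent.S56x.Fontaine.ThmAFinal.thmA ρ hflat I hI hpI

/-- The local Galois group of the Prelude at `p` is definitionally `Gal(PadicAlgCl p/ℚ_p)`. -/
theorem Gp_eq : Gp p = GQp p := rfl

/-- The localisation map of the Prelude at `p` is definitionally `localGaloisToGlobal p`. -/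
theorem locP_apply (τ : Gp p) : locP p τ = localGaloisToGlobal p (show GQp p from τ) := rfl

/-- The algebra of bounded functions on `Gp p` (`BddAlg.bddAlg p k` on `GQp p = Gp p`). -/
def bddAlgP (k : Type*) [CommSemiring k] : Subalgebra k (Gp p → k) :=
  (BddAlg.bddAlg p k : Subalgebra k (GQp p → k))

variable {p}

theorem mem_bddAlgP_iff {k : Type*} [CommSemiring k] {f : Gp p → k} :
    f ∈ bddAlgP p k ↔ IsBddFun p (fun τ : GQp p => f τ) :=
  BddAlg.mem_bddAlg_iff_isBddFun

theorem mem_bddAlgP_of_isBddFun {k : Type*} [CommSemiring k] {f : GQp p → k}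
    (hf : IsBddFun p f) : (fun τ : Gp p => f τ) ∈ bddAlgP p k :=
  BddAlg.mem_bddAlg_of_isBddFun hf

variable (p)
variable {k : Type} [Field k] (rbar : Γℚ →* M₂ k)

/-- **Input (1) of `FlatCountFinal.rank_flatSpan_le_four`**, unconditional (Fontaine's Theorem A):
the entries of `rbar|G_p` (when a flat tangent cocycle exists) and of the restrictions of the flat
tangent cocycles are bounded functions. -/
theorem hThmA [Finite k] [CharP k p] (hp2 : p ≠ 2)
    (hrbar : GaloisFactorsThroughFiniteLevel rbar) :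
    ∀ c, IsFlatTan p rbar hrbar c →
      (∀ i j, (fun g => rloc p rbar g i j) ∈ bddAlgP p k) ∧
        ∀ i j, (fun g => resP p rbar c g i j) ∈ bddAlgP p k := by
  intro c hc
  refine ⟨fun i j => ?_, fun i j => ?_⟩
  · exact mem_bddAlgP_of_isBddFun
      (FlatBdd.isBddFun_rbar_entry p (thmAStatement p) hp2 hrbar c hc.2 i j)
  · exact mem_bddAlgP_of_isBddFun
      (FlatBdd.isBddFun_cocycle_entry p (thmAStatement p) hp2 hrbar c hc.2 i j)

/-- **Input (2)**: the count `(CW1)` over `ℚ_p` for the algebra of bounded functions. -/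
def CW1Statement (k : Type) [Field k] : Prop :=
  ∀ [Finite k] [CharP k p], p ≠ 2 →
    ∀ χ : Gp p →* kˣ, chr χ ∈ bddAlgP p k → Module.rank k (H1A (bddAlgP p k) χ) ≤ 1

/-- **Input (3)**: the `c`-slot in the reducible case. -/
def CSlotStatement : Prop :=
  ∀ [Finite k] [CharP k p], p ≠ 2 → ∀ (hrbar : GaloisFactorsThroughFiniteLevel rbar),
    DetIsCycloModP p rbar → EigenvaluesInBase rbar →
    HasStableLine (rloc p rbar) → (∃ c, IsFlatTan p rbar hrbar c) →
      ∃ (B : M₂ k) (χ₁ χ₂ : Gp p →* kˣ) (b : Gp p → k), B.det ≠ 0 ∧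
        (∀ g, rloc p rbar g * B = B * !![(χ₁ g : k), b g; 0, (χ₂ g : k)]) ∧
        ∀ c, IsFlatTan p rbar hrbar c →
          (fun g => (B⁻¹ * resP p rbar c g * B) 1 0) ∈ B1 (χ₁ / χ₂)⁻¹

/-- **Input (4)**: the tame structure and the count over `ℚ_{p²}` in the irreducible case. -/
def IndStatement : Prop :=
  ∀ [Finite k] [CharP k p], p ≠ 2 → ∀ (hrbar : GaloisFactorsThroughFiniteLevel rbar),
    DetIsCycloModP p rbar → EigenvaluesInBase rbar →
    ¬ HasStableLine (rloc p rbar) → (∃ c, IsFlatTan p rbar hrbar c) →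
      ∃ (B : M₂ k) (hB : B.det ≠ 0) (I : Subgroup (Gp p)) (φ : Gp p) (ψ ψ' : Gp p → k) (x y : k),
        (∀ t ∈ I, rloc p rbar t * B = B * Matrix.diagonal ![ψ t, ψ' t]) ∧
        (rloc p rbar φ * B = B * !![0, x; y, 0]) ∧
        (∀ g : Gp p, ∃ n : ℕ, ∃ t ∈ I, rloc p rbar g = rloc p rbar φ ^ n * rloc p rbar t) ∧
        ∃ (Γ' : Subgroup (Gp p)) (_ : Γ' = diagSubgroup (conjHomRep (rloc p rbar) B hB))
          (𝒜' : Subalgebra k (Γ' → k)),
          (∀ f ∈ bddAlgP p k, (fun g : Γ' => f (g : Gp p)) ∈ 𝒜') ∧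
          (∀ a ∈ Z1A 𝒜' (1 : Γ' →* kˣ), ∀ (g : Γ') (hg : φ * (g : Gp p) * φ⁻¹ ∈ Γ'),
            a ⟨φ * (g : Gp p) * φ⁻¹, hg⟩ = a g) ∧
          (∀ μ : Γ' →* kˣ,
            (∀ g : Γ', (B⁻¹ * rloc p rbar (g : Gp p) * B) 0 0 =
              chr μ g * (B⁻¹ * rloc p rbar (g : Gp p) * B) 1 1) →
            Module.rank k (H1A 𝒜' μ) ≤ 1)

/-- **Block (A)'s theorem `FlatIface.FlatCountStatementSplit p rbar`** from the inputs (2), (3), (4)
(input (1) = Fontaine's Theorem A is discharged by `hThmA`). -/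
theorem flatCountStatementSplit (hCW1 : CW1Statement p k) (hCSlot : CSlotStatement p rbar)
    (hInd : IndStatement p rbar) : FlatCountStatementSplit p rbar := by
  intro _ _ hp2 hrbar hdet hsplit
  exact rank_flatSpan_le_four p rbar hp2 hrbar (bddAlgP p k) (hThmA p rbar hp2 hrbar)
    (hCW1 hp2) (hCSlot hp2 hrbar hdet hsplit) (hInd hp2 hrbar hdet hsplit)

end Fermat.Agent.S56x.Local.FlatCountInputs

end
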