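/-
P-S56 block (A), FlatCount, irreducible case (IND) (helper97): discharge of the hypothesis `hinv`
of `FlatBridge.finrank_classSpan_le_of_tame`.

* `exists_unram_field` : `E = ℚ_p(ζ_{p^p-1})` inside `PadicAlgCl p` is Galois of degree `p` over
  `ℚ_p`, unramified, hence a bounded field (`BddDef.IsBddField`);
* `exists_unram_char` : a surjective homomorphism `A₀ : GQp p →* Multiplicative (ZMod p)` which is
  trivial on `Gal(·/E)`;
* `unramCocycle` : the additive character `g ↦ algebraMap (ZMod p) k (A₀ g)`; it is bounded;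
* `hinv_of_rank_le_one` : if `Γ'` contains all squares and the bounded `H¹(Γ', k)` has `k`-rank
  `≤ 1`, then every bounded additive character of `Γ'` is invariant under conjugation by all of
  `GQp p`.
-/
import Mathlib
import Fermat.Agent.Lib.CFT.Local.UnramExists
import Fermat.Agent.Lib.CFT.Local.UnramifiedTower
import Fermat.Agent.S56x.Local.PadicE0
import Fermat.Agent.S56x.Local.BddAlg
import Fermat.Agent.S56x.Local.DevissageBasic

set_option autoImplicit false

noncomputable section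

namespace Fermat.Agent.S56x.Local.HinvUnram

open IsLocalRing Module
open Fermat.Agent.Lib.Ram Fermat.Agent.S56x.Local.PadicFinite Fermat.Agent.S56x.Local.BddDef
open Fermat.Agent.S56x.Local.BddAlg Fermat.Agent.S56x.Local.Devissage
open Fermat.Agent.Lib.CFT.Local Fermat.Agent.Lib.CFT.Local.Unramified

variable {p : ℕ} [Fact p.Prime]

/-! ### The unramified extension of degree `p` -/

theorem natCard_residueField_padicInt : Nat.card (ResidueField ℤ_[p]) = p := by
  rw [Nat.card_congr (PadicInt.residueField (p := p)).toEquiv, Nat.card_zmod]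

theorem exists_unram_field :
    ∃ E : IntermediateField ℚ_[p] (PadicAlgCl p), IsBddField p E ∧
      ∃ (_ : FiniteDimensional ℚ_[p] E), IsGalois ℚ_[p] E ∧ finrank ℚ_[p] E = p := by
  have hp : p.Prime := Fact.out
  have hp0 : p ≠ 0 := hp.ne_zero
  set m : ℕ := p ^ p - 1 with hm
  have hm0 : m ≠ 0 := by
    have h1 : 2 ^ 1 ≤ p ^ p :=
      (Nat.pow_le_pow_left hp.two_le 1).trans (Nat.pow_le_pow_right hp.pos hp.one_le)
    omega
  have : NeZero m := ⟨hm0⟩
  have : NeZero (m : ℚ_[p]) := ⟨by exact_mod_cast hm0⟩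
  obtain ⟨ζ, hζ⟩ := HasEnoughRootsOfUnity.exists_primitiveRoot (PadicAlgCl p) m
  let E : IntermediateField ℚ_[p] (PadicAlgCl p) := IntermediateField.adjoin ℚ_[p] {ζ}
  have hcyc : IsCyclotomicExtension {m} ℚ_[p] E :=
    hζ.intermediateField_adjoin_isCyclotomicExtension ℚ_[p]
  have hfd : FiniteDimensional ℚ_[p] E := IsCyclotomicExtension.finiteDimensional {m} ℚ_[p] E
  have hgal : IsGalois ℚ_[p] E := IsCyclotomicExtension.isGalois {m} ℚ_[p] E
  have : Finite (ResidueField ℤ_[p]) :=
    Finite.of_equiv _ (PadicInt.residueField (p := p)).symm.toEquiv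
  have hcyc' : IsCyclotomicExtension {Nat.card (ResidueField ℤ_[p]) ^ p - 1} ℚ_[p] E := by
    rw [natCard_residueField_padicInt]
    exact hcyc
  obtain ⟨hunr, hdeg⟩ := finrank_of_cyclotomic_of_complete ℤ_[p] ℚ_[p] E (OE p E) p hp0
  have he0 : (ramNum p E).e0 = 1 := by
    rw [← PadicE0.ramIdx_eq_e0 E]
    exact (isUnram_iff_ramIdx_eq_one ℤ_[p] (OE p E)).1 hunr
  refine ⟨E, ?_, hfd, hgal, hdeg⟩
  exact PadicE0.isBddField_of_coprime E (by rw [he0]; exact Nat.coprime_one_left p)

/-! ### The unramified character of order `p` -/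

theorem exists_unram_char :
    ∃ (A₀ : GQp p →* Multiplicative (ZMod p)) (E : IntermediateField ℚ_[p] (PadicAlgCl p)),
      IsBddField p E ∧ (∀ s ∈ E.fixingSubgroup, A₀ s = 1) ∧ Function.Surjective A₀ := by
  obtain ⟨E, hE, hfd, hgal, hdeg⟩ := exists_unram_field (p := p)
  have hcard : Nat.card (E ≃ₐ[ℚ_[p]] E) = p := by
    rw [IsGalois.card_aut_eq_finrank, hdeg]
  have hcard' : Nat.card (Multiplicative (ZMod p)) = p := by
    rw [Nat.card_eq_fintype_card, Fintype.card_multiplicative, ZMod.card]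
  let e : (E ≃ₐ[ℚ_[p]] E) ≃* Multiplicative (ZMod p) := mulEquivOfPrimeCardEq hcard hcard'
  refine ⟨e.toMonoidHom.comp (AlgEquiv.restrictNormalHom E), E, hE, ?_, ?_⟩
  · intro s hs
    have hk : s ∈ (AlgEquiv.restrictNormalHom (F := ℚ_[p]) (K₁ := PadicAlgCl p) E).ker := by
      rw [IntermediateField.restrictNormalHom_ker]
      exact hs
    rw [MonoidHom.comp_apply, MonoidHom.mem_ker.1 hk, map_one]
  · exact e.surjective.comp (AlgEquiv.restrictNormalHom_surjective (PadicAlgCl p))

/-! ### `hinv` from the rank bound -/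

section Main

variable {k : Type*} [Field k] [Algebra (ZMod p) k]

/-- the additive character attached to a homomorphism to `Multiplicative (ZMod p)`. -/
def addChar (A₀ : GQp p →* Multiplicative (ZMod p)) : GQp p → k :=
  fun g => algebraMap (ZMod p) k (Multiplicative.toAdd (A₀ g))

theorem addChar_mul (A₀ : GQp p →* Multiplicative (ZMod p)) (g h : GQp p) :
    addChar (k := k) A₀ (g * h) = addChar A₀ g + addChar A₀ h := by
  simp [addChar, map_mul, toAdd_mul, map_add]

theorem addChar_conj (A₀ : GQp p →* Multiplicative (ZMod p)) (φ g : GQp p) :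
    addChar (k := k) A₀ (φ * g * φ⁻¹) = addChar A₀ g := by
  have h1 : A₀ (φ * g * φ⁻¹) = A₀ g := by
    rw [map_mul, map_mul, map_inv, mul_comm (A₀ φ), mul_assoc, mul_inv_cancel, mul_one]
  simp [addChar, h1]

theorem hinv_of_rank_le_one (hp2 : p ≠ 2) (Γ' : Subgroup (GQp p))
    (hsq : ∀ g : GQp p, g ^ 2 ∈ Γ')
    (hrank : Module.rank k (H1A (bddAlgOn p Γ' k) (1 : Γ' →* kˣ)) ≤ 1) :
    ∀ a ∈ Z1A (bddAlgOn p Γ' k) (1 : Γ' →* kˣ), ∀ (φ : GQp p) (g : Γ')
      (hg : φ * (g : GQp p) * φ⁻¹ ∈ Γ'), a ⟨φ * (g : GQp p) * φ⁻¹, hg⟩ = a g := by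
  obtain ⟨A₀, E, hE, hker, hsurj⟩ := exists_unram_char (p := p)
  -- the restricted character
  set b : Γ' → k := fun g => addChar (k := k) A₀ (g : GQp p) with hb
  have hbZ : b ∈ Z1A (bddAlgOn p Γ' k) (1 : Γ' →* kˣ) := by
    rw [mem_Z1A]
    constructor
    · intro g h
      simp only [hb, Subgroup.coe_mul, addChar_mul, MonoidHom.one_apply, Units.val_one, one_mul]
    · exact restrict_mem_bddAlgOn Γ'
        (comp_hom_mem_bddAlg A₀ hE hker
          (fun x => algebraMap (ZMod p) k (Multiplicative.toAdd x)))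
  have hB1 : ∀ u : Γ' → k, u ∈ B1 (1 : Γ' →* kˣ) → u = 0 := by
    intro u hu
    obtain ⟨m, rfl⟩ := mem_B1.1 hu
    funext g
    simp [cob]
  have hbn : b ∉ B1 (1 : Γ' →* kˣ) := by
    intro hb1
    have hb0 := hB1 b hb1
    obtain ⟨g, hg⟩ := hsurj (Multiplicative.ofAdd (1 : ZMod p))
    have h2 : b ⟨g ^ 2, hsq g⟩ = 0 := by rw [hb0]; rfl
    simp only [hb, pow_two, addChar_mul] at h2
    simp only [addChar, hg, toAdd_ofAdd, map_one] at h2
    have h3 : (2 : k) = 0 := by rw [← h2]; norm_num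
    have hchar : CharP k p := by
      have := (algebraMap (ZMod p) k).injective
      exact charP_of_injective_algebraMap this p
    have hp : p.Prime := Fact.out
    have : (p : ℕ) ∣ 2 := by
      rw [← CharP.cast_eq_zero_iff k p]
      exact_mod_cast h3
    have := (Nat.prime_dvd_prime_iff_eq hp Nat.prime_two).1 this
    exact hp2 this
  intro a ha φ g hg
  obtain ⟨l, m, rfl⟩ := exists_eq_smul_add_cob (bddAlgOn p Γ' k) hrank hbZ hbn ha
  have hcob : cob (1 : Γ' →* kˣ) m = 0 := hB1 _ (mem_B1.2 ⟨m, rfl⟩)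
  simp only [hcob, add_zero, Pi.smul_apply, smul_eq_mul, hb]
  rw [addChar_conj]

end Main

end Fermat.Agent.S56x.Local.HinvUnram

end
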