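import Mathlib

/-!
# P-S56 block (A), LOC-7: structure of a two-dimensional mod `p` representation of a local
Galois group (pure group theory / linear algebra, Mathlib only)

`Γ` is an arbitrary group (think: a decomposition group at `p`, or `Gal(L/ℚ_p)`), `k` a finite
field of characteristic `p`, `r : Γ →* M₂(k)`.

* `exists_ne_zero_fixed_of_pow_eq_one` (T1): a subgroup whose image consists of elements of
  `p`-power order has a nonzero fixed vector in every finite nonzero module of characteristic `p`.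
* `apply_eq_one_of_irreducible` (T2): a normal such subgroup acts trivially on every irreducible
  representation ("wild inertia acts trivially on irreducibles");
  `map_eq_one_of_not_hasStableLine`: the same for `r : Γ →* M₂(k)` without stable line.
* `hasStableLine_of_hasStableLineOver` (T3): under `hsplit` (all eigenvalues in `k`) a stable line
  over an extension field descends to `k`: `r` is reducible over `k` or absolutely irreducible.
* `exists_triangular_of_hasStableLine` (T4): reducible `⇒` upper triangular `[χ₁ *; 0 χ₂]`.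
* `tame_structure_of_irreducible` (T5), `tame_structure_of_irreducible'` (with wild inertia):
  irreducible `⇒` wild inertia trivial, inertia acts by `ψ ⊕ ψ^p` (`ψ^(p²) = ψ ≠ ψ^p`) in a basis
  over `k`, Frobenius antidiagonal, image of order prime to `p`
  (`coprime_two_mul_card_sub_one`).
-/

set_option autoImplicit false

namespace Fermat.Agent.S56x.Local.TameRep

open Matrix Polynomial

local notation "M₂" => Matrix (Fin 2) (Fin 2)

section General

variable {p : ℕ} [hp : Fact p.Prime]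
variable {Γ : Type*} [Group Γ]
variable {k : Type*} [Field k]

/-- **(T1)** A subgroup `P` all of whose elements act with `p`-power order has a nonzero fixed
vector in every finite nonzero `k`-module, `char k = p`. -/
theorem exists_ne_zero_fixed_of_pow_eq_one [CharP k p]
    {V : Type*} [AddCommGroup V] [Module k V] [Finite V] [Nontrivial V]
    (ρ : Representation k Γ V) (P : Subgroup Γ)
    (hP : ∀ g ∈ P, ∃ n : ℕ, ρ g ^ (p ^ n) = 1) :
    ∃ v : V, v ≠ 0 ∧ ∀ g ∈ P, ρ g v = v := by
  classical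
  let Q : Subgroup (V →ₗ[k] V)ˣ := P.map ρ.asGroupHom
  have hQ : IsPGroup p Q := by
    rintro ⟨q, g, hg, rfl⟩
    obtain ⟨n, hn⟩ := hP g hg
    refine ⟨n, ?_⟩
    apply Subtype.ext
    apply Units.ext
    simpa [Representation.asGroupHom_apply] using hn
  obtain ⟨x, hx⟩ := exists_ne (0 : V)
  have hpx : p • x = 0 := by
    rw [← Nat.cast_smul_eq_nsmul k, CharP.cast_eq_zero, zero_smul]
  have hord : addOrderOf x = p := by
    have h1 : addOrderOf x ∣ p := addOrderOf_dvd_of_nsmul_eq_zero hpx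
    rcases (Nat.dvd_prime hp.out).1 h1 with h | h
    · exact absurd (AddMonoid.addOrderOf_eq_one_iff.1 h) hx
    · exact h
  have hdvd : p ∣ Nat.card V := hord ▸ addOrderOf_dvd_natCard x
  have h0 : (0 : V) ∈ MulAction.fixedPoints Q V := by
    intro q
    exact smul_zero q
  obtain ⟨b, hb, hb0⟩ := hQ.exists_fixed_point_of_prime_dvd_card_of_fixed_point V hdvd h0
  refine ⟨b, fun h => hb0 h.symm, fun g hg => ?_⟩
  exact hb ⟨ρ.asGroupHom g, g, hg, rfl⟩

/-- **(T2)** A normal subgroup `P` whose elements act with `p`-power order acts trivially on every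
irreducible finite representation in characteristic `p` ("wild inertia acts trivially on
irreducible modules"). -/
theorem apply_eq_one_of_irreducible [CharP k p]
    {V : Type*} [AddCommGroup V] [Module k V] [Finite V] [Nontrivial V]
    (ρ : Representation k Γ V) (P : Subgroup Γ) [hPn : P.Normal]
    (hP : ∀ g ∈ P, ∃ n : ℕ, ρ g ^ (p ^ n) = 1)
    (hirr : ∀ W : Submodule k V, (∀ g : Γ, ∀ v ∈ W, ρ g v ∈ W) → W = ⊥ ∨ W = ⊤) :
    ∀ g ∈ P, ρ g = 1 := by
  let W : Submodule k V :=
    { carrier := {v | ∀ g ∈ P, ρ g v = v}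
      add_mem' := fun {a b} ha hb g hg => by rw [map_add, ha g hg, hb g hg]
      zero_mem' := fun g _ => map_zero _
      smul_mem' := fun c a ha g hg => by rw [map_smul, ha g hg] }
  have hW : ∀ g : Γ, ∀ v ∈ W, ρ g v ∈ W := by
    intro h v hv g hg
    have hc : h⁻¹ * g * h ∈ P := by
      have := hPn.conj_mem g hg h⁻¹
      simpa using this
    have h2 : ρ (h⁻¹ * g * h) v = v := hv _ hc
    have h3 : ρ g (ρ h v) = ρ h (ρ (h⁻¹ * g * h) v) := by
      rw [← Module.End.mul_apply, ← Module.End.mul_apply, ← map_mul, ← map_mul]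
      congr 2
      group
    rw [h3, h2]
  obtain ⟨v, hv0, hv⟩ := exists_ne_zero_fixed_of_pow_eq_one ρ P hP
  rcases hirr W hW with h | h
  · exact absurd ((Submodule.eq_bot_iff W).1 h v hv) hv0
  · intro g hg
    ext w
    have hw : w ∈ W := h ▸ Submodule.mem_top
    exact hw g hg

end General

/-! ### Two-by-two matrices -/

section TwoByTwo

variable {F : Type*} [Field F]

lemma mulVec_fin_two (A : M₂ F) (v : Fin 2 → F) (i : Fin 2) :
    (A *ᵥ v) i = A i 0 * v 0 + A i 1 * v 1 := by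
  simp [Matrix.mulVec, dotProduct, Fin.sum_univ_two]

/-- Two vectors with vanishing determinant, the second nonzero: the first is a multiple of the
second. -/
lemma exists_smul_eq_of_det_eq_zero {v w : Fin 2 → F} (hw : w ≠ 0)
    (hd : w 0 * v 1 - w 1 * v 0 = 0) : ∃ c : F, v = c • w := by
  by_cases h0 : w 0 = 0
  · have h1 : w 1 ≠ 0 := by
      intro h1
      apply hw
      ext i
      fin_cases i <;> simp [h0, h1]
    refine ⟨v 1 / w 1, ?_⟩
    have hv0 : v 0 = 0 := by
      have h2 : w 1 * v 0 = 0 := by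
        rw [h0] at hd
        linear_combination -hd
      rcases mul_eq_zero.1 h2 with h | h
      · exact absurd h h1
      · exact h
    ext i
    fin_cases i
    · simp [hv0, h0]
    · simp only [Fin.mk_one, Pi.smul_apply, smul_eq_mul]
      field_simp
  · refine ⟨v 0 / w 0, ?_⟩
    ext i
    fin_cases i
    · simp only [Fin.zero_eta, Pi.smul_apply, smul_eq_mul]
      field_simp
    · simp only [Fin.mk_one, Pi.smul_apply, smul_eq_mul]
      field_simp
      linear_combination hd

/-- Two vectors in the kernel of a nonzero `2 × 2` matrix are proportional. -/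
lemma exists_smul_eq_of_mulVec_eq_zero {A : M₂ F} (hA : A ≠ 0)
    {v w : Fin 2 → F} (hw : w ≠ 0) (hAv : A *ᵥ v = 0) (hAw : A *ᵥ w = 0) :
    ∃ c : F, v = c • w := by
  have e1 : ∀ i, A i 0 * v 0 + A i 1 * v 1 = 0 := fun i => by
    rw [← mulVec_fin_two, hAv]; rfl
  have e2 : ∀ i, A i 0 * w 0 + A i 1 * w 1 = 0 := fun i => by
    rw [← mulVec_fin_two, hAw]; rfl
  apply exists_smul_eq_of_det_eq_zero hw
  by_contra hd
  apply hA
  ext i j
  fin_cases j
  · have h3 : A i 0 * (w 0 * v 1 - w 1 * v 0) = 0 := by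
      linear_combination v 1 * e2 i - w 1 * e1 i
    simpa [hd] using h3
  · have h3 : A i 1 * (w 0 * v 1 - w 1 * v 0) = 0 := by
      linear_combination w 0 * e1 i - v 0 * e2 i
    simpa [hd] using h3

/-- trace and determinant from a split characteristic polynomial -/
lemma trace_det_of_charpoly {A : M₂ F} {a b : F}
    (h : A.charpoly = (X - C a) * (X - C b)) : A.trace = a + b ∧ A.det = a * b := by
  rw [Matrix.charpoly_fin_two] at h
  have h0 := congrArg (Polynomial.eval 0) h
  have h1 := congrArg (Polynomial.eval 1) h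
  simp only [eval_add, eval_sub, eval_pow, eval_X, eval_mul, eval_C] at h0 h1
  have hdet : A.det = a * b := by linear_combination h0
  refine ⟨?_, hdet⟩
  linear_combination hdet - h1

/-- Cayley-Hamilton for a split `2 × 2` matrix. -/
lemma sub_mul_sub_eq_zero {A : M₂ F} {a b : F}
    (h : A.charpoly = (X - C a) * (X - C b)) : (A - a • 1) * (A - b • 1) = 0 := by
  have h1 := Matrix.aeval_self_charpoly A
  rw [h] at h1
  simpa [Algebra.algebraMap_eq_smul_one] using h1

/-- existence of an eigenvector for a root of the characteristic polynomial -/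
lemma exists_eigenvector {A : M₂ F} {a b : F}
    (h : A.charpoly = (X - C a) * (X - C b)) : ∃ v : Fin 2 → F, v ≠ 0 ∧ A *ᵥ v = a • v := by
  obtain ⟨htr, hdet⟩ := trace_det_of_charpoly h
  have hd : (A - a • (1 : M₂ F)).det = 0 := by
    rw [Matrix.det_fin_two] at hdet ⊢
    rw [Matrix.trace_fin_two] at htr
    simp only [Matrix.sub_apply, Matrix.smul_apply, Matrix.one_apply_eq, smul_eq_mul, mul_one,
      Matrix.one_apply_ne (show (0 : Fin 2) ≠ 1 by decide),
      Matrix.one_apply_ne (show (1 : Fin 2) ≠ 0 by decide), mul_zero, sub_zero]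
    linear_combination hdet - a * htr
  obtain ⟨v, hv, hAv⟩ := Matrix.exists_mulVec_eq_zero_iff.2 hd
  refine ⟨v, hv, ?_⟩
  rw [Matrix.sub_mulVec, Matrix.smul_mulVec, Matrix.one_mulVec, sub_eq_zero] at hAv
  exact hAv

lemma pow_mulVec_of_eigen {A : M₂ F} {v : Fin 2 → F} {a : F} (h : A *ᵥ v = a • v) (n : ℕ) :
    (A ^ n) *ᵥ v = a ^ n • v := by
  induction n with
  | zero => simp
  | succ n ih =>
    rw [pow_succ, ← Matrix.mulVec_mulVec, h, Matrix.mulVec_smul, ih, smul_smul, pow_succ,
      mul_comm]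

/-- A `2 × 2` matrix of finite order prime to the characteristic with a double eigenvalue is
scalar. -/
lemma eq_smul_one_of_pow_eq_one {A : M₂ F} {a : F}
    (hA : (A - a • 1) * (A - a • 1) = 0) {m : ℕ} (hm : (m : F) ≠ 0) (hAm : A ^ m = 1) :
    A = a • 1 := by
  set N : M₂ F := A - a • 1 with hN
  have hAN : A = a • 1 + N := by rw [hN]; abel
  have hpow : ∀ n : ℕ, (a • (1 : M₂ F) + N) ^ n = a ^ n • 1 + ((n : F) * a ^ (n - 1)) • N := by
    intro n
    induction n with
    | zero => simp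
    | succ n ih =>
      rw [pow_succ, ih]
      have e1 : (a ^ n • (1 : M₂ F) + ((n : F) * a ^ (n - 1)) • N) * (a • 1 + N) =
          (a ^ n * a) • 1 + (a ^ n + (n : F) * a ^ (n - 1) * a) • N +
            ((n : F) * a ^ (n - 1)) • (N * N) := by
        simp only [add_mul, mul_add, Matrix.smul_mul, Matrix.mul_smul, Matrix.one_mul,
          Matrix.mul_one, smul_smul]
        module
      rw [e1, hA, smul_zero, add_zero, ← pow_succ]
      congr 2
      rcases n with _ | n
      · simp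
      · simp only [Nat.add_sub_cancel, Nat.cast_add, Nat.cast_one]
        rw [pow_succ]
        ring
  have h1 : a ^ m • (1 : M₂ F) + ((m : F) * a ^ (m - 1)) • N = 1 := by
    rw [← hpow m, ← hAN, hAm]
  set c : F := (m : F) * a ^ (m - 1) with hc
  have h2 : c • N = (1 - a ^ m) • (1 : M₂ F) := by
    rw [sub_smul, one_smul, eq_sub_iff_add_eq, add_comm]
    exact h1
  have h3 : ((1 - a ^ m) * (1 - a ^ m)) • (1 : M₂ F) = 0 := by
    have : (c • N) * (c • N) = 0 := by
      rw [Matrix.smul_mul, Matrix.mul_smul, hA, smul_zero, smul_zero]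
    rw [h2] at this
    simpa [Matrix.smul_mul, Matrix.mul_smul, smul_smul] using this
  have h4 : a ^ m = 1 := by
    have := congrFun (congrFun h3 0) 0
    simp only [Matrix.smul_apply, Matrix.one_apply_eq, smul_eq_mul, mul_one,
      Matrix.zero_apply] at this
    have h5 : 1 - a ^ m = 0 := by
      rcases mul_eq_zero.1 this with h | h <;> exact h
    exact (sub_eq_zero.1 h5).symm
  have ha : a ≠ 0 := by
    rintro rfl
    have hm0 : m ≠ 0 := by
      rintro rfl
      simp at hm
    rw [zero_pow hm0] at h4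
    exact zero_ne_one h4
  have hc0 : c ≠ 0 := mul_ne_zero hm (pow_ne_zero _ ha)
  have hN0 : N = 0 := by
    rw [h4, sub_self, zero_smul] at h2
    exact (smul_eq_zero.1 h2).resolve_left hc0
  rw [hAN, hN0, add_zero]

end TwoByTwo

/-! ### Two-dimensional matrix representations -/

section Rep

variable {Γ : Type*} [Group Γ] {k : Type*} [Field k]

/-- `r` has a common eigenvector in `k²`. -/
def HasStableLine (r : Γ →* M₂ k) : Prop :=
  ∃ v : Fin 2 → k, v ≠ 0 ∧ ∀ g, ∃ c : k, r g *ᵥ v = c • v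

/-- `r` has a common eigenvector in `K²` (`K` an extension field). -/
def HasStableLineOver (K : Type*) [Field K] [Algebra k K] (r : Γ →* M₂ k) : Prop :=
  ∃ v : Fin 2 → K, v ≠ 0 ∧ ∀ g, ∃ c : K, (r g).map (algebraMap k K) *ᵥ v = c • v

/-- The representation on `k²` attached to `r`. -/
noncomputable def matRep (r : Γ →* M₂ k) : Representation k Γ (Fin 2 → k) where
  toFun g := Matrix.toLinAlgEquiv' (r g)
  map_one' := by simp
  map_mul' g h := by simp [map_mul]

@[simp] lemma matRep_apply (r : Γ →* M₂ k) (g : Γ) (v : Fin 2 → k) :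
    matRep r g v = r g *ᵥ v := by
  simp [matRep]

lemma matRep_pow (r : Γ →* M₂ k) (g : Γ) (n : ℕ) :
    matRep r g ^ n = Matrix.toLinAlgEquiv' (r g ^ n) := by
  simp [matRep, map_pow]

lemma map_mul_inv_self (r : Γ →* M₂ k) (g : Γ) : r g * r g⁻¹ = 1 := by
  rw [← map_mul, mul_inv_cancel, map_one]

lemma map_inv_mul_self (r : Γ →* M₂ k) (g : Γ) : r g⁻¹ * r g = 1 := by
  rw [← map_mul, inv_mul_cancel, map_one]

/-- **(T2, matrix form)** If `r` has no stable line, a normal subgroup `P` whose image consists of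
elements of `p`-power order acts trivially ("wild inertia acts trivially on an irreducible
`ρ̄|_{G_p}`"). -/
theorem map_eq_one_of_not_hasStableLine {p : ℕ} [hp : Fact p.Prime] [CharP k p] [Finite k]
    (r : Γ →* M₂ k) (hirr : ¬ HasStableLine r) (P : Subgroup Γ) [hPn : P.Normal]
    (hP : ∀ g ∈ P, ∃ n : ℕ, r g ^ (p ^ n) = 1) : ∀ g ∈ P, r g = 1 := by
  have hP' : ∀ g ∈ P, ∃ n : ℕ, matRep r g ^ (p ^ n) = 1 := by
    intro g hg
    obtain ⟨n, hn⟩ := hP g hg
    exact ⟨n, by rw [matRep_pow, hn, map_one]⟩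
  obtain ⟨v, hv0, hv⟩ := exists_ne_zero_fixed_of_pow_eq_one (matRep r) P hP'
  simp only [matRep_apply] at hv
  by_contra hne
  push Not at hne
  obtain ⟨g₀, hg₀, hg₀1⟩ := hne
  apply hirr
  refine ⟨v, hv0, fun h => ?_⟩
  have hA : r g₀ - 1 ≠ 0 := sub_ne_zero.2 hg₀1
  have hfix : ∀ g ∈ P, r g *ᵥ (r h *ᵥ v) = r h *ᵥ v := by
    intro g hg
    have hc : h⁻¹ * g * h ∈ P := by
      have := hPn.conj_mem g hg h⁻¹
      simpa using this
    have h2 := hv _ hc
    rw [Matrix.mulVec_mulVec, ← map_mul]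
    have e : g * h = h * (h⁻¹ * g * h) := by group
    rw [e, map_mul, ← Matrix.mulVec_mulVec, h2]
  have h1 : (r g₀ - 1) *ᵥ v = 0 := by
    rw [Matrix.sub_mulVec, Matrix.one_mulVec, hv g₀ hg₀, sub_self]
  have h2 : (r g₀ - 1) *ᵥ (r h *ᵥ v) = 0 := by
    rw [Matrix.sub_mulVec, Matrix.one_mulVec, hfix g₀ hg₀, sub_self]
  exact exists_smul_eq_of_mulVec_eq_zero hA hv0 h2 h1

/-- An eigenvalue (over an extension field) of a matrix with split characteristic polynomial is
one of the two roots. -/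
lemma eigenvalue_eq_of_charpoly {K : Type*} [Field K] [Algebra k K] {A : M₂ k} {a b : k}
    (hA : A.charpoly = (X - C a) * (X - C b)) {v : Fin 2 → K} (hv : v ≠ 0) {c : K}
    (hc : A.map (algebraMap k K) *ᵥ v = c • v) :
    c = algebraMap k K a ∨ c = algebraMap k K b := by
  obtain ⟨htr, hdet⟩ := trace_det_of_charpoly hA
  have hd : (A.map (algebraMap k K) - c • (1 : M₂ K)).det = 0 := by
    apply Matrix.exists_mulVec_eq_zero_iff.1
    refine ⟨v, hv, ?_⟩
    rw [Matrix.sub_mulVec, Matrix.smul_mulVec, Matrix.one_mulVec, hc, sub_self]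
  rw [Matrix.det_fin_two] at hd hdet
  rw [Matrix.trace_fin_two] at htr
  simp only [Matrix.sub_apply, Matrix.smul_apply, Matrix.one_apply_eq, smul_eq_mul, mul_one,
    Matrix.one_apply_ne (show (0 : Fin 2) ≠ 1 by decide),
    Matrix.one_apply_ne (show (1 : Fin 2) ≠ 0 by decide), mul_zero, sub_zero,
    Matrix.map_apply] at hd
  have htr' := congrArg (algebraMap k K) htr
  have hdet' := congrArg (algebraMap k K) hdet
  simp only [map_add, map_sub, map_mul] at htr' hdet'
  have h : (c - algebraMap k K a) * (c - algebraMap k K b) = 0 := by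
    linear_combination hd + c * htr' - hdet'
  rcases mul_eq_zero.1 h with h | h
  · exact Or.inl (sub_eq_zero.1 h)
  · exact Or.inr (sub_eq_zero.1 h)

/-- **(T3) Dichotomy.** If all eigenvalues of all `r g` lie in `k` (the hypothesis `hsplit` of the
frozen S56) and `r` has a stable line over SOME extension field, then it has one over `k`.
So `r` is either reducible over `k` or absolutely irreducible. -/
theorem hasStableLine_of_hasStableLineOver (K : Type*) [Field K] [Algebra k K] (r : Γ →* M₂ k)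
    (hsplit : ∀ g, ∃ a b : k, (r g).charpoly = (X - C a) * (X - C b))
    (h : HasStableLineOver K r) : HasStableLine r := by
  obtain ⟨v, hv, hc⟩ := h
  choose c hc using hc
  have hχ : ∀ g, ∃ x : k, algebraMap k K x = c g := by
    intro g
    obtain ⟨a, b, hab⟩ := hsplit g
    rcases eigenvalue_eq_of_charpoly hab hv (hc g) with h | h
    · exact ⟨a, h.symm⟩
    · exact ⟨b, h.symm⟩
  choose χ hχ using hχ
  have hinj : Function.Injective (algebraMap k K) := (algebraMap k K).injective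
  by_cases hs : ∀ g, r g = χ g • (1 : M₂ k)
  · refine ⟨![1, 0], ?_, fun g => ⟨χ g, ?_⟩⟩
    · intro h0
      have := congrFun h0 0
      simp at this
    · rw [hs g, Matrix.smul_mulVec, Matrix.one_mulVec]
  · push Not at hs
    obtain ⟨g₀, hg₀⟩ := hs
    set A : M₂ k := r g₀ - χ g₀ • 1 with hAdef
    have hA : A ≠ 0 := sub_ne_zero.2 hg₀
    have hAmap : A.map (algebraMap k K) =
        (r g₀).map (algebraMap k K) - (algebraMap k K (χ g₀)) • (1 : M₂ K) := by
      ext i j
      simp only [hAdef, Matrix.map_apply, Matrix.sub_apply, Matrix.smul_apply, map_sub,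
        smul_eq_mul, map_mul, Matrix.one_apply]
      split_ifs <;> simp
    have hAK : A.map (algebraMap k K) *ᵥ v = 0 := by
      rw [hAmap, Matrix.sub_mulVec, hc g₀, hχ g₀, Matrix.smul_mulVec, Matrix.one_mulVec,
        sub_self]
    have hdet : A.det = 0 := by
      have h1 : (A.map (algebraMap k K)).det = 0 :=
        Matrix.exists_mulVec_eq_zero_iff.1 ⟨v, hv, hAK⟩
      rw [Matrix.det_fin_two] at h1 ⊢
      simp only [Matrix.map_apply, ← map_mul, ← map_sub] at h1
      exact (map_eq_zero _).1 h1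
    obtain ⟨w, hw, hAw⟩ := Matrix.exists_mulVec_eq_zero_iff.2 hdet
    set wK : Fin 2 → K := fun i => algebraMap k K (w i) with hwK
    have hmapvec : ∀ (M : M₂ k) (u : Fin 2 → k) (i : Fin 2),
        (M.map (algebraMap k K) *ᵥ fun j => algebraMap k K (u j)) i =
          algebraMap k K ((M *ᵥ u) i) := by
      intro M u i
      rw [mulVec_fin_two, mulVec_fin_two]
      simp only [Matrix.map_apply, map_add, map_mul]
    have hwK0 : wK ≠ 0 := by
      intro h0
      apply hw
      ext i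
      have := congrFun h0 i
      simp only [hwK, Pi.zero_apply] at this
      exact (map_eq_zero _).1 this
    have hAwK : A.map (algebraMap k K) *ᵥ wK = 0 := by
      ext i
      rw [hwK, hmapvec, hAw]
      simp
    have hAK0 : A.map (algebraMap k K) ≠ 0 := by
      intro h0
      apply hA
      ext i j
      have := congrFun (congrFun h0 i) j
      simp only [Matrix.map_apply, Matrix.zero_apply] at this
      exact (map_eq_zero _).1 this
    obtain ⟨d, hd⟩ := exists_smul_eq_of_mulVec_eq_zero hAK0 hwK0 hAK hAwK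
    have hd0 : d ≠ 0 := by
      rintro rfl
      rw [zero_smul] at hd
      exact hv hd
    refine ⟨w, hw, fun g => ⟨χ g, ?_⟩⟩
    have h1 : (r g).map (algebraMap k K) *ᵥ wK = c g • wK := by
      have h2 := hc g
      rw [hd, Matrix.mulVec_smul, smul_comm] at h2
      exact smul_right_injective _ hd0 h2
    ext i
    apply hinj
    have h3 := congrFun h1 i
    rw [hwK, hmapvec] at h3
    rw [h3]
    simp [hχ g]

/-- **(T4)** A stable line gives an upper triangular form over `k`, with two characters on the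
diagonal. -/
theorem exists_triangular_of_hasStableLine (r : Γ →* M₂ k) (h : HasStableLine r) :
    ∃ (B : M₂ k) (χ₁ χ₂ : Γ →* kˣ) (b : Γ → k), B.det ≠ 0 ∧
      ∀ g, r g * B = B * !![(χ₁ g : k), b g; 0, (χ₂ g : k)] := by
  classical
  obtain ⟨v, hv, hc⟩ := h
  choose c hc using hc
  -- complete `v` to a basis
  obtain ⟨w, hdet⟩ : ∃ w : Fin 2 → k, v 0 * w 1 - w 0 * v 1 ≠ 0 := by
    by_cases h0 : v 0 = 0
    · have h1 : v 1 ≠ 0 := by
        intro h1
        apply hv
        ext i
        fin_cases i <;> simp [h0, h1]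
      exact ⟨![1, 0], by simpa [h0] using h1⟩
    · exact ⟨![0, 1], by simpa using h0⟩
  set B : M₂ k := !![v 0, w 0; v 1, w 1] with hB
  have hBdet : B.det ≠ 0 := by
    rw [hB, Matrix.det_fin_two_of]
    exact hdet
  have hBu : IsUnit B.det := isUnit_iff_ne_zero.2 hBdet
  have hBB : B * B⁻¹ = 1 := Matrix.mul_nonsing_inv B hBu
  have hBB' : B⁻¹ * B = 1 := Matrix.nonsing_inv_mul B hBu
  let τ : Γ →* M₂ k :=
    { toFun := fun g => B⁻¹ * r g * B
      map_one' := by rw [map_one, Matrix.mul_one, hBB']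
      map_mul' := fun g h => by
        rw [map_mul]
        calc B⁻¹ * (r g * r h) * B = B⁻¹ * r g * 1 * r h * B := by
              simp only [Matrix.mul_one, Matrix.mul_assoc]
          _ = B⁻¹ * r g * B * (B⁻¹ * r h * B) := by
              rw [← hBB]; simp only [Matrix.mul_assoc] }
  have hτ : ∀ g, r g * B = B * τ g := by
    intro g
    change r g * B = B * (B⁻¹ * r g * B)
    rw [← Matrix.mul_assoc, ← Matrix.mul_assoc, hBB, Matrix.one_mul]
  have hBe : B *ᵥ ![1, 0] = v := by
    ext i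
    fin_cases i <;> simp [hB, mulVec_fin_two]
  have hτe : ∀ g, τ g *ᵥ ![1, 0] = c g • ![1, 0] := by
    intro g
    change (B⁻¹ * r g * B) *ᵥ ![1, 0] = c g • ![1, 0]
    rw [← Matrix.mulVec_mulVec, ← Matrix.mulVec_mulVec, hBe, hc g, Matrix.mulVec_smul, ← hBe,
      Matrix.mulVec_mulVec, hBB', Matrix.one_mulVec]
  have h10 : ∀ g, τ g 1 0 = 0 := by
    intro g
    have := congrFun (hτe g) 1
    rw [mulVec_fin_two] at this
    simpa using this
  let χ₁' : Γ →* k :=
    { toFun := fun g => τ g 0 0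
      map_one' := by rw [map_one]; simp
      map_mul' := fun g h => by
        rw [map_mul, Matrix.mul_apply, Fin.sum_univ_two, h10 h, mul_zero, add_zero] }
  let χ₂' : Γ →* k :=
    { toFun := fun g => τ g 1 1
      map_one' := by rw [map_one]; simp
      map_mul' := fun g h => by
        rw [map_mul, Matrix.mul_apply, Fin.sum_univ_two, h10 g, zero_mul, zero_add] }
  refine ⟨B, χ₁'.toHomUnits, χ₂'.toHomUnits, fun g => τ g 0 1, hBdet, fun g => ?_⟩
  rw [hτ g]
  congr 1
  ext i j
  fin_cases i <;> fin_cases j <;> simp [χ₁', χ₂', h10 g]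

/-! ### Conjugating a matrix representation -/

/-- `g ↦ B⁻¹ r(g) B`. -/
noncomputable def conjHom (B : M₂ k) (hB : B.det ≠ 0) (r : Γ →* M₂ k) : Γ →* M₂ k where
  toFun g := B⁻¹ * r g * B
  map_one' := by
    rw [map_one, Matrix.mul_one, Matrix.nonsing_inv_mul B (isUnit_iff_ne_zero.2 hB)]
  map_mul' g h := by
    have hBB : B * B⁻¹ = 1 := Matrix.mul_nonsing_inv B (isUnit_iff_ne_zero.2 hB)
    rw [map_mul]
    calc B⁻¹ * (r g * r h) * B = B⁻¹ * r g * 1 * r h * B := by
          simp only [Matrix.mul_one, Matrix.mul_assoc]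
      _ = B⁻¹ * r g * B * (B⁻¹ * r h * B) := by
          rw [← hBB]; simp only [Matrix.mul_assoc]

lemma conjHom_apply (B : M₂ k) (hB : B.det ≠ 0) (r : Γ →* M₂ k) (g : Γ) :
    conjHom B hB r g = B⁻¹ * r g * B := rfl

lemma mul_eq_mul_conjHom (B : M₂ k) (hB : B.det ≠ 0) (r : Γ →* M₂ k) (g : Γ) :
    r g * B = B * conjHom B hB r g := by
  rw [conjHom_apply, ← Matrix.mul_assoc, ← Matrix.mul_assoc,
    Matrix.mul_nonsing_inv B (isUnit_iff_ne_zero.2 hB), Matrix.one_mul]

lemma eq_conj_conjHom (B : M₂ k) (hB : B.det ≠ 0) (r : Γ →* M₂ k) (g : Γ) :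
    r g = B * conjHom B hB r g * B⁻¹ := by
  rw [← mul_eq_mul_conjHom, Matrix.mul_assoc,
    Matrix.mul_nonsing_inv B (isUnit_iff_ne_zero.2 hB), Matrix.mul_one]

lemma pow_eq_one_of_conjHom (B : M₂ k) (hB : B.det ≠ 0) (r : Γ →* M₂ k) (g : Γ) (n : ℕ)
    (h : conjHom B hB r g ^ n = 1) : r g ^ n = 1 := by
  have h1 : r g ^ n = B * conjHom B hB r g ^ n * B⁻¹ := by
    rw [← map_pow, ← map_pow, ← eq_conj_conjHom]
  rw [h1, h, Matrix.mul_one, Matrix.mul_nonsing_inv B (isUnit_iff_ne_zero.2 hB)]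

lemma hasStableLine_of_conjHom (B : M₂ k) (hB : B.det ≠ 0) (r : Γ →* M₂ k)
    (h : HasStableLine (conjHom B hB r)) : HasStableLine r := by
  obtain ⟨v, hv, hc⟩ := h
  refine ⟨B *ᵥ v, ?_, fun g => ?_⟩
  · intro h0
    apply hv
    have : B⁻¹ *ᵥ (B *ᵥ v) = 0 := by rw [h0, Matrix.mulVec_zero]
    rwa [Matrix.mulVec_mulVec, Matrix.nonsing_inv_mul B (isUnit_iff_ne_zero.2 hB),
      Matrix.one_mulVec] at this
  · obtain ⟨c, hc⟩ := hc g
    refine ⟨c, ?_⟩
    rw [Matrix.mulVec_mulVec, mul_eq_mul_conjHom B hB, ← Matrix.mulVec_mulVec, hc,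
      Matrix.mulVec_smul]

/-! ### Diagonal and antidiagonal matrices -/

lemma diagonal_pow_fin_two (u w : k) (n : ℕ) :
    (Matrix.diagonal ![u, w]) ^ n = Matrix.diagonal ![u ^ n, w ^ n] := by
  rw [Matrix.diagonal_pow]
  congr 1
  ext i
  fin_cases i <;> simp

lemma eq_diagonal_of_offDiag {M : M₂ k} (h01 : M 0 1 = 0) (h10 : M 1 0 = 0) :
    M = Matrix.diagonal ![M 0 0, M 1 1] := by
  ext i j
  fin_cases i <;> fin_cases j <;> simp [h01, h10]

lemma eq_anti_of_diag {M : M₂ k} (h00 : M 0 0 = 0) (h11 : M 1 1 = 0) :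
    M = !![0, M 0 1; M 1 0, 0] := by
  ext i j
  fin_cases i <;> fin_cases j <;> simp [h00, h11]

/-- an invertible diagonal matrix over a finite field has order dividing `q - 1` -/
lemma diagonal_pow_card_sub_one [Finite k] {u w : k} (hu : u ≠ 0) (hw : w ≠ 0) :
    (Matrix.diagonal ![u, w]) ^ (Nat.card k - 1) = 1 := by
  classical
  let _ : Fintype k := Fintype.ofFinite k
  rw [diagonal_pow_fin_two, Nat.card_eq_fintype_card, FiniteField.pow_card_sub_one_eq_one u hu,
    FiniteField.pow_card_sub_one_eq_one w hw]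
  ext i j
  fin_cases i <;> fin_cases j <;> simp

/-- an invertible antidiagonal matrix over a finite field has order dividing `2 (q - 1)` -/
lemma anti_pow_two_mul_card_sub_one [Finite k] {x y : k} (hx : x ≠ 0) (hy : y ≠ 0) :
    (!![0, x; y, 0] : M₂ k) ^ (2 * (Nat.card k - 1)) = 1 := by
  have h2 : (!![0, x; y, 0] : M₂ k) ^ 2 = Matrix.diagonal ![x * y, x * y] := by
    rw [pow_two]
    ext i j
    fin_cases i <;> fin_cases j <;> simp [Matrix.mul_apply, Fin.sum_univ_two, mul_comm]
  rw [pow_mul, h2]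
  exact diagonal_pow_card_sub_one (mul_ne_zero hx hy) (mul_ne_zero hx hy)

/-- **Core of (T5)**, for a representation already in the eigenbasis of a regular element of
inertia. -/
theorem tame_structure_core {p : ℕ} [Finite k] (τ : Γ →* M₂ k) (hirr : ¬ HasStableLine τ)
    (I : Subgroup Γ) (φ : Γ) {t₀ : Γ} (ht₀ : t₀ ∈ I) {a b : k} (hab : a ≠ b)
    (hτ₀ : τ t₀ = Matrix.diagonal ![a, b])
    (hcomm : ∀ s ∈ I, ∀ t ∈ I, τ s * τ t = τ t * τ s)
    (hfrob : ∀ t ∈ I, τ φ * τ t = τ t ^ p * τ φ)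
    (hgen : ∀ g : Γ, ∃ n : ℕ, ∃ t ∈ I, τ g = τ φ ^ n * τ t) :
    ∃ (ψ : Γ → k) (x y : k), x ≠ 0 ∧ y ≠ 0 ∧
      (∀ t ∈ I, τ t = Matrix.diagonal ![ψ t, ψ t ^ p]) ∧
      (∀ t ∈ I, ψ t ^ (p ^ 2) = ψ t) ∧ ψ t₀ ^ p ≠ ψ t₀ ∧
      τ φ = !![0, x; y, 0] ∧
      (∀ g, τ g ^ (2 * (Nat.card k - 1)) = 1) := by
  -- Step 1: `τ t` is diagonal for `t ∈ I`
  have hdiag : ∀ t ∈ I, τ t 0 1 = 0 ∧ τ t 1 0 = 0 := by
    intro t ht
    have h := hcomm t₀ ht₀ t ht
    rw [hτ₀] at h
    have h01 := congrFun (congrFun h 0) 1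
    have h10 := congrFun (congrFun h 1) 0
    rw [Matrix.diagonal_mul, Matrix.mul_diagonal] at h01 h10
    simp only [Matrix.cons_val_zero, Matrix.cons_val_one] at h01 h10
    constructor
    · have : (a - b) * τ t 0 1 = 0 := by linear_combination h01
      exact (mul_eq_zero.1 this).resolve_left (sub_ne_zero.2 hab)
    · have : (a - b) * τ t 1 0 = 0 := by linear_combination -h10
      exact (mul_eq_zero.1 this).resolve_left (sub_ne_zero.2 hab)
  have hdiag' : ∀ t ∈ I, τ t = Matrix.diagonal ![τ t 0 0, τ t 1 1] := fun t ht =>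
    eq_diagonal_of_offDiag (hdiag t ht).1 (hdiag t ht).2
  -- Step 2: the Frobenius relation at `t₀`
  set F : M₂ k := τ φ with hF
  have hF₀ := hfrob t₀ ht₀
  rw [hτ₀, diagonal_pow_fin_two] at hF₀
  have e00 := congrFun (congrFun hF₀ 0) 0
  have e01 := congrFun (congrFun hF₀ 0) 1
  have e10 := congrFun (congrFun hF₀ 1) 0
  have e11 := congrFun (congrFun hF₀ 1) 1
  rw [Matrix.diagonal_mul, Matrix.mul_diagonal] at e00 e01 e10 e11
  simp only [Matrix.cons_val_zero, Matrix.cons_val_one] at e00 e01 e10 e11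
  -- Step 3: `F` has no zero off-diagonal entry
  have hstab : ∀ (e : Fin 2 → k) (cF : k), e ≠ 0 → F *ᵥ e = cF • e →
      (∀ t ∈ I, ∃ c : k, τ t *ᵥ e = c • e) → HasStableLine τ := by
    intro e cF he hFe hI
    refine ⟨e, he, fun g => ?_⟩
    obtain ⟨n, t, ht, hg⟩ := hgen g
    obtain ⟨c, hc⟩ := hI t ht
    refine ⟨c * cF ^ n, ?_⟩
    rw [hg, ← Matrix.mulVec_mulVec, hc, Matrix.mulVec_smul, pow_mulVec_of_eigen hFe, smul_smul]
  have hF10 : F 1 0 ≠ 0 := by
    intro h0
    apply hirr
    refine hstab ![1, 0] (F 0 0) ?_ ?_ ?_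
    · intro h; simpa using congrFun h 0
    · ext i
      rw [mulVec_fin_two]
      fin_cases i <;> simp [h0]
    · intro t ht
      refine ⟨τ t 0 0, ?_⟩
      ext i
      rw [mulVec_fin_two]
      fin_cases i <;> simp [(hdiag t ht).2]
  have hF01 : F 0 1 ≠ 0 := by
    intro h0
    apply hirr
    refine hstab ![0, 1] (F 1 1) ?_ ?_ ?_
    · intro h; simpa using congrFun h 1
    · ext i
      rw [mulVec_fin_two]
      fin_cases i <;> simp [h0]
    · intro t ht
      refine ⟨τ t 1 1, ?_⟩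
      ext i
      rw [mulVec_fin_two]
      fin_cases i <;> simp [(hdiag t ht).1]
  -- Step 4
  have hbp : a = b ^ p := by
    have : F 1 0 * (a - b ^ p) = 0 := by linear_combination e10
    exact sub_eq_zero.1 ((mul_eq_zero.1 this).resolve_left hF10)
  have hap : b = a ^ p := by
    have : F 0 1 * (b - a ^ p) = 0 := by linear_combination e01
    exact sub_eq_zero.1 ((mul_eq_zero.1 this).resolve_left hF01)
  have hF00 : F 0 0 = 0 := by
    have : F 0 0 * (a - b) = 0 := by rw [hap]; linear_combination e00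
    exact (mul_eq_zero.1 this).resolve_right (sub_ne_zero.2 hab)
  have hF11 : F 1 1 = 0 := by
    have : F 1 1 * (b - a) = 0 := by rw [hbp]; linear_combination e11
    exact (mul_eq_zero.1 this).resolve_right (sub_ne_zero.2 hab.symm)
  have hFanti : F = !![0, F 0 1; F 1 0, 0] := eq_anti_of_diag hF00 hF11
  -- Step 5: the characters
  have hψ : ∀ t ∈ I, τ t 1 1 = τ t 0 0 ^ p ∧ τ t 0 0 ^ (p ^ 2) = τ t 0 0 := by
    intro t ht
    have h := hfrob t ht
    rw [hdiag' t ht, diagonal_pow_fin_two] at h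
    have f01 := congrFun (congrFun h 0) 1
    have f10 := congrFun (congrFun h 1) 0
    rw [Matrix.diagonal_mul, Matrix.mul_diagonal] at f01 f10
    simp only [Matrix.cons_val_zero, Matrix.cons_val_one] at f01 f10
    have h1 : τ t 1 1 = τ t 0 0 ^ p := by
      have : F 0 1 * (τ t 1 1 - τ t 0 0 ^ p) = 0 := by linear_combination f01
      exact sub_eq_zero.1 ((mul_eq_zero.1 this).resolve_left hF01)
    have h2 : τ t 0 0 = τ t 1 1 ^ p := by
      have : F 1 0 * (τ t 0 0 - τ t 1 1 ^ p) = 0 := by linear_combination f10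
      exact sub_eq_zero.1 ((mul_eq_zero.1 this).resolve_left hF10)
    refine ⟨h1, ?_⟩
    rw [pow_two, pow_mul, ← h1, ← h2]
  -- Step 6: orders
  have hinv : ∀ g, (τ g).det ≠ 0 := by
    intro g
    have h1 : (τ g).det * (τ g⁻¹).det = 1 := by
      rw [← Matrix.det_mul, map_mul_inv_self, Matrix.det_one]
    exact left_ne_zero_of_mul_eq_one h1
  have hmono : ∀ (n : ℕ), ∀ t ∈ I,
      ((F ^ n * τ t) 0 1 = 0 ∧ (F ^ n * τ t) 1 0 = 0) ∨
        ((F ^ n * τ t) 0 0 = 0 ∧ (F ^ n * τ t) 1 1 = 0) := by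
    intro n t ht
    induction n with
    | zero =>
      left
      simpa using hdiag t ht
    | succ n ih =>
      rw [pow_succ', Matrix.mul_assoc]
      rcases ih with h | h
      · right
        constructor
        · rw [Matrix.mul_apply, Fin.sum_univ_two, hF00, h.2]; ring
        · rw [Matrix.mul_apply, Fin.sum_univ_two, hF11, h.1]; ring
      · left
        constructor
        · rw [Matrix.mul_apply, Fin.sum_univ_two, hF00, h.2]; ring
        · rw [Matrix.mul_apply, Fin.sum_univ_two, hF11, h.1]; ring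
  have hord : ∀ g, τ g ^ (2 * (Nat.card k - 1)) = 1 := by
    intro g
    obtain ⟨n, t, ht, hg⟩ := hgen g
    have hd := hinv g
    rcases hmono n t ht with h | h
    · rw [← hg] at h
      rw [eq_diagonal_of_offDiag h.1 h.2] at hd ⊢
      rw [Matrix.det_diagonal, Fin.prod_univ_two] at hd
      simp only [Matrix.cons_val_zero, Matrix.cons_val_one] at hd
      rw [mul_comm 2, pow_mul,
        diagonal_pow_card_sub_one (left_ne_zero_of_mul hd) (right_ne_zero_of_mul hd), one_pow]
    · rw [← hg] at h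
      rw [eq_anti_of_diag h.1 h.2] at hd ⊢
      rw [Matrix.det_fin_two_of] at hd
      have hxy : τ g 0 1 * τ g 1 0 ≠ 0 := by
        intro h0
        apply hd
        rw [h0]; ring
      exact anti_pow_two_mul_card_sub_one (left_ne_zero_of_mul hxy) (right_ne_zero_of_mul hxy)
  refine ⟨fun g => τ g 0 0, F 0 1, F 1 0, hF01, hF10, ?_, ?_, ?_, hFanti, hord⟩
  · intro t ht
    rw [← (hψ t ht).1]
    exact hdiag' t ht
  · intro t ht
    exact (hψ t ht).2
  · have : τ t₀ 0 0 = a := by rw [hτ₀]; simp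
    simp only [this]
    rw [← hap]
    exact hab.symm

/-- `2 (q - 1)` is prime to `p` (`p` odd). -/
lemma coprime_two_mul_card_sub_one {p : ℕ} [hp : Fact p.Prime] [CharP k p] [Finite k]
    (hp2 : p ≠ 2) : (2 * (Nat.card k - 1)).Coprime p := by
  classical
  let _ : Fintype k := Fintype.ofFinite k
  obtain ⟨n, hn, hcard⟩ := FiniteField.card k p
  rw [Nat.card_eq_fintype_card, hcard]
  apply Nat.Coprime.symm
  rw [Nat.Prime.coprime_iff_not_dvd hp.out]
  intro hdvd
  rcases (Nat.Prime.dvd_mul hp.out).1 hdvd with h | h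
  · exact hp2 ((Nat.prime_dvd_prime_iff_eq hp.out Nat.prime_two).1 h)
  · have h1 : p ∣ p ^ (n : ℕ) := dvd_pow_self p (PNat.ne_zero n)
    have h2 : 1 ≤ p ^ (n : ℕ) := Nat.one_le_pow _ _ hp.out.pos
    have h3 : p ∣ 1 := by
      have := Nat.dvd_sub h1 h
      rwa [Nat.sub_sub_self h2] at this
    exact hp.out.one_lt.ne' (Nat.dvd_one.1 h3)

/-- **(T5) Structure of an irreducible two-dimensional mod `p` representation of a local Galois
group.**  `I` plays the role of inertia (its image is abelian of order prime to `p`, because wild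
inertia acts trivially by `map_eq_one_of_not_hasStableLine`), `φ` of a Frobenius
(`φ t φ⁻¹ = t ^ p` on tame inertia), `Γ` is generated by `φ` and `I` (up to `r`).
Conclusion: in a suitable basis over `k`, inertia acts through `ψ ⊕ ψ ^ p` with
`ψ ^ (p ^ 2) = ψ ≠ ψ ^ p` ("fundamental character of level two"), Frobenius is antidiagonal, and
the image of `r` has order prime to `p`. -/
theorem tame_structure_of_irreducible {p : ℕ} [hp : Fact p.Prime] [CharP k p] [Finite k]
    (r : Γ →* M₂ k)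
    (hsplit : ∀ g, ∃ a b : k, (r g).charpoly = (X - C a) * (X - C b))
    (hirr : ¬ HasStableLine r)
    (I : Subgroup Γ) (φ : Γ)
    (hcomm : ∀ s ∈ I, ∀ t ∈ I, r s * r t = r t * r s)
    (hord : ∀ t ∈ I, ∃ m : ℕ, m.Coprime p ∧ r t ^ m = 1)
    (hfrob : ∀ t ∈ I, r φ * r t = r t ^ p * r φ)
    (hgen : ∀ g : Γ, ∃ n : ℕ, ∃ t ∈ I, r g = r φ ^ n * r t) :
    ∃ (B : M₂ k) (ψ : Γ → k) (x y : k), B.det ≠ 0 ∧ x ≠ 0 ∧ y ≠ 0 ∧
      (∀ t ∈ I, r t * B = B * Matrix.diagonal ![ψ t, ψ t ^ p]) ∧
      (∀ t ∈ I, ψ t ^ (p ^ 2) = ψ t) ∧ (∃ t₀ ∈ I, ψ t₀ ^ p ≠ ψ t₀) ∧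
      r φ * B = B * !![0, x; y, 0] ∧
      (∀ g, r g ^ (2 * (Nat.card k - 1)) = 1) := by
  classical
  -- Step A: a non-scalar element of inertia
  obtain ⟨t₀, ht₀, hns⟩ : ∃ t₀ ∈ I, ∀ s : k, r t₀ ≠ s • 1 := by
    by_contra hcon
    push Not at hcon
    apply hirr
    obtain ⟨a, b, hφ⟩ := hsplit φ
    obtain ⟨v, hv, hφv⟩ := exists_eigenvector hφ
    refine ⟨v, hv, fun g => ?_⟩
    obtain ⟨n, t, ht, hg⟩ := hgen g
    obtain ⟨s, hs⟩ := hcon t ht
    refine ⟨s * a ^ n, ?_⟩
    rw [hg, ← Matrix.mulVec_mulVec, hs, Matrix.smul_mulVec, Matrix.one_mulVec,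
      Matrix.mulVec_smul, pow_mulVec_of_eigen hφv, smul_smul]
  -- Step B: its eigenvalues are distinct
  obtain ⟨a, b, hT⟩ := hsplit t₀
  obtain ⟨m, hm, hTm⟩ := hord t₀ ht₀
  have hmk : (m : k) ≠ 0 := by
    intro h0
    rw [CharP.cast_eq_zero_iff k p] at h0
    have := Nat.Coprime.eq_one_of_dvd hm.symm h0
    exact hp.out.one_lt.ne' this
  have hab : a ≠ b := by
    rintro rfl
    exact hns a (eq_smul_one_of_pow_eq_one (sub_mul_sub_eq_zero hT) hmk hTm)
  -- Step C: eigenbasis
  obtain ⟨va, hva, hTa⟩ := exists_eigenvector hT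
  obtain ⟨vb, hvb, hTb⟩ := exists_eigenvector (show (r t₀).charpoly = (X - C b) * (X - C a) by
    rw [hT, mul_comm])
  have hdet : va 0 * vb 1 - vb 0 * va 1 ≠ 0 := by
    intro hd
    obtain ⟨c, hc⟩ := exists_smul_eq_of_det_eq_zero (v := vb) (w := va) hva
      (by linear_combination hd)
    have h1 : (b - a) • vb = 0 := by
      rw [sub_smul, ← hTb]
      nth_rewrite 1 [hc]
      rw [Matrix.mulVec_smul, hTa, smul_comm, ← hc, sub_self]
    rcases smul_eq_zero.1 h1 with h | h
    · exact hab (sub_eq_zero.1 h).symm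
    · exact hvb h
  set B : M₂ k := !![va 0, vb 0; va 1, vb 1] with hB
  have hBdet : B.det ≠ 0 := by
    rw [hB, Matrix.det_fin_two_of]
    exact hdet
  have hBu : IsUnit B.det := isUnit_iff_ne_zero.2 hBdet
  have hTB : r t₀ * B = B * Matrix.diagonal ![a, b] := by
    have ea := fun i => congrFun hTa i
    have eb := fun i => congrFun hTb i
    simp only [mulVec_fin_two, Pi.smul_apply, smul_eq_mul] at ea eb
    ext i j
    rw [Matrix.mul_diagonal, Matrix.mul_apply, Fin.sum_univ_two]
    fin_cases i <;> fin_cases j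
    · simpa [hB, mul_comm] using ea 0
    · simpa [hB, mul_comm] using eb 0
    · simpa [hB, mul_comm] using ea 1
    · simpa [hB, mul_comm] using eb 1
  set τ := conjHom B hBdet r with hτ
  have hτ₀ : τ t₀ = Matrix.diagonal ![a, b] := by
    rw [hτ, conjHom_apply, Matrix.mul_assoc, hTB, ← Matrix.mul_assoc,
      Matrix.nonsing_inv_mul B hBu, Matrix.one_mul]
  have hτmul : ∀ g h : Γ, τ g * τ h = B⁻¹ * (r g * r h) * B := by
    intro g h
    rw [← map_mul, ← map_mul, hτ, conjHom_apply]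
  have hτpow : ∀ (g : Γ) (n : ℕ), τ g ^ n = B⁻¹ * r g ^ n * B := by
    intro g n
    rw [← map_pow, ← map_pow, hτ, conjHom_apply]
  obtain ⟨ψ, x, y, hx, hy, h1, h2, h3, h4, h5⟩ :=
    tame_structure_core (p := p) τ (fun h => hirr (hasStableLine_of_conjHom B hBdet r h))
      I φ ht₀ hab hτ₀
      (fun s hs t ht => by rw [hτmul, hτmul, hcomm s hs t ht])
      (fun t ht => by
        rw [hτmul, hfrob t ht, ← map_pow, ← map_mul, ← map_pow, ← map_mul, hτ, conjHom_apply])
      (fun g => by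
        obtain ⟨n, t, ht, hg⟩ := hgen g
        refine ⟨n, t, ht, ?_⟩
        rw [← map_pow, ← map_mul, hτ, conjHom_apply, conjHom_apply, hg, map_mul, map_pow])
  refine ⟨B, ψ, x, y, hBdet, hx, hy, ?_, h2, ⟨t₀, ht₀, h3⟩, ?_, ?_⟩
  · intro t ht
    rw [mul_eq_mul_conjHom B hBdet, ← hτ, h1 t ht]
  · rw [mul_eq_mul_conjHom B hBdet, ← hτ, h4]
  · intro g
    exact pow_eq_one_of_conjHom B hBdet r g _ (h5 g)

/-- **(T5'), with wild inertia.**  Same as `tame_structure_of_irreducible`, the hypotheses being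
stated modulo a normal subgroup `P` whose image consists of elements of `p`-power order (wild
inertia), and only up to `r` (so they hold for the profinite group itself as soon as they hold in
the finite quotient through which `r` factors). -/
theorem tame_structure_of_irreducible' {p : ℕ} [hp : Fact p.Prime] [CharP k p] [Finite k]
    (r : Γ →* M₂ k)
    (hsplit : ∀ g, ∃ a b : k, (r g).charpoly = (X - C a) * (X - C b))
    (hirr : ¬ HasStableLine r)
    (P I : Subgroup Γ) [P.Normal] (φ : Γ)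
    (hP : ∀ g ∈ P, ∃ n : ℕ, r g ^ (p ^ n) = 1)
    (hcomm : ∀ s ∈ I, ∀ t ∈ I, ∃ u ∈ P, r (s * t) = r (t * s * u))
    (hord : ∀ t ∈ I, ∃ m : ℕ, m.Coprime p ∧ ∃ u ∈ P, r (t ^ m) = r u)
    (hfrob : ∀ t ∈ I, ∃ u ∈ P, r (φ * t * φ⁻¹) = r (t ^ p * u))
    (hgen : ∀ g : Γ, ∃ n : ℕ, ∃ t ∈ I, r g = r (φ ^ n * t)) :
    (∀ g ∈ P, r g = 1) ∧
    ∃ (B : M₂ k) (ψ : Γ → k) (x y : k), B.det ≠ 0 ∧ x ≠ 0 ∧ y ≠ 0 ∧
      (∀ t ∈ I, r t * B = B * Matrix.diagonal ![ψ t, ψ t ^ p]) ∧
      (∀ t ∈ I, ψ t ^ (p ^ 2) = ψ t) ∧ (∃ t₀ ∈ I, ψ t₀ ^ p ≠ ψ t₀) ∧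
      r φ * B = B * !![0, x; y, 0] ∧
      (∀ g, r g ^ (2 * (Nat.card k - 1)) = 1) := by
  have hP1 := map_eq_one_of_not_hasStableLine r hirr P hP
  refine ⟨hP1, tame_structure_of_irreducible r hsplit hirr I φ ?_ ?_ ?_ ?_⟩
  · intro s hs t ht
    obtain ⟨u, hu, h⟩ := hcomm s hs t ht
    rw [← map_mul, h, map_mul, hP1 u hu, Matrix.mul_one, map_mul]
  · intro t ht
    obtain ⟨m, hm, u, hu, h⟩ := hord t ht
    exact ⟨m, hm, by rw [← map_pow, h, hP1 u hu]⟩
  · intro t ht
    obtain ⟨u, hu, h⟩ := hfrob t ht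
    have h1 : r (φ * t * φ⁻¹) * r φ = r φ * r t := by
      rw [← map_mul, ← map_mul]
      congr 1
      group
    rw [← h1, h, map_mul, hP1 u hu, Matrix.mul_one, map_pow]
  · intro g
    obtain ⟨n, t, ht, h⟩ := hgen g
    exact ⟨n, t, ht, by rw [h, map_mul, map_pow]⟩

end Rep

end Fermat.Agent.S56x.Local.TameRep
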