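import Fermat.Agent.S56x.Local.FlatCountProof
import Fermat.Agent.S56x.Local.FlatIfaceSplit
import Fermat.Agent.S56x.Local.TameRep

/-!
# P-S56 / block A : `FlatIface.FlatCountStatementSplit` from five arithmetic inputs

The complete case analysis (no flat tangent cocycle / `rbar|G_p` reducible / irreducible).
The inputs are stated for a subalgebra `𝒜` of functions on `G_p` (in the application
`BddAlg.bddAlg p k`):

* `hThmA`  : entries of `rbar|G_p` and of the restrictions of flat tangent cocycles lie in `𝒜`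
  (`Fontaine/ThmA` + `Local/FlatBdd`);
* `hCW1`   : `Module.rank k (H1A 𝒜 χ) ≤ 1` for all admissible characters of `G_p`
  (`CWAssembly` over `ℚ_p`);
* `hCSlot` : in the reducible case, a triangularising basis in which the `(1,0)`-entries of the flat
  cocycles are coboundaries;
* `hInd`   : in the irreducible case, the tame structure (`TameRepPadic`) and the count over
  `ℚ_{p²}`.
-/

set_option autoImplicit false
set_option linter.unusedSectionVars false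

namespace Fermat.Agent.S56x.Local.FlatBridge

open Fermat.Agent.S56x.Local.Devissage Fermat.Agent.S56x.Local.FlatIface
  Fermat.Agent.S56x.Local.TameRep Fermat.Agent.S56x.Dict Module Matrix

local notation "Γℚ" => (AlgebraicClosure ℚ ≃ₐ[ℚ] AlgebraicClosure ℚ)
local notation "M₂" => Matrix (Fin 2) (Fin 2)

variable {k : Type} [Field k] (p : ℕ) [Fact p.Prime] (rbar : Γℚ →* M₂ k)

/-- without flat tangent cocycles, `flatSpan` consists of coboundaries. -/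
theorem rank_flatSpan_le_of_not_exists (hrbar : GaloisFactorsThroughFiniteLevel rbar)
    (h : ¬ ∃ c, IsFlatTan p rbar hrbar c) : Module.rank k (flatSpan p rbar hrbar) ≤ 4 := by
  rw [flatSpan_eq]
  have hempty : flatRes p rbar hrbar = ∅ := by
    refine Set.eq_empty_iff_forall_notMem.2 fun f hf => ?_
    obtain ⟨c, hc, -⟩ := hf
    exact h ⟨c, hc⟩
  rw [hempty, Submodule.span_empty, bot_sup_eq]
  refine (rank_adMatB_le_three _).trans ?_
  norm_num

/-- the diagonal characters of a triangularised admissible representation are admissible. -/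
theorem chr_mem_of_triangular {G : Type} [Group G] (𝒜 : Subalgebra k (G → k)) (r : G →* M₂ k)
    {B : M₂ k} (hB : B.det ≠ 0) {χ₁ χ₂ : G →* kˣ} {b : G → k}
    (h : ∀ g, r g * B = B * !![(χ₁ g : k), b g; 0, (χ₂ g : k)])
    (hr𝒜 : ∀ i j, (fun g => r g i j) ∈ 𝒜) : chr χ₁ ∈ 𝒜 ∧ chr χ₂ ∈ 𝒜 := by
  have hUT : IsUT (conjHomRep r B hB) χ₁ χ₂ b := isUT_conjRep r hB h
  have hent : ∀ i j, (fun g => (conjHomRep r B hB).R g i j) ∈ 𝒜 :=
    entries_mem_conj 𝒜 (Ψ := fun g => r g) hr𝒜 B B⁻¹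
  constructor
  · have := hent 0 0
    have e : (fun g => (conjHomRep r B hB).R g 0 0) = chr χ₁ := by
      funext g; rw [hUT.R_eq g]; simp
    rwa [e] at this
  · have := hent 1 1
    have e : (fun g => (conjHomRep r B hB).R g 1 1) = chr χ₂ := by
      funext g; rw [hUT.R_eq g]; simp
    rwa [e] at this

theorem chr_one_mem {G : Type} [Group G] (𝒜 : Subalgebra k (G → k)) :
    chr (1 : G →* kˣ) ∈ 𝒜 := by
  have : chr (1 : G →* kˣ) = (1 : G → k) := by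
    funext g; simp [chr]
  rw [this]; exact 𝒜.one_mem

theorem chr_div_mem [Finite k] {G : Type} [Group G] (𝒜 : Subalgebra k (G → k))
    {χ₁ χ₂ : G →* kˣ} (h1 : chr χ₁ ∈ 𝒜) (h2 : chr χ₂ ∈ 𝒜) : chr (χ₁ / χ₂) ∈ 𝒜 := by
  have e : chr (χ₁ / χ₂) = chr χ₁ * chr χ₂⁻¹ := by
    funext g; exact chr_div χ₁ χ₂ g
  rw [e]; exact 𝒜.mul_mem h1 (chr_inv_mem 𝒜 h2)

/-- **`FlatCountStatementSplit`**, from the arithmetic inputs. -/
theorem rank_flatSpan_le_four [Finite k] [CharP k p] (hp2 : p ≠ 2)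
    (hrbar : GaloisFactorsThroughFiniteLevel rbar) (𝒜 : Subalgebra k (Gp p → k))
    (hThmA : ∀ c, IsFlatTan p rbar hrbar c →
      (∀ i j, (fun g => rloc p rbar g i j) ∈ 𝒜) ∧ ∀ i j, (fun g => resP p rbar c g i j) ∈ 𝒜)
    (hCW1 : ∀ χ : Gp p →* kˣ, chr χ ∈ 𝒜 → Module.rank k (H1A 𝒜 χ) ≤ 1)
    (hCSlot : HasStableLine (rloc p rbar) → (∃ c, IsFlatTan p rbar hrbar c) →
      ∃ (B : M₂ k) (χ₁ χ₂ : Gp p →* kˣ) (b : Gp p → k), B.det ≠ 0 ∧
        (∀ g, rloc p rbar g * B = B * !![(χ₁ g : k), b g; 0, (χ₂ g : k)]) ∧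
        ∀ c, IsFlatTan p rbar hrbar c →
          (fun g => (B⁻¹ * resP p rbar c g * B) 1 0) ∈ B1 (χ₁ / χ₂)⁻¹)
    (hInd : ¬ HasStableLine (rloc p rbar) → (∃ c, IsFlatTan p rbar hrbar c) →
      ∃ (B : M₂ k) (hB : B.det ≠ 0) (I : Subgroup (Gp p)) (φ : Gp p) (ψ ψ' : Gp p → k) (x y : k),
        (∀ t ∈ I, rloc p rbar t * B = B * Matrix.diagonal ![ψ t, ψ' t]) ∧
        (rloc p rbar φ * B = B * !![0, x; y, 0]) ∧
        (∀ g : Gp p, ∃ n : ℕ, ∃ t ∈ I, rloc p rbar g = rloc p rbar φ ^ n * rloc p rbar t) ∧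
        ∃ (Γ' : Subgroup (Gp p)) (_ : Γ' = diagSubgroup (conjHomRep (rloc p rbar) B hB))
          (𝒜' : Subalgebra k (Γ' → k)),
          (∀ f ∈ 𝒜, (fun g : Γ' => f (g : Gp p)) ∈ 𝒜') ∧
          (∀ a ∈ Z1A 𝒜' (1 : Γ' →* kˣ), ∀ (g : Γ') (hg : φ * (g : Gp p) * φ⁻¹ ∈ Γ'),
            a ⟨φ * (g : Gp p) * φ⁻¹, hg⟩ = a g) ∧
          (∀ μ : Γ' →* kˣ,
            (∀ g : Γ', (B⁻¹ * rloc p rbar (g : Gp p) * B) 0 0 =
              chr μ g * (B⁻¹ * rloc p rbar (g : Gp p) * B) 1 1) →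
            Module.rank k (H1A 𝒜' μ) ≤ 1)) :
    Module.rank k (flatSpan p rbar hrbar) ≤ 4 := by
  have h2 : (2 : k) ≠ 0 := by
    intro h0
    have h20 : ((2 : ℕ) : k) = 0 := by exact_mod_cast h0
    have hdvd := (CharP.cast_eq_zero_iff k p 2).mp h20
    have hp : p.Prime := Fact.out
    exact hp2 ((Nat.prime_dvd_prime_iff_eq hp Nat.prime_two).mp hdvd)
  by_cases hF : ∃ c, IsFlatTan p rbar hrbar c
  · obtain ⟨c₀, hc₀⟩ := hF
    have hr𝒜 := (hThmA c₀ hc₀).1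
    by_cases hst : HasStableLine (rloc p rbar)
    · obtain ⟨B, χ₁, χ₂, b, hB, h, hFc⟩ := hCSlot hst ⟨c₀, hc₀⟩
      obtain ⟨hχ₁, hχ₂⟩ := chr_mem_of_triangular 𝒜 (rloc p rbar) hB h hr𝒜
      exact rank_flatSpan_le_four_of_triangular p rbar 𝒜 hrbar h2 hB h hr𝒜
        (hCW1 1 (chr_one_mem 𝒜)) (hCW1 _ (chr_div_mem 𝒜 hχ₁ hχ₂))
        (fun c hc => (hThmA c hc).2) hFc
    · obtain ⟨B, hB, I, φ, ψ, ψ', x, y, hI, hφ, hgen, Γ', hΓ', 𝒜', hres, hinv, hHμ⟩ :=
        hInd hst ⟨c₀, hc₀⟩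
      exact rank_flatSpan_le_four_of_tame p rbar 𝒜 hrbar h2 hB I φ hI hφ hgen Γ' hΓ' 𝒜' hres hinv
        hHμ (fun c hc => (hThmA c hc).2)
  · exact rank_flatSpan_le_of_not_exists p rbar hrbar hF

end Fermat.Agent.S56x.Local.FlatBridge
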