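import Fermat.Agent.S56x.Local.TameRepPadicInertia
import Fermat.Agent.S56x.Local.FlatCountFinal

/-!
# P-S56 block (A): the input `hInd` of `FlatBridge.rank_flatSpan_le_four`, packaged

`hInd_of_inputs` produces the hypothesis `hInd` (irreducible case) of
`FlatBridge.rank_flatSpan_le_four` in its literal shape, from

* the tame structure theorem at `Gal(ℚ̄_p/ℚ_p)` (`TameRepPadic.padic_tame_structure`), for a finite
  Galois extension `E/ℚ_p` through which `rbar|G_p` factors and which contains `μ_{p²-1}`;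
* the identification `Γ' = diagSubgroup = UnrLevels.lev p 2 = Gal(ℚ̄_p/ℚ_{p²})`
  (`TameRepPadic.diagSubgroup_eq_lev_two`);
* three count statements over `Γ' = UnrLevels.lev p 2`, taken as hypotheses
  (`hres`, `hinv`, `hHμ`), which do not mention the change of basis `B`.

`exists_level` provides the field `E` from `GaloisFactorsThroughFiniteLevel rbar`.
-/

set_option autoImplicit false
set_option linter.unusedSectionVars false
set_option linter.style.haveILetI false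

open IsLocalRing

namespace Fermat.Agent.S56x.Local.IndPackage

open Fermat.Agent.S56x.Local.Devissage Fermat.Agent.S56x.Local.FlatIface
  Fermat.Agent.S56x.Local.FlatBridge Fermat.Agent.S56x.Local.TameRep
  Fermat.Agent.S56x.Local.TameRepPadic Fermat.Agent.S56x.Local.PadicFinite
  Fermat.Agent.S56x.Dict Fermat.Agent.Lib.CFT.Profinite Module Matrix

local notation "Γℚ" => (AlgebraicClosure ℚ ≃ₐ[ℚ] AlgebraicClosure ℚ)
local notation "M₂" => Matrix (Fin 2) (Fin 2)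

variable {k : Type} [Field k] (p : ℕ) [Fact p.Prime] (rbar : Γℚ →* M₂ k)

local notation "Ω" => PadicAlgCl p
local notation "Gq" => (PadicAlgCl p ≃ₐ[ℚ_[p]] PadicAlgCl p)

/-- `rbar|G_p` as a homomorphism on the concrete group `Gal(PadicAlgCl p/ℚ_[p])`
(definitionally `FlatBridge.rloc p rbar`). -/
noncomputable def rlocQ : Gq →* M₂ k := rbar.comp (localGaloisToGlobal p)

theorem rlocQ_apply (τ : Gq) : rlocQ p rbar τ = rbar (localGaloisToGlobal p τ) := rfl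

theorem rlocQ_eq_rloc (τ : Gq) : rlocQ p rbar τ = rloc p rbar τ := rfl

/-- **a finite Galois level for `rbar|G_p`** containing a given finite extension. -/
theorem exists_level (hrbar : GaloisFactorsThroughFiniteLevel rbar)
    (E₀ : IntermediateField ℚ_[p] Ω) [FiniteDimensional ℚ_[p] E₀] :
    ∃ E : IntermediateField ℚ_[p] Ω, FiniteDimensional ℚ_[p] E ∧ IsGalois ℚ_[p] E ∧ E₀ ≤ E ∧
      ∀ σ ∈ E.fixingSubgroup, rlocQ p rbar σ = 1 := by
  obtain ⟨L, hL, hker⟩ := hrbar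
  haveI := hL
  obtain ⟨E, hE1, hE2, hE3⟩ := exists_finite_normal_ge p (Bridge.localFieldOf p L ⊔ E₀)
  haveI := hE2
  refine ⟨E, hE1, ⟨⟩, le_sup_right.trans hE3, fun σ hσ => ?_⟩
  apply hker
  have h1 : σ ∈ (Bridge.localFieldOf p L).fixingSubgroup :=
    IntermediateField.fixingSubgroup_antitone (le_sup_left.trans hE3) hσ
  rw [← Bridge.comap_fixingSubgroup_eq_localFieldOf, Subgroup.mem_comap] at h1
  intro x hx
  exact (IntermediateField.mem_fixingSubgroup_iff L _).1 h1 x hx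

/-! ### The package -/

section Core

open Polynomial

variable [Finite k] [CharP k p]

variable (E : IntermediateField ℚ_[p] (PadicAlgCl p)) [FiniteDimensional ℚ_[p] E]
  [IsGalois ℚ_[p] E]

/-- inverses in a finite field are powers. -/
theorem inv_eq_pow_card_sub_two {a : k} (ha : a ≠ 0) : a⁻¹ = a ^ (Nat.card k - 2) := by
  haveI : Fintype k := Fintype.ofFinite k
  have h1 : a ^ (Nat.card k - 1) = 1 := by
    rw [Nat.card_eq_fintype_card]
    exact FiniteField.pow_card_sub_one_eq_one a ha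
  have h2 : 2 ≤ Nat.card k := by
    rw [Nat.card_eq_fintype_card]
    exact Fintype.one_lt_card
  have h3 : Nat.card k - 1 = (Nat.card k - 2) + 1 := by omega
  rw [h3, pow_succ] at h1
  exact (eq_inv_of_mul_eq_one_left h1).symm

/-- the package, for an arbitrary two dimensional representation of the concrete group
`Gal(PadicAlgCl p/ℚ_[p])`. -/
theorem hInd_core (hp2 : p ≠ 2) (r : Gq →* M₂ k)
    (hsplit : ∀ g : Gq, ∃ a b : k, (r g).charpoly = (X - C a) * (X - C b))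
    (hirr : ¬ HasStableLine r) (𝒜 : Subalgebra k (Gq → k))
    (hr𝒜 : ∀ i j, (fun g => r g i j) ∈ 𝒜)
    (hE : ∀ σ ∈ E.fixingSubgroup, r σ = 1)
    (hμE : ∀ z : Ω, z ^ (p ^ 2 - 1) = 1 → z ∈ E)
    (𝒜' : Subalgebra k (UnrLevels.lev p 2 → k))
    (hres : ∀ f ∈ 𝒜, (fun g : UnrLevels.lev p 2 => f (g : Gq)) ∈ 𝒜')
    (hinv : ∀ a ∈ Z1A 𝒜' (1 : UnrLevels.lev p 2 →* kˣ), ∀ (φ : Gq) (g : UnrLevels.lev p 2)
      (hg : φ * (g : Gq) * φ⁻¹ ∈ UnrLevels.lev p 2), a ⟨φ * (g : Gq) * φ⁻¹, hg⟩ = a g)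
    (hHμ : ∀ μ : UnrLevels.lev p 2 →* kˣ, chr μ ∈ 𝒜' →
      (∀ s : UnrLevels.lev p 2, (s : Gq) ∈ E.fixingSubgroup → μ s = 1) →
      (∃ t : UnrLevels.lev p 2, (t : Gq) ∈ inertiaE p E ∧ (μ t : k) ≠ 1 ∧
        (μ t : k) ≠ (r (t : Gq)).det) →
      Module.rank k (H1A 𝒜' μ) ≤ 1) :
    ∃ (B : M₂ k) (hB : B.det ≠ 0) (I : Subgroup Gq) (φ : Gq) (ψ ψ' : Gq → k) (x y : k),
      (∀ t ∈ I, r t * B = B * Matrix.diagonal ![ψ t, ψ' t]) ∧
      (r φ * B = B * !![0, x; y, 0]) ∧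
      (∀ g : Gq, ∃ n : ℕ, ∃ t ∈ I, r g = r φ ^ n * r t) ∧
      ∃ (Γ' : Subgroup Gq) (_ : Γ' = diagSubgroup (conjHomRep r B hB))
        (𝒜' : Subalgebra k (Γ' → k)),
        (∀ f ∈ 𝒜, (fun g : Γ' => f (g : Gq)) ∈ 𝒜') ∧
        (∀ a ∈ Z1A 𝒜' (1 : Γ' →* kˣ), ∀ (g : Γ') (hg : φ * (g : Gq) * φ⁻¹ ∈ Γ'),
          a ⟨φ * (g : Gq) * φ⁻¹, hg⟩ = a g) ∧
        (∀ μ : Γ' →* kˣ,
          (∀ g : Γ', (B⁻¹ * r (g : Gq) * B) 0 0 = chr μ g * (B⁻¹ * r (g : Gq) * B) 1 1) →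
          Module.rank k (H1A 𝒜' μ) ≤ 1) := by
  obtain ⟨φ, hφ, hgenx, hP1, B, ψ, x, y, hB, hx, hy, hI, hψ2, ⟨t₀, ht₀, hψ0⟩, hφB, hN⟩ :=
    padic_tame_structure p E r hE hsplit hirr
  have hΓ' : diagSubgroup (conjHomRep r B hB) = UnrLevels.lev p 2 :=
    diagSubgroup_eq_lev_two p E hμE r hB hφ hx hI hφB
  obtain ⟨hIle, -, -⟩ := diagSubgroup_facts r hB (inertiaE p E) φ hx hI hφB
  refine ⟨B, hB, inertiaE p E, φ, ψ, fun t => ψ t ^ p, x, y, hI, hφB, ?_, UnrLevels.lev p 2,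
    hΓ'.symm, 𝒜', hres, fun a ha g hg => hinv a ha φ g hg, ?_⟩
  · intro g
    obtain ⟨n, t, ht, rfl⟩ := hgenx g
    exact ⟨n, t, ht, by rw [map_mul, map_pow]⟩
  · intro μ hμ
    -- membership of `lev p 2` in the diagonal subgroup
    have hdiag : ∀ g : UnrLevels.lev p 2, (B⁻¹ * r (g : Gq) * B) 0 1 = 0 ∧
        (B⁻¹ * r (g : Gq) * B) 1 0 = 0 := by
      intro g
      have hg : (g : Gq) ∈ diagSubgroup (conjHomRep r B hB) := by
        rw [hΓ']
        exact g.2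
      exact hg
    have hne : ∀ g : UnrLevels.lev p 2, (B⁻¹ * r (g : Gq) * B) 1 1 ≠ 0 := fun g =>
      (diag_ne_zero (conjHomRep r B hB) (hdiag g).1 (hdiag g).2).2
    have ht₀' : t₀ ∈ UnrLevels.lev p 2 := by
      have := hIle ht₀
      rw [hΓ'] at this
      exact this
    have h2 : B⁻¹ * r t₀ * B = Matrix.diagonal ![ψ t₀, ψ t₀ ^ p] :=
      conjHomRep_R_of_mul_eq r hB (hI t₀ ht₀)
    have h1 : (B⁻¹ * r t₀ * B) 0 0 = (μ ⟨t₀, ht₀'⟩ : k) * (B⁻¹ * r t₀ * B) 1 1 :=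
      hμ ⟨t₀, ht₀'⟩
    have hp0 : ψ t₀ ^ p ≠ 0 := by
      have h3 : (B⁻¹ * r t₀ * B) 1 1 ≠ 0 := hne ⟨t₀, ht₀'⟩
      rw [h2] at h3
      simpa using h3
    rw [h2] at h1
    simp only [Matrix.diagonal_apply_eq, Matrix.cons_val_zero, Matrix.cons_val_one] at h1
    have hψne : ψ t₀ ≠ 0 := fun h0 => hp0 (by rw [h0, zero_pow (Fact.out : p.Prime).ne_zero])
    have hμt : (μ ⟨t₀, ht₀'⟩ : k) = ψ t₀ / ψ t₀ ^ p := by
      rw [eq_div_iff hp0]
      exact h1.symm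
    apply hHμ μ
    · -- admissibility of `μ`
      have hent : ∀ i j, (fun g : Gq => (B⁻¹ * r g * B) i j) ∈ 𝒜 :=
        entries_mem_conj 𝒜 (Ψ := fun g => r g) hr𝒜 B B⁻¹
      have h00 := hres _ (hent 0 0)
      have h11 := hres _ (hent 1 1)
      have hfun : chr μ = (fun g : UnrLevels.lev p 2 => (B⁻¹ * r (g : Gq) * B) 0 0) *
          (fun g : UnrLevels.lev p 2 => (B⁻¹ * r (g : Gq) * B) 1 1) ^ (Nat.card k - 2) := by
        funext g
        rw [Pi.mul_apply, Pi.pow_apply, ← inv_eq_pow_card_sub_two (hne g), hμ g, mul_assoc,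
          mul_inv_cancel₀ (hne g), mul_one]
      rw [hfun]
      exact 𝒜'.mul_mem h00 (𝒜'.pow_mem h11 _)
    · intro s hs
      have h3 := hμ s
      rw [hE _ hs, Matrix.mul_one, nonsing_inv_mul_of_det_ne_zero hB] at h3
      simp only [Matrix.one_apply_eq, mul_one] at h3
      exact Units.ext h3.symm
    · refine ⟨⟨t₀, ht₀'⟩, ht₀, ?_, ?_⟩
      · rw [hμt]
        intro h
        rw [div_eq_one_iff_eq hp0] at h
        exact hψ0 h.symm
      · rw [hμt]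
        have hdet : (r t₀).det = ψ t₀ * ψ t₀ ^ p := by
          have h4 := congrArg Matrix.det (hI t₀ ht₀)
          rw [Matrix.det_mul, Matrix.det_mul, Matrix.det_diagonal, Fin.prod_univ_two] at h4
          simp only [Matrix.cons_val_zero, Matrix.cons_val_one] at h4
          have h5 : (r t₀).det * B.det = (ψ t₀ * ψ t₀ ^ p) * B.det := by
            rw [h4, mul_comm]
          exact mul_right_cancel₀ hB h5
        show ψ t₀ / ψ t₀ ^ p ≠ (r t₀).det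
        rw [hdet]
        letI : Algebra (ZMod p) k := ZMod.algebra k p
        exact div_pow_ne_mul_pow hp2 hψne hψ0

end Core

/-! ### The literal shape -/

section Main

variable [Finite k] [CharP k p]

variable (E : IntermediateField ℚ_[p] (PadicAlgCl p)) [FiniteDimensional ℚ_[p] E]
  [IsGalois ℚ_[p] E]

/-- the subgroup `Gal(ℚ̄_p/ℚ_{p²})` of the Prelude's local Galois group at `p`. -/
noncomputable def lev2 : Subgroup (Gp p) := UnrLevels.lev p 2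

/-- **the hypothesis `hInd` of `FlatBridge.rank_flatSpan_le_four`**, in its literal shape, from
the tame structure theorem and three count statements over `Gal(ℚ̄_p/ℚ_{p²})`. -/
theorem hInd_of_inputs (hp2 : p ≠ 2) (hrbar : GaloisFactorsThroughFiniteLevel rbar)
    (hsplit : EigenvaluesInBase rbar) (𝒜 : Subalgebra k (Gp p → k))
    (hr𝒜 : (∃ c, IsFlatTan p rbar hrbar c) → ∀ i j, (fun g => rloc p rbar g i j) ∈ 𝒜)
    (hE : ∀ σ ∈ E.fixingSubgroup, rlocQ p rbar σ = 1)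
    (hμE : ∀ z : Ω, z ^ (p ^ 2 - 1) = 1 → z ∈ E)
    (𝒜' : Subalgebra k (lev2 p → k))
    (hres : ∀ f ∈ 𝒜, (fun g : lev2 p => f (g : Gp p)) ∈ 𝒜')
    (hinv : ∀ a ∈ Z1A 𝒜' (1 : lev2 p →* kˣ), ∀ (φ : Gp p) (g : lev2 p)
      (hg : φ * (g : Gp p) * φ⁻¹ ∈ lev2 p), a ⟨φ * (g : Gp p) * φ⁻¹, hg⟩ = a g)
    (hHμ : ∀ μ : lev2 p →* kˣ, chr μ ∈ 𝒜' →
      (∀ s : lev2 p, (s : Gp p) ∈ E.fixingSubgroup → μ s = 1) →
      (∃ t : lev2 p, (t : Gp p) ∈ inertiaE p E ∧ (μ t : k) ≠ 1 ∧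
        (μ t : k) ≠ (rloc p rbar (t : Gp p)).det) →
      Module.rank k (H1A 𝒜' μ) ≤ 1) :
    ¬ HasStableLine (rloc p rbar) → (∃ c, IsFlatTan p rbar hrbar c) →
      ∃ (B : M₂ k) (hB : B.det ≠ 0) (I : Subgroup (Gp p)) (φ : Gp p) (ψ ψ' : Gp p → k) (x y : k),
        (∀ t ∈ I, rloc p rbar t * B = B * Matrix.diagonal ![ψ t, ψ' t]) ∧
        (rloc p rbar φ * B = B * !![0, x; y, 0]) ∧
        (∀ g : Gp p, ∃ n : ℕ, ∃ t ∈ I, rloc p rbar g = rloc p rbar φ ^ n * rloc p rbar t) ∧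
        ∃ (Γ' : Subgroup (Gp p)) (_ : Γ' = diagSubgroup (conjHomRep (rloc p rbar) B hB))
          (𝒜' : Subalgebra k (Γ' → k)),
          (∀ f ∈ 𝒜, (fun g : Γ' => f (g : Gp p)) ∈ 𝒜') ∧
          (∀ a ∈ Z1A 𝒜' (1 : Γ' →* kˣ), ∀ (g : Γ') (hg : φ * (g : Gp p) * φ⁻¹ ∈ Γ'),
            a ⟨φ * (g : Gp p) * φ⁻¹, hg⟩ = a g) ∧
          (∀ μ : Γ' →* kˣ,
            (∀ g : Γ', (B⁻¹ * rloc p rbar (g : Gp p) * B) 0 0 =
              chr μ g * (B⁻¹ * rloc p rbar (g : Gp p) * B) 1 1) →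
            Module.rank k (H1A 𝒜' μ) ≤ 1) := by
  intro hirr hflat
  exact hInd_core p E hp2 (rlocQ p rbar) (fun g => hsplit _) hirr 𝒜 (hr𝒜 hflat) hE hμE 𝒜' hres
    hinv hHμ

end Main

end Fermat.Agent.S56x.Local.IndPackage
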