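import Fermat.Agent.S56x.Local.TameRepPadicFull
import Fermat.Agent.S56x.Local.IndPackage
import Fermat.Agent.S56x.Local.FlatCountInputs
import Fermat.Agent.S56x.Local.HinvUnram

/-!
# P-S56 block (A): `FlatCountInputs.IndStatement` from the count over `ℚ_{p²}`

`indStatement : CountQp2Statement p k → IndStatement p rbar`.

`CountQp2Statement p k` is the ONLY remaining input of the irreducible case: for the fixed group
`Γ' = UnrLevels.lev p 2 = Gal(ℚ̄_p/ℚ_{p²})`, the fixed algebra `𝒜' = BddAlg.bddAlgOn p Γ' k` of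
bounded functions, and an admissible character `μ : Γ' →* kˣ` which is either trivial or takes at
some element `t` of the FULL inertia subgroup of `Gal(ℚ̄_p/ℚ_p)` a value different from `1` and from
the mod `p` cyclotomic character: `rank_k H¹_bdd(Γ', k(μ)) ≤ 1`.  It mentions neither `rbar` nor a
change of basis nor a finite level.

Everything else is discharged here: the tame structure (`TameRepPadic*`), `Γ' = diagSubgroup`
(`diagSubgroup_eq_lev_two`), `hres` (`BddAlg.restrict_mem_bddAlgOn`), `hinv`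
(`HinvUnram.hinv_of_rank_le_one` from the case `μ = 1`), the side condition `μ ∉ {1, ω}` on inertia
(`FlatBridge.div_pow_ne_mul_pow` + `DetIsCycloModP`).
-/

set_option autoImplicit false
set_option linter.unusedSectionVars false
set_option linter.style.haveILetI false

open IsLocalRing

namespace Fermat.Agent.S56x.Local.IndFinal

open Fermat.Agent.S56x.Local.Devissage Fermat.Agent.S56x.Local.FlatIface
  Fermat.Agent.S56x.Local.FlatBridge Fermat.Agent.S56x.Local.TameRep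
  Fermat.Agent.S56x.Local.TameRepPadic Fermat.Agent.S56x.Local.PadicFinite
  Fermat.Agent.S56x.Local.IndPackage Fermat.Agent.S56x.Local.FlatCountInputs
  Fermat.Agent.S56x.Local.BddAlg Fermat.Agent.S56x.Local.BddDef
  Fermat.Agent.S56x.Dict Module Matrix ExtCitation Polynomial

local notation "Γℚ" => (AlgebraicClosure ℚ ≃ₐ[ℚ] AlgebraicClosure ℚ)
local notation "M₂" => Matrix (Fin 2) (Fin 2)

variable (p : ℕ) [Fact p.Prime]

local notation "Ω" => PadicAlgCl p
local notation "Gq" => (PadicAlgCl p ≃ₐ[ℚ_[p]] PadicAlgCl p)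

/-! ### The cyclotomic character -/

/-- the mod `p` cyclotomic character of `Gal(PadicAlgCl p/ℚ_[p])`, with values in `k`:
`t ζ = ζ ^ (cycloExp p (localGaloisToGlobal p t))` for `ζ ^ p = 1`
(`TameDataLocal.apply_rootOfUnity`). -/
noncomputable def omegaK (k : Type*) [Semiring k] (t : Gq) : k :=
  ((cycloExp p (localGaloisToGlobal p t) : ℕ) : k)

/-- the global Galois group acts on `μ_p` through `cycloExp`. -/
theorem apply_eq_pow_cycloExp (σ : Γℚ) {μ : AlgebraicClosure ℚ} (hμ : μ ^ p = 1) :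
    σ μ = μ ^ cycloExp p σ := by
  have hp : p.Prime := Fact.out
  haveI : NeZero p := ⟨hp.ne_zero⟩
  have hμ0 : μ ≠ 0 := by
    rintro rfl
    rw [zero_pow hp.ne_zero] at hμ
    exact zero_ne_one hμ
  have hmem : Units.mk0 μ hμ0 ∈ rootsOfUnity p (AlgebraicClosure ℚ) := by
    rw [mem_rootsOfUnity]
    exact Units.ext (by simpa using hμ)
  have hspec := modularCyclotomicCharacter.spec (AlgebraicClosure ℚ)
    (card_rootsOfUnity_eq_self p)
    ((σ : AlgebraicClosure ℚ ≃ₐ[ℚ] AlgebraicClosure ℚ) :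
      AlgebraicClosure ℚ ≃+* AlgebraicClosure ℚ) hmem
  simpa [cycloExp] using hspec

variable {k : Type} [Field k] (rbar : Γℚ →* M₂ k)

/-- `det rbar = ω` on `G_p`. -/
theorem det_rloc_eq_omegaK (hdet : DetIsCycloModP p rbar) (t : Gq) :
    (rlocQ p rbar t).det = omegaK p k t :=
  hdet _ _ (fun _ hμ => apply_eq_pow_cycloExp p _ hμ)

/-! ### The count statement over `ℚ_{p²}` -/

/-- **The count over `ℚ_{p²}`** (input of the irreducible case): the bounded `H¹` of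
`Gal(ℚ̄_p/ℚ_{p²})` with coefficients in an admissible character `μ`, which is trivial or different
from `1` and from the cyclotomic character at some element of the inertia subgroup, has `k`-rank
at most one. -/
def CountQp2Statement (k : Type) [Field k] : Prop :=
  ∀ [Finite k] [CharP k p], p ≠ 2 → ∀ μ : UnrLevels.lev p 2 →* kˣ,
    chr μ ∈ bddAlgOn p (UnrLevels.lev p 2) k →
    (μ = 1 ∨ ∃ t : UnrLevels.lev p 2, (t : Gq) ∈ LocalInertia.localInertia' p ∧
      (μ t : k) ≠ 1 ∧ (μ t : k) ≠ omegaK p k (t : Gq)) →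
    Module.rank k (H1A (bddAlgOn p (UnrLevels.lev p 2) k) μ) ≤ 1

/-! ### Squares lie in `Gal(ℚ̄_p/ℚ_{p²})` -/

theorem sq_mem_lev_two (g : Gq) : g ^ 2 ∈ UnrLevels.lev p 2 := by
  obtain ⟨j, hj⟩ := UnrLevels.exists_frob_pow (q := p) two_pos g
  haveI := UnrLevels.lev_normal (q := p) (m := 2) two_pos
  set h := (UnrLevels.frob p ^ j)⁻¹ * g with hh
  have hg : g = UnrLevels.frob p ^ j * h := by rw [hh]; group
  have h1 : g ^ 2 = UnrLevels.frob p ^ (2 * j) * ((UnrLevels.frob p ^ j)⁻¹ * h *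
      (UnrLevels.frob p ^ j)⁻¹⁻¹) * h := by
    rw [hg, two_mul, pow_add, pow_two]; group
  rw [h1]
  refine mul_mem (mul_mem ?_ ?_) hj
  · exact (UnrLevels.frob_pow_mem_lev_iff two_pos _).2 (Dvd.intro _ rfl)
  · exact (inferInstance : (UnrLevels.lev p 2).Normal).conj_mem h hj _

/-! ### The package with the full inertia subgroup -/

section Core

variable [Finite k] [CharP k p]

variable (E : IntermediateField ℚ_[p] (PadicAlgCl p)) [FiniteDimensional ℚ_[p] E]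
  [IsGalois ℚ_[p] E]

/-- the package of `IndPackage.hInd_core`, with the side condition of `hHμ` at an element of the
FULL inertia subgroup, and without reference to the level `E` in the count hypotheses. -/
theorem hInd_core_full (hp2 : p ≠ 2) (r : Gq →* M₂ k)
    (hsplit : ∀ g : Gq, ∃ a b : k, (r g).charpoly = (X - C a) * (X - C b))
    (hirr : ¬ HasStableLine r) (𝒜 : Subalgebra k (Gq → k))
    (hr𝒜 : ∀ i j, (fun g => r g i j) ∈ 𝒜)
    (hE : ∀ σ ∈ E.fixingSubgroup, r σ = 1)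
    (hμE : ∀ z : Ω, z ^ (p ^ 2 - 1) = 1 → z ∈ E)
    (𝒜' : Subalgebra k (UnrLevels.lev p 2 → k))
    (hres : ∀ f ∈ 𝒜, (fun g : UnrLevels.lev p 2 => f (g : Gq)) ∈ 𝒜')
    (hinv : ∀ a ∈ Z1A 𝒜' (1 : UnrLevels.lev p 2 →* kˣ), ∀ (φ : Gq) (g : UnrLevels.lev p 2)
      (hg : φ * (g : Gq) * φ⁻¹ ∈ UnrLevels.lev p 2), a ⟨φ * (g : Gq) * φ⁻¹, hg⟩ = a g)
    (hHμ : ∀ μ : UnrLevels.lev p 2 →* kˣ, chr μ ∈ 𝒜' →
      (∃ t : UnrLevels.lev p 2, (t : Gq) ∈ LocalInertia.localInertia' p ∧ (μ t : k) ≠ 1 ∧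
        (μ t : k) ≠ (r (t : Gq)).det) →
      Module.rank k (H1A 𝒜' μ) ≤ 1) :
    ∃ (B : M₂ k) (hB : B.det ≠ 0) (I : Subgroup Gq) (φ : Gq) (ψ ψ' : Gq → k) (x y : k),
      (∀ t ∈ I, r t * B = B * Matrix.diagonal ![ψ t, ψ' t]) ∧
      (r φ * B = B * !![0, x; y, 0]) ∧
      (∀ g : Gq, ∃ n : ℕ, ∃ t ∈ I, r g = r φ ^ n * r t) ∧
      ∃ (Γ' : Subgroup Gq) (_ : Γ' = diagSubgroup (conjHomRep r B hB))
        (𝒜' : Subalgebra k (Γ' → k)),
        (∀ f ∈ 𝒜, (fun g : Γ' => f (g : Gq)) ∈ 𝒜') ∧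
        (∀ a ∈ Z1A 𝒜' (1 : Γ' →* kˣ), ∀ (g : Γ') (hg : φ * (g : Gq) * φ⁻¹ ∈ Γ'),
          a ⟨φ * (g : Gq) * φ⁻¹, hg⟩ = a g) ∧
        (∀ μ : Γ' →* kˣ,
          (∀ g : Γ', (B⁻¹ * r (g : Gq) * B) 0 0 = chr μ g * (B⁻¹ * r (g : Gq) * B) 1 1) →
          Module.rank k (H1A 𝒜' μ) ≤ 1) := by
  obtain ⟨φ, hφ, hgenx, hP1, B, ψ, x, y, hB, hx, hy, hI, hψ2, ⟨t₀, ht₀f, hψ0⟩, hφB, hN⟩ :=
    padic_tame_structure_full p E r hE hsplit hirr
  have ht₀ : t₀ ∈ inertiaE p E := localInertia'_le_inertiaE p E ht₀f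
  have hΓ' : diagSubgroup (conjHomRep r B hB) = UnrLevels.lev p 2 :=
    diagSubgroup_eq_lev_two p E hμE r hB hφ hx hI hφB
  refine ⟨B, hB, inertiaE p E, φ, ψ, fun t => ψ t ^ p, x, y, hI, hφB, ?_, UnrLevels.lev p 2,
    hΓ'.symm, 𝒜', hres, fun a ha g hg => hinv a ha φ g hg, ?_⟩
  · intro g
    obtain ⟨n, t, ht, rfl⟩ := hgenx g
    exact ⟨n, t, ht, by rw [map_mul, map_pow]⟩
  · intro μ hμ
    have hdiag : ∀ g : UnrLevels.lev p 2, (B⁻¹ * r (g : Gq) * B) 0 1 = 0 ∧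
        (B⁻¹ * r (g : Gq) * B) 1 0 = 0 := by
      intro g
      have hg : (g : Gq) ∈ diagSubgroup (conjHomRep r B hB) := by
        rw [hΓ']
        exact g.2
      exact hg
    have hne : ∀ g : UnrLevels.lev p 2, (B⁻¹ * r (g : Gq) * B) 1 1 ≠ 0 := fun g =>
      (diag_ne_zero (conjHomRep r B hB) (hdiag g).1 (hdiag g).2).2
    have ht₀' : t₀ ∈ UnrLevels.lev p 2 := localInertia'_le_lev p two_pos ht₀f
    have h2 : B⁻¹ * r t₀ * B = Matrix.diagonal ![ψ t₀, ψ t₀ ^ p] :=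
      conjHomRep_R_of_mul_eq r hB (hI t₀ ht₀)
    have h1 : (B⁻¹ * r t₀ * B) 0 0 = (μ ⟨t₀, ht₀'⟩ : k) * (B⁻¹ * r t₀ * B) 1 1 :=
      hμ ⟨t₀, ht₀'⟩
    have hp0 : ψ t₀ ^ p ≠ 0 := by
      have h3 : (B⁻¹ * r t₀ * B) 1 1 ≠ 0 := hne ⟨t₀, ht₀'⟩
      rw [h2] at h3
      simpa using h3
    rw [h2] at h1
    simp only [Matrix.diagonal_apply_eq, Matrix.cons_val_zero, Matrix.cons_val_one] at h1
    have hψne : ψ t₀ ≠ 0 := fun h0 => hp0 (by rw [h0, zero_pow (Fact.out : p.Prime).ne_zero])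
    have hμt : (μ ⟨t₀, ht₀'⟩ : k) = ψ t₀ / ψ t₀ ^ p := by
      rw [eq_div_iff hp0]
      exact h1.symm
    apply hHμ μ
    · have hent : ∀ i j, (fun g : Gq => (B⁻¹ * r g * B) i j) ∈ 𝒜 :=
        entries_mem_conj 𝒜 (Ψ := fun g => r g) hr𝒜 B B⁻¹
      have h00 := hres _ (hent 0 0)
      have h11 := hres _ (hent 1 1)
      have hfun : chr μ = (fun g : UnrLevels.lev p 2 => (B⁻¹ * r (g : Gq) * B) 0 0) *
          (fun g : UnrLevels.lev p 2 => (B⁻¹ * r (g : Gq) * B) 1 1) ^ (Nat.card k - 2) := by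
        funext g
        rw [Pi.mul_apply, Pi.pow_apply, ← inv_eq_pow_card_sub_two (hne g), hμ g, mul_assoc,
          mul_inv_cancel₀ (hne g), mul_one]
      rw [hfun]
      exact 𝒜'.mul_mem h00 (𝒜'.pow_mem h11 _)
    · refine ⟨⟨t₀, ht₀'⟩, ht₀f, ?_, ?_⟩
      · rw [hμt]
        intro h
        rw [div_eq_one_iff_eq hp0] at h
        exact hψ0 h.symm
      · rw [hμt]
        have hdet : (r t₀).det = ψ t₀ * ψ t₀ ^ p := by
          have h4 := congrArg Matrix.det (hI t₀ ht₀)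
          rw [Matrix.det_mul, Matrix.det_mul, Matrix.det_diagonal, Fin.prod_univ_two] at h4
          simp only [Matrix.cons_val_zero, Matrix.cons_val_one] at h4
          have h5 : (r t₀).det * B.det = (ψ t₀ * ψ t₀ ^ p) * B.det := by
            rw [h4, mul_comm]
          exact mul_right_cancel₀ hB h5
        show ψ t₀ / ψ t₀ ^ p ≠ (r t₀).det
        rw [hdet]
        letI : Algebra (ZMod p) k := ZMod.algebra k p
        exact div_pow_ne_mul_pow hp2 hψne hψ0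

end Core

/-! ### The final theorem of the irreducible case -/

/-- **`IndStatement p rbar` from the count over `ℚ_{p²}`.** -/
theorem indStatement (hcount : CountQp2Statement p k) : IndStatement p rbar := by
  intro _ _ hp2 hrbar hdet hsplit hirr hflat
  letI : Algebra (ZMod p) k := ZMod.algebra k p
  haveI := UnrLevels.finiteDimensional_unrField (q := p) (m := 2) two_pos
  obtain ⟨E, hE1, hE2, hE3, hE⟩ := exists_level p rbar hrbar (UnrLevels.unrField p 2)
  haveI := hE1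
  haveI := hE2
  have hμE : ∀ z : Ω, z ^ (p ^ 2 - 1) = 1 → z ∈ E := fun z hz =>
    hE3 (IntermediateField.subset_adjoin _ _ hz)
  obtain ⟨c₀, hc₀⟩ := hflat
  have hr𝒜 : ∀ i j, (fun g : Gq => rlocQ p rbar g i j) ∈ (bddAlg p k : Subalgebra k (Gq → k)) :=
    (hThmA p rbar hp2 hrbar c₀ hc₀).1
  have h1 : Module.rank k (H1A (bddAlgOn p (UnrLevels.lev p 2) k)
      (1 : UnrLevels.lev p 2 →* kˣ)) ≤ 1 :=
    hcount hp2 1 (chr_one_mem _) (Or.inl rfl)
  exact hInd_core_full p E hp2 (rlocQ p rbar) (fun g => hsplit _) hirr (bddAlg p k) hr𝒜 hE hμE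
    (bddAlgOn p (UnrLevels.lev p 2) k)
    (fun f hf => restrict_mem_bddAlgOn (UnrLevels.lev p 2) hf)
    (HinvUnram.hinv_of_rank_le_one hp2 (UnrLevels.lev p 2) (sq_mem_lev_two p) h1)
    (fun μ hμ ht => hcount hp2 μ hμ (Or.inr (by
      obtain ⟨t, ht1, ht2, ht3⟩ := ht
      exact ⟨t, ht1, ht2, by rwa [det_rloc_eq_omegaK p rbar hdet] at ht3⟩)))

end Fermat.Agent.S56x.Local.IndFinal
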