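import Fermat.Agent.S56x.Local.FlatBridge

/-!
# P-S56 / block A : from the structure theorems of `TameRep` to `IsUT` / `IsInduced`

* `isUT_conjRep` : `r g * B = B * !![χ₁ g, b g; 0, χ₂ g]` gives `IsUT` for the conjugate
  representation `g ↦ B⁻¹ * r g * B`.
* `exists_isUT_zero` : an upper triangular representation whose extension class is a coboundary
  becomes diagonal after a further unipotent change of basis.
* `IsMono`, `diagSubgroup`, `ratioChar`, `isInduced_of_mono` : a representation by monomial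
  (diagonal or antidiagonal) matrices with at least one antidiagonal value is induced from the
  index-two subgroup of diagonal elements.
* `isInduced_of_tame` : the output of `TameRep.tame_structure_of_irreducible` gives `IsInduced`.
-/

set_option autoImplicit false
set_option linter.unusedSectionVars false

namespace Fermat.Agent.S56x.Local.FlatBridge

open Fermat.Agent.S56x.Local.Devissage Module Matrix

local notation "M₂" => Matrix (Fin 2) (Fin 2)

variable {G : Type} [Group G] {k : Type} [Field k]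

/-! ### Upper triangular case -/

theorem mul_nonsing_inv_of_det_ne_zero {B : M₂ k} (hB : B.det ≠ 0) : B * B⁻¹ = 1 :=
  Matrix.mul_nonsing_inv B (isUnit_iff_ne_zero.2 hB)

theorem nonsing_inv_mul_of_det_ne_zero {B : M₂ k} (hB : B.det ≠ 0) : B⁻¹ * B = 1 :=
  Matrix.nonsing_inv_mul B (isUnit_iff_ne_zero.2 hB)

/-- the conjugate of `r` by an invertible matrix `B`. -/
noncomputable def conjHomRep (r : G →* M₂ k) (B : M₂ k) (hB : B.det ≠ 0) : MatRep G k :=
  conjRep (ofHom r) B B⁻¹ (mul_nonsing_inv_of_det_ne_zero hB) (nonsing_inv_mul_of_det_ne_zero hB)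

theorem conjHomRep_R (r : G →* M₂ k) (B : M₂ k) (hB : B.det ≠ 0) (g : G) :
    (conjHomRep r B hB).R g = B⁻¹ * r g * B := rfl

theorem conjHomRep_R_of_mul_eq (r : G →* M₂ k) {B : M₂ k} (hB : B.det ≠ 0) {g : G} {N : M₂ k}
    (h : r g * B = B * N) : (conjHomRep r B hB).R g = N := by
  rw [conjHomRep_R, Matrix.mul_assoc, h, ← Matrix.mul_assoc, nonsing_inv_mul_of_det_ne_zero hB,
    Matrix.one_mul]

/-- **(T4) ⇒ `IsUT`.** -/
theorem isUT_conjRep (r : G →* M₂ k) {B : M₂ k} (hB : B.det ≠ 0) {χ₁ χ₂ : G →* kˣ} {b : G → k}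
    (h : ∀ g, r g * B = B * !![(χ₁ g : k), b g; 0, (χ₂ g : k)]) :
    IsUT (conjHomRep r B hB) χ₁ χ₂ b :=
  ⟨fun g => conjHomRep_R_of_mul_eq r hB (h g)⟩

/-- the unipotent matrix `[1 x; 0 1]`. -/
def uni (x : k) : M₂ k := !![1, x; 0, 1]

theorem uni_mul_uni_neg (x : k) : uni x * uni (-x) = 1 := by
  ext i j
  fin_cases i <;> fin_cases j <;> simp [uni, Matrix.mul_apply, Fin.sum_univ_two]

theorem uni_neg_mul_uni (x : k) : uni (-x) * uni x = 1 := by
  have := uni_mul_uni_neg (-x)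
  rwa [neg_neg] at this

/-- **Splitting.** If the extension class `b = β/χ₂` is a coboundary, a unipotent change of basis
makes the representation diagonal. -/
theorem exists_isUT_zero {ρ : MatRep G k} {χ₁ χ₂ : G →* kˣ} {β : G → k} (h : IsUT ρ χ₁ χ₂ β)
    (hb : bOf χ₂ β ∈ B1 (χ₁ / χ₂)) :
    ∃ x : k, IsUT (conjRep ρ (uni x) (uni (-x)) (uni_mul_uni_neg x) (uni_neg_mul_uni x))
      χ₁ χ₂ (0 : G → k) := by
  obtain ⟨m, hm⟩ := mem_B1.1 hb
  refine ⟨-m, ⟨fun g => ?_⟩⟩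
  have h1 := congrFun hm g
  have h2 := chr_mul_chr_inv χ₂ g
  have h3 : chr (χ₁ / χ₂) g = chr χ₁ g * chr χ₂⁻¹ g := chr_div χ₁ χ₂ g
  simp only [cob_apply, bOf] at h1
  have h1' : chr (χ₁ / χ₂) g * m - m = β g * chr χ₂⁻¹ g := h1
  rw [h3] at h1'
  have hβ : β g = chr χ₁ g * m - chr χ₂ g * m := by
    linear_combination (-(chr χ₂ g)) * h1' + (chr χ₁ g * m - β g) * h2
  rw [conjRep_R, h.R_eq g, neg_neg]
  ext i j
  fin_cases i <;> fin_cases j <;>
    simp [uni, Matrix.mul_apply, Fin.sum_univ_two, hβ]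
  ring

/-! ### Monomial representations -/

/-- a `2 × 2` matrix which is diagonal or antidiagonal. -/
def IsMono (M : M₂ k) : Prop := (M 0 1 = 0 ∧ M 1 0 = 0) ∨ (M 0 0 = 0 ∧ M 1 1 = 0)

theorem IsMono.mul {M N : M₂ k} (hM : IsMono M) (hN : IsMono N) : IsMono (M * N) := by
  rcases hM with ⟨h1, h2⟩ | ⟨h1, h2⟩ <;> rcases hN with ⟨h3, h4⟩ | ⟨h3, h4⟩
  · left; simp [Matrix.mul_apply, Fin.sum_univ_two, h1, h2, h3, h4]
  · right; simp [Matrix.mul_apply, Fin.sum_univ_two, h1, h2, h3, h4]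
  · right; simp [Matrix.mul_apply, Fin.sum_univ_two, h1, h2, h3, h4]
  · left; simp [Matrix.mul_apply, Fin.sum_univ_two, h1, h2, h3, h4]

theorem isMono_one : IsMono (1 : M₂ k) := Or.inl ⟨by simp, by simp⟩

theorem IsMono.pow {M : M₂ k} (hM : IsMono M) (n : ℕ) : IsMono (M ^ n) := by
  induction n with
  | zero => rw [pow_zero]; exact isMono_one
  | succ n ih => rw [pow_succ]; exact ih.mul hM

section Mono

variable (ρ : MatRep G k)

theorem diag_ne_zero {g : G} (h01 : ρ.R g 0 1 = 0) (h10 : ρ.R g 1 0 = 0) :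
    ρ.R g 0 0 ≠ 0 ∧ ρ.R g 1 1 ≠ 0 := by
  have h := ρ.inv_mul g
  have e00 := congrFun (congrFun h 0) 0
  have e11 := congrFun (congrFun h 1) 1
  simp only [Matrix.mul_apply, Fin.sum_univ_two, h01, h10, mul_zero, add_zero, zero_add,
    Matrix.one_apply_eq] at e00 e11
  constructor
  · intro h0; rw [h0, mul_zero] at e00; exact zero_ne_one e00
  · intro h0; rw [h0, mul_zero] at e11; exact zero_ne_one e11

theorem anti_ne_zero {g : G} (h00 : ρ.R g 0 0 = 0) (h11 : ρ.R g 1 1 = 0) :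
    ρ.R g 0 1 ≠ 0 ∧ ρ.R g 1 0 ≠ 0 := by
  have h := ρ.inv_mul g
  have e00 := congrFun (congrFun h 0) 0
  have e11 := congrFun (congrFun h 1) 1
  simp only [Matrix.mul_apply, Fin.sum_univ_two, h00, h11, mul_zero, add_zero, zero_add,
    Matrix.one_apply_eq] at e00 e11
  constructor
  · intro h0; rw [h0, mul_zero] at e11; exact zero_ne_one e11
  · intro h0; rw [h0, mul_zero] at e00; exact zero_ne_one e00

/-- the inverse of a diagonal value is diagonal. -/
theorem diag_inv {g : G} (h01 : ρ.R g 0 1 = 0) (h10 : ρ.R g 1 0 = 0) :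
    ρ.R g⁻¹ 0 1 = 0 ∧ ρ.R g⁻¹ 1 0 = 0 := by
  obtain ⟨ha, hd⟩ := diag_ne_zero ρ h01 h10
  have h : ρ.R g⁻¹ * ρ.R g = 1 := by rw [← ρ.map_mul, inv_mul_cancel, ρ.map_one]
  have e01 := congrFun (congrFun h 0) 1
  have e10 := congrFun (congrFun h 1) 0
  simp only [Matrix.mul_apply, Fin.sum_univ_two, h01, h10, mul_zero, add_zero, zero_add, ne_eq,
    zero_ne_one, one_ne_zero, not_false_eq_true, Matrix.one_apply_ne] at e01 e10
  exact ⟨(mul_eq_zero.1 e01).resolve_right hd, (mul_eq_zero.1 e10).resolve_right ha⟩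

/-- the inverse of an antidiagonal value is antidiagonal. -/
theorem anti_inv {g : G} (h00 : ρ.R g 0 0 = 0) (h11 : ρ.R g 1 1 = 0) :
    ρ.R g⁻¹ 0 0 = 0 ∧ ρ.R g⁻¹ 1 1 = 0 := by
  obtain ⟨hx, hy⟩ := anti_ne_zero ρ h00 h11
  have h : ρ.R g⁻¹ * ρ.R g = 1 := by rw [← ρ.map_mul, inv_mul_cancel, ρ.map_one]
  have e01 := congrFun (congrFun h 0) 1
  have e10 := congrFun (congrFun h 1) 0
  simp only [Matrix.mul_apply, Fin.sum_univ_two, h00, h11, mul_zero, add_zero, zero_add, ne_eq,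
    zero_ne_one, one_ne_zero, not_false_eq_true, Matrix.one_apply_ne] at e01 e10
  exact ⟨(mul_eq_zero.1 e01).resolve_right hx, (mul_eq_zero.1 e10).resolve_right hy⟩

/-- the subgroup of elements with diagonal image. -/
def diagSubgroup : Subgroup G where
  carrier := {g | ρ.R g 0 1 = 0 ∧ ρ.R g 1 0 = 0}
  one_mem' := by simp [ρ.map_one]
  mul_mem' := by
    rintro g h ⟨h1, h2⟩ ⟨h3, h4⟩
    show (ρ.R (g * h) 0 1 = 0 ∧ ρ.R (g * h) 1 0 = 0)
    rw [ρ.map_mul]
    constructor <;> simp [Matrix.mul_apply, Fin.sum_univ_two, h1, h2, h3, h4]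
  inv_mem' := by
    rintro g ⟨h1, h2⟩
    exact diag_inv ρ h1 h2

theorem mem_diagSubgroup {g : G} : g ∈ diagSubgroup ρ ↔ ρ.R g 0 1 = 0 ∧ ρ.R g 1 0 = 0 := Iff.rfl

/-- the ratio of the two diagonal characters on the diagonal subgroup. -/
noncomputable def ratioChar : diagSubgroup ρ →* kˣ where
  toFun g := Units.mk0 (ρ.R (g : G) 0 0 / ρ.R (g : G) 1 1)
    (div_ne_zero (diag_ne_zero ρ g.2.1 g.2.2).1 (diag_ne_zero ρ g.2.1 g.2.2).2)
  map_one' := by
    apply Units.ext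
    simp [ρ.map_one]
  map_mul' g h := by
    apply Units.ext
    have hg := g.2
    have hh := h.2
    rw [mem_diagSubgroup] at hg hh
    simp only [Subgroup.coe_mul, Units.val_mk0, Units.val_mul, ρ.map_mul, Matrix.mul_apply,
      Fin.sum_univ_two, hg.1, hg.2, hh.1, hh.2, mul_zero, add_zero, zero_add]
    rw [mul_div_mul_comm]

theorem chr_ratioChar (g : diagSubgroup ρ) :
    chr (ratioChar ρ) g = ρ.R (g : G) 0 0 / ρ.R (g : G) 1 1 := rfl

/-- **Monomial ⇒ induced.** -/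
theorem isInduced_of_mono (hmono : ∀ g, IsMono (ρ.R g)) {s : G}
    (hs : ρ.R s 0 0 = 0 ∧ ρ.R s 1 1 = 0) :
    IsInduced ρ (diagSubgroup ρ) s (ratioChar ρ) where
  diag g hg := hg
  ratio g := by
    rw [chr_ratioChar, div_mul_cancel₀ _ (diag_ne_zero ρ g.2.1 g.2.2).2]
  anti := hs
  coset g := by
    rcases hmono g with hd | ha
    · exact Or.inl hd
    · right
      obtain ⟨hs0, hs1⟩ := anti_inv ρ hs.1 hs.2
      rw [mem_diagSubgroup, ρ.map_mul]
      constructor <;> simp [Matrix.mul_apply, Fin.sum_univ_two, hs0, hs1, ha.1, ha.2]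
  conj g hg := by
    obtain ⟨hs0, hs1⟩ := anti_inv ρ hs.1 hs.2
    rw [mem_diagSubgroup] at hg ⊢
    rw [ρ.map_mul, ρ.map_mul]
    constructor <;> simp [Matrix.mul_apply, Fin.sum_univ_two, hs0, hs1, hs.1, hs.2, hg.1, hg.2]
  conj' g hg := by
    obtain ⟨hs0, hs1⟩ := anti_inv ρ hs.1 hs.2
    rw [mem_diagSubgroup] at hg ⊢
    rw [ρ.map_mul, ρ.map_mul]
    constructor <;> simp [Matrix.mul_apply, Fin.sum_univ_two, hs0, hs1, hs.1, hs.2, hg.1, hg.2]
  sq := by
    rw [mem_diagSubgroup, ρ.map_mul]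
    constructor <;> simp [Matrix.mul_apply, Fin.sum_univ_two, hs.1, hs.2]

end Mono

/-- **(T5) ⇒ `IsInduced`.** The output of `TameRep.tame_structure_of_irreducible`. -/
theorem isInduced_of_tame (r : G →* M₂ k) {B : M₂ k} (hB : B.det ≠ 0) (I : Subgroup G) (φ : G)
    {ψ ψ' : G → k} {x y : k}
    (hI : ∀ t ∈ I, r t * B = B * Matrix.diagonal ![ψ t, ψ' t])
    (hφ : r φ * B = B * !![0, x; y, 0])
    (hgen : ∀ g : G, ∃ n : ℕ, ∃ t ∈ I, r g = r φ ^ n * r t) :
    IsInduced (conjHomRep r B hB) (diagSubgroup (conjHomRep r B hB)) φ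
      (ratioChar (conjHomRep r B hB)) := by
  have hφR : (conjHomRep r B hB).R φ = !![0, x; y, 0] := conjHomRep_R_of_mul_eq r hB hφ
  have hIR : ∀ t ∈ I, (conjHomRep r B hB).R t = Matrix.diagonal ![ψ t, ψ' t] :=
    fun t ht => conjHomRep_R_of_mul_eq r hB (hI t ht)
  have hpow : ∀ n : ℕ, B⁻¹ * r φ ^ n * B = (B⁻¹ * r φ * B) ^ n := by
    intro n
    induction n with
    | zero => simp [nonsing_inv_mul_of_det_ne_zero hB]
    | succ n ih =>
      rw [pow_succ, pow_succ, ← ih]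
      calc B⁻¹ * (r φ ^ n * r φ) * B = B⁻¹ * r φ ^ n * 1 * r φ * B := by
            simp only [Matrix.mul_assoc, Matrix.one_mul]
        _ = B⁻¹ * r φ ^ n * B * (B⁻¹ * r φ * B) := by
            rw [← mul_nonsing_inv_of_det_ne_zero hB]; simp only [Matrix.mul_assoc]
  refine isInduced_of_mono _ (fun g => ?_) ?_
  · obtain ⟨n, t, ht, hg⟩ := hgen g
    have e : (conjHomRep r B hB).R g =
        ((conjHomRep r B hB).R φ) ^ n * (conjHomRep r B hB).R t := by
      simp only [conjHomRep_R]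
      rw [hg, ← hpow]
      calc B⁻¹ * (r φ ^ n * r t) * B = B⁻¹ * r φ ^ n * 1 * r t * B := by
            simp only [Matrix.mul_assoc, Matrix.one_mul]
        _ = B⁻¹ * r φ ^ n * B * (B⁻¹ * r t * B) := by
            rw [← mul_nonsing_inv_of_det_ne_zero hB]; simp only [Matrix.mul_assoc]
    rw [e, hφR, hIR t ht]
    refine IsMono.mul (IsMono.pow (Or.inr ⟨by simp, by simp⟩) n) (Or.inl ⟨by simp, by simp⟩)
  · rw [hφR]
    exact ⟨by simp, by simp⟩

end Fermat.Agent.S56x.Local.FlatBridge
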