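import Fermat.Agent.S56x.Local.TameRepPadic
import Fermat.Agent.S56x.Local.LocalInertia
import Fermat.Agent.S56x.Local.UnrLevels
import Fermat.Agent.S56x.Local.FlatCases

/-!
# P-S56 block (A): the index two subgroup of the irreducible case is `Gal(ℚ̄_p/ℚ_{p²})`

Complements `TameRepPadic`:

* `localInertia'_le_inertiaE` : the full inertia subgroup of `Gal(ℚ̄_p/ℚ_p)` (helper3's
  `LocalInertia.localInertia'`) is contained in the inertia subgroup relative to any finite Galois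
  `E` (`TameRepPadic.inertiaE`);
* `pow_mul_mem_iff_even` : pure group theory of an index two subgroup;
* `frob_pow_mul_apply_root` : `φ ^ n * t` acts on the roots of unity of order prime to `p` in `E` as
  `z ↦ z ^ (p ^ n)` (`φ` a Frobenius lift, `t` in the inertia subgroup relative to `E`);
* `eq_lev_two` : a subgroup `H` of `Gal(ℚ̄_p/ℚ_p)` containing `inertiaE p E`, with `φ ∉ H`,
  `φ² ∈ H`, is the fixing subgroup `UnrLevels.lev p 2` of `ℚ_p(μ_{p²-1})` (when `μ_{p²-1} ⊆ E`);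
* `diagSubgroup_eq_lev_two` : this applies to the subgroup of diagonal elements in the basis given
  by `TameRepPadic.padic_tame_structure` (the subgroup `Γ'` of `Devissage.IsInduced`).
-/

set_option autoImplicit false
set_option linter.style.haveILetI false
set_option linter.unusedSectionVars false

open IsLocalRing

namespace Fermat.Agent.S56x.Local.TameRepPadic

open Fermat.Agent.S56x.Local.TameDataAbs Fermat.Agent.S56x.Local.PadicFinite
  Fermat.Agent.S56x.Local.TameDataInst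

/-! ### Index two subgroups -/

theorem pow_mul_mem_iff_even {G : Type*} [Group G] (H : Subgroup G) {φ t : G} (hφ : φ ∉ H)
    (hφ2 : φ ^ 2 ∈ H) (ht : t ∈ H) (n : ℕ) : φ ^ n * t ∈ H ↔ Even n := by
  rw [H.mul_mem_cancel_right ht]
  rcases Nat.even_or_odd' n with ⟨m, rfl | rfl⟩
  · rw [pow_mul]
    exact ⟨fun _ => even_two_mul m, fun _ => H.pow_mem hφ2 m⟩
  · rw [pow_succ, pow_mul, H.mul_mem_cancel_left (H.pow_mem hφ2 m)]
    constructor
    · intro h
      exact absurd h hφ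
    · intro h
      exact absurd h (Nat.not_even_two_mul_add_one m)

section Padic

variable (p : ℕ) [Fact p.Prime]

local notation "Ω" => PadicAlgCl p
local notation "Gp" => (PadicAlgCl p ≃ₐ[ℚ_[p]] PadicAlgCl p)

variable (E : IntermediateField ℚ_[p] (PadicAlgCl p)) [FiniteDimensional ℚ_[p] E]
  [IsGalois ℚ_[p] E]

/-- criterion for membership in the inertia subgroup relative to `E`, in terms of the norm. -/
theorem mem_inertiaE_of_norm {σ : Gp}
    (h : ∀ x : E, ‖x‖ ≤ 1 → ‖σ (x : Ω) - (x : Ω)‖ < 1) : σ ∈ inertiaE p E := by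
  rw [mem_inertiaE_iff]
  intro b
  rw [mem_maximalIdeal, mem_nonunits_iff, isUnit_iff_norm_eq_one]
  intro h1
  have h2 : ((((AlgEquiv.restrictNormalHom E σ • b - b : OE p E)) : E) : Ω) =
      σ ((b : E) : Ω) - ((b : E) : Ω) := by
    push_cast
    rw [coe_smul_OE]
    congr 1
    exact AlgEquiv.restrictNormal_commutes σ E (b : E)
  have h3 := h (b : E) (norm_le_one b)
  rw [← h2] at h3
  exact absurd h1 h3.ne

/-- the full inertia subgroup of `Gal(ℚ̄_p/ℚ_p)` lies in the inertia subgroup relative to `E`. -/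
theorem localInertia'_le_inertiaE : LocalInertia.localInertia' p ≤ inertiaE p E := by
  intro σ hσ
  rw [LocalInertia.mem_localInertia_iff_forall_norm] at hσ
  exact mem_inertiaE_of_norm p E (fun x hx => hσ (x : Ω) hx)

/-! ### The action on roots of unity of order prime to `p` -/

variable {p E}

/-- powers of a Frobenius element act as `x ↦ x ^ (p ^ n)` on the residue field. -/
theorem frob_pow_smul_sub_mem {φ' : E ≃ₐ[ℚ_[p]] E}
    (hφ : ∀ b : OE p E, φ' • b - b ^ p ∈ maximalIdeal (OE p E)) (n : ℕ) (b : OE p E) :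
    (φ' ^ n) • b - b ^ (p ^ n) ∈ maximalIdeal (OE p E) := by
  induction n with
  | zero => simp
  | succ n ih =>
    have h1 : (φ' ^ (n + 1)) • b - b ^ (p ^ (n + 1)) =
        φ' • ((φ' ^ n) • b - b ^ (p ^ n)) + (φ' • (b ^ (p ^ n)) - (b ^ (p ^ n)) ^ p) := by
      rw [pow_succ', mul_smul, smul_sub, pow_succ, pow_mul]
      ring
    rw [h1]
    exact Ideal.add_mem _ (smul_mem_maximalIdeal φ' ih) (hφ _)

/-- `φ ^ n * t` acts as `x ↦ x ^ (p ^ n)` on the residue field of `E`. -/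
theorem frob_pow_mul_smul_sub_mem {φ' t' : E ≃ₐ[ℚ_[p]] E}
    (hφ : ∀ b : OE p E, φ' • b - b ^ p ∈ maximalIdeal (OE p E))
    (ht : t' ∈ inertiaGp (E ≃ₐ[ℚ_[p]] E) (OE p E)) (n : ℕ) (b : OE p E) :
    (φ' ^ n * t') • b - b ^ (p ^ n) ∈ maximalIdeal (OE p E) := by
  have h1 : (φ' ^ n * t') • b - b ^ (p ^ n) =
      (φ' ^ n) • (t' • b - b) + ((φ' ^ n) • b - b ^ (p ^ n)) := by
    rw [mul_smul, smul_sub]
    ring
  rw [h1]
  exact Ideal.add_mem _ (smul_mem_maximalIdeal _ (mem_inertiaGp.1 ht b))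
    (frob_pow_smul_sub_mem hφ n b)

/-- a natural number prime to `p` is a unit of `𝒪_E`. -/
theorem natCast_not_mem_maximalIdeal {N : ℕ} (hN : N.Coprime p) :
    ((N : ℕ) : OE p E) ∉ maximalIdeal (OE p E) := by
  intro h
  have hp : ((p : ℕ) : OE p E) ∈ maximalIdeal (OE p E) := natCast_p_mem_maximalIdeal
  have h1 : ((Nat.gcd N p : ℕ) : OE p E) ∈ maximalIdeal (OE p E) := by
    have hb := Nat.gcd_eq_gcd_ab N p
    have h2 : ((Nat.gcd N p : ℕ) : OE p E) =
        ((N : ℕ) : OE p E) * ((Nat.gcdA N p : ℤ) : OE p E) +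
          ((p : ℕ) : OE p E) * ((Nat.gcdB N p : ℤ) : OE p E) := by
      have := congrArg (fun z : ℤ => (z : OE p E)) hb
      push_cast at this
      exact this
    rw [h2]
    exact Ideal.add_mem _ (Ideal.mul_mem_right _ _ h) (Ideal.mul_mem_right _ _ hp)
  rw [hN, Nat.cast_one] at h1
  exact (Ideal.ne_top_iff_one _).1 (maximalIdeal.isMaximal (OE p E)).ne_top h1

/-- **`φ ^ n * t` raises the roots of unity of order prime to `p` in `E` to the power `p ^ n`.** -/
theorem frob_pow_mul_apply_root {φ t : Gp}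
    (hφ : ∀ b : OE p E, AlgEquiv.restrictNormalHom E φ • b - b ^ p ∈ maximalIdeal (OE p E))
    (ht : t ∈ inertiaE p E) (n : ℕ) {N : ℕ} (hN : N.Coprime p) {z : Ω} (hz : z ^ N = 1)
    (hzE : z ∈ E) : (φ ^ n * t) z = z ^ (p ^ n) := by
  have hN0 : N ≠ 0 := by
    rintro rfl
    rw [Nat.coprime_zero_left] at hN
    exact (Fact.out : p.Prime).one_lt.ne' hN
  -- `z` as an element of `𝒪_E`
  have hzn : ‖(⟨z, hzE⟩ : E)‖ ≤ 1 := by
    have h1 : ‖z‖ ^ N = 1 := by rw [← norm_pow, hz, norm_one]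
    have h2 : ‖z‖ = 1 := (pow_eq_one_iff_of_nonneg (norm_nonneg z) hN0).1 h1
    exact h2.le
  set b : OE p E := ⟨⟨z, hzE⟩, mem_OE.2 hzn⟩ with hb
  have hbN : b ^ N = 1 := by
    apply Subtype.ext
    apply Subtype.ext
    push_cast
    exact hz
  set g' : E ≃ₐ[ℚ_[p]] E := AlgEquiv.restrictNormalHom E φ ^ n * AlgEquiv.restrictNormalHom E t
    with hg'
  have hmem : g' • b - b ^ (p ^ n) ∈ maximalIdeal (OE p E) :=
    frob_pow_mul_smul_sub_mem hφ ht n b
  have h1 : (g' • b) ^ N = 1 := by rw [← smul_pow', hbN, smul_one]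
  have h2 : (b ^ (p ^ n)) ^ N = 1 := by rw [← pow_mul, mul_comm, pow_mul, hbN, one_pow]
  have heq : g' • b = b ^ (p ^ n) :=
    eq_of_pow_eq_one_of_sub_mem (natCast_not_mem_maximalIdeal hN) h1 h2 hmem
  have h3 := congrArg (fun x : OE p E => (((x : OE p E) : E) : Ω)) heq
  simp only [coe_smul_OE] at h3
  have h4 : ((g' ((b : OE p E) : E) : E) : Ω) = (φ ^ n * t) z := by
    have : g' = AlgEquiv.restrictNormalHom E (φ ^ n * t) := by rw [hg', map_mul, map_pow]
    rw [this]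
    exact AlgEquiv.restrictNormal_commutes (φ ^ n * t) E (b : E)
  rw [h4] at h3
  rw [h3]
  push_cast
  rfl

/-! ### The subgroup of index two -/

theorem pow_sq_pow_eq {z : Ω} (hz : z ^ (p ^ 2 - 1) = 1) (m : ℕ) : z ^ (p ^ (2 * m)) = z := by
  have hp1 : 1 ≤ p ^ 2 := Nat.one_le_pow _ _ (Fact.out : p.Prime).pos
  have h1 : z ^ (p ^ 2) = z := by
    have : p ^ 2 = (p ^ 2 - 1) + 1 := (Nat.sub_add_cancel hp1).symm
    rw [this, pow_succ, hz, one_mul]
  induction m with
  | zero => simp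
  | succ m ih =>
    have : p ^ (2 * (m + 1)) = p ^ (2 * m) * p ^ 2 := by rw [← pow_add]; ring_nf
    rw [this, pow_mul, ih, h1]

variable (p E)

/-- **the index two subgroup is `Gal(ℚ̄_p/ℚ_{p²})`.** -/
theorem eq_lev_two (hμ : ∀ z : Ω, z ^ (p ^ 2 - 1) = 1 → z ∈ E) (H : Subgroup Gp) {φ : Gp}
    (hφ : ∀ b : OE p E, AlgEquiv.restrictNormalHom E φ • b - b ^ p ∈ maximalIdeal (OE p E))
    (hI : inertiaE p E ≤ H) (hφH : φ ∉ H) (hφ2 : φ ^ 2 ∈ H) : H = UnrLevels.lev p 2 := by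
  have hp : p.Prime := Fact.out
  have hp1 : 1 ≤ p ^ 2 := Nat.one_le_pow _ _ hp.pos
  have hcop : (p ^ 2 - 1).Coprime p := by
    rw [Nat.coprime_comm, Nat.Prime.coprime_iff_not_dvd hp]
    intro hdvd
    have h2 : p ∣ p ^ 2 := dvd_pow_self p two_ne_zero
    have h3 : p ∣ (p ^ 2 - 1) + 1 := by rwa [Nat.sub_add_cancel hp1]
    exact hp.one_lt.ne' (Nat.dvd_one.1 ((Nat.dvd_add_right hdvd).1 h3))
  ext g
  obtain ⟨n, t, ht, rfl⟩ := exists_frob_pow_mul_inertiaE p E hφ g
  rw [pow_mul_mem_iff_even H hφH hφ2 (hI ht), UnrLevels.mem_lev_iff]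
  constructor
  · rintro ⟨m, rfl⟩ z hz
    rw [frob_pow_mul_apply_root hφ ht _ hcop hz (hμ z hz), ← two_mul, pow_sq_pow_eq hz]
  · intro h
    by_contra hodd
    rw [Nat.not_even_iff_odd] at hodd
    obtain ⟨m, rfl⟩ := hodd
    obtain ⟨z, hz⟩ := UnrLevels.exists_primitiveRoot (q := p) (m := 2) two_pos
    have h1 := h z hz.pow_eq_one
    rw [frob_pow_mul_apply_root hφ ht _ hcop hz.pow_eq_one (hμ z hz.pow_eq_one), pow_succ,
      pow_mul, pow_sq_pow_eq hz.pow_eq_one] at h1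
    -- `z ^ p = z` forces `z ^ (p - 1) = 1`
    have hlt := hp.one_lt
    have h5 : p < p ^ 2 := by nlinarith
    generalize p ^ 2 = P at hz h5
    have hz0 : z ≠ 0 := hz.ne_zero (by omega)
    have h2 : z ^ (p - 1) = 1 := by
      have : z ^ (p - 1) * z = 1 * z := by
        rw [← pow_succ, Nat.sub_add_cancel hp.pos, h1, one_mul]
      exact mul_right_cancel₀ hz0 this
    have h3 := (hz.pow_eq_one_iff_dvd _).1 h2
    have h4 : P - 1 ≤ p - 1 := Nat.le_of_dvd (by omega) h3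
    omega

end Padic

/-! ### The subgroup of diagonal elements -/

section Diag

open Fermat.Agent.S56x.Local.FlatBridge Fermat.Agent.S56x.Local.Devissage

local notation "M₂" => Matrix (Fin 2) (Fin 2)

variable {G : Type} [Group G] {k : Type} [Field k]

/-- in the basis of (T5) the inertia subgroup is diagonal, `φ` is not, `φ²` is. -/
theorem diagSubgroup_facts (r : G →* M₂ k) {B : M₂ k} (hB : B.det ≠ 0) (I : Subgroup G) (φ : G)
    {ψ ψ' : G → k} {x y : k} (hx : x ≠ 0)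
    (hI : ∀ t ∈ I, r t * B = B * Matrix.diagonal ![ψ t, ψ' t])
    (hφ : r φ * B = B * !![0, x; y, 0]) :
    I ≤ diagSubgroup (conjHomRep r B hB) ∧ φ ∉ diagSubgroup (conjHomRep r B hB) ∧
      φ ^ 2 ∈ diagSubgroup (conjHomRep r B hB) := by
  have hφR : (conjHomRep r B hB).R φ = !![0, x; y, 0] := conjHomRep_R_of_mul_eq r hB hφ
  refine ⟨?_, ?_, ?_⟩
  · intro t ht
    rw [mem_diagSubgroup, conjHomRep_R_of_mul_eq r hB (hI t ht)]
    constructor <;> simp
  · rw [mem_diagSubgroup, hφR]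
    intro h
    apply hx
    simpa using h.1
  · rw [mem_diagSubgroup, pow_two, (conjHomRep r B hB).map_mul, hφR]
    constructor <;> simp [Matrix.mul_apply, Fin.sum_univ_two]

end Diag

section Final

open Fermat.Agent.S56x.Local.FlatBridge Fermat.Agent.S56x.Local.Devissage

local notation "M₂" => Matrix (Fin 2) (Fin 2)

variable (p : ℕ) [Fact p.Prime]

local notation "Ω" => PadicAlgCl p
local notation "Gp" => (PadicAlgCl p ≃ₐ[ℚ_[p]] PadicAlgCl p)

variable (E : IntermediateField ℚ_[p] (PadicAlgCl p)) [FiniteDimensional ℚ_[p] E]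
  [IsGalois ℚ_[p] E] {k : Type} [Field k]

/-- **the subgroup `Γ'` of the induced case is `Gal(ℚ̄_p/ℚ_{p²})`.** -/
theorem diagSubgroup_eq_lev_two (hμ : ∀ z : Ω, z ^ (p ^ 2 - 1) = 1 → z ∈ E)
    (r : Gp →* M₂ k) {B : M₂ k} (hB : B.det ≠ 0) {φ : Gp}
    (hφ : ∀ b : OE p E, AlgEquiv.restrictNormalHom E φ • b - b ^ p ∈ maximalIdeal (OE p E))
    {ψ ψ' : Gp → k} {x y : k} (hx : x ≠ 0)
    (hI : ∀ t ∈ inertiaE p E, r t * B = B * Matrix.diagonal ![ψ t, ψ' t])
    (hφB : r φ * B = B * !![0, x; y, 0]) :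
    diagSubgroup (conjHomRep r B hB) = UnrLevels.lev p 2 := by
  obtain ⟨h1, h2, h3⟩ := diagSubgroup_facts r hB (inertiaE p E) φ hx hI hφB
  exact eq_lev_two p E hμ _ hφ h1 h2 h3

end Final

end Fermat.Agent.S56x.Local.TameRepPadic
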