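/-
P-S56, block (A) LOCAL FLAT, `p = 3` block: the DICHOTOMY of inertia characters (owner: helper94).

`G = Gal(ℚ̄_p/ℚ_p)`, `I` its inertia subgroup (helper3's `LocalInertia.localInertia'`), `k` a finite
field of characteristic `p`.  For characters `χ₁ χ₂ : G →* kˣ` of finite level:

* `exists_generator_hom`  : the tame quotient is CYCLIC: there is `τ` in the inertia subgroup
  relative to `E` with `χ t ∈ ⟨χ τ⟩` for all inertial `t` (`χ` any homomorphism to a commutative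
  group without `p`-torsion, trivial on `Gal(ℚ̄_p/E)`);
* `pow_pred_eq_one`       : `χ t ^ (p - 1) = 1` for inertial `t` (Frobenius conjugation);
* `dichotomy_three`       : for `p = 3`: if `χ₁ χ₂ ≠ 1` on `I` then `χ₂|I = 1` or `χ₁|I = 1`.
  (Not automatic: it uses that the tame quotient is cyclic; with `I/P = (ℤ/2)²` there would be three
  distinct quadratic characters.)
-/
import Mathlib
import Fermat.Agent.S56x.Local.TameRepPadicInertia
import Fermat.Agent.S56x.Local.BddDef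
import Fermat.Agent.S56x.Local.DevissageBasic

set_option autoImplicit false
set_option linter.style.haveILetI false
set_option linter.unusedSectionVars false
set_option linter.unusedVariables false

open IsLocalRing

namespace Fermat.Agent.S56x.Local.InertiaDichotomy

open Fermat.Agent.S56x.Local.TameDataAbs Fermat.Agent.S56x.Local.PadicFinite
  Fermat.Agent.S56x.Local.TameDataInst Fermat.Agent.S56x.Local.TameRepPadic
  Fermat.Agent.S56x.Local.Devissage

variable (p : ℕ) [Fact p.Prime]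

local notation "Gp" => (PadicAlgCl p ≃ₐ[ℚ_[p]] PadicAlgCl p)

section Level

variable (E : IntermediateField ℚ_[p] (PadicAlgCl p)) [FiniteDimensional ℚ_[p] E]
  [IsGalois ℚ_[p] E]

variable {H : Type*} [CommGroup H] (hH : ∀ (x : H) (n : ℕ), x ^ (p ^ n) = 1 → x = 1)
  (χ : (PadicAlgCl p ≃ₐ[ℚ_[p]] PadicAlgCl p) →* H) (hE : ∀ σ ∈ E.fixingSubgroup, χ σ = 1)

include hH hE

/-- a homomorphism of finite level to a group without `p`-torsion kills the wild inertia. -/
theorem map_eq_one_of_mem_wildE {u : Gp} (hu : u ∈ wildE p E) : χ u = 1 := by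
  have hp : p.Prime := Fact.out
  obtain ⟨m, hm⟩ := (isPGroup_wildGp (G := E ≃ₐ[ℚ_[p]] E) (B := OE p E) hp
    natCast_p_mem_maximalIdeal) ⟨AlgEquiv.restrictNormalHom E u, hu⟩
  have h1 : AlgEquiv.restrictNormalHom E (u ^ p ^ m) = 1 := by
    rw [map_pow]
    exact congrArg Subtype.val hm
  have h2 : χ (u ^ p ^ m) = 1 := by
    apply hE
    rw [← IntermediateField.restrictNormalHom_ker]
    exact h1
  rw [map_pow] at h2
  exact hH _ _ h2

/-- **The tame quotient is cyclic.** -/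
theorem exists_generator_hom :
    ∃ τ ∈ inertiaE p E, ∀ t ∈ inertiaE p E, ∃ n : ℕ, χ t = χ τ ^ n := by
  have hp : p.Prime := Fact.out
  obtain ⟨τ₀, hτ₀, hgen⟩ := exists_generator (G := E ≃ₐ[ℚ_[p]] E) (B := OE p E) hp
    natCast_p_mem_maximalIdeal
  have hsurj : Function.Surjective (AlgEquiv.restrictNormalHom (F := ℚ_[p])
      (K₁ := PadicAlgCl p) E) := AlgEquiv.restrictNormalHom_surjective (PadicAlgCl p)
  obtain ⟨τ, rfl⟩ := hsurj τ₀
  have hker : ∀ g : Gp, AlgEquiv.restrictNormalHom E g = 1 → χ g = 1 := by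
    intro g hg
    apply hE
    rw [← IntermediateField.restrictNormalHom_ker]
    exact hg
  refine ⟨τ, hτ₀, fun t ht => ?_⟩
  obtain ⟨n, u₀, hu₀, htu⟩ := hgen _ ht
  obtain ⟨u, rfl⟩ := hsurj u₀
  refine ⟨n, ?_⟩
  have h1 : χ t = χ (τ ^ n * u) :=
    map_eq_of_map_eq (AlgEquiv.restrictNormalHom E) χ hker (by rw [map_mul, map_pow]; exact htu)
  rw [h1, map_mul, map_pow, map_eq_one_of_mem_wildE p E hH χ hE hu₀, mul_one]

/-- **Frobenius conjugation**: the inertia acts through characters of order dividing `p - 1`. -/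
theorem pow_pred_eq_one {t : Gp} (ht : t ∈ inertiaE p E) : χ t ^ (p - 1) = 1 := by
  have hp : p.Prime := Fact.out
  obtain ⟨φ, -, -, -, -, hfrob, -⟩ := exists_padic_tame_relations p E χ hE
  obtain ⟨u, hu, h⟩ := hfrob t ht
  rw [map_mul, map_mul, map_inv, mul_comm (χ φ), mul_inv_cancel_right, map_mul, map_pow,
    map_eq_one_of_mem_wildE p E hH χ hE hu, mul_one] at h
  have h2 : χ t ^ (p - 1) * χ t = 1 * χ t := by
    rw [← pow_succ, Nat.sub_add_cancel hp.one_le, one_mul]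
    exact h.symm
  exact mul_right_cancel h2

end Level

section Field

variable {k : Type*} [Field k] [CharP k p]

/-- the units of a field of characteristic `p` have no `p`-torsion. -/
theorem units_eq_one_of_pow_eq_one (x : kˣ) (n : ℕ) (h : x ^ (p ^ n) = 1) : x = 1 := by
  have h1 : ((x : k) - 1) ^ (p ^ n) = 0 := by
    rw [sub_pow_char_pow, one_pow, sub_eq_zero]
    have := congrArg (fun u : kˣ => (u : k)) h
    simpa using this
  have h2 : (x : k) - 1 = 0 := pow_eq_zero_iff (pow_ne_zero n (Fact.out : p.Prime).ne_zero) |>.mp h1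
  exact Units.ext (by simpa using sub_eq_zero.mp h2)

theorem prod_units_eq_one_of_pow_eq_one (x : kˣ × kˣ) (n : ℕ) (h : x ^ (p ^ n) = 1) : x = 1 := by
  have h1 := congrArg Prod.fst h
  have h2 := congrArg Prod.snd h
  simp only [Prod.pow_fst, Prod.pow_snd, Prod.fst_one, Prod.snd_one] at h1 h2
  exact Prod.ext (units_eq_one_of_pow_eq_one p _ n h1) (units_eq_one_of_pow_eq_one p _ n h2)

variable (E : IntermediateField ℚ_[p] (PadicAlgCl p)) [FiniteDimensional ℚ_[p] E]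
  [IsGalois ℚ_[p] E]

/-- **Two characters of finite level are powers of their values at ONE inertial element.** -/
theorem exists_generator_chars (χ₁ χ₂ : Gp →* kˣ)
    (hE : ∀ σ ∈ E.fixingSubgroup, χ₁ σ = 1 ∧ χ₂ σ = 1) :
    ∃ τ ∈ inertiaE p E, ∀ t ∈ inertiaE p E, ∃ n : ℕ, χ₁ t = χ₁ τ ^ n ∧ χ₂ t = χ₂ τ ^ n := by
  obtain ⟨τ, hτ, h⟩ := exists_generator_hom p E (prod_units_eq_one_of_pow_eq_one p)
    (χ₁.prod χ₂) (fun σ hσ => Prod.ext (hE σ hσ).1 (hE σ hσ).2)
  refine ⟨τ, hτ, fun t ht => ?_⟩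
  obtain ⟨n, hn⟩ := h t ht
  refine ⟨n, ?_, ?_⟩
  · have := congrArg Prod.fst hn
    simpa using this
  · have := congrArg Prod.snd hn
    simpa using this

/-- **Dichotomy for `p = 3`**, finite level form. -/
theorem dichotomy_three_of_level (hp3 : p = 3) (χ₁ χ₂ : Gp →* kˣ)
    (hE : ∀ σ ∈ E.fixingSubgroup, χ₁ σ = 1 ∧ χ₂ σ = 1)
    (hram : ∃ t₀ ∈ inertiaE p E, χ₁ t₀ * χ₂ t₀ ≠ 1) :
    (∀ t ∈ inertiaE p E, χ₂ t = 1) ∨ (∀ t ∈ inertiaE p E, χ₁ t = 1) := by
  obtain ⟨τ, hτ, h⟩ := exists_generator_chars p E χ₁ χ₂ hE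
  have h21 : p - 1 = 2 := by omega
  have hsq1 : χ₁ τ ^ 2 = 1 := by
    have := pow_pred_eq_one p E (units_eq_one_of_pow_eq_one p) χ₁ (fun σ hσ => (hE σ hσ).1) hτ
    rwa [h21] at this
  have hsq2 : χ₂ τ ^ 2 = 1 := by
    have := pow_pred_eq_one p E (units_eq_one_of_pow_eq_one p) χ₂ (fun σ hσ => (hE σ hσ).2) hτ
    rwa [h21] at this
  by_cases h2 : χ₂ τ = 1
  · left
    intro t ht
    obtain ⟨n, -, hn⟩ := h t ht
    rw [hn, h2, one_pow]
  by_cases h1 : χ₁ τ = 1
  · right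
    intro t ht
    obtain ⟨n, hn, -⟩ := h t ht
    rw [hn, h1, one_pow]
  exfalso
  -- both values are `-1`
  have hneg : ∀ x : kˣ, x ^ 2 = 1 → x ≠ 1 → (x : k) = -1 := by
    intro x hx hx1
    have h3 : ((x : k) - 1) * ((x : k) + 1) = 0 := by
      have := congrArg (fun u : kˣ => (u : k)) hx
      simp only [Units.val_pow_eq_pow_val, Units.val_one] at this
      linear_combination this
    rcases mul_eq_zero.mp h3 with h4 | h4
    · exact absurd (Units.ext (by simpa using sub_eq_zero.mp h4)) hx1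
    · exact eq_neg_of_add_eq_zero_left h4
  have hprod : χ₁ τ * χ₂ τ = 1 := by
    apply Units.ext
    rw [Units.val_mul, hneg _ hsq1 h1, hneg _ hsq2 h2]
    simp
  obtain ⟨t₀, ht₀, hne⟩ := hram
  obtain ⟨n, hn1, hn2⟩ := h t₀ ht₀
  apply hne
  rw [hn1, hn2, ← mul_pow, hprod, one_pow]

/-- **Dichotomy for `p = 3`**, for the full inertia subgroup of `Gal(ℚ̄_p/ℚ_p)`. -/
theorem dichotomy_three (hp3 : p = 3) (χ₁ χ₂ : Gp →* kˣ)
    (hE : ∀ σ ∈ E.fixingSubgroup, χ₁ σ = 1 ∧ χ₂ σ = 1)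
    (hram : ∃ t₀ ∈ LocalInertia.localInertia' p, χ₁ t₀ * χ₂ t₀ ≠ 1) :
    (∀ t ∈ LocalInertia.localInertia' p, χ₂ t = 1) ∨
      (∀ t ∈ LocalInertia.localInertia' p, χ₁ t = 1) := by
  obtain ⟨t₀, ht₀, hne⟩ := hram
  rcases dichotomy_three_of_level p E hp3 χ₁ χ₂ hE
    ⟨t₀, localInertia'_le_inertiaE p E ht₀, hne⟩ with h | h
  · exact Or.inl fun t ht => h t (localInertia'_le_inertiaE p E ht)
  · exact Or.inr fun t ht => h t (localInertia'_le_inertiaE p E ht)

end Field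

section Bdd

open Fermat.Agent.S56x.Local.BddDef

variable {k : Type*} [Field k] [CharP k p]

/-- a character which is a bounded function is trivial on the fixing subgroup of a finite Galois
extension. -/
theorem exists_level_of_isBddFun (χ : GQp p →* kˣ) (h : IsBddFun p (chr χ)) :
    ∃ (E : IntermediateField ℚ_[p] (PadicAlgCl p)) (_ : FiniteDimensional ℚ_[p] E)
      (_ : IsGalois ℚ_[p] E), ∀ σ ∈ E.fixingSubgroup, χ σ = 1 := by
  obtain ⟨E, ⟨hfd, hgal, -⟩, hinv⟩ := h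
  refine ⟨E, hfd, hgal, fun σ hσ => ?_⟩
  have h1 := hinv 1 σ hσ
  rw [one_mul] at h1
  apply Units.ext
  simpa [chr] using h1

/-- **(TAME)**: a character which is a bounded function has order dividing `p - 1` on the full
inertia subgroup. -/
theorem pow_pred_eq_one_of_isBddFun (χ : GQp p →* kˣ) (h : IsBddFun p (chr χ))
    {t : GQp p} (ht : t ∈ LocalInertia.localInertia' p) : χ t ^ (p - 1) = 1 := by
  obtain ⟨E, hfd, hgal, hE⟩ := exists_level_of_isBddFun p χ h
  exact pow_pred_eq_one p E (units_eq_one_of_pow_eq_one p) χ hE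
    (localInertia'_le_inertiaE p E ht)

/-- **(CYCLIC)**: two characters which are bounded functions are, on the full inertia subgroup,
powers of their values at one inertial element `τ` (inertial relative to a common level). -/
theorem exists_generator_of_isBddFun (χ₁ χ₂ : GQp p →* kˣ)
    (h1 : IsBddFun p (chr χ₁)) (h2 : IsBddFun p (chr χ₂)) :
    ∃ τ : GQp p, χ₁ τ ^ (p - 1) = 1 ∧ χ₂ τ ^ (p - 1) = 1 ∧
      ∀ t ∈ LocalInertia.localInertia' p, ∃ n : ℕ, χ₁ t = χ₁ τ ^ n ∧ χ₂ t = χ₂ τ ^ n := by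
  obtain ⟨E₁, hfd₁, hgal₁, hE₁⟩ := exists_level_of_isBddFun p χ₁ h1
  obtain ⟨E₂, hfd₂, hgal₂, hE₂⟩ := exists_level_of_isBddFun p χ₂ h2
  have hE : ∀ σ ∈ (E₁ ⊔ E₂).fixingSubgroup, χ₁ σ = 1 ∧ χ₂ σ = 1 := by
    intro σ hσ
    rw [IntermediateField.fixingSubgroup_sup] at hσ
    exact ⟨hE₁ σ hσ.1, hE₂ σ hσ.2⟩
  obtain ⟨τ, hτ, h⟩ := exists_generator_chars p (E₁ ⊔ E₂) χ₁ χ₂ hE
  refine ⟨τ, ?_, ?_, fun t ht => h t (localInertia'_le_inertiaE p (E₁ ⊔ E₂) ht)⟩
  · exact pow_pred_eq_one p (E₁ ⊔ E₂) (units_eq_one_of_pow_eq_one p) χ₁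
      (fun σ hσ => (hE σ hσ).1) hτ
  · exact pow_pred_eq_one p (E₁ ⊔ E₂) (units_eq_one_of_pow_eq_one p) χ₂
      (fun σ hσ => (hE σ hσ).2) hτ

/-- **Dichotomy for `p = 3`**, for characters which are bounded functions (e.g. the diagonal
characters of a triangularised `rbar|G_p` with entries in `bddAlg p k`). -/
theorem dichotomy_three_of_isBddFun (hp3 : p = 3) (χ₁ χ₂ : GQp p →* kˣ)
    (h1 : IsBddFun p (chr χ₁)) (h2 : IsBddFun p (chr χ₂))
    (hram : ∃ t₀ ∈ LocalInertia.localInertia' p, χ₁ t₀ * χ₂ t₀ ≠ 1) :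
    (∀ t ∈ LocalInertia.localInertia' p, χ₂ t = 1) ∨
      (∀ t ∈ LocalInertia.localInertia' p, χ₁ t = 1) := by
  obtain ⟨E₁, hfd₁, hgal₁, hE₁⟩ := exists_level_of_isBddFun p χ₁ h1
  obtain ⟨E₂, hfd₂, hgal₂, hE₂⟩ := exists_level_of_isBddFun p χ₂ h2
  refine dichotomy_three p (E₁ ⊔ E₂) hp3 χ₁ χ₂ (fun σ hσ => ?_) hram
  rw [IntermediateField.fixingSubgroup_sup] at hσ
  exact ⟨hE₁ σ hσ.1, hE₂ σ hσ.2⟩

end Bdd

end Fermat.Agent.S56x.Local.InertiaDichotomy
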