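import Fermat.Agent.S56x.Local.CSlotInst
import Fermat.Agent.S56x.Local.InertiaDichotomy
import Fermat.Agent.S56x.Local.IndFinal

/-!
# P-S56 / block (A): `FlatIface.FlatCountStatementSplit p rbar` from the three counts

The final plug of block (A) (the local flat count `rank_k flatSpan ≤ 4`):

* `dichStatement : CSlotFinal.DichStatement p k` — the dichotomy of inertia characters for
  `p = 3` (`Local/InertiaDichotomy`, cyclicity of the tame quotient), unconditional;
* `cslotStatement_of_cw0 : CW0Statement p k → CSlotStatement p rbar` — input (3);
* `flatCountStatementSplit_of_counts` : `FlatCountStatementSplit p rbar` from the three COUNT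
  statements, none of which mentions `rbar`:
  - `FlatCountInputs.CW1Statement p k` : `rank H¹_bdd(G_p, k(χ)) ≤ 1` for a bounded `χ`;
  - `CSlotFinal.CW0Statement p k`      : `rank H¹_bdd(G_p, k(χ)) = 0` for a bounded `χ` ramified
    and different from the cyclotomic character at some element of inertia;
  - `IndFinal.CountQp2Statement p k`   : `rank H¹_bdd(G_{ℚ_{p²}}, k(μ)) ≤ 1` for `μ = 1` or `μ`
    different from `1` and the cyclotomic character at some element of inertia.
-/

set_option autoImplicit false
set_option linter.unusedSectionVars false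

noncomputable section

namespace Fermat.Agent.S56x.Local.FlatCountMain

open Fermat.Agent.S56x.Local.Devissage Fermat.Agent.S56x.Local.FlatIface
  Fermat.Agent.S56x.Local.FlatBridge Fermat.Agent.S56x.Local.TameRep
  Fermat.Agent.S56x.Local.BddDef Fermat.Agent.S56x.Local.FlatCountInputs
  Fermat.Agent.S56x.Local.CSlotFinal
  Fermat.Agent.S56x.Dict Module Matrix ExtCitation

local notation "Γℚ" => (AlgebraicClosure ℚ ≃ₐ[ℚ] AlgebraicClosure ℚ)
local notation "M₂" => Matrix (Fin 2) (Fin 2)

variable (p : ℕ) [Fact p.Prime]

/-- **The dichotomy for `p = 3`**, unconditional: of two bounded characters whose product is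
ramified, one is unramified (the tame quotient is cyclic; `Local/InertiaDichotomy`, helper94). -/
theorem dichStatement (k : Type) [Field k] : DichStatement p k := by
  intro _ _ hp3 χ₁ χ₂ h1 h2 hram
  exact InertiaDichotomy.dichotomy_three_of_isBddFun p hp3 χ₁ χ₂ (mem_bddAlgP_iff.1 h1)
    (mem_bddAlgP_iff.1 h2) hram

variable {k : Type} [Field k] (rbar : Γℚ →* M₂ k)

/-- **Input (3)** of `FlatCountInputs.flatCountStatementSplit` from the count `(CW0)` alone. -/
theorem cslotStatement_of_cw0 (hCW0 : CW0Statement p k) : CSlotStatement p rbar :=
  CSlotInst.cslotStatement_of_cw0_dich p rbar hCW0 (dichStatement p k)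

/-- **Block (A)**: `FlatIface.FlatCountStatementSplit p rbar` from the three count statements
`(CW1)`, `(CW0)` over `ℚ_p` and the count over `ℚ_{p²}`. -/
theorem flatCountStatementSplit_of_counts (hCW1 : CW1Statement p k) (hCW0 : CW0Statement p k)
    (hcount : IndFinal.CountQp2Statement p k) : FlatCountStatementSplit p rbar :=
  flatCountStatementSplit p rbar hCW1 (cslotStatement_of_cw0 p rbar hCW0)
    (IndFinal.indStatement p rbar hcount)

end Fermat.Agent.S56x.Local.FlatCountMain

end
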