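/-
P-S56, block (A) LOCAL FLAT (helper90): the `hfix` instance of the descent count (HD1).

Abstract part (Mathlib only): a finite group `G` acting on a local ring `B`; if the residues of the
`G`-invariant elements satisfy `x ^ q = x` (`x ↦ x ^ q` a ring endomorphism of the residue field), then
every element of the residue field fixed by all the induced automorphisms satisfies `b ^ q = b`
(`pow_eq_of_residue_fixed`; proof: reduce the characteristic polynomial `∏ (X - g • β)`).

`p`-adic part (on helper83's `PadicFinite` / `PadicTower`): for `E / ℚ_[p]` finite Galois,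
the elements of the residue field of `OE p E` fixed by `Gal(E/ℚ_p)` satisfy `b ^ p = b`
(`residue_pow_p_of_fixed`); relative version over a subextension `E ≤ E'` with
`q = #ResidueField (OE p E)` (`residue_pow_card_of_fixed_rel`).
-/
import Mathlib
import Fermat.Agent.S56x.Local.PadicFinite
import Fermat.Agent.S56x.Local.PadicTower

set_option autoImplicit false
set_option linter.unusedSectionVars false
set_option linter.style.haveILetI false

open IsLocalRing Polynomial

namespace Fermat.Agent.S56x.Local.ResidueFix

/-! ## The abstract statement -/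

section Abstract

variable {B : Type*} [CommRing B] [IsLocalRing B] {G : Type*} [Group G] [Finite G]
  [MulSemiringAction G B]

/-- the automorphism of the residue field induced by `g`. -/
noncomputable def resMap (g : G) : ResidueField B →+* ResidueField B :=
  ResidueField.map ((MulSemiringAction.toRingEquiv G B g : B ≃+* B) : B →+* B)

theorem resMap_residue (g : G) (β : B) :
    resMap g (residue B β) = residue B (g • β) := by
  rw [resMap, ResidueField.map_residue]
  rfl

/-- **fixed points in the residue field.** -/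
theorem pow_eq_of_residue_fixed (q : ℕ) (φ : ResidueField B →+* ResidueField B)
    (hφ : ∀ x, φ x = x ^ q)
    (hinv : ∀ β : B, (∀ g : G, g • β = β) → residue B β ^ q = residue B β)
    (b : ResidueField B) (hb : ∀ g : G, resMap g b = b) : b ^ q = b := by
  classical
  cases nonempty_fintype G
  obtain ⟨β, rfl⟩ := residue_surjective b
  set Fbar : (ResidueField B)[X] := (MulSemiringAction.charpoly G β).map (residue B) with hFbar
  have hcoeff : ∀ i, (Fbar.coeff i) ^ q = Fbar.coeff i := by
    intro i
    rw [hFbar, coeff_map]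
    exact hinv _ (fun g => MulSemiringAction.smul_coeff_charpoly β i g)
  have hmap : Fbar.map φ = Fbar := by
    ext i
    rw [coeff_map, hφ, hcoeff]
  have hres : ∀ g : G, residue B (g • β) = residue B β := by
    intro g
    rw [← resMap_residue, hb g]
  have hprod : Fbar = (X - C (residue B β)) ^ (Fintype.card G) := by
    rw [hFbar, MulSemiringAction.charpoly_eq, Polynomial.map_prod]
    have h1 : ∀ g ∈ (Finset.univ : Finset G),
        (X - C (g • β)).map (residue B) = X - C (residue B β) := by
      intro g _
      rw [Polynomial.map_sub, map_X, map_C, hres g]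
    rw [Finset.prod_congr rfl h1, Finset.prod_const, Finset.card_univ]
  have h0 : Fbar.eval (residue B β) = 0 := by
    rw [hprod, eval_pow, eval_sub, eval_X, eval_C, sub_self, zero_pow Fintype.card_ne_zero]
  have h1 : Fbar.eval (φ (residue B β)) = 0 := by
    have := Polynomial.eval_map_apply (p := Fbar) (f := φ) (residue B β)
    rw [hmap, h0, map_zero] at this
    exact this
  rw [hprod, eval_pow, eval_sub, eval_X, eval_C, hφ] at h1
  exact sub_eq_zero.mp (pow_eq_zero_iff Fintype.card_ne_zero |>.mp h1)

end Abstract

/-! ## The `p`-adic instances -/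

section Padic

open Fermat.Agent.S56x.Local.PadicFinite Fermat.Agent.S56x.Local.PadicTower

variable {p : ℕ} [Fact p.Prime] {E E' : IntermediateField ℚ_[p] (PadicAlgCl p)}

/-- the residue of `a ^ p - a`, `a : ℤ_[p]`, vanishes in every `O_E`. -/
theorem residue_algebraMap_pow_p [FiniteDimensional ℚ_[p] E] (a : ℤ_[p]) :
    residue (OE p E) (algebraMap ℤ_[p] (OE p E) a) ^ p
      = residue (OE p E) (algebraMap ℤ_[p] (OE p E) a) := by
  have h1 : a ^ p - a ∈ maximalIdeal ℤ_[p] := by
    rw [← PadicInt.ker_toZMod, RingHom.mem_ker, map_sub, map_pow, ZMod.pow_card, sub_self]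
  have h2 : algebraMap ℤ_[p] (OE p E) (a ^ p - a) ∈ maximalIdeal (OE p E) := by
    rw [mem_maximalIdeal, mem_nonunits_iff]
    intro hu
    exact (mem_nonunits_iff.mp ((mem_maximalIdeal _).mp h1))
      (isUnit_of_map_unit (algebraMap ℤ_[p] (OE p E)) _ hu)
  have h3 := (residue_eq_zero_iff _).mpr h2
  rw [map_sub, map_pow, map_sub, map_pow, sub_eq_zero] at h3
  exact h3

/-- **`hfix` over `ℚ_p`**: for `E / ℚ_[p]` finite Galois, the elements of the residue field of
`O_E` fixed by the Galois group satisfy `b ^ p = b`. -/
theorem residue_pow_p_of_fixed [FiniteDimensional ℚ_[p] E] [IsGalois ℚ_[p] E]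
    (b : ResidueField (OE p E))
    (hb : ∀ σ : E ≃ₐ[ℚ_[p]] E, ResidueField.map
      ((MulSemiringAction.toRingEquiv (E ≃ₐ[ℚ_[p]] E) (OE p E) σ : OE p E ≃+* OE p E) :
        OE p E →+* OE p E) b = b) : b ^ p = b := by
  refine pow_eq_of_residue_fixed (G := E ≃ₐ[ℚ_[p]] E) p (frobenius (ResidueField (OE p E)) p)
    (fun x => frobenius_def p x) ?_ b hb
  intro β hβ
  obtain ⟨a, rfl⟩ := (fixed_iff_mem_range β).mp hβ
  exact residue_algebraMap_pow_p a

/-- the subgroup of `Gal(E'/ℚ_p)` fixing `E` pointwise. -/
def fixSub (h : E ≤ E') : Subgroup (E' ≃ₐ[ℚ_[p]] E') where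
  carrier := {σ' | ∀ y : E, σ' (IntermediateField.inclusion h y) = IntermediateField.inclusion h y}
  mul_mem' := by
    intro a b ha hb y
    rw [AlgEquiv.mul_apply, hb y, ha y]
  one_mem' := fun y => rfl
  inv_mem' := by
    intro a ha y
    have := ha y
    rw [← this, ← AlgEquiv.mul_apply, inv_mul_cancel, this]
    rfl

theorem mem_fixSub (h : E ≤ E') (σ' : E' ≃ₐ[ℚ_[p]] E') :
    σ' ∈ fixSub h ↔
      ∀ y : E, σ' (IntermediateField.inclusion h y) = IntermediateField.inclusion h y := Iff.rfl

/-- **`hfix` over a base `E`**: for `E ≤ E'`, `E' / ℚ_[p]` finite Galois, the elements of the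
residue field of `O_{E'}` fixed by the automorphisms of `E'` over `E` satisfy `b ^ q = b`,
`q = #κ(E)`. -/
theorem residue_pow_card_of_fixed_rel (h : E ≤ E') [FiniteDimensional ℚ_[p] E]
    [FiniteDimensional ℚ_[p] E'] [Normal ℚ_[p] E'] (b : ResidueField (OE p E'))
    (hb : ∀ σ' : E' ≃ₐ[ℚ_[p]] E',
      (∀ y : E, σ' (IntermediateField.inclusion h y) = IntermediateField.inclusion h y) →
      ResidueField.map
        ((MulSemiringAction.toRingEquiv (E' ≃ₐ[ℚ_[p]] E') (OE p E') σ' : OE p E' ≃+* OE p E') :
          OE p E' →+* OE p E') b = b) :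
    b ^ Nat.card (ResidueField (OE p E)) = b := by
  cases nonempty_fintype (ResidueField (OE p E))
  obtain ⟨f, -, hf⟩ := FiniteField.card (ResidueField (OE p E)) p
  haveI : ExpChar (ResidueField (OE p E')) p := ExpChar.prime Fact.out
  rw [Nat.card_eq_fintype_card, hf]
  refine pow_eq_of_residue_fixed (G := fixSub h) (p ^ (f : ℕ))
    (iterateFrobenius (ResidueField (OE p E')) p f)
    (fun x => iterateFrobenius_def p f x) ?_ b (fun σ' => hb σ'.1 σ'.2)
  intro β hβ
  obtain ⟨x, rfl⟩ := (fixed_iff_mem_range_inclusionOE h β).mp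
    (fun σ' hσ' => hβ ⟨σ', hσ'⟩)
  rw [← ResidueField.map_residue, ← map_pow, ← hf, FiniteField.pow_card]

end Padic

end Fermat.Agent.S56x.Local.ResidueFix
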