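/-
P-S56, block (A) LOCAL FLAT (helper90): `CW1Padic.ResidueFixStatement p` holds
(`ResidueFix.residue_pow_p_of_fixed` in the literal shape of helper10's `CW1Padic`).
-/
import Mathlib
import Fermat.Agent.S56x.Local.CW1Padic
import Fermat.Agent.S56x.Local.ResidueFix

set_option autoImplicit false

namespace Fermat.Agent.S56x.Local.ResidueFixInst

/-- the residue field elements fixed by `Gal(E/ℚ_p)` are in `𝔽_p`: the third input of
`CW1Padic.rank_H1A_le_one`. -/
theorem residueFixStatement (p : ℕ) [Fact p.Prime] :
    Fermat.Agent.S56x.Local.CW1Padic.ResidueFixStatement p :=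
  fun _ _ _ b hb => Fermat.Agent.S56x.Local.ResidueFix.residue_pow_p_of_fixed b hb

end Fermat.Agent.S56x.Local.ResidueFixInst
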