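import Fermat.Agent.S56x.Local.CW0Padic
import Fermat.Agent.S56x.Local.CW1Data
import Fermat.Agent.S56x.Local.BoundedKummerStmtB
import Fermat.Agent.S56x.Local.ResidueFixInst
import Fermat.Agent.S56x.Local.FlatCountMain

/-!
# P-S56 / block (A): the counts `(CW1)`, `(CW0)` over `ℚ_p`, UNCONDITIONAL (backup of `CW1Final`)

* `cw1Statement : FlatCountInputs.CW1Statement p k`;
* `cw0Statement : CSlotFinal.CW0Statement p k`;
from `CW1Padic.rank_H1A_le_one`, `CW0Padic.rank_H1A_eq_zero` (helper10), `CW1Data.tameDataStatement`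
(helper83), `BoundedKummerStmtB.boundedKummerStatement` (helper45),
`ResidueFixInst.residueFixStatement` (helper90).
-/

set_option autoImplicit false
set_option linter.unusedSectionVars false

noncomputable section

namespace Fermat.Agent.S56x.Local.CW1FinalB

open Fermat.Agent.S56x.Local.Devissage Fermat.Agent.S56x.Local.FlatIface
  Fermat.Agent.S56x.Local.BddDef Fermat.Agent.S56x.Local.FlatCountInputs
  Fermat.Agent.S56x.Local.CSlotFinal Fermat.Agent.S56x.Dict

variable (p : ℕ) [Fact p.Prime] (k : Type) [Field k]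

/-- **(CW1) over `ℚ_p`**, unconditional. -/
theorem cw1Statement : CW1Statement p k := by
  intro _ _ hp2 χ hχ
  exact CW1Padic.rank_H1A_le_one hp2 (CW1Data.tameDataStatement k)
    (BoundedKummerStmtB.boundedKummerStatement p) (ResidueFixInst.residueFixStatement p) χ hχ

/-- **(CW0) over `ℚ_p`**, unconditional. -/
theorem cw0Statement : CW0Statement p k := by
  intro _ _ hp2 χ hχ hram hin
  obtain ⟨t₁, -, hne⟩ := hram
  obtain ⟨t, ht, a, hta, hat⟩ := hin
  have hχ1 : χ ≠ 1 := by
    rintro rfl
    exact hne rfl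
  exact CW0Padic.rank_H1A_eq_zero hp2 (CW1Data.tameDataStatement k)
    (BoundedKummerStmtB.boundedKummerStatement p) χ hχ hχ1
    ⟨t, (LocalInertia.mem_localInertia_iff_forall_norm p t).mp ht, a, hta, hat⟩

end Fermat.Agent.S56x.Local.CW1FinalB

end
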