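/-
P-S56, block (A) LOCAL FLAT, count side over `K_f = ℚ_p(μ_{p^f-1})` (helper19): the Galois-theoretic
half of `CWPadicData` over `ℚ_{p^f}` (`f = 1`: `ℚ_p`; `f = 2`: the (IND) case).

`Gp = Gal(PadicAlgCl p / ℚ_p)`, `K_f = UnrLevels.unrField p f`, `Γ_f = UnrLevels.lev p f`, `q = p^f`.
Given an open subgroup `H₀ ≤ Γ_f` with `Γ_f / H₀` abelian of exponent prime to `p` (the kernel of a
character `Γ_f → kˣ`), a primitive `p`-th root of unity `ζ` and `π` with `π^(q-1) = -p`, we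
construct a finite Galois extension `L/ℚ_p` with `L.fixingSubgroup ≤ H₀`, `K_f(ζ, π) ≤ L` and
`Gal(L/K_f)` abelian of exponent prime to `p`.
-/
import Mathlib
import Fermat.Agent.S56x.Local.PadicFinite
import Fermat.Agent.S56x.Local.UnrLevels

set_option autoImplicit false
set_option linter.unusedSectionVars false

namespace Fermat.Agent.S56x.Local.TameFieldGalois

open Fermat.Agent.S56x.Local.PadicFinite Fermat.Agent.S56x.Local.UnrLevels

variable {p : ℕ} [Fact p.Prime]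

local notation "Ω" => PadicAlgCl p
local notation "Gp" => (PadicAlgCl p ≃ₐ[ℚ_[p]] PadicAlgCl p)

/-! ### Action on roots of unity and on radicals -/

/-- an automorphism maps a primitive root `ζ` to a power of `ζ`. -/
theorem exists_pow_eq_apply {n : ℕ} (hn : 0 < n) {ζ : Ω} (hζ : IsPrimitiveRoot ζ n) (g : Gp) :
    ∃ a : ℕ, g ζ = ζ ^ a := by
  haveI : NeZero n := ⟨hn.ne'⟩
  have h1 : (g ζ) ^ n = 1 := by rw [← map_pow, hζ.pow_eq_one, map_one]
  obtain ⟨a, -, ha⟩ := hζ.eq_pow_of_pow_eq_one h1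
  exact ⟨a, ha.symm⟩

/-- two automorphisms commute on the powers of a primitive root. -/
theorem apply_apply_comm {n : ℕ} (hn : 0 < n) {ζ : Ω} (hζ : IsPrimitiveRoot ζ n) (g h : Gp)
    {w : Ω} (hw : w ^ n = 1) : g (h w) = h (g w) := by
  haveI : NeZero n := ⟨hn.ne'⟩
  obtain ⟨a, ha⟩ := exists_pow_eq_apply hn hζ g
  obtain ⟨b, hb⟩ := exists_pow_eq_apply hn hζ h
  obtain ⟨c, -, hc⟩ := hζ.eq_pow_of_pow_eq_one hw
  have e1 : g (h w) = ζ ^ (a * b * c) := by
    rw [← hc, map_pow, hb, ← pow_mul, map_pow, ha, ← pow_mul, mul_assoc]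
  have e2 : h (g w) = ζ ^ (b * a * c) := by
    rw [← hc, map_pow, ha, ← pow_mul, map_pow, hb, ← pow_mul, mul_assoc]
  rw [e1, e2, mul_comm a b]

/-- `g π / π` is a `(q-1)`-th root of unity when `π^(q-1)` is rational. -/
theorem exists_root_mul_eq_apply {N : ℕ} (hN : 0 < N) {π : Ω} {a : ℚ_[p]} (ha : a ≠ 0)
    (hπ : π ^ N = algebraMap ℚ_[p] Ω a) (g : Gp) : ∃ t : Ω, t ^ N = 1 ∧ g π = t * π := by
  have hπ0 : π ≠ 0 := by
    rintro rfl
    rw [zero_pow hN.ne'] at hπ
    exact ha ((map_eq_zero (algebraMap ℚ_[p] Ω)).mp hπ.symm)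
  refine ⟨g π / π, ?_, by field_simp⟩
  rw [div_pow, ← map_pow, hπ, AlgEquiv.commutes, div_self]
  rw [← hπ]
  exact pow_ne_zero _ hπ0

/-! ### The stabiliser of `ζ` and `π` in `Γ_f` -/

section stab

variable (f : ℕ) (ζ π : PadicAlgCl p)

/-- the subgroup of `Γ_f` fixing `ζ` and `π`. -/
noncomputable def stab : Subgroup Gp := lev p f ⊓ MulAction.stabilizer Gp ζ ⊓ MulAction.stabilizer Gp π

variable {f ζ π}

theorem mem_stab {g : Gp} : g ∈ stab f ζ π ↔ g ∈ lev p f ∧ g ζ = ζ ∧ g π = π := by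
  rw [stab, Subgroup.mem_inf, Subgroup.mem_inf, MulAction.mem_stabilizer_iff,
    MulAction.mem_stabilizer_iff, AlgEquiv.smul_def, AlgEquiv.smul_def, and_assoc]

variable (hf : 0 < f) (hζ : IsPrimitiveRoot ζ p) (hπ : π ^ (p ^ f - 1) = -(p : PadicAlgCl p))

theorem neg_p_eq : -(p : Ω) = algebraMap ℚ_[p] Ω (-(p : ℚ_[p])) := by
  rw [map_neg, map_natCast]

theorem neg_p_ne_zero : (-(p : ℚ_[p])) ≠ 0 := by
  rw [neg_ne_zero]
  exact_mod_cast (Fact.out : p.Prime).ne_zero

theorem q_sub_one_pos (hf : 0 < f) : 0 < p ^ f - 1 := by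
  have h1 : 1 < p := (Fact.out : p.Prime).one_lt
  have : 1 < p ^ f := Nat.one_lt_pow hf.ne' h1
  omega

include hf in
/-- elements of `Γ_f` commute on the `(q-1)`-th roots of `-p`. -/
theorem apply_apply_comm_radical {g h : Gp} (hg : g ∈ lev p f) (hh : h ∈ lev p f) {w : Ω}
    (hw : w ^ (p ^ f - 1) = -(p : Ω)) : g (h w) = h (g w) := by
  rw [neg_p_eq] at hw
  obtain ⟨s, hs, hhw⟩ := exists_root_mul_eq_apply (q_sub_one_pos hf) neg_p_ne_zero hw h
  obtain ⟨r, hr, hgw⟩ := exists_root_mul_eq_apply (q_sub_one_pos hf) neg_p_ne_zero hw g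
  rw [hhw, hgw, map_mul, map_mul, (mem_lev_iff g).mp hg s hs, (mem_lev_iff h).mp hh r hr, hgw, hhw]
  ring

include hf hζ hπ in
/-- `stab` is normal in `Gp`. -/
theorem stab_normal : (stab f ζ π).Normal := by
  have hp0 : 0 < p := (Fact.out : p.Prime).pos
  refine ⟨fun g hg x => ?_⟩
  rw [mem_stab] at hg ⊢
  obtain ⟨hgl, hgζ, hgπ⟩ := hg
  refine ⟨(lev_normal hf).conj_mem g hgl x, ?_, ?_⟩
  · obtain ⟨a, ha⟩ := exists_pow_eq_apply hp0 hζ x⁻¹
    rw [AlgEquiv.mul_apply, AlgEquiv.mul_apply, ha, map_pow, hgζ, ← ha, ← AlgEquiv.mul_apply,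
      mul_inv_cancel, AlgEquiv.one_apply]
  · have hπ' := hπ
    rw [neg_p_eq] at hπ'
    obtain ⟨t, ht, hx⟩ := exists_root_mul_eq_apply (q_sub_one_pos hf) neg_p_ne_zero hπ' x⁻¹
    rw [AlgEquiv.mul_apply, AlgEquiv.mul_apply, hx, map_mul, (mem_lev_iff g).mp hgl t ht, hgπ,
      ← hx, ← AlgEquiv.mul_apply, mul_inv_cancel, AlgEquiv.one_apply]

include hf hζ hπ in
/-- commutators of `Γ_f` lie in `stab`. -/
theorem commutator_mem_stab {g h : Gp} (hg : g ∈ lev p f) (hh : h ∈ lev p f) :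
    g * h * g⁻¹ * h⁻¹ ∈ stab f ζ π := by
  have hp0 : 0 < p := (Fact.out : p.Prime).pos
  rw [mem_stab]
  refine ⟨?_, ?_, ?_⟩
  · exact (lev p f).mul_mem ((lev p f).mul_mem ((lev p f).mul_mem hg hh) ((lev p f).inv_mem hg))
      ((lev p f).inv_mem hh)
  · have hw : (g⁻¹ (h⁻¹ ζ)) ^ p = 1 := by rw [← map_pow, ← map_pow, hζ.pow_eq_one, map_one, map_one]
    have := apply_apply_comm hp0 hζ g h hw
    rw [AlgEquiv.mul_apply, AlgEquiv.mul_apply, AlgEquiv.mul_apply, this, ← AlgEquiv.mul_apply g,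
      mul_inv_cancel, AlgEquiv.one_apply, ← AlgEquiv.mul_apply, mul_inv_cancel, AlgEquiv.one_apply]
  · have hw : (g⁻¹ (h⁻¹ π)) ^ (p ^ f - 1) = -(p : Ω) := by
      rw [← map_pow, ← map_pow, hπ, map_neg, map_neg, map_natCast, map_natCast]
    have := apply_apply_comm_radical hf hg hh hw
    rw [AlgEquiv.mul_apply, AlgEquiv.mul_apply, AlgEquiv.mul_apply, this, ← AlgEquiv.mul_apply g,
      mul_inv_cancel, AlgEquiv.one_apply, ← AlgEquiv.mul_apply, mul_inv_cancel, AlgEquiv.one_apply]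

include hζ in
/-- `g ^ (p-1)` fixes `ζ`. -/
theorem pow_apply_zeta (g : Gp) : (g ^ (p - 1)) ζ = ζ := by
  have hp : p.Prime := Fact.out
  obtain ⟨a, ha⟩ := exists_pow_eq_apply hp.pos hζ g
  have hiter : ∀ m : ℕ, (g ^ m) ζ = ζ ^ (a ^ m) := by
    intro m
    induction m with
    | zero => simp
    | succ m ih => rw [pow_succ', AlgEquiv.mul_apply, ih, map_pow, ha, ← pow_mul, pow_succ']
  have hcop : Nat.Coprime a p := by
    rw [Nat.coprime_comm, hp.coprime_iff_not_dvd]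
    intro hdvd
    have h1 : ζ ^ a = 1 := (hζ.pow_eq_one_iff_dvd a).mpr hdvd
    rw [h1] at ha
    have : ζ = 1 := g.injective (ha.trans (map_one g).symm)
    exact hζ.ne_one hp.one_lt this
  have hfermat : a ^ (p - 1) ≡ 1 [MOD p] := by
    have := Nat.ModEq.pow_totient hcop
    rwa [Nat.totient_prime hp] at this
  rw [hiter]
  conv_rhs => rw [← pow_one ζ]
  rw [← pow_mod_orderOf ζ (a ^ (p - 1)), ← pow_mod_orderOf ζ 1, ← hζ.eq_orderOf,
    show a ^ (p - 1) % p = 1 % p from hfermat]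

include hf hπ in
/-- `g ^ (q-1)` fixes `π` for `g ∈ Γ_f`. -/
theorem pow_apply_radical {g : Gp} (hg : g ∈ lev p f) : (g ^ (p ^ f - 1)) π = π := by
  have hπ' := hπ
  rw [neg_p_eq] at hπ'
  obtain ⟨t, ht, hgπ⟩ := exists_root_mul_eq_apply (q_sub_one_pos hf) neg_p_ne_zero hπ' g
  have hiter : ∀ m : ℕ, (g ^ m) π = t ^ m * π := by
    intro m
    induction m with
    | zero => simp
    | succ m ih =>
      rw [pow_succ', AlgEquiv.mul_apply, ih, map_mul, map_pow, (mem_lev_iff g).mp hg t ht, hgπ]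
      ring
  rw [hiter, ht, one_mul]

include hf hζ hπ in
/-- `g ^ ((p-1)(q-1)) ∈ stab` for `g ∈ Γ_f`. -/
theorem pow_mem_stab {g : Gp} (hg : g ∈ lev p f) : g ^ ((p - 1) * (p ^ f - 1)) ∈ stab f ζ π := by
  rw [mem_stab]
  refine ⟨(lev p f).pow_mem hg _, ?_, ?_⟩
  · rw [pow_mul]
    have h1 : g ^ (p - 1) ∈ MulAction.stabilizer Gp ζ := by
      rw [MulAction.mem_stabilizer_iff, AlgEquiv.smul_def]
      exact pow_apply_zeta hζ g
    have h2 := (MulAction.stabilizer Gp ζ).pow_mem h1 (p ^ f - 1)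
    rwa [MulAction.mem_stabilizer_iff, AlgEquiv.smul_def] at h2
  · rw [mul_comm, pow_mul]
    have h1 : g ^ (p ^ f - 1) ∈ MulAction.stabilizer Gp π := by
      rw [MulAction.mem_stabilizer_iff, AlgEquiv.smul_def]
      exact pow_apply_radical hf hπ hg
    have h2 := (MulAction.stabilizer Gp π).pow_mem h1 (p - 1)
    rwa [MulAction.mem_stabilizer_iff, AlgEquiv.smul_def] at h2

end stab

/-! ### The field -/

/-- a subgroup containing the fixing subgroup of a finite extension is closed. -/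
theorem isClosed_of_fixingSubgroup_le {H : Subgroup Gp} {N : IntermediateField ℚ_[p] Ω}
    [FiniteDimensional ℚ_[p] N] (h : N.fixingSubgroup ≤ H) : IsClosed (H : Set Gp) :=
  OpenSubgroup.isClosed ⟨H, Subgroup.isOpen_mono h N.fixingSubgroup_isOpen⟩

/-- **The field `L`.** -/
theorem exists_galois_field {f : ℕ} (hf : 0 < f) (H₀ : Subgroup Gp)
    (hopen : ∃ E : IntermediateField ℚ_[p] Ω, FiniteDimensional ℚ_[p] E ∧ E.fixingSubgroup ≤ H₀)
    (hab : ∀ g h : Gp, g ∈ lev p f → h ∈ lev p f → g * h * g⁻¹ * h⁻¹ ∈ H₀)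
    (hexp : ∃ n : ℕ, Nat.Coprime n p ∧ ∀ g ∈ lev p f, g ^ n ∈ H₀)
    {ζ π : Ω} (hζ : IsPrimitiveRoot ζ p) (hπ : π ^ (p ^ f - 1) = -(p : Ω)) :
    ∃ L : IntermediateField ℚ_[p] Ω, FiniteDimensional ℚ_[p] L ∧ IsGalois ℚ_[p] L ∧
      L.fixingSubgroup ≤ H₀ ∧ L.fixingSubgroup ≤ lev p f ∧ unrField p f ≤ L ∧ ζ ∈ L ∧ π ∈ L ∧
      (∀ g h : Gp, g ∈ lev p f → h ∈ lev p f → g * h * g⁻¹ * h⁻¹ ∈ L.fixingSubgroup) ∧
      (∃ n : ℕ, Nat.Coprime n p ∧ ∀ g ∈ lev p f, g ^ n ∈ L.fixingSubgroup) := by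
  have hp : p.Prime := Fact.out
  obtain ⟨E, hEfin, hE⟩ := hopen
  obtain ⟨n, hn, hpow⟩ := hexp
  haveI hlevn := lev_normal (q := p) hf
  haveI hstabn := stab_normal hf hζ hπ
  -- the subgroup
  set H : Subgroup Gp := H₀.normalCore ⊓ stab f ζ π with hH
  haveI hHn : H.Normal := Subgroup.normal_inf_normal _ _
  -- a finite normal extension whose fixing subgroup lies in `H`
  haveI := finiteDimensional_unrField (q := p) hf
  have hζint : IsIntegral ℚ_[p] ζ := (Algebra.IsIntegral.isIntegral ζ)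
  have hπint : IsIntegral ℚ_[p] π := (Algebra.IsIntegral.isIntegral π)
  haveI hfinζ : FiniteDimensional ℚ_[p] (IntermediateField.adjoin ℚ_[p] {ζ}) :=
    IntermediateField.adjoin.finiteDimensional hζint
  haveI hfinπ : FiniteDimensional ℚ_[p] (IntermediateField.adjoin ℚ_[p] {π}) :=
    IntermediateField.adjoin.finiteDimensional hπint
  set E₀ : IntermediateField ℚ_[p] Ω :=
    E ⊔ unrField p f ⊔ IntermediateField.adjoin ℚ_[p] {ζ} ⊔ IntermediateField.adjoin ℚ_[p] {π}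
    with hE₀
  haveI : FiniteDimensional ℚ_[p] E₀ := by
    rw [hE₀]
    infer_instance
  obtain ⟨N, hNfin, hNnorm, hE₀N⟩ := exists_finite_normal_ge p E₀
  haveI := hNfin
  haveI := hNnorm
  have hEN : E ≤ N := le_trans (le_trans (le_trans le_sup_left le_sup_left) le_sup_left) hE₀N
  have hKN : unrField p f ≤ N :=
    le_trans (le_trans (le_trans le_sup_right le_sup_left) le_sup_left) hE₀N
  have hζN : ζ ∈ N := hE₀N ((le_trans le_sup_right le_sup_left :
    IntermediateField.adjoin ℚ_[p] {ζ} ≤ E₀) (IntermediateField.mem_adjoin_simple_self _ ζ))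
  have hπN : π ∈ N := hE₀N ((le_sup_right :
    IntermediateField.adjoin ℚ_[p] {π} ≤ E₀) (IntermediateField.mem_adjoin_simple_self _ π))
  haveI hNgal : IsGalois ℚ_[p] N := ⟨⟩
  haveI hNn : N.fixingSubgroup.Normal := (InfiniteGalois.normal_iff_isGalois N).mpr hNgal
  have hNH : N.fixingSubgroup ≤ H := by
    rw [hH]
    refine le_inf ?_ ?_
    · rw [Subgroup.normal_le_normalCore]
      exact le_trans (IntermediateField.fixingSubgroup_le hEN) hE
    · intro g hg
      rw [IntermediateField.mem_fixingSubgroup_iff] at hg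
      rw [mem_stab]
      refine ⟨?_, hg ζ hζN, hg π hπN⟩
      show g ∈ (unrField p f).fixingSubgroup
      rw [IntermediateField.mem_fixingSubgroup_iff]
      exact fun x hx => hg x (hKN hx)
  have hHclosed : IsClosed (H : Set Gp) := isClosed_of_fixingSubgroup_le hNH
  -- the field
  set L : IntermediateField ℚ_[p] Ω := IntermediateField.fixedField H with hL
  have hLfix : L.fixingSubgroup = H :=
    InfiniteGalois.fixingSubgroup_fixedField ⟨H, hHclosed⟩
  have hLN : L ≤ N := by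
    have h1 : IntermediateField.fixedField H ≤ IntermediateField.fixedField N.fixingSubgroup :=
      IntermediateField.fixedField_le hNH  
    rwa [InfiniteGalois.fixedField_fixingSubgroup] at h1
  have hLfin : FiniteDimensional ℚ_[p] L :=
    FiniteDimensional.of_injective (IntermediateField.inclusion hLN).toLinearMap
      (IntermediateField.inclusion hLN).injective
  have hLgal : IsGalois ℚ_[p] L := by
    rw [← InfiniteGalois.normal_iff_isGalois, hLfix]
    exact hHn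
  have hH₀ : H ≤ H₀ := le_trans inf_le_left H₀.normalCore_le
  have hHstab : H ≤ stab f ζ π := inf_le_right
  have hHlev : H ≤ lev p f := fun g hg => (mem_stab.mp (hHstab hg)).1
  refine ⟨L, hLfin, hLgal, hLfix ▸ hH₀, hLfix ▸ hHlev, ?_, ?_, ?_, ?_, ?_⟩
  · -- `K_f ≤ L`
    intro x hx
    rw [hL, IntermediateField.mem_fixedField_iff]
    intro g hg
    have := hHlev hg
    rw [lev, IntermediateField.mem_fixingSubgroup_iff] at this
    exact this x hx
  · rw [hL, IntermediateField.mem_fixedField_iff]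
    exact fun g hg => (mem_stab.mp (hHstab hg)).2.1
  · rw [hL, IntermediateField.mem_fixedField_iff]
    exact fun g hg => (mem_stab.mp (hHstab hg)).2.2
  · intro g h hg hh
    rw [hLfix, hH]
    refine ⟨?_, commutator_mem_stab hf hζ hπ hg hh⟩
    intro x
    have e : x * (g * h * g⁻¹ * h⁻¹) * x⁻¹ =
        (x * g * x⁻¹) * (x * h * x⁻¹) * (x * g * x⁻¹)⁻¹ * (x * h * x⁻¹)⁻¹ := by group
    rw [e]
    exact hab _ _ (hlevn.conj_mem g hg x) (hlevn.conj_mem h hh x)
  · refine ⟨n * ((p - 1) * (p ^ f - 1)), ?_, ?_⟩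
    · refine Nat.Coprime.mul_left hn (Nat.Coprime.mul_left ?_ ?_)
      · rw [Nat.coprime_comm, hp.coprime_iff_not_dvd]
        intro hdvd
        have := Nat.le_of_dvd (by have := hp.two_le; omega) hdvd
        have := hp.two_le
        omega
      · rw [Nat.coprime_comm, hp.coprime_iff_not_dvd]
        intro hdvd
        have h1 : p ∣ p ^ f := dvd_pow_self p hf.ne'
        have h2 : p ∣ p ^ f - (p ^ f - 1) := Nat.dvd_sub h1 hdvd
        have h3 : p ^ f - (p ^ f - 1) = 1 := by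
          have := q_sub_one_pos (p := p) hf
          omega
        rw [h3] at h2
        exact hp.one_lt.ne' (Nat.dvd_one.mp h2)
    · intro g hg
      rw [hLfix, hH]
      refine ⟨?_, ?_⟩
      · intro x
        have e : x * g ^ (n * ((p - 1) * (p ^ f - 1))) * x⁻¹ =
            ((x * g * x⁻¹) ^ n) ^ ((p - 1) * (p ^ f - 1)) := by
          rw [← pow_mul, conj_pow]
        rw [e]
        exact H₀.pow_mem (hpow _ (hlevn.conj_mem g hg x)) _
      · rw [mul_comm n, pow_mul]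
        exact (stab f ζ π).pow_mem (pow_mem_stab hf hζ hπ hg) n

end Fermat.Agent.S56x.Local.TameFieldGalois
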