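import Fermat.Agent.S56x.Local.IndFinal
import Fermat.Agent.S56x.Local.TameFieldGalois

/-!
# P-S56 block (A): the level-free count over `ℚ_{p²}` from the count at a tame level

`IndFinal.CountQp2Statement p k` (the only input of the irreducible case, consumed by
`FlatCountMain.flatCountStatementSplit_of_counts`) quantifies over admissible characters `μ` of
`G_{ℚ_{p²}} = UnrLevels.lev p 2` with a side condition at the FULL inertia subgroup.  The `p`-adic
instantiation of the count (`CWAssemblyQp2`) works at a finite tame level `E`.  This file is the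
adapter:

* `LevelCountStatement p k` : the count for a character `μ` which is trivial on `G_E`, where `E` is
  a level with all the properties given by `TameFieldGalois.exists_galois_field`
  (`G_E ≤ G_{ℚ_{p²}}`, `ℚ_{p²}(ζ, π) ≤ E`, `Gal(E/ℚ_{p²})` abelian of exponent prime to `p`), with
  the side condition at the inertia subgroup relative to `E`;
* `exists_level_of_char` : such a level for an admissible character;
* `countQp2Statement_of_levelCount : LevelCountStatement p k → CountQp2Statement p k`.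
-/

set_option autoImplicit false
set_option linter.unusedSectionVars false
set_option linter.style.haveILetI false

open IsLocalRing

namespace Fermat.Agent.S56x.Local.IndFinal

open Fermat.Agent.S56x.Local.Devissage Fermat.Agent.S56x.Local.TameRep
  Fermat.Agent.S56x.Local.TameRepPadic Fermat.Agent.S56x.Local.PadicFinite
  Fermat.Agent.S56x.Local.BddAlg Fermat.Agent.S56x.Local.BddDef Module

variable (p : ℕ) [Fact p.Prime]

local notation "Ω" => PadicAlgCl p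
local notation "Gq" => (PadicAlgCl p ≃ₐ[ℚ_[p]] PadicAlgCl p)

/-- **The count over `ℚ_{p²}` at a tame level `E`.** -/
def LevelCountStatement (k : Type) [Field k] : Prop :=
  ∀ [Finite k] [CharP k p], p ≠ 2 →
    ∀ (E : IntermediateField ℚ_[p] (PadicAlgCl p)) [FiniteDimensional ℚ_[p] E]
      [IsGalois ℚ_[p] E],
      E.fixingSubgroup ≤ UnrLevels.lev p 2 → UnrLevels.unrField p 2 ≤ E →
      ∀ ζ π : Ω, IsPrimitiveRoot ζ p → π ^ (p ^ 2 - 1) = -(p : Ω) → ζ ∈ E → π ∈ E →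
      (∀ g h : Gq, g ∈ UnrLevels.lev p 2 → h ∈ UnrLevels.lev p 2 →
        g * h * g⁻¹ * h⁻¹ ∈ E.fixingSubgroup) →
      (∃ n : ℕ, Nat.Coprime n p ∧ ∀ g ∈ UnrLevels.lev p 2, g ^ n ∈ E.fixingSubgroup) →
      ∀ μ : UnrLevels.lev p 2 →* kˣ, chr μ ∈ bddAlgOn p (UnrLevels.lev p 2) k →
        (∀ s : UnrLevels.lev p 2, (s : Gq) ∈ E.fixingSubgroup → μ s = 1) →
        (μ = 1 ∨ ∃ t : UnrLevels.lev p 2, (t : Gq) ∈ inertiaE p E ∧ (μ t : k) ≠ 1 ∧
          (μ t : k) ≠ omegaK p k (t : Gq)) →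
        Module.rank k (H1A (bddAlgOn p (UnrLevels.lev p 2) k) μ) ≤ 1

variable {k : Type} [Field k]

/-- an admissible character of `G_{ℚ_{p²}}` is trivial on `G_{E₁} ∩ G_{ℚ_{p²}}` for a finite
extension `E₁`. -/
theorem exists_finite_of_chr_mem (μ : UnrLevels.lev p 2 →* kˣ)
    (hμ : chr μ ∈ bddAlgOn p (UnrLevels.lev p 2) k) :
    ∃ E₁ : IntermediateField ℚ_[p] Ω, FiniteDimensional ℚ_[p] E₁ ∧
      ∀ s : UnrLevels.lev p 2, (s : Gq) ∈ E₁.fixingSubgroup → μ s = 1 := by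
  obtain ⟨E₁, ⟨hfin, -, -⟩, hinv⟩ := mem_bddAlgOn_iff_isBddFunOn.1 hμ
  refine ⟨E₁, hfin, fun s hs => ?_⟩
  have h1 := hinv 1 s hs
  rw [one_mul] at h1
  apply Units.ext
  have h2 : chr μ (1 : UnrLevels.lev p 2) = 1 := by simp [chr]
  rw [h2] at h1
  exact h1

/-- **the tame level of an admissible character of `G_{ℚ_{p²}}`.** -/
theorem exists_level_of_char [Finite k] [CharP k p] (hp2 : p ≠ 2)
    (μ : UnrLevels.lev p 2 →* kˣ) (hμ : chr μ ∈ bddAlgOn p (UnrLevels.lev p 2) k)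
    {ζ π : Ω} (hζ : IsPrimitiveRoot ζ p) (hπ : π ^ (p ^ 2 - 1) = -(p : Ω)) :
    ∃ E : IntermediateField ℚ_[p] Ω, FiniteDimensional ℚ_[p] E ∧ IsGalois ℚ_[p] E ∧
      (∀ s : UnrLevels.lev p 2, (s : Gq) ∈ E.fixingSubgroup → μ s = 1) ∧
      E.fixingSubgroup ≤ UnrLevels.lev p 2 ∧ UnrLevels.unrField p 2 ≤ E ∧ ζ ∈ E ∧ π ∈ E ∧
      (∀ g h : Gq, g ∈ UnrLevels.lev p 2 → h ∈ UnrLevels.lev p 2 →
        g * h * g⁻¹ * h⁻¹ ∈ E.fixingSubgroup) ∧
      (∃ n : ℕ, Nat.Coprime n p ∧ ∀ g ∈ UnrLevels.lev p 2, g ^ n ∈ E.fixingSubgroup) := by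
  haveI := UnrLevels.finiteDimensional_unrField (q := p) (m := 2) two_pos
  obtain ⟨E₁, hE₁fin, hE₁⟩ := exists_finite_of_chr_mem p μ hμ
  haveI := hE₁fin
  set H₀ : Subgroup Gq := (μ.ker).map (UnrLevels.lev p 2).subtype with hH₀
  have hmem : ∀ (g : Gq) (hg : g ∈ UnrLevels.lev p 2), μ ⟨g, hg⟩ = 1 → g ∈ H₀ := by
    intro g hg h1
    rw [hH₀, Subgroup.mem_map]
    exact ⟨⟨g, hg⟩, MonoidHom.mem_ker.2 h1, rfl⟩
  have hopen : ∃ E : IntermediateField ℚ_[p] Ω, FiniteDimensional ℚ_[p] E ∧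
      E.fixingSubgroup ≤ H₀ := by
    refine ⟨E₁ ⊔ UnrLevels.unrField p 2, inferInstance, fun σ hσ => ?_⟩
    have h1 : σ ∈ E₁.fixingSubgroup := IntermediateField.fixingSubgroup_antitone le_sup_left hσ
    have h2 : σ ∈ UnrLevels.lev p 2 := IntermediateField.fixingSubgroup_antitone le_sup_right hσ
    exact hmem σ h2 (hE₁ ⟨σ, h2⟩ h1)
  have hab : ∀ g h : Gq, g ∈ UnrLevels.lev p 2 → h ∈ UnrLevels.lev p 2 →
      g * h * g⁻¹ * h⁻¹ ∈ H₀ := by
    intro g h hg hh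
    have hmem' : g * h * g⁻¹ * h⁻¹ ∈ UnrLevels.lev p 2 :=
      mul_mem (mul_mem (mul_mem hg hh) (inv_mem hg)) (inv_mem hh)
    refine hmem _ hmem' ?_
    have h1 : (⟨g * h * g⁻¹ * h⁻¹, hmem'⟩ : UnrLevels.lev p 2) =
        ⟨g, hg⟩ * ⟨h, hh⟩ * ⟨g, hg⟩⁻¹ * ⟨h, hh⟩⁻¹ := rfl
    rw [h1, map_mul, map_mul, map_mul, map_inv, map_inv, mul_comm (μ ⟨g, hg⟩), mul_assoc,
      mul_assoc, mul_inv_cancel_left, mul_inv_cancel]
  have hexp : ∃ n : ℕ, Nat.Coprime n p ∧ ∀ g ∈ UnrLevels.lev p 2, g ^ n ∈ H₀ := by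
    refine ⟨2 * (Nat.card k - 1), coprime_two_mul_card_sub_one hp2, fun g hg => ?_⟩
    refine hmem _ (pow_mem hg _) ?_
    have h1 : (⟨g ^ (2 * (Nat.card k - 1)), pow_mem hg _⟩ : UnrLevels.lev p 2) =
        (⟨g, hg⟩ : UnrLevels.lev p 2) ^ (2 * (Nat.card k - 1)) := rfl
    rw [h1, map_pow, mul_comm, pow_mul]
    have h2 : μ ⟨g, hg⟩ ^ (Nat.card k - 1) = 1 := by
      apply Units.ext
      rw [Units.val_pow_eq_pow_val, Units.val_one]
      haveI : Fintype k := Fintype.ofFinite k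
      rw [Nat.card_eq_fintype_card]
      exact FiniteField.pow_card_sub_one_eq_one _ (Units.ne_zero _)
    rw [h2, one_pow]
  obtain ⟨E, hEf, hEg, hEH, hElev, hEK, hζE, hπE, habE, hexpE⟩ :=
    TameFieldGalois.exists_galois_field two_pos H₀ hopen hab hexp hζ hπ
  refine ⟨E, hEf, hEg, fun s hs => ?_, hElev, hEK, hζE, hπE, habE, hexpE⟩
  have h1 := hEH hs
  rw [hH₀, Subgroup.mem_map] at h1
  obtain ⟨s', hs', hss'⟩ := h1
  have : s' = s := Subtype.ext hss'
  rw [← this]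
  exact MonoidHom.mem_ker.1 hs'

/-- **the level-free count from the count at the tame level.** -/
theorem countQp2Statement_of_levelCount (h : LevelCountStatement p k) :
    CountQp2Statement p k := by
  intro _ _ hp2 μ hμ hside
  have hp : p.Prime := Fact.out
  haveI : NeZero p := ⟨hp.ne_zero⟩
  obtain ⟨ζ, hζ⟩ := HasEnoughRootsOfUnity.exists_primitiveRoot Ω p
  have hpos : 0 < p ^ 2 - 1 := by
    have : 1 < p ^ 2 := Nat.one_lt_pow two_ne_zero hp.one_lt
    omega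
  obtain ⟨π, hπ⟩ := IsAlgClosed.exists_pow_nat_eq (-(p : Ω)) hpos
  obtain ⟨E, hEf, hEg, hμE, hElev, hEK, hζE, hπE, habE, hexpE⟩ :=
    exists_level_of_char p hp2 μ hμ hζ hπ
  haveI := hEf
  haveI := hEg
  refine h hp2 E hElev hEK ζ π hζ hπ hζE hπE habE hexpE μ hμ hμE ?_
  rcases hside with h1 | ⟨t, ht, ht1, ht2⟩
  · exact Or.inl h1
  · exact Or.inr ⟨t, localInertia'_le_inertiaE p E ht, ht1, ht2⟩

end Fermat.Agent.S56x.Local.IndFinal
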