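import Mathlib
import Fermat.Agent.S56x.Ram.TameStructure

/-!
# P-S56, block (A) (helper2): a generator of a tame inertia group

Abstract core of leaf (B3) of `CWPadicData` over `ℚ_{p^f}` (the hypotheses `hg₀`, `ht` of
`CWLocalQp2.rank_H1A_le_one_Qp2` / `CWLocal.rank_H1A_le_one_Qp`).

`G` a finite group acting faithfully on a discrete valuation ring `B` whose residue characteristic
is `q` (`(q : B) ∈ 𝔪`), `I = lowerGroup G B 1` the inertia group, `ϖ` a uniformizer,
`theta hϖ : I →* ResidueField B` Serre's `θ₀` (`S56x/Ram/TameStructure`).  If `q ∤ #I` (tame) then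

* `theta_injective` : `θ₀` is injective;
* `isCyclic_inertia` : `I` is cyclic;
* `exists_inert_generator` : there is `g₀ ∈ I` generating `I` such that for every `c : B` with
  `g₀ • ϖ = c * ϖ` the residue class of `c` has order `#I`;
* `residueMap_eq_of_mem_lowerGroup` : the elements of `I` act trivially on the residue field.
-/

set_option autoImplicit false
set_option linter.unusedSectionVars false
set_option linter.style.haveILetI false

namespace Fermat.Agent.S56x.Local.InertGenerator

open IsLocalRing Fermat.Agent.S56x.Ram Fermat.Agent.S56x.Ram.TameStructure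

variable {G : Type*} [Group G] {B : Type*} [CommRing B] [IsDomain B] [IsDiscreteValuationRing B]
  [MulSemiringAction G B]

/-! ### Inertia acts trivially on the residue field -/

/-- a local ring endomorphism congruent to the identity modulo the maximal ideal induces the
identity on the residue field. -/
theorem residueMap_eq_of_sub_mem (f : B →+* B) [IsLocalHom f]
    (hf : ∀ x : B, f x - x ∈ maximalIdeal B) (y : ResidueField B) :
    ResidueField.map f y = y := by
  obtain ⟨x, rfl⟩ := residue_surjective y
  rw [ResidueField.map_residue, ← sub_eq_zero, ← map_sub, residue_eq_zero_iff]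
  exact hf x

/-- the elements of the inertia group act trivially on the residue field. -/
theorem sub_mem_of_mem_lowerGroup {σ : G} (hσ : σ ∈ lowerGroup G B 1) (x : B) :
    σ • x - x ∈ maximalIdeal B := by
  have := mem_lowerGroup.mp hσ x
  rwa [pow_one] at this

/-! ### The uniformizer quotient -/

variable {ϖ : B} (hϖ : Irreducible ϖ)

include hϖ in
/-- any `c` with `σ • ϖ = c * ϖ` is the unit `unitOf hϖ σ`. -/
theorem eq_unitOf {σ : G} {c : B} (hc : σ • ϖ = c * ϖ) : c = (unitOf hϖ σ : B) := by
  have h1 := smul_unif hϖ σ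
  rw [hc] at h1
  exact mul_right_cancel₀ hϖ.ne_zero h1

/-! ### The tame case -/

section Tame

variable [Finite G] [FaithfulSMul G B] {q : ℕ}

include hϖ in
/-- **`θ₀` is injective on a tame inertia group.** -/
theorem theta_injective (hqB : (q : B) ∈ maximalIdeal B)
    (hcop : (Nat.card ↥(lowerGroup G B 1)).Coprime q) : Function.Injective (theta (G := G) hϖ) := by
  rw [injective_iff_map_eq_one]
  intro σ hσ
  have h1 : (σ : G) ∈ tameKer G B := mem_tameKer_of_theta_eq_one (G := G) hϖ hσ
  obtain ⟨n, hn⟩ := exists_pow_eq_one (G := G) (σ := (σ : G)) hqB h1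
  have h2 : σ ^ q ^ n = 1 := Subtype.ext (by simpa using hn)
  have h3 : orderOf σ ∣ q ^ n := orderOf_dvd_of_pow_eq_one h2
  have h4 : orderOf σ ∣ Nat.card ↥(lowerGroup G B 1) := orderOf_dvd_natCard σ
  have h5 : (Nat.card ↥(lowerGroup G B 1)).Coprime (q ^ n) := Nat.Coprime.pow_right n hcop
  have h6 : orderOf σ = 1 := Nat.eq_one_of_dvd_coprimes h5 h4 h3
  exact orderOf_eq_one_iff.mp h6

include hϖ in
/-- **a tame inertia group is cyclic.** -/
theorem isCyclic_inertia (hqB : (q : B) ∈ maximalIdeal B)
    (hcop : (Nat.card ↥(lowerGroup G B 1)).Coprime q) : IsCyclic ↥(lowerGroup G B 1) :=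
  isCyclic_of_injective_ringHom (theta (G := G) hϖ) (theta_injective hϖ hqB hcop)

include hϖ in
/-- **a generator of a tame inertia group** whose tame character value has order `#I`. -/
theorem exists_inert_generator (hqB : (q : B) ∈ maximalIdeal B)
    (hcop : (Nat.card ↥(lowerGroup G B 1)).Coprime q) :
    ∃ g₀ : G, g₀ ∈ lowerGroup G B 1 ∧
      (∀ c : B, g₀ • ϖ = c * ϖ → orderOf (residue B c) = Nat.card ↥(lowerGroup G B 1)) ∧
      (∀ σ ∈ lowerGroup G B 1, σ ∈ Subgroup.zpowers g₀) ∧
      orderOf g₀ = Nat.card ↥(lowerGroup G B 1) := by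
  haveI := isCyclic_inertia hϖ hqB hcop
  obtain ⟨τ, hτ⟩ := IsCyclic.exists_generator (α := ↥(lowerGroup G B 1))
  have hord : orderOf τ = Nat.card ↥(lowerGroup G B 1) :=
    orderOf_eq_card_of_forall_mem_zpowers hτ
  refine ⟨(τ : G), τ.2, fun c hc => ?_, fun σ hσ => ?_, ?_⟩
  · rw [eq_unitOf hϖ hc, ← theta_apply hϖ τ,
      orderOf_injective (theta (G := G) hϖ) (theta_injective hϖ hqB hcop) τ, hord]
  · obtain ⟨n, hn⟩ := Subgroup.mem_zpowers_iff.mp (hτ ⟨σ, hσ⟩)
    refine Subgroup.mem_zpowers_iff.mpr ⟨n, ?_⟩
    have := congrArg (fun x : ↥(lowerGroup G B 1) => (x : G)) hn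
    simpa using this
  · rw [← hord]
    exact (Subgroup.orderOf_coe τ)

end Tame

end Fermat.Agent.S56x.Local.InertGenerator
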