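import Mathlib
import Fermat.Agent.S56x.Local.PadicFinite
import Fermat.Agent.S56x.Local.UnrLevels

/-!
# P-S56, block (A), count side: `p`-adic roots (helper8)

Sub-lemmas for the `p`-adic data (L1) `CWPadicData` (helper48) and its `ℚ_{p²}`-analogue (helper19).
`Ω = PadicAlgCl p`; everything is norm-based (no Hensel).

* (P1) norms: `exists_pow_eq_neg_p`, `norm_natCast_p`, `norm_pow_of_pow_eq_neg_p`
  (`π ^ n = -p → ‖π‖ ^ n = p⁻¹`), `norm_algEquiv_apply` (automorphisms are isometries),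
  `norm_one_sub_eq_one_of_coprime` (`ξ ^ n = 1`, `ξ ≠ 1`, `p ∤ n` ⇒ `‖1 - ξ‖ = 1`),
  `norm_sub_one_pow_add_p_le`, `norm_sub_one_lt_one`, `norm_sub_one_pow`
  (`ξ ^ p = 1`, `ξ ≠ 1` ⇒ `‖(ξ-1)^(p-1) + p‖ ≤ p⁻¹ ‖ξ-1‖`, `‖ξ - 1‖ < 1`, `‖ξ - 1‖ ^ (p-1) = p⁻¹`).
* (P2) `ℚ_p(π) = ℚ_p(ζ_p)` for `π ^ (p-1) = -p`: `apply_zeta_eq_of_apply_pi_eq`,
  `apply_pi_eq_of_apply_zeta_eq`, `adjoin_pi_eq_adjoin_zeta`, `zeta_mem_adjoin_pi`.
* (P3) value group of `K(π)`, `π ^ e = -p`, `K` with value group `p^ℤ`.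
-/

set_option autoImplicit false
set_option linter.unusedSectionVars false
set_option linter.style.haveILetI false

namespace Fermat.Agent.S56x.Local.PadicRoots

open Fermat.Agent.S56x.Local.PadicFinite Fermat.Agent.S56x.Local.UnrLevels

variable (p : ℕ) [Fact p.Prime]

local notation "Ω" => PadicAlgCl p

/-! ### (P1) norms -/

theorem one_lt_p_real : (1 : ℝ) < (p : ℝ) := by
  exact_mod_cast (Fact.out : p.Prime).one_lt

theorem p_inv_lt_one : ((p : ℝ))⁻¹ < 1 := inv_lt_one_of_one_lt₀ (one_lt_p_real p)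

theorem p_inv_pos : (0 : ℝ) < ((p : ℝ))⁻¹ :=
  inv_pos.mpr (lt_trans zero_lt_one (one_lt_p_real p))

/-- `‖p‖ = p⁻¹` in `PadicAlgCl p`. -/
theorem norm_natCast_p : ‖((p : ℕ) : Ω)‖ = ((p : ℝ))⁻¹ := by
  have h : ((p : ℕ) : Ω) = algebraMap ℚ_[p] Ω ((p : ℕ) : ℚ_[p]) := by simp
  rw [h]
  have := PadicAlgCl.norm_extends p ((p : ℕ) : ℚ_[p])
  rw [this, Padic.norm_p]

theorem norm_natCast_le_one (n : ℕ) : ‖((n : ℕ) : Ω)‖ ≤ 1 := by
  have h : ((n : ℕ) : Ω) = algebraMap ℚ_[p] Ω ((n : ℕ) : ℚ_[p]) := by simp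
  rw [h]
  have := PadicAlgCl.norm_extends p ((n : ℕ) : ℚ_[p])
  rw [this]
  have h2 := Padic.norm_int_le_one (p := p) (n : ℤ)
  rwa [Int.cast_natCast] at h2

theorem norm_natCast_eq_one_of_not_dvd {n : ℕ} (hn : ¬ p ∣ n) : ‖((n : ℕ) : Ω)‖ = 1 := by
  have h : ((n : ℕ) : Ω) = algebraMap ℚ_[p] Ω ((n : ℕ) : ℚ_[p]) := by simp
  rw [h]
  have := PadicAlgCl.norm_extends p ((n : ℕ) : ℚ_[p])
  rw [this, Padic.norm_natCast_eq_one_iff]
  exact ((Fact.out : p.Prime).coprime_iff_not_dvd.mpr hn)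

theorem norm_natCast_le_of_dvd {n : ℕ} (hn : p ∣ n) : ‖((n : ℕ) : Ω)‖ ≤ ((p : ℝ))⁻¹ := by
  obtain ⟨m, rfl⟩ := hn
  rw [Nat.cast_mul, norm_mul, norm_natCast_p]
  exact mul_le_of_le_one_right (p_inv_pos p).le (norm_natCast_le_one p m)

/-- `ℚ_p`-automorphisms of `PadicAlgCl p` are isometries. -/
theorem norm_algEquiv_apply (σ : Ω ≃ₐ[ℚ_[p]] Ω) (x : Ω) : ‖σ x‖ = ‖x‖ := by
  rw [← PadicAlgCl.spectralNorm_eq, ← PadicAlgCl.spectralNorm_eq]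
  exact (spectralNorm_eq_of_equiv σ x).symm

/-- roots of `-p`. -/
theorem exists_pow_eq_neg_p {n : ℕ} (hn : n ≠ 0) : ∃ π : Ω, π ^ n = -((p : ℕ) : Ω) :=
  IsAlgClosed.exists_pow_nat_eq _ (Nat.pos_of_ne_zero hn)

variable {p}

theorem norm_pow_of_pow_eq_neg_p {π : Ω} {n : ℕ} (h : π ^ n = -((p : ℕ) : Ω)) :
    ‖π‖ ^ n = ((p : ℝ))⁻¹ := by
  rw [← norm_pow, h, norm_neg, norm_natCast_p]

theorem norm_lt_one_of_pow_eq_neg_p {π : Ω} {n : ℕ} (h : π ^ n = -((p : ℕ) : Ω)) : ‖π‖ < 1 := by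
  by_contra hge
  rw [not_lt] at hge
  have h1 : 1 ≤ ‖π‖ ^ n := one_le_pow₀ hge
  rw [norm_pow_of_pow_eq_neg_p h] at h1
  exact absurd (p_inv_lt_one p) (not_lt.mpr h1)

theorem norm_pos_of_pow_eq_neg_p {π : Ω} {n : ℕ} (h : π ^ n = -((p : ℕ) : Ω)) : 0 < ‖π‖ := by
  rw [norm_pos_iff]
  rintro rfl
  have h2 := norm_pow_of_pow_eq_neg_p h
  rcases Nat.eq_zero_or_pos n with h0 | h0
  · subst h0
    rw [pow_zero] at h2
    exact absurd (p_inv_lt_one p) (by rw [← h2]; exact lt_irrefl _)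
  · rw [norm_zero, zero_pow h0.ne'] at h2
    exact absurd (p_inv_pos p) (by rw [← h2]; exact lt_irrefl _)

theorem ne_zero_of_pow_eq_neg_p {π : Ω} {n : ℕ} (h : π ^ n = -((p : ℕ) : Ω)) : π ≠ 0 :=
  norm_pos_iff.mp (norm_pos_of_pow_eq_neg_p h)

/-- two nonnegative reals with the same `n`-th power. -/
theorem eq_of_pow_eq {a b : ℝ} (ha : 0 ≤ a) (hb : 0 ≤ b) {n : ℕ} (hn : n ≠ 0)
    (h : a ^ n = b ^ n) : a = b :=
  (pow_left_inj₀ ha hb hn).mp h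

theorem norm_root_of_unity {ξ : Ω} {n : ℕ} (hn : n ≠ 0) (h : ξ ^ n = 1) : ‖ξ‖ = 1 := by
  have h1 : ‖ξ‖ ^ n = 1 := by rw [← norm_pow, h, norm_one]
  exact (pow_eq_one_iff_of_nonneg (norm_nonneg ξ) hn).mp h1

/-- `‖ξ ^ i - 1‖ ≤ ‖ξ - 1‖` for `‖ξ‖ ≤ 1`. -/
theorem norm_pow_sub_one_le {ξ : Ω} (hξ : ‖ξ‖ ≤ 1) (i : ℕ) : ‖ξ ^ i - 1‖ ≤ ‖ξ - 1‖ := by
  induction i with
  | zero => simp
  | succ i ih =>
    have h : ξ ^ (i + 1) - 1 = ξ ^ i * (ξ - 1) + (ξ ^ i - 1) := by ring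
    rw [h]
    refine le_trans (IsUltrametricDist.norm_add_le_max _ _) (max_le ?_ ih)
    rw [norm_mul, norm_pow]
    exact mul_le_of_le_one_left (norm_nonneg _) (pow_le_one₀ (norm_nonneg _) hξ)

/-- `‖∑_{i<n} ξ^i - n‖ ≤ ‖ξ - 1‖`. -/
theorem norm_geom_sum_sub_le {ξ : Ω} (hξ : ‖ξ‖ ≤ 1) (n : ℕ) :
    ‖(∑ i ∈ Finset.range n, ξ ^ i) - (n : Ω)‖ ≤ ‖ξ - 1‖ := by
  have h : (∑ i ∈ Finset.range n, ξ ^ i) - (n : Ω) = ∑ i ∈ Finset.range n, (ξ ^ i - 1) := by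
    rw [Finset.sum_sub_distrib, Finset.sum_const, Finset.card_range, nsmul_eq_mul, mul_one]
  rw [h]
  exact IsUltrametricDist.norm_sum_le_of_forall_le_of_nonneg (norm_nonneg _)
    (fun i _ => norm_pow_sub_one_le hξ i)

/-- **roots of unity of order prime to `p` are distinct modulo the maximal ideal.** -/
theorem norm_one_sub_eq_one_of_coprime {ξ : Ω} {n : ℕ} (hn : ¬ p ∣ n) (h : ξ ^ n = 1)
    (h1 : ξ ≠ 1) : ‖1 - ξ‖ = 1 := by
  have hn0 : n ≠ 0 := by rintro rfl; exact hn (dvd_zero p)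
  have hξ : ‖ξ‖ = 1 := norm_root_of_unity hn0 h
  have hle : ‖1 - ξ‖ ≤ 1 := by
    rw [sub_eq_add_neg]
    refine le_trans (IsUltrametricDist.norm_add_le_max _ _) (max_le ?_ ?_)
    · rw [norm_one]
    · rw [norm_neg]; exact hξ.le
  refine le_antisymm hle ?_
  by_contra hlt
  rw [not_le] at hlt
  have hsum : ∑ i ∈ Finset.range n, ξ ^ i = 0 := by
    have h2 : (ξ - 1) * ∑ i ∈ Finset.range n, ξ ^ i = 0 := by
      rw [mul_comm, geom_sum_mul, h, sub_self]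
    rcases mul_eq_zero.mp h2 with h3 | h3
    · exact absurd (sub_eq_zero.mp h3) h1
    · exact h3
  have h3 := norm_geom_sum_sub_le hξ.le n
  rw [hsum, zero_sub, norm_neg, norm_natCast_eq_one_of_not_dvd p hn, ← norm_neg, neg_sub] at h3
  exact absurd hlt (not_lt.mpr h3)

/-- binomial expansion of `(1 + x) ^ (n + 1)` with the two extreme terms split off. -/
theorem one_add_pow_succ {R : Type*} [CommRing R] (x : R) (n : ℕ) :
    (1 + x) ^ (n + 1) =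
      1 + x * (∑ m ∈ Finset.range n, x ^ m * ((n + 1).choose (m + 1) : R)) + x ^ (n + 1) := by
  rw [add_comm 1 x, add_pow, Finset.sum_range_succ, Finset.sum_range_succ', Finset.mul_sum]
  simp only [one_pow, mul_one, pow_zero, Nat.choose_zero_right, Nat.cast_one, Nat.choose_self,
    Nat.sub_self]
  have : ∀ i ∈ Finset.range n, x ^ (i + 1) * ((n + 1).choose (i + 1) : R) =
      x * (x ^ i * ((n + 1).choose (i + 1) : R)) := fun i _ => by ring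
  rw [Finset.sum_congr rfl this]
  ring

theorem norm_sub_one_le_one {ξ : Ω} {n : ℕ} (hn : n ≠ 0) (h : ξ ^ n = 1) : ‖ξ - 1‖ ≤ 1 := by
  rw [sub_eq_add_neg]
  refine le_trans (IsUltrametricDist.norm_add_le_max _ _) (max_le ?_ ?_)
  · exact (norm_root_of_unity hn h).le
  · rw [norm_neg, norm_one]

/-- **`(ξ - 1)^(p-1) ≡ -p` modulo `p (ξ - 1)`** for a `p`-th root of unity `ξ ≠ 1`. -/
theorem norm_sub_one_pow_add_p_le {ξ : Ω} (h : ξ ^ p = 1) (h1 : ξ ≠ 1) :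
    ‖(ξ - 1) ^ (p - 1) + ((p : ℕ) : Ω)‖ ≤ ((p : ℝ))⁻¹ * ‖ξ - 1‖ := by
  have hp : p.Prime := Fact.out
  obtain ⟨n', hn'⟩ : ∃ n', p = n' + 2 := Nat.exists_eq_add_of_le' hp.two_le
  have hx0 : ξ - 1 ≠ 0 := sub_ne_zero.mpr h1
  have hxle : ‖ξ - 1‖ ≤ 1 := norm_sub_one_le_one hp.ne_zero h
  have hexp : (1 + (ξ - 1)) ^ (n' + 1 + 1) = 1 := by
    have h2 : (1 : Ω) + (ξ - 1) = ξ := by ring
    have h3 : n' + 1 + 1 = p := by omega
    rw [h2, h3, h]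
  rw [one_add_pow_succ (ξ - 1) (n' + 1), Finset.sum_range_succ'] at hexp
  simp only [pow_zero, one_mul, zero_add, Nat.choose_one_right] at hexp
  have hp1 : p - 1 = n' + 1 := by omega
  have hpc : ((n' + 1 + 1 : ℕ) : Ω) = ((p : ℕ) : Ω) := by
    congr 1; omega
  have hT : (∑ i ∈ Finset.range n', (ξ - 1) ^ (i + 1) * (((n' + 1 + 1).choose (i + 1 + 1) : ℕ) : Ω))
      + ((p : ℕ) : Ω) + (ξ - 1) ^ (n' + 1) = 0 := by
    have h4 : (ξ - 1) * ((∑ i ∈ Finset.range n',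
        (ξ - 1) ^ (i + 1) * (((n' + 1 + 1).choose (i + 1 + 1) : ℕ) : Ω))
      + ((p : ℕ) : Ω) + (ξ - 1) ^ (n' + 1)) = 0 := by
      rw [← hpc]
      linear_combination hexp
    exact (mul_eq_zero.mp h4).resolve_left hx0
  have h5 : (ξ - 1) ^ (p - 1) + ((p : ℕ) : Ω) =
      -(∑ i ∈ Finset.range n',
        (ξ - 1) ^ (i + 1) * (((n' + 1 + 1).choose (i + 1 + 1) : ℕ) : Ω)) := by
    rw [hp1]
    linear_combination hT
  rw [h5, norm_neg]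
  refine IsUltrametricDist.norm_sum_le_of_forall_le_of_nonneg
    (mul_nonneg (p_inv_pos p).le (norm_nonneg _)) (fun i hi => ?_)
  rw [norm_mul, mul_comm]
  have hdvd : p ∣ (n' + 1 + 1).choose (i + 1 + 1) := by
    have h6 : n' + 1 + 1 = p := by omega
    rw [h6]
    refine hp.dvd_choose_self (by omega) ?_
    have := Finset.mem_range.mp hi
    omega
  refine mul_le_mul (norm_natCast_le_of_dvd p hdvd) ?_ (norm_nonneg _) (p_inv_pos p).le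
  rw [norm_pow, pow_succ]
  exact mul_le_of_le_one_left (norm_nonneg _) (pow_le_one₀ (norm_nonneg _) hxle)

/-- `‖ξ - 1‖ < 1` for a `p`-th root of unity. -/
theorem norm_sub_one_lt_one {ξ : Ω} (h : ξ ^ p = 1) : ‖ξ - 1‖ < 1 := by
  have hp : p.Prime := Fact.out
  by_cases h1 : ξ = 1
  · rw [h1, sub_self, norm_zero]; exact one_pos
  have hxle : ‖ξ - 1‖ ≤ 1 := norm_sub_one_le_one hp.ne_zero h
  have h2 := norm_sub_one_pow_add_p_le h h1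
  have h3 : ‖(ξ - 1) ^ (p - 1)‖ ≤ ((p : ℝ))⁻¹ := by
    have h4 : (ξ - 1) ^ (p - 1) = ((ξ - 1) ^ (p - 1) + ((p : ℕ) : Ω)) + -((p : ℕ) : Ω) := by ring
    rw [h4]
    refine le_trans (IsUltrametricDist.norm_add_le_max _ _) (max_le ?_ ?_)
    · exact le_trans h2 (mul_le_of_le_one_right (p_inv_pos p).le hxle)
    · rw [norm_neg, norm_natCast_p]
  by_contra hge
  rw [not_lt] at hge
  have h5 : 1 ≤ ‖(ξ - 1) ^ (p - 1)‖ := by
    rw [norm_pow]; exact one_le_pow₀ hge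
  exact absurd (lt_of_le_of_lt (le_trans h5 h3) (p_inv_lt_one p)) (lt_irrefl _)

/-- **`‖ξ - 1‖ ^ (p - 1) = p⁻¹`** for a `p`-th root of unity `ξ ≠ 1`. -/
theorem norm_sub_one_pow {ξ : Ω} (h : ξ ^ p = 1) (h1 : ξ ≠ 1) :
    ‖ξ - 1‖ ^ (p - 1) = ((p : ℝ))⁻¹ := by
  have h2 := norm_sub_one_pow_add_p_le h h1
  have h3 : ‖(ξ - 1) ^ (p - 1) + ((p : ℕ) : Ω)‖ < ‖-((p : ℕ) : Ω)‖ := by
    rw [norm_neg, norm_natCast_p]
    refine lt_of_le_of_lt h2 ?_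
    have := norm_sub_one_lt_one h
    exact mul_lt_of_lt_one_right (p_inv_pos p) this
  have h4 : (ξ - 1) ^ (p - 1) = ((ξ - 1) ^ (p - 1) + ((p : ℕ) : Ω)) + -((p : ℕ) : Ω) := by ring
  rw [← norm_pow, h4, IsUltrametricDist.norm_add_eq_max_of_norm_ne_norm h3.ne, max_eq_right h3.le,
    norm_neg, norm_natCast_p]

theorem norm_one_sub_pow {ξ : Ω} (h : ξ ^ p = 1) (h1 : ξ ≠ 1) :
    ‖1 - ξ‖ ^ (p - 1) = ((p : ℝ))⁻¹ := by
  rw [← norm_neg, neg_sub]; exact norm_sub_one_pow h h1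

theorem pred_ne_zero : p - 1 ≠ 0 := by
  have := (Fact.out : p.Prime).two_le
  omega

/-- all `ξ - 1`, `ξ ≠ 1` a `p`-th root of unity, have the same norm as any root of
`X ^ (p-1) + p`. -/
theorem norm_sub_one_eq_norm_pi {ξ π : Ω} (h : ξ ^ p = 1) (h1 : ξ ≠ 1)
    (hπ : π ^ (p - 1) = -((p : ℕ) : Ω)) : ‖ξ - 1‖ = ‖π‖ :=
  eq_of_pow_eq (norm_nonneg _) (norm_nonneg _) pred_ne_zero
    ((norm_sub_one_pow h h1).trans (norm_pow_of_pow_eq_neg_p hπ).symm)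

/-! ### (P2) `ℚ_p(π) = ℚ_p(ζ_p)` for `π ^ (p - 1) = -p` -/

/-- the `(p - 1)`-th roots of unity of `PadicAlgCl p` lie in `ℚ_p`. -/
theorem mem_bot_of_pow_pred_eq_one {μ : Ω} (h : μ ^ (p - 1) = 1) :
    μ ∈ (⊥ : IntermediateField ℚ_[p] Ω) := by
  have h1 : Module.finrank ℚ_[p] (unrField p 1) = 1 := finrank_unrField (q := p) one_pos
  have h2 : unrField p 1 = ⊥ := IntermediateField.finrank_eq_one_iff.mp h1
  rw [← h2, unrField]
  apply IntermediateField.subset_adjoin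
  show μ ^ (p ^ 1 - 1) = 1
  rw [pow_one]; exact h

theorem apply_eq_of_pow_pred_eq_one (σ : Ω ≃ₐ[ℚ_[p]] Ω) {μ : Ω} (h : μ ^ (p - 1) = 1) :
    σ μ = μ := by
  obtain ⟨a, rfl⟩ := IntermediateField.mem_bot.mp (mem_bot_of_pow_pred_eq_one h)
  exact σ.commutes a

/-- a unit whose `(p-1)`-th power is `≡ 1` is congruent to a `(p-1)`-th root of unity. -/
theorem exists_root_of_unity_norm_sub_lt {w : Ω} (hw : ‖w ^ (p - 1) - 1‖ < 1) :
    ∃ μ : Ω, μ ^ (p - 1) = 1 ∧ ‖w - μ‖ < 1 := by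
  obtain ⟨z, hz⟩ := exists_primitiveRoot (q := p) (m := 1) one_pos
  rw [pow_one] at hz
  have hpos : 0 < p - 1 := Nat.pos_of_ne_zero pred_ne_zero
  have h1 := congrArg (Polynomial.eval w) (Polynomial.X_pow_sub_one_eq_prod hpos hz)
  rw [Polynomial.eval_sub, Polynomial.eval_pow, Polynomial.eval_X, Polynomial.eval_one,
    Polynomial.eval_prod] at h1
  simp only [Polynomial.eval_sub, Polynomial.eval_X, Polynomial.eval_C] at h1
  by_contra hcon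
  push Not at hcon
  have h2 : 1 ≤ ‖∏ μ ∈ Polynomial.nthRootsFinset (p - 1) (1 : Ω), (w - μ)‖ := by
    rw [norm_prod]
    refine Finset.prod_induction _ (fun x => (1 : ℝ) ≤ x)
      (fun a b ha hb => one_le_mul_of_one_le_of_one_le ha hb) le_rfl (fun μ hμ => ?_)
    exact hcon μ ((Polynomial.mem_nthRootsFinset hpos (1 : Ω)).mp hμ)
  rw [← h1] at h2
  exact absurd hw (not_lt.mpr h2)

/-- automorphisms act trivially on the residue classes of units `w` with `w ^ (p-1) ≡ 1`. -/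
theorem norm_apply_sub_lt_one (σ : Ω ≃ₐ[ℚ_[p]] Ω) {w : Ω} (hw : ‖w ^ (p - 1) - 1‖ < 1) :
    ‖σ w - w‖ < 1 := by
  obtain ⟨μ, hμ, hwμ⟩ := exists_root_of_unity_norm_sub_lt hw
  have h1 : σ w - w = σ (w - μ) + (μ - w) := by
    rw [map_sub, apply_eq_of_pow_pred_eq_one σ hμ]; ring
  rw [h1]
  refine lt_of_le_of_lt (IsUltrametricDist.norm_add_le_max _ _) (max_lt ?_ ?_)
  · rw [norm_algEquiv_apply]; exact hwμ
  · rw [← norm_neg, neg_sub]; exact hwμ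

/-- for `ξ ^ p = 1`, `ξ ≠ 1`, `π ^ (p-1) = -p`: `w = (ξ - 1)/π` is a unit with `w^(p-1) ≡ 1`. -/
theorem norm_div_pow_sub_one_lt {ξ π : Ω} (h : ξ ^ p = 1) (h1 : ξ ≠ 1)
    (hπ : π ^ (p - 1) = -((p : ℕ) : Ω)) : ‖((ξ - 1) / π) ^ (p - 1) - 1‖ < 1 := by
  have hp0 : ((p : ℕ) : Ω) ≠ 0 := by
    rw [← norm_pos_iff, norm_natCast_p]; exact p_inv_pos p
  have h2 : ((ξ - 1) / π) ^ (p - 1) - 1 = ((ξ - 1) ^ (p - 1) + ((p : ℕ) : Ω)) / (-((p : ℕ) : Ω)) := by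
    rw [div_pow, hπ]
    field_simp
    ring
  rw [h2, norm_div, norm_neg, norm_natCast_p, div_lt_one (p_inv_pos p)]
  refine lt_of_le_of_lt (norm_sub_one_pow_add_p_le h h1) ?_
  exact mul_lt_of_lt_one_right (p_inv_pos p) (norm_sub_one_lt_one h)

/-- **an automorphism fixing `π` (`π^(p-1) = -p`) fixes the `p`-th roots of unity.** -/
theorem apply_zeta_eq_of_apply_pi_eq (σ : Ω ≃ₐ[ℚ_[p]] Ω) {ξ π : Ω} (h : ξ ^ p = 1)
    (hπ : π ^ (p - 1) = -((p : ℕ) : Ω)) (hσ : σ π = π) : σ ξ = ξ := by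
  have hp : p.Prime := Fact.out
  by_cases h1 : ξ = 1
  · rw [h1, map_one]
  by_contra hne
  have hπ0 : π ≠ 0 := ne_zero_of_pow_eq_neg_p hπ
  have hξ0 : ξ ≠ 0 := by
    rintro rfl
    rw [zero_pow hp.ne_zero] at h
    exact zero_ne_one h
  have h2 := norm_apply_sub_lt_one σ (norm_div_pow_sub_one_lt h h1 hπ)
  rw [map_div₀, hσ, ← sub_div, norm_div, div_lt_one (norm_pos_iff.mpr hπ0), map_sub, map_one] at h2
  -- `σ ξ - ξ = ξ * (σ ξ * ξ⁻¹ - 1)`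
  have h3 : (σ ξ * ξ⁻¹) ^ p = 1 := by
    rw [mul_pow, inv_pow, ← map_pow, h, map_one, inv_one, mul_one]
  have h4 : σ ξ * ξ⁻¹ ≠ 1 := by
    intro h5
    apply hne
    have := congrArg (· * ξ) h5
    simpa [hξ0] using this
  have h5 : σ ξ - 1 - (ξ - 1) = ξ * (σ ξ * ξ⁻¹ - 1) := by
    field_simp
    ring
  rw [h5, norm_mul, norm_root_of_unity hp.ne_zero h, one_mul,
    norm_sub_one_eq_norm_pi h3 h4 hπ] at h2
  exact lt_irrefl _ h2

/-- **an automorphism fixing a nontrivial `p`-th root of unity fixes `π` (`π^(p-1) = -p`).** -/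
theorem apply_pi_eq_of_apply_zeta_eq (σ : Ω ≃ₐ[ℚ_[p]] Ω) {ξ π : Ω} (h : ξ ^ p = 1) (h1 : ξ ≠ 1)
    (hπ : π ^ (p - 1) = -((p : ℕ) : Ω)) (hσ : σ ξ = ξ) : σ π = π := by
  have hp : p.Prime := Fact.out
  have hπ0 : π ≠ 0 := ne_zero_of_pow_eq_neg_p hπ
  have hσπ0 : σ π ≠ 0 := by
    rw [Ne, map_eq_zero_iff σ σ.injective]; exact hπ0
  have hx0 : ξ - 1 ≠ 0 := sub_ne_zero.mpr h1
  have h2 := norm_apply_sub_lt_one σ (norm_div_pow_sub_one_lt h h1 hπ)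
  rw [map_div₀, map_sub, map_one, hσ] at h2
  -- `ν = π / σ π` is a `(p-1)`-th root of unity
  have hν : (π / σ π) ^ (p - 1) = 1 := by
    rw [div_pow, ← map_pow, hπ, map_neg, map_natCast]
    exact div_self (by rw [← hπ]; exact pow_ne_zero _ hπ0)
  have h3 : (ξ - 1) / σ π - (ξ - 1) / π = ((ξ - 1) / π) * (π / σ π - 1) := by
    field_simp
  have hwn : ‖(ξ - 1) / π‖ = 1 := by
    rw [norm_div, norm_sub_one_eq_norm_pi h h1 hπ, div_self (norm_pos_iff.mpr hπ0).ne']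
  rw [h3, norm_mul, hwn, one_mul] at h2
  have h4 : π / σ π = 1 := by
    by_contra hne
    have hnd : ¬ p ∣ p - 1 := by
      intro hd
      have := Nat.le_of_dvd (Nat.pos_of_ne_zero pred_ne_zero) hd
      have := hp.two_le
      omega
    have := norm_one_sub_eq_one_of_coprime hnd hν hne
    rw [← norm_neg, neg_sub] at this
    rw [this] at h2
    exact lt_irrefl _ h2
  have := (div_eq_one_iff_eq hσπ0).mp h4
  exact this.symm

/-- every `p`-th root of unity lies in `ℚ_p(π)`, `π ^ (p-1) = -p`. -/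
theorem zeta_mem_adjoin_pi {ξ π : Ω} (h : ξ ^ p = 1) (hπ : π ^ (p - 1) = -((p : ℕ) : Ω)) :
    ξ ∈ IntermediateField.adjoin ℚ_[p] {π} := by
  rw [← InfiniteGalois.fixedField_fixingSubgroup (IntermediateField.adjoin ℚ_[p] {π}),
    IntermediateField.mem_fixedField_iff]
  intro σ hσ
  refine apply_zeta_eq_of_apply_pi_eq σ h hπ ?_
  exact (IntermediateField.mem_fixingSubgroup_iff _ σ).mp hσ π
    (IntermediateField.mem_adjoin_simple_self ℚ_[p] π)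

/-- `π` (`π ^ (p-1) = -p`) lies in `ℚ_p(ξ)` for every `p`-th root of unity `ξ ≠ 1`. -/
theorem pi_mem_adjoin_zeta {ξ π : Ω} (h : ξ ^ p = 1) (h1 : ξ ≠ 1)
    (hπ : π ^ (p - 1) = -((p : ℕ) : Ω)) : π ∈ IntermediateField.adjoin ℚ_[p] {ξ} := by
  rw [← InfiniteGalois.fixedField_fixingSubgroup (IntermediateField.adjoin ℚ_[p] {ξ}),
    IntermediateField.mem_fixedField_iff]
  intro σ hσ
  refine apply_pi_eq_of_apply_zeta_eq σ h h1 hπ ?_
  exact (IntermediateField.mem_fixingSubgroup_iff _ σ).mp hσ ξ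
    (IntermediateField.mem_adjoin_simple_self ℚ_[p] ξ)

/-- **`ℚ_p(π) = ℚ_p(ζ_p)`.** -/
theorem adjoin_pi_eq_adjoin_zeta {ξ π : Ω} (h : ξ ^ p = 1) (h1 : ξ ≠ 1)
    (hπ : π ^ (p - 1) = -((p : ℕ) : Ω)) :
    IntermediateField.adjoin ℚ_[p] {π} = IntermediateField.adjoin ℚ_[p] {ξ} :=
  le_antisymm
    (IntermediateField.adjoin_simple_le_iff.mpr (pi_mem_adjoin_zeta h h1 hπ))
    (IntermediateField.adjoin_simple_le_iff.mpr (zeta_mem_adjoin_pi h hπ))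

/-- roots of `-p` of order `n = (p-1) m`: `ζ_p ∈ K` as soon as `π ∈ K`. -/
theorem zeta_mem_of_pi_mem {K : IntermediateField ℚ_[p] Ω} {ξ π : Ω} {m : ℕ} (h : ξ ^ p = 1)
    (hπ : π ^ ((p - 1) * m) = -((p : ℕ) : Ω)) (hK : π ∈ K) : ξ ∈ K := by
  have h1 : (π ^ m) ^ (p - 1) = -((p : ℕ) : Ω) := by rw [← pow_mul, mul_comm]; exact hπ
  have h2 : IntermediateField.adjoin ℚ_[p] {π ^ m} ≤ K :=
    IntermediateField.adjoin_simple_le_iff.mpr (pow_mem hK m)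
  exact h2 (zeta_mem_adjoin_pi h h1)

end Fermat.Agent.S56x.Local.PadicRoots
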