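import Mathlib
import Fermat.Agent.S56x.Ram.TameStructure

/-!
# P-S56, block (A) (helper48): inertia of an abelian tame extension

Abstract: `G` a finite COMMUTATIVE group (`[Group G]` + `hcomm : ∀ a b, a * b = b * a`, so that
`G := E ≃ₐ[K] E` can be used directly) acting faithfully on a discrete valuation ring `B` of
residue characteristic `p` (`[MulSemiringAction G B]`, as in `S56x/Ram/Lower` and
`S56x/Ram/TameStructure`), with `p ∤ #G`.  Suppose the fixed field of the residue action has `q`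
elements, in the elementwise form
`hfix : ∀ x : B, (∀ g : G, g • x - x ∈ 𝔪) → x ^ q - x ∈ 𝔪`.
Then, with `I = lowerGroup G B 1` the inertia group and `ϖ` a uniformizer:

* `theta_injective` : Serre's `θ₀ : I → (B/𝔪)ˣ` is injective (no wild inertia);
* `smul_unitOf_sub_mem` : `g • u_σ - u_σ ∈ 𝔪` for `σ ∈ I` (`σ ϖ = u_σ ϖ`), by commutativity;
* `theta_pow_eq_one` : `θ₀(σ) ^ (q - 1) = 1`;  `pow_eq_one_of_mem_inertia` : `σ ^ (q - 1) = 1`;
* `card_inertia_dvd` : `#I ∣ q - 1`.
-/

set_option autoImplicit false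
set_option linter.unusedSectionVars false
set_option linter.style.haveILetI false

namespace Fermat.Agent.S56x.Local.TameAbelian

open IsLocalRing Fermat.Agent.S56x.Ram Fermat.Agent.S56x.Ram.TameStructure

variable {G : Type*} [Group G] [Finite G] {B : Type*} [CommRing B] [IsDomain B]
  [IsDiscreteValuationRing B] [MulSemiringAction G B] [FaithfulSMul G B]
  {ϖ : B} (hϖ : Irreducible ϖ) {p : ℕ} (hp : p.Prime)
  (hpB : (p : B) ∈ maximalIdeal B) (hcard : ¬ p ∣ Nat.card G)
  (hcomm : ∀ a b : G, a * b = b * a)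

include hp hpB hcard in
/-- no wild inertia: an element of `tameKer` is trivial. -/
theorem eq_one_of_mem_tameKer {σ : G} (hσ : σ ∈ tameKer G B) : σ = 1 := by
  obtain ⟨n, hn⟩ := exists_pow_eq_one hpB hσ
  have h1 : orderOf σ ∣ p ^ n := orderOf_dvd_of_pow_eq_one hn
  have h2 : orderOf σ ∣ Nat.card G := orderOf_dvd_natCard σ
  have hcop : Nat.Coprime (p ^ n) (Nat.card G) :=
    Nat.Coprime.pow_left n ((Nat.Prime.coprime_iff_not_dvd hp).mpr hcard)
  have h3 : orderOf σ = 1 := Nat.eq_one_of_dvd_coprimes hcop h1 h2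
  exact orderOf_eq_one_iff.mp h3

include hp hpB hcard in
/-- **`θ₀` is injective on the inertia group.** -/
theorem theta_injective : Function.Injective (theta (G := G) hϖ) := by
  rw [injective_iff_map_eq_one]
  intro σ hσ
  have h := eq_one_of_mem_tameKer hp hpB hcard (mem_tameKer_of_theta_eq_one hϖ hσ)
  exact Subtype.ext h

include hcomm in
/-- by commutativity, the unit `u_σ = σ ϖ / ϖ` of an inertia element is fixed modulo `𝔪` by the
whole group. -/
theorem smul_unitOf_sub_mem (g : G) {σ : G} (hσ : σ ∈ lowerGroup G B 1) :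
    g • ((unitOf hϖ σ : Bˣ) : B) - ((unitOf hϖ σ : Bˣ) : B) ∈ maximalIdeal B := by
  have h := residue_unitOf_conj hϖ g hσ
  rw [hcomm g σ, mul_inv_cancel_right] at h
  rw [← residue_eq_zero_iff, map_sub, ← h, sub_self]

variable {q : ℕ} (hq : 1 ≤ q)
  (hfix : ∀ x : B, (∀ g : G, g • x - x ∈ maximalIdeal B) → x ^ q - x ∈ maximalIdeal B)

include hcomm hq hfix in
/-- `θ₀(σ) ^ (q - 1) = 1`. -/
theorem theta_pow_eq_one (σ : ↥(lowerGroup G B 1)) : theta hϖ σ ^ (q - 1) = 1 := by
  have h1 := hfix ((unitOf hϖ (σ : G) : Bˣ) : B) (fun g => smul_unitOf_sub_mem hϖ hcomm g σ.2)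
  rw [← residue_eq_zero_iff, map_sub, map_pow, sub_eq_zero] at h1
  have hne : residue B ((unitOf hϖ (σ : G) : Bˣ) : B) ≠ 0 := by
    rw [Ne, residue_eq_zero_iff]
    exact fun h => (mem_maximalIdeal _).mp h (unitOf hϖ (σ : G)).isUnit
  rw [theta_apply]
  have h2 : residue B ((unitOf hϖ (σ : G) : Bˣ) : B) ^ (q - 1)
      * residue B ((unitOf hϖ (σ : G) : Bˣ) : B)
      = 1 * residue B ((unitOf hϖ (σ : G) : Bˣ) : B) := by
    rw [← pow_succ, Nat.sub_add_cancel hq, one_mul]
    exact h1
  exact mul_right_cancel₀ hne h2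

include hϖ hp hpB hcard hcomm hq hfix in
/-- **every inertia element has order dividing `q - 1`.** -/
theorem pow_eq_one_of_mem_inertia {σ : G} (hσ : σ ∈ lowerGroup G B 1) : σ ^ (q - 1) = 1 := by
  have h := theta_pow_eq_one hϖ hcomm hq hfix ⟨σ, hσ⟩
  rw [← map_pow, ← map_one (theta (G := G) hϖ)] at h
  have := theta_injective hϖ hp hpB hcard h
  exact congrArg Subtype.val this

include hϖ hp hpB hcard hcomm hq hfix in
/-- **the order of the inertia group divides `q - 1`.** -/
theorem card_inertia_dvd : Nat.card ↥(lowerGroup G B 1) ∣ q - 1 := by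
  haveI : IsCyclic ↥(lowerGroup G B 1) :=
    isCyclic_of_injective_ringHom (theta (G := G) hϖ) (theta_injective hϖ hp hpB hcard)
  rw [← IsCyclic.exponent_eq_card]
  refine Monoid.exponent_dvd_of_forall_pow_eq_one (fun σ => ?_)
  apply Subtype.ext
  rw [Subgroup.coe_pow]
  exact pow_eq_one_of_mem_inertia hϖ hp hpB hcard hcomm hq hfix σ.2

end Fermat.Agent.S56x.Local.TameAbelian
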