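import Mathlib
import Fermat.Agent.S56x.Local.PadicE0
import Fermat.Agent.S56x.Local.PadicInertia
import Fermat.Agent.S56x.Local.UnrLevels
import Fermat.Agent.S56x.Local.TameAbelian
import Fermat.Agent.S56x.Local.InertGenerator
import Fermat.Agent.S56x.Local.PadicRoots

/-!
# P-S56, block (A), count side: ramification of an abelian tame extension of `ℚ_{p^f}` (helper8)

Leaf (B) of `CWPadicData` over `ℚ_{p^f}` (helper19's split): `p`-adic instantiation of
`TameAbelian` (helper48), `InertGenerator` (helper2) and `PadicE0` (helper83).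

`Ω = PadicAlgCl p`, `Gp = Gal(Ω/ℚ_p)`, `K_f = UnrLevels.unrField p f`, `Γ_f = UnrLevels.lev p f`,
`q = p ^ f`.  `L / ℚ_p` finite Galois with `K_f ≤ L`, such that `Gal(L/K_f)` is abelian
(`hab`) of exponent prime to `p` (`hexp`).  Then

* (B1) `addVal_p_dvd` : `v_L(p) = e` with `e ∣ p ^ f - 1`;
* (B2) `irreducible_of_pow_eq_neg_p` : `π ∈ L`, `π ^ (p^f - 1) = -p` ⇒ `π` is a uniformizer of
  `OE p L` (and `v_L(p) = p^f - 1`);
* (B3) `exists_inert_generator` : there is `g₀ ∈ Γ_f` acting trivially on the residue field of `L`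
  with `g₀ π / π` of exact order `p^f - 1` in the residue field.
-/

set_option autoImplicit false
set_option linter.unusedSectionVars false
set_option linter.style.haveILetI false

open IsLocalRing

namespace Fermat.Agent.S56x.Local.TameAbelianRam

open Fermat.Agent.S56x.Local.PadicFinite Fermat.Agent.S56x.Local.UnrLevels
  Fermat.Agent.S56x.Local.PadicInertia Fermat.Agent.S56x.Local.PadicE0
  Fermat.Agent.S56x.Ram Fermat.Agent.Lib.CFT.Local.Unramified Fermat.Agent.Lib.CFT.Local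
  Fermat.Agent.S56x.Local.BddDef Fermat.Agent.Lib.Ram

variable {p : ℕ} [Fact p.Prime]

local notation "Ω" => PadicAlgCl p
local notation "Gp" => (PadicAlgCl p ≃ₐ[Padic p] PadicAlgCl p)

/-! ### Restriction to `L` -/

section Restriction

variable (L : IntermediateField ℚ_[p] (PadicAlgCl p)) [Normal ℚ_[p] L]

/-- restriction `Gal(Ω/ℚ_p) → Gal(L/ℚ_p)`. -/
noncomputable def resL : Gp →* (L ≃ₐ[ℚ_[p]] L) := AlgEquiv.restrictNormalHom L

theorem coe_resL (g : Gp) (x : L) : ((resL L g x : L) : Ω) = g (x : Ω) :=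
  AlgEquiv.restrictNormal_commutes g L x

theorem resL_surjective : Function.Surjective (resL L) := restrict_surjective p L

theorem resL_eq_one_iff (g : Gp) : resL L g = 1 ↔ g ∈ L.fixingSubgroup := by
  rw [← IntermediateField.restrictNormalHom_ker, MonoidHom.mem_ker]
  rfl

theorem resL_eq_iff (g h : Gp) : resL L g = resL L h ↔ g * h⁻¹ ∈ L.fixingSubgroup := by
  rw [← resL_eq_one_iff, map_mul, map_inv, mul_inv_eq_one]

end Restriction

/-! ### Norms and the maximal ideal of `OE p L` -/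

section Norm

variable {L : IntermediateField ℚ_[p] (PadicAlgCl p)} [FiniteDimensional ℚ_[p] L]

theorem norm_coe (x : L) : ‖(x : Ω)‖ = ‖x‖ := rfl

theorem mem_maximalIdeal_iff_norm_lt_one (x : OE p L) :
    x ∈ maximalIdeal (OE p L) ↔ ‖((x : L) : Ω)‖ < 1 := by
  rw [mem_maximalIdeal, mem_nonunits_iff, isUnit_iff_norm_eq_one, norm_coe]
  have := norm_le_one x
  constructor
  · intro h; exact lt_of_le_of_ne this h
  · intro h; exact h.ne

end Norm

/-! ### Inertial automorphisms fix the roots of unity of order prime to `p` -/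

section Inertial

variable {L : IntermediateField ℚ_[p] (PadicAlgCl p)} [FiniteDimensional ℚ_[p] L]

/-- roots of unity of `L` are integral. -/
theorem mem_OE_of_pow_eq_one {z : L} {n : ℕ} (hn : n ≠ 0) (hz : z ^ n = 1) : z ∈ OE p L := by
  rw [mem_OE, ← norm_coe]
  have h : ((z : L) : Ω) ^ n = 1 := by rw [← IntermediateField.coe_pow, hz]; rfl
  exact (PadicRoots.norm_root_of_unity hn h).le

/-- an automorphism acting trivially on the residue field fixes the roots of unity of order prime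
to `p`. -/
theorem apply_eq_of_inertial {σ : L ≃ₐ[ℚ_[p]] L}
    (hσ : ∀ b : OE p L, σ • b - b ∈ maximalIdeal (OE p L)) {z : L} {n : ℕ} (hn : ¬ p ∣ n)
    (hz : z ^ n = 1) : σ z = z := by
  have hn0 : n ≠ 0 := by rintro rfl; exact hn (dvd_zero p)
  have hzO : z ∈ OE p L := mem_OE_of_pow_eq_one hn0 hz
  have h1 := (mem_maximalIdeal_iff_norm_lt_one _).mp (hσ ⟨z, hzO⟩)
  have h1' : ‖((σ z : L) : Ω) - ((z : L) : Ω)‖ < 1 := h1
  have hzΩ : ((z : L) : Ω) ^ n = 1 := by rw [← IntermediateField.coe_pow, hz]; rfl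
  have hσzΩ : ((σ z : L) : Ω) ^ n = 1 := by
    rw [← IntermediateField.coe_pow, ← map_pow, hz, map_one]; rfl
  have hz0 : ((z : L) : Ω) ≠ 0 := by
    intro h0
    rw [h0, zero_pow hn0] at hzΩ
    exact zero_ne_one hzΩ
  by_contra hne
  have hξ : (((σ z : L) : Ω) * ((z : L) : Ω)⁻¹) ^ n = 1 := by
    rw [mul_pow, inv_pow, hσzΩ, hzΩ, inv_one, mul_one]
  have hξ1 : ((σ z : L) : Ω) * ((z : L) : Ω)⁻¹ ≠ 1 := by
    intro h
    apply hne
    apply Subtype.ext
    have := congrArg (· * ((z : L) : Ω)) h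
    simpa [hz0] using this
  have h2 := PadicRoots.norm_one_sub_eq_one_of_coprime hn hξ hξ1
  have h3 : ((σ z : L) : Ω) - ((z : L) : Ω) =
      -(((z : L) : Ω) * (1 - ((σ z : L) : Ω) * ((z : L) : Ω)⁻¹)) := by
    field_simp
    ring
  rw [h3, norm_neg, norm_mul, h2, mul_one, PadicRoots.norm_root_of_unity hn0 hzΩ] at h1'
  exact lt_irrefl _ h1'

end Inertial

/-! ### The group `Gal(L/K_f)` -/

section Main

variable (L : IntermediateField ℚ_[p] (PadicAlgCl p)) [FiniteDimensional ℚ_[p] L]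
  [IsGalois ℚ_[p] L]

/-- `Gal(L / L ∩ K_f)` as the image of `Γ_f = lev p f` in `Gal(L/ℚ_p)`. -/
noncomputable def galKf (f : ℕ) : Subgroup (L ≃ₐ[ℚ_[p]] L) := (lev p f).map (resL L)

variable {L} {f : ℕ}

theorem mem_galKf_iff {τ : L ≃ₐ[ℚ_[p]] L} : τ ∈ galKf L f ↔ ∃ g ∈ lev p f, resL L g = τ :=
  Subgroup.mem_map

theorem not_dvd_pow_sub_one (hf : 0 < f) : ¬ p ∣ p ^ f - 1 := by
  have hp : p.Prime := Fact.out
  intro h
  have h1 : p ∣ p ^ f := dvd_pow_self p hf.ne'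
  have h2 : 1 ≤ p ^ f := Nat.one_le_pow _ _ hp.pos
  have h3 : p ∣ p ^ f - (p ^ f - 1) := Nat.dvd_sub h1 h
  have h4 : p ^ f - (p ^ f - 1) = 1 := by omega
  rw [h4] at h3
  exact hp.one_lt.ne' (Nat.dvd_one.mp h3)

/-- the inertia group of `L/ℚ_p` lies in `Gal(L/K_f)`. -/
theorem mem_galKf_of_inertial (hf : 0 < f) (hKL : unrField p f ≤ L) {σ : L ≃ₐ[ℚ_[p]] L}
    (hσ : ∀ b : OE p L, σ • b - b ∈ maximalIdeal (OE p L)) : σ ∈ galKf L f := by
  obtain ⟨g, rfl⟩ := resL_surjective L σ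
  refine mem_galKf_iff.mpr ⟨g, ?_, rfl⟩
  rw [mem_lev_iff]
  intro z hz
  have hzK : z ∈ unrField p f := IntermediateField.subset_adjoin _ _ hz
  have hzL : z ∈ L := hKL hzK
  have h1 : (⟨z, hzL⟩ : L) ^ (p ^ f - 1) = 1 := by
    apply Subtype.ext
    rw [IntermediateField.coe_pow]
    exact hz
  have h2 := apply_eq_of_inertial hσ (not_dvd_pow_sub_one hf) h1
  have h3 := coe_resL L g ⟨z, hzL⟩
  rw [h2] at h3
  exact h3.symm

section Hyp

variable (hab : ∀ g ∈ lev p f, ∀ h ∈ lev p f, g * h * g⁻¹ * h⁻¹ ∈ L.fixingSubgroup)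

include hab in
/-- `Gal(L/K_f)` is commutative. -/
theorem galKf_comm (a b : ↥(galKf L f)) : a * b = b * a := by
  obtain ⟨g, hg, hga⟩ := mem_galKf_iff.mp a.2
  obtain ⟨h, hh, hhb⟩ := mem_galKf_iff.mp b.2
  apply Subtype.ext
  rw [Subgroup.coe_mul, Subgroup.coe_mul, ← hga, ← hhb, ← map_mul, ← map_mul, resL_eq_iff]
  have := hab g hg h hh
  have h2 : g * h * (h * g)⁻¹ = g * h * g⁻¹ * h⁻¹ := by group
  rw [h2]
  exact this

variable (hexp : ∃ n : ℕ, n.Coprime p ∧ ∀ g ∈ lev p f, g ^ n ∈ L.fixingSubgroup)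

include hexp in
/-- `p` does not divide the order of `Gal(L/K_f)`. -/
theorem not_dvd_card_galKf : ¬ p ∣ Nat.card ↥(galKf L f) := by
  have hp : p.Prime := Fact.out
  obtain ⟨n, hn, hpow⟩ := hexp
  intro hdvd
  obtain ⟨x, hx⟩ := exists_prime_orderOf_dvd_card' p hdvd
  obtain ⟨g, hg, hgx⟩ := mem_galKf_iff.mp x.2
  have h1 : x ^ n = 1 := by
    apply Subtype.ext
    rw [Subgroup.coe_pow, ← hgx, ← map_pow, Subgroup.coe_one, resL_eq_one_iff]
    exact hpow g hg
  have h2 : p ∣ n := by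
    rw [← hx]; exact orderOf_dvd_of_pow_eq_one h1
  have h3 : p ∣ Nat.gcd n p := Nat.dvd_gcd h2 dvd_rfl
  rw [hn] at h3
  exact hp.one_lt.ne' (Nat.dvd_one.mp h3)

end Hyp

/-! ### Frobenius on the residue field of `L` -/

section Frob

omit [IsGalois ℚ_[p] L] in
theorem frobRes_pow_apply [Normal ℚ_[p] L] (j : ℕ) (y : ResidueField (OE p L)) :
    haveI := finite_residueField_zq p
    haveI := henselian_B ℤ_[p] ℚ_[p] L (OE p L)
    (frobRes ℤ_[p] ℚ_[p] L (OE p L) ^ j) y = y ^ (p ^ j) := by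
  haveI := finite_residueField_zq p
  haveI := henselian_B ℤ_[p] ℚ_[p] L (OE p L)
  induction j with
  | zero => simp
  | succ j ih =>
    rw [pow_succ (frobRes ℤ_[p] ℚ_[p] L (OE p L)), AlgEquiv.mul_apply, frobRes_apply, map_pow, ih,
      ← pow_mul, natCard_residueField_zq, ← pow_succ]

/-- **the restriction of `frob p ^ j` to `L` acts as `x ↦ x ^ (p^j)` on the residue field.** -/
theorem resL_frob_pow_smul_sub_mem (j : ℕ) (x : OE p L) :
    (resL L (frob p ^ j)) • x - x ^ (p ^ j) ∈ maximalIdeal (OE p L) := by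
  haveI := finite_residueField_zq p
  haveI := henselian_B ℤ_[p] ℚ_[p] L (OE p L)
  obtain ⟨ζ, hζ⟩ := exists_isPrimitiveRoot_B ℤ_[p] ℚ_[p] L (OE p L)
  have hm : 0 < resDegree ℤ_[p] (OE p L) := resDegree_pos ℤ_[p] ℚ_[p] L (OE p L)
  have hζ' : IsPrimitiveRoot ζ (p ^ resDegree ℤ_[p] (OE p L) - 1) := by
    rw [natCard_residueField_zq] at hζ; exact hζ
  have hζΩ : (((ζ : OE p L) : L) : Ω) ^ (p ^ resDegree ℤ_[p] (OE p L) - 1) = 1 := by
    have := congrArg (fun z : OE p L => (((z : OE p L) : L) : Ω)) hζ'.pow_eq_one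
    simpa using this
  have hσ : (resL L (frob p ^ j)) (algebraMap (OE p L) L ζ) =
      algebraMap (OE p L) L ζ ^ (Nat.card (ResidueField ℤ_[p]) ^ j) := by
    apply Subtype.ext
    rw [coe_resL, natCard_residueField_zq, IntermediateField.coe_pow]
    exact frob_pow_apply hm hζΩ j
  have h := residueGalHom_eq_frobRes_pow ℤ_[p] ℚ_[p] L (OE p L) hζ (resL L (frob p ^ j)) j hσ
  have h2 := congrArg (fun φ : ResidueField (OE p L) ≃ₐ[ResidueField ℤ_[p]] ResidueField (OE p L) =>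
    φ (residue (OE p L) x)) h
  simp only [residueGalHom_residue, galRestrict_eq_smul] at h2
  rw [frobRes_pow_apply] at h2
  rw [← residue_eq_zero_iff, map_sub, h2, map_pow, sub_self]

end Frob

/-! ### (B1) the ramification index divides `p ^ f - 1` -/

section B1

/-- `hfix` of `TameAbelian`: the residue classes fixed by `Gal(L/K_f)` satisfy `x ^ q = x`. -/
theorem pow_sub_mem_of_fixed (hf : 0 < f) (x : OE p L)
    (h : ∀ g : ↥(galKf L f), g • x - x ∈ maximalIdeal (OE p L)) :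
    x ^ (p ^ f) - x ∈ maximalIdeal (OE p L) := by
  have hφ : frob p ^ f ∈ lev p f := (frob_pow_mem_lev_iff hf f).mpr dvd_rfl
  have hτ : resL L (frob p ^ f) ∈ galKf L f := mem_galKf_iff.mpr ⟨_, hφ, rfl⟩
  have h1 : resL L (frob p ^ f) • x - x ∈ maximalIdeal (OE p L) := h ⟨_, hτ⟩
  have h2 := resL_frob_pow_smul_sub_mem (L := L) f x
  have h3 : x ^ (p ^ f) - x =
      (resL L (frob p ^ f) • x - x) - (resL L (frob p ^ f) • x - x ^ (p ^ f)) := by ring
  rw [h3]
  exact Ideal.sub_mem _ h1 h2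

/-- the inertia group of `Gal(L/ℚ_p)` and that of `Gal(L/K_f)` have the same order. -/
theorem card_inertiaGroup_eq (hf : 0 < f) (hKL : unrField p f ≤ L) :
    Nat.card (inertiaGroup ℤ_[p] ℚ_[p] L (OE p L)) =
      Nat.card ↥(lowerGroup ↥(galKf L f) (OE p L) 1) := by
  refine Nat.card_congr
    ⟨fun σ => ⟨⟨σ.1, mem_galKf_of_inertial hf hKL ((mem_inertiaGroup_iff_smul σ.1).mp σ.2)⟩, ?_⟩,
      fun τ => ⟨τ.1.1, ?_⟩, ?_, ?_⟩
  · refine mem_lowerGroup.mpr (fun x => ?_)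
    rw [pow_one]
    exact (mem_inertiaGroup_iff_smul σ.1).mp σ.2 x
  · refine (mem_inertiaGroup_iff_smul _).mpr (fun x => ?_)
    have := mem_lowerGroup.mp τ.2 x
    rwa [pow_one] at this
  · intro σ; rfl
  · intro τ; rfl

variable (hab : ∀ g ∈ lev p f, ∀ h ∈ lev p f, g * h * g⁻¹ * h⁻¹ ∈ L.fixingSubgroup)
  (hexp : ∃ n : ℕ, n.Coprime p ∧ ∀ g ∈ lev p f, g ^ n ∈ L.fixingSubgroup)

include hab hexp in
theorem card_lowerGroup_galKf_dvd (hf : 0 < f) :
    Nat.card ↥(lowerGroup ↥(galKf L f) (OE p L) 1) ∣ p ^ f - 1 := by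
  have hp : p.Prime := Fact.out
  obtain ⟨ϖ, hϖ⟩ := IsDiscreteValuationRing.exists_irreducible (OE p L)
  exact TameAbelian.card_inertia_dvd hϖ hp natCast_p_mem_maximalIdeal
    (not_dvd_card_galKf hexp) (galKf_comm hab) (Nat.one_le_pow _ _ hp.pos)
    (fun x hx => pow_sub_mem_of_fixed hf x hx)

include hab hexp in
/-- **(B1), `e0` form**: `e(L/ℚ_p) ∣ p ^ f - 1`. -/
theorem e0_dvd (hf : 0 < f) (hKL : unrField p f ≤ L) : (ramNum p L).e0 ∣ p ^ f - 1 := by
  rw [e0_eq_card_inertiaGroup, card_inertiaGroup_eq hf hKL]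
  exact card_lowerGroup_galKf_dvd hab hexp hf

include hab hexp in
/-- **(B1)**: `v_L(p) = e` with `e ∣ p ^ f - 1`. -/
theorem addVal_p_dvd (hf : 0 < f) (hKL : unrField p f ≤ L) :
    ∃ e : ℕ, e ∣ p ^ f - 1 ∧
      IsDiscreteValuationRing.addVal (OE p L) ((p : ℕ) : OE p L) = e :=
  ⟨(ramNum p L).e0, e0_dvd hab hexp hf hKL, addVal_p_eq_e0 L⟩

include hab hexp in
/-- `L / ℚ_p` is tamely ramified. -/
theorem e0_coprime (hf : 0 < f) (hKL : unrField p f ≤ L) : Nat.Coprime (ramNum p L).e0 p := by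
  have hp : p.Prime := Fact.out
  refine Nat.Coprime.symm ((Nat.Prime.coprime_iff_not_dvd hp).mpr (fun h => ?_))
  exact not_dvd_pow_sub_one hf (dvd_trans h (e0_dvd hab hexp hf hKL))

end B1

/-! ### (B2) `π ^ (p^f - 1) = -p` is a uniformizer -/

section B2

variable (hab : ∀ g ∈ lev p f, ∀ h ∈ lev p f, g * h * g⁻¹ * h⁻¹ ∈ L.fixingSubgroup)
  (hexp : ∃ n : ℕ, n.Coprime p ∧ ∀ g ∈ lev p f, g ^ n ∈ L.fixingSubgroup)

theorem one_le_pow_sub_one (hf : 0 < f) : 1 ≤ p ^ f - 1 := by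
  have hp : p.Prime := Fact.out
  have h1 : p ^ 1 ≤ p ^ f := Nat.pow_le_pow_right hp.pos hf
  have := hp.two_le
  rw [pow_one] at h1
  omega

include hab hexp in
/-- **(B2)**, ring-of-integers form. -/
theorem irreducible_of_pow_eq_neg_p (hf : 0 < f) (hKL : unrField p f ≤ L) {π : OE p L}
    (hπ : π ^ (p ^ f - 1) = -((p : ℕ) : OE p L)) :
    Irreducible π ∧ (ramNum p L).e0 = p ^ f - 1 := by
  have hq : 1 ≤ p ^ f - 1 := one_le_pow_sub_one hf
  obtain ⟨c, hc⟩ := e0_dvd hab hexp hf hKL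
  have he0 : 0 < (ramNum p L).e0 := (ramNum p L).e0_pos
  have hpm : ((p : ℕ) : OE p L) ∈ maximalIdeal (OE p L) := natCast_p_mem_maximalIdeal
  have hπm : π ∈ maximalIdeal (OE p L) := by
    by_contra hnot
    have hu : IsUnit π := by
      by_contra h; exact hnot ((mem_maximalIdeal _).mpr h)
    have hu2 : IsUnit (π ^ (p ^ f - 1)) := hu.pow _
    rw [hπ] at hu2
    exact (mem_maximalIdeal _).mp hpm (by simpa using hu2)
  have hv : IsDiscreteValuationRing.addVal (OE p L) (π ^ (p ^ f - 1)) =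
      ((ramNum p L).e0 : ℕ∞) := by
    rw [hπ, Prop3Hom.addVal_eq_of_associated (Associated.neg_left (Associated.refl _)),
      addVal_p_eq_e0]
  rw [IsDiscreteValuationRing.addVal_pow] at hv
  have hπ0 : π ≠ 0 := by
    rintro rfl
    rw [zero_pow (by omega)] at hπ
    exact natCast_p_ne_zero (neg_eq_zero.mp hπ.symm)
  obtain ⟨ϖ, hϖ⟩ := IsDiscreteValuationRing.exists_irreducible (OE p L)
  obtain ⟨a, u, hu⟩ := IsDiscreteValuationRing.eq_unit_mul_pow_irreducible hπ0 hϖ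
  have hva : IsDiscreteValuationRing.addVal (OE p L) π = a :=
    IsDiscreteValuationRing.addVal_def π u hϖ a hu
  have ha1 : 1 ≤ a := by
    rcases Nat.eq_zero_or_pos a with h0 | h0
    · exfalso
      subst h0
      rw [pow_zero, mul_one] at hu
      exact (mem_maximalIdeal _).mp hπm (hu ▸ u.isUnit)
    · exact h0
  rw [hva] at hv
  have h2 : (p ^ f - 1) * a = (ramNum p L).e0 := by
    rw [nsmul_eq_mul] at hv
    exact_mod_cast hv
  -- `e0 * c * a = e0`
  have h3 : (ramNum p L).e0 * (c * a) = (ramNum p L).e0 * 1 := by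
    rw [mul_one, ← mul_assoc, ← hc]; exact h2
  have h4 : c * a = 1 := Nat.eq_of_mul_eq_mul_left he0 h3
  have ha : a = 1 := Nat.eq_one_of_mul_eq_one_left h4
  have hc1 : c = 1 := Nat.eq_one_of_mul_eq_one_right h4
  refine ⟨?_, by rw [hc, hc1, mul_one]⟩
  apply irreducible_of_addVal_eq_one
  rw [hva, ha]
  rfl

omit [IsGalois ℚ_[p] L] in
/-- roots of `-p` in `L` are integral. -/
theorem mem_OE_of_pow_eq_neg_p {π : L} {n : ℕ}
    (hπ : ((π : L) : Ω) ^ n = -((p : ℕ) : Ω)) : π ∈ OE p L := by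
  rw [mem_OE, ← norm_coe]
  exact (PadicRoots.norm_lt_one_of_pow_eq_neg_p hπ).le

include hab hexp in
/-- **(B2)**, field form: `π ∈ L ⊆ Ω` with `π ^ (p^f - 1) = -p` is a uniformizer of `OE p L`. -/
theorem irreducible_mk_of_pow_eq_neg_p (hf : 0 < f) (hKL : unrField p f ≤ L) {π : Ω} (hπL : π ∈ L)
    (hπ : π ^ (p ^ f - 1) = -((p : ℕ) : Ω)) (hπO : (⟨π, hπL⟩ : L) ∈ OE p L) :
    Irreducible (⟨⟨π, hπL⟩, hπO⟩ : OE p L) ∧ (ramNum p L).e0 = p ^ f - 1 := by
  refine irreducible_of_pow_eq_neg_p hab hexp hf hKL ?_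
  apply Subtype.ext
  apply Subtype.ext
  simpa using hπ

end B2

/-! ### (B3) an inertial generator in `Γ_f` -/

section B3

omit [IsGalois ℚ_[p] L] in
/-- the first lower group of `S56x/Ram/Lower` is the inertia group of the frozen local library. -/
theorem lowerGroup_one_eq_inertiaGroup :
    lowerGroup (L ≃ₐ[ℚ_[p]] L) (OE p L) 1 = inertiaGroup ℤ_[p] ℚ_[p] L (OE p L) := by
  ext σ
  rw [mem_lowerGroup, mem_inertiaGroup_iff_smul]
  simp only [pow_one]

omit [IsGalois ℚ_[p] L] in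
theorem card_lowerGroup_one :
    Nat.card ↥(lowerGroup (L ≃ₐ[ℚ_[p]] L) (OE p L) 1) = (ramNum p L).e0 := by
  rw [lowerGroup_one_eq_inertiaGroup, e0_eq_card_inertiaGroup]

/-- every inertial automorphism of `L` lifts to `Γ_f = lev p f`. -/
theorem exists_lift_of_inertial (hf : 0 < f) (hKL : unrField p f ≤ L) {σ : L ≃ₐ[ℚ_[p]] L}
    (hσ : ∀ b : OE p L, σ • b - b ∈ maximalIdeal (OE p L)) : ∃ g ∈ lev p f, resL L g = σ :=
  mem_galKf_iff.mp (mem_galKf_of_inertial hf hKL hσ)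

variable (hab : ∀ g ∈ lev p f, ∀ h ∈ lev p f, g * h * g⁻¹ * h⁻¹ ∈ L.fixingSubgroup)
  (hexp : ∃ n : ℕ, n.Coprime p ∧ ∀ g ∈ lev p f, g ^ n ∈ L.fixingSubgroup)

include hab hexp in
/-- **(B3)**: a generator `g₀ ∈ Γ_f` of the inertia group of `L/ℚ_p` whose tame character value
`g₀ π / π` has exact order `p ^ f - 1` in the residue field. -/
theorem exists_inert_generator (hf : 0 < f) (hKL : unrField p f ≤ L) {π : OE p L}
    (hπ : π ^ (p ^ f - 1) = -((p : ℕ) : OE p L)) :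
    ∃ g₀ ∈ lev p f, (∀ b : OE p L, resL L g₀ • b - b ∈ maximalIdeal (OE p L)) ∧
      (∀ c : OE p L, resL L g₀ • π = c * π → orderOf (residue (OE p L) c) = p ^ f - 1) ∧
      (∀ σ : L ≃ₐ[ℚ_[p]] L, (∀ b : OE p L, σ • b - b ∈ maximalIdeal (OE p L)) →
        σ ∈ Subgroup.zpowers (resL L g₀)) ∧
      orderOf (resL L g₀) = p ^ f - 1 := by
  have hp : p.Prime := Fact.out
  obtain ⟨hirr, he0⟩ := irreducible_of_pow_eq_neg_p hab hexp hf hKL hπ
  have hcard : Nat.card ↥(lowerGroup (L ≃ₐ[ℚ_[p]] L) (OE p L) 1) = p ^ f - 1 := by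
    rw [card_lowerGroup_one, he0]
  have hcop : (Nat.card ↥(lowerGroup (L ≃ₐ[ℚ_[p]] L) (OE p L) 1)).Coprime p := by
    rw [hcard]
    exact Nat.Coprime.symm ((Nat.Prime.coprime_iff_not_dvd hp).mpr (not_dvd_pow_sub_one hf))
  obtain ⟨g₀', hg₀', hord, hgen, hordg⟩ :=
    InertGenerator.exists_inert_generator hirr natCast_p_mem_maximalIdeal hcop
  have hin : ∀ b : OE p L, g₀' • b - b ∈ maximalIdeal (OE p L) :=
    fun b => InertGenerator.sub_mem_of_mem_lowerGroup hg₀' b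
  obtain ⟨g₀, hg₀, rfl⟩ := exists_lift_of_inertial hf hKL hin
  refine ⟨g₀, hg₀, hin, fun c hc => ?_, fun σ hσ => ?_, ?_⟩
  · rw [hord c hc, hcard]
  · refine hgen σ (mem_lowerGroup.mpr (fun x => ?_))
    rw [pow_one]; exact hσ x
  · rw [hordg, hcard]

include hab hexp in
/-- **(B3)**, field form: `π ∈ L ⊆ Ω`, `π ^ (p^f - 1) = -p`; the unit `c` is given by
`g₀ π = c π` in `Ω`. -/
theorem exists_inert_generator' (hf : 0 < f) (hKL : unrField p f ≤ L) {π : Ω} (hπL : π ∈ L)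
    (hπ : π ^ (p ^ f - 1) = -((p : ℕ) : Ω)) :
    ∃ g₀ ∈ lev p f, (∀ b : OE p L, resL L g₀ • b - b ∈ maximalIdeal (OE p L)) ∧
      (∀ c : OE p L, g₀ π = ((c : L) : Ω) * π → orderOf (residue (OE p L) c) = p ^ f - 1) ∧
      (∀ σ : L ≃ₐ[ℚ_[p]] L, (∀ b : OE p L, σ • b - b ∈ maximalIdeal (OE p L)) →
        σ ∈ Subgroup.zpowers (resL L g₀)) ∧
      orderOf (resL L g₀) = p ^ f - 1 := by
  have hπO : (⟨π, hπL⟩ : L) ∈ OE p L := mem_OE_of_pow_eq_neg_p (n := p ^ f - 1) hπ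
  have hπ' : (⟨⟨π, hπL⟩, hπO⟩ : OE p L) ^ (p ^ f - 1) = -((p : ℕ) : OE p L) := by
    apply Subtype.ext
    apply Subtype.ext
    simpa using hπ
  obtain ⟨g₀, hg₀, h1, h2, h3, h4⟩ := exists_inert_generator hab hexp hf hKL hπ'
  refine ⟨g₀, hg₀, h1, fun c hc => h2 c ?_, h3, h4⟩
  apply Subtype.ext
  apply Subtype.ext
  rw [coe_smul_OE, coe_resL]
  exact hc

end B3

end Main

end Fermat.Agent.S56x.Local.TameAbelianRam
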