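/-
P-S56, block (A), case (IND) (helper7): `g ^ m ∈ UnrLevels.lev q m` for every element `g` of
`Gal(PadicAlgCl q / ℚ_q)` (the quotient by `lev q m` is `Gal(ℚ_q(μ_{q^m-1})/ℚ_q)`, of order `m`).
In particular `g ^ 2 ∈ lev p 2`: the hypothesis `hsq` of `HinvUnram.hinv_of_rank_le_one` for
`Γ' = lev p 2 = G_{ℚ_{p²}}`.
-/
import Mathlib
import Fermat.Agent.S56x.Local.UnrLevels

set_option autoImplicit false
set_option linter.unusedSectionVars false
set_option linter.style.haveILetI false

namespace Fermat.Agent.S56x.Local.LevPow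

open Fermat.Agent.S56x.Local.UnrLevels

variable {q : ℕ} [Fact q.Prime]

local notation "Ω" => PadicAlgCl q
local notation "Gq" => (PadicAlgCl q ≃ₐ[ℚ_[q]] PadicAlgCl q)

/-- the `m`-th power of every element lies in the level `m` subgroup. -/
theorem pow_mem_lev {m : ℕ} (hm : 0 < m) (g : Gq) : g ^ m ∈ lev q m := by
  haveI := isGalois_unrField (q := q) hm
  haveI := finiteDimensional_unrField (q := q) hm
  set r := AlgEquiv.restrictNormalHom (F := ℚ_[q]) (K₁ := Ω) (unrField q m) with hr
  have hker : r.ker = lev q m := IntermediateField.restrictNormalHom_ker _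
  have hcard : Nat.card (unrField q m ≃ₐ[ℚ_[q]] unrField q m) = m := by
    rw [IsGalois.card_aut_eq_finrank, finrank_unrField hm]
  rw [← hker, MonoidHom.mem_ker, map_pow]
  have := pow_card_eq_one' (G := unrField q m ≃ₐ[ℚ_[q]] unrField q m) (x := r g)
  rwa [hcard] at this

/-- squares lie in `lev q 2 = G_{ℚ_{q²}}`. -/
theorem sq_mem_lev_two (g : Gq) : g ^ 2 ∈ lev q 2 := pow_mem_lev (by norm_num) g

/-- `lev q m` has index dividing `m` — here in the form: the quotient has exponent `m`. -/
theorem index_lev {m : ℕ} (hm : 0 < m) : (lev q m).index = m := by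
  haveI := isGalois_unrField (q := q) hm
  haveI := finiteDimensional_unrField (q := q) hm
  set r := AlgEquiv.restrictNormalHom (F := ℚ_[q]) (K₁ := Ω) (unrField q m) with hr
  have hker : r.ker = lev q m := IntermediateField.restrictNormalHom_ker _
  have hs : Function.Surjective r :=
    AlgEquiv.restrictNormalHom_surjective (F := ℚ_[q]) (K₁ := unrField q m) Ω
  have hcard : Nat.card (unrField q m ≃ₐ[ℚ_[q]] unrField q m) = m := by
    rw [IsGalois.card_aut_eq_finrank, finrank_unrField hm]
  rw [← hker, Subgroup.index_ker, MonoidHom.range_eq_top.2 hs, Subgroup.card_top, hcard]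

end Fermat.Agent.S56x.Local.LevPow
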