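/-
P-S56, block (A), case (IND) (helper7): the degree of the tame level field is prime to `p`.

For `L / ℚ_p` finite Galois inside `PadicAlgCl p` such that some power `g ^ n`, `n` prime to `p`, of
every `g ∈ lev p f = G_{ℚ_{p^f}}` fixes `L` (output `hexp` of
`TameFieldGalois.exists_galois_field`) and `p ∤ f`: `p ∤ [L : ℚ_p]`.
This is the input `h` of `KummerPairingSub.not_dvd_index_GLsub` (hypothesis `hidx` of
`CWLocalQp2.rank_H1A_le_one_Qp2` / `rank_H1A_one_le_one_Qp2`).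
-/
import Mathlib
import Fermat.Agent.S56x.Local.LevPow
import Fermat.Agent.S56x.Local.CWPadicOps

set_option autoImplicit false
set_option linter.unusedSectionVars false
set_option linter.style.haveILetI false

namespace Fermat.Agent.S56x.Local.TameFieldDegree

open Fermat.Agent.S56x.Local.UnrLevels Fermat.Agent.S56x.Local.CWPadicOps
  Fermat.Agent.S56x.Local.BddDef

variable {p : ℕ} [Fact p.Prime] (L : IntermediateField ℚ_[p] (PadicAlgCl p))
  [FiniteDimensional ℚ_[p] L] [IsGalois ℚ_[p] L]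

/-- **the tame level field has degree prime to `p`.** -/
theorem not_dvd_finrank_of_exp {f : ℕ} (hf : 0 < f) (hpf : ¬ p ∣ f)
    (hexp : ∃ n : ℕ, Nat.Coprime n p ∧ ∀ g ∈ lev p f, g ^ n ∈ L.fixingSubgroup) :
    ¬ p ∣ Module.finrank ℚ_[p] L := by
  have hp : p.Prime := Fact.out
  obtain ⟨n, hn, hpow⟩ := hexp
  intro hdvd
  rw [← IsGalois.card_aut_eq_finrank] at hdvd
  obtain ⟨τ, hτ⟩ := exists_prime_orderOf_dvd_card' p hdvd
  obtain ⟨g, rfl⟩ := resL_surjective L τ
  have h1 : (g ^ f) ^ n ∈ L.fixingSubgroup := hpow _ (LevPow.pow_mem_lev hf g)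
  rw [← resL_eq_one_iff, map_pow, map_pow, ← pow_mul] at h1
  have h2 : p ∣ f * n := hτ ▸ orderOf_dvd_of_pow_eq_one h1
  rcases (Nat.Prime.dvd_mul hp).1 h2 with h | h
  · exact hpf h
  · exact (Nat.Prime.coprime_iff_not_dvd hp).1 hn.symm h

/-- the case `f = 2`, `p` odd. -/
theorem not_dvd_finrank_of_exp_two (hp2 : p ≠ 2)
    (hexp : ∃ n : ℕ, Nat.Coprime n p ∧ ∀ g ∈ lev p 2, g ^ n ∈ L.fixingSubgroup) :
    ¬ p ∣ Module.finrank ℚ_[p] L := by
  refine not_dvd_finrank_of_exp L (by norm_num) ?_ hexp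
  intro h
  exact hp2 ((Nat.prime_dvd_prime_iff_eq (Fact.out : p.Prime) Nat.prime_two).1 h)

end Fermat.Agent.S56x.Local.TameFieldDegree
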