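import Fermat.Agent.S56x.Local.CountQp2Final
import Fermat.Agent.S56x.Local.CountQp2OfLevel
import Fermat.Agent.S56x.Local.TameAbelianRam
import Fermat.Agent.S56x.Local.TameFieldDegree
import Fermat.Agent.S56x.Local.BoundedKummerStmtB

/-!
# P-S56, block (A) (helper2): the count over `ℚ_{p²}`, UNCONDITIONAL

`countQp2Statement p k : IndFinal.CountQp2Statement p k` (the last input of
`FlatCountMain.flatCountStatementSplit_of_counts`), assembled from

* `CountQp2Final.countQp2_of_data` (the `p`-adic instantiation of `CWAssemblyQp2` at a tame level);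
* helper5's `IndFinal.countQp2Statement_of_levelCount` (the tame level of an admissible character);
* helper8's `TameAbelianRam.irreducible_mk_of_pow_eq_neg_p` (`π` is a uniformizer of the level);
* helper7's `TameFieldDegree.not_dvd_finrank_of_exp_two` (the degree is prime to `p`);
* helper45's `BoundedKummerStmtB.boundedKummerStatement` (Fontaine's bound ⇒ `U^(e)`).
-/

set_option autoImplicit false
set_option linter.unusedSectionVars false
set_option linter.style.haveILetI false

open IsLocalRing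

namespace Fermat.Agent.S56x.Local.CountQp2Closed

open Fermat.Agent.S56x.Local.PadicFinite Fermat.Agent.S56x.Local.UnrLevels
  Fermat.Agent.S56x.Local.BddDef

variable (p : ℕ) [Fact p.Prime] (k : Type) [Field k]

/-- **the count over `ℚ_{p²}` at a tame level**, unconditional. -/
theorem levelCountStatement : IndFinal.LevelCountStatement p k := by
  intro _ _ hp2 E _ _ hlev hK ζ π hζ hπ hζE hπE hab hexp μ hμ hμE hside
  have hab' : ∀ g ∈ lev p 2, ∀ h ∈ lev p 2, g * h * g⁻¹ * h⁻¹ ∈ E.fixingSubgroup :=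
    fun g hg h hh => hab g h hg hh
  have hπ' : π ^ (p ^ 2 - 1) = -((p : ℕ) : PadicAlgCl p) := hπ
  have hπO : (⟨π, hπE⟩ : E) ∈ OE p E := TameAbelianRam.mem_OE_of_pow_eq_neg_p (n := p ^ 2 - 1) hπ'
  obtain ⟨hirr, -⟩ := TameAbelianRam.irreducible_mk_of_pow_eq_neg_p hab' hexp two_pos hK hπE hπ' hπO
  have hidx : ¬ p ∣ Module.finrank ℚ_[p] E := TameFieldDegree.not_dvd_finrank_of_exp_two E hp2 hexp
  have hϖpow : (⟨⟨π, hπE⟩, hπO⟩ : OE p E) ^ (p ^ 2 - 1) = -((p : ℕ) : OE p E) := by
    apply Subtype.ext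
    apply Subtype.ext
    simpa using hπ'
  have hpe : ((p : ℕ) : OE p E) =
      ((-1 : (OE p E)ˣ) : OE p E) * (⟨⟨π, hπE⟩, hπO⟩ : OE p E) ^ (p ^ 2 - 1) := by
    rw [hϖpow]
    simp
  have hϖa : (⟨⟨π, hπE⟩, hπO⟩ : OE p E) ^ (p ^ 2 - 1) =
      algebraMap ℤ_[p] (OE p E) (-((p : ℕ) : ℤ_[p])) := by
    rw [hϖpow, map_neg, map_natCast]
  have hμL : ∀ z : PadicAlgCl p, z ^ (p ^ 2 - 1) = 1 → z ∈ E := fun z hz =>
    hK (IntermediateField.subset_adjoin _ _ hz)
  exact CountQp2Final.countQp2_of_data hp2 (BoundedKummerStmtB.boundedKummerStatement p) E hζ hζE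
    hμL hidx hirr hpe hϖa μ hμE hside

/-- **the count over `ℚ_{p²}`**, unconditional (the last input of block (A)). -/
theorem countQp2Statement : IndFinal.CountQp2Statement p k :=
  IndFinal.countQp2Statement_of_levelCount p (levelCountStatement p k)

end Fermat.Agent.S56x.Local.CountQp2Closed

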