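import Mathlib
import Fermat.Agent.Lib.CFT.Profinite.CdCriterion
import Fermat.Agent.Lib.CFT.Profinite.CupLevel
import Fermat.Agent.Lib.CFT.Profinite.LevelLowDegree
import Fermat.Agent.Lib.CFT.Profinite.BridgeLow

/-!
# P-S56 block (B), L2 (helper92): unramified cohomology, abstract part

`G` a group with a level family `𝒰` (the open subgroups), `D : FrobData 𝒰` the structure of the
unramified quotient: an inertia subgroup `I ⊲ G`, a Frobenius lift `frob`, the open normal
subgroups `lev m ⊇ I` with `G / lev m` cyclic of order `m` generated by `frob`, cofinal among the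
subgroups `I · U`, `U` a level.

For a finite discrete `ZMod p`-representation `M` of `G`:

* `unrCocycles D M`: the level-constant `1`-cocycles vanishing on `I`;
  `H1unr D M`: their classes in `H¹(G, M)`;
* `finrank_H1unr`: `dim H¹_unr(G, M) = dim H⁰(G, M)`;
* `exists_cochain_cup`: the cup product of two unramified cocycles with values in a module with
  trivial inertia action is the coboundary of a level-constant cochain;
* `cupH_eq_zero`: hence the cup product of two unramified classes vanishes in level cohomology.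
-/

set_option autoImplicit false

open CategoryTheory groupCohomology Module

namespace Fermat.Agent.S56x.Local.UnramAbstract

open Fermat.Agent.Lib.CFT.Profinite Fermat.Agent.Lib.CFT.Profinite.LevelFamily

variable {G : Type} [Group G]

/-- The structure of the unramified quotient of `G`. -/
structure FrobData (𝒰 : LevelFamily G) where
  /-- the inertia subgroup -/
  I : Subgroup G
  normal : I.Normal
  /-- a Frobenius lift -/
  frob : G
  /-- the open normal subgroup attached to the unramified extension of degree `m` -/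
  lev : ℕ → Subgroup G
  lev_normal : ∀ m, 0 < m → (lev m).Normal
  lev_open : ∀ m, 0 < m → ∃ U ∈ 𝒰.levels, U ≤ lev m
  I_le : ∀ m, 0 < m → I ≤ lev m
  frob_pow_mem_iff : ∀ m, 0 < m → ∀ k : ℕ, frob ^ k ∈ lev m ↔ m ∣ k
  exists_pow : ∀ m, 0 < m → ∀ g : G, ∃ k : ℕ, (frob ^ k)⁻¹ * g ∈ lev m
  cofinal : ∀ U ∈ 𝒰.levels, ∃ m, 0 < m ∧ ∀ g ∈ lev m, ∃ i ∈ I, i⁻¹ * g ∈ U

/-! ### Group theory -/

section group

variable {𝒰 : LevelFamily G} (D : FrobData 𝒰)

/-- `⟨frob⟩ · I` is dense. -/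
theorem FrobData.dense {U : Subgroup G} (hU : U ∈ 𝒰.levels) (g : G) :
    ∃ k : ℕ, ∃ i ∈ D.I, (D.frob ^ k * i)⁻¹ * g ∈ U := by
  obtain ⟨m, hm, hc⟩ := D.cofinal U hU
  obtain ⟨k, hk⟩ := D.exists_pow m hm g
  obtain ⟨i, hi, hiu⟩ := hc _ hk
  refine ⟨k, i, hi, ?_⟩
  rw [mul_inv_rev, mul_assoc]
  exact hiu

/-- If `frob ^ m` lies in the normal level `W` then `lev m ≤ W · I`. -/
theorem FrobData.lev_le {W : Subgroup G} (hWn : W.Normal) (hW : W ∈ 𝒰.levels) {m : ℕ}
    (hm : 0 < m) (hφ : D.frob ^ m ∈ W) {l : G} (hl : l ∈ D.lev m) :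
    ∃ w ∈ W, ∃ i ∈ D.I, l = w * i := by
  obtain ⟨U₁, hU₁, hU₁le⟩ := D.lev_open m hm
  obtain ⟨U, hU, hUle⟩ := 𝒰.directed U₁ hU₁ W hW
  obtain ⟨k, i, hi, hu⟩ := D.dense hU l
  obtain ⟨u, hu_def⟩ : ∃ u, u = (D.frob ^ k * i)⁻¹ * l := ⟨_, rfl⟩
  rw [← hu_def] at hu
  have hl' : l = D.frob ^ k * i * u := by rw [hu_def]; group
  have huL : u ∈ D.lev m := hU₁le (hUle hu).1
  have huW : u ∈ W := (hUle hu).2
  have hiL : i ∈ D.lev m := D.I_le m hm hi
  have hφk : D.frob ^ k ∈ D.lev m := by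
    have : D.frob ^ k = l * u⁻¹ * i⁻¹ := by rw [hl']; group
    rw [this]
    exact (D.lev m).mul_mem ((D.lev m).mul_mem hl ((D.lev m).inv_mem huL))
      ((D.lev m).inv_mem hiL)
  obtain ⟨t, rfl⟩ := (D.frob_pow_mem_iff m hm k).1 hφk
  have hφW : D.frob ^ (m * t) ∈ W := by rw [pow_mul]; exact W.pow_mem hφ t
  refine ⟨D.frob ^ (m * t) * (i * u * i⁻¹), W.mul_mem hφW (hWn.conj_mem u huW i), i, hi, ?_⟩
  rw [hl']; group

end group

/-! ### Geometric sums of an endomorphism -/

section gsum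

variable {R N : Type*} [CommRing R] [AddCommGroup N] [Module R N]

/-- `1 + T + ⋯ + T^(k-1)`. -/
def gsum (T : Module.End R N) (k : ℕ) : Module.End R N := ∑ j ∈ Finset.range k, T ^ j

@[simp] theorem gsum_zero (T : Module.End R N) : gsum T 0 = 0 := by simp [gsum]

theorem gsum_succ (T : Module.End R N) (k : ℕ) : gsum T (k + 1) = gsum T k + T ^ k :=
  Finset.sum_range_succ _ _

@[simp] theorem gsum_one (T : Module.End R N) : gsum T 1 = 1 := by simp [gsum]

theorem gsum_add (T : Module.End R N) (a b : ℕ) :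
    gsum T (a + b) = gsum T a + T ^ a * gsum T b := by
  unfold gsum
  rw [Finset.sum_range_add, Finset.mul_sum]
  congr 1
  exact Finset.sum_congr rfl fun j _ => pow_add T a j

theorem gsum_mul_of_pow_eq_one {T : Module.End R N} {d : ℕ} (hT : T ^ d = 1) (t : ℕ) :
    gsum T (t * d) = t • gsum T d := by
  induction t with
  | zero => simp
  | succ t ih =>
    rw [add_mul, one_mul, gsum_add, ih, pow_mul', hT, one_pow, one_mul, add_smul, one_smul]

theorem gsum_add_mul {T : Module.End R N} {m : ℕ} (hT : T ^ m = 1) (hg : gsum T m = 0)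
    (k t : ℕ) : gsum T (k + t * m) = gsum T k := by
  rw [gsum_add, gsum_mul_of_pow_eq_one hT, hg, smul_zero, mul_zero, add_zero]

end gsum

variable {p : ℕ} [Fact p.Prime]

/-! ### Unramified cocycles -/

section cocycles

variable {𝒰 : LevelFamily G} (D : FrobData 𝒰) (M : Rep (ZMod p) G)

theorem cocycle_mul (c : cocycles₁ M) (g h : G) : c (g * h) = M.ρ g (c h) + c g :=
  (mem_cocycles₁_iff c).1 c.2 g h

theorem cocycle_pow (c : cocycles₁ M) (g : G) (k : ℕ) :
    c (g ^ k) = gsum (M.ρ g) k (c g) := by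
  induction k with
  | zero => simp
  | succ k ih =>
    rw [pow_succ, cocycle_mul, ih, gsum_succ, LinearMap.add_apply, map_pow, add_comm]

/-- The invariants of inertia. -/
def inertiaInv : Submodule (ZMod p) M where
  carrier := {x | ∀ i ∈ D.I, M.ρ i x = x}
  add_mem' := fun {x y} hx hy i hi => by rw [map_add, hx i hi, hy i hi]
  zero_mem' := fun i _ => map_zero _
  smul_mem' := fun r x hx i hi => by rw [map_smul, hx i hi]

theorem mem_inertiaInv_iff (x : M) : x ∈ inertiaInv D M ↔ ∀ i ∈ D.I, M.ρ i x = x := Iff.rfl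

theorem ρ_mem_inertiaInv (g : G) {x : M} (hx : x ∈ inertiaInv D M) :
    M.ρ g x ∈ inertiaInv D M := by
  intro i hi
  have h1 : i * g = g * (g⁻¹ * i * g) := by group
  rw [← Module.End.mul_apply, ← map_mul, h1, map_mul, Module.End.mul_apply,
    hx _ (D.normal.conj_mem' i hi g)]

theorem gsum_mem_inertiaInv (g : G) (k : ℕ) {x : M} (hx : x ∈ inertiaInv D M) :
    gsum (M.ρ g) k x ∈ inertiaInv D M := by
  unfold gsum
  rw [LinearMap.sum_apply]
  refine Submodule.sum_mem _ fun j _ => ?_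
  rw [← map_pow]
  exact ρ_mem_inertiaInv D M _ hx

/-- The level-constant cocycles vanishing on inertia. -/
def unrCocycles : Submodule (ZMod p) (cocycles₁ M) where
  carrier := {c | 𝒰.IsConst₁ (c : G → M) ∧ ∀ i ∈ D.I, c i = 0}
  add_mem' := by
    rintro c c' ⟨⟨U, hU, h⟩, hI⟩ ⟨⟨U', hU', h'⟩, hI'⟩
    obtain ⟨V, hV, hle⟩ := 𝒰.directed U hU U' hU'
    refine ⟨⟨V, hV, fun g s hs => ?_⟩, fun i hi => ?_⟩
    · show c (g * s) + c' (g * s) = c g + c' g
      rw [h g s (hle hs).1, h' g s (hle hs).2]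
    · show c i + c' i = 0
      rw [hI i hi, hI' i hi, add_zero]
  zero_mem' := by
    obtain ⟨U, hU⟩ := 𝒰.nonempty
    exact ⟨⟨U, hU, fun _ _ _ => rfl⟩, fun _ _ => rfl⟩
  smul_mem' := by
    rintro r c ⟨⟨U, hU, h⟩, hI⟩
    refine ⟨⟨U, hU, fun g s hs => ?_⟩, fun i hi => ?_⟩
    · show r • c (g * s) = r • c g
      rw [h g s hs]
    · show r • c i = 0
      rw [hI i hi, smul_zero]

theorem mem_unrCocycles_iff (c : cocycles₁ M) :
    c ∈ unrCocycles D M ↔ 𝒰.IsConst₁ (c : G → M) ∧ ∀ i ∈ D.I, c i = 0 := Iff.rfl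

/-- The unramified part of `H¹(G, M)`. -/
noncomputable def H1unr : Submodule (ZMod p) (H1 M) := (unrCocycles D M).map (H1π M).hom

theorem mem_H1unr_iff (x : H1 M) :
    x ∈ H1unr D M ↔ ∃ c ∈ unrCocycles D M, (H1π M).hom c = x := Iff.rfl

variable {D M}

theorem apply_mem_inertiaInv {c : cocycles₁ M} (hc : ∀ i ∈ D.I, c i = 0) (g : G) :
    c g ∈ inertiaInv D M := by
  intro i hi
  have h1 : c (i * g) = M.ρ i (c g) := by rw [cocycle_mul, hc i hi, add_zero]
  have h2 : c (i * g) = c g := by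
    have : i * g = g * (g⁻¹ * i * g) := by group
    rw [this, cocycle_mul, hc _ (D.normal.conj_mem' i hi g), map_zero, zero_add]
  rw [← h1, h2]

/-- An unramified cocycle is determined by its value at Frobenius. -/
theorem eq_zero_of_frob {c : cocycles₁ M} (hc : c ∈ unrCocycles D M) (h : c D.frob = 0) :
    c = 0 := by
  obtain ⟨⟨U, hU, hconst⟩, hI⟩ := hc
  ext g
  obtain ⟨k, i, hi, hu⟩ := D.dense hU g
  have hg : g = D.frob ^ k * i * ((D.frob ^ k * i)⁻¹ * g) := by group
  rw [hg, hconst _ _ hu, cocycle_mul, hI i hi, map_zero, zero_add, cocycle_pow, h, map_zero]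
  rfl

theorem eq_of_frob {c c' : cocycles₁ M} (hc : c ∈ unrCocycles D M) (hc' : c' ∈ unrCocycles D M)
    (h : c D.frob = c' D.frob) : c = c' := by
  have h0 : (c - c') D.frob = 0 := by
    show c D.frob - c' D.frob = 0
    rw [h, sub_self]
  exact sub_eq_zero.1 (eq_zero_of_frob ((unrCocycles D M).sub_mem hc hc') h0)

/-- Coboundaries of inertia-invariant vectors are unramified cocycles. -/
theorem d₀₁_mem_unrCocycles (hM : 𝒰.IsDiscrete M) {x : M} (hx : x ∈ inertiaInv D M) :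
    (⟨(d₀₁ M).hom x, d₀₁_apply_mem_cocycles₁ x⟩ : cocycles₁ M) ∈ unrCocycles D M := by
  obtain ⟨U, hU, hfix⟩ := hM x
  refine ⟨⟨U, hU, fun g s hs => ?_⟩, fun i hi => ?_⟩
  · show M.ρ (g * s) x - x = M.ρ g x - x
    rw [map_mul, Module.End.mul_apply, hfix s hs]
  · show M.ρ i x - x = 0
    rw [hx i hi, sub_self]

end cocycles

/-! ### The standard cocycle -/

section standard

variable {𝒰 : LevelFamily G} (D : FrobData 𝒰) (M : Rep (ZMod p) G)

/-- A choice of exponent `k` with `g ∈ frob ^ k · lev m`. -/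
noncomputable def expo {m : ℕ} (hm : 0 < m) (g : G) : ℕ := (D.exists_pow m hm g).choose

theorem expo_spec {m : ℕ} (hm : 0 < m) (g : G) : (D.frob ^ expo D hm g)⁻¹ * g ∈ D.lev m :=
  (D.exists_pow m hm g).choose_spec

variable {D M}

/-- Exponents of the same element are congruent modulo `m`. -/
theorem exists_eq_add_mul {m : ℕ} (hm : 0 < m) {g : G} {k k' : ℕ}
    (hk : (D.frob ^ k)⁻¹ * g ∈ D.lev m) (hk' : (D.frob ^ k')⁻¹ * g ∈ D.lev m) (hle : k ≤ k') :
    ∃ t, k' = k + t * m := by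
  have h1 : D.frob ^ (k' - k) ∈ D.lev m := by
    have h2 : D.frob ^ (k' - k) = ((D.frob ^ k)⁻¹ * g) * ((D.frob ^ k')⁻¹ * g)⁻¹ := by
      have h3 : D.frob ^ k' = D.frob ^ k * D.frob ^ (k' - k) := by
        rw [← pow_add, Nat.add_sub_cancel' hle]
      rw [h3]; group
    rw [h2]
    exact (D.lev m).mul_mem hk ((D.lev m).inv_mem hk')
  obtain ⟨t, ht⟩ := (D.frob_pow_mem_iff m hm _).1 h1
  exact ⟨t, by rw [mul_comm t m, ← ht]; omega⟩

theorem gsum_eq_of_mem {m : ℕ} (hm : 0 < m) {T : Module.End (ZMod p) M} (hT : T ^ m = 1)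
    (hg : gsum T m = 0) {g : G} {k k' : ℕ}
    (hk : (D.frob ^ k)⁻¹ * g ∈ D.lev m) (hk' : (D.frob ^ k')⁻¹ * g ∈ D.lev m) :
    gsum T k = gsum T k' := by
  rcases le_total k k' with hle | hle
  · obtain ⟨t, rfl⟩ := exists_eq_add_mul hm hk hk' hle
    rw [gsum_add_mul hT hg]
  · obtain ⟨t, rfl⟩ := exists_eq_add_mul hm hk' hk hle
    rw [gsum_add_mul hT hg]

theorem pow_eq_of_mem {m : ℕ} (hm : 0 < m) {T : Module.End (ZMod p) M} (hT : T ^ m = 1)
    {g : G} {k k' : ℕ}
    (hk : (D.frob ^ k)⁻¹ * g ∈ D.lev m) (hk' : (D.frob ^ k')⁻¹ * g ∈ D.lev m) :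
    T ^ k = T ^ k' := by
  rcases le_total k k' with hle | hle
  · obtain ⟨t, rfl⟩ := exists_eq_add_mul hm hk hk' hle
    rw [pow_add, pow_mul', hT, one_pow, mul_one]
  · obtain ⟨t, rfl⟩ := exists_eq_add_mul hm hk' hk hle
    rw [pow_add, pow_mul', hT, one_pow, mul_one]

theorem mul_mem_lev {m : ℕ} (hm : 0 < m) {g h : G} {a b : ℕ}
    (ha : (D.frob ^ a)⁻¹ * g ∈ D.lev m) (hb : (D.frob ^ b)⁻¹ * h ∈ D.lev m) :
    (D.frob ^ (a + b))⁻¹ * (g * h) ∈ D.lev m := by
  have hn := D.lev_normal m hm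
  have h1 : (D.frob ^ (a + b))⁻¹ * (g * h) =
      ((D.frob ^ b)⁻¹ * ((D.frob ^ a)⁻¹ * g) * D.frob ^ b) * ((D.frob ^ b)⁻¹ * h) := by
    rw [pow_add]; group
  rw [h1]
  exact (D.lev m).mul_mem (hn.conj_mem' _ ha _) hb

/-- The standard cochain `g ↦ (1 + frob + ⋯ + frob^(e(g)-1)) n`. -/
noncomputable def stdFun {m : ℕ} (hm : 0 < m) (n : M) : G → M :=
  fun g => gsum (M.ρ D.frob) (expo D hm g) n

theorem stdFun_eq {m : ℕ} (hm : 0 < m) (hT : M.ρ D.frob ^ m = 1)
    (hg : gsum (M.ρ D.frob) m = 0) (n : M) {g : G} {k : ℕ}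
    (hk : (D.frob ^ k)⁻¹ * g ∈ D.lev m) :
    stdFun (D := D) hm n g = gsum (M.ρ D.frob) k n := by
  unfold stdFun
  rw [gsum_eq_of_mem hm hT hg (expo_spec D hm g) hk]

theorem stdFun_mul {m : ℕ} (hm : 0 < m) (hT : M.ρ D.frob ^ m = 1)
    (hg : gsum (M.ρ D.frob) m = 0)
    (hL : ∀ l ∈ D.lev m, ∀ x ∈ inertiaInv D M, M.ρ l x = x)
    {n : M} (hn : n ∈ inertiaInv D M) (g h : G) :
    stdFun (D := D) hm n (g * h) = M.ρ g (stdFun (D := D) hm n h) + stdFun (D := D) hm n g := by
  have ha := expo_spec D hm g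
  have hb := expo_spec D hm h
  rw [stdFun_eq hm hT hg n (mul_mem_lev hm ha hb), gsum_add, LinearMap.add_apply,
    Module.End.mul_apply]
  have hx : gsum (M.ρ D.frob) (expo D hm h) n ∈ inertiaInv D M :=
    gsum_mem_inertiaInv D M _ _ hn
  have hg' : M.ρ g (gsum (M.ρ D.frob) (expo D hm h) n) =
      (M.ρ D.frob ^ expo D hm g) (gsum (M.ρ D.frob) (expo D hm h) n) := by
    have h1 : M.ρ g = M.ρ (D.frob ^ expo D hm g) * M.ρ ((D.frob ^ expo D hm g)⁻¹ * g) := by
      rw [← map_mul, mul_inv_cancel_left]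
    rw [h1, Module.End.mul_apply, hL _ ha _ hx, map_pow]
  unfold stdFun
  rw [hg', add_comm]

/-- Every inertia-invariant vector is the value at Frobenius of an unramified cocycle. -/
theorem exists_unrCocycle [Module.Finite (ZMod p) M] (hM : 𝒰.IsDiscrete M) {n : M}
    (hn : n ∈ inertiaInv D M) : ∃ c ∈ unrCocycles D M, c D.frob = n := by
  obtain ⟨W, hW, hWn, hWfix⟩ := CdBound.exists_normal_level_acting_trivially M hM
  have hfi := 𝒰.finiteIndex W hW
  obtain ⟨d, hd0, -, hdW⟩ := W.exists_pow_mem_of_index_ne_zero hfi.index_ne_zero D.frob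
  have hp : p.Prime := Fact.out
  have hm : 0 < p * d := Nat.mul_pos hp.pos hd0
  have hTd : M.ρ D.frob ^ d = 1 := by
    rw [← map_pow]
    exact LinearMap.ext fun x => hWfix _ hdW x
  have hT : M.ρ D.frob ^ (p * d) = 1 := by rw [pow_mul', hTd, one_pow]
  have hg : gsum (M.ρ D.frob) (p * d) = 0 := by
    rw [gsum_mul_of_pow_eq_one hTd p, ← Nat.cast_smul_eq_nsmul (ZMod p), ZMod.natCast_self,
      zero_smul]
  have hφm : D.frob ^ (p * d) ∈ W := by rw [pow_mul']; exact W.pow_mem hdW p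
  have hL : ∀ l ∈ D.lev (p * d), ∀ x ∈ inertiaInv D M, M.ρ l x = x := by
    intro l hl x hx
    obtain ⟨w, hw, i, hi, rfl⟩ := D.lev_le hWn hW hm hφm hl
    rw [map_mul, Module.End.mul_apply, hx i hi, hWfix w hw]
  refine ⟨⟨stdFun (D := D) hm n, (mem_cocycles₁_iff _).2 (stdFun_mul hm hT hg hL hn)⟩, ⟨?_, ?_⟩, ?_⟩
  · obtain ⟨U₀, hU₀, hle⟩ := D.lev_open (p * d) hm
    refine ⟨U₀, hU₀, fun g s hs => ?_⟩
    show stdFun (D := D) hm n (g * s) = stdFun (D := D) hm n g
    have h1 : (D.frob ^ expo D hm g)⁻¹ * (g * s) ∈ D.lev (p * d) := by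
      rw [← mul_assoc]
      exact (D.lev (p * d)).mul_mem (expo_spec D hm g) (hle hs)
    rw [stdFun_eq hm hT hg n h1]
    rfl
  · intro i hi
    show stdFun (D := D) hm n i = 0
    have h1 : (D.frob ^ 0)⁻¹ * i ∈ D.lev (p * d) := by
      simpa using D.I_le (p * d) hm hi
    rw [stdFun_eq hm hT hg n h1, gsum_zero, LinearMap.zero_apply]
  · show stdFun (D := D) hm n D.frob = n
    have h1 : (D.frob ^ 1)⁻¹ * D.frob ∈ D.lev (p * d) := by
      simp
    rw [stdFun_eq hm hT hg n h1, gsum_one, Module.End.one_apply]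

end standard

/-! ### The dimension of the unramified cohomology -/

section finrank

variable {𝒰 : LevelFamily G} (D : FrobData 𝒰) (M : Rep (ZMod p) G)

/-- Evaluation of unramified cocycles at Frobenius. -/
def evFrob : unrCocycles D M →ₗ[ZMod p] inertiaInv D M where
  toFun c := ⟨c.1 D.frob, apply_mem_inertiaInv c.2.2 _⟩
  map_add' _ _ := rfl
  map_smul' _ _ := rfl

theorem evFrob_injective : Function.Injective (evFrob D M) := by
  intro c c' h
  exact Subtype.ext (eq_of_frob c.2 c'.2 (congrArg Subtype.val h))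

variable {M} in
theorem evFrob_surjective [Module.Finite (ZMod p) M] (hM : 𝒰.IsDiscrete M) :
    Function.Surjective (evFrob D M) := by
  rintro ⟨n, hn⟩
  obtain ⟨c, hc, h⟩ := exists_unrCocycle hM hn
  exact ⟨⟨c, hc⟩, Subtype.ext h⟩

/-- `frob - 1` on the inertia invariants. -/
def frobSubOne : inertiaInv D M →ₗ[ZMod p] inertiaInv D M :=
  (M.ρ D.frob).restrict (fun _ hx => ρ_mem_inertiaInv D M D.frob hx) - LinearMap.id

theorem frobSubOne_apply_coe (x : inertiaInv D M) :
    ((frobSubOne D M x : inertiaInv D M) : M) = M.ρ D.frob x - x := rfl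

variable {M} in
/-- The invariants of `G` are the Frobenius invariants of the inertia invariants. -/
theorem map_ker_frobSubOne (hM : 𝒰.IsDiscrete M) :
    (LinearMap.ker (frobSubOne D M)).map (inertiaInv D M).subtype = M.ρ.invariants := by
  ext x
  constructor
  · rintro ⟨⟨y, hy⟩, hker, rfl⟩
    have hfy : M.ρ D.frob y = y := by
      have := congrArg Subtype.val (LinearMap.mem_ker.1 hker)
      rw [frobSubOne_apply_coe] at this
      exact sub_eq_zero.1 this
    show y ∈ M.ρ.invariants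
    rw [Representation.mem_invariants]
    intro g
    obtain ⟨U, hU, hfix⟩ := hM y
    obtain ⟨k, i, hi, hu⟩ := D.dense hU g
    have hg : g = D.frob ^ k * i * ((D.frob ^ k * i)⁻¹ * g) := by group
    have hpow : ∀ k : ℕ, M.ρ (D.frob ^ k) y = y := by
      intro k
      induction k with
      | zero => simp
      | succ k ih => rw [pow_succ, map_mul, Module.End.mul_apply, hfy, ih]
    rw [hg, map_mul, map_mul, Module.End.mul_apply, Module.End.mul_apply, hfix _ hu, hy i hi, hpow]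
  · intro hx
    rw [Representation.mem_invariants] at hx
    refine ⟨⟨x, fun i _ => hx i⟩, ?_, rfl⟩
    rw [SetLike.mem_coe, LinearMap.mem_ker]
    apply Subtype.ext
    rw [frobSubOne_apply_coe]
    show M.ρ D.frob x - x = 0
    rw [hx, sub_self]

variable {M} in
/-- `dim H¹_unr(G, M) = dim H⁰(G, M)`. -/
theorem finrank_H1unr [Module.Finite (ZMod p) M] (hM : 𝒰.IsDiscrete M) :
    finrank (ZMod p) (H1unr D M) = finrank (ZMod p) M.ρ.invariants := by
  let e : unrCocycles D M ≃ₗ[ZMod p] inertiaInv D M :=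
    LinearEquiv.ofBijective (evFrob D M) ⟨evFrob_injective D M, evFrob_surjective D hM⟩
  let π' : unrCocycles D M →ₗ[ZMod p] H1unr D M := (H1π M).hom.submoduleMap (unrCocycles D M)
  have hπ' : Function.Surjective π' := LinearMap.submoduleMap_surjective _ _
  let Ψ : inertiaInv D M →ₗ[ZMod p] H1unr D M := π' ∘ₗ e.symm.toLinearMap
  have hΨ : Function.Surjective Ψ := hπ'.comp e.symm.surjective
  have hker : LinearMap.ker Ψ = LinearMap.range (frobSubOne D M) := by
    ext y
    rw [LinearMap.mem_ker, LinearMap.mem_range]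
    have hy : ((e.symm y : unrCocycles D M) : cocycles₁ M) D.frob = (y : M) :=
      congrArg Subtype.val (e.apply_symm_apply y)
    constructor
    · intro h0
      have h1 : (H1π M).hom ((e.symm y : unrCocycles D M) : cocycles₁ M) = 0 :=
        congrArg Subtype.val h0
      rw [H1π_eq_zero_iff] at h1
      obtain ⟨x, hx⟩ := h1
      have hxI : x ∈ inertiaInv D M := by
        intro i hi
        have h2 := congrFun hx i
        have h3 : ((e.symm y : unrCocycles D M) : cocycles₁ M) i = 0 := (e.symm y).2.2 i hi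
        rw [d₀₁_hom_apply] at h2
        exact sub_eq_zero.1 (h2.trans h3)
      refine ⟨⟨x, hxI⟩, Subtype.ext ?_⟩
      rw [frobSubOne_apply_coe, ← hy]
      have h2 := congrFun hx D.frob
      rw [d₀₁_hom_apply] at h2
      exact h2
    · rintro ⟨x, rfl⟩
      have h1 : ((e.symm (frobSubOne D M x) : unrCocycles D M) : cocycles₁ M) =
          ⟨(d₀₁ M).hom (x : M), d₀₁_apply_mem_cocycles₁ _⟩ := by
        refine eq_of_frob (e.symm _).2 (d₀₁_mem_unrCocycles hM x.2) ?_
        rw [hy, frobSubOne_apply_coe]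
        rfl
      apply Subtype.ext
      show (H1π M).hom ((e.symm (frobSubOne D M x) : unrCocycles D M) : cocycles₁ M) = 0
      rw [h1, H1π_eq_zero_iff]
      exact ⟨x, rfl⟩
  have h1 := LinearMap.finrank_range_add_finrank_ker Ψ
  have h2 := LinearMap.finrank_range_add_finrank_ker (frobSubOne D M)
  rw [LinearMap.range_eq_top.2 hΨ, finrank_top, hker] at h1
  have h3 : finrank (ZMod p) (LinearMap.ker (frobSubOne D M)) =
      finrank (ZMod p) M.ρ.invariants := by
    rw [← map_ker_frobSubOne D hM]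
    exact (Submodule.equivMapOfInjective _ (inertiaInv D M).injective_subtype _).finrank_eq
  omega

end finrank

/-! ### The cup product of unramified cocycles -/

section cup

open Fermat.Agent.Lib.CFT.Coh.Cup

variable {𝒰 : LevelFamily G} (D : FrobData 𝒰) {A B C : Rep (ZMod p) G}

/-- The cup product `2`-cochain of two `1`-cocycles. -/
def cupFun (φ : Pairing A B C) (a : cocycles₁ A) (b : cocycles₁ B) (g h : G) : C :=
  φ.toLin (a g) (B.ρ g (b h))

theorem cupFun_one_right (φ : Pairing A B C) (a : cocycles₁ A) (b : cocycles₁ B) (g : G) :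
    cupFun φ a b g 1 = 0 := by
  unfold cupFun
  rw [cocycles₁_map_one, map_zero, map_zero]

/-- The `2`-cocycle identity. -/
theorem cupFun_cocycle (φ : Pairing A B C) (a : cocycles₁ A) (b : cocycles₁ B) (g h k : G) :
    C.ρ g (cupFun φ a b h k) + cupFun φ a b g (h * k) =
      cupFun φ a b (g * h) k + cupFun φ a b g h := by
  unfold cupFun
  rw [← φ.equivariant, cocycle_mul A a g h, cocycle_mul B b h k, map_mul, Module.End.mul_apply]
  simp only [map_add, LinearMap.add_apply]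
  abel

/-- The primitive of the cup product cocycle along the powers of Frobenius. -/
def cupPrim (φ : Pairing A B C) (a : cocycles₁ A) (b : cocycles₁ B) (k : ℕ) : C :=
  ∑ t ∈ Finset.range k, cupFun φ a b (D.frob ^ t) D.frob

theorem cupPrim_succ (φ : Pairing A B C) (a : cocycles₁ A) (b : cocycles₁ B) (k : ℕ) :
    cupPrim D φ a b (k + 1) = cupPrim D φ a b k + cupFun φ a b (D.frob ^ k) D.frob :=
  Finset.sum_range_succ _ _

theorem cupPrim_add (φ : Pairing A B C) (a : cocycles₁ A) (b : cocycles₁ B) (i j : ℕ) :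
    cupPrim D φ a b (i + j) = cupPrim D φ a b i + C.ρ (D.frob ^ i) (cupPrim D φ a b j) +
      cupFun φ a b (D.frob ^ i) (D.frob ^ j) := by
  induction j with
  | zero =>
    rw [pow_zero, cupFun_one_right]
    simp [cupPrim]
  | succ j ih =>
    rw [← add_assoc, cupPrim_succ, ih, cupPrim_succ, map_add, pow_succ D.frob j]
    have h := cupFun_cocycle φ a b (D.frob ^ i) (D.frob ^ j) D.frob
    rw [← pow_add] at h
    have h' : cupFun φ a b (D.frob ^ i) (D.frob ^ j * D.frob) =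
        cupFun φ a b (D.frob ^ (i + j)) D.frob + cupFun φ a b (D.frob ^ i) (D.frob ^ j) -
          C.ρ (D.frob ^ i) (cupFun φ a b (D.frob ^ j) D.frob) := eq_sub_of_add_eq' h
    rw [h']
    abel

theorem cupFun_eq_zero_of_right (φ : Pairing A B C) (a : cocycles₁ A) (b : cocycles₁ B)
    (g : G) {h : G} (hb : b h = 0) : cupFun φ a b g h = 0 := by
  unfold cupFun
  rw [hb, map_zero, map_zero]

variable {D}

/-- **The cup product of two unramified cocycles is a coboundary** of a level-constant cochain,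
when inertia acts trivially on the target. -/
theorem exists_cochain_cup [Module.Finite (ZMod p) A] [Module.Finite (ZMod p) B]
    [Module.Finite (ZMod p) C] (hA : 𝒰.IsDiscrete A) (hB : 𝒰.IsDiscrete B)
    (hC : 𝒰.IsDiscrete C) (φ : Pairing A B C) (hCI : ∀ i ∈ D.I, ∀ x : C, C.ρ i x = x)
    {a : cocycles₁ A} (ha : a ∈ unrCocycles D A) {b : cocycles₁ B}
    (hb : b ∈ unrCocycles D B) :
    ∃ f : G → C, 𝒰.IsConst₁ f ∧
      ∀ g h, cupFun φ a b g h = C.ρ g (f h) - f (g * h) + f g := by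
  obtain ⟨WA, hWA, -, hWAfix⟩ := CdBound.exists_normal_level_acting_trivially A hA
  obtain ⟨WB, hWB, -, hWBfix⟩ := CdBound.exists_normal_level_acting_trivially B hB
  obtain ⟨WC, hWC, -, hWCfix⟩ := CdBound.exists_normal_level_acting_trivially C hC
  obtain ⟨⟨Ua, hUa, hac⟩, haI⟩ := ha
  obtain ⟨⟨Ub, hUb, hbc⟩, hbI⟩ := hb
  obtain ⟨W1, hW1, h1A, h1B, -⟩ := 𝒰.exists_normal_le_inf hWA hWB
  obtain ⟨W2, hW2, h21, h2C, -⟩ := 𝒰.exists_normal_le_inf hW1 hWC
  obtain ⟨W3, hW3, h32, h3a, -⟩ := 𝒰.exists_normal_le_inf hW2 hUa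
  obtain ⟨W, hW, h43, h4b, hWn⟩ := 𝒰.exists_normal_le_inf hW3 hUb
  have leB : W ≤ WB := h43.trans (h32.trans (h21.trans h1B))
  have leC : W ≤ WC := h43.trans (h32.trans h2C)
  have lea : W ≤ Ua := h43.trans h3a
  have hfi := 𝒰.finiteIndex W hW
  obtain ⟨d, hd0, -, hdW⟩ := W.exists_pow_mem_of_index_ne_zero hfi.index_ne_zero D.frob
  have hp : p.Prime := Fact.out
  have hm : 0 < p * d := Nat.mul_pos hp.pos hd0
  have hpowW : ∀ s : ℕ, D.frob ^ (s * d) ∈ W := fun s => by
    rw [pow_mul']; exact W.pow_mem hdW s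
  have hφm : D.frob ^ (p * d) ∈ W := hpowW p
  have ha_W : ∀ w ∈ W, a w = 0 := fun w hw => by
    have := hac 1 w (lea hw)
    rwa [one_mul, cocycles₁_map_one] at this
  have hb_W : ∀ w ∈ W, b w = 0 := fun w hw => by
    have := hbc 1 w (h4b hw)
    rwa [one_mul, cocycles₁_map_one] at this
  have ha_L : ∀ l ∈ D.lev (p * d), a l = 0 := by
    intro l hl
    obtain ⟨w, hw, i, hi, rfl⟩ := D.lev_le hWn hW hm hφm hl
    rw [cocycle_mul, haI i hi, map_zero, zero_add, ha_W w hw]
  have hb_L : ∀ l ∈ D.lev (p * d), b l = 0 := by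
    intro l hl
    obtain ⟨w, hw, i, hi, rfl⟩ := D.lev_le hWn hW hm hφm hl
    rw [cocycle_mul, hbI i hi, map_zero, zero_add, hb_W w hw]
  have hB_L : ∀ l ∈ D.lev (p * d), ∀ y ∈ inertiaInv D B, B.ρ l y = y := by
    intro l hl y hy
    obtain ⟨w, hw, i, hi, rfl⟩ := D.lev_le hWn hW hm hφm hl
    rw [map_mul, Module.End.mul_apply, hy i hi, hWBfix w (leB hw)]
  have hC_L : ∀ l ∈ D.lev (p * d), ∀ x : C, C.ρ l x = x := by
    intro l hl x
    obtain ⟨w, hw, i, hi, rfl⟩ := D.lev_le hWn hW hm hφm hl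
    rw [map_mul, Module.End.mul_apply, hCI i hi, hWCfix w (leC hw)]
  have ha_g : ∀ (k : ℕ) (g : G), (D.frob ^ k)⁻¹ * g ∈ D.lev (p * d) → a g = a (D.frob ^ k) := by
    intro k g hk
    conv_lhs => rw [← mul_inv_cancel_left (D.frob ^ k) g]
    rw [cocycle_mul, ha_L _ hk, map_zero, zero_add]
  have hb_g : ∀ (k : ℕ) (g : G), (D.frob ^ k)⁻¹ * g ∈ D.lev (p * d) → b g = b (D.frob ^ k) := by
    intro k g hk
    conv_lhs => rw [← mul_inv_cancel_left (D.frob ^ k) g]
    rw [cocycle_mul, hb_L _ hk, map_zero, zero_add]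
  have hB_g : ∀ (k : ℕ) (g : G), (D.frob ^ k)⁻¹ * g ∈ D.lev (p * d) →
      ∀ y ∈ inertiaInv D B, B.ρ g y = B.ρ (D.frob ^ k) y := by
    intro k g hk y hy
    conv_lhs => rw [← mul_inv_cancel_left (D.frob ^ k) g]
    rw [map_mul, Module.End.mul_apply, hB_L _ hk y hy]
  have hC_g : ∀ (k : ℕ) (g : G), (D.frob ^ k)⁻¹ * g ∈ D.lev (p * d) →
      ∀ x : C, C.ρ g x = C.ρ (D.frob ^ k) x := by
    intro k g hk x
    conv_lhs => rw [← mul_inv_cancel_left (D.frob ^ k) g]
    rw [map_mul, Module.End.mul_apply, hC_L _ hk x]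
  have hcup : ∀ (i j : ℕ) (g h : G), (D.frob ^ i)⁻¹ * g ∈ D.lev (p * d) →
      (D.frob ^ j)⁻¹ * h ∈ D.lev (p * d) →
      cupFun φ a b g h = cupFun φ a b (D.frob ^ i) (D.frob ^ j) := by
    intro i j g h hi hj
    unfold cupFun
    rw [ha_g i g hi, hb_g j h hj, hB_g i g hi _ (apply_mem_inertiaInv hbI _)]
  -- the primitive and its periodicity
  have hF_d : ∀ s : ℕ, cupPrim D φ a b (s * d) = s • cupPrim D φ a b d := by
    intro s
    induction s with
    | zero => simp [cupPrim]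
    | succ s ih =>
      rw [add_mul, one_mul, cupPrim_add, ih, cupFun_eq_zero_of_right φ a b _ (hb_W _ hdW),
        add_zero, hWCfix _ (leC (hpowW s)), add_smul, one_smul]
  have hF_m : ∀ t : ℕ, cupPrim D φ a b (t * (p * d)) = 0 := by
    intro t
    rw [← mul_assoc, hF_d, ← Nat.cast_smul_eq_nsmul (ZMod p), Nat.cast_mul, ZMod.natCast_self,
      mul_zero, zero_smul]
  have hF_per : ∀ k t : ℕ, cupPrim D φ a b (k + t * (p * d)) = cupPrim D φ a b k := by
    intro k t
    have hbt : b (D.frob ^ (t * (p * d))) = 0 := by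
      rw [← mul_assoc]; exact hb_W _ (hpowW _)
    rw [cupPrim_add, hF_m, map_zero, add_zero, cupFun_eq_zero_of_right φ a b _ hbt, add_zero]
  have hF_eq : ∀ (g : G) (k k' : ℕ), (D.frob ^ k)⁻¹ * g ∈ D.lev (p * d) →
      (D.frob ^ k')⁻¹ * g ∈ D.lev (p * d) → cupPrim D φ a b k = cupPrim D φ a b k' := by
    intro g k k' hk hk'
    rcases le_total k k' with hle | hle
    · obtain ⟨t, rfl⟩ := exists_eq_add_mul hm hk hk' hle
      rw [hF_per]
    · obtain ⟨t, rfl⟩ := exists_eq_add_mul hm hk' hk hle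
      rw [hF_per]
  refine ⟨fun g => -cupPrim D φ a b (expo D hm g), ?_, ?_⟩
  · obtain ⟨U₀, hU₀, hle⟩ := D.lev_open (p * d) hm
    refine ⟨U₀, hU₀, fun g s hs => ?_⟩
    have h1 : (D.frob ^ expo D hm g)⁻¹ * (g * s) ∈ D.lev (p * d) := by
      rw [← mul_assoc]
      exact (D.lev (p * d)).mul_mem (expo_spec D hm g) (hle hs)
    show -cupPrim D φ a b (expo D hm (g * s)) = -cupPrim D φ a b (expo D hm g)
    rw [hF_eq (g * s) _ _ (expo_spec D hm (g * s)) h1]
  · intro g h
    have hi := expo_spec D hm g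
    have hj := expo_spec D hm h
    show cupFun φ a b g h = C.ρ g (-cupPrim D φ a b (expo D hm h)) -
      -cupPrim D φ a b (expo D hm (g * h)) + -cupPrim D φ a b (expo D hm g)
    rw [hcup _ _ g h hi hj, hC_g _ g hi,
      hF_eq (g * h) _ _ (expo_spec D hm (g * h)) (mul_mem_lev hm hi hj), cupPrim_add, map_neg]
    abel

end cup

/-! ### Vanishing of the cup product in level cohomology -/

section cupH

open Fermat.Agent.Lib.CFT.Coh.Cup Fermat.Agent.Lib.CFT.ConcreteHomology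

variable {𝒰 : LevelFamily G} {D : FrobData 𝒰}

/-- A level-constant cocycle of a discrete module, as a level cocycle. -/
theorem up_isLevelCocycle {M : Rep (ZMod p) G} (hM : 𝒰.IsDiscrete M) {c : cocycles₁ M}
    (hc : 𝒰.IsConst₁ (c : G → M)) : 𝒰.IsLevelCocycle M (fun g : Fin 1 → G => c (g 0)) := by
  refine ⟨(isLevelCochain_iff_of_isDiscrete hM).2 ((𝒰.isConst_one_iff _).2 hc), ?_⟩
  have := LevelFamily.cochainsIso₁_inv_mem_Z M c
  rw [mem_Z_iff, inhomogeneousCochains.d_def] at this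
  exact this

theorem toGroupCohomology_cls_up {M : Rep (ZMod p) G} (hM : 𝒰.IsDiscrete M) {c : cocycles₁ M}
    (hc : 𝒰.IsConst₁ (c : G → M)) :
    (𝒰.toGroupCohomology M 1).hom (𝒰.cls _ (up_isLevelCocycle hM hc)) = (H1π M).hom c := by
  rw [cls_eq_classMk, toGroupCohomology_classMk, LevelFamily.H1π_eq_classOf]
  rfl

/-- A level cohomology class whose image in `H¹` is unramified is the class of an unramified
cocycle. -/
theorem eq_cls_of_mem_H1unr {M : Rep (ZMod p) G} (hM : 𝒰.IsDiscrete M)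
    (x : 𝒰.levelCohomology M 1) (hx : (𝒰.toGroupCohomology M 1).hom x ∈ H1unr D M) :
    ∃ (c : cocycles₁ M) (hc : c ∈ unrCocycles D M), x = 𝒰.cls _ (up_isLevelCocycle hM hc.1) := by
  obtain ⟨c, hc, hcx⟩ := hx
  refine ⟨c, hc, ?_⟩
  apply 𝒰.toGroupCohomology_one_injective M
  rw [toGroupCohomology_cls_up hM hc.1, hcx]

variable {A B C : Rep (ZMod p) G}

/-- **The cup product of two unramified classes vanishes** in level cohomology, when inertia
acts trivially on the target. -/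
theorem cupH_eq_zero [Module.Finite (ZMod p) A] [Module.Finite (ZMod p) B]
    [Module.Finite (ZMod p) C] (hA : 𝒰.IsDiscrete A) (hB : 𝒰.IsDiscrete B)
    (hC : 𝒰.IsDiscrete C) (φ : Pairing A B C) (hCI : ∀ i ∈ D.I, ∀ x : C, C.ρ i x = x)
    {l : ℕ} (h : 1 + 1 = l)
    (x : 𝒰.levelCohomology A 1) (y : 𝒰.levelCohomology B 1)
    (hx : (𝒰.toGroupCohomology A 1).hom x ∈ H1unr D A)
    (hy : (𝒰.toGroupCohomology B 1).hom y ∈ H1unr D B) :
    𝒰.cupH φ h x y = 0 := by
  obtain rfl : l = 2 := h.symm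
  obtain ⟨a, ha, rfl⟩ := eq_cls_of_mem_H1unr hA x hx
  obtain ⟨b, hb, rfl⟩ := eq_cls_of_mem_H1unr hB y hy
  rw [cupH_cls, cls_eq_zero_iff]
  obtain ⟨f, hf, hid⟩ := exists_cochain_cup hA hB hC φ hCI ha hb
  refine ⟨fun g => f (g 0),
    (isLevelCochain_iff_of_isDiscrete hC).2 ((𝒰.isConst_one_iff _).2 hf), ?_⟩
  have h1 := Bridge.d_cochainsIso₁_inv (M := C) f
  funext g
  have h2 := congrFun h1 g
  rw [Bridge.cochainsIso₂_inv_apply, d₁₂_hom_apply] at h2
  have h3 : cupTo φ h (fun g : Fin 1 → G => a (g 0)) (fun g : Fin 1 → G => b (g 0)) g =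
      cupFun φ a b (g 0) (g 1) := cupTo_one_one_apply φ _ _ g
  rw [h3, hid]
  exact h2

end cupH

end Fermat.Agent.S56x.Local.UnramAbstract
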