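/-
P-S56, block (B)/(C) local line, arithmetic input of `FrobData` (helper92's note 1448), part 2
(helper42): the `FrobData` of the local Galois group `Gal(PadicAlgCl q / ℚ_q)`.

* `unrInertia q` : the subgroup fixing all roots of unity of order prime to `q`
  (`= Gal(PadicAlgCl q / ℚ_q^{unr})`; `mem_unrInertia_iff`, elementary form
  `mem_unrInertia_iff_forall`);
* `frobData q : FrobData (Bridge.localLevels q)` with `I = unrInertia q`, `frob = UnrLevels.frob q`,
  `lev = UnrLevels.lev q`;
* `primeFrobData (q : Nat.Primes) : FrobData (primeLocalLevels q)`, the same in the Prelude's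
  `Nat.Primes`-indexed form, and `primeFrobData_I_eq` : `(primeFrobData q).I = I` for every
  subgroup `I` of `primeLocalGaloisGroup q` characterised by "fixes all roots of unity of order
  prime to `q`" (to be applied to `localInertia q` of `Local/LocalInertia.lean`).
-/
import Mathlib
import Fermat.Agent.S56x.Local.UnrLevels
import Fermat.Agent.S56x.Local.UnramAbstract
import Fermat.Agent.Lib.CFT.Duality.LocDatum

set_option autoImplicit false
set_option linter.unusedSectionVars false
set_option linter.style.haveILetI false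

open Fermat.Agent.Lib.CFT.Profinite Fermat.Agent.S56x.Local.UnramAbstract
  Fermat.Agent.S56x.Local.UnrLevels Fermat.Agent.Lib.CFT.Duality ExtCitation

namespace Fermat.Agent.S56x.Local.FrobDataLocal

section Nat

variable (q : ℕ) [Fact q.Prime]

local notation "Ω" => PadicAlgCl q
local notation "Gq" => (PadicAlgCl q ≃ₐ[ℚ_[q]] PadicAlgCl q)

/-- The inertia subgroup of `Gal(PadicAlgCl q / ℚ_q)`, as the fixing subgroup of the maximal
unramified extension `ℚ_q(μ_n, q ∤ n)`. -/
noncomputable def unrInertia : Subgroup Gq := (unrTop q).fixingSubgroup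

variable {q}

theorem mem_unrInertia_iff (σ : Gq) : σ ∈ unrInertia q ↔ ∀ n : ℕ, 0 < n → σ ∈ lev q n :=
  mem_fixingSubgroup_unrTop_iff σ

theorem mem_unrInertia_iff_forall (σ : Gq) :
    σ ∈ unrInertia q ↔ ∀ n : ℕ, 0 < n → ∀ z : Ω, z ^ (q ^ n - 1) = 1 → σ z = z := by
  rw [mem_unrInertia_iff]
  exact forall_congr' fun n => forall_congr' fun _ => mem_lev_iff σ

instance unrInertia_normal : (unrInertia q).Normal := by
  refine ⟨fun σ hσ g => ?_⟩
  rw [mem_unrInertia_iff] at hσ ⊢
  intro n hn
  haveI := lev_normal (q := q) hn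
  exact Subgroup.Normal.conj_mem inferInstance σ (hσ n hn) g

variable (q)

/-- **The `FrobData` of the local Galois group at `q`.** -/
noncomputable def frobData : FrobData (Bridge.localLevels q) where
  I := unrInertia q
  normal := unrInertia_normal
  frob := UnrLevels.frob q
  lev := lev q
  lev_normal _ hm := lev_normal hm
  lev_open m hm := ⟨lev q m, lev_mem_levels hm, le_rfl⟩
  I_le m hm σ hσ := (mem_unrInertia_iff σ).mp hσ m hm
  frob_pow_mem_iff _ hm k := frob_pow_mem_lev_iff hm k
  exists_pow _ hm g := exists_frob_pow hm g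
  cofinal := by
    rintro _ ⟨E, hE, rfl⟩
    haveI := hE
    obtain ⟨m, hm, h⟩ := exists_lev_le (q := q) E
    refine ⟨m, hm, fun g hg => ?_⟩
    obtain ⟨i, hi, hig⟩ := h g hg
    exact ⟨i, (mem_unrInertia_iff i).mpr hi, hig⟩

@[simp] theorem frobData_I : (frobData q).I = unrInertia q := rfl
@[simp] theorem frobData_frob : (frobData q).frob = UnrLevels.frob q := rfl
@[simp] theorem frobData_lev : (frobData q).lev = lev q := rfl

end Nat

section Primes

variable (q : Nat.Primes)

/-- The `FrobData` of the Prelude's local Galois group `primeLocalGaloisGroup q`. -/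
noncomputable def primeFrobData : FrobData (primeLocalLevels q) :=
  letI : Fact (q : ℕ).Prime := ⟨q.2⟩
  frobData (q : ℕ)

/-- Membership in the inertia subgroup of `primeFrobData q`, elementary form. -/
theorem mem_primeFrobData_I_iff (σ : primeLocalGaloisGroup q) :
    letI : Fact (q : ℕ).Prime := ⟨q.2⟩
    σ ∈ (primeFrobData q).I ↔ ∀ n : ℕ, 0 < n → ∀ z : PadicAlgCl (q : ℕ),
      z ^ ((q : ℕ) ^ n - 1) = 1 →
        (show PadicAlgCl (q : ℕ) ≃ₐ[ℚ_[(q : ℕ)]] PadicAlgCl (q : ℕ) from σ) z = z :=
  letI : Fact (q : ℕ).Prime := ⟨q.2⟩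
  mem_unrInertia_iff_forall (q := (q : ℕ)) σ

/-- The inertia subgroup of `primeFrobData q` is any subgroup characterised by "fixes all roots of
unity of order prime to `q`". -/
theorem primeFrobData_I_eq (I : Subgroup (primeLocalGaloisGroup q))
    (hI : letI : Fact (q : ℕ).Prime := ⟨q.2⟩
      ∀ σ : primeLocalGaloisGroup q, σ ∈ I ↔ ∀ n : ℕ, 0 < n → ∀ z : PadicAlgCl (q : ℕ),
        z ^ ((q : ℕ) ^ n - 1) = 1 →
          (show PadicAlgCl (q : ℕ) ≃ₐ[ℚ_[(q : ℕ)]] PadicAlgCl (q : ℕ) from σ) z = z) :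
    (primeFrobData q).I = I := by
  ext σ
  rw [mem_primeFrobData_I_iff, hI]

theorem exists_frobData_I_eq (I : Subgroup (primeLocalGaloisGroup q))
    (hI : letI : Fact (q : ℕ).Prime := ⟨q.2⟩
      ∀ σ : primeLocalGaloisGroup q, σ ∈ I ↔ ∀ n : ℕ, 0 < n → ∀ z : PadicAlgCl (q : ℕ),
        z ^ ((q : ℕ) ^ n - 1) = 1 →
          (show PadicAlgCl (q : ℕ) ≃ₐ[ℚ_[(q : ℕ)]] PadicAlgCl (q : ℕ) from σ) z = z) :
    ∃ D : FrobData (primeLocalLevels q), D.I = I :=
  ⟨primeFrobData q, primeFrobData_I_eq q I hI⟩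

end Primes

end Fermat.Agent.S56x.Local.FrobDataLocal
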