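import Fermat.Agent.S56x.Local.UnramAbstract
import Fermat.Agent.S56x.GW.LocalFields

/-!
# P-S56 block (B), L2 (helper92): unramified local cohomology in the Prelude's formalism

For a prime `q`, a subgroup `I` of the local Galois group `G_q = primeLocalGaloisGroup q` (the
inertia subgroup) and a Galois module `M : Rep (ZMod p) Gal(Qbar/ℚ)`:

* `H1unrOf q I M ≤ H1 (Rep.res (primeLocalToGlobal q) M)`: the classes of cocycles which are
  level constant (in the Prelude's sense, `IsLevelConstant₁ (primeLocalToGlobal q)`) and vanish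
  on `I`;
* `H1unrOf_le_continuousH1`;
* `finrank_H1unrOf`: for `D : FrobData (primeLocalLevels q)` and finite smooth `M`,
  `dim H¹_unr(G_q, M) = dim H⁰(G_q, M)`;
* `pairingAtOf_eq_zero`: if moreover the mod `p` cyclotomic character is trivial on `D.I`
  (i.e. `q ≠ p`), the local Tate pairing `pairingAtOf q M B` of `S56x/GW/LocalFields` vanishes on
  `H¹_unr(M) × H¹_unr(M^*(1))`.
-/

set_option autoImplicit false

open CategoryTheory groupCohomology ExtCitation Module

namespace Fermat.Agent.S56x.Local.UnramLocal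

open Fermat.Agent.Lib.CFT.Profinite Fermat.Agent.Lib.CFT.Profinite.LevelFamily
open Fermat.Agent.Lib.CFT.Profinite.Bridge
open Fermat.Agent.Lib.CFT.Duality Fermat.Agent.Lib.CFT.Duality.LocalTate
open Fermat.Agent.S56x.GW Fermat.Agent.S56x.Local.UnramAbstract

local notation "Qbar" => AlgebraicClosure ℚ
local notation "Γℚ" => (AlgebraicClosure ℚ ≃ₐ[ℚ] AlgebraicClosure ℚ)

variable {p : ℕ} [Fact p.Prime] (q : Nat.Primes)

/-! ### Level constancy: the Prelude's notion and the library's -/

/-- For the local Galois group, level constancy in the sense of the Prelude (pulled back global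
levels) is level constancy for the family of all open subgroups. -/
theorem isLevelConstant₁_iff_isConst₁ {X : Type*} (f : primeLocalGaloisGroup q → X) :
    IsLevelConstant₁ (primeLocalToGlobal q) f ↔ (primeLocalLevels q).IsConst₁ f := by
  rw [isLevelConstant₁_iff]
  constructor
  · rintro ⟨U, hU, h⟩
    obtain ⟨V, hV, hle⟩ := isCompatible_localLevelsP_galLevels q U hU
    exact ⟨V, hV, fun g s hs => h g s (hle hs)⟩
  · rintro ⟨V, hV, h⟩
    obtain ⟨U, hU, hle⟩ := isCompatible_galLevels_localLevelsP q V hV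
    exact ⟨U, hU, fun g s hs => h g s (hle hs)⟩

/-! ### The unramified classes -/

section defs

variable (I : Subgroup (primeLocalGaloisGroup q)) (M : Rep (ZMod p) Γℚ)

/-- The level-constant cocycles of `G_q` vanishing on `I`. -/
def unrCocyclesOf : Submodule (ZMod p) (cocycles₁ (Rep.res (primeLocalToGlobal q) M)) where
  carrier := {c | IsLevelConstant₁ (primeLocalToGlobal q)
    (c : primeLocalGaloisGroup q → Rep.res (primeLocalToGlobal q) M) ∧ ∀ i ∈ I, c i = 0}
  add_mem' := by
    rintro c c' ⟨h, hI⟩ ⟨h', hI'⟩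
    refine ⟨h.add h', fun i hi => ?_⟩
    show c i + c' i = 0
    rw [hI i hi, hI' i hi, add_zero]
  zero_mem' := ⟨isLevelConstant₁_const _ _, fun _ _ => rfl⟩
  smul_mem' := by
    rintro r c ⟨h, hI⟩
    refine ⟨h.comp (r • ·), fun i hi => ?_⟩
    show r • c i = 0
    rw [hI i hi, smul_zero]

theorem mem_unrCocyclesOf_iff (c : cocycles₁ (Rep.res (primeLocalToGlobal q) M)) :
    c ∈ unrCocyclesOf q I M ↔ IsLevelConstant₁ (primeLocalToGlobal q)
      (c : primeLocalGaloisGroup q → Rep.res (primeLocalToGlobal q) M) ∧ ∀ i ∈ I, c i = 0 :=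
  Iff.rfl

/-- **The unramified part of the local `H¹`**: classes of level-constant cocycles vanishing on
`I`. -/
noncomputable def H1unrOf : Submodule (ZMod p) (H1 (Rep.res (primeLocalToGlobal q) M)) :=
  (unrCocyclesOf q I M).map (H1π (Rep.res (primeLocalToGlobal q) M)).hom

theorem mem_H1unrOf_iff (x : H1 (Rep.res (primeLocalToGlobal q) M)) :
    x ∈ H1unrOf q I M ↔ ∃ c : cocycles₁ (Rep.res (primeLocalToGlobal q) M),
      (IsLevelConstant₁ (primeLocalToGlobal q)
        (c : primeLocalGaloisGroup q → Rep.res (primeLocalToGlobal q) M) ∧ ∀ i ∈ I, c i = 0) ∧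
      (H1π (Rep.res (primeLocalToGlobal q) M)).hom c = x := Iff.rfl

/-- Unramified classes are continuous. -/
theorem H1unrOf_le_continuousH1 :
    H1unrOf q I M ≤ continuousH1 (primeLocalToGlobal q) (Rep.res (primeLocalToGlobal q) M) := by
  rintro x ⟨c, hc, rfl⟩
  exact H1π_mem_continuousH1 _ _ hc.1

theorem H1unrOf_mono {I I' : Subgroup (primeLocalGaloisGroup q)} (h : I ≤ I') :
    H1unrOf q I' M ≤ H1unrOf q I M := by
  rintro x ⟨c, hc, rfl⟩
  exact ⟨c, ⟨hc.1, fun i hi => hc.2 i (h hi)⟩, rfl⟩

end defs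

/-! ### Description as a kernel of restriction -/

section kernel

/-- The restriction to a subgroup `I` of the class of a cocycle `c` vanishes iff `c` is a
coboundary on `I`. -/
theorem res_H1π_eq_zero_iff {k G : Type} [CommRing k] [Group G] (I : Subgroup G) (A : Rep k G)
    (c : cocycles₁ A) :
    (groupCohomology.map I.subtype (𝟙 (Rep.res I.subtype A)) 1).hom ((H1π A).hom c) = 0 ↔
      ∃ m : A, ∀ i ∈ I, c i = A.ρ i m - m := by
  have h1 := H1π_comp_map_apply I.subtype (𝟙 (Rep.res I.subtype A)) c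
  rw [h1, H1π_eq_zero_iff]
  constructor
  · rintro ⟨m, hm⟩
    refine ⟨m, fun i hi => ?_⟩
    have := congrFun hm ⟨i, hi⟩
    rw [d₀₁_hom_apply] at this
    exact this.symm
  · rintro ⟨m, hm⟩
    refine ⟨m, funext fun i => ?_⟩
    rw [d₀₁_hom_apply]
    exact (hm i.1 i.2).symm

variable (I : Subgroup (primeLocalGaloisGroup q)) {M : Rep (ZMod p) Γℚ}

/-- For a smooth module, the unramified classes are the continuous classes whose restriction to
`I` vanishes. -/
theorem H1unrOf_eq_inf
    (hsm : ∀ m : M, ∃ F : IntermediateField ℚ Qbar, FiniteDimensional ℚ F ∧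
      ∀ s ∈ F.fixingSubgroup, M.ρ s m = m) :
    H1unrOf q I M =
      continuousH1 (primeLocalToGlobal q) (Rep.res (primeLocalToGlobal q) M) ⊓
        LinearMap.ker (groupCohomology.map I.subtype
          (𝟙 (Rep.res I.subtype (Rep.res (primeLocalToGlobal q) M))) 1).hom := by
  apply le_antisymm
  · intro x hx
    refine ⟨H1unrOf_le_continuousH1 q I M hx, ?_⟩
    obtain ⟨c, hc, rfl⟩ := hx
    rw [SetLike.mem_coe, LinearMap.mem_ker, res_H1π_eq_zero_iff]
    exact ⟨0, fun i hi => by rw [hc.2 i hi, map_zero, sub_zero]⟩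
  · rintro x ⟨hx, hker⟩
    obtain ⟨c, hc, rfl⟩ := (mem_continuousH1_iff _ _ _).1 hx
    obtain ⟨m, hm⟩ := (res_H1π_eq_zero_iff I _ c).1 (LinearMap.mem_ker.1 hker)
    -- the coboundary of `m` is level constant
    have hdm : IsLevelConstant₁ (primeLocalToGlobal q)
        ((d₀₁ (Rep.res (primeLocalToGlobal q) M)).hom m) := by
      obtain ⟨F, hF, hfix⟩ := hsm m
      refine ⟨F, hF, fun g s hs => ?_⟩
      rw [d₀₁_hom_apply, d₀₁_hom_apply]
      show M.ρ (primeLocalToGlobal q (g * s)) m - m = M.ρ (primeLocalToGlobal q g) m - m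
      rw [map_mul, map_mul, Module.End.mul_apply, hfix _ hs]
    let c' : cocycles₁ (Rep.res (primeLocalToGlobal q) M) :=
      c - ⟨(d₀₁ (Rep.res (primeLocalToGlobal q) M)).hom m, d₀₁_apply_mem_cocycles₁ m⟩
    refine ⟨c', ⟨?_, fun i hi => ?_⟩, ?_⟩
    · have h2 : IsLevelConstant₁ (primeLocalToGlobal q)
          (fun g => (-1 : ZMod p) • (d₀₁ (Rep.res (primeLocalToGlobal q) M)).hom m g) :=
        hdm.comp ((-1 : ZMod p) • ·)
      have h3 := hc.add h2
      have h4 : (c' : primeLocalGaloisGroup q → Rep.res (primeLocalToGlobal q) M) =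
          (c : primeLocalGaloisGroup q → Rep.res (primeLocalToGlobal q) M) +
            fun g => (-1 : ZMod p) • (d₀₁ (Rep.res (primeLocalToGlobal q) M)).hom m g := by
        funext g
        show c g - (d₀₁ (Rep.res (primeLocalToGlobal q) M)).hom m g = _
        rw [Pi.add_apply, neg_one_smul, sub_eq_add_neg]
      rw [h4]
      exact h3
    · show c i - (d₀₁ (Rep.res (primeLocalToGlobal q) M)).hom m i = 0
      rw [hm i hi, d₀₁_hom_apply, sub_self]
    · show (H1π _).hom (c - _) = (H1π _).hom c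
      rw [map_sub, sub_eq_self, H1π_eq_zero_iff]
      exact ⟨m, rfl⟩

end kernel

/-! ### Comparison with the abstract file -/

section compare

variable (D : FrobData (primeLocalLevels q)) (M : Rep (ZMod p) Γℚ)

theorem unrCocyclesOf_eq :
    unrCocyclesOf q D.I M = unrCocycles D (Rep.res (primeLocalToGlobal q) M) := by
  ext c
  rw [mem_unrCocyclesOf_iff, mem_unrCocycles_iff, isLevelConstant₁_iff_isConst₁]

theorem H1unrOf_eq : H1unrOf q D.I M = H1unr D (Rep.res (primeLocalToGlobal q) M) := by
  unfold H1unrOf H1unr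
  rw [unrCocyclesOf_eq]

variable {M}

/-- **`dim H¹_unr(G_q, M) = dim H⁰(G_q, M)`** for a finite smooth module `M`. -/
theorem finrank_H1unrOf [Module.Finite (ZMod p) M]
    (hsm : ∀ m : M, ∃ F : IntermediateField ℚ Qbar, FiniteDimensional ℚ F ∧
      ∀ s ∈ F.fixingSubgroup, M.ρ s m = m) :
    finrank (ZMod p) (H1unrOf q D.I M) =
      finrank (ZMod p) (Rep.res (primeLocalToGlobal q) M).ρ.invariants := by
  rw [H1unrOf_eq]
  have : Module.Finite (ZMod p) (Rep.res (primeLocalToGlobal q) M) := ‹Module.Finite (ZMod p) M›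
  exact finrank_H1unr D (isDiscrete_res_primeLocal q hsm)

end compare

/-! ### Orthogonality under the local Tate pairing -/

/-- The Tate dual of a finite smooth module is discrete after restriction to `G_q`. -/
theorem isDiscrete_res_tateDual {M : Rep (ZMod p) Γℚ} [Finite M]
    (hsm : ∀ m : M, ∃ F : IntermediateField ℚ Qbar, FiniteDimensional ℚ F ∧
      ∀ s ∈ F.fixingSubgroup, M.ρ s m = m) :
    (primeLocalLevels q).IsDiscrete (Rep.res (primeLocalToGlobal q) (tateDual p M)) := by
  have : Module.Finite (ZMod p) (Rep.res (primeLocalToGlobal q) M) :=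
    Module.Finite.of_finite (R := ZMod p) (M := M)
  obtain ⟨W, hW, -, hfix⟩ := CdBound.exists_normal_level_acting_trivially
    (Rep.res (primeLocalToGlobal q) M) (isDiscrete_res_primeLocal q hsm)
  obtain ⟨U, hU, hχU⟩ := exists_level_localCycloChar p q
  obtain ⟨W', hW', h1, h2, -⟩ := (primeLocalLevels q).exists_normal_le_inf hW hU
  intro f
  refine ⟨W', hW', fun s hs => ?_⟩
  show (M.dualTwist (cycloChar p)).ρ (primeLocalToGlobal q s) f = f
  have hχs : cycloChar p (primeLocalToGlobal q s) = 1 := hχU s (h2 hs)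
  rw [Rep.dualTwist_ρ_apply, hχs, Units.val_one, one_smul]
  refine LinearMap.ext fun a => ?_
  rw [LinearMap.comp_apply]
  have h3 := hfix s⁻¹ (W.inv_mem (h1 hs)) a
  have h4 : M.ρ (primeLocalToGlobal q s)⁻¹ a = a := by
    rw [← map_inv]; exact h3
  rw [h4]

section pairing

variable (D : FrobData (primeLocalLevels q)) (B : ∀ q : Nat.Primes, LocalBase p q)
  {M : Rep (ZMod p) Γℚ}

/-- **The local Tate pairing vanishes on `H¹_unr(M) × H¹_unr(M^*(1))`** when the mod `p`
cyclotomic character is trivial on inertia (`q ≠ p`). -/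
theorem pairingAtOf_eq_zero [Finite M]
    (hsm : ∀ m : M, ∃ F : IntermediateField ℚ Qbar, FiniteDimensional ℚ F ∧
      ∀ s ∈ F.fixingSubgroup, M.ρ s m = m)
    (hχ : ∀ i ∈ D.I, cycloChar p (primeLocalToGlobal q i) = 1)
    {x : H1 (Rep.res (primeLocalToGlobal q) M)} (hx : x ∈ H1unrOf q D.I M)
    {y : H1 (Rep.res (primeLocalToGlobal q) (tateDual p M))}
    (hy : y ∈ H1unrOf q D.I (tateDual p M)) :
    pairingAtOf q M B x y = 0 := by
  have : Module.Finite (ZMod p) M := Module.Finite.of_finite
  have : Module.Finite (ZMod p) (Rep.res (primeLocalToGlobal q) M) := ‹Module.Finite (ZMod p) M›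
  have : Finite (tateDual p M) := DualTwist.finite_dualTwist (cycloChar p) M
  have : Module.Finite (ZMod p) (Rep.res (primeLocalToGlobal q) (tateDual p M)) :=
    Module.Finite.of_finite (R := ZMod p) (M := tateDual p M)
  have : Module.Finite (ZMod p)
      (Rep.res (primeLocalToGlobal q) (groupCohomology.ofChar (k := ZMod p) (cycloChar p))) :=
    inferInstanceAs (Module.Finite (ZMod p) (ZMod p))
  have hdM := isDiscrete_res_primeLocal (p := p) q hsm
  have hdM' := isDiscrete_res_tateDual q hsm
  have hdC : (primeLocalLevels q).IsDiscrete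
      (Rep.res (primeLocalToGlobal q) (groupCohomology.ofChar (k := ZMod p) (cycloChar p))) := by
    obtain ⟨U, hU, hχU⟩ := exists_level_localCycloChar p q
    intro c
    refine ⟨U, hU, fun s hs => ?_⟩
    show (groupCohomology.ofChar (k := ZMod p) (cycloChar p)).ρ (primeLocalToGlobal q s) c = c
    have h1 : cycloChar p (primeLocalToGlobal q s) = 1 := hχU s hs
    rw [ofChar_ρ_apply, h1, Units.val_one, one_mul]
  have hCI : ∀ i ∈ D.I, ∀ c : Rep.res (primeLocalToGlobal q)
      (groupCohomology.ofChar (k := ZMod p) (cycloChar p)),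
      (Rep.res (primeLocalToGlobal q)
        (groupCohomology.ofChar (k := ZMod p) (cycloChar p))).ρ i c = c := by
    intro i hi c
    show (groupCohomology.ofChar (k := ZMod p) (cycloChar p)).ρ (primeLocalToGlobal q i) c = c
    rw [ofChar_ρ_apply, hχ i hi, Units.val_one, one_mul]
  rw [H1unrOf_eq] at hx hy
  obtain ⟨a, ha, rfl⟩ := hx
  obtain ⟨b, hb, rfl⟩ := hy
  have hxa := toGroupCohomology_cls_up hdM ha.1
  have hyb := toGroupCohomology_cls_up hdM' hb.1
  have hx' : ((primeLocalLevels q).toGroupCohomology (Rep.res (primeLocalToGlobal q) M) 1).hom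
      ((primeLocalLevels q).cls _ (up_isLevelCocycle hdM ha.1)) ∈
      H1unr D (Rep.res (primeLocalToGlobal q) M) := ⟨a, ha, hxa.symm⟩
  have hy' : ((primeLocalLevels q).toGroupCohomology
      (Rep.res (primeLocalToGlobal q) (tateDual p M)) 1).hom
      ((primeLocalLevels q).cls _ (up_isLevelCocycle hdM' hb.1)) ∈
      H1unr D (Rep.res (primeLocalToGlobal q) (tateDual p M)) := ⟨b, hb, hyb.symm⟩
  rw [← hxa, ← hyb]
  refine (pairingAtOf_locIota q M B _ _).trans ?_
  rw [lamRes_apply, cupH_eq_zero hdM hdM' hdC _ hCI _ _ _ hx' hy']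
  exact LinearMap.map_zero _

end pairing

end Fermat.Agent.S56x.Local.UnramLocal
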