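/-
P-S56, block (C), item (C4-U) (helper89): THE LOCAL CONDITION AT A PRIME `q ∈ Smin`, `q ≠ p`
("unipotent on inertia") — definition and count.

`LqU p rbar q := H¹_unr(G_q, ad⁰ ρbar)`: the classes of the level-constant cocycles of the local
Galois group `primeLocalGaloisGroup q` with values in `ad⁰ ρbar` vanishing on the local inertia
subgroup `localInertia q` (`Local/LocalInertia`, the pull-back of the inertia subgroup of the place
`primeLocalPlace q` of `AlgebraicClosure ℚ`).

* `LqU_le` (U-1): `LqU p rbar q ≤ continuousH1 …`;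
* `primeFrobData_I` : the inertia subgroup of the `FrobData` of `Local/FrobDataLocal` IS
  `localInertia q`;
* `finrank_LqU_eq`, `finrank_LqU_le` (U-2): `dim LqU = h⁰(G_q, ad⁰ ρbar)`, unconditionally;
* `mem_LqU_iff`, `H1π_mem_LqU`, `mem_LqU_of_coboundary_on_inertia` : membership criteria (a
  continuous cocycle which is a coboundary on `localInertia q` has its class in `LqU`).

* `locRes_toClass_mem_LqU`, `locRes_toClass_mem_LqU'` (U-3): the localisation at `q` of the class of
  a trace-zero tangent cocycle whose lift is unipotent on inertia at `q` (`ρbar` ramified at `q`)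
  lies in `LqU` — a wrapper of `Local/UnipotentMember.locRes_toClass_mem_of_unipotent` (helper16).
-/
import Fermat.Agent.S56x.Local.UnramLocal
import Fermat.Agent.S56x.Local.FrobDataLocal
import Fermat.Agent.S56x.Local.LocalInertia
import Fermat.Agent.S56x.Dict.Ad0Rep
import Fermat.Agent.S56x.Local.UnipotentMember

set_option autoImplicit false
set_option linter.unusedSectionVars false

noncomputable section

namespace Fermat.Agent.S56x.Local.UnipotentCountB

open CategoryTheory groupCohomology Module ExtCitation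
open Fermat.Agent.S53 Fermat.Agent.S56x.Dict Fermat.Agent.S56x.Local.UnramLocal
  Fermat.Agent.S56x.Local.LocalInertia Fermat.Agent.S56x.Local.FrobDataLocal
  Fermat.Agent.S56x.Local.UnramAbstract

local notation "Γℚ" => (AlgebraicClosure ℚ ≃ₐ[ℚ] AlgebraicClosure ℚ)
local notation "M₂" => Matrix (Fin 2) (Fin 2)

variable (p : ℕ) [Fact p.Prime] {k : Type} [Field k] [Algebra (ZMod p) k]
  (rbar : Γℚ →* M₂ k) (q : Nat.Primes)

/-- **The unipotent local condition** at a prime `q ≠ p` where `ρbar` is ramified: the unramified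
classes `H¹_unr(G_q, ad⁰ ρbar)`. -/
def LqU : Submodule (ZMod p) (H1 (Rep.res (primeLocalToGlobal q) (ad0Rep p rbar))) :=
  H1unrOf q (localInertia q) (ad0Rep p rbar)

theorem LqU_def : LqU p rbar q = H1unrOf q (localInertia q) (ad0Rep p rbar) := rfl

/-- (U-1) -/
theorem LqU_le : LqU p rbar q ≤ continuousH1 (primeLocalToGlobal q)
    (Rep.res (primeLocalToGlobal q) (ad0Rep p rbar)) :=
  H1unrOf_le_continuousH1 q (localInertia q) (ad0Rep p rbar)

theorem mem_LqU_iff (x : H1 (Rep.res (primeLocalToGlobal q) (ad0Rep p rbar))) :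
    x ∈ LqU p rbar q ↔ ∃ c : cocycles₁ (Rep.res (primeLocalToGlobal q) (ad0Rep p rbar)),
      (IsLevelConstant₁ (primeLocalToGlobal q)
        (c : primeLocalGaloisGroup q → Rep.res (primeLocalToGlobal q) (ad0Rep p rbar)) ∧
          ∀ i ∈ localInertia q, c i = 0) ∧
      (H1π (Rep.res (primeLocalToGlobal q) (ad0Rep p rbar))).hom c = x := Iff.rfl

/-- the class of a level-constant cocycle vanishing on the local inertia subgroup is in `LqU` -/
theorem H1π_mem_LqU (c : cocycles₁ (Rep.res (primeLocalToGlobal q) (ad0Rep p rbar)))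
    (hc : IsLevelConstant₁ (primeLocalToGlobal q)
      (c : primeLocalGaloisGroup q → Rep.res (primeLocalToGlobal q) (ad0Rep p rbar)))
    (hI : ∀ i ∈ localInertia q, c i = 0) :
    (H1π (Rep.res (primeLocalToGlobal q) (ad0Rep p rbar))).hom c ∈ LqU p rbar q :=
  ⟨c, ⟨hc, hI⟩, rfl⟩

/-- The inertia subgroup of the `FrobData` of the local Galois group is `localInertia q`. -/
theorem primeFrobData_I : (primeFrobData q).I = localInertia q :=
  primeFrobData_I_eq q (localInertia q) (fun σ =>
    letI : Fact (q : ℕ).Prime := ⟨q.2⟩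
    mem_localInertia_iff (q : ℕ) σ)

/-- `ad⁰ ρbar` is a smooth module. -/
theorem smooth_ad0Rep (hrbar : GaloisFactorsThroughFiniteLevel rbar) (m : ad0Rep p rbar) :
    ∃ F : IntermediateField ℚ (AlgebraicClosure ℚ), FiniteDimensional ℚ F ∧
      ∀ s ∈ F.fixingSubgroup, (ad0Rep p rbar).ρ s m = m := by
  obtain ⟨L, hL, h1⟩ := hrbar
  refine ⟨L, hL, fun s hs => ?_⟩
  have hs' : rbar s = 1 := h1 s ((IntermediateField.mem_fixingSubgroup_iff L s).mp hs)
  show ad0Representation p rbar s m = m
  rw [ad0Representation_eq_one_of_rbar_eq_one p rbar hs']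
  rfl

/-- (U-2), equality form: `dim H¹_unr(G_q, ad⁰ ρbar) = h⁰(G_q, ad⁰ ρbar)`. -/
theorem finrank_LqU_eq [Module.Finite (ZMod p) k]
    (hrbar : GaloisFactorsThroughFiniteLevel rbar) :
    finrank (ZMod p) (LqU p rbar q) =
      finrank (ZMod p) (Rep.res (primeLocalToGlobal q) (ad0Rep p rbar)).ρ.invariants := by
  have h := finrank_H1unrOf (p := p) q (primeFrobData q) (M := ad0Rep p rbar)
    (smooth_ad0Rep p rbar hrbar)
  rw [primeFrobData_I] at h
  exact h

/-- (U-2) **the count**, in the shape of `hLSmin` of `Assembly/Final.selmerCount_of_inputs`. -/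
theorem finrank_LqU_le [Module.Finite (ZMod p) k]
    (hrbar : GaloisFactorsThroughFiniteLevel rbar) :
    finrank (ZMod p) (LqU p rbar q) ≤
      finrank (ZMod p) (Rep.res (primeLocalToGlobal q) (ad0Rep p rbar)).ρ.invariants :=
  (finrank_LqU_eq p rbar q hrbar).le

/-! ### (U-3) membership -/

variable {p} {rbar}

/-- (U-3) **membership**, with the numerical hypotheses in `k`. -/
theorem locRes_toClass_mem_LqU (hrbar : GaloisFactorsThroughFiniteLevel rbar)
    (c : TanCocycle rbar) (htr : ∀ σ, (c.c σ).trace = 0) (q : Nat.Primes)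
    (hqk : ((q : ℕ) : k) ≠ 0) (h2 : (2 : k) ≠ 0)
    (hunip : (c.lift hrbar).IsUnipotentOnInertiaAt (q : ℕ))
    (hram : ¬ ∀ A : ValuationSubring (AlgebraicClosure ℚ), A.LiesOverPrime (q : ℕ) →
      ∀ σ ∈ A.inertiaSubgroupIn ℚ, rbar σ = 1) :
    (locRes (fun q : Nat.Primes => primeLocalToGlobal q) (ad0Rep p rbar) q).hom
      (c.toClass (p := p) htr) ∈ LqU p rbar q :=
  UnipotentMember.locRes_toClass_mem_of_unipotent hrbar c htr q hqk h2 hunip hram
    (LqU p rbar q) (fun c' h1 h2 => H1π_mem_LqU p rbar q c' h1 (fun i hi => h2 i hi))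

/-- `k` has characteristic `p`. -/
theorem charP_of_algebra : CharP k p :=
  (RingHom.charP_iff (algebraMap (ZMod p) k) (algebraMap (ZMod p) k).injective p).mp inferInstance

theorem two_ne_zero_of_ne_two (hp2 : p ≠ 2) : (2 : k) ≠ 0 := by
  have hchar : CharP k p := charP_of_algebra
  intro h0
  have h20 : ((2 : ℕ) : k) = 0 := by exact_mod_cast h0
  have hdvd := (CharP.cast_eq_zero_iff k p 2).mp h20
  have hp : p.Prime := Fact.out
  exact hp2 ((Nat.prime_dvd_prime_iff_eq hp Nat.prime_two).mp hdvd)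

theorem natCast_prime_ne_zero (q : Nat.Primes) (hqp : (q : ℕ) ≠ p) : ((q : ℕ) : k) ≠ 0 := by
  have hchar : CharP k p := charP_of_algebra
  intro h0
  have hdvd := (CharP.cast_eq_zero_iff k p (q : ℕ)).mp h0
  have hp : p.Prime := Fact.out
  exact hqp ((Nat.prime_dvd_prime_iff_eq hp q.2).mp hdvd).symm

/-- (U-3) **membership**, in the shape of `hLqmem` of `Assembly/Final.selmerCount_of_inputs`
(`p ≠ 2`, `q ≠ p`, `ρbar` ramified at `q`). -/
theorem locRes_toClass_mem_LqU' (hp2 : p ≠ 2) (hrbar : GaloisFactorsThroughFiniteLevel rbar)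
    (c : TanCocycle rbar) (htr : ∀ σ, (c.c σ).trace = 0) (q : Nat.Primes)
    (hqp : (q : ℕ) ≠ p)
    (hunip : (c.lift hrbar).IsUnipotentOnInertiaAt (q : ℕ))
    (hram : ¬ ∀ A : ValuationSubring (AlgebraicClosure ℚ), A.LiesOverPrime (q : ℕ) →
      ∀ σ ∈ A.inertiaSubgroupIn ℚ, rbar σ = 1) :
    (locRes (fun q : Nat.Primes => primeLocalToGlobal q) (ad0Rep p rbar) q).hom
      (c.toClass (p := p) htr) ∈ LqU p rbar q :=
  locRes_toClass_mem_LqU hrbar c htr q (natCast_prime_ne_zero q hqp)
    (two_ne_zero_of_ne_two hp2) hunip hram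

end Fermat.Agent.S56x.Local.UnipotentCountB

end
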