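import Mathlib
import Fermat.Agent.S56x.Local.FlatBridgeAd0
import Fermat.Agent.S56x.Local.FlatIface
import Fermat.Agent.S56x.Dict.SelMember
import Fermat.Agent.S56x.Assembly.TopLevel

/-!
# P-S56, block (A)/(C) seam: the flat local condition at `p` as a `classSpan`

Arithmetic-free dictionary between

* block (A)'s interface `Local/FlatIface` (`IsFlatTan`, `resP`),
* helper50's bridge `Local/FlatBridge` + `Local/FlatBridgeAd0` (`classSpan`, `AdModel`, `ad0Model`),
* the three inputs at `q = p` of `Assembly/Final.selmerCount_of_inputs`.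

With `φ := primeLocalToGlobal (pPrime p)` and `Ap p rbar := Rep.res φ (ad0Rep p rbar)`:

* `resCoc p rbar c htr : cocycles₁ (Ap p rbar)`: the restriction to `G_p` of the cocycle of a
  trace-zero tangent cocycle; `toMat_resCoc`: its explicit matrix cocycle through the standard
  model `ad0Model p φ rbar` is `FlatIface.resP p rbar c`;
* `flatCoc p rbar hrbar : Set (cocycles₁ (Ap p rbar))`: restrictions of the flat tangent cocycles;
* `LpFlat p rbar hrbar := FlatBridge.classSpan (flatCoc p rbar hrbar)`;
* `LpFlat_le_continuousH1` (shape of `hLq` at `q = p`);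
* `locRes_toClass_mem_LpFlat` (shape of `hLqmem` at `q = p`), and the variant
  `locRes_toClass_mem_LpFlat_of_condFlat` for the frozen condition `condFlat`;
* `exists_isFlatTan_of_mem_flatCoc`: every element of `flatCoc` has explicit matrix cocycle
  `resP p rbar c` for a flat tangent cocycle `c` (the form in which `(hFA)`, `(hFc)` of the case
  theorems of `FlatBridge` are proved).

So the count `(hLp)` is exactly
`finrank (ZMod p) (classSpan (flatCoc p rbar hrbar)) ≤ finrank (Ap p rbar).ρ.invariants + d`.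
-/

set_option autoImplicit false
set_option linter.unusedSectionVars false

noncomputable section

namespace Fermat.Agent.S56x.Local.FlatLq

open Fermat.Agent.S56x Fermat.Agent.S56x.Dict Fermat.Agent.S56x.Local.FlatBridge
  Fermat.Agent.S56x.Local.FlatIface groupCohomology CategoryTheory ExtCitation

local notation "Γℚ" => (AlgebraicClosure ℚ ≃ₐ[ℚ] AlgebraicClosure ℚ)
local notation "M₂" => Matrix (Fin 2) (Fin 2)

variable {k : Type} [Field k] (p : ℕ) [Fact p.Prime] [Algebra (ZMod p) k] (rbar : Γℚ →* M₂ k)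

/-- The local module at `p`: `ad⁰ ρbar` restricted to `G_p` (block (B)'s formalism). -/
abbrev Ap : Rep (ZMod p) (primeLocalGaloisGroup (pPrime p)) :=
  Rep.res (primeLocalToGlobal (pPrime p)) (ad0Rep p rbar)

variable {rbar}

/-- The restriction to `G_p` of the cocycle of a trace-zero tangent cocycle. -/
def resCoc (c : TanCocycle rbar) (htr : ∀ σ, (c.c σ).trace = 0) : cocycles₁ (Ap p rbar) :=
  (mapCocycles₁ (primeLocalToGlobal (pPrime p)) (𝟙 (Ap p rbar))).hom (c.toCocycle (p := p) htr)

theorem resCoc_apply_coe (c : TanCocycle rbar) (htr : ∀ σ, (c.c σ).trace = 0)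
    (τ : primeLocalGaloisGroup (pPrime p)) :
    (((resCoc p c htr : cocycles₁ (Ap p rbar)) τ : ad0 k p) : M₂ k) =
      c.c (primeLocalToGlobal (pPrime p) τ) := rfl

/-- The explicit matrix cocycle of `resCoc` (through the standard model) is `FlatIface.resP`. -/
theorem toMat_resCoc (c : TanCocycle rbar) (htr : ∀ σ, (c.c σ).trace = 0) :
    (ad0Model p (primeLocalToGlobal (pPrime p)) rbar).toMat (resCoc p c htr) = resP p rbar c := by
  funext τ
  rfl

/-- The class of `resCoc` is the localisation at `p` of the global class. -/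
theorem H1π_resCoc (c : TanCocycle rbar) (htr : ∀ σ, (c.c σ).trace = 0) :
    (H1π (Ap p rbar)).hom (resCoc p c htr) =
      (locRes (fun q : Nat.Primes => primeLocalToGlobal q) (ad0Rep p rbar) (pPrime p)).hom
        (c.toClass (p := p) htr) :=
  (TanCocycle.map_toClass (primeLocalToGlobal (pPrime p)) c htr).symm

/-- The class of `resCoc` is continuous. -/
theorem H1π_resCoc_mem_continuousH1 (hrbar : GaloisFactorsThroughFiniteLevel rbar)
    (c : TanCocycle rbar) (htr : ∀ σ, (c.c σ).trace = 0) :
    (H1π (Ap p rbar)).hom (resCoc p c htr) ∈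
      continuousH1 (primeLocalToGlobal (pPrime p)) (Ap p rbar) :=
  H1π_mem_continuousH1 _ _
    (c.isLevelConstant₁_mapCocycles₁ hrbar (primeLocalToGlobal (pPrime p)) htr)

variable (rbar)

/-- The restrictions to `G_p` of the (cocycles of the) flat trace-zero tangent cocycles. -/
def flatCoc (hrbar : GaloisFactorsThroughFiniteLevel rbar) : Set (cocycles₁ (Ap p rbar)) :=
  {z | ∃ (c : TanCocycle rbar) (hc : IsFlatTan p rbar hrbar c), z = resCoc p c hc.1}

/-- **The flat local condition at `p`**: the `𝔽_p`-span of the localisations of the classes of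
the flat tangent cocycles. -/
def LpFlat (hrbar : GaloisFactorsThroughFiniteLevel rbar) :
    Submodule (ZMod p) (H1 (Ap p rbar)) :=
  classSpan (flatCoc p rbar hrbar)

variable {rbar}

theorem resCoc_mem_flatCoc (hrbar : GaloisFactorsThroughFiniteLevel rbar) (c : TanCocycle rbar)
    (hc : IsFlatTan p rbar hrbar c) (htr : ∀ σ, (c.c σ).trace = 0) :
    resCoc p c htr ∈ flatCoc p rbar hrbar :=
  ⟨c, hc, rfl⟩

/-- Every element of `flatCoc` has, through the standard model, the explicit matrix cocycle
`resP p rbar c` of a flat tangent cocycle `c`. -/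
theorem exists_isFlatTan_of_mem_flatCoc (hrbar : GaloisFactorsThroughFiniteLevel rbar)
    {z : cocycles₁ (Ap p rbar)} (hz : z ∈ flatCoc p rbar hrbar) :
    ∃ c : TanCocycle rbar, IsFlatTan p rbar hrbar c ∧
      (ad0Model p (primeLocalToGlobal (pPrime p)) rbar).toMat z = resP p rbar c := by
  obtain ⟨c, hc, rfl⟩ := hz
  exact ⟨c, hc, toMat_resCoc p c hc.1⟩

/-- A property of the functions `resP p rbar c`, `c` flat, holds for the explicit matrix cocycles
of all elements of `flatCoc` (the form of `(hFA)`, `(hFc)` in `FlatBridge`). -/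
theorem forall_toMat_flatCoc (hrbar : GaloisFactorsThroughFiniteLevel rbar)
    (P : (primeLocalGaloisGroup (pPrime p) → M₂ k) → Prop)
    (hP : ∀ c : TanCocycle rbar, IsFlatTan p rbar hrbar c → P (resP p rbar c)) :
    ∀ z ∈ flatCoc p rbar hrbar,
      P ((ad0Model p (primeLocalToGlobal (pPrime p)) rbar).toMat z) := by
  intro z hz
  obtain ⟨c, hc, h⟩ := exists_isFlatTan_of_mem_flatCoc p hrbar hz
  rw [h]
  exact hP c hc

/-- **(`hLq` at `q = p`)** the flat local condition consists of continuous classes. -/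
theorem LpFlat_le_continuousH1 (hrbar : GaloisFactorsThroughFiniteLevel rbar) :
    LpFlat p rbar hrbar ≤ continuousH1 (primeLocalToGlobal (pPrime p))
      (Rep.res (primeLocalToGlobal (pPrime p)) (ad0Rep p rbar)) := by
  refine Submodule.span_le.2 ?_
  rintro _ ⟨z, ⟨c, hc, rfl⟩, rfl⟩
  exact H1π_resCoc_mem_continuousH1 p hrbar c hc.1

/-- **(`hLqmem` at `q = p`)** the localisation at `p` of the class of a flat tangent cocycle lies
in `LpFlat`. -/
theorem locRes_toClass_mem_LpFlat (hrbar : GaloisFactorsThroughFiniteLevel rbar)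
    (c : TanCocycle rbar) (htr : ∀ σ, (c.c σ).trace = 0)
    (hflat : (c.lift hrbar).IsFlatAt p) :
    (locRes (fun q : Nat.Primes => primeLocalToGlobal q) (ad0Rep p rbar) (pPrime p)).hom
      (c.toClass (p := p) htr) ∈ LpFlat p rbar hrbar := by
  rw [← H1π_resCoc]
  exact Submodule.subset_span ⟨_, resCoc_mem_flatCoc p hrbar c ⟨htr, hflat⟩ htr, rfl⟩

/-- The frozen flat condition `condFlat` gives `IsFlatTan` (for trace-zero `c`). -/
theorem isFlatTan_of_condFlat {𝒪 : Type} [CommRing 𝒪] [Algebra 𝒪 (DualNumber k)]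
    (Smin Q : Finset ℕ) (hrbar : GaloisFactorsThroughFiniteLevel rbar) (c : TanCocycle rbar)
    (htr : ∀ σ, (c.c σ).trace = 0) (hc : condFlat 𝒪 p Smin Q (c.lift hrbar)) :
    IsFlatTan p rbar hrbar c :=
  ⟨htr, hc.1.2.1⟩

/-- **(`hLqmem` at `q = p` for `cond = condFlat`)**. -/
theorem locRes_toClass_mem_LpFlat_of_condFlat {𝒪 : Type} [CommRing 𝒪]
    [Algebra 𝒪 (DualNumber k)] (Smin Q : Finset ℕ)
    (hrbar : GaloisFactorsThroughFiniteLevel rbar) (c : TanCocycle rbar)
    (htr : ∀ σ, (c.c σ).trace = 0) (hc : condFlat 𝒪 p Smin Q (c.lift hrbar)) :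
    (locRes (fun q : Nat.Primes => primeLocalToGlobal q) (ad0Rep p rbar) (pPrime p)).hom
      (c.toClass (p := p) htr) ∈ LpFlat p rbar hrbar :=
  locRes_toClass_mem_LpFlat p hrbar c htr hc.1.2.1

/-- Reformulation of the count: `(hLp)` of `Assembly/Final` for `Lq (pPrime p) := LpFlat` is
literally a bound on `classSpan (flatCoc …)`. -/
theorem finrank_LpFlat_le_iff (hrbar : GaloisFactorsThroughFiniteLevel rbar) (n : ℕ) :
    Module.finrank (ZMod p) (LpFlat p rbar hrbar) ≤ n ↔
      Module.finrank (ZMod p) (classSpan (flatCoc p rbar hrbar)) ≤ n :=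
  Iff.rfl

end Fermat.Agent.S56x.Local.FlatLq

end
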