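import Mathlib
import Fermat.Agent.S56x.Local.FlatSel
import Fermat.Agent.S56x.Local.FlatLq
import Fermat.Agent.S56x.Local.FlatIfaceSplit
import Fermat.Agent.S56x.Assembly.Basics

/-!
# P-S56 (A)→(C): the count (FB-3) for `FlatLq.LpFlat`

`hLp` of `Assembly/Inputs.selmerCount_condFlat_of_local` for `Lq (pPrime p) := FlatLq.LpFlat`
(helper4), from block (A)'s statement `FlatIface.FlatCountStatementSplit p rbar`
(`rank_k flatSpan ≤ 4` under `EigenvaluesInBase rbar`), or from `FlatIface.FlatCountStatement`.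

* `LpFlat_eq_flatSel` : `FlatLq.LpFlat = FlatSel.LpFlat` (same generators);
* `finrank_LpFlat_le_split`, `finrank_LpFlat_le` : the count
  `finrank_{𝔽_p} LpFlat ≤ finrank_{𝔽_p} H⁰(G_p, ad⁰) + [k : 𝔽_p]`;
* `eigenvaluesInBase_rbarOf`, `detIsCycloModP_rbarOf` : the two side hypotheses for
  `rbar = rbarOf ρbar` from the bundled hypotheses `Hyp` of the frozen S56;
* `finrank_LpFlat_rbarOf_le` : the count in the literal shape of `hLp`, from
  `FlatCountStatementSplit p (rbarOf ρbar)` alone.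
-/

set_option autoImplicit false
set_option linter.unusedSectionVars false

open CategoryTheory groupCohomology ExtCitation Module Polynomial IsLocalRing

noncomputable section

namespace Fermat.Agent.S56x.Local.FlatIfaceBridge

open Fermat.Agent.S53 Fermat.Agent.S56x Fermat.Agent.S56x.Dict Fermat.Agent.S56x.Basics
open Fermat.Agent.S56x.Local.FlatBridge Fermat.Agent.S56x.Local.FlatIface

local notation "Γℚ" => (AlgebraicClosure ℚ ≃ₐ[ℚ] AlgebraicClosure ℚ)
local notation "M₂" => Matrix (Fin 2) (Fin 2)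

section General

variable {k : Type} [Field k] (p : ℕ) [Fact p.Prime] [Algebra (ZMod p) k]
variable (rbar : Γℚ →* M₂ k) (hrbar : GaloisFactorsThroughFiniteLevel rbar)

/-- helper4's `FlatLq.LpFlat` and `FlatSel.LpFlat` are the same subspace. -/
theorem LpFlat_eq_flatSel : FlatLq.LpFlat p rbar hrbar = FlatSel.LpFlat p rbar hrbar := by
  rw [FlatSel.LpFlat_eq_span_image]
  rfl

/-- **(FB-3)** for `FlatLq.LpFlat`, from `FlatCountStatementSplit`. -/
theorem finrank_LpFlat_le_split [Finite k] [CharP k p] [Module.Finite (ZMod p) k] (hp2 : p ≠ 2)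
    (hdet : DetIsCycloModP p rbar) (hsplit : EigenvaluesInBase rbar)
    (hA : FlatCountStatementSplit p rbar) :
    finrank (ZMod p) (FlatLq.LpFlat p rbar hrbar) ≤
      finrank (ZMod p) (Rep.res (primeLocalToGlobal (pPrime p)) (ad0Rep p rbar)).ρ.invariants +
        finrank (ZMod p) k := by
  rw [LpFlat_eq_flatSel]
  refine FlatSel.finrank_LpFlat_le p rbar hrbar hp2 hdet ?_
  intro _ _ hp2' hrbar' hdet'
  exact hA hp2' hrbar' hdet' hsplit

/-- **(FB-3)** for `FlatLq.LpFlat`, from `FlatCountStatement`. -/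
theorem finrank_LpFlat_le [Finite k] [CharP k p] [Module.Finite (ZMod p) k] (hp2 : p ≠ 2)
    (hdet : DetIsCycloModP p rbar) (hA : FlatCountStatement p rbar) :
    finrank (ZMod p) (FlatLq.LpFlat p rbar hrbar) ≤
      finrank (ZMod p) (Rep.res (primeLocalToGlobal (pPrime p)) (ad0Rep p rbar)).ρ.invariants +
        finrank (ZMod p) k := by
  rw [LpFlat_eq_flatSel]
  exact FlatSel.finrank_LpFlat_le p rbar hrbar hp2 hdet hA

end General

section OfHyp

variable {𝒪 : Type} [CommRing 𝒪] [IsLocalRing 𝒪] (p : ℕ) [Fact p.Prime]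
  (ρbar : ResidualGaloisRep (ResidueField 𝒪)) {S Smin : Finset ℕ}

/-- `hsplit` of the frozen S56 in matrix form. -/
theorem eigenvaluesInBase_rbarOf (hyp : Hyp (𝒪 := 𝒪) p ρbar S Smin) :
    EigenvaluesInBase (rbarOf ρbar) := by
  intro σ
  obtain ⟨α, β, h⟩ := hyp.hsplit σ
  exact ⟨α, β, by rw [charpoly_rbarOf, h]⟩

/-- `hdet` of the frozen S56 in the form of block (A). -/
theorem detIsCycloModP_rbarOf (hyp : Hyp (𝒪 := 𝒪) p ρbar S Smin) :
    DetIsCycloModP p (rbarOf ρbar) :=
  fun σ a ha => det_rbarOf_of_pow ρbar hyp.hdet σ a ha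

/-- **`hLp` for the flat conjunct**, from block (A)'s statement for `rbarOf ρbar` alone. -/
theorem finrank_LpFlat_rbarOf_le [Finite (ResidueField 𝒪)] [CharP (ResidueField 𝒪) p]
    [Algebra (ZMod p) (ResidueField 𝒪)] [Module.Finite (ZMod p) (ResidueField 𝒪)]
    (hyp : Hyp (𝒪 := 𝒪) p ρbar S Smin)
    (hA : FlatCountStatementSplit p (rbarOf ρbar)) :
    finrank (ZMod p) (FlatLq.LpFlat p (rbarOf ρbar) (hrbarOf ρbar)) ≤
      finrank (ZMod p) (Rep.res (primeLocalToGlobal (pPrime p))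
        (ad0Rep p (rbarOf ρbar))).ρ.invariants + finrank (ZMod p) (ResidueField 𝒪) :=
  finrank_LpFlat_le_split p (rbarOf ρbar) (hrbarOf ρbar) hyp.hp2
    (detIsCycloModP_rbarOf p ρbar hyp) (eigenvaluesInBase_rbarOf p ρbar hyp) hA

end OfHyp

end Fermat.Agent.S56x.Local.FlatIfaceBridge
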