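import Mathlib
import Fermat.Agent.S56x.Local.LocalInertia

/-!
helper9 (P-S56, block (A) LOCAL FLAT): the shared arithmetic leaf **(F1)**, LOCAL form
(complete side): `Ω = PadicAlgCl p`, `I = LocalInertia.localInertia' p ≤ Gal(Ω/ℚ_p)` (helper3: the
pull-back of the Prelude inertia subgroup of `padicPlace p`; equivalently the automorphisms
congruent to the identity on the unit ball; equivalently the fixing subgroup of all
`ℚ_p(μ_{p^n-1})`).  **The field `Ω^I` is unramified over `ℚ_p`.**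

* `unrLevel p n = ℚ_p(μ_{p^n-1})`, `unrLevel_le_of_dvd`, `directed_unrLevel`;
* `localInertia'_eq_fixingSubgroup : localInertia' p = (⨆ n>0, unrLevel p n).fixingSubgroup`;
* `exists_mem_unrLevel_of_fixed` : `y` fixed by `I` ⇒ `y ∈ unrLevel p n` for some `n > 0`
  (infinite Galois correspondence, `InfiniteGalois.fixedField_fixingSubgroup`);
* `isCyclotomicExtension_unrLevel`, `finiteDimensional_unrLevel`, `maximalIdeal_unrLevel` :
  `𝔪 = (p)` in `OE p (unrLevel p n)` (frozen `Lib/CFT/Local/Unramified.isUnram_of_isCyclotomicExtension`);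
* `norm_le_of_fixed` : `y` fixed by `I`, `‖y‖ < 1` ⇒ `‖y‖ ≤ p⁻¹`;
* `exists_eq_p_mul_of_fixed` : … ⇒ `y = p z`, `‖z‖ ≤ 1`, `z` fixed by `I`
  (= `hunr` of `Fontaine/UnrQuotGalois.mem_of_unr_fixed`, `hF1` of `Flat/CSlotCore`).
-/

set_option autoImplicit false
set_option linter.unusedSectionVars false

open IsLocalRing

namespace Fermat.Agent.S56x.Local.InertiaFixedOmega

open Fermat.Agent.S56x.Local.LocalInertia Fermat.Agent.S56x.Local.PadicFinite
open Fermat.Agent.Lib.CFT.Local Fermat.Agent.Lib.CFT.Local.Unramified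

variable (p : ℕ) [Fact p.Prime]

local notation "Ω" => PadicAlgCl p
local notation "Gp" => (PadicAlgCl p ≃ₐ[ℚ_[p]] PadicAlgCl p)

/-- the unramified level `ℚ_p(μ_{p^n-1})` inside `PadicAlgCl p`. -/
noncomputable def unrLevel (n : ℕ) : IntermediateField ℚ_[p] Ω :=
  IntermediateField.adjoin ℚ_[p] {x : Ω | x ^ (p ^ n - 1) = 1}

theorem unrLevel_le_of_dvd {a b : ℕ} (h : a ∣ b) : unrLevel p a ≤ unrLevel p b := by
  apply IntermediateField.adjoin.mono
  intro x hx
  obtain ⟨c, hc⟩ := Nat.pow_sub_one_dvd_pow_sub_one p h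
  show x ^ (p ^ b - 1) = 1
  have hx' : x ^ (p ^ a - 1) = 1 := hx
  rw [hc, pow_mul, hx', one_pow]

theorem directed_unrLevel :
    Directed (· ≤ ·) (fun n : {n : ℕ // 0 < n} => unrLevel p n) := by
  intro a b
  exact ⟨⟨a.1 * b.1, Nat.mul_pos a.2 b.2⟩, unrLevel_le_of_dvd p (Dvd.intro _ rfl),
    unrLevel_le_of_dvd p (Dvd.intro_left _ rfl)⟩

/-- the inertia subgroup is the fixing subgroup of the maximal unramified extension
`⋃ₙ ℚ_p(μ_{p^n-1})`. -/
theorem localInertia'_eq_fixingSubgroup :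
    localInertia' p = (⨆ n : {n : ℕ // 0 < n}, unrLevel p n).fixingSubgroup := by
  ext σ
  rw [mem_localInertia_iff_fixingSubgroup]
  constructor
  · intro h
    have h1 : Subgroup.zpowers σ ≤ (⨆ n : {n : ℕ // 0 < n}, unrLevel p n).fixingSubgroup := by
      rw [← IntermediateField.le_iff_le]
      refine iSup_le (fun n => ?_)
      rw [IntermediateField.le_iff_le, Subgroup.zpowers_le]
      exact h n.1 n.2
    exact h1 (Subgroup.mem_zpowers σ)
  · intro h n hn
    exact IntermediateField.fixingSubgroup_antitone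
      (le_iSup (fun n : {n : ℕ // 0 < n} => unrLevel p n) ⟨n, hn⟩) h

/-- **infinite Galois correspondence**: an element of `PadicAlgCl p` fixed by the inertia group
lies in some `ℚ_p(μ_{p^n-1})`. -/
theorem exists_mem_unrLevel_of_fixed (y : Ω) (hy : ∀ τ ∈ localInertia' p, τ y = y) :
    ∃ n : ℕ, 0 < n ∧ y ∈ unrLevel p n := by
  have hgal : IsGalois ℚ_[p] Ω := inferInstance
  have hyK : y ∈ (⨆ n : {n : ℕ // 0 < n}, unrLevel p n) := by
    rw [← InfiniteGalois.fixedField_fixingSubgroup (⨆ n : {n : ℕ // 0 < n}, unrLevel p n),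
      IntermediateField.mem_fixedField_iff]
    intro τ hτ
    exact hy τ (by rw [localInertia'_eq_fixingSubgroup]; exact hτ)
  have hne : Nonempty {n : ℕ // 0 < n} := ⟨⟨1, one_pos⟩⟩
  rw [← SetLike.mem_coe, IntermediateField.coe_iSup_of_directed (directed_unrLevel p),
    Set.mem_iUnion] at hyK
  obtain ⟨⟨n, hn⟩, h⟩ := hyK
  exact ⟨n, hn, h⟩

section Unram

variable {p}
variable {n : ℕ} (hn : 0 < n)

include hn

theorem pow_sub_one_ne_zero : p ^ n - 1 ≠ 0 := by
  have h1 : 1 < p := (Fact.out : p.Prime).one_lt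
  have h2 : 1 < p ^ n := Nat.one_lt_pow hn.ne' h1
  omega

theorem exists_isPrimitiveRoot_omega : ∃ z : Ω, IsPrimitiveRoot z (p ^ n - 1) := by
  have : NeZero (p ^ n - 1) := ⟨pow_sub_one_ne_zero hn⟩
  have : NeZero ((p ^ n - 1 : ℕ) : Ω) := ⟨by
    have := pow_sub_one_ne_zero (p := p) hn
    exact_mod_cast this⟩
  exact HasEnoughRootsOfUnity.exists_primitiveRoot Ω (p ^ n - 1)

theorem isCyclotomicExtension_unrLevel :
    IsCyclotomicExtension {p ^ n - 1} ℚ_[p] (unrLevel p n) := by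
  obtain ⟨z, hz⟩ := exists_isPrimitiveRoot_omega (p := p) hn
  have : NeZero (p ^ n - 1) := ⟨pow_sub_one_ne_zero hn⟩
  exact (IntermediateField.isCyclotomicExtension_singleton_iff_eq_adjoin _ ℚ_[p] Ω _ hz).mpr
    (adjoin_pow_eq_one_eq_adjoin_simple ℚ_[p] Ω (pow_sub_one_ne_zero hn) hz)

theorem finiteDimensional_unrLevel : FiniteDimensional ℚ_[p] (unrLevel p n) := by
  have := isCyclotomicExtension_unrLevel (p := p) hn
  exact IsCyclotomicExtension.finiteDimensional {p ^ n - 1} ℚ_[p] _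

/-- `ℚ_p(μ_{p^n-1})` is unramified: the maximal ideal of its ring of integers is generated
by `p`. -/
theorem maximalIdeal_unrLevel :
    haveI := finiteDimensional_unrLevel (p := p) hn
    maximalIdeal (OE p (unrLevel p n)) = Ideal.span {((p : ℕ) : OE p (unrLevel p n))} := by
  have := finiteDimensional_unrLevel (p := p) hn
  have := isCyclotomicExtension_unrLevel (p := p) hn
  have hm : ((p ^ n - 1 : ℕ) : ResidueField ℤ_[p]) ≠ 0 := by
    have := Teichmuller.natCast_natCard_pow_sub_one_ne_zero (ResidueField ℤ_[p]) n hn.ne'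
    rwa [natCard_residueField_padicInt] at this
  have h := isUnram_of_isCyclotomicExtension ℤ_[p] ℚ_[p] (unrLevel p n) (OE p (unrLevel p n)) hm
  rw [IsUnram] at h
  rw [← h, PadicInt.maximalIdeal_eq_span_p, Ideal.map_span, Set.image_singleton, map_natCast]

end Unram

variable {p}

/-- **the maximal unramified extension is unramified** (norm form): an element of
`PadicAlgCl p` of norm `< 1` fixed by the inertia group has norm `≤ p⁻¹`. -/
theorem norm_le_of_fixed (y : Ω) (hy : ∀ τ ∈ localInertia' p, τ y = y) (hlt : ‖y‖ < 1) :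
    ‖y‖ ≤ (p : ℝ)⁻¹ := by
  obtain ⟨n, hn, hyn⟩ := exists_mem_unrLevel_of_fixed p y hy
  have := finiteDimensional_unrLevel (p := p) hn
  have hyO : (⟨y, hyn⟩ : unrLevel p n) ∈ OE p (unrLevel p n) := mem_OE.mpr hlt.le
  have hmem : (⟨⟨y, hyn⟩, hyO⟩ : OE p (unrLevel p n)) ∈ maximalIdeal (OE p (unrLevel p n)) := by
    rw [mem_maximalIdeal, mem_nonunits_iff, isUnit_iff_norm_eq_one]
    exact hlt.ne
  rw [maximalIdeal_unrLevel hn, Ideal.mem_span_singleton] at hmem
  obtain ⟨z, hz⟩ := hmem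
  have h1 := congrArg (fun w : OE p (unrLevel p n) => (((w : unrLevel p n)) : Ω)) hz
  have h2 : y = (p : Ω) * ((z : unrLevel p n) : Ω) := by simpa using h1
  have hpn : ‖(p : Ω)‖ = (p : ℝ)⁻¹ := by
    have := norm_natCast_p (p := p) (E := unrLevel p n)
    exact_mod_cast this
  rw [h2, norm_mul, hpn]
  have hz1 : ‖((z : unrLevel p n) : Ω)‖ ≤ 1 := norm_le_one z
  have hp0 : (0 : ℝ) ≤ (p : ℝ)⁻¹ := by positivity
  calc (p : ℝ)⁻¹ * ‖((z : unrLevel p n) : Ω)‖ ≤ (p : ℝ)⁻¹ * 1 :=
        mul_le_mul_of_nonneg_left hz1 hp0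
    _ = (p : ℝ)⁻¹ := mul_one _

/-- **(F1), local form**: an element `y` of the open unit ball of `PadicAlgCl p` fixed by the
inertia group is `p z` with `z` in the closed unit ball, again fixed by the inertia group. -/
theorem exists_eq_p_mul_of_fixed (y : Ω) (hy : ∀ τ ∈ localInertia' p, τ y = y) (hlt : ‖y‖ < 1) :
    ∃ z : Ω, ‖z‖ ≤ 1 ∧ (∀ τ ∈ localInertia' p, τ z = z) ∧ y = (p : Ω) * z := by
  have hp0 : (p : Ω) ≠ 0 := by
    exact_mod_cast (Fact.out : p.Prime).ne_zero
  have hpn : ‖(p : Ω)‖ = (p : ℝ)⁻¹ := by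
    have := norm_natCast_p (p := p) (E := (⊥ : IntermediateField ℚ_[p] Ω))
    exact_mod_cast this
  refine ⟨y / (p : Ω), ?_, ?_, ?_⟩
  · rw [norm_div, hpn]
    have h := norm_le_of_fixed y hy hlt
    have hpos : (0 : ℝ) < (p : ℝ)⁻¹ := by
      have : (0 : ℝ) < p := by exact_mod_cast (Fact.out : p.Prime).pos
      positivity
    rw [div_le_one hpos]
    exact h
  · intro τ hτ
    rw [map_div₀, hy τ hτ, map_natCast]
  · field_simp

end Fermat.Agent.S56x.Local.InertiaFixedOmega
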