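import Mathlib
import Fermat.Agent.S56x.Local.InertiaFixedOmega

/-!
helper9 (P-S56, block (A) LOCAL FLAT): the integers `unrInt p` of the maximal unramified extension
`Ω^I` of `ℚ_p` inside `Ω = PadicAlgCl p` (`I = LocalInertia.localInertia' p`), and the complete
arithmetic package of `Flat/CSlot.cslot_kill` / `Flat/CSlotCore.eq_one_of_equivariant` (helper94)
on the complete side.

* `unrInt p : Subring Ω` (norm `≤ 1` and fixed by inertia); `mem_unrInt`;
* `exists_norm_eq_pow'` : norms of non-zero elements are powers of `p⁻¹`;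
* `isUnit_of_norm_eq_one`, `norm_eq_one_of_isUnit`, `exists_eq_pow_mul_unit`,
  `irreducible_natCast_unrInt`, `isDiscreteValuationRing_unrInt` (instance): a DVR, uniformiser `p`;
* the package: `algebraMap_unrInt_injective` (hinj), `smul_algebraMap_unrInt` (hOT),
  `exists_unrInt_mul_eq` (hfrac), `exists_unrInt_eq_algebraMap` (hO_OT),
  `eq_zero_of_forall_pow_dvd` (hsepT), `openBall p : Submodule (unrInt p) Ω` (𝔪),
  `exists_eq_p_mul_unrInt` (hF1), `norm_le_one_of_isIntegral`, `smul_sub_mem_openBall` (hint),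
  `mul_mem_openBall` (h𝔪mul).
-/

set_option autoImplicit false
set_option linter.unusedSectionVars false

open IsLocalRing

namespace Fermat.Agent.S56x.Local.UnrIntOmega

open Fermat.Agent.S56x.Local.LocalInertia Fermat.Agent.S56x.Local.PadicFinite
open Fermat.Agent.S56x.Local.InertiaFixedOmega

variable (p : ℕ) [Fact p.Prime]

local notation "Ω" => PadicAlgCl p
local notation "Gp" => (PadicAlgCl p ≃ₐ[ℚ_[p]] PadicAlgCl p)

/-- the integers of the maximal unramified extension `Ω^I` of `ℚ_p` inside `Ω = PadicAlgCl p`: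
elements of norm `≤ 1` fixed by the inertia group. -/
noncomputable def unrInt : Subring Ω where
  carrier := {x | ‖x‖ ≤ 1 ∧ ∀ τ ∈ localInertia' p, τ x = x}
  mul_mem' {x y} hx hy := by
    refine ⟨?_, fun τ hτ => by rw [map_mul, hx.2 τ hτ, hy.2 τ hτ]⟩
    rw [norm_mul]
    exact mul_le_one₀ hx.1 (norm_nonneg y) hy.1
  one_mem' := ⟨by rw [norm_one], fun τ _ => map_one τ⟩
  add_mem' {x y} hx hy :=
    ⟨(IsUltrametricDist.norm_add_le_max x y).trans (max_le hx.1 hy.1),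
      fun τ hτ => by rw [map_add, hx.2 τ hτ, hy.2 τ hτ]⟩
  zero_mem' := ⟨by rw [norm_zero]; exact zero_le_one, fun τ _ => map_zero τ⟩
  neg_mem' {x} hx := ⟨by rw [norm_neg]; exact hx.1, fun τ hτ => by rw [map_neg, hx.2 τ hτ]⟩

variable {p}

theorem mem_unrInt {x : Ω} :
    x ∈ unrInt p ↔ ‖x‖ ≤ 1 ∧ ∀ τ ∈ localInertia' p, τ x = x := Iff.rfl

theorem norm_natCast_omega : ‖(p : Ω)‖ = (p : ℝ)⁻¹ := by
  have := norm_natCast_p (p := p) (E := (⊥ : IntermediateField ℚ_[p] Ω))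
  exact_mod_cast this

theorem natCast_ne_zero_omega : (p : Ω) ≠ 0 := by
  exact_mod_cast (Fact.out : p.Prime).ne_zero

theorem p_inv_pos : (0 : ℝ) < (p : ℝ)⁻¹ := by
  have : (0 : ℝ) < p := by exact_mod_cast (Fact.out : p.Prime).pos
  positivity

theorem p_inv_lt_one : (p : ℝ)⁻¹ < 1 := by
  have : (1 : ℝ) < p := by exact_mod_cast (Fact.out : p.Prime).one_lt
  exact inv_lt_one_of_one_lt₀ this

/-- the norm of a non-zero inertia-invariant element of the unit ball is a power of `p⁻¹`. -/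
theorem exists_norm_eq_pow (k : ℕ) : ∀ x : Ω, (∀ τ ∈ localInertia' p, τ x = x) → ‖x‖ ≤ 1 →
    ((p : ℝ)⁻¹) ^ k ≤ ‖x‖ → ∃ j : ℕ, j ≤ k ∧ ‖x‖ = ((p : ℝ)⁻¹) ^ j := by
  induction k with
  | zero =>
    intro x _ h1 h2
    rw [pow_zero] at h2
    exact ⟨0, le_rfl, by rw [pow_zero]; exact le_antisymm h1 h2⟩
  | succ k ih =>
    intro x hx h1 h2
    rcases lt_or_eq_of_le h1 with hlt | heq
    · obtain ⟨z, hz1, hzfix, hxz⟩ := exists_eq_p_mul_of_fixed x hx hlt
      have hnx : ‖x‖ = (p : ℝ)⁻¹ * ‖z‖ := by rw [hxz, norm_mul, norm_natCast_omega]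
      have hz2 : ((p : ℝ)⁻¹) ^ k ≤ ‖z‖ := by
        rw [hnx, pow_succ'] at h2
        exact le_of_mul_le_mul_left h2 p_inv_pos
      obtain ⟨j, hj, hjz⟩ := ih z hzfix hz1 hz2
      exact ⟨j + 1, Nat.succ_le_succ hj, by rw [hnx, hjz, pow_succ']⟩
    · exact ⟨0, Nat.zero_le _, by rw [pow_zero]; exact heq⟩

theorem exists_norm_eq_pow' {x : Ω} (hx : ∀ τ ∈ localInertia' p, τ x = x) (h1 : ‖x‖ ≤ 1)
    (h0 : x ≠ 0) : ∃ j : ℕ, ‖x‖ = ((p : ℝ)⁻¹) ^ j := by
  have hpos : 0 < ‖x‖ := norm_pos_iff.mpr h0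
  obtain ⟨k, hk⟩ := exists_pow_lt_of_lt_one hpos (p_inv_lt_one (p := p))
  obtain ⟨j, -, hj⟩ := exists_norm_eq_pow k x hx h1 hk.le
  exact ⟨j, hj⟩

theorem coe_natCast_unrInt : (((p : ℕ) : unrInt p) : Ω) = (p : Ω) := by simp

theorem natCast_unrInt_ne_zero : ((p : ℕ) : unrInt p) ≠ 0 := by
  intro h
  have := congrArg (fun x : unrInt p => (x : Ω)) h
  simp only [coe_natCast_unrInt, ZeroMemClass.coe_zero] at this
  exact natCast_ne_zero_omega this

/-- an element of `unrInt p` of norm `1` is a unit. -/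
theorem isUnit_of_norm_eq_one {x : unrInt p} (hx : ‖(x : Ω)‖ = 1) : IsUnit x := by
  have hx0 : (x : Ω) ≠ 0 := by
    intro h0
    rw [h0, norm_zero] at hx
    exact zero_ne_one hx
  have hinv : (x : Ω)⁻¹ ∈ unrInt p := by
    refine ⟨by rw [norm_inv, hx, inv_one], fun τ hτ => ?_⟩
    rw [map_inv₀, x.2.2 τ hτ]
  refine ⟨⟨x, ⟨_, hinv⟩, ?_, ?_⟩, rfl⟩
  · apply Subtype.ext
    show (x : Ω) * (x : Ω)⁻¹ = 1
    exact mul_inv_cancel₀ hx0
  · apply Subtype.ext
    show (x : Ω)⁻¹ * (x : Ω) = 1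
    exact inv_mul_cancel₀ hx0

theorem norm_eq_one_of_isUnit {x : unrInt p} (hx : IsUnit x) : ‖(x : Ω)‖ = 1 := by
  obtain ⟨u, rfl⟩ := hx
  have h1 : ‖((u : unrInt p) : Ω)‖ ≤ 1 := (u : unrInt p).2.1
  have h2 : ‖((↑u⁻¹ : unrInt p) : Ω)‖ ≤ 1 := (↑u⁻¹ : unrInt p).2.1
  have h3 : ((u : unrInt p) : Ω) * ((↑u⁻¹ : unrInt p) : Ω) = 1 := by
    have := congrArg (fun x : unrInt p => (x : Ω)) u.mul_inv
    rwa [MulMemClass.coe_mul, OneMemClass.coe_one] at this
  have h4 : ‖((u : unrInt p) : Ω)‖ * ‖((↑u⁻¹ : unrInt p) : Ω)‖ = 1 := by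
    rw [← norm_mul, h3, norm_one]
  nlinarith [norm_nonneg ((u : unrInt p) : Ω), norm_nonneg ((↑u⁻¹ : unrInt p) : Ω)]

/-- every non-zero element of `unrInt p` is a unit times a power of `p`. -/
theorem exists_eq_pow_mul_unit {x : unrInt p} (hx : x ≠ 0) :
    ∃ (n : ℕ) (u : (unrInt p)ˣ), x = ((p : ℕ) : unrInt p) ^ n * u := by
  have hx0 : (x : Ω) ≠ 0 := fun h => hx (Subtype.ext h)
  obtain ⟨j, hj⟩ := exists_norm_eq_pow' x.2.2 x.2.1 hx0
  have hp0 : (p : Ω) ^ j ≠ 0 := pow_ne_zero _ natCast_ne_zero_omega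
  have hu : (x : Ω) / (p : Ω) ^ j ∈ unrInt p := by
    refine ⟨?_, fun τ hτ => ?_⟩
    · rw [norm_div, norm_pow, norm_natCast_omega, hj, div_self]
      exact pow_ne_zero _ p_inv_pos.ne'
    · rw [map_div₀, x.2.2 τ hτ, map_pow, map_natCast]
  have hu1 : ‖((⟨_, hu⟩ : unrInt p) : Ω)‖ = 1 := by
    show ‖(x : Ω) / (p : Ω) ^ j‖ = 1
    rw [norm_div, norm_pow, norm_natCast_omega, hj, div_self]
    exact pow_ne_zero _ p_inv_pos.ne'
  obtain ⟨u, hu'⟩ := isUnit_of_norm_eq_one hu1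
  refine ⟨j, u, ?_⟩
  apply Subtype.ext
  rw [hu']
  show (x : Ω) = ((((p : ℕ) : unrInt p) ^ j : unrInt p) : Ω) * ((x : Ω) / (p : Ω) ^ j)
  rw [SubmonoidClass.coe_pow, coe_natCast_unrInt]
  field_simp

theorem not_isUnit_natCast_unrInt : ¬ IsUnit ((p : ℕ) : unrInt p) := by
  intro h
  have := norm_eq_one_of_isUnit h
  rw [coe_natCast_unrInt, norm_natCast_omega] at this
  exact p_inv_lt_one.ne this

theorem irreducible_natCast_unrInt : Irreducible ((p : ℕ) : unrInt p) := by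
  refine ⟨not_isUnit_natCast_unrInt, fun a b hab => ?_⟩
  have ha0 : a ≠ 0 := by
    rintro rfl
    rw [zero_mul] at hab
    exact natCast_unrInt_ne_zero hab
  have hb0 : b ≠ 0 := by
    rintro rfl
    rw [mul_zero] at hab
    exact natCast_unrInt_ne_zero hab
  obtain ⟨i, u, rfl⟩ := exists_eq_pow_mul_unit ha0
  obtain ⟨j, v, rfl⟩ := exists_eq_pow_mul_unit hb0
  have hn := congrArg (fun x : unrInt p => ‖(x : Ω)‖) hab
  simp only [MulMemClass.coe_mul, SubmonoidClass.coe_pow, coe_natCast_unrInt, norm_mul, norm_pow,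
    norm_natCast_omega, norm_eq_one_of_isUnit u.isUnit, norm_eq_one_of_isUnit v.isUnit,
    mul_one] at hn
  rw [← pow_add] at hn
  have hij : i + j = 1 := by
    have hinj : Function.Injective (fun n : ℕ => ((p : ℝ)⁻¹) ^ n) :=
      pow_right_injective₀ p_inv_pos p_inv_lt_one.ne
    have : ((p : ℝ)⁻¹) ^ 1 = ((p : ℝ)⁻¹) ^ (i + j) := by rw [pow_one]; exact hn
    exact (hinj this).symm
  rcases Nat.eq_zero_or_pos i with hi | hi
  · left
    subst hi
    rw [pow_zero, one_mul]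
    exact u.isUnit
  · right
    have hj : j = 0 := by omega
    subst hj
    rw [pow_zero, one_mul]
    exact v.isUnit

/-- **the integers of the maximal unramified extension form a discrete valuation ring**
(uniformiser `p`). -/
instance isDiscreteValuationRing_unrInt : IsDiscreteValuationRing (unrInt p) := by
  apply IsDiscreteValuationRing.ofHasUnitMulPowIrreducibleFactorization
  refine ⟨((p : ℕ) : unrInt p), irreducible_natCast_unrInt, fun {x} hx => ?_⟩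
  obtain ⟨n, u, rfl⟩ := exists_eq_pow_mul_unit hx
  exact ⟨n, ⟨u, rfl⟩⟩

/-! ### The arithmetic hypotheses of `Flat/CSlot.cslot_kill` for `Ω = PadicAlgCl p` -/

section Package

local notation "Ip" => Subtype (fun σ : PadicAlgCl p ≃ₐ[ℚ_[p]] PadicAlgCl p => σ ∈ localInertia' p)

theorem inertia_smul_def (t : Ip) (x : Ω) : t • x = (t : Gp) x := rfl

/-- `hinj`. -/
theorem algebraMap_unrInt_injective : Function.Injective (algebraMap (unrInt p) Ω) :=
  Subtype.val_injective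

/-- `hOT`: the inertia group fixes `unrInt p`. -/
theorem smul_algebraMap_unrInt (c : unrInt p) (t : Ip) :
    t • algebraMap (unrInt p) Ω c = algebraMap (unrInt p) Ω c :=
  c.2.2 t t.2

theorem norm_algebraMap_padicInt (o : ℤ_[p]) : ‖algebraMap ℤ_[p] Ω o‖ = ‖o‖ := by
  rw [IsScalarTower.algebraMap_apply ℤ_[p] ℚ_[p] Ω, norm_algebraMap']
  rfl

/-- `hO_OT`: the image of `ℤ_[p]` lies in `unrInt p`. -/
theorem exists_unrInt_eq_algebraMap (o : ℤ_[p]) :
    ∃ c : unrInt p, algebraMap (unrInt p) Ω c = algebraMap ℤ_[p] Ω o := by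
  refine ⟨⟨algebraMap ℤ_[p] Ω o, ?_, fun τ _ => ?_⟩, rfl⟩
  · rw [norm_algebraMap_padicInt]
    exact PadicInt.norm_le_one o
  · rw [IsScalarTower.algebraMap_apply ℤ_[p] ℚ_[p] Ω, AlgEquiv.commutes]

/-- `hfrac`: the inertia-invariant elements of `Ω` are fractions of elements of `unrInt p`. -/
theorem exists_unrInt_mul_eq (c : Ω) (hc : ∀ t : Ip, t • c = c) :
    ∃ d e : unrInt p, d ≠ 0 ∧ algebraMap (unrInt p) Ω d * c = algebraMap (unrInt p) Ω e := by
  have hp1 : (1 : ℝ) < p := by exact_mod_cast (Fact.out : p.Prime).one_lt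
  obtain ⟨n, hn⟩ := pow_unbounded_of_one_lt ‖c‖ hp1
  have hmem : (p : Ω) ^ n * c ∈ unrInt p := by
    refine ⟨?_, fun τ hτ => ?_⟩
    · rw [norm_mul, norm_pow, norm_natCast_omega, inv_pow]
      have hpos : (0 : ℝ) < (p : ℝ) ^ n := by positivity
      rw [inv_mul_le_iff₀ hpos, mul_one]
      exact hn.le
    · rw [map_mul, map_pow, map_natCast]
      congr 1
      exact hc ⟨τ, hτ⟩
  refine ⟨((p : ℕ) : unrInt p) ^ n, ⟨_, hmem⟩, pow_ne_zero _ natCast_unrInt_ne_zero, ?_⟩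
  show ((((p : ℕ) : unrInt p) ^ n : unrInt p) : Ω) * c = (p : Ω) ^ n * c
  rw [SubmonoidClass.coe_pow, coe_natCast_unrInt]

/-- `hsepT`: `unrInt p` is `p`-adically separated. -/
theorem eq_zero_of_forall_pow_dvd (c : unrInt p)
    (h : ∀ n : ℕ, ((p : ℕ) : unrInt p) ^ n ∣ c) : c = 0 := by
  by_contra hc
  have hc0 : (c : Ω) ≠ 0 := fun h0 => hc (Subtype.ext h0)
  have hpos : 0 < ‖(c : Ω)‖ := norm_pos_iff.mpr hc0
  obtain ⟨n, hn⟩ := exists_pow_lt_of_lt_one hpos (p_inv_lt_one (p := p))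
  obtain ⟨d, hd⟩ := h n
  have h1 := congrArg (fun x : unrInt p => ‖(x : Ω)‖) hd
  simp only [MulMemClass.coe_mul, SubmonoidClass.coe_pow, coe_natCast_unrInt, norm_mul, norm_pow,
    norm_natCast_omega] at h1
  have h2 : ‖(d : Ω)‖ ≤ 1 := d.2.1
  have h3 : ((p : ℝ)⁻¹) ^ n * ‖(d : Ω)‖ ≤ ((p : ℝ)⁻¹) ^ n * 1 :=
    mul_le_mul_of_nonneg_left h2 (pow_nonneg p_inv_pos.le _)
  rw [mul_one] at h3
  linarith

variable (p) in
/-- `𝔪`: the open unit ball of `Ω`, as a module over `unrInt p`. -/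
noncomputable def openBall : Submodule (unrInt p) Ω where
  carrier := {x | ‖x‖ < 1}
  add_mem' {x y} hx hy :=
    lt_of_le_of_lt (IsUltrametricDist.norm_add_le_max x y) (max_lt hx hy)
  zero_mem' := by
    show ‖(0 : Ω)‖ < 1
    rw [norm_zero]
    exact zero_lt_one
  smul_mem' c x hx := by
    show ‖(c : Ω) * x‖ < 1
    rw [norm_mul]
    calc ‖(c : Ω)‖ * ‖x‖ ≤ 1 * ‖x‖ := mul_le_mul_of_nonneg_right c.2.1 (norm_nonneg _)
      _ = ‖x‖ := one_mul _
      _ < 1 := hx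

theorem mem_openBall {x : Ω} : x ∈ openBall p ↔ ‖x‖ < 1 := Iff.rfl

/-- `hF1`: the maximal unramified extension is unramified. -/
theorem exists_eq_p_mul_unrInt (c : Ω) (hc : c ∈ openBall p) (hfix : ∀ t : Ip, t • c = c) :
    ∃ d : unrInt p, c = (p : Ω) * algebraMap (unrInt p) Ω d := by
  obtain ⟨z, hz1, hzfix, hcz⟩ :=
    exists_eq_p_mul_of_fixed c (fun τ hτ => hfix ⟨τ, hτ⟩) (mem_openBall.mp hc)
  exact ⟨⟨z, hz1, hzfix⟩, hcz⟩

/-- integral elements of `Ω` lie in the closed unit ball. -/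
theorem norm_le_one_of_isIntegral {c : Ω} (hc : IsIntegral ℤ_[p] c) : ‖c‖ ≤ 1 := by
  obtain ⟨q, hq, hqc⟩ := hc
  have hmem : ∀ a : ℤ_[p],
      algebraMap ℤ_[p] Ω a ∈ (NormedField.valuation (K := Ω)).integer := by
    intro a
    rw [Valuation.mem_integer_iff, NormedField.valuation_apply, ← NNReal.coe_le_coe]
    show ‖algebraMap ℤ_[p] Ω a‖ ≤ 1
    rw [norm_algebraMap_padicInt]
    exact PadicInt.norm_le_one a
  let f : ℤ_[p] →+* (NormedField.valuation (K := Ω)).integer :=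
    (algebraMap ℤ_[p] Ω).codRestrict _ hmem
  have h2 : IsIntegral (NormedField.valuation (K := Ω)).integer c := by
    refine ⟨q.map f, hq.map f, ?_⟩
    rw [Polynomial.eval₂_map]
    exact hqc
  have h3 := (Valuation.integer.integers (NormedField.valuation (K := Ω))).mem_of_integral h2
  rw [Valuation.mem_integer_iff, NormedField.valuation_apply, ← NNReal.coe_le_coe] at h3
  exact h3

/-- `hint`: the inertia group acts trivially on the residue field. -/
theorem smul_sub_mem_openBall (c : Ω) (hc : IsIntegral ℤ_[p] c) (t : Ip) :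
    t • c - c ∈ openBall p :=
  (mem_localInertia_iff_forall_norm p t.1).mp t.2 c (norm_le_one_of_isIntegral hc)

/-- `h𝔪mul`. -/
theorem mul_mem_openBall (c : Ω) (hc : IsIntegral ℤ_[p] c) (d : Ω) (hd : d ∈ openBall p) :
    c * d ∈ openBall p := by
  show ‖c * d‖ < 1
  rw [norm_mul]
  calc ‖c‖ * ‖d‖ ≤ 1 * ‖d‖ :=
        mul_le_mul_of_nonneg_right (norm_le_one_of_isIntegral hc) (norm_nonneg _)
    _ = ‖d‖ := one_mul _
    _ < 1 := hd

end Package

end Fermat.Agent.S56x.Local.UnrIntOmega
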