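import Fermat.Agent.S56x.GW.Interface
import Fermat.Prelude.Def_GaloisRep_LocalConditions

/-!
# P-S56, block (B), leaf (L3): the archimedean place (helper86)

* `subsingleton_H1_of_isUnit_card`: `H¹(G, A) = 0` for a finite group whose order is invertible
  in the coefficient ring (averaging).
* `arch`: the field `arch` of `GW.GWPackage`: `H¹(G_∞, M) = 0` for `p` odd, where
  `G_∞ = ⟨complex conjugation⟩` is the archimedean decomposition group of the Prelude.
* `mem_locH0_arch_iff`: `H⁰(G_∞, M)` is the fixed space of complex conjugation.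
* `complexConjugation_apply_of_pow_eq_one`: complex conjugation inverts roots of unity;
  `det_complexConjugation`: a residual representation with cyclotomic determinant is odd.
* `finrank_fixed_traceZero`: for `g ∈ M₂(k)` with `g² = 1`, `det g = -1` (`2 ≠ 0` in `k`) the
  trace-zero matrices commuting with `g` form a line.
-/

set_option autoImplicit false

open CategoryTheory groupCohomology ExtCitation Module

namespace Fermat.Agent.S56x.Local.InfinityLocal

local notation "Qbar" => AlgebraicClosure ℚ
local notation "Γℚ" => (AlgebraicClosure ℚ ≃ₐ[ℚ] AlgebraicClosure ℚ)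

section General

variable {k G : Type} [CommRing k] [Group G]

/-- Every `1`-cocycle of a finite group with invertible order is a coboundary (averaging). -/
theorem mem_coboundaries₁_of_isUnit_card [Fintype G] (A : Rep k G)
    (h : IsUnit ((Fintype.card G : ℕ) : k)) (f : cocycles₁ A) :
    ⇑f ∈ coboundaries₁ A := by
  obtain ⟨u, hu⟩ := h
  refine ⟨-((u⁻¹ : kˣ) : k) • ∑ g : G, f g, ?_⟩
  funext x
  have hcoc := (mem_cocycles₁_iff (⇑f)).1 f.2
  have hsum : ∑ g : G, A.ρ x (f g) = ∑ g : G, f g - (Fintype.card G : k) • f x := by
    have h1 : ∀ g : G, A.ρ x (f g) = f (x * g) - f x := fun g => by rw [hcoc x g]; abel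
    simp_rw [h1]
    rw [Finset.sum_sub_distrib, Finset.sum_const, Finset.card_univ,
      Fintype.sum_bijective (fun g => x * g) (Group.mulLeft_bijective x) _ (fun g => f g)
        (fun _ => rfl), Nat.cast_smul_eq_nsmul]
  show A.ρ x (-((u⁻¹ : kˣ) : k) • ∑ g : G, f g) - (-((u⁻¹ : kˣ) : k) • ∑ g : G, f g) = f x
  rw [map_smul, map_sum, hsum, ← smul_sub, sub_sub_cancel_left, smul_neg, neg_smul, neg_neg,
    smul_smul, ← hu, Units.inv_mul, one_smul]

/-- `H¹(G, A) = 0` for a finite group `G` whose order is invertible in `k`. -/
theorem subsingleton_H1_of_isUnit_card [Finite G] (A : Rep k G)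
    (h : IsUnit ((Nat.card G : ℕ) : k)) : Subsingleton (H1 A) := by
  haveI : Fintype G := Fintype.ofFinite G
  rw [Nat.card_eq_fintype_card] at h
  refine ⟨fun x y => ?_⟩
  induction x using H1_induction_on with | h x => ?_
  induction y using H1_induction_on with | h y => ?_
  rw [(H1π_eq_zero_iff x).2 (mem_coboundaries₁_of_isUnit_card A h x),
    (H1π_eq_zero_iff y).2 (mem_coboundaries₁_of_isUnit_card A h y)]

end General

section ComplexConjugation

/-- Complex conjugation is not the identity of `Qbar`. -/
theorem complexConjugation_ne_one : complexConjugation ≠ 1 := by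
  intro h
  obtain ⟨x, hx⟩ := IsAlgClosed.exists_pow_nat_eq (-1 : Qbar) (n := 2) (by norm_num)
  have h1 : complexEmbedding (complexConjugation x) = complexEmbedding x := by rw [h]; rfl
  rw [complexEmbedding_complexConjugation] at h1
  have h2 : (complexEmbedding x) ^ 2 = -1 := by rw [← map_pow, hx]; simp
  have h3 : (complexEmbedding x).im = 0 := Complex.conj_eq_iff_im.1 h1
  have h4 : complexEmbedding x = ((complexEmbedding x).re : ℂ) := by
    apply Complex.ext <;> simp [h3]
  rw [h4] at h2
  have h5 : ((complexEmbedding x).re ^ 2 : ℝ) = -1 := by exact_mod_cast h2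
  nlinarith [sq_nonneg (complexEmbedding x).re]

theorem orderOf_complexConjugation : orderOf complexConjugation = 2 :=
  orderOf_eq_prime complexConjugation_sq complexConjugation_ne_one

theorem natCard_archimedeanDecomposition : Nat.card ↥archimedeanDecomposition = 2 := by
  rw [archimedeanDecomposition, Nat.card_zpowers, orderOf_complexConjugation]

instance finite_archimedeanDecomposition : Finite ↥archimedeanDecomposition :=
  Nat.finite_of_card_ne_zero (by rw [natCard_archimedeanDecomposition]; norm_num)

/-- Complex conjugation inverts the roots of unity of `Qbar`. -/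
theorem complexConjugation_apply_of_pow_eq_one {μ : Qbar} {n : ℕ} (hn : n ≠ 0)
    (h : μ ^ n = 1) : complexConjugation μ = μ⁻¹ := by
  apply complexEmbedding.toRingHom.injective
  show complexEmbedding (complexConjugation μ) = complexEmbedding μ⁻¹
  rw [complexEmbedding_complexConjugation, map_inv₀]
  have h1 : (complexEmbedding μ) ^ n = 1 := by rw [← map_pow, h, map_one]
  have h2 : ‖complexEmbedding μ‖ = 1 := Complex.norm_eq_one_of_pow_eq_one h1 hn
  rw [Complex.inv_def, Complex.normSq_eq_norm_sq, h2]
  simp

end ComplexConjugation

section Arch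

variable (p : ℕ) [Fact p.Prime]

/-- **The field `arch` of `GW.GWPackage`**: `H¹(G_∞, M) = 0` for `p` odd. -/
theorem arch (hp2 : p ≠ 2) (S : Finset Nat.Primes) (M : Rep (ZMod p) Γℚ) (u : Unit) :
    Subsingleton (H1 (Rep.res (extArithLoc S (Sum.inl u)) M)) := by
  haveI : Finite (extArithLocalGroups S (Sum.inl u)) :=
    inferInstanceAs (Finite ↥archimedeanDecomposition)
  apply subsingleton_H1_of_isUnit_card
  have h2 : Nat.card (extArithLocalGroups S (Sum.inl u)) = 2 := natCard_archimedeanDecomposition
  rw [h2]
  exact (ZMod.isUnit_iff_coprime 2 p).2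
    ((Nat.coprime_primes Nat.prime_two (Fact.out : p.Prime)).2 (Ne.symm hp2))

variable {p}

/-- `H⁰(G_∞, M)` is the fixed space of complex conjugation. -/
theorem mem_locH0_arch_iff (S : Finset Nat.Primes) (M : Rep (ZMod p) Γℚ) (u : Unit) (m : M) :
    m ∈ GW.locH0 S M (Sum.inl u) ↔ M.ρ complexConjugation m = m := by
  rw [GW.locH0, Representation.mem_invariants]
  constructor
  · intro h
    exact h (archimedeanGen : ↥archimedeanDecomposition)
  · intro h g
    have hinv : M.ρ complexConjugation⁻¹ m = m := by
      rw [complexConjugation_inv]; exact h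
    have key : ∀ n : ℤ, M.ρ (complexConjugation ^ n) m = m := by
      intro n
      induction n using Int.induction_on with
      | zero => simp
      | succ i ih =>
        rw [zpow_add_one, map_mul, Module.End.mul_apply, h]; exact ih
      | pred i ih =>
        rw [zpow_sub_one, map_mul, Module.End.mul_apply, hinv]; exact ih
    obtain ⟨g, hg⟩ := (g : ↥archimedeanDecomposition)
    obtain ⟨n, rfl⟩ := Subgroup.mem_zpowers_iff.1 hg
    exact key n

end Arch

end Fermat.Agent.S56x.Local.InfinityLocal
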