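import Mathlib
import Fermat.Prelude.Def_ExtEndgame_ProductionDatum
import Fermat.Prelude.Def_ExtCitation_KummerBridge

/-!
# P-S56, block (B), local line, piece (T-c) (helper8): the local cyclotomic character at `q ≠ p`

For a prime `q ≠ p` and `σ ∈ Gal(PadicAlgCl q / ℚ_q)`, the value of the mod `p` cyclotomic character
of the Prelude (`ExtCitation.cycloChar p`) at the image of `σ` in `Gal(ℚ̄/ℚ)`
(`localGaloisToGlobal q σ`, `primeLocalToGlobal q σ`) is read off from the action of `σ` on ONE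
primitive `p`-th root of unity `ζ` of `PadicAlgCl q` MODULO the maximal ideal:

* `apply_rootOfUnity` : `σ ζ = ζ ^ χ(σ)` for every `p`-th root of unity `ζ` of `PadicAlgCl q`;
* `norm_one_sub_eq_one`, `pow_eq_pow_of_norm_sub_lt_one` : distinct `p`-th roots of unity stay
  distinct modulo the maximal ideal (`q ≠ p`);
* `cycloChar_eq_natCast_of_norm_lt` : `‖σ ζ - ζ ^ n‖ < 1 → χ(σ) = n`;
* `cycloChar_eq_one_of_norm_lt` (inertia: `n = 1`), `cycloChar_eq_q_of_norm_lt` (arithmetic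
  Frobenius: `n = q`), and the same for `Valued.v`, for `primeLocalToGlobal`, and for the predicates
  `IsInertial`, `IsArithFrob`.
-/

set_option autoImplicit false
set_option linter.style.haveILetI false

noncomputable section

open ExtCitation

namespace Fermat.Agent.S56x.Local.TameCyclo

/-! ### Roots of unity in `PadicAlgCl q` modulo the maximal ideal -/

section Norm

variable (q : ℕ) [Fact q.Prime]

theorem norm_eq_one_of_pow_eq_one {x : PadicAlgCl q} {n : ℕ} (hn : n ≠ 0) (h : x ^ n = 1) :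
    ‖x‖ = 1 := by
  have h1 : ‖x‖ ^ n = 1 := by rw [← norm_pow, h, norm_one]
  exact (pow_eq_one_iff_of_nonneg (norm_nonneg x) hn).mp h1

theorem norm_natCast_prime_eq_one {p : ℕ} (hp : p.Prime) (hqp : q ≠ p) :
    ‖(p : PadicAlgCl q)‖ = 1 := by
  have h1 : algebraMap ℚ_[q] (PadicAlgCl q) (p : ℚ_[q]) = (p : PadicAlgCl q) :=
    map_natCast (algebraMap ℚ_[q] (PadicAlgCl q)) p
  rw [← h1]
  have h2 : ‖algebraMap ℚ_[q] (PadicAlgCl q) (p : ℚ_[q])‖ = ‖(p : ℚ_[q])‖ :=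
    PadicAlgCl.norm_extends q (p : ℚ_[q])
  rw [h2, Padic.norm_natCast_eq_one_iff]
  exact (Nat.coprime_primes Fact.out hp).mpr hqp

theorem norm_one_sub_pow_le_one {p : ℕ} (hp : p.Prime) {ξ : PadicAlgCl q} (hξ : ξ ^ p = 1)
    (k : ℕ) : ‖1 - ξ ^ k‖ ≤ 1 := by
  have h1 : ‖ξ ^ k‖ = 1 := by
    rw [norm_pow, norm_eq_one_of_pow_eq_one q hp.ne_zero hξ, one_pow]
  have h2 := IsUltrametricDist.norm_add_le_max (1 : PadicAlgCl q) (-(ξ ^ k))
  rw [norm_one, norm_neg, h1, max_self, ← sub_eq_add_neg] at h2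
  exact h2

/-- For `q ≠ p`, `1 - ξ` is a unit for every primitive `p`-th root of unity `ξ` of `PadicAlgCl q`. -/
theorem norm_one_sub_eq_one {p : ℕ} (hp : p.Prime) (hqp : q ≠ p) {ξ : PadicAlgCl q}
    (hξ : IsPrimitiveRoot ξ p) : ‖1 - ξ‖ = 1 := by
  obtain ⟨n, rfl⟩ : ∃ n, p = n + 1 := ⟨p - 1, (Nat.succ_pred_eq_of_pos hp.pos).symm⟩
  have hprod := hξ.prod_one_sub_pow_eq_order
  have hle : ∀ k, ‖1 - ξ ^ (k + 1)‖ ≤ 1 := fun k =>
    norm_one_sub_pow_le_one q hp hξ.pow_eq_one (k + 1)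
  have h1 : ‖∏ k ∈ Finset.range n, (1 - ξ ^ (k + 1))‖ = 1 := by
    rw [hprod]
    have := norm_natCast_prime_eq_one q hp hqp
    rwa [Nat.cast_add, Nat.cast_one] at this
  rw [norm_prod] at h1
  by_contra hne
  have hlt : ‖1 - ξ‖ < 1 := lt_of_le_of_ne (by simpa using hle 0) hne
  have hn0 : 0 ∈ Finset.range n := by
    rw [Finset.mem_range]
    have := hp.two_le
    omega
  have hlt2 : ∏ k ∈ Finset.range n, ‖1 - ξ ^ (k + 1)‖ < 1 := by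
    rw [← Finset.mul_prod_erase _ _ hn0]
    have h3 : ∏ k ∈ (Finset.range n).erase 0, ‖1 - ξ ^ (k + 1)‖ ≤ 1 :=
      Finset.prod_le_one (fun _ _ => norm_nonneg _) (fun k _ => hle k)
    have h4 : ‖1 - ξ ^ (0 + 1)‖ < 1 := by simpa using hlt
    calc ‖1 - ξ ^ (0 + 1)‖ * ∏ k ∈ (Finset.range n).erase 0, ‖1 - ξ ^ (k + 1)‖
        ≤ ‖1 - ξ ^ (0 + 1)‖ * 1 := mul_le_mul_of_nonneg_left h3 (norm_nonneg _)
      _ < 1 := by rw [mul_one]; exact h4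
  rw [h1] at hlt2
  exact lt_irrefl _ hlt2

/-- For `q ≠ p`, two powers of a primitive `p`-th root of unity which are congruent modulo the
maximal ideal of `PadicAlgCl q` are equal. -/
theorem pow_eq_pow_of_norm_sub_lt_one {p : ℕ} (hp : p.Prime) (hqp : q ≠ p) {ζ : PadicAlgCl q}
    (hζ : IsPrimitiveRoot ζ p) (a b : ℕ) (h : ‖ζ ^ a - ζ ^ b‖ < 1) : ζ ^ a = ζ ^ b := by
  by_contra hne
  have hζ0 : ζ ≠ 0 := hζ.ne_zero hp.ne_zero
  have hb0 : ζ ^ b ≠ 0 := pow_ne_zero _ hζ0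
  set ξ : PadicAlgCl q := ζ ^ a * (ζ ^ b)⁻¹ with hξdef
  have hξp : ξ ^ p = 1 := by
    rw [hξdef, mul_pow, inv_pow, ← pow_mul, ← pow_mul, mul_comm a p, mul_comm b p, pow_mul,
      pow_mul, hζ.pow_eq_one, one_pow, one_pow, inv_one, mul_one]
  have hξ1 : ξ ≠ 1 := by
    intro h1
    apply hne
    rw [hξdef, mul_inv_eq_one₀ hb0] at h1
    exact h1
  have hξ : IsPrimitiveRoot ξ p := by
    have hdvd : orderOf ξ ∣ p := orderOf_dvd_of_pow_eq_one hξp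
    rcases (Nat.dvd_prime hp).mp hdvd with h1 | h1
    · exact absurd (orderOf_eq_one_iff.mp h1) hξ1
    · rw [← h1]
      exact IsPrimitiveRoot.orderOf ξ
  have h1 := norm_one_sub_eq_one q hp hqp hξ
  have h2 : ζ ^ a - ζ ^ b = ζ ^ b * (ξ - 1) := by
    rw [hξdef, mul_sub, mul_one, mul_comm (ζ ^ a), ← mul_assoc, mul_inv_cancel₀ hb0, one_mul]
  rw [h2, norm_mul, norm_pow, norm_eq_one_of_pow_eq_one q hp.ne_zero hζ.pow_eq_one, one_pow,
    one_mul, norm_sub_rev, h1] at h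
  exact lt_irrefl _ h

end Norm

/-! ### The cyclotomic character on roots of unity of `ℚ̄` and of `PadicAlgCl q` -/

section Spec

variable (p : ℕ) [Fact p.Prime]

/-- The defining property of the Prelude's mod `p` cyclotomic character. -/
theorem cycloChar_spec (g : AlgebraicClosure ℚ ≃ₐ[ℚ] AlgebraicClosure ℚ)
    {ζ₀ : AlgebraicClosure ℚ} (h : ζ₀ ^ p = 1) :
    g ζ₀ = ζ₀ ^ ((cycloChar p g : (ZMod p)ˣ) : ZMod p).val := by
  haveI : NeZero p := ⟨(Fact.out : p.Prime).ne_zero⟩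
  have h1 := modularCyclotomicCharacter.spec (L := AlgebraicClosure ℚ)
    (card_rootsOfUnity_eq_self p) (g : AlgebraicClosure ℚ ≃+* AlgebraicClosure ℚ)
    (t := ((rootsOfUnity.mkOfPowEq ζ₀ h : rootsOfUnity p (AlgebraicClosure ℚ)) :
      (AlgebraicClosure ℚ)ˣ)) (rootsOfUnity.mkOfPowEq ζ₀ h).2
  have h2 : cycloChar p g = modularCyclotomicCharacter (AlgebraicClosure ℚ)
      (card_rootsOfUnity_eq_self p) (g : AlgebraicClosure ℚ ≃+* AlgebraicClosure ℚ) := rfl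
  rw [h2]
  simpa using h1

variable (q : ℕ) [Fact q.Prime]

/-- Every `p`-th root of unity of `PadicAlgCl q` comes from `ℚ̄`. -/
theorem exists_padicEmbedding_eq {ζ : PadicAlgCl q} (hζ : ζ ^ p = 1) :
    ∃ ζ₀ : AlgebraicClosure ℚ, ζ₀ ^ p = 1 ∧ padicEmbedding q ζ₀ = ζ := by
  haveI : NeZero p := ⟨(Fact.out : p.Prime).ne_zero⟩
  haveI : NeZero ((p : ℕ) : ℚ) := ⟨Nat.cast_ne_zero.mpr (NeZero.ne p)⟩
  obtain ⟨ζ₁, hζ₁⟩ := HasEnoughRootsOfUnity.exists_primitiveRoot (AlgebraicClosure ℚ) p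
  have h1 : IsPrimitiveRoot (padicEmbedding q ζ₁) p :=
    hζ₁.map_of_injective (padicEmbedding q).toRingHom.injective
  obtain ⟨i, -, hi⟩ := h1.eq_pow_of_pow_eq_one hζ
  refine ⟨ζ₁ ^ i, ?_, ?_⟩
  · rw [← pow_mul, mul_comm, pow_mul, hζ₁.pow_eq_one, one_pow]
  · rw [map_pow, hi]

/-- **The local cyclotomic character acts on the `p`-th roots of unity of `PadicAlgCl q`.** -/
theorem apply_rootOfUnity (σ : PadicAlgCl q ≃ₐ[ℚ_[q]] PadicAlgCl q) {ζ : PadicAlgCl q}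
    (hζ : ζ ^ p = 1) :
    σ ζ = ζ ^ ((cycloChar p (localGaloisToGlobal q σ) : (ZMod p)ˣ) : ZMod p).val := by
  obtain ⟨ζ₀, h0, rfl⟩ := exists_padicEmbedding_eq p q hζ
  rw [← padicEmbedding_localGaloisToGlobal, cycloChar_spec p _ h0, map_pow]

/-- **The value of the local cyclotomic character from the action modulo the maximal ideal.** -/
theorem cycloChar_eq_natCast_of_norm_lt (hqp : q ≠ p)
    (σ : PadicAlgCl q ≃ₐ[ℚ_[q]] PadicAlgCl q) {ζ : PadicAlgCl q} (hζ : IsPrimitiveRoot ζ p)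
    (n : ℕ) (h : ‖σ ζ - ζ ^ n‖ < 1) :
    ((cycloChar p (localGaloisToGlobal q σ) : (ZMod p)ˣ) : ZMod p) = (n : ZMod p) := by
  haveI : NeZero p := ⟨(Fact.out : p.Prime).ne_zero⟩
  rw [apply_rootOfUnity p q σ hζ.pow_eq_one] at h
  have h1 := pow_eq_pow_of_norm_sub_lt_one q (Fact.out : p.Prime) hqp hζ _ _ h
  have hζ0 : ζ ≠ 0 := hζ.ne_zero (Fact.out : p.Prime).ne_zero
  set a : ℕ := ((cycloChar p (localGaloisToGlobal q σ) : (ZMod p)ˣ) : ZMod p).val with ha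
  have h2 : ζ ^ ((a : ℤ) - (n : ℤ)) = 1 := by
    rw [zpow_sub₀ hζ0, zpow_natCast, zpow_natCast, h1, div_self (pow_ne_zero _ hζ0)]
  have h3 : (p : ℤ) ∣ (a : ℤ) - (n : ℤ) := (hζ.zpow_eq_one_iff_dvd _).mp h2
  have h4 : (((a : ℤ) - (n : ℤ) : ℤ) : ZMod p) = 0 :=
    (ZMod.intCast_zmod_eq_zero_iff_dvd _ p).mpr h3
  rw [Int.cast_sub, Int.cast_natCast, Int.cast_natCast, sub_eq_zero, ha,
    ZMod.natCast_zmod_val] at h4
  exact h4

/-- Inertia: `σ ζ ≡ ζ` modulo the maximal ideal implies `χ(σ) = 1`. -/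
theorem cycloChar_eq_one_of_norm_lt (hqp : q ≠ p)
    (σ : PadicAlgCl q ≃ₐ[ℚ_[q]] PadicAlgCl q) {ζ : PadicAlgCl q} (hζ : IsPrimitiveRoot ζ p)
    (h : ‖σ ζ - ζ‖ < 1) : cycloChar p (localGaloisToGlobal q σ) = 1 := by
  have h1 := cycloChar_eq_natCast_of_norm_lt p q hqp σ hζ 1 (by rwa [pow_one])
  apply Units.ext
  rw [h1, Nat.cast_one, Units.val_one]

/-- Arithmetic Frobenius: `σ ζ ≡ ζ ^ q` modulo the maximal ideal implies `χ(σ) = q`. -/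
theorem cycloChar_eq_q_of_norm_lt (hqp : q ≠ p)
    (σ : PadicAlgCl q ≃ₐ[ℚ_[q]] PadicAlgCl q) {ζ : PadicAlgCl q} (hζ : IsPrimitiveRoot ζ p)
    (h : ‖σ ζ - ζ ^ q‖ < 1) :
    ((cycloChar p (localGaloisToGlobal q σ) : (ZMod p)ˣ) : ZMod p) = (q : ZMod p) :=
  cycloChar_eq_natCast_of_norm_lt p q hqp σ hζ q h

/-- There is a primitive `p`-th root of unity in `PadicAlgCl q`. -/
theorem exists_primitiveRoot : ∃ ζ : PadicAlgCl q, IsPrimitiveRoot ζ p := by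
  haveI : NeZero p := ⟨(Fact.out : p.Prime).ne_zero⟩
  haveI : NeZero ((p : ℕ) : ℚ) := ⟨Nat.cast_ne_zero.mpr (NeZero.ne p)⟩
  obtain ⟨ζ₁, hζ₁⟩ := HasEnoughRootsOfUnity.exists_primitiveRoot (AlgebraicClosure ℚ) p
  exact ⟨padicEmbedding q ζ₁, hζ₁.map_of_injective (padicEmbedding q).toRingHom.injective⟩

/-! ### Inertial elements and arithmetic Frobenius elements -/

/-- `σ` acts trivially on the residue field of `PadicAlgCl q`. -/
def IsInertial (σ : PadicAlgCl q ≃ₐ[ℚ_[q]] PadicAlgCl q) : Prop :=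
  ∀ x : PadicAlgCl q, ‖x‖ ≤ 1 → ‖σ x - x‖ < 1

/-- `σ` acts as `x ↦ x ^ q` on the residue field of `PadicAlgCl q`. -/
def IsArithFrob (σ : PadicAlgCl q ≃ₐ[ℚ_[q]] PadicAlgCl q) : Prop :=
  ∀ x : PadicAlgCl q, ‖x‖ ≤ 1 → ‖σ x - x ^ q‖ < 1

theorem cycloChar_eq_one_of_isInertial (hqp : q ≠ p)
    {σ : PadicAlgCl q ≃ₐ[ℚ_[q]] PadicAlgCl q} (hσ : IsInertial q σ) :
    cycloChar p (localGaloisToGlobal q σ) = 1 := by
  obtain ⟨ζ, hζ⟩ := exists_primitiveRoot p q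
  exact cycloChar_eq_one_of_norm_lt p q hqp σ hζ
    (hσ ζ (norm_eq_one_of_pow_eq_one q (Fact.out : p.Prime).ne_zero hζ.pow_eq_one).le)

theorem cycloChar_eq_q_of_isArithFrob (hqp : q ≠ p)
    {σ : PadicAlgCl q ≃ₐ[ℚ_[q]] PadicAlgCl q} (hσ : IsArithFrob q σ) :
    ((cycloChar p (localGaloisToGlobal q σ) : (ZMod p)ˣ) : ZMod p) = (q : ZMod p) := by
  obtain ⟨ζ, hζ⟩ := exists_primitiveRoot p q
  exact cycloChar_eq_q_of_norm_lt p q hqp σ hζ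
    (hσ ζ (norm_eq_one_of_pow_eq_one q (Fact.out : p.Prime).ne_zero hζ.pow_eq_one).le)

/-- If the local cyclotomic character is trivial at `σ`, then `σ` fixes the `p`-th roots of unity. -/
theorem apply_rootOfUnity_of_cycloChar_eq_one (σ : PadicAlgCl q ≃ₐ[ℚ_[q]] PadicAlgCl q)
    {ζ : PadicAlgCl q} (hζ : ζ ^ p = 1) (h : cycloChar p (localGaloisToGlobal q σ) = 1) :
    σ ζ = ζ := by
  haveI : Fact (1 < p) := ⟨(Fact.out : p.Prime).one_lt⟩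
  rw [apply_rootOfUnity p q σ hζ, h, Units.val_one, ZMod.val_one, pow_one]

/-- Conversely, `σ` fixing one primitive `p`-th root of unity has trivial cyclotomic character. -/
theorem cycloChar_eq_one_of_apply_eq (hqp : q ≠ p) (σ : PadicAlgCl q ≃ₐ[ℚ_[q]] PadicAlgCl q)
    {ζ : PadicAlgCl q} (hζ : IsPrimitiveRoot ζ p) (h : σ ζ = ζ) :
    cycloChar p (localGaloisToGlobal q σ) = 1 :=
  cycloChar_eq_one_of_norm_lt p q hqp σ hζ (by rw [h, sub_self, norm_zero]; exact one_pos)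

/-! ### The same with `Valued.v` -/

theorem valuation_lt_one_iff (x : PadicAlgCl q) : Valued.v x < 1 ↔ ‖x‖ < 1 := by
  rw [PadicAlgCl.valuation_def, ← NNReal.coe_lt_coe, coe_nnnorm, NNReal.coe_one]

theorem cycloChar_eq_natCast_of_valuation_lt (hqp : q ≠ p)
    (σ : PadicAlgCl q ≃ₐ[ℚ_[q]] PadicAlgCl q) {ζ : PadicAlgCl q} (hζ : IsPrimitiveRoot ζ p)
    (n : ℕ) (h : Valued.v (σ ζ - ζ ^ n) < 1) :
    ((cycloChar p (localGaloisToGlobal q σ) : (ZMod p)ˣ) : ZMod p) = (n : ZMod p) :=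
  cycloChar_eq_natCast_of_norm_lt p q hqp σ hζ n ((valuation_lt_one_iff q _).mp h)

end Spec

/-! ### The Prelude's `primeLocalGaloisGroup q`, `primeLocalToGlobal q` (`q : Nat.Primes`) -/

section Primes

variable (p : ℕ) [Fact p.Prime] (q : Nat.Primes)

/-- `primeLocalToGlobal q` is `localGaloisToGlobal q` (for the instance `⟨q.2⟩`). -/
theorem primeLocalToGlobal_eq :
    haveI : Fact (q : ℕ).Prime := ⟨q.2⟩
    primeLocalToGlobal q = localGaloisToGlobal (q : ℕ) := rfl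

theorem primeLocal_apply_rootOfUnity :
    haveI : Fact (q : ℕ).Prime := ⟨q.2⟩
    ∀ (σ : PadicAlgCl (q : ℕ) ≃ₐ[ℚ_[(q : ℕ)]] PadicAlgCl (q : ℕ)) {ζ : PadicAlgCl (q : ℕ)},
      ζ ^ p = 1 →
      σ ζ = ζ ^ ((cycloChar p (primeLocalToGlobal q σ) : (ZMod p)ˣ) : ZMod p).val := by
  haveI : Fact (q : ℕ).Prime := ⟨q.2⟩
  intro σ ζ hζ
  exact apply_rootOfUnity p (q : ℕ) σ hζ

theorem primeLocal_cycloChar_eq_natCast_of_norm_lt (hqp : (q : ℕ) ≠ p) :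
    haveI : Fact (q : ℕ).Prime := ⟨q.2⟩
    ∀ (σ : PadicAlgCl (q : ℕ) ≃ₐ[ℚ_[(q : ℕ)]] PadicAlgCl (q : ℕ)) {ζ : PadicAlgCl (q : ℕ)},
      IsPrimitiveRoot ζ p → ∀ n : ℕ, ‖σ ζ - ζ ^ n‖ < 1 →
      ((cycloChar p (primeLocalToGlobal q σ) : (ZMod p)ˣ) : ZMod p) = (n : ZMod p) := by
  haveI : Fact (q : ℕ).Prime := ⟨q.2⟩
  intro σ ζ hζ n h
  exact cycloChar_eq_natCast_of_norm_lt p (q : ℕ) hqp σ hζ n h

/-- Inertia: `χ = 1`. -/
theorem primeLocal_cycloChar_eq_one_of_norm_lt (hqp : (q : ℕ) ≠ p) :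
    haveI : Fact (q : ℕ).Prime := ⟨q.2⟩
    ∀ (σ : PadicAlgCl (q : ℕ) ≃ₐ[ℚ_[(q : ℕ)]] PadicAlgCl (q : ℕ)) {ζ : PadicAlgCl (q : ℕ)},
      IsPrimitiveRoot ζ p → ‖σ ζ - ζ‖ < 1 →
      cycloChar p (primeLocalToGlobal q σ) = 1 := by
  haveI : Fact (q : ℕ).Prime := ⟨q.2⟩
  intro σ ζ hζ h
  exact cycloChar_eq_one_of_norm_lt p (q : ℕ) hqp σ hζ h

/-- Arithmetic Frobenius: `χ = q`. -/
theorem primeLocal_cycloChar_eq_q_of_norm_lt (hqp : (q : ℕ) ≠ p) :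
    haveI : Fact (q : ℕ).Prime := ⟨q.2⟩
    ∀ (σ : PadicAlgCl (q : ℕ) ≃ₐ[ℚ_[(q : ℕ)]] PadicAlgCl (q : ℕ)) {ζ : PadicAlgCl (q : ℕ)},
      IsPrimitiveRoot ζ p → ‖σ ζ - ζ ^ (q : ℕ)‖ < 1 →
      ((cycloChar p (primeLocalToGlobal q σ) : (ZMod p)ˣ) : ZMod p) = ((q : ℕ) : ZMod p) := by
  haveI : Fact (q : ℕ).Prime := ⟨q.2⟩
  intro σ ζ hζ h
  exact cycloChar_eq_q_of_norm_lt p (q : ℕ) hqp σ hζ h

end Primes

end Fermat.Agent.S56x.Local.TameCyclo
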