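import Fermat.Agent.S56x.Local.PadicFinite

/-!
# P-S56 block (B), local line, input (T-c) at finite level: the cyclotomic character on inertia
and on Frobenius

`E / ℚ_[q]` a finite extension inside `PadicAlgCl q`, `O_E = OE q E` its ring of integers, `p ≠ q` a
prime and `ζ ∈ E` a primitive `p`-th root of unity.  The `p`-th roots of unity are distinct modulo
the maximal ideal of `O_E` (`∑_{j<p} ξ^j = 0` for `ξ ≠ 1` and `p` is a unit).  Hence, for a
character `χE` of `Gal(E/ℚ_[q])` describing the action on `μ_p(E)`: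

* `chi_eq_one_of_inert` : an automorphism acting trivially on `O_E / 𝔪` has `χE σ = 1`;
* `chi_eq_of_frob` : an automorphism with `φ b ≡ b ^ n mod 𝔪` has `χE φ = n` in `ZMod p`.
-/

set_option autoImplicit false

open IsLocalRing

namespace Fermat.Agent.S56x.Local.TameCycloFinite

open Fermat.Agent.S56x.Local.PadicFinite

variable {p : ℕ} [Fact p.Prime] {q : ℕ} [Fact q.Prime]
  {E : IntermediateField ℚ_[q] (PadicAlgCl q)}

/-- a root of unity of `E` is integral. -/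
theorem mem_OE_of_pow_eq_one {z : E} {n : ℕ} (hn : n ≠ 0) (hz : z ^ n = 1) : z ∈ OE q E := by
  rw [mem_OE]
  have h1 : ‖z‖ ^ n = 1 := by rw [← norm_pow, hz, norm_one]
  exact le_of_eq ((pow_eq_one_iff_of_nonneg (norm_nonneg z) hn).mp h1)

/-- `p` is a unit of `O_E` for `p ≠ q`. -/
theorem natCast_not_mem_maximalIdeal [FiniteDimensional ℚ_[q] E] (hpq : p ≠ q) :
    ((p : ℕ) : OE q E) ∉ maximalIdeal (OE q E) := by
  have hp : p.Prime := Fact.out
  have hq : q.Prime := Fact.out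
  rw [mem_maximalIdeal, mem_nonunits_iff, not_not, isUnit_iff_norm_eq_one]
  have h : ((((p : ℕ) : OE q E)) : E) = algebraMap ℚ_[q] E ((p : ℕ) : ℚ_[q]) := by simp
  rw [h, norm_algebraMap_padic, Padic.norm_natCast_eq_one_iff]
  exact (Nat.coprime_primes hq hp).mpr (Ne.symm hpq)

/-- **the `p`-th roots of unity are distinct modulo `𝔪`.** -/
theorem natCast_eq_of_pow_sub_pow_mem [FiniteDimensional ℚ_[q] E] (hpq : p ≠ q) {ζ : E}
    (hζ : IsPrimitiveRoot ζ p) (a b : ℕ)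
    (hmem : ∃ x ∈ maximalIdeal (OE q E), (x : E) = ζ ^ a - ζ ^ b) :
    (a : ZMod p) = (b : ZMod p) := by
  have hp : p.Prime := Fact.out
  obtain ⟨x, hx, hxe⟩ := hmem
  have hζO : ζ ∈ OE q E := mem_OE_of_pow_eq_one hp.ne_zero hζ.pow_eq_one
  -- shift the exponents: `c` with `b + c ≡ 0`
  set c : ℕ := p - b % p with hc
  have hbc : p ∣ b + c := by
    have h1 : b % p ≤ p := (Nat.mod_lt b hp.pos).le
    have h2 : b + c = p * (b / p) + p := by
      have := Nat.div_add_mod b p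
      omega
    rw [h2]
    exact Dvd.dvd.add (Dvd.intro _ rfl) (dvd_refl p)
  set n : ℕ := a + c with hn
  -- `ζ ^ n - 1 ∈ 𝔪`
  let ζO : OE q E := ⟨ζ, hζO⟩
  have hmem2 : ζO ^ n - 1 ∈ maximalIdeal (OE q E) := by
    have h3 : ζO ^ n - 1 = x * ζO ^ c := by
      apply Subtype.ext
      have hb : ζ ^ (b + c) = 1 := by
        obtain ⟨k, hk⟩ := hbc
        rw [hk, pow_mul, hζ.pow_eq_one, one_pow]
      show ζ ^ n - 1 = (x : E) * ζ ^ c
      rw [hxe, sub_mul, ← pow_add, ← pow_add, hb]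
    rw [h3]
    exact Ideal.mul_mem_right _ _ hx
  -- if `p ∤ n` then `p ∈ 𝔪`
  by_contra hne
  have hpn : ¬ p ∣ n := by
    intro hdvd
    apply hne
    rw [ZMod.natCast_eq_natCast_iff]
    have h1 : n ≡ b + c [MOD p] :=
      (Nat.modEq_zero_iff_dvd.mpr hdvd).trans (Nat.modEq_zero_iff_dvd.mpr hbc).symm
    exact Nat.ModEq.add_right_cancel' c h1
  have hcop : n.Coprime p := (Nat.Coprime.symm ((Nat.Prime.coprime_iff_not_dvd hp).mpr hpn))
  have hξ : IsPrimitiveRoot (ζ ^ n) p := hζ.pow_of_coprime n hcop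
  have hsum : ∑ j ∈ Finset.range p, (ζ ^ n) ^ j = 0 := hξ.geom_sum_eq_zero hp.one_lt
  have hsumO : ∑ j ∈ Finset.range p, (ζO ^ n) ^ j = 0 := by
    apply Subtype.ext
    have h5 : ((∑ j ∈ Finset.range p, (ζO ^ n) ^ j : OE q E) : E) =
        ∑ j ∈ Finset.range p, (ζ ^ n) ^ j := by
      rw [← Subring.subtype_apply, map_sum]
      rfl
    rw [h5, hsum]
    rfl
  have hres : Ideal.Quotient.mk (maximalIdeal (OE q E)) (ζO ^ n) = 1 := by
    rw [← sub_eq_zero, ← map_one (Ideal.Quotient.mk (maximalIdeal (OE q E))), ← map_sub,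
      Ideal.Quotient.eq_zero_iff_mem]
    exact hmem2
  have h0 := congrArg (Ideal.Quotient.mk (maximalIdeal (OE q E))) hsumO
  rw [map_sum, map_zero] at h0
  simp only [map_pow, hres, one_pow, Finset.sum_const, Finset.card_range, nsmul_eq_mul,
    mul_one] at h0
  have h1 : Ideal.Quotient.mk (maximalIdeal (OE q E)) ((p : ℕ) : OE q E) = 0 := by
    rw [map_natCast]; exact h0
  exact natCast_not_mem_maximalIdeal hpq (Ideal.Quotient.eq_zero_iff_mem.mp h1)

section Characters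

variable [FiniteDimensional ℚ_[q] E] (hpq : p ≠ q) {ζ : E} (hζ : IsPrimitiveRoot ζ p)
  (χE : (E ≃ₐ[ℚ_[q]] E) →* (ZMod p)ˣ)
  (hspec : ∀ (σ : E ≃ₐ[ℚ_[q]] E) (z : E), z ^ p = 1 → σ z = z ^ ((χE σ : ZMod p)).val)

include hpq hζ hspec

/-- an automorphism `φ` of `E` with `φ b ≡ b ^ n` modulo `𝔪` on `O_E` has cyclotomic character
`n`. -/
theorem chi_eq_of_frob (φ : E ≃ₐ[ℚ_[q]] E) (n : ℕ)
    (hφ : ∀ b : OE q E, φ • b - b ^ n ∈ maximalIdeal (OE q E)) :
    ((χE φ : (ZMod p)ˣ) : ZMod p) = (n : ZMod p) := by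
  have hp : p.Prime := Fact.out
  have : NeZero p := ⟨hp.ne_zero⟩
  have hζO : ζ ∈ OE q E := mem_OE_of_pow_eq_one hp.ne_zero hζ.pow_eq_one
  have h1 := hφ ⟨ζ, hζO⟩
  have h2 := natCast_eq_of_pow_sub_pow_mem hpq hζ ((χE φ : ZMod p)).val n
    ⟨_, h1, by
      show φ ζ - ζ ^ n = _
      rw [hspec φ ζ hζ.pow_eq_one]⟩
  rw [← h2, ZMod.natCast_val, ZMod.cast_id]

/-- an automorphism of `E` acting trivially on `O_E / 𝔪` has trivial cyclotomic character. -/
theorem chi_eq_one_of_inert (σ : E ≃ₐ[ℚ_[q]] E)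
    (hσ : ∀ b : OE q E, σ • b - b ∈ maximalIdeal (OE q E)) : χE σ = 1 := by
  have h := chi_eq_of_frob hpq hζ χE hspec σ 1 (fun b => by simpa using hσ b)
  apply Units.ext
  rw [h]
  simp

end Characters

end Fermat.Agent.S56x.Local.TameCycloFinite
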