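/-
P-S56 block (B)/(C) local input (T), abstract half (helper96): the TAME STRUCTURE of a finite group
`G` acting on a discrete valuation ring `B` with finite residue field of characteristic `q`
(e.g. `G = Gal(L/K)`, `B` the integral closure in `L` of a complete DVR `A` with fraction field `K`).

* `inertiaGp G B`  : `σ` acts trivially on `B / 𝔪`          (`G_0`)
* `wildGp G B`     : `σ` acts trivially on `B / 𝔪²`         (`G_1`)
* `thetaHom ϖ : inertiaGp G B →* ResidueField B`, `σ ↦ σϖ/ϖ mod 𝔪`, with kernel `G_1`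
  (`thetaHom_eq_one_iff`; uses that the residue field is perfect),
* `exists_generator` : `G_0 = ⟨τ⟩ G_1` for some `τ` (`G_0/G_1` embeds in `κˣ`, hence is cyclic),
* `isPGroup_wildGp` : `G_1` is a `q`-group; `natCard_ne_zero_of_isPGroup` in characteristic `≠ q`,
* `exists_frob`, `exists_frob_pow_mul` : `G = ⟨φ⟩ G_0` for an arithmetic Frobenius `φ`,
* `residue_ratio_conj`, `frob_conj` : `φ τ φ⁻¹ ∈ τ^N G_1` when `φ x ≡ x^N mod 𝔪`,
* `exists_tame_core` : the packaged statement consumed by the instantiation at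
  `Gal(E/ℚ_q)` (`S56x/Local/TameData*.lean`),
* `eq_of_pow_eq_one_of_sub_mem` : roots of unity of order prime to the residue characteristic are
  distinct modulo `𝔪`.
-/
import Mathlib
import Fermat.Agent.Lib.Ram.TameCriterion

set_option autoImplicit false
set_option linter.style.haveILetI false

open IsLocalRing

namespace Fermat.Agent.S56x.Local.TameDataAbs

/-! ### Pure group theory -/

/-- A finite group mapping multiplicatively to a domain is cyclic modulo the kernel, with natural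
exponents. -/
theorem exists_gen_mod_ker {H R : Type*} [Group H] [Finite H] [CommRing R] [IsDomain R]
    (f : H →* R) : ∃ τ : H, ∀ h : H, ∃ n : ℕ, f h = f τ ^ n := by
  classical
  -- the range, as a finite subgroup of the units
  have hunit : ∀ h : H, IsUnit (f h) := fun h =>
    IsUnit.of_mul_eq_one (f h⁻¹) (by rw [← map_mul, mul_inv_cancel, map_one])
  let fu : H →* Rˣ :=
    { toFun := fun h => (hunit h).unit
      map_one' := by ext; simp
      map_mul' := fun a b => by ext; simp }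
  have hfu : ∀ h, ((fu h : Rˣ) : R) = f h := fun h => rfl
  haveI : Finite fu.range := Finite.of_surjective fu.rangeRestrict fu.rangeRestrict_surjective
  haveI : IsCyclic fu.range :=
    isCyclic_of_injective_ringHom (((Units.coeHom R).comp fu.range.subtype))
      (fun a b hab => Subtype.ext (Units.ext hab))
  obtain ⟨⟨g, τ, rfl⟩, hg⟩ := IsCyclic.exists_generator (α := fu.range)
  refine ⟨τ, fun h => ?_⟩
  have hmem := hg ⟨fu h, h, rfl⟩
  rw [← mem_powers_iff_mem_zpowers] at hmem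
  obtain ⟨n, hn⟩ := hmem
  refine ⟨n, ?_⟩
  have := congrArg (fun x : fu.range => ((x : Rˣ) : R)) hn
  simp only [SubmonoidClass.coe_pow, Units.val_pow_eq_pow_val] at this
  rw [← hfu, ← hfu]
  exact this.symm

section Action

variable (G B : Type*) [CommRing B] [IsDomain B] [IsDiscreteValuationRing B]
  [Group G] [MulSemiringAction G B]

/-- Automorphisms preserve the maximal ideal. -/
theorem smul_mem_maximalIdeal {B : Type*} [CommRing B] [IsLocalRing B] {G : Type*} [Group G]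
    [MulSemiringAction G B] (σ : G) {x : B} (hx : x ∈ maximalIdeal B) :
    σ • x ∈ maximalIdeal B := by
  rw [mem_maximalIdeal, mem_nonunits_iff] at hx ⊢
  intro h
  apply hx
  have := h.map (MulSemiringAction.toRingHom G B σ⁻¹)
  simpa using this

theorem smul_mem_maximalIdeal_pow {B : Type*} [CommRing B] [IsLocalRing B] {G : Type*} [Group G]
    [MulSemiringAction G B] (σ : G) (n : ℕ) {x : B} (hx : x ∈ maximalIdeal B ^ n) :
    σ • x ∈ maximalIdeal B ^ n := by
  have hle : (maximalIdeal B ^ n).map (MulSemiringAction.toRingHom G B σ) ≤ maximalIdeal B ^ n := by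
    rw [Ideal.map_pow]
    apply Ideal.pow_right_mono
    rw [Ideal.map_le_iff_le_comap]
    intro y hy
    exact smul_mem_maximalIdeal σ hy
  exact hle (Ideal.mem_map_of_mem _ hx)

/-- The subgroup of elements acting trivially on `B / 𝔪 ^ n`. -/
def ramGp (n : ℕ) : Subgroup G where
  carrier := {σ | ∀ b : B, σ • b - b ∈ maximalIdeal B ^ n}
  one_mem' := fun b => by simp
  mul_mem' := by
    intro σ τ hσ hτ b
    have h : (σ * τ) • b - b = σ • (τ • b - b) + (σ • b - b) := by
      rw [mul_smul, smul_sub]; ring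
    rw [h]
    exact Ideal.add_mem _ (smul_mem_maximalIdeal_pow σ n (hτ b)) (hσ b)
  inv_mem' := by
    intro σ hσ b
    have h : σ⁻¹ • b - b = -(σ⁻¹ • (σ • b - b)) := by
      rw [smul_sub, inv_smul_smul]; ring
    rw [h]
    exact Ideal.neg_mem_iff _ |>.2 (smul_mem_maximalIdeal_pow σ⁻¹ n (hσ b))

instance (n : ℕ) : (ramGp G B n).Normal where
  conj_mem := by
    intro σ hσ g b
    have h : (g * σ * g⁻¹) • b - b = g • (σ • (g⁻¹ • b) - g⁻¹ • b) := by
      rw [mul_smul, mul_smul, smul_sub, smul_inv_smul]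
    rw [h]
    exact smul_mem_maximalIdeal_pow g n (hσ _)

/-- The inertia group `G_0`. -/
def inertiaGp : Subgroup G := ramGp G B 1

/-- The wild inertia group `G_1`. -/
def wildGp : Subgroup G := ramGp G B 2

instance : (inertiaGp G B).Normal := inferInstanceAs (ramGp G B 1).Normal
instance : (wildGp G B).Normal := inferInstanceAs (ramGp G B 2).Normal

variable {G B}

theorem mem_inertiaGp {σ : G} : σ ∈ inertiaGp G B ↔ ∀ b : B, σ • b - b ∈ maximalIdeal B := by
  unfold inertiaGp ramGp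
  simp only [pow_one]
  rfl

theorem mem_wildGp {σ : G} : σ ∈ wildGp G B ↔ ∀ b : B, σ • b - b ∈ maximalIdeal B ^ 2 := Iff.rfl

theorem wildGp_le_inertiaGp : wildGp G B ≤ inertiaGp G B := by
  intro σ hσ
  rw [mem_inertiaGp]
  intro b
  exact Ideal.pow_le_self two_ne_zero (hσ b)

theorem residue_smul_of_mem_inertiaGp {σ : G} (hσ : σ ∈ inertiaGp G B) (b : B) :
    residue B (σ • b) = residue B b := by
  rw [← sub_eq_zero, ← map_sub, residue_eq_zero_iff]
  exact mem_inertiaGp.1 hσ b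

end Action

/-! ### The character `θ : G_0 → κˣ` -/

section Theta

variable {G B : Type*} [CommRing B] [IsDomain B] [IsDiscreteValuationRing B]
  [Group G] [MulSemiringAction G B]

theorem mem_maximalIdeal_of_irreducible {ϖ : B} (hϖ : Irreducible ϖ) : ϖ ∈ maximalIdeal B := by
  rw [mem_maximalIdeal, mem_nonunits_iff]
  exact hϖ.not_isUnit

theorem dvd_smul_of_irreducible {ϖ : B} (hϖ : Irreducible ϖ) (σ : G) : ϖ ∣ σ • ϖ := by
  have h := smul_mem_maximalIdeal σ (mem_maximalIdeal_of_irreducible hϖ)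
  rw [hϖ.maximalIdeal_eq, Ideal.mem_span_singleton] at h
  exact h

open Classical in
/-- `σ ϖ / ϖ`. -/
noncomputable def ratio (ϖ : B) (σ : G) : B :=
  if h : ϖ ∣ σ • ϖ then h.choose else 0

theorem smul_eq_mul_ratio {ϖ : B} (hϖ : Irreducible ϖ) (σ : G) : σ • ϖ = ϖ * ratio ϖ σ := by
  unfold ratio
  rw [dif_pos (dvd_smul_of_irreducible hϖ σ)]
  exact (dvd_smul_of_irreducible hϖ σ).choose_spec

theorem ratio_one {ϖ : B} (hϖ : Irreducible ϖ) : ratio ϖ (1 : G) = 1 := by
  have h := smul_eq_mul_ratio hϖ (1 : G)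
  rw [one_smul] at h
  exact (mul_left_cancel₀ hϖ.ne_zero (by rw [mul_one]; exact h)).symm

theorem ratio_mul {ϖ : B} (hϖ : Irreducible ϖ) (σ τ : G) :
    ratio ϖ (σ * τ) = ratio ϖ σ * σ • ratio ϖ τ := by
  apply mul_left_cancel₀ hϖ.ne_zero
  rw [← smul_eq_mul_ratio hϖ, mul_smul, smul_eq_mul_ratio hϖ τ, smul_mul', smul_eq_mul_ratio hϖ σ,
    mul_assoc]

/-- `θ` as a monoid homomorphism from the inertia group to the residue field. -/
noncomputable def thetaHom {ϖ : B} (hϖ : Irreducible ϖ) : inertiaGp G B →* ResidueField B where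
  toFun σ := residue B (ratio ϖ (σ : G))
  map_one' := by
    rw [Subgroup.coe_one, ratio_one hϖ, map_one]
  map_mul' σ τ := by
    rw [Subgroup.coe_mul, ratio_mul hϖ, map_mul, residue_smul_of_mem_inertiaGp σ.2]

theorem thetaHom_apply {ϖ : B} (hϖ : Irreducible ϖ) (σ : inertiaGp G B) :
    thetaHom hϖ σ = residue B (ratio ϖ (σ : G)) := rfl

/-- Elements of `G_1` are in the kernel of `θ`. -/
theorem thetaHom_eq_one_of_mem_wildGp {ϖ : B} (hϖ : Irreducible ϖ) (σ : inertiaGp G B)
    (h : (σ : G) ∈ wildGp G B) : thetaHom hϖ σ = 1 := by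
  rw [thetaHom_apply, ← map_one (residue B), ← sub_eq_zero, ← map_sub, residue_eq_zero_iff]
  have h1 := mem_wildGp.1 h ϖ
  rw [smul_eq_mul_ratio hϖ, hϖ.maximalIdeal_eq, Ideal.span_singleton_pow,
    Ideal.mem_span_singleton] at h1
  obtain ⟨t, ht⟩ := h1
  rw [hϖ.maximalIdeal_eq, Ideal.mem_span_singleton]
  refine ⟨t, ?_⟩
  apply mul_left_cancel₀ hϖ.ne_zero
  rw [mul_sub, mul_one, ht]
  ring

/-- an element of `G_0` in the kernel of `θ` moves elements of `𝔪` only modulo `𝔪²`. -/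
theorem smul_sub_mem_sq_of_mem {ϖ : B} (hϖ : Irreducible ϖ) (σ : inertiaGp G B)
    (h : thetaHom hϖ σ = 1) {b : B} (hb : b ∈ maximalIdeal B) :
    (σ : G) • b - b ∈ maximalIdeal B ^ 2 := by
  have hr : ratio ϖ (σ : G) - 1 ∈ maximalIdeal B := by
    rw [← residue_eq_zero_iff, map_sub, map_one, sub_eq_zero]
    exact h
  rw [hϖ.maximalIdeal_eq, Ideal.mem_span_singleton] at hb
  obtain ⟨c, rfl⟩ := hb
  have h1 : (σ : G) • (ϖ * c) - ϖ * c =
      ϖ * (((σ : G) • c - c) * ratio ϖ (σ : G) + c * (ratio ϖ (σ : G) - 1)) := by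
    rw [smul_mul', smul_eq_mul_ratio hϖ]; ring
  rw [h1, pow_two]
  refine Ideal.mul_mem_mul (mem_maximalIdeal_of_irreducible hϖ) (Ideal.add_mem _ ?_ ?_)
  · exact Ideal.mul_mem_right _ _ (mem_inertiaGp.1 σ.2 c)
  · exact Ideal.mul_mem_left _ _ hr

/-- **The kernel of `θ` is `G_1`** (finite residue field of characteristic `q`). -/
theorem mem_wildGp_of_thetaHom_eq_one [Finite (ResidueField B)] {q : ℕ} (hq : q.Prime)
    (hqB : (q : B) ∈ maximalIdeal B) {ϖ : B} (hϖ : Irreducible ϖ) (σ : inertiaGp G B)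
    (h : thetaHom hϖ σ = 1) : (σ : G) ∈ wildGp G B := by
  haveI : Fact q.Prime := ⟨hq⟩
  haveI : CharP (ResidueField B) q := by
    have h0 : ((q : ℕ) : ResidueField B) = 0 := by
      rw [← map_natCast (residue B), residue_eq_zero_iff]; exact hqB
    exact (CharP.charP_iff_prime_eq_zero hq).2 h0
  rw [mem_wildGp]
  intro b
  -- `b = c ^ q + m` with `m ∈ 𝔪`
  have hsurj : Function.Surjective (frobenius (ResidueField B) q) :=
    Finite.surjective_of_injective (frobenius_inj (ResidueField B) q)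
  obtain ⟨cbar, hc⟩ := hsurj (residue B b)
  obtain ⟨c, rfl⟩ := residue_surjective cbar
  have hm : b - c ^ q ∈ maximalIdeal B := by
    rw [← residue_eq_zero_iff, map_sub, map_pow, sub_eq_zero]
    exact hc.symm
  have h1 : (σ : G) • b - b =
      ((σ : G) • (b - c ^ q) - (b - c ^ q)) + (((σ : G) • c) ^ q - c ^ q) := by
    rw [smul_sub, smul_pow']; ring
  rw [h1]
  refine Ideal.add_mem _ (smul_sub_mem_sq_of_mem hϖ σ h hm) ?_
  -- `(σ c)^q - c^q = (σ c - c) * ∑ (σ c)^i c^(q-1-i)`, and the sum is `q c^(q-1) = 0` mod `𝔪`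
  have h2 : ((σ : G) • c) ^ q - c ^ q =
      (∑ i ∈ Finset.range q, ((σ : G) • c) ^ i * c ^ (q - 1 - i)) * ((σ : G) • c - c) :=
    ((Commute.all _ _).geom_sum₂_mul q).symm
  rw [h2, pow_two]
  refine Ideal.mul_mem_mul ?_ (mem_inertiaGp.1 σ.2 c)
  rw [← residue_eq_zero_iff, map_sum]
  have h3 : ∀ i ∈ Finset.range q,
      residue B (((σ : G) • c) ^ i * c ^ (q - 1 - i)) = residue B c ^ (q - 1) := by
    intro i hi
    rw [map_mul, map_pow, map_pow, residue_smul_of_mem_inertiaGp σ.2, ← pow_add]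
    congr 1
    have := Finset.mem_range.1 hi
    omega
  rw [Finset.sum_congr rfl h3, Finset.sum_const, Finset.card_range, nsmul_eq_mul,
    CharP.cast_eq_zero, zero_mul]

theorem thetaHom_eq_one_iff [Finite (ResidueField B)] {q : ℕ} (hq : q.Prime)
    (hqB : (q : B) ∈ maximalIdeal B) {ϖ : B} (hϖ : Irreducible ϖ) (σ : inertiaGp G B) :
    thetaHom hϖ σ = 1 ↔ (σ : G) ∈ wildGp G B :=
  ⟨mem_wildGp_of_thetaHom_eq_one hq hqB hϖ σ, thetaHom_eq_one_of_mem_wildGp hϖ σ⟩

/-- **`G_0 = ⟨τ⟩ G_1`.** -/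
theorem exists_generator [Finite G] [Finite (ResidueField B)] {q : ℕ} (hq : q.Prime)
    (hqB : (q : B) ∈ maximalIdeal B) :
    ∃ τ ∈ inertiaGp G B, ∀ h ∈ inertiaGp G B, ∃ n : ℕ, ∃ u ∈ wildGp G B, h = τ ^ n * u := by
  obtain ⟨ϖ, hϖ⟩ := IsDiscreteValuationRing.exists_irreducible B
  obtain ⟨τ, hτ⟩ := exists_gen_mod_ker (thetaHom (G := G) hϖ)
  refine ⟨τ, τ.2, fun h hh => ?_⟩
  obtain ⟨n, hn⟩ := hτ ⟨h, hh⟩
  refine ⟨n, ((τ : G) ^ n)⁻¹ * h, ?_, by group⟩
  have hmem : (τ ^ n)⁻¹ * ⟨h, hh⟩ ∈ (⊤ : Subgroup (inertiaGp G B)) := trivial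
  have h1 : thetaHom hϖ ((τ ^ n)⁻¹ * ⟨h, hh⟩) = 1 := by
    have hu : thetaHom hϖ (τ ^ n) * thetaHom hϖ ((τ ^ n)⁻¹ * ⟨h, hh⟩) = thetaHom hϖ (τ ^ n) * 1 := by
      rw [← map_mul, mul_inv_cancel_left, mul_one, map_pow, hn]
    have hne : thetaHom hϖ (τ ^ n) ≠ 0 := by
      intro h0
      have : thetaHom hϖ (τ ^ n) * thetaHom hϖ (τ ^ n)⁻¹ = 1 := by
        rw [← map_mul, mul_inv_cancel, map_one]
      rw [h0, zero_mul] at this
      exact zero_ne_one this
    exact mul_left_cancel₀ hne hu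
  have := mem_wildGp_of_thetaHom_eq_one hq hqB hϖ _ h1
  simpa using this

end Theta

/-! ### `G_1` is a `q`-group -/

section PGroup

variable {G B : Type*} [CommRing B] [IsDomain B] [IsDiscreteValuationRing B]
  [Group G] [MulSemiringAction G B]

omit [IsDomain B] [IsDiscreteValuationRing B] in
theorem toRingHom_iterate (σ : G) (m : ℕ) (b : B) :
    ((MulSemiringAction.toRingHom G B σ)^[m]) b = (σ ^ m) • b := by
  induction m with
  | zero => simp
  | succ m ih =>
    rw [Function.iterate_succ_apply', ih, pow_succ', mul_smul]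
    rfl

/-- `G_1` has no torsion of order prime to the residue characteristic. -/
theorem eq_one_of_mem_wildGp_of_pow_eq_one [FaithfulSMul G B] {q m : ℕ}
    (hqB : (q : B) ∈ maximalIdeal B) (hc : Nat.Coprime m q) {σ : G} (hσ : σ ∈ wildGp G B)
    (hpow : σ ^ m = 1) : σ = 1 := by
  apply FaithfulSMul.eq_of_smul_eq_smul (α := B)
  intro b
  rw [one_smul]
  exact Fermat.Agent.Lib.Ram.TameCriterion.eq_self_of_iterate_eq
    (MulSemiringAction.toRingHom G B σ) (fun b => mem_wildGp.1 hσ b)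
    (Fermat.Agent.Lib.Ram.TameCriterion.isUnit_natCast_of_coprime hqB hc)
    (fun b => by rw [toRingHom_iterate, hpow, one_smul]) b

/-- **`G_1` is a `q`-group.** -/
theorem isPGroup_wildGp [Finite G] [FaithfulSMul G B] {q : ℕ} (hq : q.Prime)
    (hqB : (q : B) ∈ maximalIdeal B) : IsPGroup q (wildGp G B) := by
  intro σ
  have hpos : 0 < orderOf (σ : G) := orderOf_pos _
  obtain ⟨k, m, hm, hkm⟩ := Nat.exists_eq_pow_mul_and_not_dvd hpos.ne' q hq.ne_one
  refine ⟨k, ?_⟩
  have h1 : ((σ : G) ^ (q ^ k)) ^ m = 1 := by rw [← pow_mul, ← hkm, pow_orderOf_eq_one]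
  have hc : Nat.Coprime m q := ((Nat.Prime.coprime_iff_not_dvd hq).2 hm).symm
  have := eq_one_of_mem_wildGp_of_pow_eq_one hqB hc ((wildGp G B).pow_mem σ.2 _) h1
  exact Subtype.ext (by simpa using this)

/-- The order of a `q`-group is nonzero in a field where `q ≠ 0`. -/
theorem natCard_ne_zero_of_isPGroup {H : Type*} [Group H] [Finite H] {q : ℕ} (hq : q.Prime)
    (hH : IsPGroup q H) {k : Type*} [Field k] (hk : (q : k) ≠ 0) : (Nat.card H : k) ≠ 0 := by
  haveI : Fact q.Prime := ⟨hq⟩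
  obtain ⟨n, hn⟩ := hH.exists_card_eq
  rw [hn, Nat.cast_pow]
  exact pow_ne_zero _ hk

end PGroup

/-! ### Frobenius -/

section Frob

variable {A B G : Type*} [CommRing A] [CommRing B] [IsDomain B] [IsDiscreteValuationRing B]
  [Algebra A B] [Group G] [MulSemiringAction G B] [SMulCommClass G A B]

theorem map_toAlgEquiv_maximalIdeal (g : G) :
    maximalIdeal B = (maximalIdeal B).map (MulSemiringAction.toAlgEquiv A B g) := by
  apply le_antisymm
  · intro x hx
    have h1 : g⁻¹ • x ∈ maximalIdeal B := smul_mem_maximalIdeal g⁻¹ hx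
    have h2 := Ideal.mem_map_of_mem (MulSemiringAction.toAlgEquiv A B g) h1
    simpa using h2
  · rw [Ideal.map_le_iff_le_comap]
    intro x hx
    exact smul_mem_maximalIdeal g hx

variable (A) in
theorem exists_frob [Finite G] [Algebra.IsInvariant A B G] [Finite (ResidueField B)] :
    ∃ φ : G, IsArithFrobAt A φ (maximalIdeal B) := by
  haveI : Finite (B ⧸ maximalIdeal B) := ‹Finite (ResidueField B)›
  exact IsArithFrobAt.exists_of_isInvariant A G (maximalIdeal B)

theorem frob_smul_sub_pow_mem {φ : G} (hφ : IsArithFrobAt A φ (maximalIdeal B)) (b : B) :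
    φ • b - b ^ Nat.card (A ⧸ (maximalIdeal B).under A) ∈ maximalIdeal B := hφ b

attribute [local instance] Ideal.Quotient.field in
/-- **`G = ⟨φ⟩ G_0`** for an arithmetic Frobenius `φ`. -/
theorem exists_frob_pow_mul [Finite G] [Algebra.IsInvariant A B G] [Finite (ResidueField B)]
    {φ : G} (hφ : IsArithFrobAt A φ (maximalIdeal B)) (g : G) :
    ∃ n : ℕ, ∃ h ∈ inertiaGp G B, g = φ ^ n * h := by
  classical
  haveI : Algebra.IsIntegral A B := Algebra.IsInvariant.isIntegral A B G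
  haveI hPmax : (maximalIdeal B).IsMaximal := maximalIdeal.isMaximal B
  haveI : ((maximalIdeal B).under A).IsMaximal := Ideal.IsMaximal.under A (maximalIdeal B)
  haveI : Finite (B ⧸ maximalIdeal B) := ‹Finite (ResidueField B)›
  haveI : Finite (A ⧸ (maximalIdeal B).under A) :=
    Finite.of_injective (algebraMap (A ⧸ (maximalIdeal B).under A) (B ⧸ maximalIdeal B))
      (RingHom.injective _)
  letI : Fintype (A ⧸ (maximalIdeal B).under A) := Fintype.ofFinite _
  -- the induced automorphisms of the residue field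
  let bar : G → ((B ⧸ maximalIdeal B) ≃ₐ[A ⧸ (maximalIdeal B).under A] (B ⧸ maximalIdeal B)) :=
    fun g => Ideal.Quotient.algEquivOfEqMap ((maximalIdeal B).under A)
      (MulSemiringAction.toAlgEquiv A B g) (map_toAlgEquiv_maximalIdeal g)
  have hbar : ∀ (g : G) (b : B), bar g (Ideal.Quotient.mk _ b) = Ideal.Quotient.mk _ (g • b) :=
    fun g b => rfl
  have hbar_mul : ∀ g h : G, bar (g * h) = bar g * bar h := by
    intro g h
    ext x
    obtain ⟨b, rfl⟩ := Ideal.Quotient.mk_surjective x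
    rw [AlgEquiv.mul_apply, hbar, hbar, hbar, mul_smul]
  have hbar_pow : ∀ (g : G) (n : ℕ), bar (g ^ n) = bar g ^ n := by
    intro g n
    induction n with
    | zero =>
      ext x
      obtain ⟨b, rfl⟩ := Ideal.Quotient.mk_surjective x
      rw [pow_zero, pow_zero, hbar, one_smul, AlgEquiv.one_apply]
    | succ n ih => rw [pow_succ, pow_succ, hbar_mul, ih]
  have hbarφ : bar φ = FiniteField.frobeniusAlgEquivOfAlgebraic (A ⧸ (maximalIdeal B).under A)
      (B ⧸ maximalIdeal B) := by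
    ext x
    obtain ⟨b, rfl⟩ := Ideal.Quotient.mk_surjective x
    rw [hbar, FiniteField.coe_frobeniusAlgEquivOfAlgebraic]
    have h := hφ.mk_apply b
    rw [Nat.card_eq_fintype_card] at h
    exact h
  obtain ⟨n, hn⟩ := (FiniteField.bijective_frobeniusAlgEquivOfAlgebraic_pow
    (A ⧸ (maximalIdeal B).under A) (B ⧸ maximalIdeal B)).2 (bar g)
  simp only at hn
  refine ⟨n.1, (φ ^ n.1)⁻¹ * g, ?_, by group⟩
  rw [mem_inertiaGp]
  intro b
  have h1 : bar (φ ^ n.1) (Ideal.Quotient.mk _ (((φ ^ n.1)⁻¹ * g) • b)) =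
      bar (φ ^ n.1) (Ideal.Quotient.mk _ b) := by
    rw [hbar, ← mul_smul, mul_inv_cancel_left, hbar_pow, hbarφ, hn, hbar]
  have h2 := (bar (φ ^ n.1)).injective h1
  exact Ideal.Quotient.eq.1 h2

end Frob

/-! ### Conjugation and the Frobenius relation -/

section Conj

variable {G B : Type*} [CommRing B] [IsDomain B] [IsDiscreteValuationRing B]
  [Group G] [MulSemiringAction G B]

/-- `θ(g σ g⁻¹) = ḡ(θ σ)`. -/
theorem residue_ratio_conj {ϖ : B} (hϖ : Irreducible ϖ) {σ : G} (hσ : σ ∈ inertiaGp G B)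
    (g : G) : residue B (ratio ϖ (g * σ * g⁻¹)) = residue B (g • ratio ϖ σ) := by
  have h1 : ratio ϖ (g * σ * g⁻¹) = ratio ϖ g * g • ratio ϖ σ * (g * σ) • ratio ϖ g⁻¹ := by
    rw [ratio_mul hϖ, ratio_mul hϖ]
  have h2 : ratio ϖ g * g • ratio ϖ g⁻¹ = 1 := by
    rw [← ratio_mul hϖ, mul_inv_cancel, ratio_one hϖ]
  have h3 : residue B ((g * σ) • ratio ϖ g⁻¹) = residue B (g • ratio ϖ g⁻¹) := by
    rw [← sub_eq_zero, ← map_sub, residue_eq_zero_iff, mul_smul, ← smul_sub]
    exact smul_mem_maximalIdeal g (mem_inertiaGp.1 hσ _)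
  rw [h1, map_mul, map_mul, h3, mul_right_comm, ← map_mul, h2, map_one, one_mul]

theorem thetaHom_ne_zero {ϖ : B} (hϖ : Irreducible ϖ) (x : inertiaGp G B) :
    thetaHom hϖ x ≠ 0 := by
  intro h0
  have : thetaHom hϖ x * thetaHom hϖ x⁻¹ = 1 := by
    rw [← map_mul, mul_inv_cancel, map_one]
  rw [h0, zero_mul] at this
  exact zero_ne_one this

theorem thetaHom_inv_mul_eq_one {ϖ : B} (hϖ : Irreducible ϖ) (x y : inertiaGp G B)
    (h : thetaHom hϖ x = thetaHom hϖ y) : thetaHom hϖ (x⁻¹ * y) = 1 := by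
  have hu : thetaHom hϖ x * thetaHom hϖ (x⁻¹ * y) = thetaHom hϖ x * 1 := by
    rw [← map_mul, mul_inv_cancel_left, mul_one, h]
  exact mul_left_cancel₀ (thetaHom_ne_zero hϖ x) hu

/-- **`φ τ φ⁻¹ ∈ τ^N G_1`** for `φ` acting as `x ↦ x^N` on the residue field. -/
theorem frob_conj [Finite (ResidueField B)] {q : ℕ} (hq : q.Prime)
    (hqB : (q : B) ∈ maximalIdeal B) {N : ℕ} {φ : G}
    (hφ : ∀ b : B, φ • b - b ^ N ∈ maximalIdeal B) {τ : G} (hτ : τ ∈ inertiaGp G B) :
    ∃ u ∈ wildGp G B, φ * τ * φ⁻¹ = τ ^ N * u := by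
  obtain ⟨ϖ, hϖ⟩ := IsDiscreteValuationRing.exists_irreducible B
  have hconj : φ * τ * φ⁻¹ ∈ inertiaGp G B :=
    (inferInstance : (inertiaGp G B).Normal).conj_mem τ hτ φ
  refine ⟨(τ ^ N)⁻¹ * (φ * τ * φ⁻¹), ?_, by group⟩
  have key : thetaHom hϖ ((⟨τ, hτ⟩ : inertiaGp G B) ^ N) = thetaHom hϖ ⟨φ * τ * φ⁻¹, hconj⟩ := by
    rw [map_pow, thetaHom_apply, thetaHom_apply]
    change residue B (ratio ϖ τ) ^ N = residue B (ratio ϖ (φ * τ * φ⁻¹))
    rw [residue_ratio_conj hϖ hτ φ, ← map_pow, eq_comm, ← sub_eq_zero, ← map_sub,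
      residue_eq_zero_iff]
    exact hφ _
  have h1 := thetaHom_inv_mul_eq_one hϖ _ _ key
  exact mem_wildGp_of_thetaHom_eq_one hq hqB hϖ _ h1

end Conj

/-! ### Packaging -/

/-- **The tame structure of a finite group acting on a DVR with finite residue field of
characteristic `q`, with invariants `A` of residue cardinality `q`.** -/
theorem exists_tame_core {A B G : Type*} [CommRing A] [CommRing B] [IsDomain B]
    [IsDiscreteValuationRing B] [Algebra A B] [Group G] [Finite G] [MulSemiringAction G B]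
    [SMulCommClass G A B] [Algebra.IsInvariant A B G] [FaithfulSMul G B]
    [Finite (ResidueField B)] {q : ℕ} (hq : q.Prime) (hqB : (q : B) ∈ maximalIdeal B)
    (hN : Nat.card (A ⧸ (maximalIdeal B).under A) = q) :
    ∃ (I P : Subgroup G) (τ φ : G), I.Normal ∧ P.Normal ∧ P ≤ I ∧ IsPGroup q P ∧ τ ∈ I ∧
      (∀ h ∈ I, ∃ n : ℕ, ∃ u ∈ P, h = τ ^ n * u) ∧
      (∀ g : G, ∃ n : ℕ, ∃ h ∈ I, g = φ ^ n * h) ∧
      (∃ u ∈ P, φ * τ * φ⁻¹ = τ ^ q * u) ∧
      (∀ σ ∈ I, ∀ b : B, σ • b - b ∈ maximalIdeal B) ∧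
      (∀ b : B, φ • b - b ^ q ∈ maximalIdeal B) := by
  obtain ⟨φ, hφ⟩ := exists_frob A (G := G) (B := B)
  obtain ⟨τ, hτ, hgen⟩ := exists_generator (G := G) (B := B) hq hqB
  have hφ' : ∀ b : B, φ • b - b ^ q ∈ maximalIdeal B := by
    intro b
    have := hφ b
    rwa [hN] at this
  exact ⟨inertiaGp G B, wildGp G B, τ, φ, inferInstance, inferInstance, wildGp_le_inertiaGp,
    isPGroup_wildGp hq hqB, hτ, hgen, exists_frob_pow_mul hφ, frob_conj hq hqB hφ' hτ,
    fun σ hσ => mem_inertiaGp.1 hσ, hφ'⟩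

/-- Roots of unity of order prime to the residue characteristic are distinct modulo `𝔪`. -/
theorem eq_of_pow_eq_one_of_sub_mem {B : Type*} [CommRing B] [IsDomain B] [IsLocalRing B]
    {m : ℕ} (hm : (m : B) ∉ maximalIdeal B) {x y : B} (hx : x ^ m = 1) (hy : y ^ m = 1)
    (hxy : x - y ∈ maximalIdeal B) : x = y := by
  have hm0 : m ≠ 0 := by
    rintro rfl
    exact hm (by simp)
  -- `η = x * y^(m-1)`
  have hyinv : y * y ^ (m - 1) = 1 := by
    rw [← pow_succ', Nat.sub_add_cancel (Nat.pos_of_ne_zero hm0), hy]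
  set η := x * y ^ (m - 1) with hη
  have hηm : η ^ m = 1 := by
    rw [hη, mul_pow, hx, one_mul, ← pow_mul, mul_comm, pow_mul, hy, one_pow]
  have hη1 : η - 1 ∈ maximalIdeal B := by
    have : η - 1 = (x - y) * y ^ (m - 1) := by
      rw [sub_mul, hyinv]
    rw [this]
    exact Ideal.mul_mem_right _ _ hxy
  by_cases h1 : η = 1
  · have : x = x * (y * y ^ (m - 1)) := by rw [hyinv, mul_one]
    rw [this, mul_left_comm, ← hη, h1, mul_one]
  · exfalso
    have hsum : (∑ i ∈ Finset.range m, η ^ i) = 0 := by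
      have h := geom_sum_mul η m
      rw [hηm, sub_self] at h
      rcases mul_eq_zero.1 h with h | h
      · exact h
      · exact absurd (sub_eq_zero.1 h) h1
    apply hm
    have hres : residue B η = 1 := by
      rw [← sub_eq_zero, ← map_one (residue B), ← map_sub, residue_eq_zero_iff]
      exact hη1
    rw [← residue_eq_zero_iff, map_natCast]
    have := congrArg (residue B) hsum
    rw [map_sum, map_zero] at this
    simpa [map_pow, hres] using this

end Fermat.Agent.S56x.Local.TameDataAbs
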