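/-
P-S56, block (B) tame leaf (T-inst) (helper74): the three missing hypotheses of
`TameDataAbs.exists_tame_core` at the concrete instance
`A = ℤ_[q]`, `B = OE q E`, `G = E ≃ₐ[ℚ_[q]] E` for `E / ℚ_[q]` a finite Galois subextension of
`PadicAlgCl q` (on top of helper83's `S56x/Local/PadicFinite`):

* `smulCommClass_OE : SMulCommClass (E ≃ₐ[ℚ_[q]] E) ℤ_[q] (OE q E)`  (no finiteness needed);
* `isInvariant_OE : Algebra.IsInvariant ℤ_[q] (OE q E) (E ≃ₐ[ℚ_[q]] E)`  (finite Galois);
* `under_maximalIdeal_OE : (maximalIdeal (OE q E)).under ℤ_[q] = maximalIdeal ℤ_[q]`;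
* `card_quot_under : Nat.card (ℤ_[q] ⧸ (maximalIdeal (OE q E)).under ℤ_[q]) = q`.
-/
import Mathlib
import Fermat.Agent.S56x.Local.PadicFinite

set_option autoImplicit false
set_option linter.unusedSectionVars false

open IsLocalRing

namespace Fermat.Agent.S56x.Local.TameDataInst

open Fermat.Agent.S56x.Local.PadicFinite

variable {q : ℕ} [Fact q.Prime] {E : IntermediateField ℚ_[q] (PadicAlgCl q)}

/-- the Galois action on `O_E` fixes the image of `ℤ_[q]`. -/
theorem smul_algebraMap_OE (σ : E ≃ₐ[ℚ_[q]] E) (a : ℤ_[q]) :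
    σ • (algebraMap ℤ_[q] (OE q E) a) = algebraMap ℤ_[q] (OE q E) a := by
  apply Subtype.ext
  rw [coe_smul_OE, coe_algebraMap_OE, AlgEquiv.commutes]

/-- the Galois action on `O_E` is `ℤ_[q]`-linear. -/
instance smulCommClass_OE : SMulCommClass (E ≃ₐ[ℚ_[q]] E) ℤ_[q] (OE q E) where
  smul_comm σ a x := by
    rw [Algebra.smul_def, Algebra.smul_def, smul_mul', smul_algebraMap_OE]

/-- the same, in the other order. -/
instance smulCommClass_OE' : SMulCommClass ℤ_[q] (E ≃ₐ[ℚ_[q]] E) (OE q E) :=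
  SMulCommClass.symm _ _ _

/-- **Galois invariants**: for `E / ℚ_[q]` finite Galois, `O_E ^ G = ℤ_[q]`. -/
instance isInvariant_OE [FiniteDimensional ℚ_[q] E] [Normal ℚ_[q] E] :
    Algebra.IsInvariant ℤ_[q] (OE q E) (E ≃ₐ[ℚ_[q]] E) where
  isInvariant x hx := by
    obtain ⟨a, ha⟩ := (fixed_iff_mem_range x).mp hx
    exact ⟨a, ha⟩

/-- the maximal ideal of `O_E` lies over the maximal ideal of `ℤ_[q]`. -/
theorem under_maximalIdeal_OE [FiniteDimensional ℚ_[q] E] :
    (maximalIdeal (OE q E)).under ℤ_[q] = maximalIdeal ℤ_[q] :=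
  IsLocalRing.maximalIdeal_comap (algebraMap ℤ_[q] (OE q E))

/-- the residue field of `ℤ_[q]` has `q` elements. -/
theorem card_quot_maximalIdeal_padicInt : Nat.card (ℤ_[q] ⧸ maximalIdeal ℤ_[q]) = q := by
  have e : (ℤ_[q] ⧸ maximalIdeal ℤ_[q]) ≃ ZMod q := (PadicInt.residueField (p := q)).toEquiv
  rw [Nat.card_congr e, Nat.card_eq_fintype_card, ZMod.card]

/-- **residue cardinality**: the prime of `ℤ_[q]` under the maximal ideal of `O_E` has residue
field with `q` elements. -/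
theorem card_quot_under [FiniteDimensional ℚ_[q] E] :
    Nat.card (ℤ_[q] ⧸ (maximalIdeal (OE q E)).under ℤ_[q]) = q := by
  rw [under_maximalIdeal_OE]
  exact card_quot_maximalIdeal_padicInt

end Fermat.Agent.S56x.Local.TameDataInst
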