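import Fermat.Agent.S56x.Local.TameDataLocal
import Fermat.Agent.S56x.Local.TameCycloFinite
import Fermat.Agent.S56x.Local.TameDataAbs
import Fermat.Agent.S56x.Local.TameDataInst

/-!
# P-S56 block (B), local line: input (T) assembled

For `q ≠ p`, every finite quotient `G_q ⧸ U` of the local Galois group at `q` by a normal level
`U` on which the mod `p` cyclotomic character is trivial carries tame data (`TameData` of
`TameH1Bound`) with respect to the descended cyclotomic character.

Assembly of: `TameDataAbs.exists_tame_core` (helper96), `TameDataInst` (helper74),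
`PadicFinite` (helper83), `TameCycloFinite` and `TameDataLocal` (helper88).
-/

set_option autoImplicit false
set_option linter.style.haveILetI false

open IsLocalRing

namespace Fermat.Agent.S56x.Local.TameDataFinal

open Fermat.Agent.S56x.Local.PadicFinite Fermat.Agent.S56x.Local.TameDataInst
open Fermat.Agent.S56x.Local.TameDataAbs Fermat.Agent.S56x.Local.TameH1
open Fermat.Agent.S56x.Local.TameDataLocal Fermat.Agent.S56x.Local.TameCycloFinite
open Fermat.Agent.Lib.CFT.Duality Fermat.Agent.Lib.CFT.Duality.LocalTate ExtCitation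

section Core

variable (p : ℕ) [Fact p.Prime] (q : ℕ) [Fact q.Prime]

/-- **the finite-level core**: tame data for `Gal(E/ℚ_[q])`, `E` finite Galois containing a
primitive `p`-th root of unity, `p ≠ q`, with a character acting cyclotomically on `μ_p(E)`. -/
theorem nonempty_tameData_finite (hpq : p ≠ q) (E : IntermediateField ℚ_[q] (PadicAlgCl q))
    [FiniteDimensional ℚ_[q] E] [IsGalois ℚ_[q] E] (χE : (E ≃ₐ[ℚ_[q]] E) →* (ZMod p)ˣ)
    (hprim : ∃ ζ : E, IsPrimitiveRoot ζ p)
    (hspec : ∀ (σ : E ≃ₐ[ℚ_[q]] E) (ζ : E), ζ ^ p = 1 → σ ζ = ζ ^ ((χE σ : ZMod p)).val) :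
    Nonempty (TameData (E ≃ₐ[ℚ_[q]] E) (ZMod p) χE q) := by
  have hq : q.Prime := Fact.out
  have hp : p.Prime := Fact.out
  obtain ⟨ζ, hζ⟩ := hprim
  obtain ⟨I, P, τ, φ, hI, hP, hPI, hPq, hτ, hgenI, hgenΓ, hconj, hinert, hfrob⟩ :=
    exists_tame_core (A := ℤ_[q]) (B := OE q E) (G := E ≃ₐ[ℚ_[q]] E) hq
      natCast_p_mem_maximalIdeal card_quot_under
  refine ⟨{
    I := I
    P := P
    I_normal := hI
    P_normal := hP
    P_le := hPI
    card_P := ?_
    τ := τ
    φ := φ
    τ_mem := hτ
    gen_I := hgenI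
    gen_Γ := hgenΓ
    conj := hconj
    χ_I := fun h hh => chi_eq_one_of_inert hpq hζ χE hspec h (hinert h hh)
    χ_φ := chi_eq_of_frob hpq hζ χE hspec φ q hfrob }⟩
  -- `#P` is a power of `q`, hence invertible in `ZMod p`
  obtain ⟨n, hn⟩ := (IsPGroup.iff_card.mp hPq)
  rw [hn, Nat.cast_pow]
  apply pow_ne_zero
  intro h0
  rw [ZMod.natCast_eq_zero_iff] at h0
  exact hpq ((Nat.prime_dvd_prime_iff_eq hp hq).mp h0)

end Core

section Final

variable (p : ℕ) [Fact p.Prime] (q : Nat.Primes)

/-- **(T)**: tame data for the finite quotients of the local Galois group at `q ≠ p`, for any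
character of the quotient lifting to the local mod `p` cyclotomic character. -/
theorem nonempty_tameData (hpq : p ≠ (q : ℕ))
    (U : Subgroup (primeLocalGaloisGroup q)) (hU : U ∈ (primeLocalLevels q).levels)
    [hn : U.Normal] (χ' : primeLocalGaloisGroup q ⧸ U →* (ZMod p)ˣ)
    (hχ' : χ'.comp (QuotientGroup.mk' U) = localCycloChar p q) :
    Nonempty (TameData (primeLocalGaloisGroup q ⧸ U) (ZMod p) χ' q) := by
  haveI : Fact (q : ℕ).Prime := ⟨q.2⟩
  refine nonempty_tameData_quot p q ?_ U hU χ' hχ'
  intro E _ _ χE hprim hspec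
  exact nonempty_tameData_finite p (q : ℕ) hpq E χE hprim hspec

/-- the same with the canonical descended character `QuotientGroup.lift`. -/
theorem nonempty_tameData_lift (hpq : p ≠ (q : ℕ))
    (U : Subgroup (primeLocalGaloisGroup q)) (hU : U ∈ (primeLocalLevels q).levels)
    [hn : U.Normal] (hχ : ∀ s ∈ U, localCycloChar p q s = 1) :
    Nonempty (TameData (primeLocalGaloisGroup q ⧸ U) (ZMod p)
      (QuotientGroup.lift U (localCycloChar p q) (fun s hs => hχ s hs)) q) :=
  nonempty_tameData p q hpq U hU _ (by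
    ext s
    rfl)

end Final

end Fermat.Agent.S56x.Local.TameDataFinal
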