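import Fermat.Agent.S56x.Local.EulerTame
import Fermat.Agent.S56x.Local.TameDataFinal
import Fermat.Agent.S56x.Local.FrobDataLocal
import Fermat.Agent.S56x.Local.TameCyclo

/-!
# P-S56 block (B), local line (L1): the tame local Euler characteristic formula, UNCONDITIONAL

`localEuler_ne (B : ∀ q, LocalBase p q)` : the field `localEuler_ne` of `GWPackage` / `GWRest`
(verbatim), for any family `B` of inputs of local Tate duality (e.g. `localBaseStd hp2`), with the
two arithmetic inputs of `Local/EulerTame.localEuler_ne_of` discharged: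

* `tameHyp` : (T) = `Local/TameDataFinal.nonempty_tameData` (helper88, helper96, helper74,
  helper83, helper8);
* `exists_frobData_cyclo` : the `FrobData` of `G_q` (`Local/FrobDataLocal`, helper42) whose
  inertia acts trivially on `μ_p` for `q ≠ p` (`Local/TameCyclo`, helper8; same argument as in
  helper92's `Local/UnramFinal`, repeated here to keep the import closure small).

Also: `finrank_continuousH1_eq'`, the formula for any finite discrete `𝔽_p[G_q]`-module, and
`mem_unrLevel_of_orthogonal'`.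
-/

set_option autoImplicit false
set_option linter.style.haveILetI false
set_option linter.unusedSectionVars false

open CategoryTheory groupCohomology Module ExtCitation

namespace Fermat.Agent.S56x.Local.EulerTameFinal

open Fermat.Agent.Lib.CFT.Profinite Fermat.Agent.Lib.CFT.Profinite.LevelFamily
open Fermat.Agent.Lib.CFT.Duality Fermat.Agent.Lib.CFT.Duality.LocalTate
open Fermat.Agent.S56x.Local.EulerTameUpper Fermat.Agent.S56x.Local.UnramAbstract
open Fermat.Agent.S56x.Local.EulerTame Fermat.Agent.S56x.Local.FrobDataLocal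
open Fermat.Agent.S56x.Local.TameDataFinal Fermat.Agent.S56x.GW

local notation "Γℚ" => (AlgebraicClosure ℚ ≃ₐ[ℚ] AlgebraicClosure ℚ)

variable {p : ℕ} [Fact p.Prime]

theorem ne_coe_of_ne_pPrime {q : Nat.Primes} (hq : q ≠ pPrime p) : p ≠ (q : ℕ) := by
  intro h
  exact hq (Subtype.ext h.symm)

/-- **(T)** for every prime `q ≠ p`. -/
theorem tameHyp (q : Nat.Primes) (hq : q ≠ pPrime p) : TameHyp p q := by
  intro U hU hUn _ χ' hχ'
  haveI := hUn
  exact nonempty_tameData p q (ne_coe_of_ne_pPrime hq) U hU χ' hχ'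

/-- `p ∣ q ^ (p - 1) - 1` for primes `p ≠ q`. -/
theorem dvd_pow_pred_sub_one {p q : ℕ} (hp : p.Prime) (hq : q.Prime) (hqp : q ≠ p) :
    p ∣ q ^ (p - 1) - 1 := by
  have : Fact p.Prime := ⟨hp⟩
  have hq0 : (q : ZMod p) ≠ 0 := by
    intro h
    rw [ZMod.natCast_eq_zero_iff] at h
    exact hqp ((Nat.prime_dvd_prime_iff_eq hp hq).1 h).symm
  have h1 := ZMod.pow_card_sub_one_eq_one hq0
  rw [← ZMod.natCast_eq_zero_iff, Nat.cast_sub (Nat.one_le_pow _ _ hq.pos), Nat.cast_pow, h1,
    Nat.cast_one, sub_self]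

/-- The `FrobData` of `G_q`; for `q ≠ p` its inertia acts trivially on `μ_p`. -/
theorem exists_frobData_cyclo (q : Nat.Primes) (hq : q ≠ pPrime p) :
    ∃ D : FrobData (primeLocalLevels q), ∀ i ∈ D.I, localCycloChar p q i = 1 := by
  refine ⟨primeFrobData q, fun i hi => ?_⟩
  have : Fact (q : ℕ).Prime := ⟨q.2⟩
  have hp : p.Prime := Fact.out
  have hqp : (q : ℕ) ≠ p := (ne_coe_of_ne_pPrime hq).symm
  obtain ⟨ζ, hζ⟩ := TameCyclo.exists_primitiveRoot p (q : ℕ)
  have hfix := (mem_primeFrobData_I_iff q i).1 hi (p - 1) (Nat.sub_pos_of_lt hp.one_lt) ζ (by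
    obtain ⟨t, ht⟩ := dvd_pow_pred_sub_one hp q.2 hqp
    rw [ht, pow_mul, hζ.pow_eq_one, one_pow])
  exact TameCyclo.cycloChar_eq_one_of_apply_eq p (q : ℕ) hqp i hζ hfix

/-- **The tame local Euler characteristic formula**, unconditional form: for `q ≠ p` and a finite
discrete `𝔽_p[G_q]`-module `N`: `h¹(G_q, N) = h⁰(G_q, N) + h⁰(G_q, N^*(1))`. -/
theorem finrank_continuousH1_eq' {q : Nat.Primes} (hq : q ≠ pPrime p) (B : LocalBase p q)
    (N : Rep (ZMod p) (primeLocalGaloisGroup q)) [FiniteDimensional (ZMod p) N]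
    (hN : (primeLocalLevels q).IsDiscrete N) :
    finrank (ZMod p) (continuousH1 (primeLocalToGlobal q) N) =
      finrank (ZMod p) N.ρ.invariants +
        finrank (ZMod p) (N.dualTwist (localCycloChar p q)).ρ.invariants := by
  obtain ⟨D, hD⟩ := exists_frobData_cyclo (p := p) q hq
  exact finrank_continuousH1_eq B D hD N hN (tameHyp q hq)

/-- **The field `localEuler_ne` of `GWPackage` / `GWRest`**, verbatim, for any family of inputs of
local Tate duality. -/
theorem localEuler_ne (B : ∀ q : Nat.Primes, LocalBase p q) :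
    ∀ (S : Finset Nat.Primes) (M : Rep (ZMod p) Γℚ)
      [FiniteDimensional (ZMod p) M], IsGoodModule p S M → ∀ q : S, q.1 ≠ pPrime p →
      finrank (ZMod p) (locH1 S M (Sum.inr q)) =
        finrank (ZMod p) (locH0 S M (Sum.inr q)) +
          finrank (ZMod p) (locH0 S (tateDual p M) (Sum.inr q)) :=
  localEuler_ne_of B tameHyp exists_frobData_cyclo

end Fermat.Agent.S56x.Local.EulerTameFinal
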