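import Mathlib

/-!
# P-S56, block (A) (helper48): the abelian level field of a character

`Ω / F` Galois (possibly infinite), `Γ = Gal(Ω/F)`, `χ : Γ →* Y` a character with values in a
finite commutative group of order prime to `p`, trivial on the fixing subgroup of a finite
subextension `E₀`, and `ζ ∈ Ω` a primitive `p`-th root of unity.  Then
`L := fixedField {g | χ g = 1 ∧ g ζ = ζ}` is a finite Galois extension of `F` with

* `levelField_fixingSubgroup` : `L.fixingSubgroup = levelSubgroup χ ζ` (so `χ` is trivial on it);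
* `zeta_mem_levelField` : `ζ ∈ L`;
* `finiteDimensional_levelField`, `isGalois_levelField`;
* `levelField_comm` : `Gal(L/F)` is commutative;
* `not_dvd_card_levelField` : `p ∤ #Gal(L/F)`, `not_dvd_index_levelSubgroup` :
  `p ∤ [Γ : G_L]`, `not_dvd_finrank_levelField`.
-/

set_option autoImplicit false
set_option linter.unusedSectionVars false
set_option linter.style.haveILetI false

namespace Fermat.Agent.S56x.Local.AbelianLevel

open IntermediateField

variable {F Ω : Type*} [Field F] [Field Ω] [Algebra F Ω] [IsGalois F Ω]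
  {Y : Type*} [CommGroup Y] (χ : Gal(Ω/F) →* Y) (ζ : Ω)

/-- the subgroup `{g | χ g = 1 ∧ g ζ = ζ}`. -/
def levelSubgroup : Subgroup Gal(Ω/F) where
  carrier := {g | χ g = 1 ∧ g ζ = ζ}
  one_mem' := ⟨map_one χ, rfl⟩
  mul_mem' := by
    rintro g h ⟨hg1, hg2⟩ ⟨hh1, hh2⟩
    exact ⟨by rw [map_mul, hg1, hh1, one_mul], by rw [AlgEquiv.mul_apply, hh2, hg2]⟩
  inv_mem' := by
    rintro g ⟨hg1, hg2⟩
    refine ⟨by rw [map_inv, hg1, inv_one], ?_⟩
    have h : g⁻¹ (g ζ) = ζ := by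
      rw [← AlgEquiv.mul_apply, inv_mul_cancel, AlgEquiv.one_apply]
    rwa [hg2] at h

theorem mem_levelSubgroup {g : Gal(Ω/F)} : g ∈ levelSubgroup χ ζ ↔ χ g = 1 ∧ g ζ = ζ := Iff.rfl

/-- the level field. -/
def levelField : IntermediateField F Ω := fixedField (levelSubgroup χ ζ)

variable {χ ζ}

theorem zeta_mem_levelField : ζ ∈ levelField χ ζ := by
  rw [levelField, IntermediateField.mem_fixedField_iff]
  exact fun g hg => hg.2

section Open

variable {E₀ : IntermediateField F Ω} [FiniteDimensional F E₀]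
  (hχ : ∀ s ∈ E₀.fixingSubgroup, χ s = 1) {p : ℕ} (hζ : IsPrimitiveRoot ζ p) (hp0 : 0 < p)

include hζ hp0 in
theorem isAlgebraic_zeta : IsIntegral F ζ := by
  refine ⟨Polynomial.X ^ p - 1, Polynomial.monic_X_pow_sub_C 1 hp0.ne', ?_⟩
  simp [hζ.pow_eq_one]

include hχ in
/-- the fixing subgroup of `E₀ ⊔ F⟮ζ⟯` is contained in the level subgroup. -/
theorem fixingSubgroup_le : (E₀ ⊔ F⟮ζ⟯).fixingSubgroup ≤ levelSubgroup χ ζ := by
  intro s hs
  rw [IntermediateField.mem_fixingSubgroup_iff] at hs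
  refine ⟨hχ s ?_, hs ζ ?_⟩
  · rw [IntermediateField.mem_fixingSubgroup_iff]
    exact fun x hx => hs x ((le_sup_left : E₀ ≤ E₀ ⊔ F⟮ζ⟯) hx)
  · exact (le_sup_right : F⟮ζ⟯ ≤ E₀ ⊔ F⟮ζ⟯) (IntermediateField.mem_adjoin_simple_self F ζ)

include hχ hζ hp0 in
theorem finiteDimensional_sup : FiniteDimensional F ↥(E₀ ⊔ F⟮ζ⟯) := by
  haveI : FiniteDimensional F ↥F⟮ζ⟯ :=
    IntermediateField.adjoin.finiteDimensional (isAlgebraic_zeta hζ hp0)
  exact IntermediateField.finiteDimensional_sup E₀ F⟮ζ⟯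

include hχ hζ hp0 in
theorem isOpen_levelSubgroup : IsOpen (levelSubgroup χ ζ : Set Gal(Ω/F)) := by
  haveI := finiteDimensional_sup hχ hζ hp0
  exact Subgroup.isOpen_mono (fixingSubgroup_le hχ)
    (IntermediateField.fixingSubgroup_isOpen (E₀ ⊔ F⟮ζ⟯))

include hχ hζ hp0 in
/-- **`G_L` is the level subgroup.** -/
theorem levelField_fixingSubgroup : (levelField χ ζ).fixingSubgroup = levelSubgroup χ ζ :=
  InfiniteGalois.fixingSubgroup_fixedField
    ⟨levelSubgroup χ ζ, Subgroup.isClosed_of_isOpen _ (isOpen_levelSubgroup hχ hζ hp0)⟩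

include hχ hζ hp0 in
theorem levelField_le : levelField χ ζ ≤ E₀ ⊔ F⟮ζ⟯ := by
  rw [← InfiniteGalois.fixedField_fixingSubgroup (E₀ ⊔ F⟮ζ⟯), levelField]
  exact IntermediateField.fixedField_antitone (fixingSubgroup_le hχ)

include hχ hζ hp0 in
theorem finiteDimensional_levelField : FiniteDimensional F ↥(levelField χ ζ) := by
  haveI := finiteDimensional_sup hχ hζ hp0
  exact FiniteDimensional.of_injective
    (IntermediateField.inclusion (levelField_le hχ hζ hp0)).toLinearMap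
    (IntermediateField.inclusion_injective (levelField_le hχ hζ hp0))

include hχ hζ hp0 in
theorem chi_eq_one_of_mem {s : Gal(Ω/F)} (hs : s ∈ (levelField χ ζ).fixingSubgroup) :
    χ s = 1 := by
  rw [levelField_fixingSubgroup hχ hζ hp0] at hs
  exact hs.1

include hζ hp0 in
/-- every Galois conjugate of `ζ` is a power of `ζ`. -/
theorem exists_pow_eq (g : Gal(Ω/F)) : ∃ a : ℕ, g ζ = ζ ^ a := by
  haveI : NeZero p := ⟨hp0.ne'⟩
  have h1 : (g ζ) ^ p = 1 := by rw [← map_pow, hζ.pow_eq_one, map_one]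
  obtain ⟨a, -, ha⟩ := hζ.eq_pow_of_pow_eq_one h1
  exact ⟨a, ha.symm⟩

include hζ hp0 in
/-- the commutator of two elements lies in the level subgroup. -/
theorem comm_mem (g h : Gal(Ω/F)) : (h * g)⁻¹ * (g * h) ∈ levelSubgroup χ ζ := by
  refine ⟨by rw [map_mul, map_inv, map_mul, map_mul, mul_comm (χ h) (χ g), inv_mul_cancel], ?_⟩
  obtain ⟨a, ha⟩ := exists_pow_eq hζ hp0 g
  obtain ⟨b, hb⟩ := exists_pow_eq hζ hp0 h
  have h1 : (g * h) ζ = (h * g) ζ := by
    rw [AlgEquiv.mul_apply, AlgEquiv.mul_apply, ha, hb, map_pow, map_pow, ha, hb, ← pow_mul,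
      ← pow_mul, mul_comm]
  rw [AlgEquiv.mul_apply, h1, ← AlgEquiv.mul_apply, inv_mul_cancel, AlgEquiv.one_apply]

include hχ hζ hp0 in
theorem normal_levelSubgroup : (levelSubgroup χ ζ).Normal := by
  refine ⟨fun s hs g => ⟨?_, ?_⟩⟩
  · rw [map_mul, map_mul, hs.1, mul_one, map_inv, mul_inv_cancel]
  · obtain ⟨a, ha⟩ := exists_pow_eq hζ hp0 g⁻¹
    rw [AlgEquiv.mul_apply, AlgEquiv.mul_apply, ha, map_pow, hs.2, ← ha, ← AlgEquiv.mul_apply,
      mul_inv_cancel, AlgEquiv.one_apply]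

include hχ hζ hp0 in
theorem isGalois_levelField : IsGalois F ↥(levelField χ ζ) := by
  rw [← InfiniteGalois.normal_iff_isGalois, levelField_fixingSubgroup hχ hζ hp0]
  exact normal_levelSubgroup hχ hζ hp0

include hχ hζ hp0 in
/-- **`Gal(L/F)` is commutative.** -/
theorem levelField_comm [Normal F ↥(levelField χ ζ)]
    (σ τ : ↥(levelField χ ζ) ≃ₐ[F] ↥(levelField χ ζ)) : σ * τ = τ * σ := by
  obtain ⟨g, rfl⟩ := AlgEquiv.restrictNormalHom_surjective (F := F) (K₁ := ↥(levelField χ ζ)) Ω σ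
  obtain ⟨h, rfl⟩ := AlgEquiv.restrictNormalHom_surjective (F := F) (K₁ := ↥(levelField χ ζ)) Ω τ
  rw [← map_mul, ← map_mul]
  have hmem : (h * g)⁻¹ * (g * h) ∈ (levelField χ ζ).fixingSubgroup := by
    rw [levelField_fixingSubgroup hχ hζ hp0]
    exact comm_mem hζ hp0 g h
  ext x
  rw [AlgEquiv.restrictNormalHom_apply, AlgEquiv.restrictNormalHom_apply]
  have h2 := (IntermediateField.mem_fixingSubgroup_iff _ _).mp hmem x x.2
  rw [AlgEquiv.mul_apply] at h2
  have h3 := congrArg (h * g) h2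
  rwa [← AlgEquiv.mul_apply, mul_inv_cancel, AlgEquiv.one_apply] at h3

variable [Finite Y] (hY : ¬ p ∣ Nat.card Y) (hp : p.Prime)

include hχ hζ hp0 hY hp in
/-- the exponent `n = #Y * (p - 1)` kills `Γ / G_L`. -/
theorem pow_mem_levelSubgroup (g : Gal(Ω/F)) :
    g ^ (Nat.card Y * (p - 1)) ∈ levelSubgroup χ ζ := by
  refine ⟨by rw [map_pow, pow_mul, pow_card_eq_one', one_pow], ?_⟩
  obtain ⟨a, ha⟩ := exists_pow_eq hζ hp0 g
  have hiter : ∀ n : ℕ, (g ^ n) ζ = ζ ^ (a ^ n) := by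
    intro n
    induction n with
    | zero => simp
    | succ n ih =>
      rw [pow_succ, AlgEquiv.mul_apply, ha, map_pow, ih, ← pow_mul, ← pow_succ]
  rw [hiter]
  -- `a` is prime to `p`
  have ha0 : ¬ p ∣ a := by
    intro hdvd
    obtain ⟨c, rfl⟩ := hdvd
    rw [pow_mul, hζ.pow_eq_one, one_pow] at ha
    have h1 : g ζ = g 1 := by rw [ha, map_one]
    exact hζ.ne_one hp.one_lt (g.injective h1)
  have h2 : a ^ (Nat.card Y * (p - 1)) ≡ 1 [MOD p] := by
    rw [mul_comm, pow_mul]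
    have := (Nat.Coprime.symm ((Nat.Prime.coprime_iff_not_dvd hp).mpr ha0))
    have h3 : a ^ (p - 1) ≡ 1 [MOD p] := by
      have := Nat.ModEq.pow_totient this
      rwa [Nat.totient_prime hp] at this
    calc (a ^ (p - 1)) ^ Nat.card Y ≡ 1 ^ Nat.card Y [MOD p] := h3.pow _
      _ = 1 := one_pow _
  have hle : 1 ≤ a ^ (Nat.card Y * (p - 1)) := by
    have ha1 : 1 ≤ a := by
      rcases Nat.eq_zero_or_pos a with h0 | h0
      · exact absurd (h0 ▸ dvd_zero p) ha0
      · exact h0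
    exact Nat.one_le_pow _ _ ha1
  obtain ⟨c, hc⟩ := (Nat.modEq_iff_dvd' hle).mp h2.symm
  have hsplit : a ^ (Nat.card Y * (p - 1)) = 1 + p * c := by omega
  rw [hsplit, pow_add, pow_one, pow_mul, hζ.pow_eq_one, one_pow, mul_one]

include hχ hζ hp0 hY hp in
/-- **`p ∤ #Gal(L/F)`.** -/
theorem not_dvd_card_levelField [Normal F ↥(levelField χ ζ)]
    [FiniteDimensional F ↥(levelField χ ζ)] :
    ¬ p ∣ Nat.card (↥(levelField χ ζ) ≃ₐ[F] ↥(levelField χ ζ)) := by
  intro hdvd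
  haveI : Fact p.Prime := ⟨hp⟩
  haveI : Fintype (↥(levelField χ ζ) ≃ₐ[F] ↥(levelField χ ζ)) := Fintype.ofFinite _
  rw [Nat.card_eq_fintype_card] at hdvd
  obtain ⟨σ, hσ⟩ := exists_prime_orderOf_dvd_card p hdvd
  obtain ⟨g, rfl⟩ := AlgEquiv.restrictNormalHom_surjective (F := F) (K₁ := ↥(levelField χ ζ)) Ω σ
  have h1 : (AlgEquiv.restrictNormalHom (F := F) ↥(levelField χ ζ) g) ^ (Nat.card Y * (p - 1))
      = 1 := by
    rw [← map_pow]
    have hmem : g ^ (Nat.card Y * (p - 1)) ∈ (levelField χ ζ).fixingSubgroup := by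
      rw [levelField_fixingSubgroup hχ hζ hp0]
      exact pow_mem_levelSubgroup hχ hζ hp0 hY hp g
    ext x
    rw [AlgEquiv.restrictNormalHom_apply]
    exact (IntermediateField.mem_fixingSubgroup_iff _ _).mp hmem x x.2
  have h2 := orderOf_dvd_of_pow_eq_one h1
  rw [hσ] at h2
  rcases (Nat.Prime.dvd_mul hp).mp h2 with h3 | h3
  · exact hY h3
  · have := Nat.le_of_dvd (by have := hp.two_le; omega) h3
    have := hp.two_le
    omega

include hχ hζ hp0 hY hp in
theorem not_dvd_finrank_levelField : ¬ p ∣ Module.finrank F ↥(levelField χ ζ) := by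
  haveI := finiteDimensional_levelField hχ hζ hp0
  haveI := isGalois_levelField hχ hζ hp0
  rw [← IsGalois.card_aut_eq_finrank]
  exact not_dvd_card_levelField hχ hζ hp0 hY hp

end Open

end Fermat.Agent.S56x.Local.AbelianLevel
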