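/-
P-S56, block (A): stability of `BddDef.IsBddField` (helper83): Galois subfields, the trivial field,
and COMPOSITA of bounded fields are bounded.  Instantiation of `Prop3Hom.homFormula` /
`Prop3Hom.upperBounded_of_upperBounded` / `TransportHom.upperGroup_le_ker_of_hom` on the concrete
fields through the scoped instances of `PadicAKLB`.
-/
import Mathlib
import Fermat.Agent.S56x.Local.PadicAKLB
import Fermat.Agent.S56x.Local.BddDef
import Fermat.Agent.Lib.Ram.Prop3Hom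
import Fermat.Agent.Lib.Ram.TransportHom

set_option autoImplicit false
set_option linter.style.haveILetI false

open IsLocalRing
open Fermat.Agent.S56x.Local.PadicFinite Fermat.Agent.S56x.Local.PadicTower
open Fermat.Agent.Lib.Ram Fermat.Agent.Lib.Ram.GaloisLower
open Fermat.Agent.S56x.Local.BddDef
open scoped Fermat.Agent.S56x.Local.PadicAKLB

namespace Fermat.Agent.S56x.Local.BddField

variable {p : ℕ} [Fact p.Prime] {E E' E₁ E₂ : IntermediateField ℚ_[p] (PadicAlgCl p)}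

/-- the restriction `Gal(E'/ℚ_p) → Gal(E/ℚ_p)` is the identity on elements of `E`. -/
theorem res_apply (h : E ≤ E') [IsGalois ℚ_[p] E] (σ : E' ≃ₐ[ℚ_[p]] E') (x : E) :
    haveI : Fact (E ≤ E') := ⟨h⟩
    ((Prop3Hom.res ℚ_[p] E E' σ x : E) : PadicAlgCl p) =
      ((σ (IntermediateField.inclusion h x) : E') : PadicAlgCl p) := by
  haveI : Fact (E ≤ E') := ⟨h⟩
  have h1 := AlgEquiv.restrictNormal_commutes σ E x
  have h2 := congrArg (fun z : E' => (z : PadicAlgCl p)) h1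
  exact h2

/-- a Galois subfield of a bounded field is bounded. -/
theorem isBddField_of_le (h : E ≤ E') [IsGalois ℚ_[p] E] (hE' : IsBddField p E') :
    IsBddField p E := by
  obtain ⟨hfd, hgal, hb⟩ := hE'
  haveI : Fact (E ≤ E') := ⟨h⟩
  haveI : FiniteDimensional ℚ_[p] E := by
    exact FiniteDimensional.left ℚ_[p] E E'
  refine ⟨inferInstance, inferInstance, ?_⟩
  letI : Fintype (Prop3Hom.res ℚ_[p] E E').ker := Fintype.ofFinite _
  letI : Fintype ((E' ≃ₐ[ℚ_[p]] E') ⧸ (Prop3Hom.res ℚ_[p] E E').ker) := Fintype.ofFinite _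
  exact Prop3Hom.upperBounded_of_upperBounded (A := ℤ_[p]) (K := ℚ_[p]) (L := E) (M := E')
    (B := OE p E) (C := OE p E') hb

/-- the trivial extension is bounded. -/
theorem isBddField_bot : IsBddField p (⊥ : IntermediateField ℚ_[p] (PadicAlgCl p)) := by
  refine ⟨inferInstance, inferInstance, ?_⟩
  intro v _
  rw [eq_bot_iff]
  intro σ _
  rw [Subgroup.mem_bot]
  ext x
  obtain ⟨a, ha⟩ := IntermediateField.mem_bot.mp x.2
  have hx : x = algebraMap ℚ_[p] (⊥ : IntermediateField ℚ_[p] (PadicAlgCl p)) a :=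
    Subtype.ext ha.symm
  rw [hx, AlgEquiv.commutes, AlgEquiv.commutes]

/-- the compositum of two bounded fields is bounded. -/
theorem isBddField_sup (h₁ : IsBddField p E₁) (h₂ : IsBddField p E₂) :
    IsBddField p (E₁ ⊔ E₂) := by
  obtain ⟨hfd₁, hgal₁, hb₁⟩ := h₁
  obtain ⟨hfd₂, hgal₂, hb₂⟩ := h₂
  haveI : FiniteDimensional ℚ_[p] ↥(E₁ ⊔ E₂) := inferInstance
  haveI : Normal ℚ_[p] ↥(E₁ ⊔ E₂) := inferInstance
  haveI : IsGalois ℚ_[p] ↥(E₁ ⊔ E₂) := ⟨⟩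
  have hle₁ : E₁ ≤ E₁ ⊔ E₂ := le_sup_left
  have hle₂ : E₂ ≤ E₁ ⊔ E₂ := le_sup_right
  haveI : Fact (E₁ ≤ E₁ ⊔ E₂) := ⟨hle₁⟩
  haveI : Fact (E₂ ≤ E₁ ⊔ E₂) := ⟨hle₂⟩
  refine ⟨inferInstance, inferInstance, ?_⟩
  letI : Fintype (Prop3Hom.res ℚ_[p] E₁ ↥(E₁ ⊔ E₂)).ker := Fintype.ofFinite _
  letI : Fintype (Prop3Hom.res ℚ_[p] E₂ ↥(E₁ ⊔ E₂)).ker := Fintype.ofFinite _
  have hf₁ := Prop3Hom.homFormula (A := ℤ_[p]) (K := ℚ_[p]) (L := E₁) (M := ↥(E₁ ⊔ E₂))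
    (B := OE p E₁) (C := OE p (E₁ ⊔ E₂))
  have hf₂ := Prop3Hom.homFormula (A := ℤ_[p]) (K := ℚ_[p]) (L := E₂) (M := ↥(E₁ ⊔ E₂))
    (B := OE p E₂) (C := OE p (E₁ ⊔ E₂))
  have hs₁ : Function.Surjective (Prop3Hom.res ℚ_[p] E₁ ↥(E₁ ⊔ E₂)) :=
    AlgEquiv.restrictNormalHom_surjective (F := ℚ_[p]) (K₁ := E₁) ↥(E₁ ⊔ E₂)
  have hs₂ : Function.Surjective (Prop3Hom.res ℚ_[p] E₂ ↥(E₁ ⊔ E₂)) :=
    AlgEquiv.restrictNormalHom_surjective (F := ℚ_[p]) (K₁ := E₂) ↥(E₁ ⊔ E₂)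
  intro v hv
  rw [eq_bot_iff]
  intro σ hσ
  have hk₁ := TransportHom.upperGroup_le_ker_of_hom _ hs₁ hf₁ (hb₁ v hv) hσ
  have hk₂ := TransportHom.upperGroup_le_ker_of_hom _ hs₂ hf₂ (hb₂ v hv) hσ
  rw [Subgroup.mem_bot]
  -- `σ` fixes `E₁` and `E₂` pointwise, hence `E₁ ⊔ E₂`
  rw [MonoidHom.mem_ker] at hk₁ hk₂
  have hfix₁ : ∀ x : E₁, σ (IntermediateField.inclusion hle₁ x) = IntermediateField.inclusion hle₁ x := by
    intro x
    apply Subtype.ext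
    rw [← res_apply hle₁ σ x, hk₁]
    rfl
  have hfix₂ : ∀ x : E₂, σ (IntermediateField.inclusion hle₂ x) = IntermediateField.inclusion hle₂ x := by
    intro x
    apply Subtype.ext
    rw [← res_apply hle₂ σ x, hk₂]
    rfl
  -- the fixed field of `σ`, mapped into `PadicAlgCl p`
  let S : Subalgebra ℚ_[p] ↥(E₁ ⊔ E₂) :=
    AlgHom.equalizer σ.toAlgHom (AlgHom.id ℚ_[p] ↥(E₁ ⊔ E₂))
  have hS : ∀ x, x ∈ S ↔ σ x = x := fun x => Iff.rfl
  let F : IntermediateField ℚ_[p] ↥(E₁ ⊔ E₂) := S.toIntermediateField (fun x hx => by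
    rw [hS] at hx ⊢
    rw [map_inv₀, hx])
  have hF : ∀ x, x ∈ F ↔ σ x = x := fun x => Iff.rfl
  have hle : E₁ ⊔ E₂ ≤ F.map (E₁ ⊔ E₂).val := by
    refine sup_le ?_ ?_
    · intro x hx
      exact ⟨IntermediateField.inclusion hle₁ ⟨x, hx⟩, (hF _).mpr (hfix₁ ⟨x, hx⟩), rfl⟩
    · intro x hx
      exact ⟨IntermediateField.inclusion hle₂ ⟨x, hx⟩, (hF _).mpr (hfix₂ ⟨x, hx⟩), rfl⟩
  ext y
  obtain ⟨z, hz, hzy⟩ := hle y.2
  have hzy' : z = y := Subtype.ext hzy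
  rw [← hzy', (hF z).mp hz]
  rfl

end Fermat.Agent.S56x.Local.BddField
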