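/-
P-S56, block (A) LOCAL FLAT (helper53; split off `Local/BddField`): **tamely ramified finite Galois
extensions of `ℚ_p` are bounded** in the sense of `Local/BddDef`.

* `isTame_of_coprime` : `p ∤ e0` (`e0 = #G_0`, the order of the inertia group) ⟹ the lower numbering
  `ramNum p E` is tame (`G_1 = 1`) — `Lib/Ram/TameCriterion` at `B = OE p E`;
* `upperBounded_of_isTame`, `isBddField_of_isTame`, `isBddField_of_coprime` : tame ⟹ all upper
  ramification groups `G^v`, `v > 0`, are trivial ⟹ `IsBddField p E` (`0 ≤ 1/(p-1)`);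
* `addVal_natCast_p` : `v_E(p) = e0` (so `e0 = e(E/ℚ_p)`), `isBddField_of_addVal_coprime` : the same
  criterion in terms of the valuation of `p`;
* `isBddField_of_card_coprime` : `p ∤ [E : ℚ_p]` suffices.
-/
import Mathlib
import Fermat.Agent.S56x.Local.BddDef
import Fermat.Agent.Lib.Ram.TameCriterion
import Fermat.Agent.Lib.Ram.E0RamIdx

set_option autoImplicit false
set_option linter.unusedSectionVars false
set_option linter.style.haveILetI false
set_option maxHeartbeats 400000

open IsLocalRing IsDiscreteValuationRing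

namespace Fermat.Agent.S56x.Local.BddTame

open Fermat.Agent.Lib.Ram Fermat.Agent.Lib.Ram.GaloisLower
open Fermat.Agent.S56x.Local.PadicFinite Fermat.Agent.S56x.Local.BddDef

variable {p : ℕ} [Fact p.Prime] (E : IntermediateField ℚ_[p] (PadicAlgCl p))
  [FiniteDimensional ℚ_[p] E]

/-- **tameness criterion**: if the order `e0` of the inertia group of `E/ℚ_p` is prime to `p`, the
lower numbering is tame. -/
theorem isTame_of_coprime (hc : Nat.Coprime (ramNum p E).e0 p) : (ramNum p E).IsTame :=
  TameCriterion.isTame_of_coprime (A := ℤ_[p]) (K := ℚ_[p]) (L := E) (B := OE p E)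
    natCast_p_mem_maximalIdeal hc

/-- if `p ∤ #Gal(E/ℚ_p)` the lower numbering is tame. -/
theorem isTame_of_card_coprime (hc : Nat.Coprime (Nat.card (E ≃ₐ[ℚ_[p]] E)) p) :
    (ramNum p E).IsTame :=
  TameCriterion.isTame_of_card_coprime (A := ℤ_[p]) (K := ℚ_[p]) (L := E) (B := OE p E)
    natCast_p_mem_maximalIdeal hc

theorem one_div_sub_one_nonneg : (0 : ℝ) ≤ 1 / ((p : ℝ) - 1) := by
  have hp : (1 : ℝ) < p := by exact_mod_cast (Fact.out : p.Prime).one_lt
  have : (0 : ℝ) < (p : ℝ) - 1 := by linarith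
  positivity

/-- a tame lower numbering has all upper groups `G^v`, `v > 1/(p-1)`, trivial. -/
theorem upperBounded_of_isTame (ht : (ramNum p E).IsTame) :
    (ramNum p E).UpperBounded (1 / ((p : ℝ) - 1)) :=
  ht.upperBounded.mono _ one_div_sub_one_nonneg

/-- **tame ⟹ bounded.** -/
theorem isBddField_of_isTame [IsGalois ℚ_[p] E] (ht : (ramNum p E).IsTame) : IsBddField p E :=
  ⟨inferInstance, inferInstance, upperBounded_of_isTame E ht⟩

/-- **`p ∤ e0` ⟹ bounded.** -/
theorem isBddField_of_coprime [IsGalois ℚ_[p] E] (hc : Nat.Coprime (ramNum p E).e0 p) :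
    IsBddField p E :=
  isBddField_of_isTame E (isTame_of_coprime E hc)

/-- **`p ∤ [E : ℚ_p]` ⟹ bounded.** -/
theorem isBddField_of_card_coprime [IsGalois ℚ_[p] E]
    (hc : Nat.Coprime (Nat.card (E ≃ₐ[ℚ_[p]] E)) p) : IsBddField p E :=
  isBddField_of_isTame E (isTame_of_card_coprime E hc)

/-! ### `e0 = v_E(p)` -/

theorem irreducible_natCast_p : Irreducible ((p : ℕ) : ℤ_[p]) := by
  have h : ((p : ℕ) : ℤ_[p]) = (p : ℤ_[p]) := rfl
  rw [h]
  exact PadicInt.irreducible_p

/-- **`v_E(p) = e0`**: the order of the inertia group is the ramification index of `E/ℚ_p`. -/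
theorem addVal_natCast_p [IsGalois ℚ_[p] E] :
    addVal (OE p E) ((p : ℕ) : OE p E) = ((ramNum p E).e0 : ℕ∞) := by
  have h := E0RamIdx.addVal_algebraMap_irreducible_eq (A := ℤ_[p]) (K := ℚ_[p]) (L := E)
    (B := OE p E) (irreducible_natCast_p (p := p))
  rw [map_natCast] at h
  exact h

/-- the tameness criterion in terms of the valuation of `p`. -/
theorem isBddField_of_addVal_coprime [IsGalois ℚ_[p] E] {e : ℕ}
    (he : addVal (OE p E) ((p : ℕ) : OE p E) = (e : ℕ∞)) (hc : Nat.Coprime e p) :
    IsBddField p E := by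
  apply isBddField_of_coprime E
  have h : ((ramNum p E).e0 : ℕ∞) = (e : ℕ∞) := by rw [← addVal_natCast_p E, he]
  have h' : (ramNum p E).e0 = e := by exact_mod_cast h
  rw [h']
  exact hc

end Fermat.Agent.S56x.Local.BddTame
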