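import Fermat.Agent.S56x.Local.BoundedKummer

/-!
# P-S56, block (A), glue (helper12): `Local/BoundedKummer` with the tower abstracted into ONE
"jump bound" hypothesis

Same statements as helper47's `Local/BoundedKummer` (whose proofs are reused verbatim), but the
abstract tower `(G, Q, f, g, h, h', hb)` is replaced by the single hypothesis

  `hJ : ∀ c : ℕ, (∀ σ ≠ 1, iG A K L B σ = c) → (p - 1) * c ≤ e + (p - 1)`

(`e = v_A(p)`): "if `L / K` has the single jump `c` then `(p-1)(c-1) ≤ e`", which is what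
`Lib/Ram/GaloisTower.jump_le_of_tame_tower` gives at field level for a tower
`ℚ_p ⊆ K ⊆ L ⊆ M` with `M` bounded by `1/(p-1)` and `K / ℚ_p` tame with `e(K/ℚ_p) = e`.
-/

set_option autoImplicit false
set_option linter.unusedSectionVars false

namespace Fermat.Agent.S56x.Local.BoundedKummerJump

open Fermat.Agent.Lib.Ram Fermat.Agent.Lib.Ram.GaloisLower
open Fermat.Agent.Lib.Ram.KummerBreak Fermat.Agent.Lib.CFT.Local
open Fermat.Agent.S56x.Local.KummerVal Fermat.Agent.S56x.Local.KummerNormalForm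
open Fermat.Agent.S56x.Local.BoundedKummer
open IsLocalRing WithZero IsDedekindDomain

section Main

variable {A K L B : Type*} [CommRing A] [IsDomain A] [IsDiscreteValuationRing A]
  [Field K] [Algebra A K] [IsFractionRing A K]
  [Field L] [Algebra K L] [FiniteDimensional K L] [Algebra A L] [IsScalarTower A K L]
  [CommRing B] [IsDomain B] [IsDiscreteValuationRing B] [Algebra A B]
  [Algebra B L] [IsScalarTower A B L] [IsIntegralClosure B A L] [IsFractionRing B L]
  [Module.Finite A B] [Module.IsTorsionFree A B]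


/-- **Fontaine's bound forces the Kummer level up.** -/
theorem level_ge_of_jump {p : ℕ} (hp : p.Prime) {ζ : K} (hζ : IsPrimitiveRoot ζ p)
    (hdeg : Module.finrank K L = p) (hrank : Module.finrank A B = Module.finrank K L)
    {u : A} {i m e : ℕ} (hi : IsDiscreteValuationRing.addVal A (u - 1) = (i : ℕ∞)) (hi0 : 0 < i) (hpi : ¬ p ∣ i)
    (he : e = (p - 1) * m) (heA : IsDiscreteValuationRing.addVal A (p : A) = (e : ℕ∞))
    (hlev : i < p * m)
    {α : L} (hα : α ^ p = algebraMap A L u)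
    (he0 : 0 < e)
    (hJ : ∀ c : ℕ, (∀ σ : L ≃ₐ[K] L, σ ≠ 1 → iG A K L B σ = (c : ℕ∞)) → (p - 1) * c ≤ e + (p - 1)) : e ≤ i := by
  have hp2 := hp.two_le
  obtain ⟨q, hq⟩ : ∃ q, p = q + 1 := ⟨p - 1, by omega⟩
  have hq1 : p - 1 = q := by omega
  have hlev' : i * (p - 1) < p * e := by
    rw [he, hq1]
    calc i * q < p * m * q := Nat.mul_lt_mul_of_pos_right hlev (by omega)
      _ = p * (q * m) := by ring
  -- the break
  have key : ∀ σ : L ≃ₐ[K] L, σ ≠ 1 → iG A K L B σ = ((p * m - i + 1 : ℕ) : ℕ∞) := by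
    intro σ hσ
    obtain ⟨t, ht1, ht2, -⟩ := iG_kummer (B := B) hp hζ hdeg hrank hi hi0 hpi heA he0 hlev' hα σ hσ
    rw [ht1]
    congr 1
    rw [he, hq1] at ht2
    have h1 : q * (t + i) = q * (p * m + 1) := by
      have : q * t + q * i = p * (q * m) + q := ht2
      nlinarith
    have h2 : t + i = p * m + 1 := Nat.eq_of_mul_eq_mul_left (by omega) h1
    omega
  have h1 := hJ _ key
  rw [he, hq1] at h1 ⊢
  -- `q (p m - i + 1) ≤ q m + q`, `i < p m`
  have h2 : q * (p * m - i + 1) ≤ q * (m + 1) := by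
    calc q * (p * m - i + 1) ≤ q * m + q := h1
      _ = q * (m + 1) := by ring
  have h3 : p * m - i + 1 ≤ m + 1 := Nat.le_of_mul_le_mul_left h2 (by omega)
  have h4 : p * m ≤ m + i := by omega
  have h5 : p * m = q * m + m := by rw [hq]; ring
  omega

/-- **The très ramifié type is excluded by Fontaine's bound.** -/
theorem not_root_type_of_jump {p : ℕ} (hp : p.Prime) {ζ : K} (hζ : IsPrimitiveRoot ζ p)
    (hdeg : Module.finrank K L = p) (hrank : Module.finrank A B = Module.finrank K L)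
    {u : A} {k m e : ℕ} (hk : IsDiscreteValuationRing.addVal A u = (k : ℕ∞)) (hpk : ¬ p ∣ k)
    (he : e = (p - 1) * m) (heA : IsDiscreteValuationRing.addVal A (p : A) = (e : ℕ∞))
    {α : L} (hα : α ^ p = algebraMap A L u)
    (he0 : 0 < e)
    (hJ : ∀ c : ℕ, (∀ σ : L ≃ₐ[K] L, σ ≠ 1 → iG A K L B σ = (c : ℕ∞)) → (p - 1) * c ≤ e + (p - 1)) : False := by
  have hp2 := hp.two_le
  obtain ⟨q, hq⟩ : ∃ q, p = q + 1 := ⟨p - 1, by omega⟩
  have hq1 : p - 1 = q := by omega
  have key : ∀ σ : L ≃ₐ[K] L, σ ≠ 1 → iG A K L B σ = ((p * m + 1 : ℕ) : ℕ∞) := by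
    intro σ hσ
    obtain ⟨t, ht1, ht2, -⟩ := iG_kummer_root (B := B) hp hζ hdeg hrank hk hpk heA hα σ hσ
    rw [ht1]
    congr 1
    rw [he, hq1] at ht2
    have h1 : q * t = q * (p * m + 1) := by
      have : q * t = p * (q * m) + q := ht2
      nlinarith
    exact Nat.eq_of_mul_eq_mul_left (by omega) h1
  have h1 := hJ _ key
  rw [he, hq1] at h1 he0
  have h2 : q * (p * m + 1) ≤ q * (m + 1) := by
    calc q * (p * m + 1) ≤ q * m + q := h1
      _ = q * (m + 1) := by ring
  have h3 : p * m + 1 ≤ m + 1 := Nat.le_of_mul_le_mul_left h2 (by omega)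
  have h5 : p * m = q * m + m := by rw [hq]; ring
  have h6 : q * m = 0 := by omega
  omega

/-- **Fontaine's bound ⟹ the Kummer generator lies in `U^(e) · K^×p`.** -/
theorem exists_mul_pow_mem_of_jump {p : ℕ} (hp : p.Prime) (hp2 : p ≠ 2) {ζ : K}
    (hζ : IsPrimitiveRoot ζ p) (hperf : ∀ a : ResidueField A, ∃ b, b ^ p = a)
    (hdeg : Module.finrank K L = p) (hrank : Module.finrank A B = Module.finrank K L)
    {m e : ℕ} (he : e = (p - 1) * m)
    (heA : IsDiscreteValuationRing.addVal A (p : A) = (e : ℕ∞))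
    {u : K} (hu : u ≠ 0) {α : L} (hα : α ^ p = algebraMap K L u)
    (he0 : 0 < e)
    (hJ : ∀ c : ℕ, (∀ σ : L ≃ₐ[K] L, σ ≠ 1 → iG A K L B σ = (c : ℕ∞)) → (p - 1) * c ≤ e + (p - 1)) :
    ∃ z : K, z ≠ 0 ∧ ∃ a : A, algebraMap A K a = u * z ^ p ∧
      a - 1 ∈ IsLocalRing.maximalIdeal A ^ e := by
  classical
  have hp2' := hp.two_le
  obtain ⟨q, hq⟩ : ∃ q, p = q + 1 := ⟨p - 1, by omega⟩
  have hq1 : p - 1 = q := by omega
  set w := dvrVal A K with hw
  obtain ⟨π, hπ⟩ := IsDiscreteValuationRing.exists_irreducible A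
  set πK := algebraMap A K π with hπK
  have hwπ : w πK = exp (-1 : ℤ) := dvrVal_irreducible A K hπ
  have hπ1 : w πK < 1 := by
    rw [hwπ, ← exp_zero, exp_lt_exp]; omega
  have hπ0 : πK ≠ 0 := by
    intro h0
    rw [h0, map_zero] at hwπ
    exact exp_ne_zero hwπ.symm
  have hpA0 : (p : A) ≠ 0 := by
    intro h0
    rw [h0, IsDiscreteValuationRing.addVal_zero] at heA
    exact ENat.top_ne_natCast _ heA
  have hpK : (p : K) = algebraMap A K (p : A) := by simp
  have hp0 : (p : K) ≠ 0 := by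
    rw [hpK]
    exact (map_ne_zero_iff _ (IsFractionRing.injective A K)).mpr hpA0
  have hζw : w (1 - ζ) ^ (p - 1) = w (p : K) := val_one_sub_primitiveRoot_pow w hp hζ
  have hwp : w (p : K) = exp (-(e : ℤ)) := by
    rw [hpK]; exact (dvrVal_eq_exp_neg_iff A K e).mpr heA
  -- `w (1 - ζ) < 1` and `w (1 - ζ)^p ≤ w p`
  have hζlt : w (1 - ζ) < 1 := by
    by_contra hcon
    rw [not_lt] at hcon
    have h1 : (1 : ℤᵐ⁰) ≤ w (1 - ζ) ^ (p - 1) := one_le_pow₀ hcon
    rw [hζw, hwp, ← exp_zero, exp_le_exp] at h1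
    omega
  have hζp : w (1 - ζ) ^ p ≤ exp (-(e : ℤ)) := by
    have h1 : w (1 - ζ) ^ p = w (1 - ζ) ^ (p - 1) * w (1 - ζ) := by
      rw [← pow_succ, hq1, hq]
    rw [h1, hζw, hwp]
    exact mul_le_of_le_one_right zero_le hζlt.le
  obtain ⟨z, hz0, hcases⟩ := exists_full_normal_form w hp hp2
    (exists_sub_pow_lt_one A K hperf) hπ1 hπ0 (exists_zpow_eq_dvrVal A K hπ) hζw hp0 u hu
  rcases hcases with ⟨k, hpk, hwk⟩ | hle | ⟨i, hpi, hwi, hlt⟩
  · -- très ramifié type: impossible
    exfalso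
    set N : ℕ := k.natAbs with hN
    set z' : K := z * πK ^ N with hz'
    have hk0 : 0 ≤ k + (p : ℤ) * N := by
      have h1 : -(N : ℤ) ≤ k := by rw [hN]; exact neg_le.mp (neg_le_abs k |>.trans (by simp))
      have h2 : (N : ℤ) ≤ (p : ℤ) * N := by
        have : (1 : ℤ) ≤ p := by exact_mod_cast hp.one_lt.le
        nlinarith [Int.natCast_nonneg N]
      omega
    obtain ⟨k', hk'⟩ : ∃ k' : ℕ, (k' : ℤ) = k + (p : ℤ) * N := ⟨(k + (p : ℤ) * N).toNat, by omega⟩
    have hpk' : ¬ p ∣ k' := by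
      intro hdvd
      apply hpk
      have h1 : (p : ℤ) ∣ (k' : ℤ) := by exact_mod_cast hdvd
      rw [hk'] at h1
      exact (Int.dvd_add_left (Dvd.intro _ rfl)).mp h1
    have hwu' : w (u * z' ^ p) = exp (-(k' : ℤ)) := by
      have h1 : u * z' ^ p = (u * z ^ p) * πK ^ (p * N) := by rw [hz', mul_pow, ← pow_mul]; ring
      rw [h1, map_mul, hwk, map_pow, hwπ, ← exp_zsmul, ← exp_nsmul, ← exp_add, hk']
      congr 1
      simp only [smul_eq_mul, nsmul_eq_mul]
      push_cast
      ring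
    have hle1 : w (u * z' ^ p) ≤ 1 := by
      rw [hwu', ← exp_zero, exp_le_exp]; omega
    obtain ⟨a, ha⟩ := (dvrVal_le_one_iff A K).mp hle1
    have hka : IsDiscreteValuationRing.addVal A a = (k' : ℕ∞) := by
      rw [← dvrVal_eq_exp_neg_iff A K k', ha, hwu']
    have hα' : (α * algebraMap K L z') ^ p = algebraMap A L a := by
      rw [mul_pow, hα, ← map_pow, ← map_mul, IsScalarTower.algebraMap_apply A K L, ha]
    exact not_root_type_of_jump (B := B) hp hζ hdeg hrank hka hpk' he heA hα' he0 hJ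
  · -- unramified type: level ≥ top ≥ e
    have h1 : w (u * z ^ p - 1) ≤ exp (-(e : ℤ)) := hle.trans hζp
    have h2 : w (u * z ^ p - 1) ≤ 1 := h1.trans (by rw [← exp_zero, exp_le_exp]; omega)
    obtain ⟨r, hr⟩ := (dvrVal_le_one_iff A K).mp h2
    refine ⟨z, hz0, 1 + r, by rw [map_add, map_one, hr]; ring, ?_⟩
    rw [add_sub_cancel_left, ← dvrVal_le_exp_neg_iff A K, hr]
    exact h1
  · -- level type: Fontaine's bound
    have hi0 : 0 < i := by
      rcases Nat.eq_zero_or_pos i with rfl | h0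
      · exact absurd (dvd_zero p) hpi
      · exact h0
    have hwi' : w (u * z ^ p - 1) = exp (-(i : ℤ)) := by
      rw [hwi, hwπ, ← exp_nsmul]; congr 1; simp
    have h2 : w (u * z ^ p - 1) ≤ 1 := by
      rw [hwi', ← exp_zero, exp_le_exp]; omega
    obtain ⟨r, hr⟩ := (dvrVal_le_one_iff A K).mp h2
    have hia : IsDiscreteValuationRing.addVal A ((1 + r) - 1) = (i : ℕ∞) := by
      rw [add_sub_cancel_left, ← dvrVal_eq_exp_neg_iff A K i, hr, hwi']
    have hlev : i < p * m := by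
      have h3 : (w (1 - ζ) ^ p) ^ (p - 1) < (w πK ^ i) ^ (p - 1) :=
        pow_lt_pow_left₀ hlt zero_le (by omega)
      rw [← pow_mul, mul_comm p (p - 1), pow_mul, hζw, hwp, hwπ, ← exp_nsmul, ← exp_nsmul,
        ← exp_nsmul, exp_lt_exp, he, hq1] at h3
      simp only [nsmul_eq_mul] at h3
      push_cast at h3
      have h4 : (i : ℤ) * q < (p : ℤ) * (q * m) := by nlinarith
      have h5 : i * q < p * m * q := by
        have : ((i * q : ℕ) : ℤ) < ((p * m * q : ℕ) : ℤ) := by push_cast; nlinarith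
        exact_mod_cast this
      exact Nat.lt_of_mul_lt_mul_right h5
    have hα' : (α * algebraMap K L z) ^ p = algebraMap A L (1 + r) := by
      rw [mul_pow, hα, ← map_pow, ← map_mul, IsScalarTower.algebraMap_apply A K L, map_add, map_one,
        hr]
      congr 1; ring
    have hge := level_ge_of_jump (B := B) hp hζ hdeg hrank hia hi0 hpi he heA hlev hα' he0 hJ
    refine ⟨z, hz0, 1 + r, by rw [map_add, map_one, hr]; ring, ?_⟩
    rw [add_sub_cancel_left]
    have h6 : r ∈ IsLocalRing.maximalIdeal A ^ i := by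
      rw [← dvrVal_le_exp_neg_iff A K, hr, hwi']
    exact Ideal.pow_le_pow_right hge h6

end Main

end Fermat.Agent.S56x.Local.BoundedKummerJump
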