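import Mathlib

/-!
# P-S56, block (A) (helper49): the Kummer layer `T(α) / T`, `α ^ p ∈ T`, `ζ_p ∈ T`, `α ∉ T`

Mathlib only.

* `kummer_isGalois_and_finrank` : a field extension `L = K(α)`, `α ^ p = a ∈ K`, `ζ_p ∈ K`,
  `α ∉ K` is Galois of degree `p`;
* for intermediate fields `T` of `Ω / F` and `α : Ω`: `kummerField T α := F(T ∪ {α})`,
  `le_kummerField`, `mem_kummerField`, `kummerField_le`, `adjoin_gen_eq_top`
  (`T(α) = ⊤` inside `kummerField T α` over `T`, for the algebra structure given by the inclusion),
  and `kummerField_isGalois_and_finrank`.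
-/

set_option autoImplicit false
set_option linter.style.haveILetI false

open Polynomial IntermediateField

namespace Fermat.Agent.S56x.Local.KummerLayer

section Generic

variable {K L : Type*} [Field K] [Field L] [Algebra K L]

/-- if `ζ_p ∈ K` and `α ^ p = a ∈ K` with `α ∉ K` then `a` is not a `p`-th power in `K`. -/
theorem forall_pow_ne {p : ℕ} (hp : p.Prime) {ζ : K} (hζ : IsPrimitiveRoot ζ p) {a : K} {α : L}
    (hα : α ^ p = algebraMap K L a) (hnot : α ∉ (algebraMap K L).range) (b : K) : b ^ p ≠ a := by
  intro hb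
  apply hnot
  have hζ' : IsPrimitiveRoot (algebraMap K L ζ) p :=
    hζ.map_of_injective (algebraMap K L).injective
  by_cases hb0 : b = 0
  · subst hb0
    rw [zero_pow hp.ne_zero] at hb
    rw [← hb, map_zero] at hα
    exact ⟨0, by rw [map_zero, pow_eq_zero_iff hp.ne_zero |>.mp hα]⟩
  · have hb0' : algebraMap K L b ≠ 0 := by
      rwa [Ne, map_eq_zero]
    have h1 : (α / algebraMap K L b) ^ p = 1 := by
      rw [div_pow, hα, ← hb, map_pow, div_self (pow_ne_zero _ hb0')]
    haveI : NeZero p := ⟨hp.ne_zero⟩
    obtain ⟨j, -, hj⟩ := hζ'.eq_pow_of_pow_eq_one h1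
    refine ⟨ζ ^ j * b, ?_⟩
    rw [map_mul, map_pow, hj, div_mul_cancel₀ _ hb0']

/-- **the Kummer layer**: `L = K(α)`, `α ^ p = a ∈ K`, `ζ_p ∈ K`, `α ∉ K` ⟹ `L / K` is Galois of
degree `p`. -/
theorem kummer_isGalois_and_finrank {p : ℕ} (hp : p.Prime) {ζ : K} (hζ : IsPrimitiveRoot ζ p)
    {a : K} {α : L} (hα : α ^ p = algebraMap K L a) (hgen : K⟮α⟯ = ⊤)
    (hnot : α ∉ (algebraMap K L).range) : IsGalois K L ∧ Module.finrank K L = p := by
  have hirr : Irreducible (X ^ p - C a) :=
    X_pow_sub_C_irreducible_of_prime hp (forall_pow_ne hp hζ hα hnot)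
  have hK : (primitiveRoots p K).Nonempty := ⟨ζ, (mem_primitiveRoots hp.pos).mpr hζ⟩
  have halg : IsAlgebraic K α := by
    refine ⟨X ^ p - C a, X_pow_sub_C_ne_zero hp.pos a, ?_⟩
    rw [aeval_def, eval₂_sub, eval₂_X_pow, eval₂_C, hα, sub_self]
  haveI : IsSplittingField K L (X ^ p - C a) := by
    constructor
    · rw [Polynomial.map_sub, Polynomial.map_pow, Polynomial.map_C, Polynomial.map_X]
      exact X_pow_sub_C_splits_of_isPrimitiveRoot
        (hζ.map_of_injective (algebraMap K L).injective) hα
    · rw [eq_top_iff, ← IntermediateField.top_toSubalgebra, ← hgen,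
        IntermediateField.adjoin_simple_toSubalgebra_of_isAlgebraic halg]
      apply Algebra.adjoin_mono
      rw [Set.singleton_subset_iff, mem_rootSet_of_ne (X_pow_sub_C_ne_zero hp.pos a),
        aeval_def, eval₂_sub, eval₂_X_pow, eval₂_C, hα, sub_self]
  exact ⟨isGalois_of_isSplittingField_X_pow_sub_C hK hirr L,
    finrank_of_isSplittingField_X_pow_sub_C hK hirr L⟩

end Generic

section Intermediate

variable {F Ω : Type*} [Field F] [Field Ω] [Algebra F Ω] (T : IntermediateField F Ω) (α : Ω)

/-- the field `F(T ∪ {α}) = T(α)` as an intermediate field of `Ω / F`. -/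
def kummerField : IntermediateField F Ω := IntermediateField.adjoin F ((T : Set Ω) ∪ {α})

theorem le_kummerField : T ≤ kummerField T α := fun _ hx =>
  IntermediateField.subset_adjoin F _ (Or.inl hx)

theorem mem_kummerField : α ∈ kummerField T α :=
  IntermediateField.subset_adjoin F _ (Or.inr rfl)

variable {T α}

theorem kummerField_le {M : IntermediateField F Ω} (hT : T ≤ M) (hα : α ∈ M) :
    kummerField T α ≤ M := by
  unfold kummerField
  rw [IntermediateField.adjoin_le_iff]
  rintro y (hy | hy)
  · exact hT hy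
  · rw [Set.mem_singleton_iff] at hy
    rw [hy]
    exact hα

variable (T α)

/-- inside `kummerField T α`, as an extension of `T` through the inclusion, `T(α) = ⊤`. -/
theorem adjoin_gen_eq_top :
    letI : Algebra T (kummerField T α) :=
      (IntermediateField.inclusion (le_kummerField T α)).toRingHom.toAlgebra
    IntermediateField.adjoin T {(⟨α, mem_kummerField T α⟩ : kummerField T α)} = ⊤ := by
  letI : Algebra T (kummerField T α) :=
    (IntermediateField.inclusion (le_kummerField T α)).toRingHom.toAlgebra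
  rw [eq_top_iff]
  rintro ⟨y, hy⟩ -
  refine IntermediateField.adjoin_induction (F := F) (s := (T : Set Ω) ∪ {α})
    (p := fun z hz => (⟨z, hz⟩ : kummerField T α) ∈
      IntermediateField.adjoin T {(⟨α, mem_kummerField T α⟩ : kummerField T α)})
    ?_ ?_ ?_ ?_ ?_ hy
  · rintro z (hz | hz)
    · exact (IntermediateField.adjoin T _).algebraMap_mem (⟨z, hz⟩ : T)
    · rw [Set.mem_singleton_iff] at hz
      subst hz
      exact IntermediateField.mem_adjoin_simple_self T _
  · intro c
    have : (⟨algebraMap F Ω c, (kummerField T α).algebraMap_mem c⟩ : kummerField T α) =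
        algebraMap T (kummerField T α) (algebraMap F T c) := rfl
    rw [this]
    exact (IntermediateField.adjoin T _).algebraMap_mem _
  · intro z w hz hw h1 h2
    exact add_mem h1 h2
  · intro z hz h1
    exact inv_mem h1
  · intro z w hz hw h1 h2
    exact mul_mem h1 h2

/-- **the Kummer layer for intermediate fields**: `ζ_p ∈ T`, `α ^ p = x ∈ T`, `α ∉ T` ⟹
`kummerField T α / T` (inclusion algebra) is Galois of degree `p`. -/
theorem kummerField_isGalois_and_finrank {p : ℕ} (hp : p.Prime) {ζ : T}
    (hζ : IsPrimitiveRoot ζ p) {x : T} (hα : α ^ p = (x : Ω)) (hαT : α ∉ T) :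
    letI : Algebra T (kummerField T α) :=
      (IntermediateField.inclusion (le_kummerField T α)).toRingHom.toAlgebra
    IsGalois T (kummerField T α) ∧ Module.finrank T (kummerField T α) = p := by
  letI : Algebra T (kummerField T α) :=
    (IntermediateField.inclusion (le_kummerField T α)).toRingHom.toAlgebra
  refine kummer_isGalois_and_finrank (K := T) (L := kummerField T α) hp hζ
    (a := x) (α := (⟨α, mem_kummerField T α⟩ : kummerField T α)) (Subtype.ext ?_)
    (adjoin_gen_eq_top T α) ?_
  · show α ^ p = (x : Ω)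
    exact hα
  · rintro ⟨t, ht⟩
    apply hαT
    have : (t : Ω) = α := congrArg Subtype.val ht
    rw [← this]
    exact t.2

end Intermediate

end Fermat.Agent.S56x.Local.KummerLayer
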