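import Fermat.Agent.Lib.Ram.GaloisTower

/-!
# P-S56, block (A) (helper49): transport of `HomFormula` along a group isomorphism, and the
hom-form tower data of `Local/BoundedKummer` for a field tower `K ⊆ L ⊆ L' ⊆ M`

`Local/BoundedKummer` (helper47) is stated in the abstract hom form of `Lib/Ram/Transport`:
`f : G →* Q` (think `Gal(M/K) → Gal(L/K)`), `g : f.ker →* Q'` (think `Gal(M/L) → Gal(L'/L)`) with
`h' : HomFormula (I.restrict f.ker) g IL`.  For an actual tower of fields the subgroup `f.ker`
is only ISOMORPHIC to `Gal(M/L)`; this file provides the bridge: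

* `HomFormula.of_mulEquiv` : `HomFormula (comap I₂ e) π J → HomFormula I₂ (π ∘ e⁻¹) J`;
* `kerEquiv K L M : Gal(M/L) ≃* (resHom K L M).ker`, `kerRes K L L' M : (resHom K L M).ker →*
  Gal(L'/L)`, `kerRes_surjective`;
* `homFormula_kerRes` : from Serre IV Prop. 3 for `M / L' / L` over the base `B`
  (`Prop3Hom.homFormula`) the hypothesis `h'` of `BoundedKummer` for
  `I = lowerNumbering A K M C`, `f = resHom K L M`, `g = kerRes K L L' M`.
-/

set_option autoImplicit false
set_option linter.unusedSectionVars false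
set_option linter.overlappingInstances false

namespace Fermat.Agent.S56x.Local.PadicTowerHom

open Fermat.Agent.Lib.Ram Fermat.Agent.Lib.Ram.LowerNumbering Fermat.Agent.Lib.Ram.GaloisLower
  Fermat.Agent.Lib.Ram.Transport Fermat.Agent.Lib.Ram.TransportHom
  Fermat.Agent.Lib.Ram.GaloisTower

/-! ### Transport of `HomFormula` along an isomorphism -/

section Abstract

variable {G₁ G₂ Q : Type*} [Group G₁] [Group G₂] [Group Q] [Fintype G₁] [Fintype G₂] [Fintype Q]

/-- the kernel of `π ∘ e⁻¹` is the image of the kernel of `π`. -/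
def kerCongr (e : G₁ ≃* G₂) (π : G₁ →* Q) :
    π.ker ≃* (π.comp e.symm.toMonoidHom).ker where
  toFun s := ⟨e s, by
    rw [MonoidHom.mem_ker, MonoidHom.comp_apply]
    show π (e.symm (e s)) = 1
    rw [e.symm_apply_apply]
    exact s.2⟩
  invFun t := ⟨e.symm t, t.2⟩
  left_inv s := Subtype.ext (e.symm_apply_apply s)
  right_inv t := Subtype.ext (e.apply_symm_apply t)
  map_mul' s t := Subtype.ext (map_mul e (s : G₁) (t : G₁))

/-- **transport of Serre IV Prop. 3 (hom form) along an isomorphism of the source group.** -/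
theorem HomFormula.of_mulEquiv (I₂ : LowerNumbering G₂) (e : G₁ ≃* G₂) (π : G₁ →* Q)
    (J : LowerNumbering Q) [Fintype π.ker] [Fintype (π.comp e.symm.toMonoidHom).ker]
    (h : HomFormula (Transport.comap I₂ e) π J) :
    HomFormula I₂ (π.comp e.symm.toMonoidHom) J := by
  classical
  intro σ hσ
  have h1 := h σ hσ
  have he0 : ((Transport.comap I₂ e).restrict π.ker).e0 =
      (I₂.restrict (π.comp e.symm.toMonoidHom).ker).e0 := by
    have : (Transport.comap I₂ e).restrict π.ker =
        Transport.comap (I₂.restrict (π.comp e.symm.toMonoidHom).ker) (kerCongr e π) := rfl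
    rw [this, comap_e0]
  rw [← he0, h1]
  refine Finset.sum_bij (fun s _ => e s) ?_ ?_ ?_ ?_
  · intro s hs
    rw [Finset.mem_filter] at hs ⊢
    refine ⟨Finset.mem_univ _, ?_⟩
    rw [MonoidHom.comp_apply]
    show π (e.symm (e s)) = σ
    rw [e.symm_apply_apply]
    exact hs.2
  · intro s _ s' _ hss'
    exact e.injective hss'
  · intro t ht
    rw [Finset.mem_filter] at ht
    refine ⟨e.symm t, ?_, e.apply_symm_apply t⟩
    rw [Finset.mem_filter]
    exact ⟨Finset.mem_univ _, ht.2⟩
  · intro s _
    rfl

end Abstract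

/-! ### The hom-form tower data of a field tower -/

section Fields

variable (K L L' M : Type*) [Field K] [Field L] [Field L'] [Field M] [Algebra K L] [Algebra K M]
  [Algebra L M] [IsScalarTower K L M] [Algebra L L'] [Algebra L' M] [IsScalarTower L L' M]
  [Normal K L] [Normal L L']

/-- `Gal(M/L)` as the kernel of the restriction `Gal(M/K) → Gal(L/K)`. -/
noncomputable def kerEquiv : (M ≃ₐ[L] M) ≃* (resHom K L M).ker :=
  (MonoidHom.ofInjective (inclHom_injective K L M)).trans
    (MulEquiv.subgroupCongr (range_inclHom K L M))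

@[simp] theorem coe_kerEquiv (τ : M ≃ₐ[L] M) :
    ((kerEquiv K L M τ : (resHom K L M).ker) : M ≃ₐ[K] M) = inclHom K L M τ := rfl

theorem kerEquiv_apply (τ : M ≃ₐ[L] M) (x : M) :
    ((kerEquiv K L M τ : (resHom K L M).ker) : M ≃ₐ[K] M) x = τ x := rfl

/-- the restriction `ker(Gal(M/K) → Gal(L/K)) → Gal(L'/L)`. -/
noncomputable def kerRes : (resHom K L M).ker →* (L' ≃ₐ[L] L') :=
  (resHom L L' M).comp (kerEquiv K L M).symm.toMonoidHom

theorem kerRes_kerEquiv (τ : M ≃ₐ[L] M) :
    kerRes K L L' M (kerEquiv K L M τ) = resHom L L' M τ := by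
  unfold kerRes
  rw [MonoidHom.comp_apply]
  show resHom L L' M ((kerEquiv K L M).symm (kerEquiv K L M τ)) = _
  rw [MulEquiv.symm_apply_apply]

/-- `kerRes` commutes with the inclusions: it is the restriction of automorphisms to `L'`. -/
theorem kerRes_commutes (t : (resHom K L M).ker) (x : L') :
    algebraMap L' M (kerRes K L L' M t x) = (t : M ≃ₐ[K] M) (algebraMap L' M x) := by
  obtain ⟨τ, rfl⟩ := (kerEquiv K L M).surjective t
  rw [kerRes_kerEquiv, resHom_commutes]
  rfl

theorem kerRes_surjective [Normal L M] : Function.Surjective (kerRes K L L' M) := by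
  intro σ
  obtain ⟨τ, hτ⟩ := resHom_surjective L L' M σ
  exact ⟨kerEquiv K L M τ, by rw [kerRes_kerEquiv, hτ]⟩

end Fields

section AKLB

variable {A K L M B C : Type*} [CommRing A] [Field K] [Algebra A K] [IsFractionRing A K]
  [Field M] [Algebra K M] [Algebra.IsAlgebraic K M] [Algebra A M] [IsScalarTower A K M]
  [CommRing C] [IsDomain C] [IsDiscreteValuationRing C] [Algebra A C] [Algebra C M]
  [IsScalarTower A C M] [IsIntegralClosure C A M]
  [Field L] [Algebra K L] [Algebra L M] [IsScalarTower K L M]
  [CommRing B] [Algebra B L] [IsFractionRing B L] [Algebra.IsAlgebraic L M] [Algebra B M]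
  [IsScalarTower B L M] [Algebra B C] [IsScalarTower B C M] [IsIntegralClosure C B M]
  [Normal K L]
  {L' B' : Type*} [Field L'] [Algebra L L'] [Algebra L' M] [IsScalarTower L L' M]
  [Algebra.IsAlgebraic L L'] [Algebra B L'] [IsScalarTower B L L']
  [CommRing B'] [IsDomain B'] [IsDiscreteValuationRing B'] [Algebra B B'] [Algebra B' L']
  [IsScalarTower B B' L'] [IsIntegralClosure B' B L']
  [Normal L L']
  [Fintype (M ≃ₐ[K] M)] [Fintype (M ≃ₐ[L] M)] [Fintype (L' ≃ₐ[L] L')]
  [Fintype (resHom K L M).ker] [Fintype (resHom L L' M).ker]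
  [Fintype (kerRes K L L' M).ker]

/-- the numbering of `Gal(M/K)` restricted to `ker(Gal(M/K) → Gal(L/K))` is the arithmetic
numbering of `M / L`, transported along `kerEquiv`. -/
theorem comap_restrict_kerEquiv :
    Transport.comap ((lowerNumbering A K M C).restrict (resHom K L M).ker) (kerEquiv K L M) =
      lowerNumbering B L M C := by
  rw [← comapInj_lowerNumbering A K L M B C]
  exact (comapInj_eq_comap_of_range_eq (lowerNumbering A K M C) (inclHom K L M)
    (inclHom_injective K L M) (range_inclHom K L M)).symm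

/-- **the hypothesis `h'` of `Local/BoundedKummer`** for a field tower `K ⊆ L ⊆ L' ⊆ M`, from
Serre IV Prop. 3 for `M / L' / L` over the base `B`. -/
theorem homFormula_kerRes
    (h' : HomFormula (lowerNumbering B L M C) (resHom L L' M) (lowerNumbering B L L' B')) :
    HomFormula ((lowerNumbering A K M C).restrict (resHom K L M).ker) (kerRes K L L' M)
      (lowerNumbering B L L' B') := by
  have h1 : HomFormula (Transport.comap ((lowerNumbering A K M C).restrict (resHom K L M).ker)
      (kerEquiv K L M)) (resHom L L' M) (lowerNumbering B L L' B') := by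
    rw [comap_restrict_kerEquiv (A := A) (K := K) (L := L) (M := M) (B := B) (C := C)]
    exact h'
  letI : Fintype ((resHom L L' M).comp (kerEquiv K L M).symm.toMonoidHom).ker :=
    inferInstanceAs (Fintype (kerRes K L L' M).ker)
  exact HomFormula.of_mulEquiv _ (kerEquiv K L M) (resHom L L' M) _ h1

end AKLB

end Fermat.Agent.S56x.Local.PadicTowerHom
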