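import Fermat.Agent.S56x.Local.BoundedKummer
import Fermat.Agent.S56x.Local.BddField
import Fermat.Agent.S56x.Local.PadicE0
import Fermat.Agent.S56x.Local.PadicTowerHom
import Fermat.Agent.S56x.Local.KummerLayer

/-!
# P-S56, block (A) (helper49): Fontaine's bound ⟹ Kummer generators in `U^(e) · (Tˣ)^p`, `p`-adic form

`T / ℚ_p` finite Galois and TAME inside `PadicAlgCl p`, `ζ_p ∈ T`, `e = e(T/ℚ_p) = (p-1) m`;
`M ⊇ T` a BOUNDED field (`BddDef.IsBddField`); `x ∈ Tˣ` with a `p`-th root `α ∈ M`.  Then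
`x z^p = a ∈ O_T`, `a ≡ 1 mod 𝔪_T^e` for some `z ∈ Tˣ`:

* `exists_mul_pow_mem_of_isBddField`.

This is `Local/BoundedKummer.exists_mul_pow_mem_of_upperBounded` (helper47) instantiated on the
tower `ℚ_p ⊆ T ⊆ T(α) ⊆ M` through `Local/PadicAKLB` (scoped AKLB instances),
`Lib/Ram/Prop3Hom.homFormula` (Serre IV Prop. 3, twice), `Local/PadicTowerHom` (hom form of the
tower) and `Local/KummerLayer` (`T(α)/T` is Galois of degree `p`).
-/

set_option autoImplicit false
set_option linter.style.haveILetI false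
set_option linter.unusedSectionVars false

open IsLocalRing
open Fermat.Agent.S56x.Local.PadicFinite Fermat.Agent.S56x.Local.PadicTower
open Fermat.Agent.Lib.Ram Fermat.Agent.Lib.Ram.GaloisLower Fermat.Agent.Lib.Ram.Transport
open Fermat.Agent.Lib.Ram.GaloisTower
open Fermat.Agent.S56x.Local.BddDef Fermat.Agent.S56x.Local.PadicTowerHom
open Fermat.Agent.S56x.Local.KummerLayer
open scoped Fermat.Agent.S56x.Local.PadicAKLB

namespace Fermat.Agent.S56x.Local.BoundedKummerPadicCore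

variable {p : ℕ} [Fact p.Prime]

section Tower

variable (T T' M : IntermediateField ℚ_[p] (PadicAlgCl p))
  [FiniteDimensional ℚ_[p] T] [IsGalois ℚ_[p] T] [FiniteDimensional ℚ_[p] T']
  [FiniteDimensional ℚ_[p] M] [IsGalois ℚ_[p] M]
  [Fact (T ≤ T')] [Fact (T' ≤ M)] [Fact (T ≤ M)]

open Classical in
/-- Serre IV Prop. 3 for `M / T / ℚ_p`. -/
theorem homFormula_base :
    HomFormula (ramNum p M) (resHom ℚ_[p] T M) (ramNum p T) :=
  Prop3Hom.homFormula (A := ℤ_[p]) (K := ℚ_[p]) (L := T) (M := M) (B := OE p T) (C := OE p M)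

variable [IsGalois T T']

open Classical in
/-- Serre IV Prop. 3 for `M / T' / T` over the base `OE p T`. -/
theorem homFormula_layer :
    HomFormula (lowerNumbering (OE p T) T M (OE p M)) (resHom T T' M)
      (lowerNumbering (OE p T) T T' (OE p T')) :=
  Prop3Hom.homFormula (A := OE p T) (K := T) (L := T') (M := M) (B := OE p T') (C := OE p M)

open Classical in
/-- the hypothesis `h'` of `Local/BoundedKummer` for the tower `ℚ_p ⊆ T ⊆ T' ⊆ M`. -/
theorem homFormula_ker :
    HomFormula ((ramNum p M).restrict (resHom ℚ_[p] T M).ker) (kerRes ℚ_[p] T T' M)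
      (lowerNumbering (OE p T) T T' (OE p T')) :=
  homFormula_kerRes (A := ℤ_[p]) (K := ℚ_[p]) (L := T) (M := M) (B := OE p T)
    (C := OE p M) (L' := T') (B' := OE p T') (homFormula_layer T T' M)

/-- the residue field of `OE p T` is perfect. -/
theorem exists_pow_eq_residue (a : ResidueField (OE p T)) : ∃ b, b ^ p = a :=
  surjective_frobenius (ResidueField (OE p T)) p a

omit [Fact (T' ≤ M)] [Fact (T ≤ M)] [FiniteDimensional ℚ_[p] M] [IsGalois ℚ_[p] M] in
/-- a Galois extension of prime degree has a nontrivial automorphism. -/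
theorem exists_ne_one_of_finrank (hdeg : Module.finrank T T' = p) :
    ∃ s : T' ≃ₐ[T] T', s ≠ 1 := by
  have hp : p.Prime := Fact.out
  have hcard : Nat.card (T' ≃ₐ[T] T') = p := by
    rw [IsGalois.card_aut_eq_finrank, hdeg]
  haveI : Nontrivial (T' ≃ₐ[T] T') := by
    rw [← Finite.one_lt_card_iff_nontrivial, hcard]
    exact hp.one_lt
  exact exists_ne 1

open Classical in
/-- **Fontaine's bound forces Kummer generators into `U^(e) · (Tˣ)^p`**: tower form
`ℚ_p ⊆ T ⊆ T' ⊆ M`, `T'/T` Galois of degree `p` generated by a `p`-th root of `x ∈ T`. -/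
theorem exists_mul_pow_mem_of_layer (hp2 : p ≠ 2)
    (hbM : (ramNum p M).UpperBounded (1 / ((p : ℝ) - 1)))
    {ζ : T} (hζ : IsPrimitiveRoot ζ p) (ht : (ramNum p T).IsTame) {m : ℕ}
    (he : (ramNum p T).e0 = (p - 1) * m) (hdeg : Module.finrank T T' = p)
    {x : T} (hx : x ≠ 0) {α' : T'} (hα : α' ^ p = algebraMap T T' x) :
    ∃ z : T, z ≠ 0 ∧ ∃ a : OE p T, algebraMap (OE p T) T a = x * z ^ p ∧
      a - 1 ∈ maximalIdeal (OE p T) ^ (ramNum p T).e0 := by
  have hp : p.Prime := Fact.out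
  obtain ⟨s, hs⟩ := exists_ne_one_of_finrank T T' hdeg
  have hrank : Module.finrank (OE p T) (OE p T') = Module.finrank T T' :=
    PadicAKLB.finrank_OE_OE'
  have heA : IsDiscreteValuationRing.addVal (OE p T) ((p : ℕ) : OE p T) =
      ((ramNum p T).e0 : ℕ∞) := PadicE0.addVal_p_eq_e0 T
  have h0 : (0 : ℝ) ≤ 1 / ((ramNum p M).e0 : ℝ) := by positivity
  have h01 : 1 / ((p : ℝ) - 1) ≤ 1 / ((p : ℝ) - 1) + 1 / ((ramNum p M).e0 : ℝ) :=
    le_add_of_nonneg_right h0
  have hb : (ramNum p M).UpperBounded (1 / ((p : ℝ) - 1) + 1 / (ramNum p M).e0) :=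
    LowerNumbering.UpperBounded.mono _ hbM h01
  exact BoundedKummer.exists_mul_pow_mem_of_upperBounded (A := OE p T) (K := T) (L := T')
    (B := OE p T') hp hp2 hζ (exists_pow_eq_residue T) hdeg hrank he heA hx hα hs
    (resHom_surjective ℚ_[p] T M) (homFormula_base T M) ht (kerRes_surjective ℚ_[p] T T' M)
    (homFormula_ker T T' M) hb

end Tower

/-- **Fontaine's bound forces Kummer generators into `U^(e) · (Tˣ)^p`**, `p`-adic form:
`T/ℚ_p` finite Galois tame with `ζ_p ∈ T`, `e(T/ℚ_p) = (p-1) m`, `M ⊇ T` bounded, `x ∈ Tˣ` with a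
`p`-th root `α ∈ M`. -/
theorem exists_mul_pow_mem_of_isBddField (hp2 : p ≠ 2)
    (T M : IntermediateField ℚ_[p] (PadicAlgCl p)) [FiniteDimensional ℚ_[p] T]
    [IsGalois ℚ_[p] T] (hTM : T ≤ M) (hM : IsBddField p M)
    {ζ : T} (hζ : IsPrimitiveRoot ζ p) (ht : (ramNum p T).IsTame) {m : ℕ}
    (he : (ramNum p T).e0 = (p - 1) * m)
    {x : T} (hx : x ≠ 0) {α : PadicAlgCl p} (hα : α ^ p = (x : PadicAlgCl p)) (hαM : α ∈ M) :
    ∃ z : T, z ≠ 0 ∧ ∃ a : OE p T, algebraMap (OE p T) T a = x * z ^ p ∧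
      a - 1 ∈ maximalIdeal (OE p T) ^ (ramNum p T).e0 := by
  have hp : p.Prime := Fact.out
  by_cases hαT : α ∈ T
  · -- trivial case: `x` is a `p`-th power
    have hα0 : (⟨α, hαT⟩ : T) ≠ 0 := by
      intro h0
      have h1 : α = 0 := congrArg Subtype.val h0
      rw [h1, zero_pow hp.ne_zero] at hα
      exact hx (Subtype.ext hα.symm)
    have hxα : x = (⟨α, hαT⟩ : T) ^ p := Subtype.ext (by
      rw [← hα]; rfl)
    refine ⟨(⟨α, hαT⟩ : T)⁻¹, inv_ne_zero hα0, 1, ?_, ?_⟩
    · rw [hxα, inv_pow, mul_inv_cancel₀ (pow_ne_zero _ hα0), map_one]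
    · rw [sub_self]
      exact Submodule.zero_mem _
  · -- the Kummer layer `T' = T(α)`
    obtain ⟨hfdM, hgalM, hbM⟩ := hM
    have hTT' : T ≤ kummerField T α := le_kummerField T α
    have hT'M : kummerField T α ≤ M := kummerField_le hTM hαM
    haveI : Fact (T ≤ kummerField T α) := ⟨hTT'⟩
    haveI : Fact (kummerField T α ≤ M) := ⟨hT'M⟩
    haveI : Fact (T ≤ M) := ⟨hTM⟩
    haveI : FiniteDimensional ℚ_[p] (kummerField T α) :=
      FiniteDimensional.left ℚ_[p] (kummerField T α) M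
    obtain ⟨hgal', hdeg⟩ := kummerField_isGalois_and_finrank T α hp hζ (x := x) hα hαT
    haveI : IsGalois T (kummerField T α) := hgal'
    exact exists_mul_pow_mem_of_layer T (kummerField T α) M hp2 hbM hζ ht he hdeg hx
      (α' := (⟨α, mem_kummerField T α⟩ : kummerField T α)) (Subtype.ext hα)

end Fermat.Agent.S56x.Local.BoundedKummerPadicCore
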