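/-
P-S56, block (A) LOCAL FLAT, c-slot (helper73): the group-theoretic step from the c-slot kill
to the consumer shape (CSLOT) of `Local/FlatBridge` (helper50).

`Γ` a group, `χ : Γ →* kˣ` a character, `u ∈ Z¹(Γ, k(χ))` (formalism of `Local/DevissageBasic`).
If `I` is a normal subgroup such that `u` vanishes on `I ∩ ker χ` and `χ` is non-trivial on `I`,
then `u` is a coboundary.  (Application: `Γ = G_p`, `χ = η⁻¹ = χ₂/χ₁`, `u` = the `(1,0)`-entry of
a flat tangent cocycle in the upper triangular basis, `I` = inertia; "`u` vanishes on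
`I ∩ ker χ`" is the output of Theorem Q (`Fontaine/UnrQuot*.lean`) or of `Flat/CSlot.cslot_kill`.)
-/
import Mathlib
import Fermat.Agent.S56x.Local.DevissageBasic

set_option autoImplicit false

namespace Fermat.Agent.S56x.Local.Devissage

universe u v

variable {Γ : Type u} [Group Γ] {k : Type v} [Field k]

/-- the commutator identity for scalar cocycles: if `u` vanishes at the commutator
`g⁻¹ t⁻¹ g t`, then `(χ g - 1) u t = (χ t - 1) u g`. -/
theorem cocycle_comm_of_vanish {χ : Γ →* kˣ} {u : Γ → k} (hu : u ∈ Z1 χ) (g t : Γ)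
    (hs : u (g⁻¹ * t⁻¹ * g * t) = 0) :
    ((χ g : k) - 1) * u t = ((χ t : k) - 1) * u g := by
  have h1 : u (g * t) = u g + (χ g : k) * u t := hu g t
  have h2 : u (t * g * (g⁻¹ * t⁻¹ * g * t)) = u (t * g) + (χ (t * g) : k) * 0 := by
    rw [hu (t * g) _, hs]
  have h3 : t * g * (g⁻¹ * t⁻¹ * g * t) = g * t := by group
  rw [h3, mul_zero, add_zero, hu t g, h1] at h2
  linear_combination h2

/-- **c-slot, group-theoretic step.**  A cocycle `u ∈ Z¹(Γ, k(χ))` which vanishes on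
`I ∩ ker χ`, for a normal subgroup `I` on which `χ` is non-trivial, is a coboundary. -/
theorem mem_B1_of_vanish_on_ker {χ : Γ →* kˣ} {u : Γ → k} (hu : u ∈ Z1 χ) (I : Subgroup Γ)
    [I.Normal] (hvan : ∀ s ∈ I, χ s = 1 → u s = 0) {t₀ : Γ} (ht₀ : t₀ ∈ I) (hχ : χ t₀ ≠ 1) :
    u ∈ B1 χ := by
  have ha : ((χ t₀ : k) - 1) ≠ 0 := by
    intro h
    apply hχ
    apply Units.ext
    rw [Units.val_one]
    exact sub_eq_zero.mp h
  rw [mem_B1]
  refine ⟨u t₀ / ((χ t₀ : k) - 1), ?_⟩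
  funext g
  rw [cob_apply]
  have hsI : g⁻¹ * t₀⁻¹ * g * t₀ ∈ I := by
    have h1 : g⁻¹ * t₀⁻¹ * g ∈ I := by
      have := Subgroup.Normal.conj_mem (inferInstance : I.Normal) t₀⁻¹ (I.inv_mem ht₀) g⁻¹
      simpa using this
    exact I.mul_mem h1 ht₀
  have hsχ : χ (g⁻¹ * t₀⁻¹ * g * t₀) = 1 := by
    simp only [map_mul, map_inv]
    rw [mul_comm (χ g)⁻¹, mul_assoc, mul_assoc, ← mul_assoc (χ g)⁻¹]
    simp
  have h := cocycle_comm_of_vanish hu g t₀ (hvan _ hsI hsχ)
  field_simp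
  linear_combination h
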