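import Mathlib
import Fermat.Prelude.Def_GaloisRep_Flat
import Fermat.Prelude.Def_ExtEndgame_ProductionDatum
import Fermat.Agent.S56x.Dict.TanCocycle
import Fermat.Agent.S56x.Fontaine.LocalPoints
import Fermat.Agent.S56x.Local.LocalInertia
import Fermat.Agent.S56x.Local.CSlotB1
import Fermat.Agent.S56x.Local.FlatCases
import Fermat.Agent.S56x.Local.FlatIface
import Fermat.Agent.S56x.Local.KummerOmega

/-!
# P-S56, block (A): the c-slot bridge (CSLOT)

`rbar : Γℚ →* M₂(k)` (`k` a finite field of characteristic `p` odd, `det rbar = ω`), `c` a tangent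
cocycle of `rbar` whose lift `(1 + ε c) rbar` to `k[ε]` is flat at `p` (Prelude `IsFlatAt`), and a
basis `B` of `k²` in which `rbar|G_p` is upper triangular `[χ₁ b; 0 χ₂]`
(`G_p = Gal(PadicAlgCl p/ℚ_p)`, `I = LocalInertia.localInertia' p`).

* **(CS1)** `cslot_mem_B1(_aux)` : if `χ₂|I = 1` then the `(1,0)`-entry of `c|G_p` in the basis `B`
  is a coboundary of `k((χ₁/χ₂)⁻¹)`  (= `hFc` of `Local/FlatCountAbstract`, `hCS1` of
  `Local/CSlotP3`);
* **(CS2)** `bOf_mem_B1_of_unramified_sub` / `bOf_mem_B1_aux` : if `χ₁|I = 1` (wrong order) then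
  `b/χ₂` is a coboundary of `k(χ₁/χ₂)`, i.e. `rbar|G_p` is split (`hCS2` of `Local/CSlotP3`).

Inputs (hypotheses, discharged elsewhere):
* `LocalKill p` : the c-slot kill for finite flat group schemes over `ℤ_p`, sub-quotient form
  (`Fontaine/UnrQuotKill.localKill_unrQuot`, or `Flat/CSlotLocal`);
* `InertiaMovesMuP p` : inertia moves `μ_p` (`Local/CycloInertiaP`).

Proof: the Hopf data of the level `⊥` of the lift (`Fontaine/LocalPoints`), transported to the
model `k² × k²` of `k[ε]²` in the coordinates of `B`; the sub-quotients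
`ε L̄ ≤ ε V̄ ≤ L̄ + ε V̄` (CS1) and `0 ≤ ε L̄ ≤ ε V̄` (CS2); the kill gives vanishing on
`I ∩ ker ω`; then `Local/CSlotB1.mem_B1_of_vanish_on_ker`.
-/

set_option autoImplicit false
set_option linter.unusedSimpArgs false
set_option linter.unusedSectionVars false
set_option linter.style.haveILetI false

noncomputable section

namespace Fermat.Agent.S56x.Local.CSlotBridge

open Fermat.Agent.S56x.Dict Fermat.Agent.S56x.Local.Devissage
  Fermat.Agent.S56x.Local.LocalInertia Fermat.Agent.S56x.Local.FlatIface ExtCitation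

local notation "Γℚ" => (AlgebraicClosure ℚ ≃ₐ[ℚ] AlgebraicClosure ℚ)
local notation "M₂" => Matrix (Fin 2) (Fin 2)

/-- **(KILL), local form** (hypothesis of this file; = `Flat/CSlot.cslot_kill` or Theorem Q of
`Fontaine/UnrQuot*` instantiated at `Ω = PadicAlgCl p`, `O = ℤ_[p]`, `I` = inertia): for a finite
free commutative cocommutative Hopf algebra over `ℤ_p` whose `PadicAlgCl p`-points are identified,
equivariantly for `Gal(PadicAlgCl p/ℚ_p)`, with a finite group `M` killed by `p`, and subgroups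
`M0 ≤ Mh ≤ M1` (`M0` Galois stable) such that inertia acts trivially on `Mh/M0` and through the
cyclotomic exponent on `M1/Mh`: every inertia element fixing `μ_p` acts trivially on `M1/M0`. -/
def LocalKill (p : ℕ) [Fact p.Prime] : Prop :=
  ∀ (Hp : Type) [CommRing Hp] [HopfAlgebra ℤ_[p] Hp] [Module.Finite ℤ_[p] Hp]
    [Module.Free ℤ_[p] Hp] [Coalgebra.IsCocomm ℤ_[p] Hp]
    (M : Type) [AddCommGroup M] [Finite M]
    (e : WithConv (Hp →ₐ[ℤ_[p]] PadicAlgCl p) ≃ M),
    (∀ f g : WithConv (Hp →ₐ[ℤ_[p]] PadicAlgCl p), e (f * g) = e f + e g) →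
    (∀ m : M, p • m = 0) →
    ∀ (act : (PadicAlgCl p ≃ₐ[ℚ_[p]] PadicAlgCl p) → M → M),
    (∀ (τ : PadicAlgCl p ≃ₐ[ℚ_[p]] PadicAlgCl p)
      (f g : WithConv (Hp →ₐ[ℤ_[p]] PadicAlgCl p)), (∀ h : Hp, g h = τ (f h)) →
        e g = act τ (e f)) →
    ∀ (a : (PadicAlgCl p ≃ₐ[ℚ_[p]] PadicAlgCl p) → ℕ),
    (∀ (τ : PadicAlgCl p ≃ₐ[ℚ_[p]] PadicAlgCl p) (ζ : PadicAlgCl p), ζ ^ p = 1 →
      τ ζ = ζ ^ a τ) →
    ∀ (M0 Mh M1 : AddSubgroup M), M0 ≤ Mh → Mh ≤ M1 →
    (∀ (τ : PadicAlgCl p ≃ₐ[ℚ_[p]] PadicAlgCl p), ∀ m ∈ M0, act τ m ∈ M0) →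
    (∀ t ∈ localInertia' p, ∀ m ∈ Mh, act t m - m ∈ M0) →
    (∀ t ∈ localInertia' p, ∀ m ∈ M1, act t m - a t • m ∈ Mh) →
    ∀ s ∈ localInertia' p, (∀ ζ : PadicAlgCl p, ζ ^ p = 1 → s ζ = ζ) →
      ∀ m ∈ M1, act s m - m ∈ M0


/-! ### The model `k² × k²` of `k[ε]²` -/

section Model

variable {k : Type} [Field k]

/-- the model `k² × k²` of `k[ε]²`: `(x, y) ↔ x + ε y`. -/
abbrev Mod (k : Type) [Field k] : Type := (Fin 2 → k) × (Fin 2 → k)

/-- the action of `R + ε N` on the model: `(x, y) ↦ (R x, R y + N x)`. -/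
def actMod (R N : M₂ k) (m : Mod k) : Mod k :=
  (R.mulVec m.1, R.mulVec m.2 + N.mulVec m.1)

theorem actMod_add (R N : M₂ k) (m m' : Mod k) :
    actMod R N (m + m') = actMod R N m + actMod R N m' := by
  ext i
  · simp [actMod, Matrix.mulVec_add]
  · simp only [actMod, Prod.fst_add, Prod.snd_add, Matrix.mulVec_add, Pi.add_apply]
    abel

/-- `ε L̄`: constant part `0`, `ε`-part on the line `k e₀`. -/
def subM0 (k : Type) [Field k] : AddSubgroup (Mod k) where
  carrier := {m | m.1 = 0 ∧ m.2 1 = 0}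
  zero_mem' := ⟨rfl, rfl⟩
  add_mem' := by
    rintro m m' ⟨h1, h2⟩ ⟨h1', h2'⟩
    exact ⟨by simp [h1, h1'], by simp [h2, h2']⟩
  neg_mem' := by
    rintro m ⟨h1, h2⟩
    exact ⟨by simp [h1], by simp [h2]⟩

/-- `ε V̄`: constant part `0`. -/
def subMh (k : Type) [Field k] : AddSubgroup (Mod k) where
  carrier := {m | m.1 = 0}
  zero_mem' := rfl
  add_mem' := by
    rintro m m' h1 h1'
    simp only [Set.mem_ofPred_eq] at h1 h1' ⊢
    simp [h1, h1']
  neg_mem' := by
    rintro m h1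
    simp only [Set.mem_ofPred_eq] at h1 ⊢
    simp [h1]

/-- `L̄ + ε V̄`: constant part on the line `k e₀`. -/
def subM1 (k : Type) [Field k] : AddSubgroup (Mod k) where
  carrier := {m | m.1 1 = 0}
  zero_mem' := rfl
  add_mem' := by
    rintro m m' h1 h1'
    simp only [Set.mem_ofPred_eq] at h1 h1' ⊢
    simp [h1, h1']
  neg_mem' := by
    rintro m h1
    simp only [Set.mem_ofPred_eq] at h1 ⊢
    simp [h1]

theorem mem_subM0 {m : Mod k} : m ∈ subM0 k ↔ m.1 = 0 ∧ m.2 1 = 0 := Iff.rfl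
theorem mem_subMh {m : Mod k} : m ∈ subMh k ↔ m.1 = 0 := Iff.rfl
theorem mem_subM1 {m : Mod k} : m ∈ subM1 k ↔ m.1 1 = 0 := Iff.rfl

theorem subM0_le_subMh : subM0 k ≤ subMh k := fun _ h => h.1

theorem subMh_le_subM1 : subMh k ≤ subM1 k := fun m h => by
  rw [mem_subMh] at h
  rw [mem_subM1, h]
  rfl

/-- upper triangular matrices. -/
def ut (x₁ β x₂ : k) : M₂ k := !![x₁, β; 0, x₂]

@[simp] theorem ut_zero_zero (x₁ β x₂ : k) : ut x₁ β x₂ 0 0 = x₁ := rfl
@[simp] theorem ut_zero_one (x₁ β x₂ : k) : ut x₁ β x₂ 0 1 = β := rfl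
@[simp] theorem ut_one_zero (x₁ β x₂ : k) : ut x₁ β x₂ 1 0 = 0 := rfl
@[simp] theorem ut_one_one (x₁ β x₂ : k) : ut x₁ β x₂ 1 1 = x₂ := rfl

theorem mulVec_zero' (A : M₂ k) (v : Fin 2 → k) : A.mulVec v 0 = A 0 0 * v 0 + A 0 1 * v 1 := by
  simp [Matrix.mulVec, dotProduct, Fin.sum_univ_two]

theorem mulVec_one' (A : M₂ k) (v : Fin 2 → k) : A.mulVec v 1 = A 1 0 * v 0 + A 1 1 * v 1 := by
  simp [Matrix.mulVec, dotProduct, Fin.sum_univ_two]

variable (x₁ β x₂ : k) (N : M₂ k)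

/-- `ε L̄` is stable. -/
theorem actMod_mem_subM0 {m : Mod k} (hm : m ∈ subM0 k) : actMod (ut x₁ β x₂) N m ∈ subM0 k := by
  obtain ⟨h1, h2⟩ := hm
  refine ⟨?_, ?_⟩
  · simp [actMod, h1]
  · simp [actMod, h1, mulVec_zero', mulVec_one', h2]

/-- (h1) of (CS1): if `x₂ = 1`, the action is trivial on `ε V̄ / ε L̄`. -/
theorem actMod_sub_mem_subM0 (hx₂ : x₂ = 1) {m : Mod k} (hm : m ∈ subMh k) :
    actMod (ut x₁ β x₂) N m - m ∈ subM0 k := by
  rw [mem_subMh] at hm
  refine ⟨?_, ?_⟩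
  · simp [actMod, hm]
  · simp [actMod, hm, mulVec_zero', mulVec_one', hx₂]

/-- (h2) of (CS1): if `x₁ = a`, the action on `(L̄ + ε V̄) / ε V̄` is multiplication by `a`. -/
theorem actMod_sub_nsmul_mem_subMh (a : ℕ) (hx₁ : x₁ = (a : k)) {m : Mod k} (hm : m ∈ subM1 k) :
    actMod (ut x₁ β x₂) N m - a • m ∈ subMh k := by
  rw [mem_subM1] at hm
  rw [mem_subMh]
  ext i
  fin_cases i
  · simp [actMod, mulVec_zero', mulVec_one', hm, hx₁]
  · simp [actMod, mulVec_zero', mulVec_one', hm]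

/-- extraction for (CS1): if the action moves `e₀` by an element of `ε L̄`, then `x₁ = 1` and
`N 1 0 = 0`. -/
theorem of_actMod_sub_mem_subM0
    (h : actMod (ut x₁ β x₂) N (![1, 0], 0) - (![1, 0], 0) ∈ subM0 k) :
    x₁ = 1 ∧ N 1 0 = 0 := by
  obtain ⟨h1, h2⟩ := h
  constructor
  · have := congrFun h1 0
    simpa [actMod, mulVec_zero', mulVec_one', sub_eq_zero] using this
  · simpa [actMod, Matrix.mulVec, dotProduct, Fin.sum_univ_two] using h2

/-- (h1) of (CS2): if `x₁ = 1`, the action is trivial on `ε L̄`. -/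
theorem actMod_sub_mem_bot (hx₁ : x₁ = 1) {m : Mod k} (hm : m ∈ subM0 k) :
    actMod (ut x₁ β x₂) N m - m ∈ (⊥ : AddSubgroup (Mod k)) := by
  obtain ⟨h1, h2⟩ := hm
  rw [AddSubgroup.mem_bot]
  ext i
  · simp [actMod, h1]
  · fin_cases i
    · simp [actMod, h1, mulVec_zero', mulVec_one', h2, hx₁]
    · simp [actMod, h1, mulVec_zero', mulVec_one', h2]

/-- (h2) of (CS2): if `x₂ = a`, the action on `ε V̄ / ε L̄` is multiplication by `a`. -/
theorem actMod_sub_nsmul_mem_subM0 (a : ℕ) (hx₂ : x₂ = (a : k)) {m : Mod k}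
    (hm : m ∈ subMh k) : actMod (ut x₁ β x₂) N m - a • m ∈ subM0 k := by
  rw [mem_subMh] at hm
  refine ⟨?_, ?_⟩
  · simp [actMod, hm]
  · simp [actMod, hm, mulVec_zero', mulVec_one', hx₂]

/-- extraction for (CS2): if the action is trivial on `ε V̄` then `β = 0`. -/
theorem of_actMod_sub_mem_bot
    (h : actMod (ut x₁ β x₂) N (0, ![0, 1]) - (0, ![0, 1]) ∈ (⊥ : AddSubgroup (Mod k))) :
    β = 0 := by
  rw [AddSubgroup.mem_bot] at h
  have := congrFun (congrArg Prod.snd h) 0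
  simpa [actMod, mulVec_zero', mulVec_one'] using this

end Model

/-! ### Coordinates on `k[ε]²` -/

section Transport

open TrivSqZeroExt

variable {k : Type} [Field k]

theorem mulVec_mulVec_cancel {B Bi : M₂ k} (h1 : B * Bi = 1) (x : Fin 2 → k) :
    B.mulVec (Bi.mulVec x) = x := by
  rw [Matrix.mulVec_mulVec, h1, Matrix.one_mulVec]

/-- coordinates of `k[ε]²` in the basis `B`: `v = x + ε y ↦ (B⁻¹ x, B⁻¹ y)`. -/
def coord (B Bi : M₂ k) (h1 : B * Bi = 1) (h2 : Bi * B = 1) :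
    (Fin 2 → DualNumber k) ≃+ Mod k where
  toFun v := (Bi.mulVec (fun i => (v i).fst), Bi.mulVec (fun i => (v i).snd))
  invFun m := fun i => inl (B.mulVec m.1 i) + inr (B.mulVec m.2 i)
  left_inv v := by
    funext i
    have e1 := congrFun (mulVec_mulVec_cancel h1 (fun i => (v i).fst)) i
    have e2 := congrFun (mulVec_mulVec_cancel h1 (fun i => (v i).snd)) i
    apply TrivSqZeroExt.ext
    · simp only [fst_add, fst_inl, fst_inr, add_zero]
      exact e1
    · simp only [snd_add, snd_inl, snd_inr, zero_add]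
      exact e2
  right_inv m := by
    have e1 := mulVec_mulVec_cancel h2 m.1
    have e2 := mulVec_mulVec_cancel h2 m.2
    refine Prod.ext ?_ ?_
    · simp only [fst_add, fst_inl, fst_inr, add_zero]
      exact e1
    · simp only [snd_add, snd_inl, snd_inr, zero_add]
      exact e2
  map_add' v w := by
    refine Prod.ext ?_ ?_
    · show Bi.mulVec (fun i => ((v + w) i).fst) = _
      have : (fun i => ((v + w) i).fst) = (fun i => (v i).fst) + (fun i => (w i).fst) := by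
        funext i; simp
      rw [this, Matrix.mulVec_add]
      rfl
    · show Bi.mulVec (fun i => ((v + w) i).snd) = _
      have : (fun i => ((v + w) i).snd) = (fun i => (v i).snd) + (fun i => (w i).snd) := by
        funext i; simp
      rw [this, Matrix.mulVec_add]
      rfl

theorem fst_dn_mulVec (A N₀ : M₂ k) (v : Fin 2 → DualNumber k) :
    (fun i => ((dn A N₀).mulVec v i).fst) = A.mulVec (fun i => (v i).fst) := by
  funext i
  simp [Matrix.mulVec, dotProduct, Fin.sum_univ_two]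

theorem snd_dn_mulVec (A N₀ : M₂ k) (v : Fin 2 → DualNumber k) :
    (fun i => ((dn A N₀).mulVec v i).snd) =
      A.mulVec (fun i => (v i).snd) + N₀.mulVec (fun i => (v i).fst) := by
  funext i
  fin_cases i <;> simp [Matrix.mulVec, dotProduct, Fin.sum_univ_two] <;> ring

/-- the action of `A + ε N₀` in coordinates. -/
theorem coord_dn_mulVec (B Bi : M₂ k) (h1 : B * Bi = 1) (h2 : Bi * B = 1) (A N₀ : M₂ k)
    (v : Fin 2 → DualNumber k) :
    coord B Bi h1 h2 ((dn A N₀).mulVec v) =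
      actMod (Bi * A * B) (Bi * N₀ * B) (coord B Bi h1 h2 v) := by
  have key : ∀ (X : M₂ k) (x : Fin 2 → k),
      Bi.mulVec (X.mulVec x) = (Bi * X * B).mulVec (Bi.mulVec x) := by
    intro X x
    rw [Matrix.mulVec_mulVec, Matrix.mulVec_mulVec, Matrix.mul_assoc (Bi * X), h1,
      Matrix.mul_one]
  refine Prod.ext ?_ ?_
  · show Bi.mulVec (fun i => ((dn A N₀).mulVec v i).fst) = _
    rw [fst_dn_mulVec, key]
    rfl
  · show Bi.mulVec (fun i => ((dn A N₀).mulVec v i).snd) = _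
    rw [snd_dn_mulVec, Matrix.mulVec_add, key, key]
    rfl

end Transport


/-! ### The cyclotomic exponent on the local Galois group -/

section Cyclo

variable (p : ℕ) [Fact p.Prime]

local notation "Ωp" => PadicAlgCl p
local notation "GQp" => (PadicAlgCl p ≃ₐ[ℚ_[p]] PadicAlgCl p)

/-- the cyclotomic exponent of `τ ∈ Gal(PadicAlgCl p/ℚ_p)`, as a natural number `< p`. -/
def cycExp (τ : GQp) : ℕ :=
  ((cycloChar p (localGaloisToGlobal p τ) : (ZMod p)ˣ) : ZMod p).val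

/-- `loc τ` raises the `p`-th roots of unity of `Qbar` to the power `cycExp τ`. -/
theorem global_apply_eq_pow_cycExp (τ : GQp) (μ : AlgebraicClosure ℚ) (hμ : μ ^ p = 1) :
    localGaloisToGlobal p τ μ = μ ^ cycExp p τ :=
  KummerOmega.cycloChar_spec _ μ hμ

/-- `τ` raises the `p`-th roots of unity of `PadicAlgCl p` to the power `cycExp τ`. -/
theorem apply_eq_pow_cycExp (τ : GQp) (ζ : Ωp) (hζ : ζ ^ p = 1) : τ ζ = ζ ^ cycExp p τ := by
  have hp : p.Prime := Fact.out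
  obtain ⟨ζ0, hζ0⟩ := KummerOmega.exists_primitiveRoot_Qbar (p := p)
  have hζ1 : IsPrimitiveRoot (padicEmbedding p ζ0) p :=
    hζ0.map_of_injective (padicEmbedding p).toRingHom.injective
  obtain ⟨j, -, rfl⟩ := hζ1.eq_pow_of_pow_eq_one hζ
  have h1 : τ (padicEmbedding p ζ0) = padicEmbedding p ζ0 ^ cycExp p τ := by
    rw [← padicEmbedding_localGaloisToGlobal, global_apply_eq_pow_cycExp p τ ζ0 hζ0.pow_eq_one,
      map_pow]
  rw [map_pow, h1, ← pow_mul, ← pow_mul, mul_comm]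

/-- if `(a : k) = 1` in characteristic `p` then `ζ ^ a = ζ` for `p`-th roots of unity. -/
theorem pow_eq_self_of_cast_eq_one {k : Type} [Field k] [CharP k p] {R : Type*} [Monoid R]
    {a : ℕ} (ha : (a : k) = 1) {ζ : R} (hζ : ζ ^ p = 1) : ζ ^ a = ζ := by
  have hp : p.Prime := Fact.out
  have h1 : (a : k) = ((1 : ℕ) : k) := by rw [ha, Nat.cast_one]
  have h2 : a ≡ 1 [MOD p] := (CharP.natCast_eq_natCast k p).mp h1
  have h3 : a % p = 1 := by
    rw [h2, Nat.mod_eq_of_lt hp.one_lt]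
  conv_lhs => rw [← Nat.div_add_mod a p]
  rw [pow_add, pow_mul, hζ, one_pow, one_mul, h3, pow_one]

end Cyclo

/-! ### The Hopf data of a flat tangent cocycle, in coordinates -/

section Entry

open TrivSqZeroExt Fermat.Agent.S53

variable {p : ℕ} [Fact p.Prime] {k : Type} [Field k] {rbar : Γℚ →* M₂ k}

theorem finite_dualNumber_quot_bot [Finite k] :
    Finite (DualNumber k ⧸ (⊥ : Ideal (DualNumber k))) := by
  have : Finite (DualNumber k) :=
    Finite.of_injective (fun x : DualNumber k => (x.fst, x.snd))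
      (fun x y h => TrivSqZeroExt.ext (congrArg Prod.fst h) (congrArg Prod.snd h))
  exact Finite.of_surjective _ (Ideal.Quotient.mk_surjective)

/-- **Entry.** The Hopf algebra data of a flat lift `(1 + ε c) rbar`, with the points identified
with the model `k² × k²` in the coordinates of a basis `B` of `k²`. -/
theorem exists_model_of_isFlatAt [Finite k] (hrbar : GaloisFactorsThroughFiniteLevel rbar)
    (c : TanCocycle rbar) (hc : (c.lift hrbar).IsFlatAt p)
    (B Bi : M₂ k) (h1 : B * Bi = 1) (h2 : Bi * B = 1) :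
    ∃ (Hp : Type) (_ : CommRing Hp) (_ : HopfAlgebra ℤ_[p] Hp),
      Module.Finite ℤ_[p] Hp ∧ Module.Free ℤ_[p] Hp ∧ Coalgebra.IsCocomm ℤ_[p] Hp ∧
      ∃ E : WithConv (Hp →ₐ[ℤ_[p]] PadicAlgCl p) ≃ Mod k,
        (∀ f g : WithConv (Hp →ₐ[ℤ_[p]] PadicAlgCl p), E (f * g) = E f + E g) ∧
        ∀ (τ : PadicAlgCl p ≃ₐ[ℚ_[p]] PadicAlgCl p)
          (f g : WithConv (Hp →ₐ[ℤ_[p]] PadicAlgCl p)), (∀ h : Hp, g h = τ (f h)) →
          E g = actMod (Bi * rbar (localGaloisToGlobal p τ) * B)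
            (Bi * (c.c (localGaloisToGlobal p τ) * rbar (localGaloisToGlobal p τ)) * B) (E f) := by
  obtain ⟨Hp, i1, i2, hfin, hfree, hcocomm, e, he, hact⟩ :=
    Fermat.Agent.S56x.Fontaine.LocalPoints.exists_local_hopf_of_isFlatAt (c.lift hrbar) hc ⊥
      finite_dualNumber_quot_bot
  have hbot : (⊥ : Ideal (DualNumber k)) • (⊤ : Submodule (DualNumber k) (c.lift hrbar).V) = ⊥ :=
    Submodule.bot_smul _
  let Ψ : ((c.lift hrbar).V ⧸ ((⊥ : Ideal (DualNumber k)) •
      (⊤ : Submodule (DualNumber k) (c.lift hrbar).V))) ≃+ (Fin 2 → DualNumber k) :=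
    (Submodule.quotEquivOfEqBot _ hbot).toAddEquiv
  have hΨ : ∀ v : (c.lift hrbar).V, Ψ (Submodule.Quotient.mk v) = v := fun v => rfl
  let Φ := coord B Bi h1 h2
  refine ⟨Hp, i1, i2, hfin, hfree, hcocomm, e.trans (Ψ.trans Φ).toEquiv, ?_, ?_⟩
  · intro f g
    show Φ (Ψ (e (f * g))) = Φ (Ψ (e f)) + Φ (Ψ (e g))
    rw [he, map_add, map_add]
  · intro τ f g hfg
    show Φ (Ψ (e g)) = _
    rw [hact τ f g hfg]
    obtain ⟨v, hv⟩ := Submodule.Quotient.mk_surjective _ (e f)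
    show Φ (Ψ ((c.lift hrbar).levelAction ⊥ (localGaloisToGlobal p τ) (e f))) =
      actMod _ _ (Φ (Ψ (e f)))
    rw [← hv]
    have h3 : (c.lift hrbar).levelAction ⊥ (localGaloisToGlobal p τ)
        (Submodule.Quotient.mk v) =
        Submodule.Quotient.mk ((c.lift hrbar).ρ (localGaloisToGlobal p τ) v) := rfl
    rw [h3, hΨ, hΨ]
    have h4 : (c.lift hrbar).ρ (localGaloisToGlobal p τ) v =
        (dn (rbar (localGaloisToGlobal p τ))
          (c.c (localGaloisToGlobal p τ) * rbar (localGaloisToGlobal p τ))).mulVec v := rfl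
    rw [h4]
    exact coord_dn_mulVec B Bi h1 h2 _ _ v

end Entry


/-! ### The c-slot theorems -/

section Main

variable {p : ℕ} [Fact p.Prime] {k : Type} [Field k] {rbar : Γℚ →* M₂ k}

local notation "GQp" => (PadicAlgCl p ≃ₐ[ℚ_[p]] PadicAlgCl p)

/-- inertia moves `μ_p`: the arithmetic input `hram` of the c-slot theorems (`p` odd). -/
def InertiaMovesMuP (p : ℕ) [Fact p.Prime] : Prop :=
  ∃ t₀ ∈ localInertia' p, ∃ ζ : PadicAlgCl p, ζ ^ p = 1 ∧ t₀ ζ ≠ ζ

theorem ut_eq_of_mul_eq {B Bi : M₂ k} (h2 : Bi * B = 1) {A : M₂ k} {x₁ β x₂ : k}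
    (h : A * B = B * !![x₁, β; 0, x₂]) : Bi * A * B = ut x₁ β x₂ := by
  rw [Matrix.mul_assoc, h, ← Matrix.mul_assoc, h2, Matrix.one_mul]
  rfl

theorem det_eq_of_mul_eq {B : M₂ k} (hB : B.det ≠ 0) {A : M₂ k} {x₁ β x₂ : k}
    (h : A * B = B * !![x₁, β; 0, x₂]) : A.det = x₁ * x₂ := by
  have h1 := congrArg Matrix.det h
  rw [Matrix.det_mul, Matrix.det_mul, Matrix.det_fin_two_of] at h1
  have h2 : A.det * B.det = (x₁ * x₂) * B.det := by rw [h1]; ring
  exact mul_right_cancel₀ hB h2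

variable [Finite k] [CharP k p]

theorem nsmul_mod_eq_zero (m : Mod k) : p • m = 0 := by
  rw [← Nat.cast_smul_eq_nsmul k p m, CharP.cast_eq_zero k p, zero_smul]

/-- **(CS1), the c-slot.**  `rbar|G_p` upper triangular `[χ₁ b; 0 χ₂]` in the basis `B`, with `χ₂`
unramified; `c` a tangent cocycle whose lift is flat at `p`.  Then the `(1,0)`-entry of `c|G_p`
in the basis `B` is a coboundary for `(χ₁/χ₂)⁻¹`. -/
theorem cslot_mem_B1_aux (hK : LocalKill p) (hram : InertiaMovesMuP p)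
    (hrbar : GaloisFactorsThroughFiniteLevel rbar) (hdet : DetIsCycloModP p rbar)
    (c : TanCocycle rbar) (hc : (c.lift hrbar).IsFlatAt p)
    {B : M₂ k} (hB : B.det ≠ 0) {χ₁ χ₂ : GQp →* kˣ} {b : GQp → k}
    (h : ∀ g, rbar (localGaloisToGlobal p g) * B = B * !![(χ₁ g : k), b g; 0, (χ₂ g : k)])
    (hχ₂ : ∀ t ∈ localInertia' p, χ₂ t = 1) :
    (fun g : GQp => (B⁻¹ * c.c (localGaloisToGlobal p g) * B) 1 0) ∈ B1 (χ₁ / χ₂)⁻¹ := by
  classical
  have h1 : B * B⁻¹ = 1 := Matrix.mul_nonsing_inv B (isUnit_iff_ne_zero.2 hB)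
  have h2 : B⁻¹ * B = 1 := Matrix.nonsing_inv_mul B (isUnit_iff_ne_zero.2 hB)
  set Bi := B⁻¹ with hBi
  -- the conjugated representation and cocycle
  have hT : ∀ g, Bi * rbar (localGaloisToGlobal p g) * B = ut (χ₁ g : k) (b g) (χ₂ g : k) :=
    fun g => ut_eq_of_mul_eq h2 (h g)
  have hdetg : ∀ g, (χ₁ g : k) * (χ₂ g : k) = (cycExp p g : k) := by
    intro g
    rw [← det_eq_of_mul_eq hB (h g)]
    exact hdet _ _ (global_apply_eq_pow_cycExp p g)
  have hχ₁I : ∀ t ∈ localInertia' p, (χ₁ t : k) = (cycExp p t : k) := by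
    intro t ht
    rw [← hdetg t, hχ₂ t ht, Units.val_one, mul_one]
  set u : GQp → k := fun g => (Bi * c.c (localGaloisToGlobal p g) * B) 1 0 with hu_def
  have hχval : ∀ g, (((χ₁ / χ₂)⁻¹ g : kˣ) : k) * (χ₁ g : k) = (χ₂ g : k) := by
    intro g
    have : (χ₁ / χ₂)⁻¹ g * χ₁ g = χ₂ g := by
      simp [div_eq_mul_inv, mul_comm]
    rw [← Units.val_mul, this]
  -- (a) `u` is a cocycle
  have hu : u ∈ Z1 (χ₁ / χ₂)⁻¹ := by
    intro g g'
    set σ := localGaloisToGlobal p g with hσ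
    set σ' := localGaloisToGlobal p g' with hσ'
    have hc1 : c.c (localGaloisToGlobal p (g * g')) = c.c σ + rbar σ * c.c σ' * rbar σ⁻¹ := by
      rw [map_mul]; exact c.map_mul' σ σ'
    -- `X := B⁻¹ (rbar σ c σ' rbar σ⁻¹) B` satisfies `X T = T c'`
    set X := Bi * (rbar σ * c.c σ' * rbar σ⁻¹) * B with hX
    have hXT : X * ut (χ₁ g : k) (b g) (χ₂ g : k) =
        ut (χ₁ g : k) (b g) (χ₂ g : k) * (Bi * c.c σ' * B) := by
      rw [← hT g, hX]
      have e1 : Bi * (rbar σ * c.c σ' * rbar σ⁻¹) * B * (Bi * rbar σ * B) =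
          Bi * (rbar σ * c.c σ' * (rbar σ⁻¹ * (B * Bi) * rbar σ)) * B := by
        simp only [Matrix.mul_assoc]
      have e2 : Bi * rbar σ * B * (Bi * c.c σ' * B) =
          Bi * (rbar σ * (B * Bi) * c.c σ') * B := by
        simp only [Matrix.mul_assoc]
      rw [e1, e2, h1, Matrix.mul_one, Matrix.mul_one, TanCocycle.rbar_inv_mul, Matrix.mul_one]
    have hX10 : X 1 0 * (χ₁ g : k) = (χ₂ g : k) * u g' := by
      have := congrFun (congrFun hXT 1) 0
      simpa [Matrix.mul_apply, Fin.sum_univ_two, hu_def] using this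
    have hsplit : u (g * g') = u g + X 1 0 := by
      show (Bi * c.c (localGaloisToGlobal p (g * g')) * B) 1 0 = _
      rw [hc1, Matrix.mul_add, Matrix.add_mul, Matrix.add_apply]
    rw [hsplit]
    congr 1
    have hne : (χ₁ g : k) ≠ 0 := Units.ne_zero _
    apply mul_right_cancel₀ hne
    rw [hX10, mul_assoc, mul_comm (u g'), ← mul_assoc, hχval]
  -- (b) vanishing on `I ∩ ker`
  have hvan : ∀ s ∈ localInertia' p, (χ₁ / χ₂)⁻¹ s = 1 → u s = 0 := by
    intro s hs hχs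
    have hχ₁s : (χ₁ s : k) = 1 := by
      have := hχval s
      rw [hχs, Units.val_one, one_mul, hχ₂ s hs, Units.val_one] at this
      exact this
    have hcast : (cycExp p s : k) = 1 := by rw [← hχ₁I s hs, hχ₁s]
    have hsfix : ∀ ζ : PadicAlgCl p, ζ ^ p = 1 → s ζ = ζ := fun ζ hζ => by
      rw [apply_eq_pow_cycExp p s ζ hζ, pow_eq_self_of_cast_eq_one p hcast hζ]
    obtain ⟨Hp, i1, i2, hfin, hfree, hcocomm, E, hE, hEact⟩ :=
      exists_model_of_isFlatAt hrbar c hc B Bi h1 h2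
    have key := hK Hp (Mod k) E hE nsmul_mod_eq_zero
      (fun τ => actMod (Bi * rbar (localGaloisToGlobal p τ) * B)
        (Bi * (c.c (localGaloisToGlobal p τ) * rbar (localGaloisToGlobal p τ)) * B))
      hEact (cycExp p) (apply_eq_pow_cycExp p) (subM0 k) (subMh k) (subM1 k)
      subM0_le_subMh subMh_le_subM1
      (fun τ m hm => by rw [hT τ]; exact actMod_mem_subM0 _ _ _ _ hm)
      (fun t ht m hm => by
        rw [hT t]
        exact actMod_sub_mem_subM0 _ _ _ _ (by rw [hχ₂ t ht, Units.val_one]) hm)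
      (fun t ht m hm => by
        rw [hT t]
        exact actMod_sub_nsmul_mem_subMh _ _ _ _ _ (hχ₁I t ht) hm)
      s hs hsfix (![1, 0], 0) (by rw [mem_subM1]; rfl)
    rw [hT s] at key
    obtain ⟨-, hN⟩ := of_actMod_sub_mem_subM0 _ _ _ _ key
    -- `N = c' T`
    have hN' : (Bi * (c.c (localGaloisToGlobal p s) * rbar (localGaloisToGlobal p s)) * B) =
        (Bi * c.c (localGaloisToGlobal p s) * B) * ut (χ₁ s : k) (b s) (χ₂ s : k) := by
      rw [← hT s]
      have e2 : Bi * c.c (localGaloisToGlobal p s) * B * (Bi * rbar (localGaloisToGlobal p s) * B)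
          = Bi * (c.c (localGaloisToGlobal p s) * (B * Bi) * rbar (localGaloisToGlobal p s)) * B := by
        simp only [Matrix.mul_assoc]
      rw [e2, h1, Matrix.mul_one]
    rw [hN'] at hN
    have : u s * (χ₁ s : k) = 0 := by
      simpa [Matrix.mul_apply, Fin.sum_univ_two, hu_def] using hN
    rcases mul_eq_zero.mp this with h0 | h0
    · exact h0
    · exact absurd h0 (Units.ne_zero _)
  -- (c) `χ` is non-trivial on inertia
  obtain ⟨t₀, ht₀, ζ, hζ, hζt⟩ := hram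
  have hχt₀ : (χ₁ / χ₂)⁻¹ t₀ ≠ 1 := by
    intro hχs
    have hχ₁s : (χ₁ t₀ : k) = 1 := by
      have := hχval t₀
      rw [hχs, Units.val_one, one_mul, hχ₂ t₀ ht₀, Units.val_one] at this
      exact this
    have hcast : (cycExp p t₀ : k) = 1 := by rw [← hχ₁I t₀ ht₀, hχ₁s]
    apply hζt
    rw [apply_eq_pow_cycExp p t₀ ζ hζ, pow_eq_self_of_cast_eq_one p hcast hζ]
  haveI : (localInertia' p).Normal := localInertia'_normal p
  exact mem_B1_of_vanish_on_ker hu (localInertia' p) hvan ht₀ hχt₀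


/-- **(CS2), wrong order.**  `rbar|G_p` upper triangular `[χ₁ b; 0 χ₂]` in the basis `B`, with the
SUB-character `χ₁` unramified.  If some tangent cocycle has a flat lift then the extension class
`b/χ₂` is a coboundary (so `rbar|G_p` is split, and one can swap the two basis vectors). -/
theorem bOf_mem_B1_aux (hK : LocalKill p) (hram : InertiaMovesMuP p)
    (hrbar : GaloisFactorsThroughFiniteLevel rbar) (hdet : DetIsCycloModP p rbar)
    (c : TanCocycle rbar) (hc : (c.lift hrbar).IsFlatAt p)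
    {B : M₂ k} (hB : B.det ≠ 0) {χ₁ χ₂ : GQp →* kˣ} {b : GQp → k}
    (h : ∀ g, rbar (localGaloisToGlobal p g) * B = B * !![(χ₁ g : k), b g; 0, (χ₂ g : k)])
    (hχ₁ : ∀ t ∈ localInertia' p, χ₁ t = 1) :
    bOf χ₂ b ∈ B1 (χ₁ / χ₂) := by
  classical
  have h1 : B * B⁻¹ = 1 := Matrix.mul_nonsing_inv B (isUnit_iff_ne_zero.2 hB)
  have h2 : B⁻¹ * B = 1 := Matrix.nonsing_inv_mul B (isUnit_iff_ne_zero.2 hB)
  set Bi := B⁻¹ with hBi
  have hT : ∀ g, Bi * rbar (localGaloisToGlobal p g) * B = ut (χ₁ g : k) (b g) (χ₂ g : k) :=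
    fun g => ut_eq_of_mul_eq h2 (h g)
  have hdetg : ∀ g, (χ₁ g : k) * (χ₂ g : k) = (cycExp p g : k) := by
    intro g
    rw [← det_eq_of_mul_eq hB (h g)]
    exact hdet _ _ (global_apply_eq_pow_cycExp p g)
  have hχ₂I : ∀ t ∈ localInertia' p, (χ₂ t : k) = (cycExp p t : k) := by
    intro t ht
    rw [← hdetg t, hχ₁ t ht, Units.val_one, one_mul]
  -- the matrix representation `g ↦ ut ..` is `IsUT`
  let ρ : MatRep GQp k := FlatBridge.conjHomRep (rbar.comp (localGaloisToGlobal p)) B hB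
  have hUT : IsUT ρ χ₁ χ₂ b := FlatBridge.isUT_conjRep (rbar.comp (localGaloisToGlobal p)) hB h
  have hu : bOf χ₂ b ∈ Z1 (χ₁ / χ₂) := bOf_mem_Z1 hUT
  have hχval : ∀ g, (((χ₁ / χ₂) g : kˣ) : k) * (χ₂ g : k) = (χ₁ g : k) := by
    intro g
    have : (χ₁ / χ₂) g * χ₂ g = χ₁ g := by simp [div_eq_mul_inv]
    rw [← Units.val_mul, this]
  have hvan : ∀ s ∈ localInertia' p, (χ₁ / χ₂) s = 1 → bOf χ₂ b s = 0 := by
    intro s hs hχs
    have hχ₂s : (χ₂ s : k) = 1 := by
      have := hχval s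
      rw [hχs, Units.val_one, one_mul, hχ₁ s hs, Units.val_one] at this
      exact this
    have hcast : (cycExp p s : k) = 1 := by rw [← hχ₂I s hs, hχ₂s]
    have hsfix : ∀ ζ : PadicAlgCl p, ζ ^ p = 1 → s ζ = ζ := fun ζ hζ => by
      rw [apply_eq_pow_cycExp p s ζ hζ, pow_eq_self_of_cast_eq_one p hcast hζ]
    obtain ⟨Hp, i1, i2, hfin, hfree, hcocomm, E, hE, hEact⟩ :=
      exists_model_of_isFlatAt hrbar c hc B Bi h1 h2
    have key := hK Hp (Mod k) E hE nsmul_mod_eq_zero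
      (fun τ => actMod (Bi * rbar (localGaloisToGlobal p τ) * B)
        (Bi * (c.c (localGaloisToGlobal p τ) * rbar (localGaloisToGlobal p τ)) * B))
      hEact (cycExp p) (apply_eq_pow_cycExp p) ⊥ (subM0 k) (subMh k)
      bot_le subM0_le_subMh
      (fun τ m hm => by
        rw [AddSubgroup.mem_bot] at hm ⊢
        rw [hm]
        ext i <;> simp [actMod])
      (fun t ht m hm => by
        rw [hT t]
        exact actMod_sub_mem_bot _ _ _ _ (by rw [hχ₁ t ht, Units.val_one]) hm)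
      (fun t ht m hm => by
        rw [hT t]
        exact actMod_sub_nsmul_mem_subM0 _ _ _ _ _ (hχ₂I t ht) hm)
      s hs hsfix (0, ![0, 1]) (by rw [mem_subMh])
    rw [hT s] at key
    have hb : b s = 0 := of_actMod_sub_mem_bot _ _ _ _ key
    show b s * chr χ₂⁻¹ s = 0
    rw [hb, zero_mul]
  obtain ⟨t₀, ht₀, ζ, hζ, hζt⟩ := hram
  have hχt₀ : (χ₁ / χ₂) t₀ ≠ 1 := by
    intro hχs
    have hχ₂s : (χ₂ t₀ : k) = 1 := by
      have := hχval t₀
      rw [hχs, Units.val_one, one_mul, hχ₁ t₀ ht₀, Units.val_one] at this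
      exact this
    have hcast : (cycExp p t₀ : k) = 1 := by rw [← hχ₂I t₀ ht₀, hχ₂s]
    apply hζt
    rw [apply_eq_pow_cycExp p t₀ ζ hζ, pow_eq_self_of_cast_eq_one p hcast hζ]
  haveI : (localInertia' p).Normal := localInertia'_normal p
  exact mem_B1_of_vanish_on_ker hu (localInertia' p) hvan ht₀ hχt₀


/-! ### The same statements with the names of `Local/FlatIface` -/

/-- **(CS1)** with the Prelude names (`Gp p`, `locP p`, `resP`, `localInertia (pPrime p)`). -/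
theorem cslot_mem_B1 (hK : LocalKill p) (hram : InertiaMovesMuP p)
    (hrbar : GaloisFactorsThroughFiniteLevel rbar) (hdet : DetIsCycloModP p rbar)
    (c : TanCocycle rbar) (hc : (c.lift hrbar).IsFlatAt p)
    {B : M₂ k} (hB : B.det ≠ 0) {χ₁ χ₂ : Gp p →* kˣ} {b : Gp p → k}
    (h : ∀ g, rbar (locP p g) * B = B * !![(χ₁ g : k), b g; 0, (χ₂ g : k)])
    (hχ₂ : ∀ t ∈ localInertia (pPrime p), χ₂ t = 1) :
    (fun g => (B⁻¹ * resP p rbar c g * B) 1 0) ∈ B1 (χ₁ / χ₂)⁻¹ :=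
  cslot_mem_B1_aux hK hram hrbar hdet c hc hB h hχ₂

/-- **(CS2)** with the Prelude names. -/
theorem bOf_mem_B1_of_unramified_sub (hK : LocalKill p) (hram : InertiaMovesMuP p)
    (hrbar : GaloisFactorsThroughFiniteLevel rbar) (hdet : DetIsCycloModP p rbar)
    (c : TanCocycle rbar) (hc : (c.lift hrbar).IsFlatAt p)
    {B : M₂ k} (hB : B.det ≠ 0) {χ₁ χ₂ : Gp p →* kˣ} {b : Gp p → k}
    (h : ∀ g, rbar (locP p g) * B = B * !![(χ₁ g : k), b g; 0, (χ₂ g : k)])
    (hχ₁ : ∀ t ∈ localInertia (pPrime p), χ₁ t = 1) :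
    bOf χ₂ b ∈ B1 (χ₁ / χ₂) :=
  bOf_mem_B1_aux hK hram hrbar hdet c hc hB h hχ₁

end Main

end Fermat.Agent.S56x.Local.CSlotBridge
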