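import Fermat.Agent.S56x.Local.CSlotP5

/-!
# P-S56 / block A : the c-slot statement (`hCSlot` of `FlatCountFinal`) from the Hopf-algebra kill
(needed for `p = 3`; valid whenever the dichotomy `χ₂|I = 1 ∨ χ₁|I = 1` holds)

Inputs (exports of `CSlotBridge`):

* `hCS1` : in a triangularising basis with `χ₂|I = 1` (unramified quotient line), the
  `(1,0)`-entries of the cocycles in `Fm` are coboundaries of `k(η⁻¹)`;
* `hCS2` : in a triangularising basis with `χ₁|I = 1` (unramified sub-line) and `Fm ≠ ∅`, the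
  extension class of `r` itself is a coboundary (so `r` is split);
* `hdich` : `χ₂|I = 1 ∨ χ₁|I = 1` for every triangularisation (automatic for `p = 3` when
  `det = ω`).

Output: the `∃`-package of `hCSlot`.
-/

set_option autoImplicit false
set_option linter.unusedSectionVars false

namespace Fermat.Agent.S56x.Local.FlatBridge

open Fermat.Agent.S56x.Local.Devissage Fermat.Agent.S56x.Local.TameRep Module Matrix

local notation "M₂" => Matrix (Fin 2) (Fin 2)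

variable {G : Type} [Group G] {k : Type} [Field k] [Finite k]

/-- **Splitting and swapping.** If the extension class of an upper triangular `r` is a
coboundary, there is a basis in which `r` is diagonal with the two characters in the other
order. -/
theorem exists_swapped_basis (r : G →* M₂ k) {B : M₂ k} (hB : B.det ≠ 0) {χ₁ χ₂ : G →* kˣ}
    {b : G → k} (h : ∀ g, r g * B = B * !![(χ₁ g : k), b g; 0, (χ₂ g : k)])
    (hbB : bOf χ₂ b ∈ B1 (χ₁ / χ₂)) :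
    ∃ B₂ : M₂ k, B₂.det ≠ 0 ∧
      ∀ g, r g * B₂ = B₂ * !![(χ₂ g : k), (0 : G → k) g; 0, (χ₁ g : k)] := by
  have hUT : IsUT (conjHomRep r B hB) χ₁ χ₂ b := isUT_conjRep r hB h
  obtain ⟨x, hx⟩ := exists_isUT_zero hUT hbB
  refine ⟨B * uni x * swapMat, ?_, ?_⟩
  · rw [Matrix.det_mul, Matrix.det_mul, det_uni, det_swapMat]
    simpa using hB
  · have hdiag : ∀ g, r g * (B * uni x) = (B * uni x) * !![chr χ₁ g, 0; 0, chr χ₂ g] := by
      intro g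
      have h1 := hx.R_eq g
      rw [conjRep_R, conjHomRep_R] at h1
      have h2 : (B * uni x) * (uni (-x) * (B⁻¹ * r g * B) * uni x) = r g * (B * uni x) := by
        calc (B * uni x) * (uni (-x) * (B⁻¹ * r g * B) * uni x)
            = B * (uni x * uni (-x)) * B⁻¹ * r g * B * uni x := by
              simp only [Matrix.mul_assoc]
          _ = (B * B⁻¹) * r g * B * uni x := by
              rw [uni_mul_uni_neg, Matrix.mul_one]
          _ = r g * (B * uni x) := by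
              rw [mul_nonsing_inv_of_det_ne_zero hB, Matrix.one_mul, Matrix.mul_assoc]
      rw [← h2, h1]
      simp
    intro g
    rw [← Matrix.mul_assoc, hdiag g, Matrix.mul_assoc, diag_mul_swapMat, ← Matrix.mul_assoc]
    rfl

/-- **`hCSlot` from the Hopf-algebra kill** (abstract form). -/
theorem exists_cslot_basis_of_kill (r : G →* M₂ k) (Fm : Set (G → M₂ k)) (I : Set G)
    (hCS1 : ∀ (B : M₂ k) (χ₁ χ₂ : G →* kˣ) (b : G → k), B.det ≠ 0 →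
      (∀ g, r g * B = B * !![(χ₁ g : k), b g; 0, (χ₂ g : k)]) → (∀ t ∈ I, χ₂ t = 1) →
      ∀ Ψ ∈ Fm, (fun g => (B⁻¹ * Ψ g * B) 1 0) ∈ B1 (χ₁ / χ₂)⁻¹)
    (hCS2 : ∀ (B : M₂ k) (χ₁ χ₂ : G →* kˣ) (b : G → k), B.det ≠ 0 →
      (∀ g, r g * B = B * !![(χ₁ g : k), b g; 0, (χ₂ g : k)]) → (∀ t ∈ I, χ₁ t = 1) →
      Fm.Nonempty → bOf χ₂ b ∈ B1 (χ₁ / χ₂))
    (hdich : ∀ (B : M₂ k) (χ₁ χ₂ : G →* kˣ) (b : G → k), B.det ≠ 0 →
      (∀ g, r g * B = B * !![(χ₁ g : k), b g; 0, (χ₂ g : k)]) →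
      (∀ t ∈ I, χ₂ t = 1) ∨ (∀ t ∈ I, χ₁ t = 1))
    (hst : HasStableLine r) (hne : Fm.Nonempty) :
    ∃ (B : M₂ k) (χ₁ χ₂ : G →* kˣ) (b : G → k), B.det ≠ 0 ∧
      (∀ g, r g * B = B * !![(χ₁ g : k), b g; 0, (χ₂ g : k)]) ∧
      ∀ Ψ ∈ Fm, (fun g => (B⁻¹ * Ψ g * B) 1 0) ∈ B1 (χ₁ / χ₂)⁻¹ := by
  obtain ⟨B, χ₁, χ₂, b, hB, h⟩ := exists_triangular_of_hasStableLine r hst
  rcases hdich B χ₁ χ₂ b hB h with h2 | h1
  · exact ⟨B, χ₁, χ₂, b, hB, h, hCS1 B χ₁ χ₂ b hB h h2⟩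
  · have hbB := hCS2 B χ₁ χ₂ b hB h h1 hne
    obtain ⟨B₂, hB₂, h₂⟩ := exists_swapped_basis r hB h hbB
    exact ⟨B₂, χ₂, χ₁, 0, hB₂, h₂, hCS1 B₂ χ₂ χ₁ 0 hB₂ h₂ h1⟩

section Iface

open Fermat.Agent.S56x.Local.FlatIface Fermat.Agent.S56x.Dict

local notation "Γℚ" => (AlgebraicClosure ℚ ≃ₐ[ℚ] AlgebraicClosure ℚ)

variable (p : ℕ) [Fact p.Prime] (rbar : Γℚ →* M₂ k)

/-- **`hCSlot` of `FlatCountFinal.rank_flatSpan_le_four` from the Hopf-algebra kill**, in the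
literal shape. -/
theorem hCSlot_of_kill (hrbar : GaloisFactorsThroughFiniteLevel rbar) (I : Set (Gp p))
    (hCS1 : ∀ (B : M₂ k) (χ₁ χ₂ : Gp p →* kˣ) (b : Gp p → k), B.det ≠ 0 →
      (∀ g, rloc p rbar g * B = B * !![(χ₁ g : k), b g; 0, (χ₂ g : k)]) → (∀ t ∈ I, χ₂ t = 1) →
      ∀ c, IsFlatTan p rbar hrbar c →
        (fun g => (B⁻¹ * resP p rbar c g * B) 1 0) ∈ B1 (χ₁ / χ₂)⁻¹)
    (hCS2 : ∀ (B : M₂ k) (χ₁ χ₂ : Gp p →* kˣ) (b : Gp p → k), B.det ≠ 0 →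
      (∀ g, rloc p rbar g * B = B * !![(χ₁ g : k), b g; 0, (χ₂ g : k)]) → (∀ t ∈ I, χ₁ t = 1) →
      (∃ c, IsFlatTan p rbar hrbar c) → bOf χ₂ b ∈ B1 (χ₁ / χ₂))
    (hdich : ∀ (B : M₂ k) (χ₁ χ₂ : Gp p →* kˣ) (b : Gp p → k), B.det ≠ 0 →
      (∀ g, rloc p rbar g * B = B * !![(χ₁ g : k), b g; 0, (χ₂ g : k)]) →
      (∀ t ∈ I, χ₂ t = 1) ∨ (∀ t ∈ I, χ₁ t = 1)) :
    HasStableLine (rloc p rbar) → (∃ c, IsFlatTan p rbar hrbar c) →
      ∃ (B : M₂ k) (χ₁ χ₂ : Gp p →* kˣ) (b : Gp p → k), B.det ≠ 0 ∧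
        (∀ g, rloc p rbar g * B = B * !![(χ₁ g : k), b g; 0, (χ₂ g : k)]) ∧
        ∀ c, IsFlatTan p rbar hrbar c →
          (fun g => (B⁻¹ * resP p rbar c g * B) 1 0) ∈ B1 (χ₁ / χ₂)⁻¹ := by
  rintro hst ⟨c₀, hc₀⟩
  have hne : (flatRes p rbar hrbar).Nonempty := ⟨_, c₀, hc₀, rfl⟩
  obtain ⟨B, χ₁, χ₂, b, hB, h, hF⟩ := exists_cslot_basis_of_kill (rloc p rbar)
    (flatRes p rbar hrbar) I
    (fun B χ₁ χ₂ b hB h hI => by
      rintro _ ⟨c, hc, rfl⟩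
      exact hCS1 B χ₁ χ₂ b hB h hI c hc)
    (fun B χ₁ χ₂ b hB h hI _ => hCS2 B χ₁ χ₂ b hB h hI ⟨c₀, hc₀⟩)
    hdich hst hne
  exact ⟨B, χ₁, χ₂, b, hB, h, fun c hc => hF _ ⟨c, hc, rfl⟩⟩

end Iface

/-- the dichotomy for `p = 3`-like situations: if `ω|I` takes values in `{1, -1}`, every character
takes values in `{1, ω}` on `I` (e.g. `χ(t)² = 1` there) and `χ₁χ₂ = ω`, then one of the two
characters is trivial on `I`, provided `I` is "connected" in the sense that `χ|I` is determined by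
its value at one generator `t₀`. -/
theorem dichotomy_of_generator {χ₁ χ₂ : G →* kˣ} {ω : G → k} (I : Set G) (t₀ : G)
    (hgen : ∀ χ : G →* kˣ, χ t₀ = 1 → ∀ t ∈ I, χ t = 1)
    (hω : ∀ g, ω g = chr χ₁ g * chr χ₂ g) (hω0 : ω t₀ = -1)
    (hsq : ∀ χ : G →* kˣ, chr χ t₀ = 1 ∨ chr χ t₀ = -1) :
    (∀ t ∈ I, χ₂ t = 1) ∨ (∀ t ∈ I, χ₁ t = 1) := by
  rcases hsq χ₂ with h2 | h2
  · left
    exact hgen χ₂ (Units.ext h2)
  · right
    refine hgen χ₁ (Units.ext ?_)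
    have h := hω t₀
    rw [hω0, h2] at h
    have : chr χ₁ t₀ = 1 := by
      have h' : -1 = -(chr χ₁ t₀) := by rw [h]; ring
      exact (neg_injective h').symm
    exact this

end Fermat.Agent.S56x.Local.FlatBridge
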