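import Fermat.Agent.S56x.Local.CSlotBridge
import Fermat.Agent.S56x.Local.CSlotP3
import Fermat.Agent.S56x.Local.CycloInertiaP
import Fermat.Agent.S56x.Fontaine.UnrQuotKill

/-!
# P-S56, block (A): the c-slot inputs `hCS1`, `hCS2` of `Local/CSlotP3`, UNCONDITIONAL

`Local/CSlotBridge` proves (CS1), (CS2) from the two hypotheses `LocalKill p` and
`InertiaMovesMuP p`.  Here both are discharged (`p` odd):

* `localKill` : `LocalKill p` from `Fontaine/UnrQuotKill.localKill_unrQuot` (helper73);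
* `inertiaMovesMuP` : `InertiaMovesMuP p` from `Local/CycloInertiaP` (helper18);

and the results are restated in the LITERAL shapes of the hypotheses `hCS1`, `hCS2` of
`FlatBridge.hCSlot_of_kill` (`Local/CSlotP3`, helper50), with
`I := (LocalInertia.localInertia' p : Set (Gp p))`:

* `hCS1`, `hCS2`;
* `hCSlot_of_dichotomy` : the `∃`-package `hCSlot` of `FlatCountFinal` from the dichotomy
  `χ₂|I = 1 ∨ χ₁|I = 1` alone.
-/

set_option autoImplicit false
set_option linter.unusedSectionVars false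

noncomputable section

namespace Fermat.Agent.S56x.Local.CSlotBridgeFinal

open Fermat.Agent.S56x.Dict Fermat.Agent.S56x.Local.Devissage
  Fermat.Agent.S56x.Local.LocalInertia Fermat.Agent.S56x.Local.FlatIface
  Fermat.Agent.S56x.Local.FlatBridge Fermat.Agent.S56x.Local.TameRep
  Fermat.Agent.S56x.Local.CSlotBridge ExtCitation

local notation "Γℚ" => (AlgebraicClosure ℚ ≃ₐ[ℚ] AlgebraicClosure ℚ)
local notation "M₂" => Matrix (Fin 2) (Fin 2)

variable {p : ℕ} [Fact p.Prime]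

/-- the c-slot kill, unconditional (`p` odd). -/
theorem localKill (hp2 : p ≠ 2) : LocalKill p :=
  fun Hp _ _ _ _ _ M _ _ e he hMp act hact a ha M0 Mh M1 h01 hh1 hM0 h1 h2 s hs hsζ m hm =>
    Fermat.Agent.S56x.Fontaine.UnrQuotKill.localKill_unrQuot hp2 Hp M e he hMp act hact a ha
      M0 Mh M1 h01 hh1 hM0 h1 h2 s hs hsζ m hm

/-- inertia moves `μ_p` (`p` odd). -/
theorem inertiaMovesMuP (hp2 : p ≠ 2) : InertiaMovesMuP p := by
  have hp : p.Prime := Fact.out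
  obtain ⟨ζ0, hζ0⟩ := KummerOmega.exists_primitiveRoot_Qbar (p := p)
  have hζ : IsPrimitiveRoot (padicEmbedding p ζ0) p :=
    hζ0.map_of_injective (padicEmbedding p).toRingHom.injective
  obtain ⟨σ, hσ, hne⟩ := CycloInertiaP.exists_mem_localInertia'_apply_ne p hp2 hζ
  exact ⟨σ, hσ, _, hζ.pow_eq_one, hne⟩

variable {k : Type} [Field k] [Finite k] [CharP k p] (rbar : Γℚ →* M₂ k)

/-- the inertia subgroup of `Gp p` as a set (the `I` of `FlatBridge.hCSlot_of_kill`). -/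
def inertiaSet (p : ℕ) [Fact p.Prime] : Set (Gp p) :=
  ((localInertia (pPrime p) : Subgroup (Gp p)) : Set (Gp p))

theorem mem_inertiaSet {t : Gp p} : t ∈ inertiaSet p ↔ t ∈ localInertia (pPrime p) := Iff.rfl

/-- in terms of `localInertia' p ≤ Gal(PadicAlgCl p/ℚ_p)` (`Gp p` unfolds to that group). -/
theorem mem_inertiaSet_iff' {t : PadicAlgCl p ≃ₐ[ℚ_[p]] PadicAlgCl p} :
    (show Gp p from t) ∈ inertiaSet p ↔ t ∈ localInertia' p := Iff.rfl

/-- **`hCS1` of `FlatBridge.hCSlot_of_kill`, literal shape, unconditional**, for any set `I`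
containing the inertia subgroup. -/
theorem hCS1 (hp2 : p ≠ 2) (hrbar : GaloisFactorsThroughFiniteLevel rbar)
    (hdet : DetIsCycloModP p rbar) (I : Set (Gp p)) (hI : inertiaSet p ⊆ I) :
    ∀ (B : M₂ k) (χ₁ χ₂ : Gp p →* kˣ) (b : Gp p → k), B.det ≠ 0 →
      (∀ g, rloc p rbar g * B = B * !![(χ₁ g : k), b g; 0, (χ₂ g : k)]) →
      (∀ t ∈ I, χ₂ t = 1) →
      ∀ c, IsFlatTan p rbar hrbar c →
        (fun g => (B⁻¹ * resP p rbar c g * B) 1 0) ∈ B1 (χ₁ / χ₂)⁻¹ :=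
  fun _ _ _ _ hB h hχ₂ c hc =>
    cslot_mem_B1 (localKill hp2) (inertiaMovesMuP hp2) hrbar hdet c hc.2 hB h
      (fun t ht => hχ₂ t (hI ht))

/-- **`hCS2` of `FlatBridge.hCSlot_of_kill`, literal shape, unconditional**, for any set `I`
containing the inertia subgroup. -/
theorem hCS2 (hp2 : p ≠ 2) (hrbar : GaloisFactorsThroughFiniteLevel rbar)
    (hdet : DetIsCycloModP p rbar) (I : Set (Gp p)) (hI : inertiaSet p ⊆ I) :
    ∀ (B : M₂ k) (χ₁ χ₂ : Gp p →* kˣ) (b : Gp p → k), B.det ≠ 0 →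
      (∀ g, rloc p rbar g * B = B * !![(χ₁ g : k), b g; 0, (χ₂ g : k)]) →
      (∀ t ∈ I, χ₁ t = 1) →
      (∃ c, IsFlatTan p rbar hrbar c) → bOf χ₂ b ∈ B1 (χ₁ / χ₂) :=
  fun _ _ _ _ hB h hχ₁ ⟨c, hc⟩ =>
    bOf_mem_B1_of_unramified_sub (localKill hp2) (inertiaMovesMuP hp2) hrbar hdet c hc.2 hB h
      (fun t ht => hχ₁ t (hI ht))

/-- **`hCSlot` from the dichotomy alone**: if for every triangularisation of `rbar|G_p` one of the
two characters is trivial on `I ⊇` inertia, the c-slot package of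
`FlatCountFinal.rank_flatSpan_le_four` holds. -/
theorem hCSlot_of_dichotomy (hp2 : p ≠ 2) (hrbar : GaloisFactorsThroughFiniteLevel rbar)
    (hdet : DetIsCycloModP p rbar) (I : Set (Gp p)) (hI : inertiaSet p ⊆ I)
    (hdich : ∀ (B : M₂ k) (χ₁ χ₂ : Gp p →* kˣ) (b : Gp p → k), B.det ≠ 0 →
      (∀ g, rloc p rbar g * B = B * !![(χ₁ g : k), b g; 0, (χ₂ g : k)]) →
      (∀ t ∈ I, χ₂ t = 1) ∨ (∀ t ∈ I, χ₁ t = 1)) :
    HasStableLine (rloc p rbar) → (∃ c, IsFlatTan p rbar hrbar c) →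
      ∃ (B : M₂ k) (χ₁ χ₂ : Gp p →* kˣ) (b : Gp p → k), B.det ≠ 0 ∧
        (∀ g, rloc p rbar g * B = B * !![(χ₁ g : k), b g; 0, (χ₂ g : k)]) ∧
        ∀ c, IsFlatTan p rbar hrbar c →
          (fun g => (B⁻¹ * resP p rbar c g * B) 1 0) ∈ B1 (χ₁ / χ₂)⁻¹ :=
  hCSlot_of_kill p rbar hrbar I (hCS1 rbar hp2 hrbar hdet I hI)
    (hCS2 rbar hp2 hrbar hdet I hI) hdich

end Fermat.Agent.S56x.Local.CSlotBridgeFinal
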