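import Fermat.Agent.S56x.Local.Devissage

/-!
# P-S56 / block A / LOC-1 : dévissage, split case

`ρ̄ = χ₁ ⊕ χ₂` (`b = 0`): `ad⁰ = k ⊕ k(η) ⊕ k(η⁻¹)` and the three slots decouple.
`rank_split_le` : the admissible ad⁰-cocycles with `b'`-slot in `S₁ ≤ Z¹(k(η))` and `c`-slot in
`S₂ ≤ Z¹(k(η⁻¹))` have image of rank `≤ rank H¹_𝒜(k) + rank [S₁] + rank [S₂]` modulo coboundaries.
-/

set_option autoImplicit false

namespace Fermat.Agent.S56x.Local.Devissage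

open Module

universe u v

section ProdRank

variable {k : Type v} [Field k] {A : Type u} {B : Type u} [AddCommGroup A] [Module k A]
  [AddCommGroup B] [Module k B]

/-- `↥(p.prod q) ≃ₗ p × q`. -/
def prodSubEquiv (p : Submodule k A) (q : Submodule k B) : ↥(p.prod q) ≃ₗ[k] (p × q) where
  toFun x := (⟨x.1.1, x.2.1⟩, ⟨x.1.2, x.2.2⟩)
  invFun y := ⟨(y.1.1, y.2.1), ⟨y.1.2, y.2.2⟩⟩
  map_add' _ _ := rfl
  map_smul' _ _ := rfl
  left_inv _ := rfl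
  right_inv _ := rfl

theorem rank_submodule_prod (p : Submodule k A) (q : Submodule k B) :
    Module.rank k ↥(p.prod q) = Module.rank k p + Module.rank k q := by
  rw [(prodSubEquiv p q).rank_eq, rank_prod']

end ProdRank

variable {Γ : Type u} [Group Γ] {k : Type v} [Field k]

/-- with `b = 0` the ad⁰-coboundaries are `0 × B¹(k(η)) × B¹(k(η⁻¹))`. -/
theorem adCob_zero (η : Γ →* kˣ) (x : k × k × k) :
    adCob η (0 : Γ → k) x = ((0 : Γ → k), cob η x.2.1, cob η⁻¹ x.2.2) := by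
  refine Prod.ext ?_ (Prod.ext ?_ ?_)
  · funext g; simp [adCob]
  · funext g
    simp only [adCob, LinearMap.coe_mk, AddHom.coe_mk, Pi.zero_apply, cob_apply, chr_apply]
    ring
  · funext g
    simp only [adCob, LinearMap.coe_mk, AddHom.coe_mk, cob_apply, chr_apply]
    ring

variable (𝒜 : Subalgebra k (Γ → k))

/-- admissible split ad⁰-cocycles with prescribed slots. -/
def adZs (S₁ S₂ : Submodule k (Γ → k)) : Submodule k (M3 Γ k) :=
  (Z1A 𝒜 (1 : Γ →* kˣ)).prod (S₁.prod S₂)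

theorem adZs_le_adZ {η : Γ →* kˣ} {S₁ S₂ : Submodule k (Γ → k)} (h₁ : S₁ ≤ Z1 η)
    (h₂ : S₂ ≤ Z1 η⁻¹) : adZs 𝒜 S₁ S₂ ≤ adZ η (0 : Γ → k) := by
  rintro ψ ⟨ha, hb, hc⟩
  have ha' := mem_Z1_one.1 ((mem_Z1A 𝒜).1 ha).1
  have hb' := mem_Z1.1 (h₁ hb)
  have hc' := mem_Z1.1 (h₂ hc)
  refine ⟨fun g h => ?_, fun g h => ?_, fun g h => ?_⟩
  · rw [hc' g h]; simp [chr]
  · rw [ha' g h]; simp
  · rw [hb' g h]; simp [chr]

/-- the componentwise quotient map. -/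
def slotMap (η : Γ →* kˣ) : M3 Γ k →ₗ[k]
    (((Γ → k) ⧸ B1 (1 : Γ →* kˣ)) × ((Γ → k) ⧸ B1 η) × ((Γ → k) ⧸ B1 η⁻¹)) :=
  LinearMap.prodMap (B1 (1 : Γ →* kˣ)).mkQ (LinearMap.prodMap (B1 η).mkQ (B1 η⁻¹).mkQ)

theorem ker_slotMap (η : Γ →* kˣ) : LinearMap.ker (slotMap η) = adB η (0 : Γ → k) := by
  ext ψ
  simp only [slotMap, LinearMap.mem_ker, LinearMap.prodMap_apply, Prod.mk_eq_zero,
    Submodule.mkQ_apply, Submodule.Quotient.mk_eq_zero, B1_one, Submodule.mem_bot]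
  constructor
  · rintro ⟨h1, ⟨m', hm'⟩, ⟨m, hm⟩⟩
    refine ⟨(0, m', m), ?_⟩
    rw [adCob_zero]
    exact Prod.ext h1.symm (Prod.ext hm' hm)
  · rintro ⟨x, rfl⟩
    rw [adCob_zero]
    exact ⟨rfl, ⟨x.2.1, rfl⟩, ⟨x.2.2, rfl⟩⟩

/-- **Split case.** -/
theorem rank_split_le (η : Γ →* kˣ) (S₁ S₂ : Submodule k (Γ → k)) :
    Module.rank k ((adZs 𝒜 S₁ S₂).map (adB η (0 : Γ → k)).mkQ) ≤
      Module.rank k (H1A 𝒜 (1 : Γ →* kˣ)) + Module.rank k (S₁.map (B1 η).mkQ)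
        + Module.rank k (S₂.map (B1 η⁻¹).mkQ) := by
  -- the injective map induced by `slotMap` on the quotient
  let Fbar := (adB η (0 : Γ → k)).liftQ (slotMap η) (ker_slotMap η).ge
  have hinj : Function.Injective Fbar := by
    rw [← LinearMap.ker_eq_bot]
    exact Submodule.ker_liftQ_eq_bot _ _ _ (ker_slotMap η).le
  have e1 : Module.rank k ((adZs 𝒜 S₁ S₂).map (adB η (0 : Γ → k)).mkQ) =
      Module.rank k (((adZs 𝒜 S₁ S₂).map (adB η (0 : Γ → k)).mkQ).map Fbar) :=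
    (Submodule.equivMapOfInjective Fbar hinj _).rank_eq
  have e2 : ((adZs 𝒜 S₁ S₂).map (adB η (0 : Γ → k)).mkQ).map Fbar =
      (adZs 𝒜 S₁ S₂).map (slotMap η) := by
    rw [← Submodule.map_comp]
    congr 1
  have e3 : (adZs 𝒜 S₁ S₂).map (slotMap η) ≤
      (H1A 𝒜 (1 : Γ →* kˣ)).prod ((S₁.map (B1 η).mkQ).prod (S₂.map (B1 η⁻¹).mkQ)) := by
    rintro _ ⟨ψ, ⟨ha, hb, hc⟩, rfl⟩
    exact ⟨Submodule.mem_map_of_mem ha, Submodule.mem_map_of_mem hb, Submodule.mem_map_of_mem hc⟩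
  rw [e1, e2]
  refine (Submodule.rank_mono e3).trans ?_
  rw [rank_submodule_prod, rank_submodule_prod, add_assoc]

/-- **Split case, numerical form**: if admissible `H¹(k)` has rank `≤ 1` and the two off-diagonal
slots together contribute rank `≤ 1`, the total is `≤ 2` (`= 1 + h⁰`, `h⁰ = 1`). -/
theorem rank_split_le_two (η : Γ →* kˣ) (S₁ S₂ : Submodule k (Γ → k))
    (hH1 : Module.rank k (H1A 𝒜 (1 : Γ →* kˣ)) ≤ 1)
    (hS : Module.rank k (S₁.map (B1 η).mkQ) + Module.rank k (S₂.map (B1 η⁻¹).mkQ) ≤ 1) :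
    Module.rank k ((adZs 𝒜 S₁ S₂).map (adB η (0 : Γ → k)).mkQ) ≤ 2 := by
  refine (rank_split_le 𝒜 η S₁ S₂).trans ?_
  rw [add_assoc]
  calc Module.rank k (H1A 𝒜 (1 : Γ →* kˣ)) +
        (Module.rank k (S₁.map (B1 η).mkQ) + Module.rank k (S₂.map (B1 η⁻¹).mkQ))
      ≤ 1 + 1 := add_le_add hH1 hS
    _ = 2 := by norm_num

end Fermat.Agent.S56x.Local.Devissage
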