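import Fermat.Agent.S56x.Local.DevissageMatrix
import Fermat.Agent.S56x.Local.DevissageSplit

/-!
# P-S56 / block A / LOC-1 : upper triangular matrix representations → triples

For `ρ.R g = !![χ₁ g, β g; 0, χ₂ g]` the matrix cocycles of `DevissageMatrix` correspond to the
triples of `Devissage` with `η = χ₁ / χ₂`, `b = β / χ₂`.  Final statements in matrix form:
`rank_mat_nonsplit_le_one`, `rank_mat_split_le`.
-/

set_option autoImplicit false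

namespace Fermat.Agent.S56x.Local.Devissage

open Module Matrix

universe u v

variable {Γ : Type u} [Group Γ] {k : Type v} [Field k]

theorem chr_div (χ₁ χ₂ : Γ →* kˣ) (g : Γ) : chr (χ₁ / χ₂) g = chr χ₁ g * chr χ₂⁻¹ g := by
  simp [chr, div_eq_mul_inv]

theorem chr_div_inv (χ₁ χ₂ : Γ →* kˣ) (g : Γ) : chr (χ₁ / χ₂)⁻¹ g = chr χ₁⁻¹ g * chr χ₂ g := by
  simp [chr, div_eq_mul_inv, mul_comm]

/-- entries `(0,0)`, `(0,1)`, `(1,0)` of a matrix-valued function. -/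
def toTriple : (Γ → Matrix (Fin 2) (Fin 2) k) →ₗ[k] M3 Γ k where
  toFun Ψ := (fun g => Ψ g 0 0, fun g => Ψ g 0 1, fun g => Ψ g 1 0)
  map_add' _ _ := rfl
  map_smul' _ _ := rfl

/-- the trace-zero matrix of a triple of scalars. -/
def tripleMat (x : k × k × k) : Matrix (Fin 2) (Fin 2) k := !![x.1, x.2.1; x.2.2, -x.1]

theorem trace_tripleMat (x : k × k × k) : (tripleMat x).trace = 0 := by
  simp [tripleMat, Matrix.trace_fin_two]

theorem eq_tripleMat_of_trace_eq_zero {M : Matrix (Fin 2) (Fin 2) k} (hM : M.trace = 0) :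
    M = tripleMat (M 0 0, M 0 1, M 1 0) := by
  rw [Matrix.trace_fin_two] at hM
  ext i j
  fin_cases i <;> fin_cases j <;> simp [tripleMat]
  linear_combination hM

/-- upper triangular datum for a matrix representation. -/
structure IsUT (ρ : MatRep Γ k) (χ₁ χ₂ : Γ →* kˣ) (β : Γ → k) : Prop where
  R_eq : ∀ g, ρ.R g = !![chr χ₁ g, β g; 0, chr χ₂ g]

namespace IsUT

variable {ρ : MatRep Γ k} {χ₁ χ₂ : Γ →* kˣ} {β : Γ → k} (h : IsUT ρ χ₁ χ₂ β)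
include h

theorem Ri_eq (g : Γ) : ρ.Ri g =
    !![chr χ₁⁻¹ g, -(β g * chr χ₁⁻¹ g * chr χ₂⁻¹ g); 0, chr χ₂⁻¹ g] := by
  have h1 := ρ.inv_mul g
  have e1 := chr_mul_chr_inv χ₁ g
  have e2 := chr_mul_chr_inv χ₂ g
  have hinv : ρ.R g * !![chr χ₁⁻¹ g, -(β g * chr χ₁⁻¹ g * chr χ₂⁻¹ g); 0, chr χ₂⁻¹ g] = 1 := by
    rw [h.R_eq g]
    ext i j
    fin_cases i <;> fin_cases j
    · simp [Matrix.mul_apply, Fin.sum_univ_two, e1]
    · simp only [Fin.zero_eta, Fin.isValue, Fin.mk_one, Matrix.mul_apply, Fin.sum_univ_two,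
        Matrix.of_apply, Matrix.cons_val', Matrix.cons_val_zero, Matrix.cons_val_one,
        Matrix.cons_val_fin_one, Matrix.one_apply_ne, ne_eq, zero_ne_one, not_false_eq_true]
      linear_combination (-(β g * chr χ₂⁻¹ g)) * e1
    · simp [Matrix.mul_apply, Fin.sum_univ_two]
    · simp [Matrix.mul_apply, Fin.sum_univ_two, e2]
  calc ρ.Ri g = ρ.Ri g * (ρ.R g * !![chr χ₁⁻¹ g, -(β g * chr χ₁⁻¹ g * chr χ₂⁻¹ g); 0,
        chr χ₂⁻¹ g]) := by rw [hinv, Matrix.mul_one]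
    _ = _ := by rw [← Matrix.mul_assoc, h1, Matrix.one_mul]

theorem beta_mul (g g' : Γ) : β (g * g') = chr χ₁ g * β g' + β g * chr χ₂ g' := by
  have := congrFun (congrFun (ρ.map_mul g g') 0) 1
  rw [h.R_eq, h.R_eq, h.R_eq] at this
  simpa [Matrix.mul_apply, Fin.sum_univ_two] using this

end IsUT

/-- `b = β / χ₂`. -/
def bOf (χ₂ : Γ →* kˣ) (β : Γ → k) : Γ → k := fun g => β g * chr χ₂⁻¹ g

theorem bOf_mem_Z1 {ρ : MatRep Γ k} {χ₁ χ₂ : Γ →* kˣ} {β : Γ → k} (h : IsUT ρ χ₁ χ₂ β) :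
    bOf χ₂ β ∈ Z1 (χ₁ / χ₂) := by
  intro g g'
  have hm : chr χ₂⁻¹ (g * g') = chr χ₂⁻¹ g * chr χ₂⁻¹ g' := by simp [chr, mul_comm]
  have h2 := chr_mul_chr_inv χ₂ g'
  have e : (((χ₁ / χ₂) g : kˣ) : k) = chr χ₁ g * chr χ₂⁻¹ g := chr_div χ₁ χ₂ g
  rw [e]
  simp only [bOf, h.beta_mul g g', hm]
  linear_combination (β g * chr χ₂⁻¹ g) * h2

/-- the adjoint action on a trace-zero matrix, in triple coordinates. -/
theorem Ad_tripleMat {ρ : MatRep Γ k} {χ₁ χ₂ : Γ →* kˣ} {β : Γ → k} (h : IsUT ρ χ₁ χ₂ β)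
    (g : Γ) (x : k × k × k) :
    ρ.Ad g (tripleMat x) = tripleMat
      (x.1 + bOf χ₂ β g * chr (χ₁ / χ₂)⁻¹ g * x.2.2,
       chr (χ₁ / χ₂) g * x.2.1 - 2 * x.1 * bOf χ₂ β g
         - bOf χ₂ β g ^ 2 * chr (χ₁ / χ₂)⁻¹ g * x.2.2,
       chr (χ₁ / χ₂)⁻¹ g * x.2.2) := by
  have h1 := chr_mul_chr_inv χ₁ g
  have h2 := chr_mul_chr_inv χ₂ g
  unfold MatRep.Ad
  rw [h.R_eq, h.Ri_eq, chr_div, chr_div_inv]
  ext i j
  fin_cases i <;> fin_cases j <;>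
    simp only [tripleMat, bOf, Fin.zero_eta, Fin.isValue, Fin.mk_one, Matrix.mul_apply,
      Fin.sum_univ_two, Matrix.of_apply, Matrix.cons_val', Matrix.cons_val_zero,
      Matrix.cons_val_one, Matrix.cons_val_fin_one]
  · linear_combination (x.1) * h1 + (-(β g * chr χ₁⁻¹ g * x.2.2)) * h2
  · linear_combination (-(x.1 * β g * chr χ₂⁻¹ g)) * h1
      + (β g ^ 2 * chr χ₁⁻¹ g * chr χ₂⁻¹ g * x.2.2) * h2
  · ring
  · linear_combination (-(x.1)) * h2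


section Bridge

variable {ρ : MatRep Γ k} {χ₁ χ₂ : Γ →* kˣ} {β : Γ → k}

/-- a pointwise trace-zero function is determined by its triple. -/
theorem eq_tripleMat_toTriple {Ψ : Γ → Matrix (Fin 2) (Fin 2) k} (hΨ : ∀ g, (Ψ g).trace = 0)
    (g : Γ) : Ψ g = tripleMat ((toTriple Ψ).1 g, (toTriple Ψ).2.1 g, (toTriple Ψ).2.2 g) :=
  eq_tripleMat_of_trace_eq_zero (hΨ g)

theorem tripleMat_injective {x y : k × k × k} (h : tripleMat x = tripleMat y) : x = y := by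
  have h00 := congrFun (congrFun h 0) 0
  have h01 := congrFun (congrFun h 0) 1
  have h10 := congrFun (congrFun h 1) 0
  simp only [tripleMat, Matrix.of_apply, Matrix.cons_val', Matrix.cons_val_zero,
    Matrix.cons_val_one, Matrix.cons_val_fin_one] at h00 h01 h10
  exact Prod.ext h00 (Prod.ext h01 h10)

/-- matrix cocycles give triple cocycles. -/
theorem toTriple_mem_adZ (h : IsUT ρ χ₁ χ₂ β) {Ψ : Γ → Matrix (Fin 2) (Fin 2) k}
    (hΨ : Ψ ∈ adMatZ ρ) : toTriple Ψ ∈ adZ (χ₁ / χ₂) (bOf χ₂ β) := by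
  obtain ⟨htr, hco⟩ := hΨ
  have key : ∀ g g', tripleMat ((toTriple Ψ).1 (g * g'), (toTriple Ψ).2.1 (g * g'),
      (toTriple Ψ).2.2 (g * g')) =
      tripleMat ((toTriple Ψ).1 g, (toTriple Ψ).2.1 g, (toTriple Ψ).2.2 g) +
      tripleMat
      ((toTriple Ψ).1 g' + bOf χ₂ β g * chr (χ₁ / χ₂)⁻¹ g * (toTriple Ψ).2.2 g',
       chr (χ₁ / χ₂) g * (toTriple Ψ).2.1 g' - 2 * (toTriple Ψ).1 g' * bOf χ₂ β g
         - bOf χ₂ β g ^ 2 * chr (χ₁ / χ₂)⁻¹ g * (toTriple Ψ).2.2 g',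
       chr (χ₁ / χ₂)⁻¹ g * (toTriple Ψ).2.2 g') := by
    intro g g'
    rw [← eq_tripleMat_toTriple htr (g * g'), ← eq_tripleMat_toTriple htr g, hco g g',
      eq_tripleMat_toTriple htr g', Ad_tripleMat h]
  refine ⟨fun g g' => ?_, fun g g' => ?_, fun g g' => ?_⟩
  · have := congrFun (congrFun (key g g') 1) 0
    simpa [tripleMat] using this
  · have := congrFun (congrFun (key g g') 0) 0
    simp only [tripleMat, Matrix.add_apply, Matrix.of_apply, Matrix.cons_val', Matrix.cons_val_zero,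
      Matrix.cons_val_fin_one] at this
    rw [this]; ring
  · have := congrFun (congrFun (key g g') 0) 1
    simp only [tripleMat, Matrix.add_apply, Matrix.of_apply, Matrix.cons_val', Matrix.cons_val_zero,
      Matrix.cons_val_one, Matrix.cons_val_fin_one] at this
    rw [this]; ring

/-- the matrix coboundary of `tripleMat x` has triple `adCob x`. -/
theorem toTriple_adMatCob (h : IsUT ρ χ₁ χ₂ β) (x : k × k × k) :
    toTriple (adMatCob ρ (tripleMat x)) = adCob (χ₁ / χ₂) (bOf χ₂ β) x := by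
  refine Prod.ext ?_ (Prod.ext ?_ ?_)
  · funext g
    show (adMatCob ρ (tripleMat x) g) 0 0 = _
    rw [adMatCob_apply, Ad_tripleMat h]
    simp only [tripleMat, adCob, LinearMap.coe_mk, AddHom.coe_mk, Matrix.sub_apply, Matrix.of_apply,
      Matrix.cons_val', Matrix.cons_val_zero, Matrix.cons_val_fin_one]
    ring
  · funext g
    show (adMatCob ρ (tripleMat x) g) 0 1 = _
    rw [adMatCob_apply, Ad_tripleMat h]
    simp only [tripleMat, adCob, LinearMap.coe_mk, AddHom.coe_mk, Matrix.sub_apply, Matrix.of_apply,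
      Matrix.cons_val', Matrix.cons_val_zero, Matrix.cons_val_one, Matrix.cons_val_fin_one]
    ring
  · funext g
    show (adMatCob ρ (tripleMat x) g) 1 0 = _
    rw [adMatCob_apply, Ad_tripleMat h]
    simp only [tripleMat, adCob, LinearMap.coe_mk, AddHom.coe_mk, Matrix.sub_apply, Matrix.of_apply,
      Matrix.cons_val', Matrix.cons_val_zero, Matrix.cons_val_one, Matrix.cons_val_fin_one]
    ring

/-- detection: a trace-zero function whose triple is an ad⁰-coboundary is a matrix coboundary. -/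
theorem mem_adMatB_of_toTriple_mem (h : IsUT ρ χ₁ χ₂ β) {Ψ : Γ → Matrix (Fin 2) (Fin 2) k}
    (hΨ : ∀ g, (Ψ g).trace = 0) (hx : toTriple Ψ ∈ adB (χ₁ / χ₂) (bOf χ₂ β)) : Ψ ∈ adMatB ρ := by
  obtain ⟨x, hx⟩ := hx
  refine ⟨tripleMat x, mem_sl2.2 (trace_tripleMat x), ?_⟩
  funext g
  have htr' : ∀ g, (adMatCob ρ (tripleMat x) g).trace = 0 :=
    (adMatCob_mem_adMatZ ρ (trace_tripleMat x)).1
  rw [eq_tripleMat_toTriple hΨ g, eq_tripleMat_toTriple htr' g, toTriple_adMatCob h, hx]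

end Bridge

variable (𝒜 : Subalgebra k (Γ → k))

/-- admissible matrix cocycles whose lower-left entry is a coboundary of `k(η⁻¹)`. -/
def adMatZc (ρ : MatRep Γ k) (η : Γ →* kˣ) : Submodule k (Γ → Matrix (Fin 2) (Fin 2) k) where
  carrier := {Ψ | Ψ ∈ adMatZA ρ 𝒜 ∧ (fun g => Ψ g 1 0) ∈ B1 η⁻¹}
  add_mem' := by
    rintro Ψ Ψ' ⟨h1, h2⟩ ⟨h1', h2'⟩
    exact ⟨(adMatZA ρ 𝒜).add_mem h1 h1', (B1 η⁻¹).add_mem h2 h2'⟩
  zero_mem' := ⟨(adMatZA ρ 𝒜).zero_mem, (B1 η⁻¹).zero_mem⟩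
  smul_mem' := by
    rintro c Ψ ⟨h1, h2⟩
    exact ⟨(adMatZA ρ 𝒜).smul_mem c h1, (B1 η⁻¹).smul_mem c h2⟩

/-- **Non-split upper triangular case, matrix form.** -/
theorem rank_mat_nonsplit_le_one (h2 : (2 : k) ≠ 0) {ρ : MatRep Γ k} {χ₁ χ₂ : Γ →* kˣ} {β : Γ → k}
    (h : IsUT ρ χ₁ χ₂ β) (hbA : bOf χ₂ β ∈ 𝒜) (hbn : bOf χ₂ β ∉ B1 (χ₁ / χ₂))
    (hη' : chr (χ₁ / χ₂)⁻¹ ∈ 𝒜)
    (hH1 : Module.rank k (H1A 𝒜 (1 : Γ →* kˣ)) ≤ 1)
    (hHη : Module.rank k (H1A 𝒜 (χ₁ / χ₂)) ≤ 1) :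
    Module.rank k ((adMatZc 𝒜 ρ (χ₁ / χ₂)).map (adMatB ρ).mkQ) ≤ 1 := by
  have hb : bOf χ₂ β ∈ Z1A 𝒜 (χ₁ / χ₂) := (mem_Z1A 𝒜).2 ⟨bOf_mem_Z1 h, hbA⟩
  refine (rank_map_mkQ_le_of_detects toTriple (adMatB ρ) (adB (χ₁ / χ₂) (bOf χ₂ β))
    (adMatZc 𝒜 ρ (χ₁ / χ₂)) ?_).trans ?_
  · rintro Ψ ⟨⟨hΨ, -⟩, -⟩ hx
    exact mem_adMatB_of_toTriple_mem h hΨ.1 hx
  · refine (Submodule.rank_mono ?_).trans (rank_nonsplit_le_one 𝒜 h2 hb hbn hη' hH1 hHη)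
    apply Submodule.map_mono
    rintro _ ⟨Ψ, ⟨⟨hΨ, hA⟩, hc⟩, rfl⟩
    exact ⟨toTriple_mem_adZ h hΨ, hA 0 0, hA 0 1, hc⟩

/-- admissible matrix cocycles for a diagonal representation with prescribed off-diagonal slots. -/
def adMatZs (ρ : MatRep Γ k) (S₁ S₂ : Submodule k (Γ → k)) :
    Submodule k (Γ → Matrix (Fin 2) (Fin 2) k) where
  carrier := {Ψ | Ψ ∈ adMatZ ρ ∧ (fun g => Ψ g 0 0) ∈ 𝒜 ∧ (fun g => Ψ g 0 1) ∈ S₁ ∧
    (fun g => Ψ g 1 0) ∈ S₂}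
  add_mem' := by
    rintro Ψ Ψ' ⟨h0, h1, h2, h3⟩ ⟨h0', h1', h2', h3'⟩
    exact ⟨(adMatZ ρ).add_mem h0 h0', 𝒜.add_mem h1 h1', S₁.add_mem h2 h2', S₂.add_mem h3 h3'⟩
  zero_mem' := ⟨(adMatZ ρ).zero_mem, 𝒜.zero_mem, S₁.zero_mem, S₂.zero_mem⟩
  smul_mem' := by
    rintro c Ψ ⟨h0, h1, h2, h3⟩
    exact ⟨(adMatZ ρ).smul_mem c h0, 𝒜.smul_mem h1 c, S₁.smul_mem c h2, S₂.smul_mem c h3⟩

/-- **Split (diagonal) case, matrix form.** -/
theorem rank_mat_split_le {ρ : MatRep Γ k} {χ₁ χ₂ : Γ →* kˣ}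
    (h : IsUT ρ χ₁ χ₂ (0 : Γ → k)) (S₁ S₂ : Submodule k (Γ → k)) :
    Module.rank k ((adMatZs 𝒜 ρ S₁ S₂).map (adMatB ρ).mkQ) ≤
      Module.rank k (H1A 𝒜 (1 : Γ →* kˣ)) + Module.rank k (S₁.map (B1 (χ₁ / χ₂)).mkQ)
        + Module.rank k (S₂.map (B1 (χ₁ / χ₂)⁻¹).mkQ) := by
  have hb0 : bOf χ₂ (0 : Γ → k) = 0 := by
    funext g; simp [bOf]
  refine (rank_map_mkQ_le_of_detects toTriple (adMatB ρ) (adB (χ₁ / χ₂) (0 : Γ → k))
    (adMatZs 𝒜 ρ S₁ S₂) ?_).trans ?_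
  · rintro Ψ ⟨hΨ, -, -, -⟩ hx
    rw [← hb0] at hx
    exact mem_adMatB_of_toTriple_mem h hΨ.1 hx
  · refine (Submodule.rank_mono ?_).trans (rank_split_le 𝒜 (χ₁ / χ₂) S₁ S₂)
    apply Submodule.map_mono
    rintro _ ⟨Ψ, ⟨hΨ, hA, h1, h2⟩, rfl⟩
    have hZ := toTriple_mem_adZ h hΨ
    rw [hb0] at hZ
    refine ⟨(mem_Z1A 𝒜).2 ⟨?_, hA⟩, h1, h2⟩
    rw [mem_Z1_one]
    intro g g'
    have := hZ.2.1 g g'
    simpa using this

end Fermat.Agent.S56x.Local.Devissage
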