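/-
P-S56, block (A) LOCAL FLAT, c-slot (helper73): DIRECT proof of the two exports (CS1), (CS2) of
`Local/CSlotBridge` in the literal shape consumed by `Local/CSlotP3.hCSlot_of_kill` (helper50),
from `Fontaine/UnrQuotLocal.sub_mem_of_localInertia` (Theorem Q for the full local inertia group)
and `Local/CSlotB1.mem_B1_of_vanish_on_ker`.  No cyclotomic exponents are needed.

`V_ε = k[ε]²` with `ρ_ε = (1 + ε c) ρ̄`, `ρ̄ B = B [χ₁ b; 0 χ₂]`.
* (CS1): `χ₂` unramified ⇒ the `(1,0)`-entry of `B⁻¹ c B` is a coboundary of `k((χ₁/χ₂)⁻¹)`.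
  [`M0 = ε k B e₁`, `x = B e₁`, `s ∈ I`, `χ₁ s = 1`.]
* (CS2): `χ₁` unramified and a flat cocycle exists ⇒ `b/χ₂` is a coboundary of `k(χ₁/χ₂)`.
  [`M0 = 0`, `x = ε B e₂`, `s ∈ I`, `χ₂ s = 1`.]
-/
import Mathlib
import Fermat.Agent.S56x.Fontaine.UnrQuotLocal
import Fermat.Agent.S56x.Local.CSlotB1
import Fermat.Agent.S56x.Local.FlatIface
import Fermat.Agent.S56x.Local.DevissageUT
import Fermat.Agent.S56x.Local.FlatCases
import Fermat.Agent.S56x.Local.CycloInertiaP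
import Fermat.Agent.S56x.Local.CSlotP3
import Fermat.Agent.S56x.Dict.DualMat

set_option autoImplicit false
set_option linter.style.longLine false
set_option linter.unusedSectionVars false
set_option linter.unusedVariables false

noncomputable section

namespace Fermat.Agent.S56x.Local.CSlotDirect

open TrivSqZeroExt Fermat.Agent.S56x.Dict Fermat.Agent.S53

variable {k : Type} [Field k]

local notation "M₂" => Matrix (Fin 2) (Fin 2)
local notation "Γℚ" => (AlgebraicClosure ℚ ≃ₐ[ℚ] AlgebraicClosure ℚ)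

/-! ### Vectors over the dual numbers -/

/-- the vector `w₀ + ε w₁` of `k[ε]²`. -/
def dv (w₀ w₁ : Fin 2 → k) : Fin 2 → DualNumber k := fun i => inl (w₀ i) + inr (w₁ i)

@[simp] lemma dv_apply_fst (w₀ w₁ : Fin 2 → k) (i : Fin 2) : (dv w₀ w₁ i).fst = w₀ i := by
  simp [dv]

@[simp] lemma dv_apply_snd (w₀ w₁ : Fin 2 → k) (i : Fin 2) : (dv w₀ w₁ i).snd = w₁ i := by
  simp [dv]

lemma dv_ext {w₀ w₁ w₀' w₁' : Fin 2 → k} (h : dv w₀ w₁ = dv w₀' w₁') : w₀ = w₀' ∧ w₁ = w₁' := by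
  constructor
  · funext i
    have := congrArg (fun v : Fin 2 → DualNumber k => (v i).fst) h
    simpa using this
  · funext i
    have := congrArg (fun v : Fin 2 → DualNumber k => (v i).snd) h
    simpa using this

lemma dv_sub (a b a' b' : Fin 2 → k) : dv a b - dv a' b' = dv (a - a') (b - b') := by
  funext i
  ext <;> simp [dv]

lemma dv_add (a b a' b' : Fin 2 → k) : dv a b + dv a' b' = dv (a + a') (b + b') := by
  funext i
  ext <;> simp [dv]

lemma dv_zero : dv (0 : Fin 2 → k) 0 = 0 := by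
  funext i
  ext <;> simp [dv]

lemma dv_neg (a b : Fin 2 → k) : -dv a b = dv (-a) (-b) := by
  funext i
  ext <;> simp [dv]

lemma dn_mulVec_dv (A B : M₂ k) (w₀ w₁ : Fin 2 → k) :
    (dn A B).mulVec (dv w₀ w₁) = dv (A.mulVec w₀) (A.mulVec w₁ + B.mulVec w₀) := by
  funext i
  ext
  · simp [dv, Matrix.mulVec, dotProduct, Fin.sum_univ_two]
  · fin_cases i
    · simp [dv, Matrix.mulVec, dotProduct, Fin.sum_univ_two]
      ring
    · simp [dv, Matrix.mulVec, dotProduct, Fin.sum_univ_two]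
      ring

/-! ### The kill on `V_ε` -/

section Kill

open Fermat.Agent.S56x.Local.LocalInertia Fermat.Agent.S56x.Fontaine.UnrQuotLocal
open Fermat.Agent.S56x.Fontaine.LocalPoints

variable {p : ℕ} [Fact p.Prime] {rbar : Γℚ →* M₂ k}

/-- the action of the local Galois group on `V_ε = k[ε]²` through the lift `(1 + ε c) ρ̄`. -/
def actV (c : TanCocycle rbar) (τ : PadicAlgCl p ≃ₐ[ℚ_[p]] PadicAlgCl p)
    (v : Fin 2 → DualNumber k) : Fin 2 → DualNumber k :=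
  (c.liftMat (localGaloisToGlobal p τ)).mulVec v

lemma actV_dv (c : TanCocycle rbar) (τ : PadicAlgCl p ≃ₐ[ℚ_[p]] PadicAlgCl p)
    (w₀ w₁ : Fin 2 → k) :
    actV c τ (dv w₀ w₁) =
      dv ((rbar (localGaloisToGlobal p τ)).mulVec w₀)
        ((rbar (localGaloisToGlobal p τ)).mulVec w₁ +
          (c.c (localGaloisToGlobal p τ) * rbar (localGaloisToGlobal p τ)).mulVec w₀) := by
  unfold actV
  rw [TanCocycle.liftMat_apply, dn_mulVec_dv]

theorem nsmul_eq_zero_dual [CharP k p] (m : Fin 2 → DualNumber k) : p • m = 0 := by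
  funext i
  ext
  · simp
  · simp

/-- **Theorem Q on `V_ε`**: for a flat lift, a Galois stable subgroup `M0` of `V_ε`, `s` in the
inertia group and `x ∈ V_ε`: if `(τ - 1)(s - 1) x ∈ M0` for all `τ` in the inertia group, then
`(s - 1) x ∈ M0`. -/
theorem kill_V [Finite k] [CharP k p] (hp2 : p ≠ 2)
    (hrbar : GaloisFactorsThroughFiniteLevel rbar) (c : TanCocycle rbar)
    (hflat : (c.lift hrbar).IsFlatAt p)
    (M0 : AddSubgroup (Fin 2 → DualNumber k)) (hM0 : ∀ τ, ∀ m ∈ M0, actV (p := p) c τ m ∈ M0)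
    (s : PadicAlgCl p ≃ₐ[ℚ_[p]] PadicAlgCl p) (hs : s ∈ localInertia' p)
    (x : Fin 2 → DualNumber k)
    (hx : ∀ τ ∈ localInertia' p, actV c τ (actV c s x - x) - (actV c s x - x) ∈ M0) :
    actV c s x - x ∈ M0 := by
  classical
  have hfinA : Finite (DualNumber k) := inferInstanceAs (Finite (k × k))
  have hfin : Finite (DualNumber k ⧸ (⊥ : Ideal (DualNumber k))) :=
    Finite.of_surjective (Ideal.Quotient.mk _) Ideal.Quotient.mk_surjective
  obtain ⟨Hp, i1, i2, hfinH, hfree, hco, e, hadd, hgal⟩ :=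
    exists_local_hopf_of_isFlatAt (c.lift hrbar) hflat ⊥ hfin
  have hbot : ((⊥ : Ideal (DualNumber k)) •
      (⊤ : Submodule (DualNumber k) (c.lift hrbar).V)) = ⊥ := Submodule.bot_smul _
  let qe : ((c.lift hrbar).V ⧸ ((⊥ : Ideal (DualNumber k)) •
      (⊤ : Submodule (DualNumber k) (c.lift hrbar).V))) ≃ₗ[DualNumber k] (c.lift hrbar).V :=
    Submodule.quotEquivOfEqBot _ hbot
  have hqe : ∀ (σ : Γℚ) (m : (c.lift hrbar).V ⧸ ((⊥ : Ideal (DualNumber k)) •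
      (⊤ : Submodule (DualNumber k) (c.lift hrbar).V))),
      qe ((c.lift hrbar).levelAction ⊥ σ m) = (c.liftMat σ).mulVec (qe m) := by
    intro σ m
    obtain ⟨v, rfl⟩ := Submodule.mkQ_surjective _ m
    simp only [GaloisRepAdic.levelAction, Submodule.mkQ_apply, Submodule.mapQ_apply, qe,
      Submodule.quotEquivOfEqBot_apply_mk]
    rfl
  let e' : WithConv (Hp →ₐ[ℤ_[p]] PadicAlgCl p) ≃ (Fin 2 → DualNumber k) :=
    e.trans qe.toEquiv
  have he' : ∀ f g : WithConv (Hp →ₐ[ℤ_[p]] PadicAlgCl p), e' (f * g) = e' f + e' g := by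
    intro f g
    change qe (e (f * g)) = qe (e f) + qe (e g)
    rw [hadd, map_add]
  have hact' : ∀ (τ : PadicAlgCl p ≃ₐ[ℚ_[p]] PadicAlgCl p)
      (f g : WithConv (Hp →ₐ[ℤ_[p]] PadicAlgCl p)), (∀ h : Hp, g h = τ (f h)) →
      e' g = actV c τ (e' f) := by
    intro τ f g hfg
    change qe (e g) = (c.liftMat (localGaloisToGlobal p τ)).mulVec (qe (e f))
    rw [hgal τ f g hfg, hqe]
  exact sub_mem_of_localInertia hp2 e' he' nsmul_eq_zero_dual (actV c) hact' M0 hM0 s hs x hx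

end Kill

/-! ### Triangular coordinates -/

section Coordinates

open Matrix

variable {B : M₂ k}

lemma entry10_conj (T X T' : M₂ k) (hT : T 1 0 = 0) (hT' : T' 1 0 = 0) :
    (T * X * T') 1 0 = T 1 1 * X 1 0 * T' 0 0 := by
  simp [Matrix.mul_apply, Fin.sum_univ_two, hT, hT']

lemma conj_eq_of_mul_eq (hB : B.det ≠ 0) {R N : M₂ k} (h : R * B = B * N) : B⁻¹ * R * B = N := by
  rw [Matrix.mul_assoc, h, ← Matrix.mul_assoc, nonsing_inv_mul _ (isUnit_iff_ne_zero.mpr hB),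
    Matrix.one_mul]

lemma conj_mul3 (hB : B.det ≠ 0) (R X R' : M₂ k) :
    B⁻¹ * (R * X * R') * B = (B⁻¹ * R * B) * (B⁻¹ * X * B) * (B⁻¹ * R' * B) := by
  have h1 : B * B⁻¹ = 1 := mul_nonsing_inv _ (isUnit_iff_ne_zero.mpr hB)
  calc B⁻¹ * (R * X * R') * B = B⁻¹ * R * 1 * X * 1 * R' * B := by
        simp only [Matrix.mul_one, Matrix.mul_assoc]
    _ = (B⁻¹ * R * B) * (B⁻¹ * X * B) * (B⁻¹ * R' * B) := by
        rw [← h1]
        simp only [Matrix.mul_assoc]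

lemma mulVec_injective_of_det_ne_zero (hB : B.det ≠ 0) : Function.Injective B.mulVec := by
  intro u u' huu'
  have h1 : B⁻¹ * B = 1 := nonsing_inv_mul _ (isUnit_iff_ne_zero.mpr hB)
  have h2 := congrArg B⁻¹.mulVec huu'
  rw [Matrix.mulVec_mulVec, Matrix.mulVec_mulVec, h1, Matrix.one_mulVec, Matrix.one_mulVec] at h2
  exact h2

/-- the vector `B u₀ + ε B u₁`. -/
def bv (B : M₂ k) (u₀ u₁ : Fin 2 → k) : Fin 2 → DualNumber k := dv (B.mulVec u₀) (B.mulVec u₁)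

lemma bv_sub (u₀ u₁ u₀' u₁' : Fin 2 → k) :
    bv B u₀ u₁ - bv B u₀' u₁' = bv B (u₀ - u₀') (u₁ - u₁') := by
  unfold bv
  rw [dv_sub, Matrix.mulVec_sub, Matrix.mulVec_sub]

lemma bv_ext (hB : B.det ≠ 0) {u₀ u₁ u₀' u₁' : Fin 2 → k} (h : bv B u₀ u₁ = bv B u₀' u₁') :
    u₀ = u₀' ∧ u₁ = u₁' := by
  obtain ⟨h0, h1⟩ := dv_ext h
  exact ⟨mulVec_injective_of_det_ne_zero hB h0, mulVec_injective_of_det_ne_zero hB h1⟩

end Coordinates

/-! ### (CS1) and (CS2) -/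

section Main

open Matrix
open Fermat.Agent.S56x.Local.FlatIface Fermat.Agent.S56x.Local.Devissage
open Fermat.Agent.S56x.Local.LocalInertia ExtCitation

variable {p : ℕ} [Fact p.Prime] {rbar : Γℚ →* M₂ k}

/-- the action on `V_ε` in triangular coordinates. -/
lemma actV_bv (c : TanCocycle rbar) {B : M₂ k} (hB : B.det ≠ 0)
    (τ : PadicAlgCl p ≃ₐ[ℚ_[p]] PadicAlgCl p) {T : M₂ k}
    (hT : rbar (localGaloisToGlobal p τ) * B = B * T) (u₀ u₁ : Fin 2 → k) :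
    actV c τ (bv B u₀ u₁) =
      bv B (T.mulVec u₀)
        (T.mulVec u₁ + (B⁻¹ * c.c (localGaloisToGlobal p τ) * B).mulVec (T.mulVec u₀)) := by
  have h1 : B * B⁻¹ = 1 := mul_nonsing_inv _ (isUnit_iff_ne_zero.mpr hB)
  have hRB : ∀ u : Fin 2 → k, (rbar (localGaloisToGlobal p τ)).mulVec (B.mulVec u)
      = B.mulVec (T.mulVec u) := by
    intro u
    rw [Matrix.mulVec_mulVec, hT, ← Matrix.mulVec_mulVec]
  have hCB : ∀ u : Fin 2 → k, (c.c (localGaloisToGlobal p τ)).mulVec (B.mulVec u)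
      = B.mulVec ((B⁻¹ * c.c (localGaloisToGlobal p τ) * B).mulVec u) := by
    intro u
    rw [Matrix.mulVec_mulVec, Matrix.mulVec_mulVec, ← Matrix.mul_assoc, ← Matrix.mul_assoc, h1,
      Matrix.one_mul]
  unfold bv
  rw [actV_dv, hRB, hRB, ← Matrix.mulVec_mulVec, hRB, hCB, ← Matrix.mulVec_add]

lemma ut_mulVec (x y z a a' : k) :
    (!![x, y; 0, z] : M₂ k).mulVec ![a, a'] = ![x * a + y * a', z * a'] := by
  funext i
  fin_cases i <;> simp [Matrix.mulVec, dotProduct, Fin.sum_univ_two]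

lemma mulVec_e0 (X : M₂ k) (a : k) : X.mulVec ![a, 0] = ![X 0 0 * a, X 1 0 * a] := by
  funext i
  fin_cases i <;> simp [Matrix.mulVec, dotProduct, Fin.sum_univ_two]

/-- the `(1,0)`-entry of `B⁻¹ c B` is a cocycle of `k((χ₁/χ₂)⁻¹)`. -/
theorem entry10_mem_Z1 (c : TanCocycle rbar) {B : M₂ k} (hB : B.det ≠ 0)
    {χ₁ χ₂ : Gp p →* kˣ} {b : Gp p → k}
    (h : ∀ g, rbar (locP p g) * B = B * !![(χ₁ g : k), b g; 0, (χ₂ g : k)]) :
    (fun g => (B⁻¹ * c.c (locP p g) * B) 1 0) ∈ Z1 (χ₁ / χ₂)⁻¹ := by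
  intro g g'
  have h1 := c.map_mul' (locP p g) (locP p g')
  have hloc : locP p (g * g') = locP p g * locP p g' := map_mul _ _ _
  have hinv : (locP p g)⁻¹ = locP p g⁻¹ := (map_inv _ _).symm
  show (B⁻¹ * c.c (locP p (g * g')) * B) 1 0 = (B⁻¹ * c.c (locP p g) * B) 1 0 +
    (((χ₁ / χ₂)⁻¹ g : kˣ) : k) * (B⁻¹ * c.c (locP p g') * B) 1 0
  have hT0 : (!![(χ₁ g : k), b g; 0, (χ₂ g : k)] : M₂ k) 1 0 = 0 := by simp
  have hT0' : (!![(χ₁ g⁻¹ : k), b g⁻¹; 0, (χ₂ g⁻¹ : k)] : M₂ k) 1 0 = 0 := by simp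
  have hT11 : (!![(χ₁ g : k), b g; 0, (χ₂ g : k)] : M₂ k) 1 1 = (χ₂ g : k) := by simp
  have hT00' : (!![(χ₁ g⁻¹ : k), b g⁻¹; 0, (χ₂ g⁻¹ : k)] : M₂ k) 0 0 = (χ₁ g⁻¹ : k) := by simp
  have key : (B⁻¹ * (rbar (locP p g) * c.c (locP p g') * rbar (locP p g⁻¹)) * B) 1 0
      = (χ₂ g : k) * (B⁻¹ * c.c (locP p g') * B) 1 0 * (χ₁ g⁻¹ : k) := by
    rw [conj_mul3 hB, conj_eq_of_mul_eq hB (h g), conj_eq_of_mul_eq hB (h g⁻¹),
      entry10_conj _ _ _ hT0 hT0', hT11, hT00']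
  have e1 : (((χ₁ / χ₂)⁻¹ g : kˣ) : k) = (χ₂ g : k) * ((χ₁ g⁻¹ : kˣ) : k) := by
    rw [map_inv χ₁, ← Units.val_mul]
    congr 1
  rw [hloc, h1, hinv, Matrix.mul_add, Matrix.add_mul, Matrix.add_apply, key, e1]
  ring

/-- **(CS1), vanishing form.** `χ₂` trivial on inertia, `c` flat, `s` in the inertia group with
`χ₁ s = 1`: the `(1,0)`-entry of `B⁻¹ c(s) B` vanishes. -/
theorem entry10_eq_zero [Finite k] [CharP k p] (hp2 : p ≠ 2)
    (hrbar : GaloisFactorsThroughFiniteLevel rbar) (c : TanCocycle rbar)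
    (hflat : (c.lift hrbar).IsFlatAt p) {B : M₂ k} (hB : B.det ≠ 0)
    {χ₁ χ₂ : Gp p →* kˣ} {b : Gp p → k}
    (h : ∀ g, rbar (locP p g) * B = B * !![(χ₁ g : k), b g; 0, (χ₂ g : k)])
    (hχ₂ : ∀ t ∈ localInertia (pPrime p), χ₂ t = 1)
    (s : Gp p) (hs : s ∈ localInertia (pPrime p)) (hs1 : χ₁ s = 1) :
    (B⁻¹ * c.c (locP p s) * B) 1 0 = 0 := by
  classical
  -- the subgroup `M0 = ε k B e₁`
  let M0 : AddSubgroup (Fin 2 → DualNumber k) :=
    { carrier := {v | ∃ a : k, v = bv B 0 ![a, 0]}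
      zero_mem' := ⟨0, by
        have h0 : (![0, 0] : Fin 2 → k) = 0 := by
          funext i
          fin_cases i <;> rfl
        unfold bv
        rw [h0, Matrix.mulVec_zero, dv_zero]⟩
      add_mem' := by
        rintro _ _ ⟨a, rfl⟩ ⟨a', rfl⟩
        refine ⟨a + a', ?_⟩
        have h0 : (![a, 0] : Fin 2 → k) + ![a', 0] = ![a + a', 0] := by
          funext i
          fin_cases i <;> simp
        unfold bv
        rw [dv_add, ← Matrix.mulVec_add, ← Matrix.mulVec_add, h0, add_zero]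
      neg_mem' := by
        rintro _ ⟨a, rfl⟩
        refine ⟨-a, ?_⟩
        have h0 : -(![a, 0] : Fin 2 → k) = ![-a, 0] := by
          funext i
          fin_cases i <;> simp
        unfold bv
        rw [dv_neg, ← Matrix.mulVec_neg, ← Matrix.mulVec_neg, h0, neg_zero] }
  have hT : ∀ τ : Gp p, rbar (localGaloisToGlobal p τ) * B
      = B * !![(χ₁ τ : k), b τ; 0, (χ₂ τ : k)] := fun τ => h τ
  have hM0 : ∀ (τ : PadicAlgCl p ≃ₐ[ℚ_[p]] PadicAlgCl p), ∀ m ∈ M0, actV c τ m ∈ M0 := by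
    rintro τ _ ⟨a, rfl⟩
    refine ⟨(χ₁ τ : k) * a, ?_⟩
    rw [actV_bv (p := p) c hB τ (hT τ)]
    congr 1
    · funext i
      fin_cases i <;> simp [Matrix.mulVec, dotProduct]
    · rw [ut_mulVec]
      have : (!![(χ₁ τ : k), b τ; 0, (χ₂ τ : k)] : M₂ k).mulVec (0 : Fin 2 → k) = 0 :=
        Matrix.mulVec_zero _
      rw [this, Matrix.mulVec_zero, add_zero]
      simp
  have hs' : (s : PadicAlgCl p ≃ₐ[ℚ_[p]] PadicAlgCl p) ∈ localInertia' p := hs
  -- `(s - 1) x`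
  have hsx : actV (p := p) c s (bv B ![1, 0] 0) - bv B ![1, 0] 0
      = bv B 0 ![(B⁻¹ * c.c (locP p s) * B) 0 0, (B⁻¹ * c.c (locP p s) * B) 1 0] := by
    rw [actV_bv (p := p) c hB s (hT s), bv_sub, ut_mulVec]
    have h1 : ((χ₁ s : kˣ) : k) = 1 := by rw [hs1]; rfl
    congr 1
    · rw [h1]
      funext i
      fin_cases i <;> simp
    · have hv : (![1 * 1 + b s * 0, ((χ₂ s : kˣ) : k) * 0] : Fin 2 → k) = ![1, 0] := by simp
      rw [Matrix.mulVec_zero, zero_add, sub_zero, h1, hv, mulVec_e0, mul_one, mul_one]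
      rfl
  have key := kill_V hp2 hrbar c hflat M0 hM0 s hs' (bv B ![1, 0] 0) (by
    intro τ hτ
    rw [hsx]
    have hχ : ((χ₂ τ : kˣ) : k) = 1 := by
      rw [hχ₂ τ hτ]; rfl
    refine ⟨((χ₁ τ : kˣ) : k) * (B⁻¹ * c.c (locP p s) * B) 0 0
      + b τ * (B⁻¹ * c.c (locP p s) * B) 1 0 - (B⁻¹ * c.c (locP p s) * B) 0 0, ?_⟩
    rw [actV_bv (p := p) c hB τ (hT τ), bv_sub, ut_mulVec]
    congr 1
    · simp
    · rw [Matrix.mulVec_zero, Matrix.mulVec_zero, add_zero, hχ]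
      funext i
      fin_cases i <;> simp)
  rw [hsx] at key
  obtain ⟨a, ha⟩ := key
  have := (bv_ext hB ha).2
  have h10 := congrFun this 1
  simpa using h10

/-- **(CS1)** (the hypothesis `hCS1` of `Local/CSlotP3.hCSlot_of_kill`): in a triangularising
basis with `χ₂` unramified, the `(1,0)`-entry of every flat tangent cocycle is a coboundary of
`k((χ₁/χ₂)⁻¹)`.  `hram`: the determinant character `χ₁χ₂` is non-trivial on inertia. -/
theorem cs1 [Finite k] [CharP k p] (hp2 : p ≠ 2)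
    (hrbar : GaloisFactorsThroughFiniteLevel rbar) {B : M₂ k} (hB : B.det ≠ 0)
    {χ₁ χ₂ : Gp p →* kˣ} {b : Gp p → k}
    (h : ∀ g, rbar (locP p g) * B = B * !![(χ₁ g : k), b g; 0, (χ₂ g : k)])
    (hχ₂ : ∀ t ∈ localInertia (pPrime p), χ₂ t = 1)
    (hram : ∃ t₀ ∈ localInertia (pPrime p), χ₁ t₀ * χ₂ t₀ ≠ 1)
    (c : TanCocycle rbar) (hflat : (c.lift hrbar).IsFlatAt p) :
    (fun g => (B⁻¹ * c.c (locP p g) * B) 1 0) ∈ B1 (χ₁ / χ₂)⁻¹ := by
  have := localInertia_normal (pPrime p)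
  obtain ⟨t₀, ht₀, hne⟩ := hram
  refine mem_B1_of_vanish_on_ker (entry10_mem_Z1 c hB h) (localInertia (pPrime p)) ?_ ht₀ ?_
  · intro s hs hχs
    have h2 := hχ₂ s hs
    have h1 : χ₁ s = 1 := by
      have h3 : (χ₁ s / χ₂ s)⁻¹ = 1 := hχs
      rw [h2, div_one, inv_eq_one] at h3
      exact h3
    exact entry10_eq_zero hp2 hrbar c hflat hB h hχ₂ s hs h1
  · intro hχ
    apply hne
    have h2 := hχ₂ t₀ ht₀
    have h3 : (χ₁ t₀ / χ₂ t₀)⁻¹ = 1 := hχ
    rw [h2, div_one, inv_eq_one] at h3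
    rw [h3, h2, one_mul]

/-- **(CS2), vanishing form.** `χ₁` trivial on inertia, `c` flat, `s` in the inertia group with
`χ₂ s = 1`: then `b s = 0`. -/
theorem b_eq_zero [Finite k] [CharP k p] (hp2 : p ≠ 2)
    (hrbar : GaloisFactorsThroughFiniteLevel rbar) (c : TanCocycle rbar)
    (hflat : (c.lift hrbar).IsFlatAt p) {B : M₂ k} (hB : B.det ≠ 0)
    {χ₁ χ₂ : Gp p →* kˣ} {b : Gp p → k}
    (h : ∀ g, rbar (locP p g) * B = B * !![(χ₁ g : k), b g; 0, (χ₂ g : k)])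
    (hχ₁ : ∀ t ∈ localInertia (pPrime p), χ₁ t = 1)
    (s : Gp p) (hs : s ∈ localInertia (pPrime p)) (hs2 : χ₂ s = 1) : b s = 0 := by
  classical
  have hT : ∀ τ : Gp p, rbar (localGaloisToGlobal p τ) * B
      = B * !![(χ₁ τ : k), b τ; 0, (χ₂ τ : k)] := fun τ => h τ
  have hM0 : ∀ (τ : PadicAlgCl p ≃ₐ[ℚ_[p]] PadicAlgCl p),
      ∀ m ∈ (⊥ : AddSubgroup (Fin 2 → DualNumber k)), actV c τ m ∈ (⊥ : AddSubgroup _) := by
    intro τ m hm
    rw [AddSubgroup.mem_bot] at hm ⊢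
    rw [hm]
    unfold actV
    exact Matrix.mulVec_zero _
  have hs' : (s : PadicAlgCl p ≃ₐ[ℚ_[p]] PadicAlgCl p) ∈ localInertia' p := hs
  have hsx : actV (p := p) c s (bv B 0 ![0, 1]) - bv B 0 ![0, 1] = bv B 0 ![b s, 0] := by
    rw [actV_bv (p := p) c hB s (hT s), bv_sub, ut_mulVec]
    have h1 : ((χ₂ s : kˣ) : k) = 1 := by rw [hs2]; rfl
    congr 1
    · rw [Matrix.mulVec_zero, sub_zero]
    · rw [Matrix.mulVec_zero, Matrix.mulVec_zero, add_zero, h1]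
      funext i
      fin_cases i <;> simp
  have key := kill_V hp2 hrbar c hflat ⊥ hM0 s hs' (bv B 0 ![0, 1]) (by
    intro τ hτ
    rw [hsx, AddSubgroup.mem_bot]
    have hχ : ((χ₁ τ : kˣ) : k) = 1 := by
      rw [hχ₁ τ hτ]; rfl
    rw [actV_bv (p := p) c hB τ (hT τ), bv_sub, ut_mulVec]
    have e0 : (!![(χ₁ τ : k), b τ; 0, (χ₂ τ : k)] : M₂ k).mulVec (0 : Fin 2 → k) - 0 = 0 := by
      rw [Matrix.mulVec_zero, sub_zero]
    have e1 : (![((χ₁ τ : kˣ) : k) * b s + b τ * 0, ((χ₂ τ : kˣ) : k) * 0] : Fin 2 → k)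
        + (B⁻¹ * c.c (localGaloisToGlobal p τ) * B).mulVec
          ((!![(χ₁ τ : k), b τ; 0, (χ₂ τ : k)] : M₂ k).mulVec 0) - ![b s, 0] = 0 := by
      rw [Matrix.mulVec_zero, Matrix.mulVec_zero, add_zero, hχ]
      funext i
      fin_cases i <;> simp
    rw [e0, e1]
    unfold bv
    rw [Matrix.mulVec_zero, dv_zero])
  rw [hsx, AddSubgroup.mem_bot] at key
  have h0 : bv B (0 : Fin 2 → k) ![b s, 0] = bv B 0 0 := by
    rw [key]
    unfold bv
    rw [Matrix.mulVec_zero, dv_zero]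
  have := (bv_ext hB h0).2
  have h00 := congrFun this 0
  simpa using h00

/-- **(CS2)** (the hypothesis `hCS2` of `Local/CSlotP3.hCSlot_of_kill`): in a triangularising
basis with `χ₁` unramified, if a flat tangent cocycle exists then the extension class of `rbar`
itself is a coboundary (`rbar|G_p` is split). -/
theorem cs2 [Finite k] [CharP k p] (hp2 : p ≠ 2)
    (hrbar : GaloisFactorsThroughFiniteLevel rbar) {B : M₂ k} (hB : B.det ≠ 0)
    {χ₁ χ₂ : Gp p →* kˣ} {b : Gp p → k}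
    (h : ∀ g, rbar (locP p g) * B = B * !![(χ₁ g : k), b g; 0, (χ₂ g : k)])
    (hχ₁ : ∀ t ∈ localInertia (pPrime p), χ₁ t = 1)
    (hram : ∃ t₀ ∈ localInertia (pPrime p), χ₁ t₀ * χ₂ t₀ ≠ 1)
    (c : TanCocycle rbar) (hflat : (c.lift hrbar).IsFlatAt p) :
    bOf χ₂ b ∈ B1 (χ₁ / χ₂) := by
  have := localInertia_normal (pPrime p)
  obtain ⟨t₀, ht₀, hne⟩ := hram
  have hZ : bOf χ₂ b ∈ Z1 (χ₁ / χ₂) :=
    bOf_mem_Z1 (Fermat.Agent.S56x.Local.FlatBridge.isUT_conjRep (rbar.comp (locP p)) hB h)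
  refine mem_B1_of_vanish_on_ker hZ (localInertia (pPrime p)) ?_ ht₀ ?_
  · intro s hs hχs
    have h1 := hχ₁ s hs
    have h2 : χ₂ s = 1 := by
      have h3 : χ₁ s / χ₂ s = 1 := hχs
      rw [h1, one_div, inv_eq_one] at h3
      exact h3
    show b s * chr χ₂⁻¹ s = 0
    rw [b_eq_zero hp2 hrbar c hflat hB h hχ₁ s hs h2, zero_mul]
  · intro hχ
    apply hne
    have h1 := hχ₁ t₀ ht₀
    have h3 : χ₁ t₀ / χ₂ t₀ = 1 := hχ
    rw [h1, one_div, inv_eq_one] at h3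
    rw [h3, h1, one_mul]

/-- **`hram`**: if `det rbar` is the mod `p` cyclotomic character (`p` odd), the determinant
character `χ₁χ₂` of a triangularisation of `rbar|G_p` is non-trivial on the inertia group. -/
theorem exists_inertia_det_ne_one [CharP k p] (hp2 : p ≠ 2) (hdet : DetIsCycloModP p rbar)
    {B : M₂ k} (hB : B.det ≠ 0) {χ₁ χ₂ : Gp p →* kˣ} {b : Gp p → k}
    (h : ∀ g, rbar (locP p g) * B = B * !![(χ₁ g : k), b g; 0, (χ₂ g : k)]) :
    ∃ t₀ ∈ localInertia (pPrime p), χ₁ t₀ * χ₂ t₀ ≠ 1 := by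
  have hp : p.Prime := Fact.out
  have : NeZero p := ⟨hp.ne_zero⟩
  have : NeZero ((p : ℕ) : ℚ) := ⟨by exact_mod_cast hp.ne_zero⟩
  have : HasEnoughRootsOfUnity (AlgebraicClosure ℚ) p :=
    AlgebraicClosure.hasEnoughRootsOfUnity ℚ p
  obtain ⟨μ₀, hμ₀⟩ := HasEnoughRootsOfUnity.exists_primitiveRoot (AlgebraicClosure ℚ) p
  have hζ : IsPrimitiveRoot (padicEmbedding p μ₀) p :=
    hμ₀.map_of_injective (padicEmbedding p).toRingHom.injective
  obtain ⟨t₀, ht₀, hne⟩ :=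
    Fermat.Agent.S56x.Local.CycloInertiaP.exists_mem_localInertia'_apply_ne p hp2 hζ
  refine ⟨t₀, ht₀, fun hone => hne ?_⟩
  -- the cyclotomic exponent of `σ = loc t₀`
  have hσμ : (localGaloisToGlobal p t₀ μ₀) ^ p = 1 := by
    rw [← map_pow, hμ₀.pow_eq_one, map_one]
  obtain ⟨a, -, ha⟩ := hμ₀.eq_pow_of_pow_eq_one hσμ
  have hall : ∀ μ : AlgebraicClosure ℚ, μ ^ p = 1 → localGaloisToGlobal p t₀ μ = μ ^ a := by
    intro μ hμ
    obtain ⟨j, -, rfl⟩ := hμ₀.eq_pow_of_pow_eq_one hμ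
    rw [map_pow, ← ha, ← pow_mul, ← pow_mul, mul_comm]
  have hd := hdet (localGaloisToGlobal p t₀) a hall
  -- the determinant from the triangular form
  have hd2 : (rbar (localGaloisToGlobal p t₀)).det = ((χ₁ t₀ : kˣ) : k) * ((χ₂ t₀ : kˣ) : k) := by
    have h1 := congrArg Matrix.det (h t₀)
    rw [Matrix.det_mul, Matrix.det_mul, Matrix.det_fin_two_of, mul_zero, sub_zero] at h1
    have h2 : (rbar (locP p t₀)).det * B.det = (((χ₁ t₀ : kˣ) : k) * ((χ₂ t₀ : kˣ) : k)) * B.det := by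
      rw [h1, mul_comm]
    exact mul_right_cancel₀ hB h2
  have ha1 : ((a : ℕ) : k) = ((1 : ℕ) : k) := by
    rw [← hd, hd2, ← Units.val_mul, hone, Units.val_one, Nat.cast_one]
  have hmod : a ≡ 1 [MOD p] := (CharP.natCast_eq_natCast k p).mp ha1
  have hμa : μ₀ ^ a = μ₀ := by
    have ha0 : 1 ≤ a := by
      rcases Nat.eq_zero_or_pos a with h0 | h0
      · exfalso
        rw [h0] at hmod
        have h3 : p ∣ 1 := (Nat.modEq_zero_iff_dvd.mp hmod.symm)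
        exact hp.one_lt.ne' (Nat.dvd_one.mp h3)
      · exact h0
    obtain ⟨c', hc'⟩ := (Nat.modEq_iff_dvd' ha0).mp hmod.symm
    have ha' : a = 1 + p * c' := by omega
    rw [ha', pow_add, pow_one, pow_mul, hμ₀.pow_eq_one, one_pow, mul_one]
  rw [← padicEmbedding_localGaloisToGlobal, ← ha, hμa]

/-- **`hCSlot` of `FlatCountFinal.rank_flatSpan_le_four` from the dichotomy alone** (every odd
`p`): the Hopf-algebra inputs `hCS1`, `hCS2` of `CSlotP3.hCSlot_of_kill` are discharged by `cs1`,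
`cs2`; the only remaining hypothesis is the dichotomy "`χ₂` or `χ₁` is unramified" for the
triangularisations of `rbar|G_p`. -/
theorem hCSlot_of_dichotomy [Finite k] [CharP k p] (hp2 : p ≠ 2)
    (hrbar : GaloisFactorsThroughFiniteLevel rbar) (hdet : DetIsCycloModP p rbar)
    (hdich : ∀ (B : M₂ k) (χ₁ χ₂ : Gp p →* kˣ) (b : Gp p → k), B.det ≠ 0 →
      (∀ g, Fermat.Agent.S56x.Local.FlatBridge.rloc p rbar g * B
        = B * !![(χ₁ g : k), b g; 0, (χ₂ g : k)]) →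
      (∀ t ∈ (localInertia (pPrime p) : Set (Gp p)), χ₂ t = 1) ∨
        (∀ t ∈ (localInertia (pPrime p) : Set (Gp p)), χ₁ t = 1)) :
    Fermat.Agent.S56x.Local.TameRep.HasStableLine (Fermat.Agent.S56x.Local.FlatBridge.rloc p rbar) →
      (∃ c, IsFlatTan p rbar hrbar c) →
      ∃ (B : M₂ k) (χ₁ χ₂ : Gp p →* kˣ) (b : Gp p → k), B.det ≠ 0 ∧
        (∀ g, Fermat.Agent.S56x.Local.FlatBridge.rloc p rbar g * B
          = B * !![(χ₁ g : k), b g; 0, (χ₂ g : k)]) ∧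
        ∀ c, IsFlatTan p rbar hrbar c →
          (fun g => (B⁻¹ * resP p rbar c g * B) 1 0) ∈ B1 (χ₁ / χ₂)⁻¹ :=
  Fermat.Agent.S56x.Local.FlatBridge.hCSlot_of_kill p rbar hrbar
    (localInertia (pPrime p) : Set (Gp p))
    (fun B χ₁ χ₂ b hB h hI c hc =>
      cs1 hp2 hrbar hB h hI (exists_inertia_det_ne_one hp2 hdet hB h) c hc.2)
    (fun B χ₁ χ₂ b hB h hI hex => by
      obtain ⟨c, hc⟩ := hex
      exact cs2 hp2 hrbar hB h hI (exists_inertia_det_ne_one hp2 hdet hB h) c hc.2)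
    hdich

end Main

end Fermat.Agent.S56x.Local.CSlotDirect
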