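import Fermat.Agent.S56x.Local.CSlotP5

/-!
# P-S56 / block A : the c-slot statement for `p ≥ 5` with `hsq` for ADMISSIBLE characters only

`FlatBridge.exists_cslot_basis` / `hCSlot_of_cw0` (`Local/CSlotP5.lean`) assume
`hsq : ∀ χ : G →* kˣ, ∃ t ∈ I, chr χ t ^ 2 ≠ ω t` for ALL abstract characters `χ` of the local Galois
group.  The tame relations available in `Gal(ℚ̄_p/ℚ_p)` (`TameRepPadic`) hold "up to a homomorphism
trivial on `Gal(ℚ̄_p/E)`", i.e. they can be used for admissible (bounded) characters only.  The proof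
uses `hsq` only at the character `χ₂` of the triangularisation, which is admissible; this file
restates the two theorems with `hsq` restricted to admissible characters (same proofs), and derives
`hsq` and `hω2` from two arithmetic facts:

* `(CYC)`  : `ω t₀ = (g : k)` for some `t₀ ∈ I` and `g : ZMod p` of order `p - 1`
  (the mod `p` cyclotomic character maps inertia ONTO `𝔽_p^×`);
* `(TAME)` : `chr χ t ^ (p - 1) = 1` for admissible `χ` and `t ∈ I`.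
-/

set_option autoImplicit false
set_option linter.unusedSectionVars false

namespace Fermat.Agent.S56x.Local.CSlotP5Adm

open Fermat.Agent.S56x.Local.Devissage Fermat.Agent.S56x.Local.TameRep
  Fermat.Agent.S56x.Local.FlatBridge Module Matrix

local notation "M₂" => Matrix (Fin 2) (Fin 2)

variable {G : Type} [Group G] {k : Type} [Field k] [Finite k]

/-- **`hCSlot` for `p ≥ 5`** (abstract form), with `hsq` required for ADMISSIBLE characters only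
(verbatim the proof of `FlatBridge.exists_cslot_basis`, which uses `hsq` at the admissible `χ₂`). -/
theorem exists_cslot_basis_adm (r : G →* M₂ k) (𝒜 : Subalgebra k (G → k)) (Fm : Set (G → M₂ k))
    (I : Set G) (ω : G → k)
    (hdet : ∀ g, (r g).det = ω g)
    (hCW0 : ∀ χ : G →* kˣ, chr χ ∈ 𝒜 → (∃ t ∈ I, chr χ t ≠ 1) → (∃ t ∈ I, chr χ t ≠ ω t) →
      Module.rank k (H1A 𝒜 χ) = 0)
    (hsq : ∀ χ : G →* kˣ, chr χ ∈ 𝒜 → ∃ t ∈ I, chr χ t ^ 2 ≠ ω t)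
    (hω2 : ∃ t ∈ I, ω t ^ 2 ≠ 1)
    (hst : HasStableLine r)
    (hr𝒜 : ∀ i j, (fun g => r g i j) ∈ 𝒜)
    (hFm : ∀ Ψ ∈ Fm, Ψ ∈ adMatZ (ofHom r))
    (hFA : ∀ Ψ ∈ Fm, ∀ i j, (fun g => Ψ g i j) ∈ 𝒜) :
    ∃ (B : M₂ k) (χ₁ χ₂ : G →* kˣ) (b : G → k), B.det ≠ 0 ∧
      (∀ g, r g * B = B * !![(χ₁ g : k), b g; 0, (χ₂ g : k)]) ∧
      ∀ Ψ ∈ Fm, (fun g => (B⁻¹ * Ψ g * B) 1 0) ∈ B1 (χ₁ / χ₂)⁻¹ := by
  obtain ⟨B, χ₁, χ₂, b, hB, h⟩ := exists_triangular_of_hasStableLine r hst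
  have hUT : IsUT (conjHomRep r B hB) χ₁ χ₂ b := isUT_conjRep r hB h
  obtain ⟨hχ₁, hχ₂⟩ := chr_mem_of_triangular 𝒜 r hB h hr𝒜
  -- the determinant
  have hω : ∀ g, ω g = chr χ₁ g * chr χ₂ g := by
    intro g
    have h1 := congrArg Matrix.det (h g)
    rw [Matrix.det_mul, Matrix.det_mul, hdet g] at h1
    have h2 : (!![(χ₁ g : k), b g; 0, (χ₂ g : k)]).det = chr χ₁ g * chr χ₂ g := by
      simp [Matrix.det_fin_two, chr]
    rw [h2, mul_comm] at h1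
    exact mul_left_cancel₀ hB h1
  have hne2 : ∀ g, chr χ₂ g ≠ 0 := fun g => Units.ne_zero _
  have hne1 : ∀ g, chr χ₁ g ≠ 0 := fun g => Units.ne_zero _
  have hη : ∀ g, chr (χ₁ / χ₂) g = chr χ₁ g / chr χ₂ g := by
    intro g; simp [chr]
  have hηi : ∀ g, chr (χ₁ / χ₂)⁻¹ g = chr χ₂ g / chr χ₁ g := by
    intro g; simp [chr]
  -- Claim A : `η|I ≠ 1`
  obtain ⟨tA, htA, hA⟩ := hsq χ₂ hχ₂
  have hA1 : chr χ₁ tA ≠ chr χ₂ tA := by
    intro he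
    apply hA
    rw [hω, he, pow_two]
  have hη1 : ∃ t ∈ I, chr (χ₁ / χ₂) t ≠ 1 := by
    refine ⟨tA, htA, ?_⟩
    rw [hη, Ne, div_eq_one_iff_eq (hne2 tA)]
    exact hA1
  have hηi1 : ∃ t ∈ I, chr (χ₁ / χ₂)⁻¹ t ≠ 1 := by
    refine ⟨tA, htA, ?_⟩
    rw [hηi, Ne, div_eq_one_iff_eq (hne1 tA)]
    exact fun he => hA1 he.symm
  have hηmem : chr (χ₁ / χ₂) ∈ 𝒜 := chr_div_mem 𝒜 hχ₁ hχ₂
  have hηimem : chr (χ₁ / χ₂)⁻¹ ∈ 𝒜 := chr_inv_mem 𝒜 hηmem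
  by_cases hc : ∃ t ∈ I, chr (χ₁ / χ₂)⁻¹ t ≠ ω t
  · -- Case 1 : the c-slot dies in the given basis
    have h0 := hCW0 _ hηimem hηi1 hc
    exact ⟨B, χ₁, χ₂, b, hB, h, fun Ψ hΨ =>
      cslot_of_rank_eq_zero r 𝒜 hB h h0 (hFm Ψ hΨ) (hFA Ψ hΨ)⟩
  · -- Case 2 : `η⁻¹|I = ω|I`; then `η|I ≠ ω|I`, the b-slot dies, `r` splits; swap the lines
    push Not at hc
    obtain ⟨t2, ht2, h2⟩ := hω2
    have hηω : ∃ t ∈ I, chr (χ₁ / χ₂) t ≠ ω t := by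
      refine ⟨t2, ht2, fun he => h2 ?_⟩
      have h1 := hc t2 ht2
      have h3 : chr (χ₁ / χ₂) t2 * chr (χ₁ / χ₂)⁻¹ t2 = 1 := chr_mul_chr_inv _ t2
      rw [he, h1] at h3
      rw [pow_two]; exact h3
    have h0 := hCW0 _ hηmem hη1 hηω
    -- `r` is split
    have hbZ : bOf χ₂ b ∈ Z1A 𝒜 (χ₁ / χ₂) := by
      refine (mem_Z1A 𝒜).2 ⟨bOf_mem_Z1 hUT, ?_⟩
      have hb : b ∈ 𝒜 := by
        have := entries_mem_conj 𝒜 (Ψ := fun g => r g) hr𝒜 B B⁻¹ 0 1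
        have e : (fun g => (B⁻¹ * r g * B) 0 1) = b := by
          funext g
          have := hUT.R_eq g
          rw [conjHomRep_R] at this
          rw [this]; simp
        rwa [e] at this
      exact 𝒜.mul_mem hb (chr_inv_mem 𝒜 hχ₂)
    have hbB : bOf χ₂ b ∈ B1 (χ₁ / χ₂) := mem_B1_of_rank_eq_zero 𝒜 h0 hbZ
    obtain ⟨x, hx⟩ := exists_isUT_zero hUT hbB
    -- the new basis
    set B₂ : M₂ k := B * uni x * swapMat with hB₂
    have hB₂det : B₂.det ≠ 0 := by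
      rw [hB₂, Matrix.det_mul, Matrix.det_mul, det_uni, det_swapMat]
      simpa using hB
    have hdiag : ∀ g, r g * (B * uni x) = (B * uni x) * !![chr χ₁ g, 0; 0, chr χ₂ g] := by
      intro g
      have h1 := hx.R_eq g
      rw [conjRep_R, conjHomRep_R] at h1
      -- `uni (-x) * (B⁻¹ * r g * B) * uni x = diag`
      have h2 : (B * uni x) * (uni (-x) * (B⁻¹ * r g * B) * uni x) = r g * (B * uni x) := by
        calc (B * uni x) * (uni (-x) * (B⁻¹ * r g * B) * uni x)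
            = B * (uni x * uni (-x)) * B⁻¹ * r g * B * uni x := by
              simp only [Matrix.mul_assoc]
          _ = (B * B⁻¹) * r g * B * uni x := by
              rw [uni_mul_uni_neg, Matrix.mul_one]
          _ = r g * (B * uni x) := by
              rw [mul_nonsing_inv_of_det_ne_zero hB, Matrix.one_mul, Matrix.mul_assoc]
      rw [← h2, h1]
      simp
    have h₂ : ∀ g, r g * B₂ = B₂ * !![(χ₂ g : k), (0 : G → k) g; 0, (χ₁ g : k)] := by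
      intro g
      rw [hB₂, ← Matrix.mul_assoc, hdiag g, Matrix.mul_assoc, diag_mul_swapMat,
        ← Matrix.mul_assoc]
      rfl
    have h0' : Module.rank k (H1A 𝒜 (χ₂ / χ₁)⁻¹) = 0 := by
      have e : (χ₂ / χ₁)⁻¹ = χ₁ / χ₂ := by
        ext g
        simp
      rw [e]; exact h0
    exact ⟨B₂, χ₂, χ₁, 0, hB₂det, h₂, fun Ψ hΨ =>
      cslot_of_rank_eq_zero r 𝒜 hB₂det h₂ h0' (hFm Ψ hΨ) (hFA Ψ hΨ)⟩

/-! ### `hsq` and `hω2` from the two arithmetic facts `(CYC)` and `(TAME)` -/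

section Arith

variable {p : ℕ} [Fact p.Prime] [CharP k p]

omit [Finite k] in
/-- powers of natural numbers in `k` and in `ZMod p`. -/
theorem natCast_pow_eq_one_iff (a n : ℕ) : (a : k) ^ n = 1 ↔ (a : ZMod p) ^ n = 1 := by
  have hinj : Function.Injective (ZMod.castHom (dvd_refl p) k) :=
    (ZMod.castHom (dvd_refl p) k).injective
  constructor
  · intro h
    apply hinj
    rw [map_pow, map_natCast, map_one, h]
  · intro h
    have h1 := congrArg (ZMod.castHom (dvd_refl p) k) h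
    rwa [map_pow, map_natCast, map_one] at h1

omit [Finite k] in
/-- **`hsq` for admissible characters** from `(CYC)` and `(TAME)`: the value `χ(t₀)²` is a square
of a `(p - 1)`-st root of unity, while `ω(t₀)` generates `𝔽_p^×`. -/
theorem hsq_of_cyc_tame (hp2 : p ≠ 2) (𝒜 : Subalgebra k (G → k)) (I : Set G) (ω : G → k)
    (hcyc : ∃ t₀ ∈ I, ∃ a : ℕ, ω t₀ = (a : k) ∧ orderOf (a : ZMod p) = p - 1)
    (htame : ∀ χ : G →* kˣ, chr χ ∈ 𝒜 → ∀ t ∈ I, chr χ t ^ (p - 1) = 1) :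
    ∀ χ : G →* kˣ, chr χ ∈ 𝒜 → ∃ t ∈ I, chr χ t ^ 2 ≠ ω t := by
  intro χ hχ
  obtain ⟨t₀, ht₀, a, ha, hord⟩ := hcyc
  refine ⟨t₀, ht₀, fun h => ?_⟩
  have hp : p.Prime := Fact.out
  have hodd : p % 2 = 1 := hp.eq_two_or_odd.resolve_left hp2
  have hhalf : 2 * ((p - 1) / 2) = p - 1 := by omega
  have h1 : (a : k) ^ ((p - 1) / 2) = 1 := by
    rw [← ha, ← h, ← pow_mul, hhalf]
    exact htame χ hχ t₀ ht₀
  have h2 : (a : ZMod p) ^ ((p - 1) / 2) = 1 := (natCast_pow_eq_one_iff a _).1 h1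
  have h3 : orderOf (a : ZMod p) ∣ (p - 1) / 2 := orderOf_dvd_of_pow_eq_one h2
  rw [hord] at h3
  have hpos : 0 < (p - 1) / 2 := by
    have := hp.two_le
    omega
  have := Nat.le_of_dvd hpos h3
  omega

omit [Finite k] in
/-- **`hω2`** from `(CYC)` for `p ≥ 5`. -/
theorem hω2_of_cyc (hp5 : 5 ≤ p) (I : Set G) (ω : G → k)
    (hcyc : ∃ t₀ ∈ I, ∃ a : ℕ, ω t₀ = (a : k) ∧ orderOf (a : ZMod p) = p - 1) :
    ∃ t ∈ I, ω t ^ 2 ≠ 1 := by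
  obtain ⟨t₀, ht₀, a, ha, hord⟩ := hcyc
  refine ⟨t₀, ht₀, fun h => ?_⟩
  rw [ha] at h
  have h2 : (a : ZMod p) ^ 2 = 1 := (natCast_pow_eq_one_iff a 2).1 h
  have h3 : orderOf (a : ZMod p) ∣ 2 := orderOf_dvd_of_pow_eq_one h2
  rw [hord] at h3
  have := Nat.le_of_dvd (by norm_num) h3
  omega

end Arith

section Iface

open Fermat.Agent.S56x.Local.FlatIface Fermat.Agent.S56x.Dict

local notation "Γℚ" => (AlgebraicClosure ℚ ≃ₐ[ℚ] AlgebraicClosure ℚ)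

variable (p : ℕ) [Fact p.Prime] (rbar : Γℚ →* M₂ k)

/-- **`hCSlot` of `FlatCountFinal.rank_flatSpan_le_four` for `p ≥ 5`**, in the literal shape. -/
theorem hCSlot_of_cw0_adm (hrbar : GaloisFactorsThroughFiniteLevel rbar)
    (𝒜 : Subalgebra k (Gp p → k)) (I : Set (Gp p)) (ω : Gp p → k)
    (hdet : ∀ g, (rloc p rbar g).det = ω g)
    (hCW0 : ∀ χ : Gp p →* kˣ, chr χ ∈ 𝒜 → (∃ t ∈ I, chr χ t ≠ 1) → (∃ t ∈ I, chr χ t ≠ ω t) →
      Module.rank k (H1A 𝒜 χ) = 0)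
    (hsq : ∀ χ : Gp p →* kˣ, chr χ ∈ 𝒜 → ∃ t ∈ I, chr χ t ^ 2 ≠ ω t)
    (hω2 : ∃ t ∈ I, ω t ^ 2 ≠ 1)
    (hThmA : ∀ c, IsFlatTan p rbar hrbar c →
      (∀ i j, (fun g => rloc p rbar g i j) ∈ 𝒜) ∧ ∀ i j, (fun g => resP p rbar c g i j) ∈ 𝒜) :
    HasStableLine (rloc p rbar) → (∃ c, IsFlatTan p rbar hrbar c) →
      ∃ (B : M₂ k) (χ₁ χ₂ : Gp p →* kˣ) (b : Gp p → k), B.det ≠ 0 ∧
        (∀ g, rloc p rbar g * B = B * !![(χ₁ g : k), b g; 0, (χ₂ g : k)]) ∧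
        ∀ c, IsFlatTan p rbar hrbar c →
          (fun g => (B⁻¹ * resP p rbar c g * B) 1 0) ∈ B1 (χ₁ / χ₂)⁻¹ := by
  rintro hst ⟨c₀, hc₀⟩
  obtain ⟨B, χ₁, χ₂, b, hB, h, hF⟩ := exists_cslot_basis_adm (rloc p rbar) 𝒜 (flatRes p rbar hrbar)
    I ω hdet hCW0 hsq hω2 hst (hThmA c₀ hc₀).1
    (by rintro _ ⟨c, hc, rfl⟩; exact resP_mem_adMatZ p rbar c hc.1)
    (by rintro _ ⟨c, hc, rfl⟩; exact (hThmA c hc).2)
  exact ⟨B, χ₁, χ₂, b, hB, h, fun c hc => hF _ ⟨c, hc, rfl⟩⟩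

/-- **`hCSlot` for `p ≥ 5`** from `(CW0)`, `(CYC)` and `(TAME)`, in the literal shape. -/
theorem hCSlot_of_cw0_cyc_tame [CharP k p] (hp5 : 5 ≤ p)
    (hrbar : GaloisFactorsThroughFiniteLevel rbar)
    (𝒜 : Subalgebra k (Gp p → k)) (I : Set (Gp p)) (ω : Gp p → k)
    (hdet : ∀ g, (rloc p rbar g).det = ω g)
    (hCW0 : ∀ χ : Gp p →* kˣ, chr χ ∈ 𝒜 → (∃ t ∈ I, chr χ t ≠ 1) → (∃ t ∈ I, chr χ t ≠ ω t) →
      Module.rank k (H1A 𝒜 χ) = 0)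
    (hcyc : ∃ t₀ ∈ I, ∃ a : ℕ, ω t₀ = (a : k) ∧ orderOf (a : ZMod p) = p - 1)
    (htame : ∀ χ : Gp p →* kˣ, chr χ ∈ 𝒜 → ∀ t ∈ I, chr χ t ^ (p - 1) = 1)
    (hThmA : ∀ c, IsFlatTan p rbar hrbar c →
      (∀ i j, (fun g => rloc p rbar g i j) ∈ 𝒜) ∧ ∀ i j, (fun g => resP p rbar c g i j) ∈ 𝒜) :
    HasStableLine (rloc p rbar) → (∃ c, IsFlatTan p rbar hrbar c) →
      ∃ (B : M₂ k) (χ₁ χ₂ : Gp p →* kˣ) (b : Gp p → k), B.det ≠ 0 ∧
        (∀ g, rloc p rbar g * B = B * !![(χ₁ g : k), b g; 0, (χ₂ g : k)]) ∧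
        ∀ c, IsFlatTan p rbar hrbar c →
          (fun g => (B⁻¹ * resP p rbar c g * B) 1 0) ∈ B1 (χ₁ / χ₂)⁻¹ :=
  hCSlot_of_cw0_adm p rbar hrbar 𝒜 I ω hdet hCW0
    (hsq_of_cyc_tame (by omega) 𝒜 I ω hcyc htame) (hω2_of_cyc hp5 I ω hcyc) hThmA

end Iface

end Fermat.Agent.S56x.Local.CSlotP5Adm
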