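import Fermat.Agent.S56x.Local.FlatCountInputs
import Fermat.Agent.S56x.Local.CSlotP5Adm
import Fermat.Agent.S56x.Local.CSlotP3
import Fermat.Agent.S56x.Local.TameRepPadicInertia
import Fermat.Agent.S56x.Local.CycloInertiaP

/-!
# P-S56 / block (A): `CSlotStatement p rbar` (input (3) of `FlatCountInputs`) from its arithmetic
inputs

`I := inertiaSet p` is the absolute inertia subgroup `LocalInertia.localInertia' p` of
`Gal(ℚ̄_p/ℚ_p)` (as a set in `Gp p`), `𝒜 := bddAlgP p k`, `ω g := det (rbar|G_p) g`.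

PROVED HERE (unconditional):
* `pow_pred_eq_one_of_isBddFun` / `pow_pred_eq_one_of_mem_bddAlgP` : **(TAME)** a bounded character
  with values in `kˣ` has order dividing `p - 1` on inertia (tame relations of `TameRepPadic`);
* `exists_pow_action`, `det_rloc_eq_natCast` : `det rbar (loc t) = a` if `t ζ = ζ ^ a` on `μ_p`;
* `exists_inertia_det_ne_one` : the determinant is non-trivial on inertia (`CycloInertiaP`).

INPUTS (hypothesis `Prop`s, with owners):
* `CW0Statement p k` : (CW0) for `bddAlgP p k` (sibling of `CW1Statement`; `CWAssembly`);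
* `CycStatement p`   : the mod `p` cyclotomic character maps inertia ONTO `𝔽_p^×` (used for `p ≥ 5`);
* `CS1Statement p rbar`, `CS2Statement p rbar` : exports of the Hopf-algebra kill (`CSlotBridge`),
  `DichStatement p k` : the dichotomy (`InertiaDichotomy`) — used for `p = 3` only.

OUTPUT: `hCSlot_p5`, `hCSlot_p3`, and
`cslotStatement : CW0Statement p k → (5 ≤ p → CycStatement p) → CS1Statement p rbar →
  CS2Statement p rbar → DichStatement p k → CSlotStatement p rbar`.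
-/

set_option autoImplicit false
set_option linter.unusedSectionVars false
set_option linter.style.haveILetI false

noncomputable section

namespace Fermat.Agent.S56x.Local.CSlotFinal

open Fermat.Agent.S56x.Local.Devissage Fermat.Agent.S56x.Local.FlatIface
  Fermat.Agent.S56x.Local.FlatBridge Fermat.Agent.S56x.Local.TameRep
  Fermat.Agent.S56x.Local.BddDef Fermat.Agent.S56x.Local.FlatCountInputs
  Fermat.Agent.S56x.Local.TameRepPadic
  Fermat.Agent.S56x.Dict Module Matrix ExtCitation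

local notation "Γℚ" => (AlgebraicClosure ℚ ≃ₐ[ℚ] AlgebraicClosure ℚ)
local notation "M₂" => Matrix (Fin 2) (Fin 2)

variable (p : ℕ) [Fact p.Prime]

/-- The absolute inertia subgroup of `Gal(ℚ̄_p/ℚ_p)`, as a set in `Gp p`. -/
def inertiaSet : Set (Gp p) := {t | (show GQp p from t) ∈ LocalInertia.localInertia' p}

variable {k : Type} [Field k]

/-- in a field of characteristic `p`, `x ^ (p ^ n) = 1` forces `x = 1`. -/
theorem eq_one_of_pow_char_pow_eq_one [CharP k p] {x : k} {n : ℕ} (h : x ^ p ^ n = 1) : x = 1 := by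
  have hinj : Function.Injective (iterateFrobenius k p n) := (iterateFrobenius k p n).injective
  apply hinj
  rw [iterateFrobenius_def, h, map_one]

/-- **(TAME)**, on `GQp p`: a bounded character of `Gal(ℚ̄_p/ℚ_p)` with values in a finite field
of characteristic `p` has order dividing `p - 1` on inertia. -/
theorem pow_pred_eq_one_of_isBddFun [Finite k] [CharP k p] (χ : GQp p →* kˣ)
    (hχ : IsBddFun p (fun τ : GQp p => ((χ τ : kˣ) : k))) (t : GQp p)
    (ht : t ∈ LocalInertia.localInertia' p) :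
    ((χ t : kˣ) : k) ^ (p - 1) = 1 := by
  obtain ⟨E, hE, hinv⟩ := hχ
  obtain ⟨hfd, hgal, -⟩ := hE
  have hEχ : ∀ σ ∈ E.fixingSubgroup, χ σ = 1 := by
    intro σ hσ
    have h1 := hinv 1 σ hσ
    rw [one_mul] at h1
    apply Units.ext
    have h2 : ((χ σ : kˣ) : k) = ((χ 1 : kˣ) : k) := h1
    rw [h2, map_one]
  obtain ⟨φ, -, hP, -, -, hfrob, -⟩ := exists_padic_tame_relations p E χ hEχ
  have htE : t ∈ inertiaE p E := localInertia'_le_inertiaE p E ht
  obtain ⟨u, hu, h⟩ := hfrob t htE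
  obtain ⟨n, hn⟩ := hP u hu
  have hu1 : χ u = 1 := by
    apply Units.ext
    have h1 : ((χ u : kˣ) : k) ^ p ^ n = 1 := by
      rw [← Units.val_pow_eq_pow_val, hn, Units.val_one]
    rw [eq_one_of_pow_char_pow_eq_one p h1, Units.val_one]
  have h2 : χ t = χ t ^ p := by
    have h3 : χ (φ * t * φ⁻¹) = χ t := by
      rw [map_mul, map_mul, map_inv, mul_comm (χ φ), mul_assoc, mul_inv_cancel, mul_one]
    calc χ t = χ (φ * t * φ⁻¹) := h3.symm
      _ = χ (t ^ p * u) := h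
      _ = χ t ^ p := by rw [map_mul, map_pow, hu1, mul_one]
  have hx : ((χ t : kˣ) : k) ^ p = ((χ t : kˣ) : k) := by
    have := congrArg (fun x : kˣ => (x : k)) h2
    simp only [Units.val_pow_eq_pow_val] at this
    exact this.symm
  have hx0 : ((χ t : kˣ) : k) ≠ 0 := Units.ne_zero _
  have hp1 : p = (p - 1) + 1 := by
    have := (Fact.out : p.Prime).one_le
    omega
  have h4 : ((χ t : kˣ) : k) ^ (p - 1) * ((χ t : kˣ) : k) = 1 * ((χ t : kˣ) : k) := by
    rw [← pow_succ, ← hp1, hx, one_mul]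
  exact mul_right_cancel₀ hx0 h4

/-- **(TAME)** on `Gp p`, for the algebra `bddAlgP p k`. -/
theorem pow_pred_eq_one_of_mem_bddAlgP [Finite k] [CharP k p] (χ : Gp p →* kˣ)
    (hχ : chr χ ∈ bddAlgP p k) (t : Gp p) (ht : t ∈ inertiaSet p) :
    chr χ t ^ (p - 1) = 1 :=
  pow_pred_eq_one_of_isBddFun p (show GQp p →* kˣ from χ) (mem_bddAlgP_iff.1 hχ) t ht

/-! ### The determinant of `rbar|G_p` and the action on `μ_p` -/

/-- every automorphism acts on the `p`-th roots of unity by a power. -/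
theorem exists_pow_action (t : GQp p) :
    ∃ a : ℕ, ∀ ζ : PadicAlgCl p, ζ ^ p = 1 → t ζ = ζ ^ a := by
  have hp : p.Prime := Fact.out
  haveI : NeZero p := ⟨hp.ne_zero⟩
  haveI : NeZero ((p : ℕ) : PadicAlgCl p) := ⟨by exact_mod_cast hp.ne_zero⟩
  obtain ⟨ζ₀, hζ₀⟩ := HasEnoughRootsOfUnity.exists_primitiveRoot (PadicAlgCl p) p
  have h1 : (t ζ₀) ^ p = 1 := by rw [← map_pow, hζ₀.pow_eq_one, map_one]
  obtain ⟨a, -, ha⟩ := hζ₀.eq_pow_of_pow_eq_one h1
  refine ⟨a, fun ζ hζ => ?_⟩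
  obtain ⟨j, -, rfl⟩ := hζ₀.eq_pow_of_pow_eq_one hζ
  rw [map_pow, ← ha, ← pow_mul, ← pow_mul, mul_comm]

variable (rbar : Γℚ →* M₂ k)

/-- `det rbar (loc t) = a` if `t` acts on `μ_p ⊆ PadicAlgCl p` by `ζ ↦ ζ ^ a`. -/
theorem det_rloc_eq_natCast (hdet : DetIsCycloModP p rbar) (t : Gp p) (a : ℕ)
    (ha : ∀ ζ : PadicAlgCl p, ζ ^ p = 1 → (show GQp p from t) ζ = ζ ^ a) :
    (rloc p rbar t).det = (a : k) := by
  refine hdet (locP p t) a fun μ hμ => ?_
  apply (padicEmbedding p).toRingHom.injective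
  show padicEmbedding p (localGaloisToGlobal p (show GQp p from t) μ) = padicEmbedding p (μ ^ a)
  rw [padicEmbedding_localGaloisToGlobal, map_pow]
  apply ha
  rw [← map_pow, hμ, map_one]

/-! ### `p ≥ 5` -/

/-- **(CW0)** for the algebra of bounded functions: `H¹_𝒜(k(χ)) = 0` for an admissible character
which is non-trivial on inertia and differs from the cyclotomic character on inertia. -/
def CW0Statement (k : Type) [Field k] : Prop :=
  ∀ [Finite k] [CharP k p], p ≠ 2 → ∀ χ : Gp p →* kˣ, chr χ ∈ bddAlgP p k →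
    (∃ t ∈ inertiaSet p, χ t ≠ 1) →
    (∃ t ∈ inertiaSet p, ∃ a : ℕ,
      (∀ ζ : PadicAlgCl p, ζ ^ p = 1 → (show GQp p from t) ζ = ζ ^ a) ∧ (a : k) ≠ (χ t : k)) →
    Module.rank k (H1A (bddAlgP p k) χ) = 0

/-- **(CYC)**: the mod `p` cyclotomic character maps the inertia subgroup at `p` ONTO `𝔽_p^×`. -/
def CycStatement : Prop :=
  ∃ t₀ ∈ LocalInertia.localInertia' p, ∃ a : ℕ,
    (∀ ζ : PadicAlgCl p, ζ ^ p = 1 → t₀ ζ = ζ ^ a) ∧ orderOf (a : ZMod p) = p - 1

/-- **`hCSlot` for `p ≥ 5`**, in the literal shape, from `(CW0)` and `(CYC)`. -/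
theorem hCSlot_p5 [Finite k] [CharP k p] (hp5 : 5 ≤ p) (hCW0 : CW0Statement p k)
    (hcyc : CycStatement p) (hrbar : GaloisFactorsThroughFiniteLevel rbar)
    (hdet : DetIsCycloModP p rbar) :
    HasStableLine (rloc p rbar) → (∃ c, IsFlatTan p rbar hrbar c) →
      ∃ (B : M₂ k) (χ₁ χ₂ : Gp p →* kˣ) (b : Gp p → k), B.det ≠ 0 ∧
        (∀ g, rloc p rbar g * B = B * !![(χ₁ g : k), b g; 0, (χ₂ g : k)]) ∧
        ∀ c, IsFlatTan p rbar hrbar c →
          (fun g => (B⁻¹ * resP p rbar c g * B) 1 0) ∈ B1 (χ₁ / χ₂)⁻¹ := by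
  have hp2 : p ≠ 2 := by omega
  refine CSlotP5Adm.hCSlot_of_cw0_cyc_tame p rbar hp5 hrbar (bddAlgP p k) (inertiaSet p)
    (fun g => (rloc p rbar g).det) (fun _ => rfl) ?_ ?_ ?_ (hThmA p rbar hp2 hrbar)
  · intro χ hχ h1 h2
    refine hCW0 hp2 χ hχ ?_ ?_
    · obtain ⟨t, ht, hne⟩ := h1
      refine ⟨t, ht, fun h => hne ?_⟩
      rw [chr_apply, h, Units.val_one]
    · obtain ⟨t, ht, hne⟩ := h2
      obtain ⟨a, ha⟩ := exists_pow_action p (show GQp p from t)
      refine ⟨t, ht, a, ha, fun h => hne ?_⟩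
      rw [chr_apply, ← h]
      exact (det_rloc_eq_natCast p rbar hdet t a ha).symm
  · obtain ⟨t₀, ht₀, a, ha, hord⟩ := hcyc
    exact ⟨t₀, ht₀, a, det_rloc_eq_natCast p rbar hdet t₀ a ha, hord⟩
  · intro χ hχ t ht
    exact pow_pred_eq_one_of_mem_bddAlgP p χ hχ t ht

/-! ### `p = 3` -/

/-- **(CS1)** (export of the Hopf-algebra kill, `CSlotBridge`): in a triangularising basis with
unramified quotient line, the `(1,0)`-entries of the flat tangent cocycles are coboundaries. -/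
def CS1Statement : Prop :=
  ∀ [Finite k] [CharP k p], p = 3 → ∀ (hrbar : GaloisFactorsThroughFiniteLevel rbar),
    DetIsCycloModP p rbar → EigenvaluesInBase rbar →
    ∀ (B : M₂ k) (χ₁ χ₂ : Gp p →* kˣ) (b : Gp p → k), B.det ≠ 0 →
      (∀ g, rloc p rbar g * B = B * !![(χ₁ g : k), b g; 0, (χ₂ g : k)]) →
      (∀ t ∈ inertiaSet p, χ₂ t = 1) →
      ∀ c, IsFlatTan p rbar hrbar c →
        (fun g => (B⁻¹ * resP p rbar c g * B) 1 0) ∈ B1 (χ₁ / χ₂)⁻¹

/-- **(CS2)** (export of the Hopf-algebra kill, `CSlotBridge`): in a triangularising basis with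
unramified sub-line, if a flat tangent cocycle exists, `rbar|G_p` is split. -/
def CS2Statement : Prop :=
  ∀ [Finite k] [CharP k p], p = 3 → ∀ (hrbar : GaloisFactorsThroughFiniteLevel rbar),
    DetIsCycloModP p rbar → EigenvaluesInBase rbar →
    ∀ (B : M₂ k) (χ₁ χ₂ : Gp p →* kˣ) (b : Gp p → k), B.det ≠ 0 →
      (∀ g, rloc p rbar g * B = B * !![(χ₁ g : k), b g; 0, (χ₂ g : k)]) →
      (∀ t ∈ inertiaSet p, χ₁ t = 1) →
      (∃ c, IsFlatTan p rbar hrbar c) → bOf χ₂ b ∈ B1 (χ₁ / χ₂)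

/-- **The dichotomy for `p = 3`**: two admissible characters whose product is non-trivial on
inertia: one of them is unramified. -/
def DichStatement (k : Type) [Field k] : Prop :=
  ∀ [Finite k] [CharP k p], p = 3 → ∀ χ₁ χ₂ : Gp p →* kˣ,
    chr χ₁ ∈ bddAlgP p k → chr χ₂ ∈ bddAlgP p k →
    (∃ t₀ ∈ inertiaSet p, χ₁ t₀ * χ₂ t₀ ≠ 1) →
    (∀ t ∈ inertiaSet p, χ₂ t = 1) ∨ (∀ t ∈ inertiaSet p, χ₁ t = 1)

/-- an inertia element on which the determinant of `rbar|G_p` is not `1` (`p` odd). -/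
theorem exists_inertia_det_ne_one [CharP k p] (hp2 : p ≠ 2) (hdet : DetIsCycloModP p rbar) :
    ∃ t₀ ∈ inertiaSet p, (rloc p rbar t₀).det ≠ 1 := by
  have hp : p.Prime := Fact.out
  haveI : NeZero p := ⟨hp.ne_zero⟩
  haveI : NeZero ((p : ℕ) : PadicAlgCl p) := ⟨by exact_mod_cast hp.ne_zero⟩
  obtain ⟨ζ₀, hζ₀⟩ := HasEnoughRootsOfUnity.exists_primitiveRoot (PadicAlgCl p) p
  obtain ⟨σ, hσ, hne⟩ := CycloInertiaP.exists_mem_localInertia'_apply_ne p hp2 hζ₀
  obtain ⟨a, ha⟩ := exists_pow_action p σ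
  refine ⟨σ, hσ, fun h1 => hne ?_⟩
  have h2 : (rloc p rbar (show Gp p from σ)).det = (a : k) :=
    det_rloc_eq_natCast p rbar hdet σ a ha
  rw [h2] at h1
  have h3 : (a : ZMod p) = 1 := by
    have := (CSlotP5Adm.natCast_pow_eq_one_iff (k := k) (p := p) a 1).1 (by rw [pow_one]; exact h1)
    rwa [pow_one] at this
  have h4 : a % p = 1 % p := by
    have : (a : ZMod p) = ((1 : ℕ) : ZMod p) := by rw [h3, Nat.cast_one]
    exact (ZMod.natCast_eq_natCast_iff' a 1 p).1 this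
  rw [ha ζ₀ hζ₀.pow_eq_one]
  conv_lhs => rw [← Nat.mod_add_div a p]
  rw [pow_add, pow_mul, hζ₀.pow_eq_one, one_pow, mul_one, h4, Nat.mod_eq_of_lt hp.one_lt, pow_one]

/-- **`hCSlot` for `p = 3`**, in the literal shape, from `(CS1)`, `(CS2)` and the dichotomy. -/
theorem hCSlot_p3 [Finite k] [CharP k p] (hp3 : p = 3) (hCS1 : CS1Statement p rbar)
    (hCS2 : CS2Statement p rbar) (hdich : DichStatement p k)
    (hrbar : GaloisFactorsThroughFiniteLevel rbar)
    (hdet : DetIsCycloModP p rbar) (hsplit : EigenvaluesInBase rbar) :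
    HasStableLine (rloc p rbar) → (∃ c, IsFlatTan p rbar hrbar c) →
      ∃ (B : M₂ k) (χ₁ χ₂ : Gp p →* kˣ) (b : Gp p → k), B.det ≠ 0 ∧
        (∀ g, rloc p rbar g * B = B * !![(χ₁ g : k), b g; 0, (χ₂ g : k)]) ∧
        ∀ c, IsFlatTan p rbar hrbar c →
          (fun g => (B⁻¹ * resP p rbar c g * B) 1 0) ∈ B1 (χ₁ / χ₂)⁻¹ := by
  have hp2 : p ≠ 2 := by omega
  intro hst hex
  obtain ⟨c₀, hc₀⟩ := hex
  have hr𝒜 := (hThmA p rbar hp2 hrbar c₀ hc₀).1
  refine hCSlot_of_kill p rbar hrbar (inertiaSet p) (hCS1 hp3 hrbar hdet hsplit)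
    (hCS2 hp3 hrbar hdet hsplit) ?_ hst ⟨c₀, hc₀⟩
  intro B χ₁ χ₂ b hB h
  obtain ⟨hχ₁, hχ₂⟩ := chr_mem_of_triangular (bddAlgP p k) (rloc p rbar) hB h hr𝒜
  refine hdich hp3 χ₁ χ₂ hχ₁ hχ₂ ?_
  obtain ⟨t₀, ht₀, hne⟩ := exists_inertia_det_ne_one p rbar hp2 hdet
  refine ⟨t₀, ht₀, fun h1 => hne ?_⟩
  have h2 := congrArg Matrix.det (h t₀)
  rw [Matrix.det_mul, Matrix.det_mul] at h2
  have h3 : (!![(χ₁ t₀ : k), b t₀; 0, (χ₂ t₀ : k)]).det = ((χ₁ t₀ * χ₂ t₀ : kˣ) : k) := by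
    simp [Matrix.det_fin_two]
  rw [h3, h1, Units.val_one, mul_one] at h2
  have h4 : (rloc p rbar t₀).det * B.det = 1 * B.det := by rw [h2, one_mul]
  exact mul_right_cancel₀ hB h4

/-! ### The final statement -/

/-- **`CSlotStatement p rbar`** (input (3) of `FlatCountInputs.flatCountStatementSplit`) from
`(CW0)`, `(CYC)` (used for `p ≥ 5`) and `(CS1)`, `(CS2)`, the dichotomy (used for `p = 3`). -/
theorem cslotStatement (hCW0 : CW0Statement p k) (hcyc : 5 ≤ p → CycStatement p)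
    (hCS1 : CS1Statement p rbar) (hCS2 : CS2Statement p rbar) (hdich : DichStatement p k) :
    CSlotStatement p rbar := by
  intro _ _ hp2 hrbar hdet hsplit
  have hp : p.Prime := Fact.out
  by_cases hp5 : 5 ≤ p
  · exact hCSlot_p5 p rbar hp5 hCW0 (hcyc hp5) hrbar hdet
  · have hp3 : p = 3 := by
      have h2 := hp.two_le
      have h4 : p ≠ 4 := by
        rintro rfl
        exact absurd hp (by norm_num)
      omega
    exact hCSlot_p3 p rbar hp3 hCS1 hCS2 hdich hrbar hdet hsplit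

end Fermat.Agent.S56x.Local.CSlotFinal

end
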