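import Mathlib
import Fermat.Agent.S56x.Local.CycloInertiaP

/-!
# P-S56, block (A), leaf (CYC): the mod `p` cyclotomic character is onto `𝔽_p^×` on inertia at `p`

For every `a` prime to `p` some element of the absolute inertia group
`LocalInertia.localInertia' p ≤ Gal(ℚ̄_p/ℚ_p)` acts on `μ_p` by `μ ↦ μ ^ a`.

Route: the orbit `O` of a primitive `p`-th root of unity `ζ` under inertia; the product
`η = ∏_{μ ∈ O} (1 - μ)` is fixed by inertia, hence lies in an unramified level `ℚ_p(μ_{p^n-1})`,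
where all norms are integral powers of `1/p`; but `‖η‖ = ‖1 - ζ‖ ^ #O` and
`‖1 - ζ‖ ^ (p - 1) = 1/p`, so `(p - 1) ∣ #O` and `O` is the set of all primitive roots.

* `mem_unrTop_of_forall_localInertia'` : elements fixed by inertia lie in `ℚ_p^{unr}`;
* `exists_eq_p_mul_of_mem_unrField`, `exists_norm_eq_pow_of_mem_unrField` : `p` is a uniformiser of
  the unramified levels;
* `exists_mem_localInertia'_apply_eq` : inertia is transitive on the primitive `p`-th roots of unity;
* `exists_mem_localInertia'_pow`, `exists_mem_localInertia'_global_pow`,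
  `exists_primitive_mem_localInertia'` : the statements consumed by `Local/CSlotP5Adm`.
-/

set_option autoImplicit false
set_option linter.style.haveILetI false

open scoped NNReal Pointwise
open Polynomial

namespace Fermat.Agent.S56x.Local.CycloInertiaSurj

open Fermat.Agent.S56x.Local.CycloInertiaP

variable (p : ℕ) [Fact p.Prime]

local notation "Ω" => PadicAlgCl p
local notation "Gp" => (PadicAlgCl p ≃ₐ[ℚ_[p]] PadicAlgCl p)

/-- An element fixed by the absolute inertia group lies in the maximal unramified extension. -/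
theorem mem_unrTop_of_forall_localInertia' {x : Ω}
    (h : ∀ σ ∈ LocalInertia.localInertia' p, σ x = x) : x ∈ UnrLevels.unrTop p := by
  have h1 : x ∈ IntermediateField.fixedField (UnrLevels.unrTop p).fixingSubgroup := by
    rw [IntermediateField.mem_fixedField_iff]
    intro σ hσ
    apply h
    rw [LocalInertia.mem_localInertia_iff]
    intro n hn z hz
    have := (UnrLevels.mem_fixingSubgroup_unrTop_iff σ).mp hσ n hn
    exact (UnrLevels.mem_lev_iff σ).mp this z hz
  rw [InfiniteGalois.fixedField_fixingSubgroup] at h1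
  exact h1

open IsLocalRing Fermat.Agent.S56x.Local.PadicFinite

/-- `p` is a uniformiser of the unramified level `ℚ_p(μ_{p^n-1})`: every element of norm `< 1` is
`p` times an integral element. -/
theorem exists_eq_p_mul_of_mem_unrField {n : ℕ} (hn : 0 < n) {y : Ω}
    (hmem : y ∈ UnrLevels.unrField p n) (hlt : ‖y‖ < 1) :
    ∃ c ∈ UnrLevels.unrField p n, ‖c‖ ≤ 1 ∧ y = ((p : ℕ) : Ω) * c := by
  haveI := UnrLevels.finiteDimensional_unrField (q := p) hn
  haveI := UnrLevels.isGalois_unrField (q := p) hn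
  haveI : Normal ℚ_[p] (UnrLevels.unrField p n) := IsGalois.to_normal
  let yE : UnrLevels.unrField p n := ⟨y, hmem⟩
  have hyn : ‖yE‖ = ‖y‖ := rfl
  have hy1 : yE ∈ OE p (UnrLevels.unrField p n) := by
    rw [mem_OE, hyn]
    exact hlt.le
  have hy : (⟨yE, hy1⟩ : OE p (UnrLevels.unrField p n)) ∈
      maximalIdeal (OE p (UnrLevels.unrField p n)) := by
    rw [mem_maximalIdeal, mem_nonunits_iff, isUnit_iff_norm_eq_one]
    show ¬ ‖yE‖ = 1
    rw [hyn]
    exact hlt.ne
  have hfix : ∀ σ : (UnrLevels.unrField p n) ≃ₐ[ℚ_[p]] (UnrLevels.unrField p n),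
      (∀ b : OE p (UnrLevels.unrField p n), σ • b - b ∈
        maximalIdeal (OE p (UnrLevels.unrField p n))) →
      σ • (⟨yE, hy1⟩ : OE p (UnrLevels.unrField p n)) = ⟨yE, hy1⟩ := by
    intro σ hσ
    obtain ⟨τ, rfl⟩ := restrict_surjective p (UnrLevels.unrField p n) σ
    have hτ : τ ∈ UnrLevels.lev p n := by
      rw [UnrLevels.mem_lev_iff]
      intro z hz
      have hzE : z ∈ UnrLevels.unrField p n := IntermediateField.subset_adjoin _ _ hz
      have hN0 : p ^ n - 1 ≠ 0 := UnrLevels.pow_sub_one_ne_zero (q := p) hn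
      have hz1 : ‖z‖ = 1 := norm_eq_one_of_pow_eq_one p hN0 hz
      have hzO : (⟨z, hzE⟩ : UnrLevels.unrField p n) ∈ OE p (UnrLevels.unrField p n) := by
        rw [mem_OE]
        exact hz1.le
      have h1 := hσ ⟨⟨z, hzE⟩, hzO⟩
      rw [mem_maximalIdeal, mem_nonunits_iff, isUnit_iff_norm_eq_one] at h1
      have h2 : ‖τ z - z‖ ≤ 1 := by
        calc ‖τ z - z‖ ≤ max ‖τ z‖ ‖z‖ := LocalInertia.norm_sub_le_max' p _ _
          _ = 1 := by rw [LocalInertia.norm_algEquiv_apply, max_self, hz1]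
      have h3 : ‖τ z - z‖ < 1 := by
        refine lt_of_le_of_ne h2 fun h4 => h1 ?_
        have h5 : (((AlgEquiv.restrictNormalHom (UnrLevels.unrField p n) τ •
            (⟨⟨z, hzE⟩, hzO⟩ : OE p (UnrLevels.unrField p n)) - ⟨⟨z, hzE⟩, hzO⟩ :
            OE p (UnrLevels.unrField p n)) : UnrLevels.unrField p n) : Ω) = τ z - z := by
          rw [AddSubgroupClass.coe_sub, coe_smul_OE]
          show ((AlgEquiv.restrictNormalHom (UnrLevels.unrField p n) τ ⟨z, hzE⟩ :
            UnrLevels.unrField p n) : Ω) - z = τ z - z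
          rw [AlgEquiv.restrictNormalHom_apply]
        show ‖(((AlgEquiv.restrictNormalHom (UnrLevels.unrField p n) τ •
            (⟨⟨z, hzE⟩, hzO⟩ : OE p (UnrLevels.unrField p n)) - ⟨⟨z, hzE⟩, hzO⟩ :
            OE p (UnrLevels.unrField p n)) : UnrLevels.unrField p n) : Ω)‖ = 1
        rw [h5, h4]
      refine eq_of_norm_sub_lt_one p (LocalInertia.not_dvd_pow_sub_one p hn) ?_ hz h3
      rw [← map_pow, hz, map_one]
    apply Subtype.ext
    apply Subtype.ext
    rw [coe_smul_OE]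
    show ((AlgEquiv.restrictNormalHom (UnrLevels.unrField p n) τ yE : UnrLevels.unrField p n) : Ω)
      = (yE : Ω)
    rw [AlgEquiv.restrictNormalHom_apply]
    exact (IntermediateField.mem_fixingSubgroup_iff _ τ).mp hτ _ yE.2
  obtain ⟨c, hc⟩ := PadicInertia.inertia_fixed_dvd _ hy hfix
  refine ⟨((c : UnrLevels.unrField p n) : Ω), (c : UnrLevels.unrField p n).2, norm_le_one c, ?_⟩
  have h1 := congrArg (fun z : OE p (UnrLevels.unrField p n) =>
    (((z : UnrLevels.unrField p n)) : Ω)) hc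
  simpa using h1

/-- The norm of a nonzero integral element of an unramified level is an integral power of `1/p`. -/
theorem exists_norm_eq_pow_of_mem_unrField {n : ℕ} (hn : 0 < n) {x : Ω}
    (hx : x ∈ UnrLevels.unrField p n) (hx0 : x ≠ 0) (hx1 : ‖x‖ ≤ 1) :
    ∃ m : ℕ, ‖x‖ = ((p : ℝ)⁻¹) ^ m := by
  have hp : p.Prime := Fact.out
  have hpos : (0 : ℝ) < (p : ℝ)⁻¹ := inv_pos.mpr (by exact_mod_cast hp.pos)
  have hlt1 : (p : ℝ)⁻¹ < 1 := inv_lt_one_of_one_lt₀ (by exact_mod_cast hp.one_lt)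
  have key : ∀ k : ℕ, ∀ x : Ω, x ∈ UnrLevels.unrField p n → x ≠ 0 → ‖x‖ ≤ 1 →
      ((p : ℝ)⁻¹) ^ k < ‖x‖ → ∃ m : ℕ, ‖x‖ = ((p : ℝ)⁻¹) ^ m := by
    intro k
    induction k with
    | zero =>
      intro x _ _ hx1 hk
      rw [pow_zero] at hk
      exact absurd hx1 (not_le.mpr hk)
    | succ k ih =>
      intro x hx hx0 hx1 hk
      rcases eq_or_lt_of_le hx1 with h1 | h1
      · exact ⟨0, by rw [h1, pow_zero]⟩
      · obtain ⟨c, hc, hc1, rfl⟩ := exists_eq_p_mul_of_mem_unrField p hn hx h1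
        have hc0 : c ≠ 0 := by
          rintro rfl
          exact hx0 (mul_zero _)
        rw [norm_mul, norm_natCast_p] at hk ⊢
        have hk' : ((p : ℝ)⁻¹) ^ k < ‖c‖ := by
          rw [pow_succ, mul_comm] at hk
          exact lt_of_mul_lt_mul_left hk hpos.le
        obtain ⟨m, hm⟩ := ih c hc hc0 hc1 hk'
        exact ⟨m + 1, by rw [hm, pow_succ, mul_comm]⟩
  obtain ⟨k, hk⟩ := exists_pow_lt_of_lt_one (norm_pos_iff.mpr hx0) hlt1
  exact key k x hx hx0 hx1 hk

/-! ### Inertia is transitive on the primitive `p`-th roots of unity -/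

theorem exists_isPrimitiveRoot : ∃ ζ : Ω, IsPrimitiveRoot ζ p := by
  have hp : p.Prime := Fact.out
  haveI : NeZero p := ⟨hp.ne_zero⟩
  haveI : NeZero ((p : ℕ) : Ω) := ⟨by exact_mod_cast hp.ne_zero⟩
  exact HasEnoughRootsOfUnity.exists_primitiveRoot Ω p

/-- **The absolute inertia group at `p` is transitive on the primitive `p`-th roots of unity.** -/
theorem exists_mem_localInertia'_apply_eq {ζ μ : Ω} (hζ : IsPrimitiveRoot ζ p)
    (hμ : IsPrimitiveRoot μ p) : ∃ σ ∈ LocalInertia.localInertia' p, σ ζ = μ := by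
  classical
  have hp : p.Prime := Fact.out
  set O : Finset Ω := (primitiveRoots p Ω).filter
    (fun ν => ∃ σ ∈ LocalInertia.localInertia' p, σ ζ = ν) with hO
  have hζO : ζ ∈ O := by
    rw [hO, Finset.mem_filter]
    exact ⟨(mem_primitiveRoots hp.pos).mpr hζ, 1, (LocalInertia.localInertia' p).one_mem, rfl⟩
  have hprim : ∀ ν ∈ O, IsPrimitiveRoot ν p := fun ν hν =>
    (mem_primitiveRoots hp.pos).mp (Finset.mem_filter.mp hν).1
  have hperm : ∀ τ ∈ LocalInertia.localInertia' p, ∀ ν ∈ O, τ ν ∈ O := by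
    intro τ hτ ν hν
    obtain ⟨hν1, σ, hσ, rfl⟩ := Finset.mem_filter.mp hν
    rw [hO, Finset.mem_filter]
    refine ⟨(mem_primitiveRoots hp.pos).mpr
      (((mem_primitiveRoots hp.pos).mp hν1).map_of_injective τ.injective), τ * σ,
      (LocalInertia.localInertia' p).mul_mem hτ hσ, rfl⟩
  set η : Ω := ∏ ν ∈ O, (1 - ν) with hη
  have hfix : ∀ τ ∈ LocalInertia.localInertia' p, τ η = η := by
    intro τ hτ
    rw [hη, map_prod]
    refine Finset.prod_bij' (fun ν _ => τ ν) (fun ν _ => τ⁻¹ ν) ?_ ?_ ?_ ?_ ?_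
    · intro ν hν
      exact hperm τ hτ ν hν
    · intro ν hν
      exact hperm τ⁻¹ ((LocalInertia.localInertia' p).inv_mem hτ) ν hν
    · intro ν _
      show τ⁻¹ (τ ν) = ν
      rw [← AlgEquiv.mul_apply, inv_mul_cancel, AlgEquiv.one_apply]
    · intro ν _
      show τ (τ⁻¹ ν) = ν
      rw [← AlgEquiv.mul_apply, mul_inv_cancel, AlgEquiv.one_apply]
    · intro ν _
      rw [map_sub, map_one]
  -- the norm of `η`
  have h4 : ∀ ν ∈ O, ‖1 - ν‖ = ‖1 - ζ‖ := by
    intro ν hν
    have hν' := hprim ν hν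
    exact le_antisymm (norm_one_sub_le p hζ hν'.pow_eq_one) (norm_one_sub_le p hν' hζ.pow_eq_one)
  have hnorm : ‖η‖ = ‖1 - ζ‖ ^ O.card := by
    rw [hη, norm_prod, Finset.prod_congr rfl h4, Finset.prod_const]
  have hx : ‖1 - ζ‖ ^ (p - 1) = (p : ℝ)⁻¹ := norm_one_sub_pow p hζ
  have hxlt : ‖1 - ζ‖ < 1 := norm_one_sub_lt_one p hζ
  have hxpos : 0 < ‖1 - ζ‖ := by
    rw [norm_pos_iff, sub_ne_zero]
    exact (hζ.ne_one hp.one_lt).symm
  have hη0 : η ≠ 0 := by
    rw [← norm_pos_iff, hnorm]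
    exact pow_pos hxpos _
  have hη1 : ‖η‖ ≤ 1 := by
    rw [hnorm]
    exact pow_le_one₀ hxpos.le hxlt.le
  -- `η` lies in an unramified level
  obtain ⟨n, hn, hmem⟩ := (UnrLevels.mem_unrTop_iff η).mp
    (mem_unrTop_of_forall_localInertia' p hfix)
  obtain ⟨m, hm⟩ := exists_norm_eq_pow_of_mem_unrField p hn hmem hη0 hη1
  have hcard : O.card = (p - 1) * m := by
    apply pow_right_injective₀ hxpos hxlt.ne
    show ‖1 - ζ‖ ^ O.card = ‖1 - ζ‖ ^ ((p - 1) * m)
    rw [← hnorm, hm, pow_mul, hx]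
  have hOpos : 0 < O.card := Finset.card_pos.mpr ⟨ζ, hζO⟩
  have hm1 : 1 ≤ m := by
    rcases Nat.eq_zero_or_pos m with h | h
    · rw [h, mul_zero] at hcard
      omega
    · exact h
  have hle : (primitiveRoots p Ω).card ≤ O.card := by
    rw [hζ.card_primitiveRoots, Nat.totient_prime hp, hcard]
    exact Nat.le_mul_of_pos_right _ hm1
  have hOeq : O = primitiveRoots p Ω :=
    Finset.eq_of_subset_of_card_le (Finset.filter_subset _ _) hle
  have hμO : μ ∈ O := by
    rw [hOeq]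
    exact (mem_primitiveRoots hp.pos).mpr hμ
  exact (Finset.mem_filter.mp hμO).2

/-- For `a` prime to `p` some element of the absolute inertia group at `p` acts on `μ_p` by
`μ ↦ μ ^ a`. -/
theorem exists_mem_localInertia'_pow (a : ℕ) (ha : ¬ p ∣ a) :
    ∃ t ∈ LocalInertia.localInertia' p, ∀ μ : Ω, μ ^ p = 1 → t μ = μ ^ a := by
  have hp : p.Prime := Fact.out
  obtain ⟨ζ, hζ⟩ := exists_isPrimitiveRoot p
  have hζa : IsPrimitiveRoot (ζ ^ a) p :=
    hζ.pow_of_coprime a ((Nat.Prime.coprime_iff_not_dvd hp).mpr ha).symm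
  obtain ⟨t, ht, hta⟩ := exists_mem_localInertia'_apply_eq p hζ hζa
  refine ⟨t, ht, fun μ hμ => ?_⟩
  obtain ⟨j, -, rfl⟩ := hζ.eq_pow_of_pow_eq_one hμ
  rw [map_pow, hta, ← pow_mul, ← pow_mul, mul_comm]

local notation "Qbar" => AlgebraicClosure ℚ

/-- The same for the action on the roots of unity of `AlgebraicClosure ℚ` through
`localGaloisToGlobal p`. -/
theorem exists_mem_localInertia'_global_pow (a : ℕ) (ha : ¬ p ∣ a) :
    ∃ t ∈ LocalInertia.localInertia' p,
      (∀ μ : Ω, μ ^ p = 1 → t μ = μ ^ a) ∧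
      ∀ μ : Qbar, μ ^ p = 1 → (localGaloisToGlobal p t) μ = μ ^ a := by
  obtain ⟨t, ht, hta⟩ := exists_mem_localInertia'_pow p a ha
  refine ⟨t, ht, hta, fun μ hμ => ?_⟩
  apply (padicEmbedding p).toRingHom.injective
  show padicEmbedding p (localGaloisToGlobal p t μ) = padicEmbedding p (μ ^ a)
  rw [padicEmbedding_localGaloisToGlobal, map_pow]
  apply hta
  rw [← map_pow, hμ, map_one]

/-- **(CYC)** The mod `p` cyclotomic character maps the absolute inertia group at `p` ONTO
`𝔽_p^×`: there is an inertia element acting on `μ_p` through a primitive root modulo `p`. -/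
theorem exists_primitive_mem_localInertia' :
    ∃ a : ℕ, ¬ p ∣ a ∧ orderOf ((a : ℕ) : ZMod p) = p - 1 ∧
      ∃ t ∈ LocalInertia.localInertia' p,
        (∀ μ : Ω, μ ^ p = 1 → t μ = μ ^ a) ∧
        ∀ μ : Qbar, μ ^ p = 1 → (localGaloisToGlobal p t) μ = μ ^ a := by
  have hp : p.Prime := Fact.out
  obtain ⟨g, hg⟩ := IsCyclic.exists_generator (α := (ZMod p)ˣ)
  have hord : orderOf g = p - 1 := by
    rw [orderOf_eq_card_of_forall_mem_zpowers hg, Nat.card_eq_fintype_card, ZMod.card_units]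
  have hval : (((g : ZMod p).val : ℕ) : ZMod p) = (g : ZMod p) := ZMod.natCast_zmod_val _
  have hndvd : ¬ p ∣ (g : ZMod p).val := by
    intro h
    have h0 : (((g : ZMod p).val : ℕ) : ZMod p) = 0 := (ZMod.natCast_eq_zero_iff _ _).mpr h
    rw [hval] at h0
    exact g.ne_zero h0
  refine ⟨(g : ZMod p).val, hndvd, ?_, exists_mem_localInertia'_global_pow p _ hndvd⟩
  rw [hval, orderOf_units, hord]

/-- An element of `𝔽_p` of multiplicative order `p - 1` is not a square (`p` odd). -/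
theorem not_isSquare_of_orderOf_eq (hp2 : p ≠ 2) {x : ZMod p} (hx : orderOf x = p - 1) :
    ¬ IsSquare x := by
  have hp : p.Prime := Fact.out
  have hp3 : 3 ≤ p := by
    have := hp.two_le
    omega
  rintro ⟨y, rfl⟩
  have hy0 : y ≠ 0 := by
    rintro rfl
    rw [mul_zero, orderOf_zero (ZMod p)] at hx
    omega
  have heven : 2 * ((p - 1) / 2) = p - 1 := Nat.two_mul_div_two_of_even (hp.even_sub_one hp2)
  have h1 : (y * y) ^ ((p - 1) / 2) = 1 := by
    rw [← pow_two, ← pow_mul, heven, ZMod.pow_card_sub_one_eq_one hy0]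
  have h2 := orderOf_dvd_of_pow_eq_one h1
  rw [hx] at h2
  have h3 := Nat.le_of_dvd (by omega) h2
  omega

/-- An element of `𝔽_p` of multiplicative order `p - 1` has square `≠ 1` (`p ≥ 5`). -/
theorem sq_ne_one_of_orderOf_eq (hp5 : 5 ≤ p) {x : ZMod p} (hx : orderOf x = p - 1) :
    x ^ 2 ≠ 1 := by
  intro h
  have h2 := orderOf_dvd_of_pow_eq_one h
  rw [hx] at h2
  have h3 := Nat.le_of_dvd (by omega) h2
  omega

end Fermat.Agent.S56x.Local.CycloInertiaSurj

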