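import Fermat.Agent.S56x.Local.CSlotFinal
import Fermat.Agent.S56x.Local.CSlotBridge
import Fermat.Agent.S56x.Local.CycloInertiaSurj
import Fermat.Agent.S56x.Fontaine.UnrQuotKill

/-!
# P-S56 / block (A): the inputs `(CYC)`, `(CS1)`, `(CS2)` of `CSlotFinal.cslotStatement` discharged

* `cycStatement : CycStatement p`            — `CycloInertiaSurj.exists_primitive_mem_localInertia'`;
* `localKill : CSlotBridge.LocalKill p`      — Theorem Q (`Fontaine/UnrQuotKill.localKill_unrQuot`);
* `inertiaMovesMuP : CSlotBridge.InertiaMovesMuP p` — `CycloInertiaP`;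
* `cs1Statement : CS1Statement p rbar`, `cs2Statement : CS2Statement p rbar` — `Local/CSlotBridge`;
* `cslotStatement_of_cw0_dich : CW0Statement p k → DichStatement p k → CSlotStatement p rbar`:
  input (3) of `FlatCountInputs.flatCountStatementSplit` from the two remaining arithmetic inputs
  (CW0) (`CWAssembly`, needed for `p ≥ 5`) and the dichotomy (needed for `p = 3`).
-/

set_option autoImplicit false
set_option linter.unusedSectionVars false
set_option linter.style.haveILetI false

noncomputable section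

namespace Fermat.Agent.S56x.Local.CSlotInst

open Fermat.Agent.S56x.Local.Devissage Fermat.Agent.S56x.Local.FlatIface
  Fermat.Agent.S56x.Local.FlatBridge Fermat.Agent.S56x.Local.TameRep
  Fermat.Agent.S56x.Local.BddDef Fermat.Agent.S56x.Local.FlatCountInputs
  Fermat.Agent.S56x.Local.CSlotFinal
  Fermat.Agent.S56x.Dict Module Matrix ExtCitation

local notation "Γℚ" => (AlgebraicClosure ℚ ≃ₐ[ℚ] AlgebraicClosure ℚ)
local notation "M₂" => Matrix (Fin 2) (Fin 2)

variable (p : ℕ) [Fact p.Prime]

/-- **(CYC)**: the mod `p` cyclotomic character maps inertia onto `𝔽_p^×` (helper18). -/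
theorem cycStatement : CycStatement p := by
  obtain ⟨a, -, hord, t, ht, hta, -⟩ := CycloInertiaSurj.exists_primitive_mem_localInertia' p
  exact ⟨t, ht, a, hta, hord⟩

/-- Theorem Q in the shape of `CSlotBridge.LocalKill`. -/
theorem localKill (hp2 : p ≠ 2) : CSlotBridge.LocalKill p :=
  Fermat.Agent.S56x.Fontaine.UnrQuotKill.localKill_unrQuot hp2

/-- an inertia element moving `μ_p`. -/
theorem inertiaMovesMuP (hp2 : p ≠ 2) : CSlotBridge.InertiaMovesMuP p := by
  have hp : p.Prime := Fact.out
  haveI : NeZero p := ⟨hp.ne_zero⟩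
  haveI : NeZero ((p : ℕ) : PadicAlgCl p) := ⟨by exact_mod_cast hp.ne_zero⟩
  obtain ⟨ζ₀, hζ₀⟩ := HasEnoughRootsOfUnity.exists_primitiveRoot (PadicAlgCl p) p
  obtain ⟨σ, hσ, hne⟩ := CycloInertiaP.exists_mem_localInertia'_apply_ne p hp2 hζ₀
  exact ⟨σ, hσ, ζ₀, hζ₀.pow_eq_one, hne⟩

variable {k : Type} [Field k] (rbar : Γℚ →* M₂ k)

/-- **(CS1)** from `Local/CSlotBridge` (valid for every odd `p`). -/
theorem cs1Statement : CS1Statement p rbar := by
  intro _ _ hp3 hrbar hdet _ B χ₁ χ₂ b hB h hχ₂ c hc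
  have hp2 : p ≠ 2 := by omega
  exact CSlotBridge.cslot_mem_B1 (localKill p hp2) (inertiaMovesMuP p hp2) hrbar hdet c hc.2 hB h
    (fun t ht => hχ₂ t ht)

/-- **(CS2)** from `Local/CSlotBridge` (valid for every odd `p`). -/
theorem cs2Statement : CS2Statement p rbar := by
  intro _ _ hp3 hrbar hdet _ B χ₁ χ₂ b hB h hχ₁ hex
  have hp2 : p ≠ 2 := by omega
  obtain ⟨c, hc⟩ := hex
  exact CSlotBridge.bOf_mem_B1_of_unramified_sub (localKill p hp2) (inertiaMovesMuP p hp2) hrbar
    hdet c hc.2 hB h (fun t ht => hχ₁ t ht)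

/-- **`CSlotStatement p rbar`** from (CW0) and the dichotomy for `p = 3`. -/
theorem cslotStatement_of_cw0_dich (hCW0 : CW0Statement p k) (hdich : DichStatement p k) :
    CSlotStatement p rbar :=
  cslotStatement p rbar hCW0 (fun _ => cycStatement p) (cs1Statement p rbar)
    (cs2Statement p rbar) hdich

end Fermat.Agent.S56x.Local.CSlotInst

end
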