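import Fermat.Agent.S56x.Local.FlatCountFinal

/-!
# P-S56 / block A : the c-slot statement (`hCSlot` of `FlatCountFinal`) for `p ≥ 5`

Abstract form.  `G` a group, `I ⊆ G` (inertia), `ω : G → k` with `det r = ω` (cyclotomic
character), `𝒜` the admissible functions.  Inputs:

* `hCW0` : `Module.rank k (H1A 𝒜 χ) = 0` for admissible `χ` with `χ|I ≠ 1` and `χ|I ≠ ω|I`;
* `hsq`  : `ω|I` is not the square of a character;
* `hω2`  : `ω(t)² ≠ 1` for some `t ∈ I`  (`p ≥ 5`).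

Output: for reducible `r`, a triangularising basis in which the `(1,0)`-entries of all admissible
`ad⁰`-cocycles are coboundaries.  If `η⁻¹|I ≠ ω|I` (`η = χ₁/χ₂`) any triangularising basis works;
otherwise `η|I = ω⁻¹|I ≠ ω|I` kills the extension class of `r` itself, `r` is split and the two
stable lines are swapped.
-/

set_option autoImplicit false
set_option linter.unusedSectionVars false

namespace Fermat.Agent.S56x.Local.FlatBridge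

open Fermat.Agent.S56x.Local.Devissage Fermat.Agent.S56x.Local.TameRep Module Matrix

local notation "M₂" => Matrix (Fin 2) (Fin 2)

variable {G : Type} [Group G] {k : Type} [Field k]

/-- the `(1,0)`-entry of an admissible cocycle in a triangularising basis is an admissible cocycle
of `k(η⁻¹)`; if the admissible `H¹` of `k(η⁻¹)` vanishes it is a coboundary. -/
theorem cslot_of_rank_eq_zero (r : G →* M₂ k) (𝒜 : Subalgebra k (G → k))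
    {B : M₂ k} (hB : B.det ≠ 0) {χ₁ χ₂ : G →* kˣ} {b : G → k}
    (h : ∀ g, r g * B = B * !![(χ₁ g : k), b g; 0, (χ₂ g : k)])
    (h0 : Module.rank k (H1A 𝒜 (χ₁ / χ₂)⁻¹) = 0)
    {Ψ : G → M₂ k} (hΨ : Ψ ∈ adMatZ (ofHom r)) (hΨA : ∀ i j, (fun g => Ψ g i j) ∈ 𝒜) :
    (fun g => (B⁻¹ * Ψ g * B) 1 0) ∈ B1 (χ₁ / χ₂)⁻¹ := by
  have hUT : IsUT (conjHomRep r B hB) χ₁ χ₂ b := isUT_conjRep r hB h
  have hZ : conjFun B B⁻¹ (mul_nonsing_inv_of_det_ne_zero hB) (nonsing_inv_mul_of_det_ne_zero hB) Ψ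
      ∈ adMatZ (conjHomRep r B hB) :=
    conjFun_mem_adMatZ (ofHom r) B B⁻¹ _ _ hΨ
  have hT := (toTriple_mem_adZ hUT hZ).1
  refine mem_B1_of_rank_eq_zero 𝒜 h0 ((mem_Z1A 𝒜).2 ⟨?_, entries_mem_conj 𝒜 hΨA B B⁻¹ 1 0⟩)
  rw [mem_Z1]
  intro g g'
  exact hT g g'

variable [Finite k]

/-- the anti-diagonal permutation matrix. -/
def swapMat : M₂ k := !![0, 1; 1, 0]

theorem swapMat_mul_self : (swapMat : M₂ k) * swapMat = 1 := by
  ext i j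
  fin_cases i <;> fin_cases j <;> simp [swapMat, Matrix.mul_apply, Fin.sum_univ_two]

theorem det_swapMat : (swapMat : M₂ k).det = -1 := by
  simp [swapMat, Matrix.det_fin_two]

theorem det_uni (x : k) : (uni x).det = 1 := by
  simp [uni, Matrix.det_fin_two]

theorem diag_mul_swapMat (a d : k) :
    !![a, 0; 0, d] * (swapMat : M₂ k) = swapMat * !![d, 0; 0, a] := by
  ext i j
  fin_cases i <;> fin_cases j <;> simp [swapMat, Matrix.mul_apply, Fin.sum_univ_two]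

/-- **`hCSlot` for `p ≥ 5`** (abstract form). -/
theorem exists_cslot_basis (r : G →* M₂ k) (𝒜 : Subalgebra k (G → k)) (Fm : Set (G → M₂ k))
    (I : Set G) (ω : G → k)
    (hdet : ∀ g, (r g).det = ω g)
    (hCW0 : ∀ χ : G →* kˣ, chr χ ∈ 𝒜 → (∃ t ∈ I, chr χ t ≠ 1) → (∃ t ∈ I, chr χ t ≠ ω t) →
      Module.rank k (H1A 𝒜 χ) = 0)
    (hsq : ∀ χ : G →* kˣ, ∃ t ∈ I, chr χ t ^ 2 ≠ ω t)
    (hω2 : ∃ t ∈ I, ω t ^ 2 ≠ 1)
    (hst : HasStableLine r)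
    (hr𝒜 : ∀ i j, (fun g => r g i j) ∈ 𝒜)
    (hFm : ∀ Ψ ∈ Fm, Ψ ∈ adMatZ (ofHom r))
    (hFA : ∀ Ψ ∈ Fm, ∀ i j, (fun g => Ψ g i j) ∈ 𝒜) :
    ∃ (B : M₂ k) (χ₁ χ₂ : G →* kˣ) (b : G → k), B.det ≠ 0 ∧
      (∀ g, r g * B = B * !![(χ₁ g : k), b g; 0, (χ₂ g : k)]) ∧
      ∀ Ψ ∈ Fm, (fun g => (B⁻¹ * Ψ g * B) 1 0) ∈ B1 (χ₁ / χ₂)⁻¹ := by
  obtain ⟨B, χ₁, χ₂, b, hB, h⟩ := exists_triangular_of_hasStableLine r hst
  have hUT : IsUT (conjHomRep r B hB) χ₁ χ₂ b := isUT_conjRep r hB h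
  obtain ⟨hχ₁, hχ₂⟩ := chr_mem_of_triangular 𝒜 r hB h hr𝒜
  -- the determinant
  have hω : ∀ g, ω g = chr χ₁ g * chr χ₂ g := by
    intro g
    have h1 := congrArg Matrix.det (h g)
    rw [Matrix.det_mul, Matrix.det_mul, hdet g] at h1
    have h2 : (!![(χ₁ g : k), b g; 0, (χ₂ g : k)]).det = chr χ₁ g * chr χ₂ g := by
      simp [Matrix.det_fin_two, chr]
    rw [h2, mul_comm] at h1
    exact mul_left_cancel₀ hB h1
  have hne2 : ∀ g, chr χ₂ g ≠ 0 := fun g => Units.ne_zero _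
  have hne1 : ∀ g, chr χ₁ g ≠ 0 := fun g => Units.ne_zero _
  have hη : ∀ g, chr (χ₁ / χ₂) g = chr χ₁ g / chr χ₂ g := by
    intro g; simp [chr]
  have hηi : ∀ g, chr (χ₁ / χ₂)⁻¹ g = chr χ₂ g / chr χ₁ g := by
    intro g; simp [chr]
  -- Claim A : `η|I ≠ 1`
  obtain ⟨tA, htA, hA⟩ := hsq χ₂
  have hA1 : chr χ₁ tA ≠ chr χ₂ tA := by
    intro he
    apply hA
    rw [hω, he, pow_two]
  have hη1 : ∃ t ∈ I, chr (χ₁ / χ₂) t ≠ 1 := by
    refine ⟨tA, htA, ?_⟩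
    rw [hη, Ne, div_eq_one_iff_eq (hne2 tA)]
    exact hA1
  have hηi1 : ∃ t ∈ I, chr (χ₁ / χ₂)⁻¹ t ≠ 1 := by
    refine ⟨tA, htA, ?_⟩
    rw [hηi, Ne, div_eq_one_iff_eq (hne1 tA)]
    exact fun he => hA1 he.symm
  have hηmem : chr (χ₁ / χ₂) ∈ 𝒜 := chr_div_mem 𝒜 hχ₁ hχ₂
  have hηimem : chr (χ₁ / χ₂)⁻¹ ∈ 𝒜 := chr_inv_mem 𝒜 hηmem
  by_cases hc : ∃ t ∈ I, chr (χ₁ / χ₂)⁻¹ t ≠ ω t
  · -- Case 1 : the c-slot dies in the given basis
    have h0 := hCW0 _ hηimem hηi1 hc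
    exact ⟨B, χ₁, χ₂, b, hB, h, fun Ψ hΨ =>
      cslot_of_rank_eq_zero r 𝒜 hB h h0 (hFm Ψ hΨ) (hFA Ψ hΨ)⟩
  · -- Case 2 : `η⁻¹|I = ω|I`; then `η|I ≠ ω|I`, the b-slot dies, `r` splits; swap the lines
    push Not at hc
    obtain ⟨t2, ht2, h2⟩ := hω2
    have hηω : ∃ t ∈ I, chr (χ₁ / χ₂) t ≠ ω t := by
      refine ⟨t2, ht2, fun he => h2 ?_⟩
      have h1 := hc t2 ht2
      have h3 : chr (χ₁ / χ₂) t2 * chr (χ₁ / χ₂)⁻¹ t2 = 1 := chr_mul_chr_inv _ t2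
      rw [he, h1] at h3
      rw [pow_two]; exact h3
    have h0 := hCW0 _ hηmem hη1 hηω
    -- `r` is split
    have hbZ : bOf χ₂ b ∈ Z1A 𝒜 (χ₁ / χ₂) := by
      refine (mem_Z1A 𝒜).2 ⟨bOf_mem_Z1 hUT, ?_⟩
      have hb : b ∈ 𝒜 := by
        have := entries_mem_conj 𝒜 (Ψ := fun g => r g) hr𝒜 B B⁻¹ 0 1
        have e : (fun g => (B⁻¹ * r g * B) 0 1) = b := by
          funext g
          have := hUT.R_eq g
          rw [conjHomRep_R] at this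
          rw [this]; simp
        rwa [e] at this
      exact 𝒜.mul_mem hb (chr_inv_mem 𝒜 hχ₂)
    have hbB : bOf χ₂ b ∈ B1 (χ₁ / χ₂) := mem_B1_of_rank_eq_zero 𝒜 h0 hbZ
    obtain ⟨x, hx⟩ := exists_isUT_zero hUT hbB
    -- the new basis
    set B₂ : M₂ k := B * uni x * swapMat with hB₂
    have hB₂det : B₂.det ≠ 0 := by
      rw [hB₂, Matrix.det_mul, Matrix.det_mul, det_uni, det_swapMat]
      simpa using hB
    have hdiag : ∀ g, r g * (B * uni x) = (B * uni x) * !![chr χ₁ g, 0; 0, chr χ₂ g] := by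
      intro g
      have h1 := hx.R_eq g
      rw [conjRep_R, conjHomRep_R] at h1
      -- `uni (-x) * (B⁻¹ * r g * B) * uni x = diag`
      have h2 : (B * uni x) * (uni (-x) * (B⁻¹ * r g * B) * uni x) = r g * (B * uni x) := by
        calc (B * uni x) * (uni (-x) * (B⁻¹ * r g * B) * uni x)
            = B * (uni x * uni (-x)) * B⁻¹ * r g * B * uni x := by
              simp only [Matrix.mul_assoc]
          _ = (B * B⁻¹) * r g * B * uni x := by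
              rw [uni_mul_uni_neg, Matrix.mul_one]
          _ = r g * (B * uni x) := by
              rw [mul_nonsing_inv_of_det_ne_zero hB, Matrix.one_mul, Matrix.mul_assoc]
      rw [← h2, h1]
      simp
    have h₂ : ∀ g, r g * B₂ = B₂ * !![(χ₂ g : k), (0 : G → k) g; 0, (χ₁ g : k)] := by
      intro g
      rw [hB₂, ← Matrix.mul_assoc, hdiag g, Matrix.mul_assoc, diag_mul_swapMat,
        ← Matrix.mul_assoc]
      rfl
    have h0' : Module.rank k (H1A 𝒜 (χ₂ / χ₁)⁻¹) = 0 := by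
      have e : (χ₂ / χ₁)⁻¹ = χ₁ / χ₂ := by
        ext g
        simp
      rw [e]; exact h0
    exact ⟨B₂, χ₂, χ₁, 0, hB₂det, h₂, fun Ψ hΨ =>
      cslot_of_rank_eq_zero r 𝒜 hB₂det h₂ h0' (hFm Ψ hΨ) (hFA Ψ hΨ)⟩

section Iface

open Fermat.Agent.S56x.Local.FlatIface Fermat.Agent.S56x.Dict

local notation "Γℚ" => (AlgebraicClosure ℚ ≃ₐ[ℚ] AlgebraicClosure ℚ)

variable (p : ℕ) [Fact p.Prime] (rbar : Γℚ →* M₂ k)

/-- **`hCSlot` of `FlatCountFinal.rank_flatSpan_le_four` for `p ≥ 5`**, in the literal shape. -/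
theorem hCSlot_of_cw0 (hrbar : GaloisFactorsThroughFiniteLevel rbar)
    (𝒜 : Subalgebra k (Gp p → k)) (I : Set (Gp p)) (ω : Gp p → k)
    (hdet : ∀ g, (rloc p rbar g).det = ω g)
    (hCW0 : ∀ χ : Gp p →* kˣ, chr χ ∈ 𝒜 → (∃ t ∈ I, chr χ t ≠ 1) → (∃ t ∈ I, chr χ t ≠ ω t) →
      Module.rank k (H1A 𝒜 χ) = 0)
    (hsq : ∀ χ : Gp p →* kˣ, ∃ t ∈ I, chr χ t ^ 2 ≠ ω t)
    (hω2 : ∃ t ∈ I, ω t ^ 2 ≠ 1)
    (hThmA : ∀ c, IsFlatTan p rbar hrbar c →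
      (∀ i j, (fun g => rloc p rbar g i j) ∈ 𝒜) ∧ ∀ i j, (fun g => resP p rbar c g i j) ∈ 𝒜) :
    HasStableLine (rloc p rbar) → (∃ c, IsFlatTan p rbar hrbar c) →
      ∃ (B : M₂ k) (χ₁ χ₂ : Gp p →* kˣ) (b : Gp p → k), B.det ≠ 0 ∧
        (∀ g, rloc p rbar g * B = B * !![(χ₁ g : k), b g; 0, (χ₂ g : k)]) ∧
        ∀ c, IsFlatTan p rbar hrbar c →
          (fun g => (B⁻¹ * resP p rbar c g * B) 1 0) ∈ B1 (χ₁ / χ₂)⁻¹ := by
  rintro hst ⟨c₀, hc₀⟩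
  obtain ⟨B, χ₁, χ₂, b, hB, h, hF⟩ := exists_cslot_basis (rloc p rbar) 𝒜 (flatRes p rbar hrbar)
    I ω hdet hCW0 hsq hω2 hst (hThmA c₀ hc₀).1
    (by rintro _ ⟨c, hc, rfl⟩; exact resP_mem_adMatZ p rbar c hc.1)
    (by rintro _ ⟨c, hc, rfl⟩; exact (hThmA c hc).2)
  exact ⟨B, χ₁, χ₂, b, hB, h, fun c hc => hF _ ⟨c, hc, rfl⟩⟩

end Iface

end Fermat.Agent.S56x.Local.FlatBridge
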