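import Mathlib
import Fermat.Agent.S56x.Local.CW1Padic

/-!
# P-S56, block (A) (helper10): (CW0) over `ℚ_p` for the algebra of bounded functions

The `p`-adic instantiation of `CWAssembly.rank_H1A_eq_zero` (sibling of
`CW1Padic.rank_H1A_le_one`, same inputs minus `ResidueFixStatement`): for a bounded character
`χ ≠ 1` of `G_{ℚ_p}` with values in `kˣ` such that some element `t` of the inertia group
(`‖t y - y‖ < 1` on the unit ball) acting on `μ_p` through `ζ ↦ ζ ^ a` has `(a : k) ≠ χ t`: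
`H¹_𝒜(k(χ)) = 0`.
-/

set_option autoImplicit false
set_option linter.unusedSectionVars false
set_option linter.style.haveILetI false
set_option linter.overlappingInstances false
set_option linter.unnecessarySimpa false

noncomputable section

namespace Fermat.Agent.S56x.Local.CW0Padic

open IntermediateField IsLocalRing
open Fermat.Agent.S56x.Local.KummerH1 Fermat.Agent.S56x.Local.CWAbstract
  Fermat.Agent.S56x.Local.Devissage Fermat.Agent.S56x.Local.KummerPairing
  Fermat.Agent.S56x.Local.KummerPairingInt Fermat.Agent.S56x.Local.FiltrationCount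
  Fermat.Agent.Lib.CFT.Local.UnitsFiltration Fermat.Agent.S56x.Local.WbCount
  Fermat.Agent.S56x.Local.BddDef Fermat.Agent.S56x.Local.PadicFinite
  Fermat.Agent.S56x.Local.CWPadicOps Fermat.Agent.S56x.Local.BddAlg
  Fermat.Agent.S56x.Local.CW1Padic

variable {p : ℕ} [Fact p.Prime]

/-- an automorphism congruent to the identity on the unit ball acts trivially on the residue
field of `OE p L`. -/
theorem residueField_map_sigmaOE_of_norm (L : IntermediateField ℚ_[p] (PadicAlgCl p))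
    [FiniteDimensional ℚ_[p] L] [Normal ℚ_[p] L] {t : GQp p}
    (ht : ∀ y : PadicAlgCl p, ‖y‖ ≤ 1 → ‖t y - y‖ < 1) (y : ResidueField (OE p L)) :
    ResidueField.map ((sigmaOE L t : OE p L ≃+* OE p L) : OE p L →+* OE p L) y = y := by
  refine (residueField_map_sigmaOE_eq_iff L t).mpr (fun b => ?_) y
  rw [mem_maximalIdeal, mem_nonunits_iff, isUnit_iff_norm_eq_one]
  intro h1
  have h2 : ((((resL L t • b - b : OE p L)) : L) : PadicAlgCl p) =
      t ((b : L) : PadicAlgCl p) - ((b : L) : PadicAlgCl p) := by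
    push_cast
    rw [coe_smul_OE, coe_resL]
  have h3 := ht ((b : L) : PadicAlgCl p) (norm_le_one b)
  rw [← h2] at h3
  exact absurd h1 h3.ne

variable {k : Type*} [Field k]

/-- **(CW0) over `ℚ_p`** for the algebra of bounded functions. -/
theorem rank_H1A_eq_zero [Finite k] [CharP k p] (hp2 : p ≠ 2)
    (hT : TameDataStatement p k) (hBK : BoundedKummerStatement p)
    (χ : GQp p →* kˣ) (hχ : chr χ ∈ bddAlg p k) (hχ1 : χ ≠ 1)
    (hin : ∃ t : GQp p, (∀ y : PadicAlgCl p, ‖y‖ ≤ 1 → ‖t y - y‖ < 1) ∧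
      ∃ a : ℕ, (∀ ζ : PadicAlgCl p, ζ ^ p = 1 → t ζ = ζ ^ a) ∧ (a : k) ≠ (χ t : k)) :
    Module.rank k (H1A (bddAlg p k) χ) = 0 := by
  have hp := (Fact.out : p.Prime)
  have hp2' : 2 ≤ p - 1 := by
    have := hp.two_le
    omega
  -- Step 0: `χ` has open kernel
  obtain ⟨E₀, ⟨hE₀fin, -, -⟩, hE₀χ⟩ := isBddFun_of_mem hχ
  have hχE₀ : ∀ s ∈ E₀.fixingSubgroup, χ s = 1 := by
    intro s hs
    have h1 := hE₀χ 1 s hs
    rw [one_mul] at h1
    apply Units.ext
    rw [Units.val_one]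
    have h2 : chr χ (1 : GQp p) = 1 := by simp [chr]
    rw [h2] at h1
    exact h1
  -- Step 1: the tame data
  obtain ⟨L, hLfin, hLgal, ζ, ϖ, c₀, a, hζ, hζL, hχL, hidx, hϖ, hpe, hϖa⟩ :=
    hT hp2 χ ⟨E₀, hE₀fin, hχE₀⟩
  haveI := hLfin
  haveI := hLgal
  haveI : Normal ℚ_[p] L := IsGalois.to_normal
  have hroot : ∀ x : ↥L, ∃ α : PadicAlgCl p, α ^ p = (x : PadicAlgCl p) := fun x =>
    IsAlgClosed.exists_pow_nat_eq _ hp.pos
  -- the multipliers `c g`
  choose c hc hcpow using fun g : GQp p => exists_sigmaOE_eq_mul L hϖ.ne_zero hϖa g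
  have hc1 : ∀ g, residue (OE p L) (c g) ^ (p - 1) = 1 := fun g => by
    rw [← map_pow, hcpow g, map_one]
  -- `hN`: complete case
  have hpe' : ((p : ℕ) : OE p L) = c₀ * ϖ ^ (p - 1) := hpe
  have hN : principalUnits (OE p L) (p + 1) ≤ WbFiltration.pthPowers (OE p L) p := by
    have htop : (p - 1) * p < (p + 1) * (p - 1) := by
      have : 0 < p - 1 := by omega
      nlinarith
    exact UnitFiltration.principalUnits_le_pthPowers hϖ hp hpe' htop
  -- `hcont`
  have hcont : ∀ f ∈ bddAlg p k, ∃ E : IntermediateField ℚ_[p] (PadicAlgCl p),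
      FiniteDimensional ℚ_[p] E ∧
      ∀ (g t : GQp p), t ∈ E.fixingSubgroup → f (g * t) = f g := by
    intro f hf
    obtain ⟨E, ⟨hfin, -, -⟩, h⟩ := isBddFun_of_mem hf
    exact ⟨E, hfin, h⟩
  -- tameness of `L`
  have hcop : Nat.Coprime (Module.finrank ℚ_[p] L) p :=
    (Nat.Coprime.symm ((Nat.Prime.coprime_iff_not_dvd hp).mpr hidx))
  have htame : (ramNum p L).IsTame := PadicE0.isTame_of_finrank_coprime L hcop
  have hLbdd : IsBddField p L := PadicE0.isBddField_of_tame L htame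
  have heA : IsDiscreteValuationRing.addVal (OE p L) ((p : ℕ) : OE p L) = ((p - 1 : ℕ) : ℕ∞) := by
    rw [hpe', IsDiscreteValuationRing.addVal_mul, IsDiscreteValuationRing.addVal_pow,
      IsDiscreteValuationRing.addVal_uniformizer hϖ]
    simp
  have he0 : (ramNum p L).e0 = p - 1 := by
    have h := PadicE0.addVal_p_eq_e0 L
    rw [heA] at h
    exact_mod_cast h.symm
  -- `HB`
  have HB : ∀ u ∈ Z1A (bddAlg p k) χ, ∀ (l : k →+ ZMod p) (x : (↥L)ˣ) (α : PadicAlgCl p),
      α ^ p = ((x : ↥L) : PadicAlgCl p) →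
      (∀ s : L.fixingSubgroup, (s : GQp p) α = ζ ^ (l (u s)).val * α) →
      ∃ (z : (↥L)ˣ) (b : (OE p L)ˣ), b ∈ principalUnits (OE p L) (p - 1) ∧
        KummerPairingInt.unitsIncl L (OE p L) b = x * z ^ p := by
    intro u hu l x α hα hact
    have huZ : u ∈ Z1 χ := ((mem_Z1A _).mp hu).1
    have hu𝒜 : u ∈ bddAlg p k := ((mem_Z1A _).mp hu).2
    obtain ⟨E, hE, hEu⟩ := isBddFun_of_mem hu𝒜
    have hM : IsBddField p (E ⊔ L) := BddField.isBddField_sup hE hLbdd
    have hαM : α ∈ E ⊔ L := by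
      refine kummerGen_mem (L := L) (f := fun s : L.fixingSubgroup => l (u s)) hact (E ⊔ L)
        le_sup_right (fun s hs => ?_)
      have hsE : (s : GQp p) ∈ E.fixingSubgroup :=
        IntermediateField.fixingSubgroup_antitone (le_sup_left : E ≤ E ⊔ L) hs
      have h1 := hEu 1 (s : GQp p) hsE
      rw [one_mul, cocycle_one huZ] at h1
      show l (u s) = 0
      rw [h1, map_zero]
    obtain ⟨z, hz, a', ha', ha'1⟩ := hBK L (E ⊔ L) hp2 le_sup_right hM htame ζ hζ hζL (p - 1) 1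
      he0 heA (mul_one _).symm (x : ↥L) x.ne_zero α hαM hα
    have hunit : IsUnit a' := CW1Padic.isUnit_of_sub_one_mem (by omega) ha'1
    refine ⟨Units.mk0 z hz, hunit.unit, ?_, ?_⟩
    · rw [mem_principalUnits_iff]
      exact ha'1
    · apply Units.ext
      rw [KummerPairingInt.coe_unitsIncl]
      show ((hunit.unit : OE p L) : ↥L) = _
      rw [IsUnit.unit_spec, ha']
      simp
  -- `hinert`
  have hinert : ∃ g₀ : GQp p, (∀ y, ResidueField.map
      ((sigmaOE L g₀ : OE p L ≃+* OE p L) : OE p L →+* OE p L) y = y) ∧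
      (((omega hζ g₀).val : ℕ) : k) ≠ (χ g₀ : k) := by
    obtain ⟨t, ht, a', ha', hne⟩ := hin
    refine ⟨t, residueField_map_sigmaOE_of_norm L ht, fun h => hne ?_⟩
    haveI : NeZero p := ⟨hp.ne_zero⟩
    have h1 : ζ ^ (a' % p) = ζ ^ (omega hζ t).val := by
      rw [← pow_eq_pow_mod a' hζ.pow_eq_one, ← ha' ζ hζ.pow_eq_one, omega_spec hζ t]
    have h2 : a' % p = (omega hζ t).val :=
      hζ.pow_inj (Nat.mod_lt _ hp.pos) (ZMod.val_lt _) h1
    rw [← h, ← h2]
    exact (CharP.natCast_eq_natCast k p).mpr (Nat.mod_modEq a' p).symm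
  exact CWAssembly.rank_H1A_eq_zero hζ hζL hroot (OE p L) (sigmaOE L) (coe_sigmaOE L) hϖ hpe' hN
    hc hc1 hp2' hidx (bddAlg p k) χ hχL hcont HB hχ1 hinert

end Fermat.Agent.S56x.Local.CW0Padic
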