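import Fermat.Agent.S56x.Local.CW0Padic
import Fermat.Agent.S56x.Local.FlatCountInputs
import Fermat.Agent.S56x.Local.CSlotFinal
import Fermat.Agent.S56x.Local.ResidueFix
import Fermat.Agent.S56x.Local.LocalInertia

/-!
# P-S56, block (A) (helper10): `CW1Statement` and `CW0Statement`

The inputs (2) of `FlatCountInputs.flatCountStatementSplit` (`CW1Statement p k`) and of
`CSlotInst.cslotStatement_of_cw0_dich` (`CSlotFinal.CW0Statement p k`) in their literal shapes, from
the `p`-adic instantiations `CW1Padic.rank_H1A_le_one` / `CW0Padic.rank_H1A_eq_zero`.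

`ResidueFixStatement` is discharged by `ResidueFix.residue_pow_p_of_fixed`; the two remaining
arithmetic inputs are `CW1Padic.TameDataStatement p k` and `CW1Padic.BoundedKummerStatement p`.
-/

set_option autoImplicit false
set_option linter.unusedSectionVars false

noncomputable section

namespace Fermat.Agent.S56x.Local.CW1Final

open Fermat.Agent.S56x.Local.Devissage Fermat.Agent.S56x.Local.FlatIface
  Fermat.Agent.S56x.Local.FlatCountInputs Fermat.Agent.S56x.Local.BddDef
  Fermat.Agent.S56x.Local.CW1Padic Fermat.Agent.S56x.Local.CSlotFinal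

variable (p : ℕ) [Fact p.Prime]

/-- `ResidueFixStatement` (helper90's `ResidueFix.residue_pow_p_of_fixed`). -/
theorem residueFixStatement : ResidueFixStatement p := fun _ _ _ b hb =>
  ResidueFix.residue_pow_p_of_fixed b hb

variable {p} {k : Type} [Field k]

/-- **Input (2)**: `(CW1)` over `ℚ_p` for the algebra of bounded functions. -/
theorem cw1Statement (hT : TameDataStatement p k) (hBK : BoundedKummerStatement p) :
    CW1Statement p k := by
  intro _ _ hp2 χ hχ
  exact CW1Padic.rank_H1A_le_one hp2 hT hBK (residueFixStatement p) χ hχ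

/-- **(CW0)** over `ℚ_p` for the algebra of bounded functions. -/
theorem cw0Statement (hT : TameDataStatement p k) (hBK : BoundedKummerStatement p) :
    CW0Statement p k := by
  intro _ _ hp2 χ hχ h1 h2
  obtain ⟨t₁, ht₁, hχt₁⟩ := h1
  obtain ⟨t, ht, a, ha, hne⟩ := h2
  have hχ1 : χ ≠ 1 := by
    rintro rfl
    exact hχt₁ rfl
  refine CW0Padic.rank_H1A_eq_zero hp2 hT hBK χ hχ hχ1 ⟨t, ?_, a, ha, hne⟩
  exact (LocalInertia.mem_localInertia_iff_forall_norm p t).mp ht

end Fermat.Agent.S56x.Local.CW1Final
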