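/-
P-S56, block (A) LOCAL FLAT, file LOC-6d (helper90): the polynomial inertia vanishing, HOM FORM (HD2).

`N = Multiplicative (k →+ ZMod p)` with the operators `CWAbstract.twistN χ ω`, target
`Y = Multiplicative l` with operators `ρY g y = cc g * τ g y`.  If some `g₀` has `τ g₀ = id` and there
is a polynomial `P ∈ 𝔽_p[X]` with `P(ω g₀ · (χ g₀)⁻¹) = 0` in `k` but `P(cc g₀) ≠ 0` in `l`, then the
only equivariant hom `N → Y` is trivial:

  `eqHom (twistN χ ω) ρY ⊤ = ⊥`  (`eqHom_eq_bot_of_poly`),  `#… ≤ 1` (`card_eqHom_le_one_of_poly`).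

(The eigenvalue `cc g₀` of `g₀` on the target is not conjugate over `𝔽_p` to the "eigenvalue"
`ω g₀ · (χ g₀)⁻¹` of `g₀` on `k^∨(ω χ⁻¹)`.)
-/
import Mathlib
import Fermat.Agent.S56x.Local.CWAbstract
import Fermat.Agent.S56x.Local.FiltrationCount

set_option autoImplicit false
set_option linter.unusedSectionVars false
set_option linter.style.haveILetI false

namespace Fermat.Agent.S56x.Local.CharCountHomInert

open Fermat.Agent.S56x.Local.FiltrationCount Fermat.Agent.S56x.Local.CWAbstract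

section Shift

variable {k : Type*} [Field k] {p : ℕ}

/-- precomposition of an additive functional with the multiplication by `a`. -/
def sh (a : k) (lam : k →+ ZMod p) : k →+ ZMod p := lam.comp (AddMonoidHom.mulLeft a)

@[simp] theorem sh_apply (a : k) (lam : k →+ ZMod p) (x : k) : sh a lam x = lam (a * x) := rfl

theorem sh_add (a b : k) (lam : k →+ ZMod p) : sh (a + b) lam = sh a lam + sh b lam := by
  ext x
  simp [add_mul]

theorem sh_mul (a b : k) (lam : k →+ ZMod p) : sh (a * b) lam = sh a (sh b lam) := by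
  ext x
  simp only [sh_apply]
  congr 1
  ring

theorem sh_zero (lam : k →+ ZMod p) : sh (0 : k) lam = 0 := by
  ext x
  simp

theorem sh_natCast (n : ℕ) (lam : k →+ ZMod p) : sh (n : k) lam = n • lam := by
  ext x
  rw [sh_apply, AddMonoidHom.nsmul_apply, ← nsmul_eq_mul, map_nsmul]

end Shift

section Poly

variable {k : Type*} [Field k] {p : ℕ} [Fact p.Prime] [CharP k p]
  {l : Type*} [Field l] [CharP l p]

/-- if `H ∘ sh a = c₀ • H` then `H ∘ sh (P a) = P c₀ • H` for every `P ∈ 𝔽_p[X]`. -/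
theorem apply_sh_eval (H : (k →+ ZMod p) →+ l) (a : k) (c₀ : l)
    (hH : ∀ lam, H (sh a lam) = c₀ * H lam) (P : Polynomial (ZMod p)) :
    ∀ lam, H (sh (P.eval₂ (ZMod.castHom dvd_rfl k) a) lam)
      = P.eval₂ (ZMod.castHom dvd_rfl l) c₀ * H lam := by
  induction P using Polynomial.induction_on with
  | C c =>
    intro lam
    rw [Polynomial.eval₂_C, Polynomial.eval₂_C, ← ZMod.natCast_zmod_val c, map_natCast,
      map_natCast, sh_natCast, map_nsmul, nsmul_eq_mul]
  | add P Q hP hQ =>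
    intro lam
    rw [Polynomial.eval₂_add, Polynomial.eval₂_add, sh_add, map_add, hP, hQ, add_mul]
  | monomial n c ih =>
    intro lam
    rw [pow_succ, ← mul_assoc, Polynomial.eval₂_mul, Polynomial.eval₂_X,
      Polynomial.eval₂_mul (ZMod.castHom dvd_rfl l), Polynomial.eval₂_X, sh_mul, ih, hH]
    ring

end Poly

section Final

variable {Γ : Type*} [Group Γ] {k : Type*} [Field k] {p : ℕ} [Fact p.Prime]
  [CharP k p] {l : Type*} [Field l] [CharP l p]
  (χ : Γ →* kˣ) (ω : Γ → ZMod p) (τ : Γ → l →+* l) (cc : Γ → l)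
  (ρY : Γ → Multiplicative l →* Multiplicative l)
  (hρY : ∀ g y, Multiplicative.toAdd (ρY g y) = cc g * τ g (Multiplicative.toAdd y))

omit [CharP k p] in
/-- `twistN χ ω g` is the shift by `(ω g : k) * (χ g)⁻¹`. -/
theorem twistN_eq_sh (g : Γ) (lam : k →+ ZMod p) :
    twistN χ ω g (Multiplicative.ofAdd lam) = Multiplicative.ofAdd
      (sh ((((ω g).val : ℕ) : k) * ((χ g : k))⁻¹) lam) := by
  apply Multiplicative.toAdd.injective
  ext x
  rw [twistN_apply, toAdd_ofAdd, toAdd_ofAdd, sh_apply, mul_assoc, ← nsmul_eq_mul (ω g).val,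
    map_nsmul, nsmul_eq_mul, ZMod.natCast_zmod_val]

include hρY in
/-- **(HD2)** polynomial inertia vanishing. -/
theorem eqHom_eq_bot_of_poly {g₀ : Γ} (hg₀ : ∀ x, τ g₀ x = x) (P : Polynomial (ZMod p))
    (hPk : P.eval₂ (ZMod.castHom dvd_rfl k) ((((ω g₀).val : ℕ) : k) * ((χ g₀ : k))⁻¹) = 0)
    (hPl : P.eval₂ (ZMod.castHom dvd_rfl l) (cc g₀) ≠ 0) :
    eqHom (twistN χ ω) ρY ⊤ = ⊥ := by
  rw [eq_bot_iff]
  intro h hh
  rw [Subgroup.mem_bot]
  set H : (k →+ ZMod p) →+ l := AddMonoidHom.toMultiplicative.symm h with hHdef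
  have hHapp : ∀ lam, H lam = Multiplicative.toAdd (h (Multiplicative.ofAdd lam)) := fun _ => rfl
  have hH : ∀ lam, H (sh ((((ω g₀).val : ℕ) : k) * ((χ g₀ : k))⁻¹) lam) = cc g₀ * H lam := by
    intro lam
    have h1 := hh.2 g₀ (Multiplicative.ofAdd lam)
    rw [twistN_eq_sh] at h1
    rw [hHapp, h1, hρY, hg₀, hHapp]
  have key := apply_sh_eval H _ (cc g₀) hH P
  rw [hPk] at key
  ext lam
  have h2 := key (Multiplicative.toAdd lam)
  rw [sh_zero, map_zero] at h2
  rcases mul_eq_zero.mp h2.symm with h3 | h3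
  · exact absurd h3 hPl
  · exact h3

include hρY in
theorem card_eqHom_le_one_of_poly {g₀ : Γ} (hg₀ : ∀ x, τ g₀ x = x) (P : Polynomial (ZMod p))
    (hPk : P.eval₂ (ZMod.castHom dvd_rfl k) ((((ω g₀).val : ℕ) : k) * ((χ g₀ : k))⁻¹) = 0)
    (hPl : P.eval₂ (ZMod.castHom dvd_rfl l) (cc g₀) ≠ 0) :
    Finite (eqHom (twistN χ ω) ρY ⊤) ∧ Nat.card (eqHom (twistN χ ω) ρY ⊤) ≤ 1 := by
  rw [eqHom_eq_bot_of_poly χ ω τ cc ρY hρY hg₀ P hPk hPl]
  exact ⟨inferInstance, Subgroup.card_bot.le⟩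

end Final

end Fermat.Agent.S56x.Local.CharCountHomInert
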