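import Mathlib
import Fermat.Agent.S56x.Local.CWLocal
import Fermat.Agent.S56x.Local.CharCountHomInert

/-!
# P-S56, block (A) (helper2): the character-wise count (CW), `ℚ_{p²}`-shape (leaf (L3-count))

The analogue of `CWLocal.rank_H1A_le_one_Qp` over the unramified quadratic extension of `ℚ_p`,
needed for the induced (supersingular) case `(IND)` / hypothesis `hHμ` of
`FlatBridge.finrank_classSpan_le_of_induced`.

DATA (same as `CWLocal.General`): `B` a discrete valuation ring with finite residue field,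
`ϖ` irreducible with `p = c₀ ϖ^(p²-1)` (so `e = p² - 1`, `j₀ = p + 1`, `top = p (p + 1)`),
`ζ_p ∈ B`, operators `σ : Γ → B ≃+* B` with `σ g ϖ = c g ϖ`, `σ g ζ = ζ ^ m g`.
The levels are `p² - 1 ≤ j < p² + p`, `p ∤ j`, i.e. `j - (p² - 1) ∈ {0, 2, 3, …, p}`.

* `trace_norm_of_ne_one` : if some `g₀` acts on the target `l` through multiplication by `τ` with
  `τ + τ^p = a`, `τ^(p+1) = b` in the prime field, and there is a nontrivial equivariant hom
  `N → l`, then `s := ω(g₀) χ(g₀)⁻¹ ∈ k` satisfies `s + s^p = a`, `s^(p+1) = b`;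
* `eq_or_eq_pow_of_ne_one` : two targets `τ`, `τ'` (both fixed by `x ↦ x^(p²)`) with nontrivial
  equivariant homs satisfy `τ' = τ ∨ τ' = τ ^ p`;
* `pow_ne_of_levels` : for `t` of order `p² - 1` two distinct levels are never conjugate;
* `rank_H1A_le_one_Qp2` (**CW1 over `ℚ_{p²}`**): hypothesis-style in
  - an inert `g₀` whose tame character value `t = residue (c g₀)` has order `p² - 1`,
  - helper62's side condition `(ω g₀ : k) ≠ χ g₀` (kills the level `e_L = p² - 1`, where the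
    bound would be `(#k)²`),
  - `χ ≠ 1` (kills the top piece),
  - (HD2) `#Hom_Γ(N, k_L(θ^j)) ≤ #k` for the other levels (descent inequality over `𝔽_{p²}`:
    NOT `CharCountHom.card_eqHom_le`, whose `hfix` says that the fixed field is `𝔽_p`);
* `rank_H1A_one_le_one_Qp2` (**CW1 for `χ = 1` over `ℚ_{p²}`**, for `hinv` of
  `FlatBridge.finrank_classSpan_le_of_induced`): all graded levels are dead (the level `p² - 1` by
  `ω g₀ ≠ 1`, the others because `t ^ j ∉ 𝔽_p`, via `CharCountHomInert.eqHom_eq_bot_of_poly`),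
  only the top piece `𝔽_p(ω)` survives; no (HD2) needed.
-/

set_option autoImplicit false
set_option linter.unusedSectionVars false
set_option linter.style.haveILetI false

open IsLocalRing

namespace Fermat.Agent.S56x.Local.CWLocalQp2

open Fermat.Agent.Lib.CFT.Local.UnitsFiltration Fermat.Agent.S56x.Local.WbFiltration
  Fermat.Agent.S56x.Local.WbCount Fermat.Agent.S56x.Local.FiltrationCount
  Fermat.Agent.S56x.Local.CWAbstract Fermat.Agent.S56x.Local.HomCountBasic
  Fermat.Agent.S56x.Local.Devissage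

universe u v w

/-! ### Shifts of functionals -/

section Shift

variable {k : Type v} [Field k] {p : ℕ}

theorem shift_add (a b : k) (l : k →+ ZMod p) : shift (a + b) l = shift a l + shift b l := by
  ext x
  simp [add_mul]

theorem shift_natCast (n : ℕ) (l : k →+ ZMod p) : shift (n : k) l = n • l := by
  ext x
  rw [shift_apply, AddMonoidHom.nsmul_apply, ← nsmul_eq_mul, map_nsmul]

end Shift

/-! ### The mismatch lemma -/

section Mismatch

variable {Γ : Type u} [Group Γ] {k : Type v} [Field k] {p : ℕ} [Fact p.Prime] [CharP k p]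
  {l : Type w} [Field l] [CharP l p]
  (χ : Γ →* kˣ) (ω : Γ → ZMod p)

/-- the additive form of a hom `N → l`. -/
def addForm (h : Multiplicative (k →+ ZMod p) →* Multiplicative l) : (k →+ ZMod p) →+ l :=
  AddMonoidHom.toMultiplicative.symm h

theorem addForm_apply (h : Multiplicative (k →+ ZMod p) →* Multiplicative l)
    (f : k →+ ZMod p) : addForm h f = Multiplicative.toAdd (h (Multiplicative.ofAdd f)) := rfl

theorem eq_one_of_addForm_eq_zero {h : Multiplicative (k →+ ZMod p) →* Multiplicative l}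
    (h0 : ∀ f, addForm h f = 0) : h = 1 := by
  ext f
  have := h0 (Multiplicative.toAdd f)
  rw [addForm_apply, ofAdd_toAdd] at this
  exact Multiplicative.toAdd.injective this

/-- if `H ∘ shift u = 0` for a nonzero `u` then `H = 0`. -/
theorem addForm_eq_zero_of_shift {h : Multiplicative (k →+ ZMod p) →* Multiplicative l}
    {u : k} (hu : u ≠ 0) (h0 : ∀ f, addForm h (shift u f) = 0) (f : k →+ ZMod p) :
    addForm h f = 0 := by
  have := h0 (shift u⁻¹ f)
  rwa [shift_shift, inv_mul_cancel₀ hu, shift_one] at this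

variable {χ ω}

/-- **trace and norm**: a nontrivial equivariant hom `N → l`, where `g₀` acts on `l` through
multiplication by `τ` with trace `a` and norm `b` (over the prime field), forces
`s = ω(g₀) χ(g₀)⁻¹` to have the same trace and norm. -/
theorem trace_norm_of_ne_one {ρY : Γ → Multiplicative l →* Multiplicative l} {g₀ : Γ} {τ : l}
    (hg₀ : ∀ y, Multiplicative.toAdd (ρY g₀ y) = τ * Multiplicative.toAdd y)
    {h : Multiplicative (k →+ ZMod p) →* Multiplicative l}
    (hh : h ∈ eqHom (twistN χ ω) ρY ⊤) (hne : h ≠ 1)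
    {a b : ℕ} (ha : τ + τ ^ p = (a : l)) (hb : τ ^ (p + 1) = (b : l)) :
    ((((ω g₀).val : ℕ) : k) * ((χ g₀ : k))⁻¹) + ((((ω g₀).val : ℕ) : k) * ((χ g₀ : k))⁻¹) ^ p
        = (a : k) ∧
      ((((ω g₀).val : ℕ) : k) * ((χ g₀ : k))⁻¹) ^ (p + 1) = (b : k) := by
  set s : k := (((ω g₀).val : ℕ) : k) * ((χ g₀ : k))⁻¹ with hs
  -- the basic relation
  have key : ∀ f : k →+ ZMod p, addForm h (shift s f) = τ * addForm h f := by
    intro f
    have h1 := hh.2 g₀ (Multiplicative.ofAdd f)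
    rw [twistN_eq_shift, toAdd_ofAdd] at h1
    rw [addForm_apply, addForm_apply, hs, h1, hg₀]
  have hpow : ∀ (n : ℕ) (f : k →+ ZMod p), addForm h (shift (s ^ n) f) = τ ^ n * addForm h f := by
    intro n
    induction n with
    | zero => intro f; rw [pow_zero, pow_zero, shift_one, one_mul]
    | succ n ih =>
      intro f
      rw [pow_succ, ← shift_shift, key, ih, pow_succ]
      ring
  have hnat : ∀ (n : ℕ) (f : k →+ ZMod p), addForm h (shift (n : k) f) = (n : l) * addForm h f := by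
    intro n f
    rw [shift_natCast, map_nsmul, nsmul_eq_mul]
  constructor
  · by_contra hcon
    have hu : s + s ^ p - (a : k) ≠ 0 := sub_ne_zero.mpr hcon
    apply hne
    apply eq_one_of_addForm_eq_zero
    refine addForm_eq_zero_of_shift hu (fun f => ?_)
    rw [shift_sub, shift_add, map_sub, map_add, hnat, hpow, key, ← ha]
    ring
  · by_contra hcon
    have hu : s ^ (p + 1) - (b : k) ≠ 0 := sub_ne_zero.mpr hcon
    apply hne
    apply eq_one_of_addForm_eq_zero
    refine addForm_eq_zero_of_shift hu (fun f => ?_)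
    rw [shift_sub, map_sub, hnat, hpow, ← hb]
    ring

/-- elements fixed by the Frobenius are natural numbers. -/
theorem exists_natCast_of_pow_eq_self {x : l} (hx : x ^ p = x) : ∃ n : ℕ, (n : l) = x := by
  have h1 : x ∈ (⊥ : Subfield l) := (Subfield.mem_bot_iff_pow_eq_self l p).mpr hx
  rw [← ZMod.fieldRange_castHom_eq_bot p] at h1
  obtain ⟨z, hz⟩ := h1
  refine ⟨z.val, ?_⟩
  rw [← hz, ← map_natCast (ZMod.castHom (dvd_refl p) l), ZMod.natCast_zmod_val]

/-- **exclusivity**: two targets carrying nontrivial equivariant homs are conjugate over the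
prime field. -/
theorem eq_or_eq_pow_of_ne_one {ρY ρY' : Γ → Multiplicative l →* Multiplicative l} {g₀ : Γ}
    {τ τ' : l} (hτ : τ ^ (p * p) = τ) (hτ' : τ' ^ (p * p) = τ')
    (hg₀ : ∀ y, Multiplicative.toAdd (ρY g₀ y) = τ * Multiplicative.toAdd y)
    (hg₀' : ∀ y, Multiplicative.toAdd (ρY' g₀ y) = τ' * Multiplicative.toAdd y)
    {h h' : Multiplicative (k →+ ZMod p) →* Multiplicative l}
    (hh : h ∈ eqHom (twistN χ ω) ρY ⊤) (hne : h ≠ 1)
    (hh' : h' ∈ eqHom (twistN χ ω) ρY' ⊤) (hne' : h' ≠ 1) :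
    τ' = τ ∨ τ' = τ ^ p := by
  have tr : ∀ x : l, x ^ (p * p) = x → (x + x ^ p) ^ p = x + x ^ p := by
    intro x hx
    rw [add_pow_char, ← pow_mul, hx, add_comm]
  have nm : ∀ x : l, x ^ (p * p) = x → (x ^ (p + 1)) ^ p = x ^ (p + 1) := by
    intro x hx
    rw [← pow_mul, add_mul, one_mul, pow_add, hx, pow_add, pow_one, mul_comm]
  obtain ⟨a, ha⟩ := exists_natCast_of_pow_eq_self (p := p) (tr τ hτ)
  obtain ⟨b, hb⟩ := exists_natCast_of_pow_eq_self (p := p) (nm τ hτ)
  obtain ⟨a', ha'⟩ := exists_natCast_of_pow_eq_self (p := p) (tr τ' hτ')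
  obtain ⟨b', hb'⟩ := exists_natCast_of_pow_eq_self (p := p) (nm τ' hτ')
  obtain ⟨h1, h2⟩ := trace_norm_of_ne_one hg₀ hh hne ha.symm hb.symm
  obtain ⟨h1', h2'⟩ := trace_norm_of_ne_one hg₀' hh' hne' ha'.symm hb'.symm
  have eqa : (a : l) = (a' : l) := by
    have : (a : k) = (a' : k) := h1.symm.trans h1'
    rw [CharP.natCast_eq_natCast k p] at this
    rwa [CharP.natCast_eq_natCast l p]
  have eqb : (b : l) = (b' : l) := by
    have : (b : k) = (b' : k) := h2.symm.trans h2'
    rw [CharP.natCast_eq_natCast k p] at this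
    rwa [CharP.natCast_eq_natCast l p]
  have e1 : τ + τ ^ p = τ' + τ' ^ p := by rw [← ha, ← ha', eqa]
  have e2 : τ ^ (p + 1) = τ' ^ (p + 1) := by rw [← hb, ← hb', eqb]
  have hprod : (τ' - τ) * (τ' - τ ^ p) = 0 := by
    rw [pow_succ, pow_succ] at e2
    linear_combination (-τ') * e1 + e2
  rcases mul_eq_zero.mp hprod with h0 | h0
  · exact Or.inl (sub_eq_zero.mp h0)
  · exact Or.inr (sub_eq_zero.mp h0)

end Mismatch

/-! ### The levels `p² - 1 ≤ j < p² + p`, `p ∤ j` -/

section Levels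

/-- exponents of equal powers are congruent modulo the order (in a field). -/
theorem modEq_of_pow_eq {l : Type*} [Field l] {M : ℕ} (hM0 : M ≠ 0) {t : l}
    (ht : orderOf t = M) {a b : ℕ} (hab : t ^ a = t ^ b) : a ≡ b [MOD M] := by
  have htM : t ^ M = 1 := ht ▸ pow_orderOf_eq_one t
  have ht0 : t ≠ 0 := by
    rintro rfl
    rw [zero_pow hM0] at htM
    exact zero_ne_one htM
  have h1 : (Units.mk0 t ht0) ^ a = (Units.mk0 t ht0) ^ b := Units.ext (by simpa using hab)
  rw [pow_eq_pow_iff_modEq, ← orderOf_units, Units.val_mk0, ht] at h1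
  exact h1

/-- for `t` of order `M = p² - 1` the levels `M + u`, `2 ≤ u ≤ p`, are not in the prime field. -/
theorem pow_pow_ne_self_of_level {l : Type*} [Field l] {p M : ℕ} (hp3 : 3 ≤ p)
    (hM : M + 1 = p * p) {t : l} (ht : orderOf t = M) {u : ℕ} (hu2 : 2 ≤ u) (hu : u ≤ p) :
    (t ^ (M + u)) ^ p ≠ t ^ (M + u) := by
  have htM : t ^ M = 1 := ht ▸ pow_orderOf_eq_one t
  have hpp : 3 * p ≤ p * p := Nat.mul_le_mul_right p hp3
  have red : ∀ v, t ^ (M + v) = t ^ v := fun v => by rw [pow_add, htM, one_mul]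
  rw [red, ← pow_mul]
  intro h
  have h2 := Nat.modEq_iff_dvd.mp (modEq_of_pow_eq (by omega) ht h)
  have b1 : u * 3 ≤ u * p := Nat.mul_le_mul_left u hp3
  have b2 : u * p ≤ p * p := Nat.mul_le_mul_right p hu
  have h3 := Int.eq_zero_of_abs_lt_dvd h2 (by rw [abs_lt]; constructor <;> omega)
  omega

/-- for `t` of order `M = p² - 1` the powers `t ^ (M + u)`, `u ∈ {0, 2, …, p}`, are pairwise
non-conjugate over the prime field. -/
theorem pow_ne_of_levels {l : Type*} [Field l] {p M : ℕ} (hp3 : 3 ≤ p) (hM : M + 1 = p * p)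
    {t : l} (ht : orderOf t = M) {u u' : ℕ} (hu : u ≤ p) (hu' : u' ≤ p)
    (hpu : ¬ p ∣ M + u) (hpu' : ¬ p ∣ M + u') (hne : u ≠ u') :
    t ^ (M + u') ≠ t ^ (M + u) ∧ t ^ (M + u') ≠ (t ^ (M + u)) ^ p := by
  have htM : t ^ M = 1 := ht ▸ pow_orderOf_eq_one t
  have hpp : 3 * p ≤ p * p := Nat.mul_le_mul_right p hp3
  have red : ∀ v, t ^ (M + v) = t ^ v := fun v => by rw [pow_add, htM, one_mul]
  have key : ∀ a b : ℕ, t ^ a = t ^ b → a ≡ b [MOD M] := fun a b hab =>
    modEq_of_pow_eq (by omega) ht hab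
  have hu1 : u ≠ 1 := by
    rintro rfl
    exact hpu (hM ▸ dvd_mul_right p p)
  have hu1' : u' ≠ 1 := by
    rintro rfl
    exact hpu' (hM ▸ dvd_mul_right p p)
  rw [red, red, ← pow_mul]
  constructor
  · intro h
    have h2 := Nat.modEq_iff_dvd.mp (key _ _ h)
    have h3 := Int.eq_zero_of_abs_lt_dvd h2 (by rw [abs_lt]; constructor <;> omega)
    omega
  · intro h
    have h2 := Nat.modEq_iff_dvd.mp (key _ _ h)
    rcases Nat.lt_or_ge u 2 with hlt | hge
    · have hu0 : u = 0 := by omega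
      subst hu0
      rw [zero_mul] at h2
      have h3 := Int.eq_zero_of_abs_lt_dvd h2 (by rw [abs_lt]; constructor <;> omega)
      omega
    · rcases Nat.lt_or_ge u p with hlt | hge'
      · have b1 : 2 * p ≤ u * p := Nat.mul_le_mul_right p hge
        have b2 : u * p ≤ (p - 1) * p := Nat.mul_le_mul_right p (by omega)
        have b3 : (p - 1) * p = p * p - p := by rw [Nat.sub_mul, one_mul]
        have h3 := Int.eq_zero_of_abs_lt_dvd h2 (by rw [abs_lt]; constructor <;> omega)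
        omega
      · have hup : u = p := by omega
        subst hup
        have h4 : (M : ℤ) ∣ (u' : ℤ) - 1 := by
          have e1 : ((u * u : ℕ) : ℤ) - (u' : ℤ) = (M : ℤ) - ((u' : ℤ) - 1) := by omega
          rw [e1] at h2
          exact (dvd_sub_right (dvd_refl _)).mp h2
        have h3 := Int.eq_zero_of_abs_lt_dvd h4 (by rw [abs_lt]; constructor <;> omega)
        omega

/-- a product of numbers `≤ K`, at most one of which differs from `1`, is `≤ K`. -/
theorem prod_le_of_exclusive {ι : Type*} (J : Finset ι) (f : ι → ℕ) (K : ℕ) (hK : 1 ≤ K)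
    (hle : ∀ j ∈ J, f j ≤ K)
    (hexcl : ∀ j ∈ J, ∀ j' ∈ J, j ≠ j' → f j = 1 ∨ f j' = 1) :
    ∏ j ∈ J, f j ≤ K := by
  classical
  by_cases hall : ∀ j ∈ J, f j = 1
  · rw [Finset.prod_eq_one hall]
    exact hK
  · push Not at hall
    obtain ⟨j₁, hj₁, hf₁⟩ := hall
    rw [Finset.prod_eq_single_of_mem j₁ hj₁ (fun j hj hne => ?_)]
    · exact hle j₁ hj₁
    · rcases hexcl j hj j₁ hj₁ hne with h | h
      · exact h
      · exact absurd h hf₁

end Levels

/-! ### The `ℚ_{p²}`-shape: `e = p² - 1`, `j₀ = p + 1` -/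

section Qp2

variable {B : Type*} [CommRing B] [IsDomain B] [IsDiscreteValuationRing B]
  [Finite (ResidueField B)]
  {ϖ : B} (hϖ : Irreducible ϖ) {p : ℕ} [hpF : Fact p.Prime] {c₀ : Bˣ}
  (hpe : (p : B) = c₀ * ϖ ^ (p ^ 2 - 1))
  {N₀ : ℕ} (hN : principalUnits B N₀ ≤ pthPowers B p)
  {ζ : B} (hζ : ζ ^ p = 1) (hζ1 : ζ ≠ 1)
  {Γ : Type*} [Group Γ] (σ : Γ → B ≃+* B) {c : Γ → B} (hc : ∀ g, σ g ϖ = c g * ϖ)
  {m : Γ → ℕ} (hm : ∀ g, σ g ζ = ζ ^ m g)
  {k : Type*} [Field k] [Finite k] [CharP k p]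
  {𝒜 : Subalgebra k (Γ → k)} {χ : Γ →* kˣ}
  {ΓL : Subgroup Γ} [ΓL.Normal] [ΓL.FiniteIndex]
  {ω : Γ → ZMod p} {pr : ΓL → (Bˣ ⧸ pthPowers B p) → ZMod p}

include hϖ hpe in
/-- the bound on the product of the factor counts, `ℚ_{p²}`-shape. -/
theorem prod_card_le_Qp2 (hp3 : 3 ≤ p)
    (hω : ∀ g, ω g = (m g : ZMod p)) (hω0 : ∀ g, ω g ≠ 0) (hχ : χ ≠ 1)
    {g₀ : Γ} (hg₀ : ∀ y, ResidueField.map ((σ g₀ : B ≃+* B) : B →+* B) y = y)
    (ht : orderOf (residue B (c g₀)) = p ^ 2 - 1)
    (hside : (((ω g₀).val : ℕ) : k) ≠ (χ g₀ : k))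
    (hHD2 : ∀ j, p ^ 2 - 1 < j → j < p * (p + 1) → ¬ p ∣ j →
      Nat.card (eqHom (twistN χ ω) (actK σ c j) ⊤) ≤ Nat.card k) :
    (∏ j ∈ (Finset.Ico (p ^ 2 - 1) (p * (p + 1))).filter (fun j => ¬ p ∣ j),
        Nat.card (eqHom (twistN χ ω) (actK σ c j) ⊤))
      * Nat.card (eqHom (twistN χ ω) (actOmega p m) ⊤) ≤ Nat.card k := by
  have hp := hpF.out
  have hp2 : 1 ≤ p ^ 2 := Nat.one_le_pow _ _ hp.pos
  have hM : (p ^ 2 - 1) + 1 = p * p := by rw [Nat.sub_add_cancel hp2, sq]
  have hpp : 3 * p ≤ p * p := Nat.mul_le_mul_right p hp3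
  haveI : CharP (ResidueField B) p := charP_residueField hϖ hp hpe (by omega)
  set t : ResidueField B := residue B (c g₀) with htdef
  have htM : t ^ (p ^ 2 - 1) = 1 := ht ▸ pow_orderOf_eq_one t
  have htpp : t ^ (p * p) = t := by rw [← hM, pow_succ, htM, one_mul]
  -- the action of `g₀` on the level `j`
  have hact : ∀ (j : ℕ) (y : Multiplicative (ResidueField B)),
      Multiplicative.toAdd (actK σ c j g₀ y) = t ^ j * Multiplicative.toAdd y := by
    intro j y
    rw [actK_apply, hg₀]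
  -- the top piece
  obtain ⟨g₁, hg₁⟩ : ∃ g₁, χ g₁ ≠ 1 := by
    by_contra hcon
    simp only [not_exists, not_not] at hcon
    exact hχ (MonoidHom.ext hcon)
  have htop := (card_eqHom_omega_le_one χ ω (actOmega p m) (CWLocal.actOmega_toAdd hω)
    (hω0 g₁) hg₁).2
  -- the levels
  have hK : 1 ≤ Nat.card k := Nat.card_pos
  have hlev : ∏ j ∈ (Finset.Ico (p ^ 2 - 1) (p * (p + 1))).filter (fun j => ¬ p ∣ j),
      Nat.card (eqHom (twistN χ ω) (actK σ c j) ⊤) ≤ Nat.card k := by
    refine prod_le_of_exclusive _ _ _ hK ?_ ?_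
    · intro j hj
      rw [Finset.mem_filter, Finset.mem_Ico] at hj
      rcases Nat.eq_or_lt_of_le hj.1.1 with h0 | h0
      · -- the level `p² - 1`: dead by the side condition
        rw [← h0]
        have := (card_eqHom_le_one_of_inert χ ω (actK σ c (p ^ 2 - 1)) (g₀ := g₀)
          (fun y => by
            apply Multiplicative.toAdd.injective
            rw [hact, htM, one_mul]) hside).2
        exact le_trans this hK
      · exact hHD2 j h0 hj.1.2 hj.2
    · intro j hj j' hj' hne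
      rw [Finset.mem_filter, Finset.mem_Ico] at hj hj'
      by_contra hcon
      push Not at hcon
      obtain ⟨hc1, hc2⟩ := hcon
      have hbot : ∀ i, Nat.card (eqHom (twistN χ ω) (actK σ c i) ⊤) ≠ 1 →
          ∃ h ∈ eqHom (twistN χ ω) (actK σ c i) ⊤, h ≠ 1 := by
        intro i hi
        by_contra hno
        push Not at hno
        apply hi
        have : eqHom (twistN χ ω) (actK σ c i) ⊤ = ⊥ := by
          rw [eq_bot_iff]
          intro h hh
          rw [Subgroup.mem_bot]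
          exact hno h hh
        rw [this]
        exact Subgroup.card_bot
      obtain ⟨h, hh, hne1⟩ := hbot j hc1
      obtain ⟨h', hh', hne1'⟩ := hbot j' hc2
      have hpow : ∀ i : ℕ, (t ^ i) ^ (p * p) = t ^ i := fun i => by
        rw [← pow_mul, mul_comm, pow_mul, htpp]
      have hor := eq_or_eq_pow_of_ne_one (hpow j) (hpow j') (hact j) (hact j') hh hne1 hh' hne1'
      obtain ⟨u, rfl⟩ := Nat.exists_eq_add_of_le hj.1.1
      obtain ⟨u', rfl⟩ := Nat.exists_eq_add_of_le hj'.1.1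
      have hmul : p * (p + 1) = p * p + p := by ring
      have hlv := pow_ne_of_levels (l := ResidueField B) hp3 hM ht (u := u) (u' := u')
        (by omega) (by omega) hj.2 hj'.2 (fun h => hne (by rw [h]))
      rcases hor with h1 | h1
      · exact hlv.1 h1
      · exact hlv.2 h1
  calc _ ≤ Nat.card k * 1 := Nat.mul_le_mul hlev htop
    _ = Nat.card k := mul_one _

include hϖ hpe hN hζ hζ1 hc hm in
/-- **(CW1), `ℚ_{p²}`-shape.** -/
theorem rank_H1A_le_one_Qp2 (hp3 : 3 ≤ p)
    (hP : IsKummerPairing 𝒜 χ ΓL (actA p σ) (W B p (p ^ 2 - 1)) ω pr) (hidx : ¬ p ∣ ΓL.index)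
    (hω : ∀ g, ω g = (m g : ZMod p)) (hω0 : ∀ g, ω g ≠ 0) (hχ : χ ≠ 1)
    {g₀ : Γ} (hg₀ : ∀ y, ResidueField.map ((σ g₀ : B ≃+* B) : B →+* B) y = y)
    (ht : orderOf (residue B (c g₀)) = p ^ 2 - 1)
    (hside : (((ω g₀).val : ℕ) : k) ≠ (χ g₀ : k))
    (hHD2 : ∀ j, p ^ 2 - 1 < j → j < p * (p + 1) → ¬ p ∣ j →
      Nat.card (eqHom (twistN χ ω) (actK σ c j) ⊤) ≤ Nat.card k) :
    Module.rank k (H1A 𝒜 χ) ≤ 1 := by
  have hp := hpF.out
  have hp2 : 1 ≤ p ^ 2 := Nat.one_le_pow _ _ hp.pos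
  have hpp : 3 * p ≤ p * p := Nat.mul_le_mul_right p hp3
  have hsq : p ^ 2 = p * p := sq p
  have hcrit : p * (p + 1) = (p + 1) + (p ^ 2 - 1) := by
    have : p * (p + 1) = p * p + p := by ring
    omega
  refine CWLocal.rank_H1A_le_one_of_bound hϖ hpe (by omega) (by omega) hcrit hN hζ hζ1 σ hc hm
    (a := p ^ 2 - 1) (by omega) (by omega) hP hidx ?_
  exact prod_card_le_Qp2 hϖ hpe σ hp3 hω hω0 hχ hg₀ ht hside hHD2

include hϖ hpe in
/-- the bound on the product of the factor counts for `χ = 1`, `ℚ_{p²}`-shape: all graded levels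
are dead, only the top piece `𝔽_p(ω)` survives. -/
theorem prod_card_le_Qp2_one (hp3 : 3 ≤ p)
    {g₀ : Γ} (hg₀ : ∀ y, ResidueField.map ((σ g₀ : B ≃+* B) : B →+* B) y = y)
    (ht : orderOf (residue B (c g₀)) = p ^ 2 - 1) (hside : ω g₀ ≠ 1) :
    (∏ j ∈ (Finset.Ico (p ^ 2 - 1) (p * (p + 1))).filter (fun j => ¬ p ∣ j),
        Nat.card (eqHom (twistN (1 : Γ →* kˣ) ω) (actK σ c j) ⊤))
      * Nat.card (eqHom (twistN (1 : Γ →* kˣ) ω) (actOmega p m) ⊤) ≤ Nat.card k := by
  have hp := hpF.out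
  have hp2 : 1 ≤ p ^ 2 := Nat.one_le_pow _ _ hp.pos
  have hM : (p ^ 2 - 1) + 1 = p * p := by rw [Nat.sub_add_cancel hp2, sq]
  have hpp : 3 * p ≤ p * p := Nat.mul_le_mul_right p hp3
  haveI : CharP (ResidueField B) p := charP_residueField hϖ hp hpe (by omega)
  set t : ResidueField B := residue B (c g₀) with htdef
  have htM : t ^ (p ^ 2 - 1) = 1 := ht ▸ pow_orderOf_eq_one t
  have htop := (card_eqHom_omega_le (1 : Γ →* kˣ) ω (actOmega p m)).2
  have hlev : ∏ j ∈ (Finset.Ico (p ^ 2 - 1) (p * (p + 1))).filter (fun j => ¬ p ∣ j),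
      Nat.card (eqHom (twistN (1 : Γ →* kˣ) ω) (actK σ c j) ⊤) = 1 := by
    refine Finset.prod_eq_one fun j hj => ?_
    rw [Finset.mem_filter, Finset.mem_Ico] at hj
    have hbot : eqHom (twistN (1 : Γ →* kˣ) ω) (actK σ c j) ⊤ = ⊥ := by
      rcases Nat.eq_or_lt_of_le hj.1.1 with h0 | h0
      · -- the level `p² - 1`
        rw [← h0]
        refine eqHom_eq_bot_of_inert (1 : Γ →* kˣ) ω (actK σ c (p ^ 2 - 1)) (g₀ := g₀)
          (fun y => ?_) ?_
        · apply Multiplicative.toAdd.injective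
          rw [actK_apply, hg₀, ← htdef, htM, one_mul]
        · rw [MonoidHom.one_apply, Units.val_one, Ne, CWLocal.natCast_val_eq_one_iff]
          exact hside
      · -- the other levels: `t ^ j` is not in the prime field
        obtain ⟨u, rfl⟩ := Nat.exists_eq_add_of_le hj.1.1
        have hmul : p * (p + 1) = p * p + p := by ring
        have hu1 : u ≠ 1 := by
          rintro rfl
          exact hj.2 (hM ▸ dvd_mul_right p p)
        have hne := pow_pow_ne_self_of_level (l := ResidueField B) hp3 hM ht (u := u)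
          (by omega) (by omega)
        refine CharCountHomInert.eqHom_eq_bot_of_poly (1 : Γ →* kˣ) ω
          (fun g => ResidueField.map ((σ g : B ≃+* B) : B →+* B))
          (fun g => residue B (c g) ^ (p ^ 2 - 1 + u)) (actK σ c (p ^ 2 - 1 + u))
          (fun g y => actK_apply σ c _ g y) (g₀ := g₀) hg₀
          (Polynomial.X - Polynomial.C (ω g₀)) ?_ ?_
        · rw [Polynomial.eval₂_sub, Polynomial.eval₂_X, Polynomial.eval₂_C, MonoidHom.one_apply,
            Units.val_one, inv_one, mul_one, ← map_natCast (ZMod.castHom (dvd_refl p) k),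
            ZMod.natCast_zmod_val, sub_self]
        · rw [Polynomial.eval₂_sub, Polynomial.eval₂_X, Polynomial.eval₂_C, sub_ne_zero]
          intro heq
          apply hne
          rw [← htdef] at heq
          rw [heq, ← map_pow, ZMod.pow_card]
    rw [hbot]
    exact Subgroup.card_bot
  rw [hlev, one_mul]
  exact htop

include hϖ hpe hN hζ hζ1 hc hm in
/-- **(CW1) for the trivial character, `ℚ_{p²}`-shape**: bounded additive characters of `Γ` have
`k`-rank `≤ 1`. -/
theorem rank_H1A_one_le_one_Qp2 (hp3 : 3 ≤ p)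
    (hP : IsKummerPairing 𝒜 (1 : Γ →* kˣ) ΓL (actA p σ) (W B p (p ^ 2 - 1)) ω pr)
    (hidx : ¬ p ∣ ΓL.index)
    {g₀ : Γ} (hg₀ : ∀ y, ResidueField.map ((σ g₀ : B ≃+* B) : B →+* B) y = y)
    (ht : orderOf (residue B (c g₀)) = p ^ 2 - 1) (hside : ω g₀ ≠ 1) :
    Module.rank k (H1A 𝒜 (1 : Γ →* kˣ)) ≤ 1 := by
  have hp := hpF.out
  have hp2 : 1 ≤ p ^ 2 := Nat.one_le_pow _ _ hp.pos
  have hpp : 3 * p ≤ p * p := Nat.mul_le_mul_right p hp3
  have hsq : p ^ 2 = p * p := sq p
  have hcrit : p * (p + 1) = (p + 1) + (p ^ 2 - 1) := by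
    have : p * (p + 1) = p * p + p := by ring
    omega
  refine CWLocal.rank_H1A_le_one_of_bound hϖ hpe (by omega) (by omega) hcrit hN hζ hζ1 σ hc hm
    (a := p ^ 2 - 1) (by omega) (by omega) hP hidx ?_
  exact prod_card_le_Qp2_one hϖ hpe σ hp3 hg₀ ht hside

end Qp2

end Fermat.Agent.S56x.Local.CWLocalQp2
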