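/-
P-S56, block (A) LOCAL FLAT (helper62): the descent count in HOM FORM when the fixed field of the
coefficient field is `𝔽_{p²}` — `(HD1₂)`, the `ℚ_{p²}`-companion of helper90's
`CharCountHom.card_eqHom_le` (`(HD1)`, fixed field `𝔽_p`).

Setting of `CharCountHom`: `N = Multiplicative (k →+ ZMod p)` with the operators
`CWAbstract.twistN χ ω`, `Y = Multiplicative l` with `ρY g y = cc g * τ g y`.  If every `τ g` is
bijective, every `cc g` is nonzero, the elements of `l` fixed by all `τ g` satisfy `b ^ (p * p) = b`,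
and there is an "inert" `g₀` (`τ g₀ = id`) with `cc g₀ ^ p ≠ cc g₀`, then

  `#Hom_Γ(N, Y) = #FiltrationCount.eqHom (twistN χ ω) ρY ⊤ ≤ #k`     (`card_eqHom_le_of_sq`).

Proof.  `E = Hom_{𝔽_p}(k^∨, l)` has `l`-dimension `d = [k : 𝔽_p]`.  The equivariant maps lie in the
`l`-subspace `eig g₀ (cc g₀) = {H | H ∘ tw g₀ = cc g₀ • H}`; the Frobenius `H ↦ (λ ↦ (H λ)^p)` maps
`l`-independent families of `eig g₀ a` to `l`-independent families of `eig g₀ (a ^ p)` (`l` is
perfect), and `eig g₀ a ⊓ eig g₀ (a ^ p) = ⊥` for `a ^ p ≠ a`; hence `2 dim_l eig g₀ (cc g₀) ≤ d`.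
The coordinates of an equivariant map in an `l`-basis of the span of the equivariant maps made of
equivariant maps are fixed by all `τ g` (Artin), hence are among the `≤ p²` solutions of
`b ^ (p * p) = b`; so `#eqSub ≤ (p²)^m ≤ p^d = #k`.
-/
import Mathlib
import Fermat.Agent.S56x.Local.CharCountHom

set_option autoImplicit false
set_option linter.unusedSectionVars false
set_option linter.style.haveILetI false

namespace Fermat.Agent.S56x.Local.CharCountHomSq

open Fermat.Agent.S56x.Local.FiltrationCount Fermat.Agent.S56x.Local.CWAbstract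
  Fermat.Agent.S56x.Local.CharCountHom

/-! ## Eigenspaces of the inert element and the Frobenius trick -/

section Eig

variable {Γ : Type*} [Group Γ] {k : Type*} [Field k] {p : ℕ} [Fact p.Prime]
  {l : Type*} [Field l] [Algebra (ZMod p) l]
  (χ : Γ →* kˣ) (ω : Γ → ZMod p)

/-- the `l`-subspace of `Hom_{𝔽_p}(k^∨, l)` on which `H ↦ H ∘ tw g₀` is multiplication by `a`. -/
def eig (g₀ : Γ) (a : l) : Submodule l ((k →+ ZMod p) →ₗ[ZMod p] l) where
  carrier := {H | ∀ lam : k →+ ZMod p, H (tw χ ω g₀ lam) = a * H lam}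
  add_mem' := by
    intro H H' hH hH' lam
    rw [LinearMap.add_apply, LinearMap.add_apply, hH lam, hH' lam, mul_add]
  zero_mem' := by
    intro lam
    rw [LinearMap.zero_apply, LinearMap.zero_apply, mul_zero]
  smul_mem' := by
    intro c H hH lam
    rw [LinearMap.smul_apply, LinearMap.smul_apply, hH lam, smul_eq_mul, smul_eq_mul]
    ring

theorem mem_eig {g₀ : Γ} {a : l} {H : (k →+ ZMod p) →ₗ[ZMod p] l} :
    H ∈ eig χ ω g₀ a ↔ ∀ lam : k →+ ZMod p, H (tw χ ω g₀ lam) = a * H lam := Iff.rfl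

theorem eig_inf_eig (g₀ : Γ) {a b : l} (hab : a ≠ b) : eig χ ω g₀ a ⊓ eig χ ω g₀ b = ⊥ := by
  rw [eq_bot_iff]
  rintro H ⟨ha, hb⟩
  rw [Submodule.mem_bot]
  apply LinearMap.ext
  intro lam
  have h1 := ha lam
  have h2 := hb lam
  rw [h1] at h2
  have h3 : (a - b) * H lam = 0 := by rw [sub_mul, h2, sub_self]
  rcases mul_eq_zero.mp h3 with h | h
  · exact absurd (sub_eq_zero.mp h) hab
  · rw [h]; rfl

variable [CharP l p]

/-- the Frobenius twist `H ↦ (λ ↦ (H λ) ^ p)` of `Hom_{𝔽_p}(k^∨, l)`. -/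
def frobLin (H : (k →+ ZMod p) →ₗ[ZMod p] l) : (k →+ ZMod p) →ₗ[ZMod p] l where
  toFun lam := (H lam) ^ p
  map_add' x y := by rw [map_add, add_pow_char]
  map_smul' c x := by
    rw [map_smul, RingHom.id_apply, Algebra.smul_def, Algebra.smul_def, mul_pow, ← map_pow,
      ZMod.pow_card]

@[simp] theorem frobLin_apply (H : (k →+ ZMod p) →ₗ[ZMod p] l) (lam : k →+ ZMod p) :
    frobLin H lam = (H lam) ^ p := rfl

theorem frobLin_mem {g₀ : Γ} {a : l} {H : (k →+ ZMod p) →ₗ[ZMod p] l}
    (hH : H ∈ eig χ ω g₀ a) : frobLin H ∈ eig χ ω g₀ (a ^ p) := by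
  intro lam
  rw [frobLin_apply, frobLin_apply, hH lam, mul_pow]

/-- the Frobenius twist preserves `l`-linear independence (`l` finite, hence perfect). -/
theorem linearIndependent_frobLin [Finite l] {ι : Type*}
    (v : ι → (k →+ ZMod p) →ₗ[ZMod p] l) (hv : LinearIndependent l v) :
    LinearIndependent l (fun i => frobLin (v i)) := by
  classical
  rw [linearIndependent_iff'] at hv ⊢
  intro s c hc i hi
  have hsurj : Function.Surjective (frobenius l p) :=
    Finite.surjective_of_injective (frobenius l p).injective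
  choose b hb using hsurj
  have hrel : ∑ j ∈ s, b (c j) • v j = 0 := by
    apply LinearMap.ext
    intro lam
    have h1 := LinearMap.congr_fun hc lam
    rw [LinearMap.sum_apply, LinearMap.zero_apply] at h1 ⊢
    have h2 : frobenius l p (∑ j ∈ s, (b (c j) • v j) lam) = 0 := by
      rw [map_sum, ← h1]
      refine Finset.sum_congr rfl fun j _ => ?_
      rw [LinearMap.smul_apply, LinearMap.smul_apply, smul_eq_mul, smul_eq_mul, map_mul, hb,
        frobLin_apply, frobenius_def]
    rw [frobenius_def] at h2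
    exact pow_eq_zero_iff (Fact.out : p.Prime).ne_zero |>.mp h2
  have h3 := hv s (fun j => b (c j)) hrel i hi
  rw [← hb (c i), h3, map_zero]

variable [Finite k] [CharP k p]

/-- **Frobenius trick**: an `l`-independent family in `eig g₀ a` with `a ^ p ≠ a` has at most
`d / 2` members, `d = dim_{𝔽_p} k^∨ = dim_l Hom_{𝔽_p}(k^∨, l)`. -/
theorem two_mul_card_le [Finite l] {g₀ : Γ} {a : l} (ha : a ^ p ≠ a) {ι : Type*} [Fintype ι]
    (v : ι → (k →+ ZMod p) →ₗ[ZMod p] l) (hv : LinearIndependent l v)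
    (hmem : ∀ i, v i ∈ eig χ ω g₀ a) :
    2 * Fintype.card ι ≤ Module.finrank (ZMod p) (k →+ ZMod p) := by
  classical
  have h2 := linearIndependent_frobLin v hv
  have hdisj : Disjoint (Submodule.span l (Set.range v))
      (Submodule.span l (Set.range fun i => frobLin (v i))) := by
    refine Disjoint.mono (Submodule.span_le.mpr ?_) (Submodule.span_le.mpr ?_)
      (disjoint_iff.mpr (eig_inf_eig χ ω g₀ (Ne.symm ha)))
    · rintro _ ⟨i, rfl⟩
      exact hmem i
    · rintro _ ⟨i, rfl⟩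
      exact frobLin_mem χ ω (hmem i)
  have h3 := hv.sum_type h2 hdisj
  have h4 := h3.fintype_card_le_finrank
  rw [Fintype.card_sum, finrank_hom] at h4
  omega

end Eig

/-! ## Coordinates of equivariant maps are fixed -/

section Coord

variable {Γ : Type*} [Group Γ] {k : Type*} [Field k] {p : ℕ} [Fact p.Prime]
  {l : Type*} [Field l] [Algebra (ZMod p) l]
  (χ : Γ →* kˣ) (ω : Γ → ZMod p) (τ : Γ → l →+* l) (cc : Γ → l)

theorem mem_eig_of_mem_eqSub {g₀ : Γ} (hg₀ : ∀ x, τ g₀ x = x)
    {H : (k →+ ZMod p) →ₗ[ZMod p] l} (hH : H ∈ eqSub χ ω τ cc) : H ∈ eig χ ω g₀ (cc g₀) := by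
  intro lam
  rw [hH g₀ lam, hg₀]

/-- **Artin**: the coordinates of an equivariant map with respect to an `l`-independent family of
equivariant maps are fixed by all `τ g`. -/
theorem coeff_fixed (hτ : ∀ g, Function.Bijective (τ g)) (hcc : ∀ g, cc g ≠ 0)
    {ι : Type*} [Fintype ι] (v : ι → (k →+ ZMod p) →ₗ[ZMod p] l)
    (hv : ∀ i, v i ∈ eqSub χ ω τ cc) (hind : LinearIndependent l v)
    {H : (k →+ ZMod p) →ₗ[ZMod p] l} (hH : H ∈ eqSub χ ω τ cc) (c : ι → l)
    (hc : ∑ i, c i • v i = H) (g : Γ) (i : ι) : τ g (c i) = c i := by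
  classical
  let e : l ≃+* l := RingEquiv.ofBijective (τ g) (hτ g)
  have he : ∀ x, e x = τ g x := fun x => rfl
  have key : ∑ j, e.symm (c j - τ g (c j)) • v j = 0 := by
    apply LinearMap.ext
    intro lam
    rw [LinearMap.sum_apply, LinearMap.zero_apply]
    have h1 := hH g lam
    rw [← hc] at h1
    simp only [LinearMap.sum_apply, LinearMap.smul_apply, smul_eq_mul] at h1
    have h2 : ∀ j, v j (tw χ ω g lam) = cc g * τ g (v j lam) := fun j => hv j g lam
    simp only [h2, map_sum, map_mul] at h1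
    have h3 : cc g * ∑ j, (c j - τ g (c j)) * τ g (v j lam) = 0 := by
      rw [Finset.mul_sum]
      have h4 : ∑ j, cc g * ((c j - τ g (c j)) * τ g (v j lam)) =
          ∑ j, c j * (cc g * τ g (v j lam)) - cc g * ∑ j, τ g (c j) * τ g (v j lam) := by
        rw [Finset.mul_sum, ← Finset.sum_sub_distrib]
        refine Finset.sum_congr rfl fun j _ => ?_
        ring
      rw [h4, h1, sub_self]
    have h5 : ∑ j, (c j - τ g (c j)) * τ g (v j lam) = 0 :=
      (mul_eq_zero.mp h3).resolve_left (hcc g)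
    have h6 := congrArg e.symm h5
    rw [map_sum, map_zero] at h6
    rw [← h6]
    refine Finset.sum_congr rfl fun j _ => ?_
    rw [LinearMap.smul_apply, smul_eq_mul, map_mul, ← he (v j lam), RingEquiv.symm_apply_apply]
  have h7 := (Fintype.linearIndependent_iff.mp hind) _ key i
  have h8 : c i - τ g (c i) = 0 := by
    have := congrArg e h7
    rwa [RingEquiv.apply_symm_apply, map_zero] at this
  exact (sub_eq_zero.mp h8).symm

end Coord

/-! ## The count -/

section Count

variable {Γ : Type*} [Group Γ] {k : Type*} [Field k] [Finite k] {p : ℕ} [Fact p.Prime]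
  [CharP k p] {l : Type*} [Field l] [Algebra (ZMod p) l] [CharP l p]
  (χ : Γ →* kˣ) (ω : Γ → ZMod p) (τ : Γ → l →+* l) (cc : Γ → l)

/-- the equation `b ^ (p * p) = b` has at most `p * p` solutions. -/
theorem card_sq_fixed_le [Finite l] : Nat.card {b : l // b ^ (p * p) = b} ≤ p * p := by
  classical
  have hp : 1 < p * p := by
    have := (Fact.out : p.Prime).two_le
    nlinarith
  set P : Polynomial l := Polynomial.X ^ (p * p) - Polynomial.X with hP
  have hP0 : P ≠ 0 := FiniteField.X_pow_card_sub_X_ne_zero l hp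
  have hdeg : P.natDegree = p * p := FiniteField.X_pow_card_sub_X_natDegree_eq l hp
  have hset : {b : l | b ^ (p * p) = b} = ↑P.roots.toFinset := by
    ext b
    rw [Set.mem_ofPred_eq, Finset.mem_coe, Multiset.mem_toFinset, Polynomial.mem_roots hP0,
      Polynomial.IsRoot.def, hP, Polynomial.eval_sub, Polynomial.eval_pow, Polynomial.eval_X,
      sub_eq_zero]
  have h1 : Nat.card {b : l // b ^ (p * p) = b} = P.roots.toFinset.card := by
    have : Nat.card {b : l // b ^ (p * p) = b} = Set.ncard {b : l | b ^ (p * p) = b} :=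
      Nat.card_coe_set_eq _
    rw [this, hset, Set.ncard_coe_finset]
  rw [h1]
  exact (Multiset.toFinset_card_le _).trans ((Polynomial.card_roots' P).trans hdeg.le)

/-- **the count, subspace form, fixed field `𝔽_{p²}`**. -/
theorem card_eqSub_le_of_sq [Finite l] (hτ : ∀ g, Function.Bijective (τ g))
    (hcc : ∀ g, cc g ≠ 0) (hfix2 : ∀ b : l, (∀ g, τ g b = b) → b ^ (p * p) = b)
    {g₀ : Γ} (hg₀ : ∀ x, τ g₀ x = x) (hne : cc g₀ ^ p ≠ cc g₀) :
    Finite (eqSub χ ω τ cc) ∧ Nat.card (eqSub χ ω τ cc) ≤ Nat.card k := by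
  classical
  obtain ⟨b, hbs, hbspan, hbind⟩ := exists_linearIndependent l
    ((eqSub χ ω τ cc : Set ((k →+ ZMod p) →ₗ[ZMod p] l)))
  haveI : Finite b := hbind.setFinite
  haveI : Fintype b := Fintype.ofFinite b
  -- every equivariant map is an `l`-combination of the basis
  have hrep : ∀ H : eqSub χ ω τ cc, ∃ c : b → l,
      ∑ i, c i • ((i : (k →+ ZMod p) →ₗ[ZMod p] l)) = (H : (k →+ ZMod p) →ₗ[ZMod p] l) := by
    intro H
    have h1 : (H : (k →+ ZMod p) →ₗ[ZMod p] l) ∈ Submodule.span l b := by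
      rw [hbspan]
      exact Submodule.subset_span H.2
    have h2 : (H : (k →+ ZMod p) →ₗ[ZMod p] l) ∈ Submodule.span l
        (Set.range (fun i : b => (i : (k →+ ZMod p) →ₗ[ZMod p] l))) := by
      rwa [Subtype.range_coe]
    exact (Submodule.mem_span_range_iff_exists_fun l).mp h2
  choose c hc using hrep
  have hfixc : ∀ (H : eqSub χ ω τ cc) (i : b), c H i ^ (p * p) = c H i := fun H i =>
    hfix2 _ fun g => coeff_fixed χ ω τ cc hτ hcc (fun i : b => (i : (k →+ ZMod p) →ₗ[ZMod p] l))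
      (fun i => hbs i.2) hbind H.2 (c H) (hc H) g i
  let ι : eqSub χ ω τ cc → (b → {x : l // x ^ (p * p) = x}) := fun H i => ⟨c H i, hfixc H i⟩
  have hι : Function.Injective ι := by
    intro H H' hH
    apply Subtype.ext
    rw [← hc H, ← hc H']
    refine Finset.sum_congr rfl fun i _ => ?_
    have := congrArg (fun f => (f i : l)) hH
    simp only [ι] at this
    rw [this]
  haveI : Finite {x : l // x ^ (p * p) = x} := Subtype.finite
  refine ⟨Finite.of_injective ι hι, ?_⟩
  -- the numerics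
  have h1 : Nat.card (eqSub χ ω τ cc) ≤ Nat.card (b → {x : l // x ^ (p * p) = x}) :=
    Nat.card_le_card_of_injective ι hι
  rw [Nat.card_fun] at h1
  -- `2 #b ≤ d`
  have h3 : 2 * Nat.card b ≤ Module.finrank (ZMod p) (k →+ ZMod p) := by
    rw [Nat.card_eq_fintype_card]
    exact two_mul_card_le χ ω hne (fun i : b => (i : (k →+ ZMod p) →ₗ[ZMod p] l)) hbind
      (fun i => mem_eig_of_mem_eqSub χ ω τ cc hg₀ (hbs i.2))
  have h4 : Nat.card k = p ^ Module.finrank (ZMod p) (k →+ ZMod p) := by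
    haveI : Module.Finite (ZMod p) (k →+ ZMod p) := Module.Finite.of_finite
    rw [← card_dual (k := k) (p := p), Module.natCard_eq_pow_finrank (K := ZMod p)
      (V := k →+ ZMod p), Nat.card_zmod]
  have hp1 : 1 ≤ p := (Fact.out : p.Prime).one_le
  calc Nat.card (eqSub χ ω τ cc)
      ≤ Nat.card {x : l // x ^ (p * p) = x} ^ Nat.card b := h1
    _ ≤ (p * p) ^ Nat.card b := Nat.pow_le_pow_left card_sq_fixed_le _
    _ = p ^ (2 * Nat.card b) := by rw [← pow_two, ← pow_mul]
    _ ≤ p ^ Module.finrank (ZMod p) (k →+ ZMod p) :=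
        Nat.pow_le_pow_right hp1 (by omega)
    _ = Nat.card k := h4.symm

end Count

/-! ## The statement for `FiltrationCount.eqHom` -/

section Final

variable {Γ : Type*} [Group Γ] {k : Type*} [Field k] [Finite k] {p : ℕ} [Fact p.Prime]
  [CharP k p] {l : Type*} [Field l] [CharP l p]
  (χ : Γ →* kˣ) (ω : Γ → ZMod p) (τ : Γ → l →+* l) (cc : Γ → l)
  (ρY : Γ → Multiplicative l →* Multiplicative l)
  (hρY : ∀ g y, Multiplicative.toAdd (ρY g y) = cc g * τ g (Multiplicative.toAdd y))

include hρY in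
/-- **(HD1₂) the descent count, hom form, fixed field `𝔽_{p²}`**: if the elements of `l` fixed by
all `τ g` satisfy `b ^ (p * p) = b` and there is an inert `g₀` (`τ g₀ = id`) with
`cc g₀ ^ p ≠ cc g₀`, then `#Hom_Γ(N, Y) ≤ #k`. -/
theorem card_eqHom_le_of_sq [Finite l] (hτ : ∀ g, Function.Bijective (τ g))
    (hcc : ∀ g, cc g ≠ 0) (hfix2 : ∀ b : l, (∀ g, τ g b = b) → b ^ (p * p) = b)
    {g₀ : Γ} (hg₀ : ∀ x, τ g₀ x = x) (hne : cc g₀ ^ p ≠ cc g₀) :
    Finite (eqHom (twistN χ ω) ρY ⊤) ∧ Nat.card (eqHom (twistN χ ω) ρY ⊤) ≤ Nat.card k := by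
  letI : Algebra (ZMod p) l := ZMod.algebra l p
  obtain ⟨hfin, hcard⟩ := card_eqSub_le_of_sq χ ω τ cc hτ hcc hfix2 hg₀ hne
  let ι : eqHom (twistN χ ω) ρY ⊤ → eqSub χ ω τ cc := fun h =>
    ⟨toLin (h : Multiplicative (k →+ ZMod p) →* Multiplicative l),
      toLin_mem χ ω τ cc ρY hρY h.2⟩
  have hι : Function.Injective ι := by
    intro h h' hh
    apply Subtype.ext
    apply toLin_injective
    exact congrArg (fun z : eqSub χ ω τ cc => (z : (k →+ ZMod p) →ₗ[ZMod p] l)) hh
  exact ⟨Finite.of_injective ι hι, le_trans (Nat.card_le_card_of_injective ι hι) hcard⟩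

end Final

end Fermat.Agent.S56x.Local.CharCountHomSq
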