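import Mathlib
import Fermat.Agent.S56x.Local.CWLocalQp2
import Fermat.Agent.S56x.Local.CharCountHomSq

/-!
# P-S56, block (A) (helper2): (CW1) over `ℚ_{p²}` with the descent inequality discharged

`CWLocalQp2.rank_H1A_le_one_Qp2` with its hypothesis `hHD2` discharged by helper62's
`CharCountHomSq.card_eqHom_le_of_sq` (`(HD1₂)`): the only remaining residue-field input is

  `hfix2 : ∀ b : ResidueField B, (∀ g, ResidueField.map (σ g) b = b) → b ^ (p * p) = b`

(the fixed field of `Γ` on the residue field of `L` is contained in `𝔽_{p²}`).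
-/

set_option autoImplicit false
set_option linter.unusedSectionVars false
set_option linter.style.haveILetI false

open IsLocalRing

namespace Fermat.Agent.S56x.Local.CWLocalQp2

open Fermat.Agent.Lib.CFT.Local.UnitsFiltration Fermat.Agent.S56x.Local.WbFiltration
  Fermat.Agent.S56x.Local.WbCount Fermat.Agent.S56x.Local.FiltrationCount
  Fermat.Agent.S56x.Local.CWAbstract Fermat.Agent.S56x.Local.HomCountBasic
  Fermat.Agent.S56x.Local.Devissage

section Aux

variable {B : Type*} [CommRing B] [IsLocalRing B]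

/-- a ring automorphism induces a bijection of the residue field. -/
theorem residueMap_bijective (e : B ≃+* B) :
    Function.Bijective (ResidueField.map ((e : B ≃+* B) : B →+* B)) :=
  (ResidueField.mapEquiv e).bijective

end Aux

section Qp2

variable {B : Type*} [CommRing B] [IsDomain B] [IsDiscreteValuationRing B]
  [Finite (ResidueField B)]
  {ϖ : B} (hϖ : Irreducible ϖ) {p : ℕ} [hpF : Fact p.Prime] {c₀ : Bˣ}
  (hpe : (p : B) = c₀ * ϖ ^ (p ^ 2 - 1))
  {N₀ : ℕ} (hN : principalUnits B N₀ ≤ pthPowers B p)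
  {ζ : B} (hζ : ζ ^ p = 1) (hζ1 : ζ ≠ 1)
  {Γ : Type*} [Group Γ] (σ : Γ → B ≃+* B) {c : Γ → B} (hc : ∀ g, σ g ϖ = c g * ϖ)
  {m : Γ → ℕ} (hm : ∀ g, σ g ζ = ζ ^ m g)
  {k : Type*} [Field k] [Finite k] [CharP k p]
  {𝒜 : Subalgebra k (Γ → k)} {χ : Γ →* kˣ}
  {ΓL : Subgroup Γ} [ΓL.Normal] [ΓL.FiniteIndex]
  {ω : Γ → ZMod p} {pr : ΓL → (Bˣ ⧸ pthPowers B p) → ZMod p}

include hϖ hc in
/-- the quotient `σ g ϖ / ϖ` is a unit. -/
theorem isUnit_c (g : Γ) : IsUnit (c g) := by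
  have h1 : Irreducible (σ g ϖ) := (MulEquiv.irreducible_iff (σ g).toMulEquiv).mpr hϖ
  rw [hc g] at h1
  rcases h1.isUnit_or_isUnit rfl with h | h
  · exact h
  · exact absurd h hϖ.not_isUnit

include hϖ hpe hc in
/-- **(HD2) over `𝔽_{p²}`** for the levels above `p² - 1`. -/
theorem card_eqHom_level_le (hp3 : 3 ≤ p)
    {g₀ : Γ} (hg₀ : ∀ y, ResidueField.map ((σ g₀ : B ≃+* B) : B →+* B) y = y)
    (ht : orderOf (residue B (c g₀)) = p ^ 2 - 1)
    (hfix2 : ∀ b : ResidueField B,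
      (∀ g, ResidueField.map ((σ g : B ≃+* B) : B →+* B) b = b) → b ^ (p * p) = b)
    (j : ℕ) (hj1 : p ^ 2 - 1 < j) (hj2 : j < p * (p + 1)) (hpj : ¬ p ∣ j) :
    Nat.card (eqHom (twistN χ ω) (actK σ c j) ⊤) ≤ Nat.card k := by
  have hp := hpF.out
  have hp2 : 1 ≤ p ^ 2 := Nat.one_le_pow _ _ hp.pos
  have hM : (p ^ 2 - 1) + 1 = p * p := by rw [Nat.sub_add_cancel hp2, sq]
  have hpp : 3 * p ≤ p * p := Nat.mul_le_mul_right p hp3
  haveI : CharP (ResidueField B) p := charP_residueField hϖ hp hpe (by omega)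
  obtain ⟨u, rfl⟩ := Nat.exists_eq_add_of_le hj1.le
  have hmul : p * (p + 1) = p * p + p := by ring
  have hu1 : u ≠ 1 := by
    rintro rfl
    exact hpj (hM ▸ dvd_mul_right p p)
  have hne := pow_pow_ne_self_of_level (l := ResidueField B) hp3 hM ht (u := u)
    (by omega) (by omega)
  exact (CharCountHomSq.card_eqHom_le_of_sq χ ω
    (fun g => ResidueField.map ((σ g : B ≃+* B) : B →+* B))
    (fun g => residue B (c g) ^ (p ^ 2 - 1 + u)) (actK σ c (p ^ 2 - 1 + u))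
    (fun g y => actK_apply σ c _ g y) (fun g => residueMap_bijective (σ g))
    (fun g => pow_ne_zero _ (by
      have hu := isUnit_c hϖ σ hc g
      exact (hu.map (residue B)).ne_zero))
    hfix2 (g₀ := g₀) hg₀ hne).2

include hϖ hpe hN hζ hζ1 hc hm in
/-- **(CW1), `ℚ_{p²}`-shape, with the descent inequality discharged.** -/
theorem rank_H1A_le_one_Qp2_of_fix (hp3 : 3 ≤ p)
    (hP : IsKummerPairing 𝒜 χ ΓL (actA p σ) (W B p (p ^ 2 - 1)) ω pr) (hidx : ¬ p ∣ ΓL.index)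
    (hω : ∀ g, ω g = (m g : ZMod p)) (hω0 : ∀ g, ω g ≠ 0) (hχ : χ ≠ 1)
    {g₀ : Γ} (hg₀ : ∀ y, ResidueField.map ((σ g₀ : B ≃+* B) : B →+* B) y = y)
    (ht : orderOf (residue B (c g₀)) = p ^ 2 - 1)
    (hside : (((ω g₀).val : ℕ) : k) ≠ (χ g₀ : k))
    (hfix2 : ∀ b : ResidueField B,
      (∀ g, ResidueField.map ((σ g : B ≃+* B) : B →+* B) b = b) → b ^ (p * p) = b) :
    Module.rank k (H1A 𝒜 χ) ≤ 1 :=
  rank_H1A_le_one_Qp2 hϖ hpe hN hζ hζ1 σ hc hm hp3 hP hidx hω hω0 hχ hg₀ ht hside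
    (card_eqHom_level_le hϖ hpe σ hc hp3 hg₀ ht hfix2)

end Qp2

end Fermat.Agent.S56x.Local.CWLocalQp2
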