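import Mathlib
import Fermat.Agent.S56x.Local.KummerPairingInt

/-!
# P-S56, block (A) (helper10): the Kummer pairing for a subgroup `Γ' ≤ Gal(Ω/F)`

Version of `KummerPairingInt.isKummerPairing_int` in which the acting group is (the type of) a
subgroup `Γ' ≤ Gal(Ω/F)` containing `G_L = L.fixingSubgroup` — needed for the induced case
(`Γ' = G_{ℚ_{p²}}` as a subgroup of `Gal(PadicAlgCl p/ℚ_p)`, `FlatCountFinal.hInd`).
`L` is finite normal over `F`, the operators `σ g` on `B = O_L` are defined for all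
`g : Gal(Ω/F)`.

* `GLsub Γ' := L.fixingSubgroup.subgroupOf Γ'` (normal, finite index, `index_GLsub_dvd`);
* `prSub` : the pairing `GLsub Γ' → Bˣ ⧸ (Bˣ)^p → ZMod p`;
* `isKummerPairing_sub` : `IsKummerPairing 𝒜' χ (GLsub Γ') (g ↦ actA p σ g) (W B p e)
  (g ↦ omega hζ g) prSub`.
-/

set_option autoImplicit false
set_option linter.unusedSectionVars false
set_option linter.style.haveILetI false
set_option linter.overlappingInstances false

noncomputable section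

namespace Fermat.Agent.S56x.Local.KummerPairingSub

open IntermediateField IsLocalRing
open Fermat.Agent.S56x.Local.KummerH1 Fermat.Agent.S56x.Local.CWAbstract
  Fermat.Agent.S56x.Local.Devissage Fermat.Agent.S56x.Local.KummerPairing
  Fermat.Agent.S56x.Local.KummerPairingInt
  Fermat.Agent.Lib.CFT.Local.UnitsFiltration Fermat.Agent.S56x.Local.WbCount

variable {F Ω : Type*} [Field F] [Field Ω] [Algebra F Ω] [IsGalois F Ω]
  {p : ℕ} [Fact p.Prime] {L : IntermediateField F Ω} [Normal F L] [FiniteDimensional F L]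
  (Γ' : Subgroup Gal(Ω/F))

/-- `G_L` as a subgroup of `Γ'`. -/
def GLsub : Subgroup ↥Γ' := (L.fixingSubgroup).subgroupOf Γ'

instance normal_GLsub : (GLsub (L := L) Γ').Normal :=
  Subgroup.normal_subgroupOf

instance finiteIndex_GLsub : (GLsub (L := L) Γ').FiniteIndex := by
  unfold GLsub
  infer_instance

/-- the index of `G_L` in `Γ'` divides `[L : F]`. -/
theorem index_GLsub_dvd (hLΓ : L.fixingSubgroup ≤ Γ') :
    (GLsub (L := L) Γ').index ∣ Module.finrank F L := by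
  rw [← index_fixingSubgroup_eq (L := L)]
  exact Dvd.intro _ (Subgroup.relIndex_mul_index hLΓ)

theorem not_dvd_index_GLsub (hLΓ : L.fixingSubgroup ≤ Γ') (h : ¬ p ∣ Module.finrank F L) :
    ¬ p ∣ (GLsub (L := L) Γ').index := fun hd =>
  h (hd.trans (index_GLsub_dvd Γ' hLΓ))

/-- an element of `GLsub Γ'` as an element of `G_L`. -/
def toL (s : GLsub (L := L) Γ') : L.fixingSubgroup :=
  ⟨((s : ↥Γ') : Gal(Ω/F)), Subgroup.mem_subgroupOf.mp s.2⟩

omit [Normal F L] [FiniteDimensional F L] in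
theorem coe_toL (s : GLsub (L := L) Γ') :
    ((toL Γ' s : L.fixingSubgroup) : Gal(Ω/F)) = ((s : ↥Γ') : Gal(Ω/F)) := rfl

/-- an element of `G_L` as an element of `GLsub Γ'`. -/
def ofL (hLΓ : L.fixingSubgroup ≤ Γ') (t : L.fixingSubgroup) : GLsub (L := L) Γ' :=
  ⟨⟨(t : Gal(Ω/F)), hLΓ t.2⟩, Subgroup.mem_subgroupOf.mpr t.2⟩

omit [Normal F L] [FiniteDimensional F L] in
theorem toL_ofL (hLΓ : L.fixingSubgroup ≤ Γ') (t : L.fixingSubgroup) :
    toL Γ' (ofL Γ' hLΓ t) = t := rfl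

theorem toL_conjL (g : ↥Γ') (s : GLsub (L := L) Γ') :
    toL Γ' (conjL (GLsub (L := L) Γ') g s) =
      conjL L.fixingSubgroup (g : Gal(Ω/F)) (toL Γ' s) := rfl

variable {ζ : Ω} (hζ : IsPrimitiveRoot ζ p) (hζL : ζ ∈ L)
  (hroot : ∀ x : ↥L, ∃ α : Ω, α ^ p = (x : Ω))
  (B : Type*) [CommRing B] [IsDomain B] [IsDiscreteValuationRing B]
  [Algebra B ↥L] [IsFractionRing B ↥L]
  (σ : Gal(Ω/F) → B ≃+* B)
  (hσ : ∀ (g : Gal(Ω/F)) (b : B),
    ((algebraMap B ↥L (σ g b) : ↥L) : Ω) = g ((algebraMap B ↥L b : ↥L) : Ω))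

/-- the Kummer pairing for the subgroup `Γ'`. -/
def prSub (s : GLsub (L := L) Γ') (a : Bˣ ⧸ WbFiltration.pthPowers B p) : ZMod p :=
  prInt B hζ hζL hroot (toL Γ' s) a

variable {k : Type*} [Field k] [CharP k p]
  (𝒜' : Subalgebra k (↥Γ' → k)) (χ : ↥Γ' →* kˣ)

include hσ in
/-- **The Kummer pairing for a subgroup `Γ' ⊇ G_L`** on `(Bˣ ⧸ (Bˣ)^p, W B p e)`: the hypothesis
`hP` of `CWLocal.rank_H1A_le_one_of_bound` (and of the `ℚ_{p²}`-shape) for `Γ := ↥Γ'`. -/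
theorem isKummerPairing_sub (hLΓ : L.fixingSubgroup ≤ Γ') (e : ℕ)
    (hχ : ∀ s ∈ GLsub (L := L) Γ', χ s = 1)
    (hcont : ∀ f ∈ 𝒜', ∃ E : IntermediateField F Ω, FiniteDimensional F E ∧
      ∀ (g t : ↥Γ'), (t : Gal(Ω/F)) ∈ E.fixingSubgroup → f (g * t) = f g)
    (HB : ∀ u ∈ Z1A 𝒜' χ, ∀ (l : k →+ ZMod p) (x : (↥L)ˣ) (α : Ω), α ^ p = ((x : ↥L) : Ω) →
      (∀ s : GLsub (L := L) Γ', ((s : ↥Γ') : Gal(Ω/F)) α = ζ ^ (l (u s)).val * α) →
      ∃ (z : (↥L)ˣ) (b : Bˣ), b ∈ principalUnits B e ∧ unitsIncl L B b = x * z ^ p) :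
    IsKummerPairing 𝒜' χ (GLsub (L := L) Γ') (fun g => actA p σ (g : Gal(Ω/F)))
      (WbFiltration.W B p e) (fun g => omega hζ (g : Gal(Ω/F)))
      (prSub Γ' hζ hζL hroot B) := by
  refine ⟨hχ, fun s a b => prInt_mul B hζ hζL hroot (toL Γ' s) a b, fun g s a => ?_,
    fun g _ ha => WbFiltration.actQ_mem_W (σ (g : Gal(Ω/F))) ha, fun a _ h => ?_,
    fun u hu l => ?_⟩
  · -- hconj
    show prInt B hζ hζL hroot (toL Γ' s) (actA p σ (g : Gal(Ω/F)) a) = _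
    rw [prInt_actA B σ hσ hζ hζL hroot (g : Gal(Ω/F)) (toL Γ' s) a]
    rfl
  · -- hinj
    refine eq_one_of_prInt_eq_zero B hζ hζL hroot a (fun t => ?_)
    have := h (ofL Γ' hLΓ t)
    exact this
  · -- hsurj
    have huZ : u ∈ Z1 χ := ((mem_Z1A 𝒜').mp hu).1
    have hu𝒜 : u ∈ 𝒜' := ((mem_Z1A 𝒜').mp hu).2
    let f : L.fixingSubgroup → ZMod p := fun t => l (u ((ofL Γ' hLΓ t : GLsub (L := L) Γ') : ↥Γ'))
    have hadd : ∀ s t : L.fixingSubgroup, f (s * t) = f s + f t := by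
      intro s t
      show l (u _) = l (u _) + l (u _)
      have h1 : ((ofL Γ' hLΓ (s * t) : GLsub (L := L) Γ') : ↥Γ') =
          ((ofL Γ' hLΓ s : GLsub (L := L) Γ') : ↥Γ') * ((ofL Γ' hLΓ t : GLsub (L := L) Γ') : ↥Γ') :=
        rfl
      rw [h1, huZ _ _, hχ _ (ofL Γ' hLΓ s).2, Units.val_one, one_mul, map_add]
    obtain ⟨E, hEfin, hE⟩ := hcont u hu𝒜
    have hloc : ∃ E : IntermediateField F Ω, FiniteDimensional F E ∧
        ∀ t : L.fixingSubgroup, (t : Gal(Ω/F)) ∈ E.fixingSubgroup → f t = 0 := by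
      refine ⟨E, hEfin, fun t ht => ?_⟩
      have h1 := hE 1 ((ofL Γ' hLΓ t : GLsub (L := L) Γ') : ↥Γ') ht
      rw [one_mul, cocycle_one huZ] at h1
      show l (u _) = 0
      rw [h1, map_zero]
    obtain ⟨x, α, hα, hpr, hact⟩ := exists_pr_eq hζ hζL hroot f hadd hloc
    have hact' : ∀ s : GLsub (L := L) Γ',
        ((s : ↥Γ') : Gal(Ω/F)) α = ζ ^ (l (u s)).val * α := fun s => hact (toL Γ' s)
    obtain ⟨z, b, hb, hbx⟩ := HB u hu l x α hα hact'
    refine ⟨QuotientGroup.mk b, WbFiltration.mk_mem_W hb, fun s => ?_⟩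
    show prInt B hζ hζL hroot (toL Γ' s) (QuotientGroup.mk b) = l (u s)
    rw [prInt_mk, hbx]
    have h2 : (QuotientGroup.mk x : KGroup p L) = QuotientGroup.mk (x * z ^ p) :=
      QuotientGroup.eq.mpr ⟨z, by rw [inv_mul_cancel_left]; rfl⟩
    rw [← h2, hpr (toL Γ' s)]
    rfl

end Fermat.Agent.S56x.Local.KummerPairingSub
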