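import Mathlib
import Fermat.Agent.S56x.Local.KummerPairingSub
import Fermat.Agent.S56x.Local.CWAssembly
import Fermat.Agent.S56x.Local.CWLocalQp2HD

/-!
# P-S56, block (A) (helper2): (CW1) over a subgroup `Γ' ⊇ G_L`, `ℚ_{p²}`-shape

Composition of helper10's `KummerPairingSub.isKummerPairing_sub` (the Kummer pairing for the
subgroup type `↥Γ'`, `Γ' ≤ Gal(Ω/F)`, `G_L ≤ Γ'`) with `CWLocalQp2.rank_H1A_le_one_Qp2_of_fix` and
`CWLocalQp2.rank_H1A_one_le_one_Qp2`, in the field-generic setting of `CWAssembly`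
(think `Ω / F = PadicAlgCl p / ℚ_[p]`, `Γ' = UnrLevels.lev p 2 = G_{ℚ_{p²}}`, `L` a finite Galois
extension of `ℚ_p` containing `ℚ_{p²}(ζ_p, π)`, `π^(p²-1) = -p`, `B = OE p L`, `p = c₀ ϖ^(p²-1)`).
This is the count behind the hypothesis `hHμ` of `IndPackage.hInd_of_inputs` and behind `hinv`.

Remaining hypotheses (arithmetic inputs):
* `hN`    : `U^(N₀) ≤ (Bˣ)^p` (complete case);
* `hidx`  : `p ∤ [L : F]`;
* `hcont` : admissible functions are continuous (`BddAlg.bddAlgOn`);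
* `HB`    : Fontaine's bound ⇒ Kummer generators of admissible cocycles can be normalised into
  `U^(p²-1)` (`BoundedKummerPadic` over `ℚ_{p²}`);
* `hg₀`, `ht`, `hgen` : an inert `g₀ ∈ Γ'` whose tame character value has order `p² - 1` and which
  generates the inertia modulo `G_L` (`InertGenerator.exists_inert_generator`);
* `hfix2` : the fixed field of `Γ'` on the residue field of `B` is inside `𝔽_{p²}`.

* `omega_eq_one_of_mem` : `ω` is trivial on `G_L`;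
* `side_of_exists` : the side condition at the generator `g₀` from the side condition at some
  inert `t = g₀ ^ n * s`, `s ∈ G_L`;
* `rank_H1A_le_one_sub` (**CW1 over `Γ'`**, `χ ≠ 1`), `rank_H1A_one_le_one_sub` (`χ = 1`).
-/

set_option autoImplicit false
set_option linter.unusedSectionVars false
set_option linter.style.haveILetI false
set_option linter.overlappingInstances false

noncomputable section

namespace Fermat.Agent.S56x.Local.CWAssemblyQp2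

open IntermediateField IsLocalRing
open Fermat.Agent.S56x.Local.KummerH1 Fermat.Agent.S56x.Local.CWAbstract
  Fermat.Agent.S56x.Local.Devissage Fermat.Agent.S56x.Local.KummerPairing
  Fermat.Agent.S56x.Local.KummerPairingInt Fermat.Agent.S56x.Local.KummerPairingSub
  Fermat.Agent.S56x.Local.FiltrationCount
  Fermat.Agent.Lib.CFT.Local.UnitsFiltration Fermat.Agent.S56x.Local.WbCount

variable {F Ω : Type*} [Field F] [Field Ω] [Algebra F Ω] [IsGalois F Ω]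
  {p : ℕ} [Fact p.Prime] {L : IntermediateField F Ω} [Normal F L] [FiniteDimensional F L]
  (Γ' : Subgroup Gal(Ω/F))
  {ζ : Ω} (hζ : IsPrimitiveRoot ζ p) (hζL : ζ ∈ L)
  (hroot : ∀ x : ↥L, ∃ α : Ω, α ^ p = (x : Ω))
  (B : Type*) [CommRing B] [IsDomain B] [IsDiscreteValuationRing B] [Finite (ResidueField B)]
  [Algebra B ↥L] [IsFractionRing B ↥L]
  (σ : Gal(Ω/F) → B ≃+* B)
  (hσ : ∀ (g : Gal(Ω/F)) (b : B),
    ((algebraMap B ↥L (σ g b) : ↥L) : Ω) = g ((algebraMap B ↥L b : ↥L) : Ω))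

/-! ### The cyclotomic exponent on `G_L` -/

include hζL in
omit [IsGalois F Ω] [Normal F L] [FiniteDimensional F L] in
/-- `ω` is trivial on `G_L` (`ζ ∈ L`). -/
theorem omega_eq_one_of_mem {s : Gal(Ω/F)} (hs : s ∈ L.fixingSubgroup) : omega hζ s = 1 := by
  haveI : NeZero p := ⟨(Fact.out : p.Prime).ne_zero⟩
  have hp := (Fact.out : p.Prime)
  have h1 : s ζ = ζ := (IntermediateField.mem_fixingSubgroup_iff L s).mp hs ζ hζL
  have h2 := omega_spec (F := F) hζ s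
  rw [h1] at h2
  have h3 : ζ ^ (omega hζ s).val = ζ ^ 1 := by rw [← h2, pow_one]
  have h4 : (omega hζ s).val = 1 :=
    hζ.pow_inj (ZMod.val_lt _) hp.one_lt h3
  rw [← ZMod.natCast_zmod_val (omega hζ s), h4, Nat.cast_one]

omit [IsGalois F Ω] [Normal F L] [FiniteDimensional F L] in
/-- `ω` of a power. -/
theorem omega_pow (g : Gal(Ω/F)) (n : ℕ) : omega hζ (g ^ n) = omega hζ g ^ n := by
  induction n with
  | zero =>
    rw [pow_zero, pow_zero]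
    haveI : NeZero p := ⟨(Fact.out : p.Prime).ne_zero⟩
    have hp := (Fact.out : p.Prime)
    have h2 := omega_spec (F := F) hζ (1 : Gal(Ω/F))
    rw [AlgEquiv.one_apply] at h2
    have h3 : ζ ^ (omega hζ (1 : Gal(Ω/F))).val = ζ ^ 1 := by rw [← h2, pow_one]
    have h4 : (omega hζ (1 : Gal(Ω/F))).val = 1 := hζ.pow_inj (ZMod.val_lt _) hp.one_lt h3
    rw [← ZMod.natCast_zmod_val (omega hζ (1 : Gal(Ω/F))), h4, Nat.cast_one]
  | succ n ih => rw [pow_succ, pow_succ, omega_mul, ih]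

/-! ### The side condition at the generator -/

variable {k : Type*} [Field k] [CharP k p]

include hζL in
omit [IsGalois F Ω] [Normal F L] [FiniteDimensional F L] in
/-- the side condition at `g₀` from the side condition at `t = g₀ ^ n * s`, `s ∈ G_L`. -/
theorem side_of_exists (χ : ↥Γ' →* kˣ) (hχ : ∀ s ∈ GLsub (L := L) Γ', χ s = 1) {g₀ : ↥Γ'}
    {t : ↥Γ'} (ht : ∃ (n : ℕ) (s : ↥Γ'), s ∈ GLsub (L := L) Γ' ∧ t = g₀ ^ n * s)
    (hne : (χ t : k) ≠ (((omega hζ (t : Gal(Ω/F))).val : ℕ) : k)) :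
    (((omega hζ (g₀ : Gal(Ω/F))).val : ℕ) : k) ≠ (χ g₀ : k) := by
  obtain ⟨n, s, hs, rfl⟩ := ht
  intro heq
  apply hne
  have hsL : ((s : ↥Γ') : Gal(Ω/F)) ∈ L.fixingSubgroup := Subgroup.mem_subgroupOf.mp hs
  have h1 : omega hζ ((g₀ ^ n * s : ↥Γ') : Gal(Ω/F)) = omega hζ (g₀ : Gal(Ω/F)) ^ n := by
    rw [Subgroup.coe_mul, Subgroup.coe_pow, omega_mul, omega_pow,
      omega_eq_one_of_mem hζ hζL hsL, mul_one]
  have h2 : (χ (g₀ ^ n * s) : k) = (χ g₀ : k) ^ n := by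
    rw [map_mul, map_pow, hχ s hs, mul_one, Units.val_pow_eq_pow_val]
  rw [h1, h2, ← heq, ← Nat.cast_pow]
  rw [CharP.natCast_eq_natCast k p, ← ZMod.natCast_eq_natCast_iff, Nat.cast_pow,
    ZMod.natCast_zmod_val, ZMod.natCast_zmod_val]

/-! ### The counts -/

variable [Finite k]
  {ϖ : B} (hϖ : Irreducible ϖ) {c₀ : Bˣ} (hpe : (p : B) = c₀ * ϖ ^ (p ^ 2 - 1))
  {N₀ : ℕ} (hN : principalUnits B N₀ ≤ WbFiltration.pthPowers B p)
  {c : Gal(Ω/F) → B} (hc : ∀ g, σ g ϖ = c g * ϖ)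
  (hp3 : 3 ≤ p) (hidx : ¬ p ∣ Module.finrank F L)
  (hLΓ : L.fixingSubgroup ≤ Γ')
  (𝒜' : Subalgebra k (↥Γ' → k)) (χ : ↥Γ' →* kˣ)
  (hχ : ∀ s ∈ GLsub (L := L) Γ', χ s = 1)
  (hcont : ∀ f ∈ 𝒜', ∃ E : IntermediateField F Ω, FiniteDimensional F E ∧
    ∀ (g t : ↥Γ'), (t : Gal(Ω/F)) ∈ E.fixingSubgroup → f (g * t) = f g)
  (HB : ∀ u ∈ Z1A 𝒜' χ, ∀ (l : k →+ ZMod p) (x : (↥L)ˣ) (α : Ω), α ^ p = ((x : ↥L) : Ω) →
    (∀ s : GLsub (L := L) Γ', ((s : ↥Γ') : Gal(Ω/F)) α = ζ ^ (l (u s)).val * α) →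
    ∃ (z : (↥L)ˣ) (b : Bˣ), b ∈ principalUnits B (p ^ 2 - 1) ∧ unitsIncl L B b = x * z ^ p)

include hζL hroot hσ hϖ hpe hN hc hp3 hidx hLΓ hχ hcont HB in
/-- **(CW1) over `Γ'`, `ℚ_{p²}`-shape**: `rank_k H¹_𝒜'(k(χ)) ≤ 1` for `χ ≠ 1` with the side
condition `ω g₀ ≠ χ g₀` at the inert generator. -/
theorem rank_H1A_le_one_sub (hχ1 : χ ≠ 1) {g₀ : ↥Γ'}
    (hg₀ : ∀ y, ResidueField.map ((σ (g₀ : Gal(Ω/F)) : B ≃+* B) : B →+* B) y = y)
    (ht : orderOf (residue B (c (g₀ : Gal(Ω/F)))) = p ^ 2 - 1)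
    (hside : (((omega hζ (g₀ : Gal(Ω/F))).val : ℕ) : k) ≠ (χ g₀ : k))
    (hfix2 : ∀ b : ResidueField B,
      (∀ g : ↥Γ', ResidueField.map ((σ (g : Gal(Ω/F)) : B ≃+* B) : B →+* B) b = b) →
        b ^ (p * p) = b) :
    Module.rank k (H1A 𝒜' χ) ≤ 1 := by
  haveI : NeZero p := ⟨(Fact.out : p.Prime).ne_zero⟩
  obtain ⟨ζB, hζB, hζBp, hζB1⟩ := CWAssembly.exists_zetaB hζ hζL B
  have hm : ∀ g : ↥Γ', σ (g : Gal(Ω/F)) ζB = ζB ^ (omega hζ (g : Gal(Ω/F))).val := by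
    intro g
    apply CWAssembly.coe_algebraMap_injective (L := L) B
    show ((algebraMap B ↥L (σ (g : Gal(Ω/F)) ζB) : ↥L) : Ω) =
      ((algebraMap B ↥L (ζB ^ (omega hζ (g : Gal(Ω/F))).val) : ↥L) : Ω)
    rw [hσ (g : Gal(Ω/F)) ζB, hζB, map_pow, SubmonoidClass.coe_pow, hζB, omega_spec hζ]
  have hP := isKummerPairing_sub Γ' hζ hζL hroot B σ hσ 𝒜' χ hLΓ (p ^ 2 - 1) hχ hcont HB
  exact CWLocalQp2.rank_H1A_le_one_Qp2_of_fix hϖ hpe hN hζBp hζB1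
    (fun g : ↥Γ' => σ (g : Gal(Ω/F))) (c := fun g : ↥Γ' => c (g : Gal(Ω/F)))
    (fun g => hc (g : Gal(Ω/F))) hm hp3 hP (not_dvd_index_GLsub Γ' hLΓ hidx)
    (fun g => (ZMod.natCast_zmod_val _).symm) (fun g => omega_ne_zero hζ _) hχ1 hg₀ ht hside hfix2

include hζL hroot hσ hϖ hpe hN hc hp3 hidx hLΓ hχ hcont HB in
/-- **(CW1) over `Γ'`, `ℚ_{p²}`-shape**, with the side condition at some `t = g₀ ^ n * s`,
`s ∈ G_L` (the shape of `hHμ` of `IndPackage`): `χ t ≠ 1`, `χ t ≠ ω t`. -/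
theorem rank_H1A_le_one_sub_of_exists {g₀ : ↥Γ'}
    (hg₀ : ∀ y, ResidueField.map ((σ (g₀ : Gal(Ω/F)) : B ≃+* B) : B →+* B) y = y)
    (ht : orderOf (residue B (c (g₀ : Gal(Ω/F)))) = p ^ 2 - 1)
    (hfix2 : ∀ b : ResidueField B,
      (∀ g : ↥Γ', ResidueField.map ((σ (g : Gal(Ω/F)) : B ≃+* B) : B →+* B) b = b) →
        b ^ (p * p) = b)
    {t : ↥Γ'} (htg : ∃ (n : ℕ) (s : ↥Γ'), s ∈ GLsub (L := L) Γ' ∧ t = g₀ ^ n * s)
    (ht1 : (χ t : k) ≠ 1)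
    (htω : (χ t : k) ≠ (((omega hζ (t : Gal(Ω/F))).val : ℕ) : k)) :
    Module.rank k (H1A 𝒜' χ) ≤ 1 := by
  have hχ1 : χ ≠ 1 := by
    rintro rfl
    exact ht1 (by rw [MonoidHom.one_apply, Units.val_one])
  exact rank_H1A_le_one_sub Γ' hζ hζL hroot B σ hσ hϖ hpe hN hc hp3 hidx hLΓ 𝒜' χ hχ hcont HB
    hχ1 hg₀ ht (side_of_exists Γ' hζ hζL χ hχ htg htω) hfix2

omit hχ hcont HB in
include hζL hroot hσ hϖ hpe hN hc hp3 hidx hLΓ in
/-- **(CW1) over `Γ'` for the trivial character, `ℚ_{p²}`-shape**: admissible additive characters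
of `Γ'` have `k`-rank `≤ 1` (input `hrank` of `HinvLev2.hinv_lev_two`). -/
theorem rank_H1A_one_le_one_sub
    (hcont : ∀ f ∈ 𝒜', ∃ E : IntermediateField F Ω, FiniteDimensional F E ∧
      ∀ (g t : ↥Γ'), (t : Gal(Ω/F)) ∈ E.fixingSubgroup → f (g * t) = f g)
    (HB1 : ∀ u ∈ Z1A 𝒜' (1 : ↥Γ' →* kˣ), ∀ (l : k →+ ZMod p) (x : (↥L)ˣ) (α : Ω),
      α ^ p = ((x : ↥L) : Ω) →
      (∀ s : GLsub (L := L) Γ', ((s : ↥Γ') : Gal(Ω/F)) α = ζ ^ (l (u s)).val * α) →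
      ∃ (z : (↥L)ˣ) (b : Bˣ), b ∈ principalUnits B (p ^ 2 - 1) ∧ unitsIncl L B b = x * z ^ p)
    {g₀ : ↥Γ'}
    (hg₀ : ∀ y, ResidueField.map ((σ (g₀ : Gal(Ω/F)) : B ≃+* B) : B →+* B) y = y)
    (ht : orderOf (residue B (c (g₀ : Gal(Ω/F)))) = p ^ 2 - 1)
    (hside : omega hζ (g₀ : Gal(Ω/F)) ≠ 1) :
    Module.rank k (H1A 𝒜' (1 : ↥Γ' →* kˣ)) ≤ 1 := by
  haveI : NeZero p := ⟨(Fact.out : p.Prime).ne_zero⟩
  obtain ⟨ζB, hζB, hζBp, hζB1⟩ := CWAssembly.exists_zetaB hζ hζL B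
  have hm : ∀ g : ↥Γ', σ (g : Gal(Ω/F)) ζB = ζB ^ (omega hζ (g : Gal(Ω/F))).val := by
    intro g
    apply CWAssembly.coe_algebraMap_injective (L := L) B
    show ((algebraMap B ↥L (σ (g : Gal(Ω/F)) ζB) : ↥L) : Ω) =
      ((algebraMap B ↥L (ζB ^ (omega hζ (g : Gal(Ω/F))).val) : ↥L) : Ω)
    rw [hσ (g : Gal(Ω/F)) ζB, hζB, map_pow, SubmonoidClass.coe_pow, hζB, omega_spec hζ]
  have hP := isKummerPairing_sub Γ' hζ hζL hroot B σ hσ 𝒜' (1 : ↥Γ' →* kˣ) hLΓ (p ^ 2 - 1)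
    (fun s _ => rfl) hcont HB1
  exact CWLocalQp2.rank_H1A_one_le_one_Qp2 hϖ hpe hN hζBp hζB1
    (fun g : ↥Γ' => σ (g : Gal(Ω/F))) (c := fun g : ↥Γ' => c (g : Gal(Ω/F)))
    (fun g => hc (g : Gal(Ω/F))) hm hp3 hP (not_dvd_index_GLsub Γ' hLΓ hidx) hg₀ ht hside

end Fermat.Agent.S56x.Local.CWAssemblyQp2
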