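import Mathlib
import Fermat.Agent.S56x.Local.CWLocal

/-!
# P-S56, block (A) (helper48): the pure count in the `ℚ_p`-shape (no Kummer pairing)

The counting halves of `CWLocal.rank_H1A_le_one_Qp` / `rank_H1A_eq_zero_Qp`, as statements about
`#Hom_Γ(N, W_{p-1})` alone (`N = k^∨(ω χ⁻¹)`, `W_{p-1} = W B p (p - 1) ≤ Bˣ ⧸ (Bˣ)^p`), to be
transported to `Lˣ ⧸ (Lˣ)^p` by `FiltrationTransport` and consumed by `CWAssembly`.

* `card_eqHom_W_le_card_Qp` : `#Hom_Γ(N, W_{p-1}) ≤ #k`;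
* `card_eqHom_W_le_one_Qp`  : `#Hom_Γ(N, W_{p-1}) ≤ 1` if `χ ≠ 1` and `χ ≠ ω` on inertia.
-/

set_option autoImplicit false
set_option linter.unusedSectionVars false
set_option linter.style.haveILetI false

open IsLocalRing

namespace Fermat.Agent.S56x.Local.CWCountQp

open Fermat.Agent.Lib.CFT.Local.UnitsFiltration Fermat.Agent.S56x.Local.WbFiltration
  Fermat.Agent.S56x.Local.WbCount Fermat.Agent.S56x.Local.FiltrationCount
  Fermat.Agent.S56x.Local.CWAbstract Fermat.Agent.S56x.Local.HomCountBasic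
  Fermat.Agent.S56x.Local.CWLocal

variable {B : Type*} [CommRing B] [IsDomain B] [IsDiscreteValuationRing B]
  [Finite (ResidueField B)]
  {ϖ : B} (hϖ : Irreducible ϖ) {p : ℕ} [hpF : Fact p.Prime] {c₀ : Bˣ}
  (hpe : (p : B) = c₀ * ϖ ^ (p - 1))
  {N₀ : ℕ} (hN : principalUnits B N₀ ≤ pthPowers B p)
  {ζ : B} (hζ : ζ ^ p = 1) (hζ1 : ζ ≠ 1)
  {Γ : Type*} [Group Γ] (σ : Γ → B ≃+* B) {c : Γ → B} (hc : ∀ g, σ g ϖ = c g * ϖ)
  {m : Γ → ℕ} (hm : ∀ g, σ g ζ = ζ ^ m g)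
  {k : Type*} [Field k] [Finite k] [CharP k p]
  (χ : Γ →* kˣ) {ω : Γ → ZMod p}

include hϖ hpe hN hζ hζ1 hc hm in
/-- the count with the single graded piece `j = p - 1` and the top piece. -/
theorem card_eqHom_W_le_mul (hp2 : 2 ≤ p - 1) :
    Finite (eqHom (A := Bˣ ⧸ pthPowers B p) (twistN χ ω) (actA p σ) (W B p (p - 1))) ∧
      Nat.card (eqHom (A := Bˣ ⧸ pthPowers B p) (twistN χ ω) (actA p σ) (W B p (p - 1))) ≤
        Nat.card (eqHom (twistN χ ω) (actK σ c (p - 1)) ⊤)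
          * Nat.card (eqHom (twistN χ ω) (actOmega p m) ⊤) := by
  have hp := hpF.out
  have hcrit : p * 1 = 1 + (p - 1) := by omega
  obtain ⟨hfin, -⟩ := card_eqHom_W_le hϖ hp hpe (by omega) le_rfl hcrit hN hζ hζ1 σ hc hm
    (twistN χ ω) (a := p - 1) (by omega) (by omega)
  have hcard := card_eqHom_W_le' hϖ hp hpe (by omega) le_rfl hcrit hN hζ hζ1 σ hc hm
    (twistN χ ω) (a := p - 1) (by omega) (by omega)
  rw [filter_Ico_eq (by omega), Finset.prod_singleton] at hcard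
  exact ⟨hfin, hcard⟩

include hϖ hpe hN hζ hζ1 hc hm in
/-- **the count `≤ #k`, `ℚ_p`-shape.** -/
theorem card_eqHom_W_le_card_Qp (hp2 : 2 ≤ p - 1)
    (hω : ∀ g, ω g = (m g : ZMod p)) (hω0 : ∀ g, ω g ≠ 0)
    (hc1 : ∀ g, residue B (c g) ^ (p - 1) = 1)
    (hinert : ∃ g₀, (∀ y, ResidueField.map ((σ g₀ : B ≃+* B) : B →+* B) y = y) ∧ ω g₀ ≠ 1)
    (hHD1 : χ ≠ 1 → Nat.card (eqHom (twistN χ ω) (actK σ c (p - 1)) ⊤) ≤ Nat.card k) :
    Finite (eqHom (A := Bˣ ⧸ pthPowers B p) (twistN χ ω) (actA p σ) (W B p (p - 1))) ∧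
      Nat.card (eqHom (A := Bˣ ⧸ pthPowers B p) (twistN χ ω) (actA p σ) (W B p (p - 1)))
        ≤ Nat.card k := by
  obtain ⟨hfin, hcard⟩ := card_eqHom_W_le_mul hϖ hpe hN hζ hζ1 σ hc hm χ (ω := ω) hp2
  refine ⟨hfin, le_trans hcard ?_⟩
  by_cases hχ : χ = 1
  · obtain ⟨g₀, hg₀, hωg₀⟩ := hinert
    have h1 := (card_eqHom_le_one_of_inert χ ω (actK σ c (p - 1)) (g₀ := g₀)
      (fun y => by
        apply Multiplicative.toAdd.injective
        rw [actK_apply, hc1, one_mul, hg₀])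
      (by
        rw [hχ, MonoidHom.one_apply, Units.val_one, Ne, natCast_val_eq_one_iff]
        exact hωg₀)).2
    have h2 := (card_eqHom_omega_le χ ω (actOmega p m)).2
    calc _ ≤ 1 * Nat.card k := Nat.mul_le_mul h1 h2
      _ = Nat.card k := one_mul _
  · obtain ⟨g₁, hg₁⟩ : ∃ g₁, χ g₁ ≠ 1 := by
      by_contra hcon
      simp only [not_exists, not_not] at hcon
      exact hχ (MonoidHom.ext hcon)
    have h2 := (card_eqHom_omega_le_one χ ω (actOmega p m) (actOmega_toAdd hω)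
      (hω0 g₁) hg₁).2
    calc _ ≤ Nat.card k * 1 := Nat.mul_le_mul (hHD1 hχ) h2
      _ = Nat.card k := mul_one _

include hϖ hpe hN hζ hζ1 hc hm in
/-- **the count `≤ 1`, `ℚ_p`-shape**: `χ ≠ 1` and `χ ≠ ω` on inertia. -/
theorem card_eqHom_W_le_one_Qp (hp2 : 2 ≤ p - 1)
    (hω : ∀ g, ω g = (m g : ZMod p)) (hω0 : ∀ g, ω g ≠ 0)
    (hc1 : ∀ g, residue B (c g) ^ (p - 1) = 1)
    (hχ : χ ≠ 1)
    (hinert : ∃ g₀, (∀ y, ResidueField.map ((σ g₀ : B ≃+* B) : B →+* B) y = y) ∧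
      (((ω g₀).val : ℕ) : k) ≠ (χ g₀ : k)) :
    Finite (eqHom (A := Bˣ ⧸ pthPowers B p) (twistN χ ω) (actA p σ) (W B p (p - 1))) ∧
      Nat.card (eqHom (A := Bˣ ⧸ pthPowers B p) (twistN χ ω) (actA p σ) (W B p (p - 1)))
        ≤ 1 := by
  obtain ⟨hfin, hcard⟩ := card_eqHom_W_le_mul hϖ hpe hN hζ hζ1 σ hc hm χ (ω := ω) hp2
  refine ⟨hfin, le_trans hcard ?_⟩
  obtain ⟨g₀, hg₀, hne⟩ := hinert
  have h1 := (card_eqHom_le_one_of_inert χ ω (actK σ c (p - 1)) (g₀ := g₀)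
    (fun y => by
      apply Multiplicative.toAdd.injective
      rw [actK_apply, hc1, one_mul, hg₀]) hne).2
  obtain ⟨g₁, hg₁⟩ : ∃ g₁, χ g₁ ≠ 1 := by
    by_contra hcon
    simp only [not_exists, not_not] at hcon
    exact hχ (MonoidHom.ext hcon)
  have h2 := (card_eqHom_omega_le_one χ ω (actOmega p m) (actOmega_toAdd hω)
    (hω0 g₁) hg₁).2
  calc _ ≤ 1 * 1 := Nat.mul_le_mul h1 h2
    _ = 1 := one_mul _

end Fermat.Agent.S56x.Local.CWCountQp
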