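/-
P-S56, block (A) LOCAL FLAT, count side over `K_f = ℚ_p(μ_{p^f-1})` (helper19): the arithmetic half of
`CWPadicData` over `ℚ_{p^f}` (`f = 2`: the (IND) case, data of `CWLocalQp2.rank_H1A_le_one_Qp2_of_fix`).

`L/ℚ_p` finite Galois inside `PadicAlgCl p` with `K_f ≤ L`, `π ∈ L`, `π^(q-1) = -p` (`q = p^f`), such
that `Gal(L/K_f)` is abelian of exponent prime to `p` (as produced by
`TameFieldGalois.exists_galois_field`), and such that the residue elements fixed by `Gal(L/K_f)` satisfy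
`x^q = x` (`hfix`).  Then
* the inertia group of `Gal(L/ℚ_p)` has order `q - 1`, `π` is a uniformizer of `OE p L`;
* there is `g₀ ∈ Γ_f = lev p f` acting trivially on the residue field of `L` whose tame character
  value `residue (g₀ π / π)` has order `q - 1`, and which generates the inertia group of `Gal(L/ℚ_p)`;
* `p ∤ [Γ_f : G_L]`.
-/
import Mathlib
import Fermat.Agent.S56x.Local.TameFieldGalois
import Fermat.Agent.S56x.Local.CWPadicOps
import Fermat.Agent.S56x.Local.PadicE0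
import Fermat.Agent.S56x.Local.InertGenerator
import Fermat.Agent.S56x.Local.CycloInertiaP
import Fermat.Agent.S56x.Local.TameRepPadicInertia
import Fermat.Agent.S56x.Local.UnitFiltration
import Fermat.Agent.S56x.Local.WbFiltration

set_option autoImplicit false
set_option linter.unusedSectionVars false
set_option linter.style.haveILetI false

open IsLocalRing

namespace Fermat.Agent.S56x.Local.CWPadicDataQp2

open Fermat.Agent.S56x.Local.PadicFinite Fermat.Agent.S56x.Local.UnrLevels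
  Fermat.Agent.S56x.Local.CWPadicOps Fermat.Agent.S56x.Local.BddDef
  Fermat.Agent.S56x.Ram Fermat.Agent.S56x.Ram.TameStructure

variable {p : ℕ} [Fact p.Prime]

local notation "Ω" => PadicAlgCl p
local notation "Gp" => (PadicAlgCl p ≃ₐ[ℚ_[p]] PadicAlgCl p)

/-! ### Norms and the maximal ideal -/

section Norm

variable {E : IntermediateField ℚ_[p] (PadicAlgCl p)} [FiniteDimensional ℚ_[p] E]

theorem mem_maximalIdeal_iff_norm_lt_one (x : OE p E) :
    x ∈ maximalIdeal (OE p E) ↔ ‖(x : E)‖ < 1 := by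
  rw [mem_maximalIdeal, mem_nonunits_iff, isUnit_iff_norm_eq_one]
  constructor
  · intro h
    exact lt_of_le_of_ne (norm_le_one x) h
  · intro h
    exact h.ne

end Norm

/-! ### Inert elements lie in `Γ_f` -/

section Inert

variable (L : IntermediateField ℚ_[p] (PadicAlgCl p)) [FiniteDimensional ℚ_[p] L]
  [Normal ℚ_[p] L]

theorem norm_sub_lt_one_of_inert {g : Gp}
    (hg : ∀ b : OE p L, resL L g • b - b ∈ maximalIdeal (OE p L)) {x : Ω} (hxL : x ∈ L)
    (hx : ‖x‖ ≤ 1) : ‖g x - x‖ < 1 := by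
  have hx' : ‖(⟨x, hxL⟩ : L)‖ ≤ 1 := hx
  have h := hg ⟨⟨x, hxL⟩, mem_OE.mpr hx'⟩
  rw [mem_maximalIdeal_iff_norm_lt_one] at h
  have h2 : ((((resL L g • (⟨⟨x, hxL⟩, mem_OE.mpr hx'⟩ : OE p L) -
      (⟨⟨x, hxL⟩, mem_OE.mpr hx'⟩ : OE p L) : OE p L)) : L) : Ω) = g x - x := by
    push_cast
    rw [coe_smul_OE, coe_resL]
  rw [← h2]
  exact h

/-- an element acting trivially on the residue field of `L ⊇ K_f` lies in `Γ_f`. -/
theorem mem_lev_of_inert {f : ℕ} (hf : 0 < f) (hK : unrField p f ≤ L) {g : Gp}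
    (hg : ∀ b : OE p L, resL L g • b - b ∈ maximalIdeal (OE p L)) : g ∈ lev p f := by
  have hp : p.Prime := Fact.out
  rw [mem_lev_iff]
  intro z hz
  have hN : ¬ p ∣ p ^ f - 1 := by
    intro hdvd
    have h1 : p ∣ p ^ f := dvd_pow_self p hf.ne'
    have hpos : 0 < p ^ f := pow_pos hp.pos f
    have h2 : p ∣ p ^ f - (p ^ f - 1) := Nat.dvd_sub h1 hdvd
    have h3 : p ^ f - (p ^ f - 1) = 1 := by omega
    rw [h3] at h2
    exact hp.one_lt.ne' (Nat.dvd_one.mp h2)
  have hN0 : p ^ f - 1 ≠ 0 := fun h0 => hN (h0 ▸ dvd_zero p)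
  have hzL : z ∈ L := hK (IntermediateField.subset_adjoin _ _ hz)
  have hz1 : ‖z‖ = 1 := CycloInertiaP.norm_eq_one_of_pow_eq_one p hN0 hz
  have hgz : (g z) ^ (p ^ f - 1) = 1 := by rw [← map_pow, hz, map_one]
  exact CycloInertiaP.eq_of_norm_sub_lt_one p hN hgz hz
    (norm_sub_lt_one_of_inert L hg hzL hz1.le)

end Inert

/-! ### `Gal(L/K_f)` inside `Gal(L/ℚ_p)` -/

section GalK

variable (L : IntermediateField ℚ_[p] (PadicAlgCl p)) [FiniteDimensional ℚ_[p] L]
  [Normal ℚ_[p] L] (f : ℕ)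

/-- `Gal(L/K_f)` as a subgroup of `Gal(L/ℚ_p)`: the image of `Γ_f`. -/
noncomputable def galK : Subgroup (L ≃ₐ[ℚ_[p]] L) := (lev p f).map (resL L)

theorem mem_galK {a : L ≃ₐ[ℚ_[p]] L} : a ∈ galK L f ↔ ∃ g ∈ lev p f, resL L g = a :=
  Subgroup.mem_map

variable {L f}

theorem galK_comm
    (hab : ∀ g h : Gp, g ∈ lev p f → h ∈ lev p f → g * h * g⁻¹ * h⁻¹ ∈ L.fixingSubgroup)
    {a b : L ≃ₐ[ℚ_[p]] L} (ha : a ∈ galK L f) (hb : b ∈ galK L f) : a * b = b * a := by
  obtain ⟨g, hg, rfl⟩ := ha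
  obtain ⟨h, hh, rfl⟩ := hb
  have h1 := (resL_eq_one_iff L _).mpr (hab g h hg hh)
  rw [map_mul, map_mul, map_mul, map_inv, map_inv] at h1
  have h2 := congrArg (fun x => x * resL L h * resL L g) h1
  simpa [mul_assoc] using h2

theorem galK_pow {n : ℕ} (hpow : ∀ g ∈ lev p f, g ^ n ∈ L.fixingSubgroup)
    {a : L ≃ₐ[ℚ_[p]] L} (ha : a ∈ galK L f) : a ^ n = 1 := by
  obtain ⟨g, hg, rfl⟩ := ha
  rw [← map_pow]
  exact (resL_eq_one_iff L _).mpr (hpow g hg)

theorem not_dvd_card_galK {n : ℕ} (hn : Nat.Coprime n p)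
    (hpow : ∀ g ∈ lev p f, g ^ n ∈ L.fixingSubgroup) : ¬ p ∣ Nat.card ↥(galK L f) := by
  intro hdvd
  haveI : Finite (L ≃ₐ[ℚ_[p]] L) := inferInstance
  obtain ⟨a, ha⟩ := exists_prime_orderOf_dvd_card' p hdvd
  have h1 : a ^ n = 1 := Subtype.ext (by
    rw [Subgroup.coe_pow, Subgroup.coe_one]
    exact galK_pow hpow a.2)
  have h2 : p ∣ n := ha ▸ orderOf_dvd_of_pow_eq_one h1
  have hp : p.Prime := Fact.out
  have h3 : p ∣ Nat.gcd n p := Nat.dvd_gcd h2 dvd_rfl
  rw [hn] at h3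
  exact hp.one_lt.ne' (Nat.dvd_one.mp h3)

theorem inertia_le_galK (hf : 0 < f) (hK : unrField p f ≤ L) :
    lowerGroup (L ≃ₐ[ℚ_[p]] L) (OE p L) 1 ≤ galK L f := by
  intro σ hσ
  obtain ⟨g, rfl⟩ := resL_surjective L σ
  refine ⟨g, mem_lev_of_inert L hf hK (fun b => ?_), rfl⟩
  have := mem_lowerGroup.mp hσ b
  rwa [pow_one] at this

theorem not_dvd_card_inertia (hf : 0 < f) (hK : unrField p f ≤ L) {n : ℕ} (hn : Nat.Coprime n p)
    (hpow : ∀ g ∈ lev p f, g ^ n ∈ L.fixingSubgroup) :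
    (Nat.card ↥(lowerGroup (L ≃ₐ[ℚ_[p]] L) (OE p L) 1)).Coprime p := by
  have hp : p.Prime := Fact.out
  rw [Nat.coprime_comm, hp.coprime_iff_not_dvd]
  intro hdvd
  exact not_dvd_card_galK hn hpow
    (hdvd.trans (Subgroup.card_dvd_of_le (inertia_le_galK hf hK)))

end GalK

/-! ### The order of the inertia group divides `q - 1` -/

section Exponent

variable {L : IntermediateField ℚ_[p] (PadicAlgCl p)} [FiniteDimensional ℚ_[p] L]
  [Normal ℚ_[p] L] {f : ℕ}

/-- the fixed-field hypothesis in elementwise form. -/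
theorem pow_sub_mem_of_fix
    (hfix : ∀ b : ResidueField (OE p L),
      (∀ g ∈ lev p f, ResidueField.map ((sigmaOE L g : OE p L ≃+* OE p L) : OE p L →+* OE p L) b = b) →
        b ^ (p ^ f) = b)
    {x : OE p L} (hx : ∀ a ∈ galK L f, a • x - x ∈ maximalIdeal (OE p L)) :
    x ^ (p ^ f) - x ∈ maximalIdeal (OE p L) := by
  rw [← residue_eq_zero_iff, map_sub, map_pow, sub_eq_zero]
  refine hfix _ (fun g hg => ?_)
  rw [ResidueField.map_residue]
  have h1 := hx (resL L g) ⟨g, hg, rfl⟩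
  rw [← residue_eq_zero_iff, map_sub, sub_eq_zero] at h1
  exact h1

variable (hf : 0 < f) (hK : unrField p f ≤ L)
  (hab : ∀ g h : (PadicAlgCl p ≃ₐ[ℚ_[p]] PadicAlgCl p), g ∈ lev p f → h ∈ lev p f →
    g * h * g⁻¹ * h⁻¹ ∈ L.fixingSubgroup)
  (hfix : ∀ b : ResidueField (OE p L),
    (∀ g ∈ lev p f, ResidueField.map ((sigmaOE L g : OE p L ≃+* OE p L) : OE p L →+* OE p L) b = b) →
      b ^ (p ^ f) = b)
  {ϖ : OE p L} (hϖ : Irreducible ϖ)

include hf hK hab hfix in
theorem theta_pow_eq_one (σ : ↥(lowerGroup (L ≃ₐ[ℚ_[p]] L) (OE p L) 1)) :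
    theta hϖ σ ^ (p ^ f - 1) = 1 := by
  have hp : p.Prime := Fact.out
  have hq : 1 ≤ p ^ f := Nat.one_le_pow _ _ hp.pos
  have hσK : (σ : L ≃ₐ[ℚ_[p]] L) ∈ galK L f := inertia_le_galK hf hK σ.2
  have h1 := pow_sub_mem_of_fix hfix (x := ((unitOf hϖ (σ : L ≃ₐ[ℚ_[p]] L) : (OE p L)ˣ) : OE p L))
    (fun a ha => by
      have h := residue_unitOf_conj hϖ a σ.2
      rw [galK_comm hab ha hσK, mul_inv_cancel_right] at h
      rw [← residue_eq_zero_iff, map_sub, ← h, sub_self])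
  rw [← residue_eq_zero_iff, map_sub, map_pow, sub_eq_zero] at h1
  have hne : residue (OE p L) ((unitOf hϖ (σ : L ≃ₐ[ℚ_[p]] L) : (OE p L)ˣ) : OE p L) ≠ 0 := by
    rw [Ne, residue_eq_zero_iff]
    exact fun h => (mem_maximalIdeal _).mp h (unitOf hϖ (σ : L ≃ₐ[ℚ_[p]] L)).isUnit
  rw [theta_apply]
  have h2 : residue (OE p L) ((unitOf hϖ (σ : L ≃ₐ[ℚ_[p]] L) : (OE p L)ˣ) : OE p L) ^ (p ^ f - 1)
      * residue (OE p L) ((unitOf hϖ (σ : L ≃ₐ[ℚ_[p]] L) : (OE p L)ˣ) : OE p L)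
      = 1 * residue (OE p L) ((unitOf hϖ (σ : L ≃ₐ[ℚ_[p]] L) : (OE p L)ˣ) : OE p L) := by
    rw [← pow_succ, Nat.sub_add_cancel hq, one_mul]
    exact h1
  exact mul_right_cancel₀ hne h2

include hf hK hab hfix in
/-- **the order of the inertia group of `Gal(L/ℚ_p)` divides `q - 1`.** -/
theorem card_inertia_dvd {n : ℕ} (hn : Nat.Coprime n p)
    (hpow : ∀ g ∈ lev p f, g ^ n ∈ L.fixingSubgroup) :
    Nat.card ↥(lowerGroup (L ≃ₐ[ℚ_[p]] L) (OE p L) 1) ∣ p ^ f - 1 := by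
  obtain ⟨ϖ, hϖ⟩ := IsDiscreteValuationRing.exists_irreducible (OE p L)
  have hqB : ((p : ℕ) : OE p L) ∈ maximalIdeal (OE p L) := natCast_p_mem_maximalIdeal
  have hcop := not_dvd_card_inertia hf hK hn hpow
  haveI : IsCyclic ↥(lowerGroup (L ≃ₐ[ℚ_[p]] L) (OE p L) 1) :=
    InertGenerator.isCyclic_inertia hϖ hqB hcop
  rw [← IsCyclic.exponent_eq_card]
  refine Monoid.exponent_dvd_of_forall_pow_eq_one (fun σ => ?_)
  have h := theta_pow_eq_one hf hK hab hfix hϖ σ
  rw [← map_pow, ← map_one (theta (G := (L ≃ₐ[ℚ_[p]] L)) hϖ)] at h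
  exact InertGenerator.theta_injective hϖ hqB hcop h

end Exponent

/-! ### `e(L/ℚ_p) = q - 1` and the uniformizer `π` -/

section Uniformizer

variable {L : IntermediateField ℚ_[p] (PadicAlgCl p)} [FiniteDimensional ℚ_[p] L]
  [IsGalois ℚ_[p] L] {f : ℕ}

theorem inertiaGroup_eq_lowerGroup_one :
    Fermat.Agent.Lib.CFT.Local.Unramified.inertiaGroup ℤ_[p] ℚ_[p] L (OE p L) =
      lowerGroup (L ≃ₐ[ℚ_[p]] L) (OE p L) 1 := by
  ext σ
  rw [PadicInertia.mem_inertiaGroup_iff_smul, mem_lowerGroup]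
  simp only [pow_one]

theorem card_inertia_eq_e0 :
    Nat.card ↥(lowerGroup (L ≃ₐ[ℚ_[p]] L) (OE p L) 1) = (ramNum p L).e0 := by
  rw [PadicE0.e0_eq_card_inertiaGroup, inertiaGroup_eq_lowerGroup_one]

/-- `π` as an element of `OE p L`. -/
theorem exists_piOE (hf : 0 < f) {π : Ω} (hπL : π ∈ L) (hπ : π ^ (p ^ f - 1) = -(p : Ω)) :
    ∃ ϖ : OE p L, ((ϖ : L) : Ω) = π ∧ ϖ ^ (p ^ f - 1) = -((p : ℕ) : OE p L) := by
  have hp : p.Prime := Fact.out
  have hq : 0 < p ^ f - 1 := TameFieldGalois.q_sub_one_pos hf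
  have hnorm : ‖π‖ ≤ 1 := by
    have h1 : ‖π‖ ^ (p ^ f - 1) = (p : ℝ)⁻¹ := by
      rw [← norm_pow, hπ, norm_neg]
      exact CycloInertiaP.norm_natCast_p p
    have h2 : ‖π‖ ^ (p ^ f - 1) ≤ 1 := by
      rw [h1]
      exact inv_le_one_of_one_le₀ (by exact_mod_cast hp.one_lt.le)
    exact (pow_le_one_iff_of_nonneg (norm_nonneg _) hq.ne').mp h2
  have hnorm' : ‖(⟨π, hπL⟩ : L)‖ ≤ 1 := hnorm
  refine ⟨⟨⟨π, hπL⟩, mem_OE.mpr hnorm'⟩, rfl, ?_⟩
  apply Subtype.ext
  apply Subtype.ext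
  push_cast
  exact hπ

variable (hf : 0 < f) (hK : unrField p f ≤ L)
  (hab : ∀ g h : (PadicAlgCl p ≃ₐ[ℚ_[p]] PadicAlgCl p), g ∈ lev p f → h ∈ lev p f →
    g * h * g⁻¹ * h⁻¹ ∈ L.fixingSubgroup)
  (hfix : ∀ b : ResidueField (OE p L),
    (∀ g ∈ lev p f, ResidueField.map ((sigmaOE L g : OE p L ≃+* OE p L) : OE p L →+* OE p L) b = b) →
      b ^ (p ^ f) = b)
  {n : ℕ} (hn : Nat.Coprime n p)
  (hpow : ∀ g ∈ lev p f, g ^ n ∈ L.fixingSubgroup)
  {ϖ : OE p L} (hϖ : ϖ ^ (p ^ f - 1) = -((p : ℕ) : OE p L))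

include hf hK hab hfix hn hpow hϖ in
/-- **`e(L/ℚ_p) = q - 1` and `π` has valuation `1`.** -/
theorem e0_eq_and_addVal_eq_one :
    (ramNum p L).e0 = p ^ f - 1 ∧ IsDiscreteValuationRing.addVal (OE p L) ϖ = 1 := by
  have hq : 0 < p ^ f - 1 := TameFieldGalois.q_sub_one_pos hf
  have hdvd : (ramNum p L).e0 ∣ p ^ f - 1 := by
    rw [← card_inertia_eq_e0]
    exact card_inertia_dvd hf hK hab hfix hn hpow
  have hle : (ramNum p L).e0 ≤ p ^ f - 1 := Nat.le_of_dvd hq hdvd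
  have he0 : 0 < (ramNum p L).e0 := (ramNum p L).e0_pos
  have h1 : IsDiscreteValuationRing.addVal (OE p L) (ϖ ^ (p ^ f - 1)) =
      ((ramNum p L).e0 : ℕ∞) := by
    rw [hϖ, AddValuation.map_neg, PadicE0.addVal_p_eq_e0]
  rw [IsDiscreteValuationRing.addVal_pow] at h1
  generalize IsDiscreteValuationRing.addVal (OE p L) ϖ = a at h1 ⊢
  cases a with
  | top =>
    exfalso
    rw [nsmul_eq_mul, ENat.mul_top (by exact_mod_cast hq.ne')] at h1
    exact ENat.top_ne_natCast _ h1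
  | coe a =>
    have h2 : (p ^ f - 1) * a = (ramNum p L).e0 := by
      rw [nsmul_eq_mul] at h1
      exact_mod_cast h1
    have ha0 : a ≠ 0 := by
      rintro rfl
      rw [mul_zero] at h2
      omega
    have ha1 : a = 1 := by
      by_contra hne
      have h3 : 2 ≤ a := by omega
      have h4 : (p ^ f - 1) * 2 ≤ (p ^ f - 1) * a := Nat.mul_le_mul_left _ h3
      omega
    subst ha1
    rw [mul_one] at h2
    exact ⟨h2.symm, rfl⟩

include hf hK hab hfix hn hpow hϖ in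
/-- **`π` is a uniformizer of `OE p L`.** -/
theorem irreducible_pi : Irreducible ϖ :=
  PadicE0.irreducible_of_addVal_eq_one L
    (e0_eq_and_addVal_eq_one hf hK hab hfix hn hpow hϖ).2

include hf hK hab hfix hn hpow hϖ in
/-- **the inertia group of `Gal(L/ℚ_p)` has order `q - 1`.** -/
theorem card_inertia_eq :
    Nat.card ↥(lowerGroup (L ≃ₐ[ℚ_[p]] L) (OE p L) 1) = p ^ f - 1 := by
  rw [card_inertia_eq_e0]
  exact (e0_eq_and_addVal_eq_one hf hK hab hfix hn hpow hϖ).1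

end Uniformizer

/-! ### The inert generator and the index -/

section Generator

variable {L : IntermediateField ℚ_[p] (PadicAlgCl p)} [FiniteDimensional ℚ_[p] L]
  [IsGalois ℚ_[p] L] {f : ℕ}

theorem natCast_p_eq {ϖ : OE p L} (hϖ : ϖ ^ (p ^ f - 1) = -((p : ℕ) : OE p L)) :
    ((p : ℕ) : OE p L) = ((-1 : (OE p L)ˣ) : OE p L) * ϖ ^ (p ^ f - 1) := by
  rw [hϖ, Units.val_neg, Units.val_one]
  ring

variable (hf : 0 < f) (hK : unrField p f ≤ L)
  (hab : ∀ g h : (PadicAlgCl p ≃ₐ[ℚ_[p]] PadicAlgCl p), g ∈ lev p f → h ∈ lev p f →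
    g * h * g⁻¹ * h⁻¹ ∈ L.fixingSubgroup)
  (hfix : ∀ b : ResidueField (OE p L),
    (∀ g ∈ lev p f, ResidueField.map ((sigmaOE L g : OE p L ≃+* OE p L) : OE p L →+* OE p L) b = b) →
      b ^ (p ^ f) = b)
  {n : ℕ} (hn : Nat.Coprime n p)
  (hpow : ∀ g ∈ lev p f, g ^ n ∈ L.fixingSubgroup)
  {ϖ : OE p L} (hϖ : ϖ ^ (p ^ f - 1) = -((p : ℕ) : OE p L))

include hf hK hab hfix hn hpow hϖ in
/-- **the inert generator**: `g₀ ∈ Γ_f` acts trivially on the residue field of `L`, its tame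
character value `residue (g₀ π / π)` has order `q - 1`, and every element of `Gal(ℚ̄_p/ℚ_p)` acting
trivially on the residue field of `L` is a power of `g₀` modulo `G_L`. -/
theorem exists_inert_generator :
    ∃ g₀ : Gp, g₀ ∈ lev p f ∧
      (∀ y : ResidueField (OE p L),
        ResidueField.map ((sigmaOE L g₀ : OE p L ≃+* OE p L) : OE p L →+* OE p L) y = y) ∧
      (∀ c : OE p L, sigmaOE L g₀ ϖ = c * ϖ → orderOf (residue (OE p L) c) = p ^ f - 1) ∧
      (∀ t : Gp, (∀ b : OE p L, resL L t • b - b ∈ maximalIdeal (OE p L)) →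
        ∃ i : ℕ, (g₀ ^ i)⁻¹ * t ∈ L.fixingSubgroup) := by
  have hirr : Irreducible ϖ := irreducible_pi hf hK hab hfix hn hpow hϖ
  have hcard := card_inertia_eq hf hK hab hfix hn hpow hϖ
  have hqB : ((p : ℕ) : OE p L) ∈ maximalIdeal (OE p L) := natCast_p_mem_maximalIdeal
  have hcop := not_dvd_card_inertia hf hK hn hpow
  obtain ⟨σ₀, hσ₀, hord, hgen, -⟩ := InertGenerator.exists_inert_generator hirr hqB hcop
  obtain ⟨g₀, rfl⟩ := resL_surjective L σ₀
  have hinert : ∀ b : OE p L, resL L g₀ • b - b ∈ maximalIdeal (OE p L) := by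
    intro b
    have := mem_lowerGroup.mp hσ₀ b
    rwa [pow_one] at this
  refine ⟨g₀, mem_lev_of_inert L hf hK hinert,
    (residueField_map_sigmaOE_eq_iff L g₀).mpr hinert, fun c hc => ?_, fun t ht => ?_⟩
  · rw [← hcard]
    exact hord c hc
  · have htI : resL L t ∈ lowerGroup (L ≃ₐ[ℚ_[p]] L) (OE p L) 1 := by
      rw [mem_lowerGroup]
      intro b
      rw [pow_one]
      exact ht b
    have h1 := hgen _ htI
    haveI : Finite (L ≃ₐ[ℚ_[p]] L) := inferInstance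
    rw [← mem_powers_iff_mem_zpowers] at h1
    obtain ⟨i, hi⟩ := Submonoid.mem_powers_iff _ _ |>.mp h1
    refine ⟨i, ?_⟩
    rw [← resL_eq_one_iff, map_mul, map_inv, map_pow, hi, inv_mul_cancel]

include hn hpow in
/-- **`p ∤ [Γ_f : G_L]`.** -/
theorem not_dvd_index : ¬ p ∣ (L.fixingSubgroup.subgroupOf (lev p f)).index := by
  set φ : ↥(lev p f) →* ↥((lev p f).map (resL L)) := (resL L).subgroupMap (lev p f) with hφ
  have hsurj : Function.Surjective φ := (resL L).subgroupMap_surjective (lev p f)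
  have hker : φ.ker = L.fixingSubgroup.subgroupOf (lev p f) := by
    ext g
    rw [MonoidHom.mem_ker, Subgroup.mem_subgroupOf, ← resL_eq_one_iff]
    constructor
    · intro h
      have := congrArg (fun x : ↥((lev p f).map (resL L)) => (x : L ≃ₐ[ℚ_[p]] L)) h
      exact this
    · intro h
      exact Subtype.ext h
  rw [← hker, Subgroup.index_ker, MonoidHom.range_eq_top.mpr hsurj, Subgroup.card_top]
  exact not_dvd_card_galK hn hpow

end Generator

/-! ### The residue elements fixed by `Gal(L/K_f)` -/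

section ResidueFix

variable (L : IntermediateField ℚ_[p] (PadicAlgCl p)) [FiniteDimensional ℚ_[p] L]
  [IsGalois ℚ_[p] L] {f : ℕ}

/-- a Frobenius element of `Gal(ℚ̄_p/ℚ_p)` relative to `L`. -/
theorem exists_frobenius :
    ∃ φ : Gp, ∀ b : OE p L, resL L φ • b - b ^ p ∈ maximalIdeal (OE p L) := by
  obtain ⟨φ, hφ, -⟩ := TameRepPadic.exists_padic_tame_relations p L
    (1 : (PadicAlgCl p ≃ₐ[ℚ_[p]] PadicAlgCl p) →* Unit) (fun _ _ => rfl)
  exact ⟨φ, hφ⟩

/-- **the residue elements fixed by `Gal(L/K_f)` lie in `𝔽_q`** (`hfix2` of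
`CWLocalQp2.rank_H1A_le_one_Qp2_of_fix` for `f = 2`). -/
theorem residue_fix (hf : 0 < f) (hK : unrField p f ≤ L) (b : ResidueField (OE p L))
    (hb : ∀ g ∈ lev p f,
      ResidueField.map ((sigmaOE L g : OE p L ≃+* OE p L) : OE p L →+* OE p L) b = b) :
    b ^ (p ^ f) = b := by
  have hp : p.Prime := Fact.out
  have hq : 1 ≤ p ^ f := Nat.one_le_pow _ _ hp.pos
  obtain ⟨φ, hφ⟩ := exists_frobenius L
  have hcop : (p ^ f - 1).Coprime p := by
    rw [Nat.coprime_comm, hp.coprime_iff_not_dvd]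
    intro hdvd
    have h1 : p ∣ p ^ f := dvd_pow_self p hf.ne'
    have h2 : p ∣ p ^ f - (p ^ f - 1) := Nat.dvd_sub h1 hdvd
    have h3 : p ^ f - (p ^ f - 1) = 1 := by omega
    rw [h3] at h2
    exact hp.one_lt.ne' (Nat.dvd_one.mp h2)
  have hφf : φ ^ f ∈ lev p f := by
    rw [mem_lev_iff]
    intro z hz
    have hzL : z ∈ L := hK (IntermediateField.subset_adjoin _ _ hz)
    have h := TameRepPadic.frob_pow_mul_apply_root (E := L) (φ := φ) (t := 1) hφ
      (one_mem _) f hcop hz hzL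
    rw [mul_one] at h
    rw [h]
    calc z ^ (p ^ f) = z ^ (p ^ f - 1 + 1) := by rw [Nat.sub_add_cancel hq]
      _ = z := by rw [pow_succ, hz, one_mul]
  obtain ⟨x, rfl⟩ := residue_surjective b
  have h1 := hb _ hφf
  rw [ResidueField.map_residue] at h1
  have h2 := TameRepPadic.frob_pow_smul_sub_mem (E := L) (φ' := resL L φ) hφ f x
  rw [← residue_eq_zero_iff, map_sub, sub_eq_zero, map_pow] at h2
  rw [← h2, ← h1]
  congr 1
  show (resL L φ ^ f) • x = sigmaOE L (φ ^ f) x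
  rw [sigmaOE_apply, map_pow]

end ResidueFix

/-! ### The tame level field as a definition -/

section TameField

open TameFieldGalois

/-- the tame level field of `TameFieldGalois.exists_galois_field`, as a definition. -/
noncomputable def tameField (f : ℕ) (H₀ : Subgroup (PadicAlgCl p ≃ₐ[ℚ_[p]] PadicAlgCl p))
    (ζ π : PadicAlgCl p) : IntermediateField ℚ_[p] (PadicAlgCl p) :=
  IntermediateField.fixedField (H₀.normalCore ⊓ stab f ζ π)

variable {f : ℕ} (hf : 0 < f) (H₀ : Subgroup (PadicAlgCl p ≃ₐ[ℚ_[p]] PadicAlgCl p))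
  (hopen : ∃ E : IntermediateField ℚ_[p] (PadicAlgCl p),
    FiniteDimensional ℚ_[p] E ∧ E.fixingSubgroup ≤ H₀)
  {ζ π : PadicAlgCl p} (hζ : IsPrimitiveRoot ζ p) (hπ : π ^ (p ^ f - 1) = -(p : PadicAlgCl p))

include hf hopen hζ hπ in
/-- the fixing subgroup of the tame level field. -/
theorem tameField_spec :
    FiniteDimensional ℚ_[p] (tameField f H₀ ζ π) ∧ IsGalois ℚ_[p] (tameField f H₀ ζ π) ∧
      (tameField f H₀ ζ π).fixingSubgroup = H₀.normalCore ⊓ stab f ζ π := by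
  have hp : p.Prime := Fact.out
  obtain ⟨E, hEfin, hE⟩ := hopen
  haveI hlevn := lev_normal (q := p) hf
  haveI hstabn := stab_normal hf hζ hπ
  set H : Subgroup Gp := H₀.normalCore ⊓ stab f ζ π with hH
  haveI hHn : H.Normal := Subgroup.normal_inf_normal _ _
  haveI := finiteDimensional_unrField (q := p) hf
  have hζint : IsIntegral ℚ_[p] ζ := (Algebra.IsIntegral.isIntegral ζ)
  have hπint : IsIntegral ℚ_[p] π := (Algebra.IsIntegral.isIntegral π)
  haveI hfinζ : FiniteDimensional ℚ_[p] (IntermediateField.adjoin ℚ_[p] {ζ}) :=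
    IntermediateField.adjoin.finiteDimensional hζint
  haveI hfinπ : FiniteDimensional ℚ_[p] (IntermediateField.adjoin ℚ_[p] {π}) :=
    IntermediateField.adjoin.finiteDimensional hπint
  set E₀ : IntermediateField ℚ_[p] Ω :=
    E ⊔ unrField p f ⊔ IntermediateField.adjoin ℚ_[p] {ζ} ⊔ IntermediateField.adjoin ℚ_[p] {π}
    with hE₀
  haveI : FiniteDimensional ℚ_[p] E₀ := by
    rw [hE₀]
    infer_instance
  obtain ⟨N, hNfin, hNnorm, hE₀N⟩ := exists_finite_normal_ge p E₀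
  haveI := hNfin
  haveI := hNnorm
  have hEN : E ≤ N := le_trans (le_trans (le_trans le_sup_left le_sup_left) le_sup_left) hE₀N
  have hKN : unrField p f ≤ N :=
    le_trans (le_trans (le_trans le_sup_right le_sup_left) le_sup_left) hE₀N
  have hζN : ζ ∈ N := hE₀N ((le_trans le_sup_right le_sup_left :
    IntermediateField.adjoin ℚ_[p] {ζ} ≤ E₀) (IntermediateField.mem_adjoin_simple_self _ ζ))
  have hπN : π ∈ N := hE₀N ((le_sup_right :
    IntermediateField.adjoin ℚ_[p] {π} ≤ E₀) (IntermediateField.mem_adjoin_simple_self _ π))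
  haveI hNgal : IsGalois ℚ_[p] N := ⟨⟩
  haveI hNn : N.fixingSubgroup.Normal := (InfiniteGalois.normal_iff_isGalois N).mpr hNgal
  have hNH : N.fixingSubgroup ≤ H := by
    rw [hH]
    refine le_inf ?_ ?_
    · rw [Subgroup.normal_le_normalCore]
      exact le_trans (IntermediateField.fixingSubgroup_le hEN) hE
    · intro g hg
      rw [IntermediateField.mem_fixingSubgroup_iff] at hg
      rw [mem_stab]
      refine ⟨?_, hg ζ hζN, hg π hπN⟩
      show g ∈ (unrField p f).fixingSubgroup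
      rw [IntermediateField.mem_fixingSubgroup_iff]
      exact fun x hx => hg x (hKN hx)
  have hHclosed : IsClosed (H : Set Gp) := isClosed_of_fixingSubgroup_le hNH
  have hLfix : (tameField f H₀ ζ π).fixingSubgroup = H :=
    InfiniteGalois.fixingSubgroup_fixedField ⟨H, hHclosed⟩
  have hLN : tameField f H₀ ζ π ≤ N := by
    have h1 : IntermediateField.fixedField H ≤ IntermediateField.fixedField N.fixingSubgroup :=
      IntermediateField.fixedField_le hNH
    rwa [InfiniteGalois.fixedField_fixingSubgroup] at h1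
  have hLfin : FiniteDimensional ℚ_[p] (tameField f H₀ ζ π) :=
    FiniteDimensional.of_injective (IntermediateField.inclusion hLN).toLinearMap
      (IntermediateField.inclusion hLN).injective
  have hLgal : IsGalois ℚ_[p] (tameField f H₀ ζ π) := by
    rw [← InfiniteGalois.normal_iff_isGalois, hLfix]
    exact hHn
  exact ⟨hLfin, hLgal, hLfix⟩

include hf hopen hζ hπ in
/-- the tame level field is contained in every Galois extension `E'` of `ℚ_p` containing `K_f`,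
`ζ`, `π` whose fixing subgroup lies in `H₀`. -/
theorem tameField_le (E' : IntermediateField ℚ_[p] (PadicAlgCl p)) [IsGalois ℚ_[p] E']
    (hE' : E'.fixingSubgroup ≤ H₀) (hK : unrField p f ≤ E') (hζE : ζ ∈ E') (hπE : π ∈ E') :
    tameField f H₀ ζ π ≤ E' := by
  haveI hn : E'.fixingSubgroup.Normal := (InfiniteGalois.normal_iff_isGalois E').mpr inferInstance
  have h1 : E'.fixingSubgroup ≤ H₀.normalCore ⊓ stab f ζ π := by
    refine le_inf ?_ ?_
    · rw [Subgroup.normal_le_normalCore]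
      exact hE'
    · intro g hg
      rw [IntermediateField.mem_fixingSubgroup_iff] at hg
      rw [mem_stab]
      refine ⟨?_, hg ζ hζE, hg π hπE⟩
      show g ∈ (unrField p f).fixingSubgroup
      rw [IntermediateField.mem_fixingSubgroup_iff]
      exact fun x hx => hg x (hK hx)
  have h2 : IntermediateField.fixedField (H₀.normalCore ⊓ stab f ζ π) ≤
      IntermediateField.fixedField E'.fixingSubgroup := IntermediateField.fixedField_le h1
  rwa [InfiniteGalois.fixedField_fixingSubgroup] at h2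

end TameField

/-! ### Properties of the tame level field -/

section TameFieldProps

open TameFieldGalois

variable {f : ℕ} (hf : 0 < f) (H₀ : Subgroup (PadicAlgCl p ≃ₐ[ℚ_[p]] PadicAlgCl p))
  (hopen : ∃ E : IntermediateField ℚ_[p] (PadicAlgCl p),
    FiniteDimensional ℚ_[p] E ∧ E.fixingSubgroup ≤ H₀)
  (hab : ∀ g h : (PadicAlgCl p ≃ₐ[ℚ_[p]] PadicAlgCl p), g ∈ lev p f → h ∈ lev p f →
    g * h * g⁻¹ * h⁻¹ ∈ H₀)
  {n : ℕ} (hn : Nat.Coprime n p)
  (hpow : ∀ g ∈ lev p f, g ^ n ∈ H₀)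
  {ζ π : PadicAlgCl p} (hζ : IsPrimitiveRoot ζ p) (hπ : π ^ (p ^ f - 1) = -(p : PadicAlgCl p))

include hf hopen hζ hπ in
theorem tameField_fixingSubgroup_le :
    (tameField f H₀ ζ π).fixingSubgroup ≤ H₀ ∧ (tameField f H₀ ζ π).fixingSubgroup ≤ lev p f := by
  obtain ⟨-, -, hfix⟩ := tameField_spec hf H₀ hopen hζ hπ
  rw [hfix]
  exact ⟨le_trans inf_le_left H₀.normalCore_le, fun g hg => (mem_stab.mp hg.2).1⟩

include hf hopen hζ hπ in
theorem tameField_mem :
    unrField p f ≤ tameField f H₀ ζ π ∧ ζ ∈ tameField f H₀ ζ π ∧ π ∈ tameField f H₀ ζ π := by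
  refine ⟨?_, ?_, ?_⟩
  · intro x hx
    rw [tameField, IntermediateField.mem_fixedField_iff]
    intro g hg
    have := (mem_stab.mp hg.2).1
    rw [lev, IntermediateField.mem_fixingSubgroup_iff] at this
    exact this x hx
  · rw [tameField, IntermediateField.mem_fixedField_iff]
    exact fun g hg => (mem_stab.mp hg.2).2.1
  · rw [tameField, IntermediateField.mem_fixedField_iff]
    exact fun g hg => (mem_stab.mp hg.2).2.2

include hf hopen hab hζ hπ in
theorem tameField_comm (g h : Gp) (hg : g ∈ lev p f) (hh : h ∈ lev p f) :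
    g * h * g⁻¹ * h⁻¹ ∈ (tameField f H₀ ζ π).fixingSubgroup := by
  obtain ⟨-, -, hfix⟩ := tameField_spec hf H₀ hopen hζ hπ
  haveI hlevn := lev_normal (q := p) hf
  rw [hfix]
  refine ⟨?_, commutator_mem_stab hf hζ hπ hg hh⟩
  intro x
  have e : x * (g * h * g⁻¹ * h⁻¹) * x⁻¹ =
      (x * g * x⁻¹) * (x * h * x⁻¹) * (x * g * x⁻¹)⁻¹ * (x * h * x⁻¹)⁻¹ := by group
  rw [e]
  exact hab _ _ (hlevn.conj_mem g hg x) (hlevn.conj_mem h hh x)

include hn in
theorem coprime_exponent (hf : 0 < f) : Nat.Coprime (n * ((p - 1) * (p ^ f - 1))) p := by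
  have hp : p.Prime := Fact.out
  refine Nat.Coprime.mul_left hn (Nat.Coprime.mul_left ?_ ?_)
  · rw [Nat.coprime_comm, hp.coprime_iff_not_dvd]
    intro hdvd
    have := Nat.le_of_dvd (by have := hp.two_le; omega) hdvd
    have := hp.two_le
    omega
  · rw [Nat.coprime_comm, hp.coprime_iff_not_dvd]
    intro hdvd
    have h1 : p ∣ p ^ f := dvd_pow_self p hf.ne'
    have h2 : p ∣ p ^ f - (p ^ f - 1) := Nat.dvd_sub h1 hdvd
    have h3 : p ^ f - (p ^ f - 1) = 1 := by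
      have := q_sub_one_pos (p := p) hf
      omega
    rw [h3] at h2
    exact hp.one_lt.ne' (Nat.dvd_one.mp h2)

include hf hopen hpow hζ hπ in
theorem tameField_pow (g : Gp) (hg : g ∈ lev p f) :
    g ^ (n * ((p - 1) * (p ^ f - 1))) ∈ (tameField f H₀ ζ π).fixingSubgroup := by
  obtain ⟨-, -, hfix⟩ := tameField_spec hf H₀ hopen hζ hπ
  haveI hlevn := lev_normal (q := p) hf
  rw [hfix]
  refine ⟨?_, ?_⟩
  · intro x
    have e : x * g ^ (n * ((p - 1) * (p ^ f - 1))) * x⁻¹ =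
        ((x * g * x⁻¹) ^ n) ^ ((p - 1) * (p ^ f - 1)) := by
      rw [← pow_mul, conj_pow]
    rw [e]
    exact H₀.pow_mem (hpow _ (hlevn.conj_mem g hg x)) _
  · rw [mul_comm n, pow_mul]
    exact (stab f ζ π).pow_mem (pow_mem_stab hf hζ hπ hg) n

end TameFieldProps

/-! ### The packaged data -/

section Main

open Fermat.Agent.Lib.CFT.Local.UnitsFiltration

variable (L : IntermediateField ℚ_[p] (PadicAlgCl p)) [FiniteDimensional ℚ_[p] L]
  [IsGalois ℚ_[p] L] {f : ℕ}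

/-- comparison with the inertia subgroup relative to a larger field. -/
theorem inert_of_mem_inertiaE (E : IntermediateField ℚ_[p] (PadicAlgCl p))
    [FiniteDimensional ℚ_[p] E] [IsGalois ℚ_[p] E] (hLE : L ≤ E) {t : Gp}
    (ht : t ∈ TameRepPadic.inertiaE p E) (b : OE p L) :
    resL L t • b - b ∈ maximalIdeal (OE p L) := by
  rw [mem_maximalIdeal_iff_norm_lt_one]
  have hbE : (((b : L) : Ω)) ∈ E := hLE (b : L).2
  have hnorm : ‖(⟨((b : L) : Ω), hbE⟩ : E)‖ ≤ 1 := norm_le_one b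
  have h := TameRepPadic.norm_sub_lt_one_of_mem_inertiaE p E ht ⟨((b : L) : Ω), hbE⟩ hnorm
  have h2 : ((((resL L t • b - b : OE p L)) : L) : Ω) = t ((b : L) : Ω) - ((b : L) : Ω) := by
    push_cast
    rw [coe_smul_OE, coe_resL]
  show ‖((((resL L t • b - b : OE p L)) : L) : Ω)‖ < 1
  rw [h2]
  exact h

/-- **`CWPadicData` over `K_f`**: the uniformizer `π`, the relation `p = -π^(q-1)`, the bound `N₀`
for the `p`-th powers, the inert generator `g₀`. -/
theorem exists_cw_data (hf : 0 < f) (hK : unrField p f ≤ L)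
    (hab : ∀ g h : Gp, g ∈ lev p f → h ∈ lev p f → g * h * g⁻¹ * h⁻¹ ∈ L.fixingSubgroup)
    {n : ℕ} (hn : Nat.Coprime n p) (hpow : ∀ g ∈ lev p f, g ^ n ∈ L.fixingSubgroup)
    {π : Ω} (hπL : π ∈ L) (hπ : π ^ (p ^ f - 1) = -(p : Ω)) :
    ∃ (ϖ : OE p L) (g₀ : Gp) (N₀ : ℕ), ((ϖ : L) : Ω) = π ∧ Irreducible ϖ ∧
      ((p : ℕ) : OE p L) = ((-1 : (OE p L)ˣ) : OE p L) * ϖ ^ (p ^ f - 1) ∧
      principalUnits (OE p L) N₀ ≤ WbFiltration.pthPowers (OE p L) p ∧
      g₀ ∈ lev p f ∧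
      (∀ y : ResidueField (OE p L),
        ResidueField.map ((sigmaOE L g₀ : OE p L ≃+* OE p L) : OE p L →+* OE p L) y = y) ∧
      (∀ c : OE p L, sigmaOE L g₀ ϖ = c * ϖ → orderOf (residue (OE p L) c) = p ^ f - 1) ∧
      (∀ t : Gp, (∀ b : OE p L, resL L t • b - b ∈ maximalIdeal (OE p L)) →
        ∃ i : ℕ, (g₀ ^ i)⁻¹ * t ∈ L.fixingSubgroup) := by
  have hp : p.Prime := Fact.out
  obtain ⟨ϖ, hϖπ, hϖ⟩ := exists_piOE (L := L) hf hπL hπ
  have hfix := residue_fix L hf hK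
  have hirr : Irreducible ϖ := irreducible_pi hf hK hab hfix hn hpow hϖ
  obtain ⟨g₀, h1, h2, h3, h4⟩ := exists_inert_generator hf hK hab hfix hn hpow hϖ
  have hpe := natCast_p_eq (L := L) hϖ
  have htop : (p ^ f - 1) * p < ((p ^ f - 1) * p + 1) * (p - 1) := by
    have h2 := hp.two_le
    have : 1 ≤ p - 1 := by omega
    calc (p ^ f - 1) * p < ((p ^ f - 1) * p + 1) * 1 := by omega
      _ ≤ ((p ^ f - 1) * p + 1) * (p - 1) := Nat.mul_le_mul_left _ this
  exact ⟨ϖ, g₀, (p ^ f - 1) * p + 1, hϖπ, hirr, hpe,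
    UnitFiltration.principalUnits_le_pthPowers hirr hp hpe htop, h1, h2, h3, h4⟩

end Main

end Fermat.Agent.S56x.Local.CWPadicDataQp2
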