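import Mathlib
import Fermat.Agent.S56x.Local.UnitFiltration
import Fermat.Agent.S56x.Local.WbFiltration

/-!
# P-S56, block (A) (helper48): `ζ - 1` as a uniformizer (`ℚ_p`-shape data without `π`)

`B` a discrete valuation ring, `ϖ₀` a uniformizer, `p = c₀ ϖ₀^e` with `1 ≤ e ≤ p - 1`, `ζ ∈ B` a
primitive `p`-th root of unity.  Then (`exists_zeta_sub_one_eq` of helper39: `(p-1) v(ζ-1) = e`)

* `e_eq` : `e = p - 1`;
* `irreducible_zeta_sub_one` : `ζ - 1` is irreducible;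
* `exists_natCast_eq` : `(p : B) = c₁ * (ζ - 1)^(p-1)` for a unit `c₁`;
* for a ring automorphism `σ` with `σ ζ = ζ ^ m`:
  `map_zeta_sub_one` : `σ (ζ - 1) = (∑ i ∈ range m, ζ^i) * (ζ - 1)`,
  `residue_geom_sum` : `residue (∑ i ∈ range m, ζ^i) = m`,
  `residue_geom_sum_pow` : `residue (∑ i ∈ range m, ζ^i) ^ (p-1) = 1` if `(m : ZMod p) ≠ 0`.

`exists_data` packages these.  So `ϖ := ζ - 1`, `c g := ∑ i ∈ range (m g), ζ^i` satisfy `hϖ`, `hpe`, `hc`, `hc1` of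
`CWLocal.rank_H1A_le_one_Qp` / `CWAssembly.rank_H1A_le_one`: no `(p-1)`-th root of `-p` needed.
-/

set_option autoImplicit false
set_option linter.unusedSectionVars false
set_option linter.style.haveILetI false

open IsLocalRing

namespace Fermat.Agent.S56x.Local.ZetaUniformizer

variable {B : Type*} [CommRing B] [IsDomain B] [IsDiscreteValuationRing B]
  {ϖ₀ : B} (hϖ₀ : Irreducible ϖ₀) {p : ℕ} (hp : p.Prime) {c₀ : Bˣ} {e : ℕ}
  (hpe : (p : B) = c₀ * ϖ₀ ^ e) (he : 1 ≤ e) (he' : e ≤ p - 1)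
  {ζ : B} (hζ : ζ ^ p = 1) (hζ1 : ζ ≠ 1)

include hϖ₀ hp hpe he he' hζ hζ1 in
/-- `ζ - 1` is a unit times `ϖ₀`, and `e = p - 1`. -/
theorem exists_unit_mul : ∃ l₀ : Bˣ, ζ - 1 = l₀ * ϖ₀ ∧ e = p - 1 := by
  obtain ⟨l₀, j, hj, hl, hcrit, -⟩ :=
    UnitFiltration.exists_zeta_sub_one_eq hϖ₀ hp hpe he hζ hζ1
  have hp2 := hp.two_le
  obtain ⟨q, rfl⟩ : ∃ q, p = q + 1 := ⟨p - 1, by omega⟩
  rw [Nat.add_sub_cancel] at he'
  have h1 : q * j = e := by nlinarith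
  have hj1 : j = 1 := by
    by_contra hne
    have hj2 : 2 ≤ j := by omega
    have : q * 2 ≤ q * j := Nat.mul_le_mul_left q hj2
    have hq : 1 ≤ q := by omega
    omega
  subst hj1
  rw [pow_one] at hl
  exact ⟨l₀, hl, by rw [Nat.add_sub_cancel]; omega⟩

include hϖ₀ hp hpe he he' hζ hζ1 in
theorem e_eq : e = p - 1 := (exists_unit_mul hϖ₀ hp hpe he he' hζ hζ1).choose_spec.2

include hϖ₀ hp hpe he he' hζ hζ1 in
/-- **`ζ - 1` is a uniformizer.** -/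
theorem irreducible_zeta_sub_one : Irreducible (ζ - 1) := by
  obtain ⟨l₀, hl, -⟩ := exists_unit_mul hϖ₀ hp hpe he he' hζ hζ1
  rw [hl]
  exact (irreducible_units_mul l₀).mpr hϖ₀

include hϖ₀ hp hpe he he' hζ hζ1 in
/-- **`p = c₁ (ζ - 1)^(p-1)`.** -/
theorem exists_natCast_eq : ∃ c₁ : Bˣ, (p : B) = c₁ * (ζ - 1) ^ (p - 1) := by
  obtain ⟨l₀, hl, hee⟩ := exists_unit_mul hϖ₀ hp hpe he he' hζ hζ1
  refine ⟨c₀ * (l₀⁻¹) ^ (p - 1), ?_⟩
  rw [hpe, hee, hl, mul_pow]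
  push_cast
  have h1 : ((l₀⁻¹ : Bˣ) : B) ^ (p - 1) * (l₀ : B) ^ (p - 1) = 1 := by
    rw [← mul_pow, Units.inv_mul, one_pow]
  calc (c₀ : B) * ϖ₀ ^ (p - 1)
      = (c₀ : B) * (((l₀⁻¹ : Bˣ) : B) ^ (p - 1) * (l₀ : B) ^ (p - 1)) * ϖ₀ ^ (p - 1) := by
        rw [h1, mul_one]
    _ = (c₀ : B) * ((l₀⁻¹ : Bˣ) : B) ^ (p - 1) * ((l₀ : B) ^ (p - 1) * ϖ₀ ^ (p - 1)) := by
        ring

/-! ### The action of an automorphism on `ζ - 1` -/

omit [IsDomain B] [IsDiscreteValuationRing B] in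
/-- `σ (ζ - 1) = (∑_{i<m} ζ^i) (ζ - 1)` when `σ ζ = ζ^m`. -/
theorem map_zeta_sub_one (σ : B ≃+* B) {m : ℕ} (hm : σ ζ = ζ ^ m) :
    σ (ζ - 1) = (∑ i ∈ Finset.range m, ζ ^ i) * (ζ - 1) := by
  rw [map_sub, map_one, hm, geom_sum_mul]

include hϖ₀ hp hpe he hζ in
/-- `residue ζ = 1`. -/
theorem residue_zeta : residue B ζ = 1 := by
  haveI : Fact p.Prime := ⟨hp⟩
  haveI : CharP (ResidueField B) p := WbFiltration.charP_residueField hϖ₀ hp hpe he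
  have h : (residue B ζ) ^ p = 1 := by rw [← map_pow, hζ, map_one]
  have h2 : (residue B ζ - 1) ^ p = 0 := by
    rw [sub_pow_char, h, one_pow, sub_self]
  exact sub_eq_zero.mp (pow_eq_zero_iff hp.ne_zero |>.mp h2)

include hϖ₀ hp hpe he hζ in
/-- `residue (∑_{i<m} ζ^i) = m`. -/
theorem residue_geom_sum (m : ℕ) :
    residue B (∑ i ∈ Finset.range m, ζ ^ i) = (m : ResidueField B) := by
  rw [map_sum]
  simp only [map_pow, residue_zeta hϖ₀ hp hpe he hζ, one_pow, Finset.sum_const, Finset.card_range,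
    nsmul_eq_mul, mul_one]

include hϖ₀ hp hpe he hζ in
/-- `residue (∑_{i<m} ζ^i)^(p-1) = 1` when `p ∤ m`. -/
theorem residue_geom_sum_pow {m : ℕ} (hm : (m : ZMod p) ≠ 0) :
    residue B (∑ i ∈ Finset.range m, ζ ^ i) ^ (p - 1) = 1 := by
  haveI : Fact p.Prime := ⟨hp⟩
  haveI : CharP (ResidueField B) p := WbFiltration.charP_residueField hϖ₀ hp hpe he
  rw [residue_geom_sum hϖ₀ hp hpe he hζ]
  have h := ZMod.pow_card_sub_one_eq_one hm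
  have h2 := congrArg (ZMod.castHom (dvd_refl p) (ResidueField B)) h
  rw [map_pow, map_natCast, map_one] at h2
  exact h2

include hϖ₀ hp hpe he he' hζ hζ1 in
/-- **Package**: the `ℚ_p`-shape data `hϖ`, `hpe`, `hc`, `hc1` of `CWAssembly.rank_H1A_le_one` with
`ϖ = ζ - 1`, for a family of automorphisms acting on `ζ` through exponents prime to `p`. -/
theorem exists_data {G : Type*} (σ : G → B ≃+* B) (m : G → ℕ) (hm : ∀ g, σ g ζ = ζ ^ m g)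
    (hm0 : ∀ g, (m g : ZMod p) ≠ 0) :
    ∃ (ϖ : B) (c₁ : Bˣ) (c : G → B), Irreducible ϖ ∧ (p : B) = c₁ * ϖ ^ (p - 1) ∧
      (∀ g, σ g ϖ = c g * ϖ) ∧ (∀ g, residue B (c g) ^ (p - 1) = 1) ∧ ϖ = ζ - 1 := by
  obtain ⟨c₁, hc₁⟩ := exists_natCast_eq hϖ₀ hp hpe he he' hζ hζ1
  exact ⟨ζ - 1, c₁, fun g => ∑ i ∈ Finset.range (m g), ζ ^ i,
    irreducible_zeta_sub_one hϖ₀ hp hpe he he' hζ hζ1, hc₁,
    fun g => map_zeta_sub_one (σ g) (hm g),
    fun g => residue_geom_sum_pow hϖ₀ hp hpe he hζ (hm0 g), rfl⟩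

end Fermat.Agent.S56x.Local.ZetaUniformizer
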