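import Mathlib
import Fermat.Agent.S56x.Local.AbelianLevel
import Fermat.Agent.S56x.Local.ZetaUniformizer
import Fermat.Agent.S56x.Local.CWPadicOps
import Fermat.Agent.S56x.Local.AbelianTameE0
import Fermat.Agent.S56x.Local.CWAssembly
import Fermat.Agent.S56x.Local.CharCountHom
import Fermat.Agent.S56x.Local.UnitFiltration

/-!
# P-S56, block (A) (helper48): the `p`-adic tame-structure package for (CW1)/(CW0)

`L` a finite abelian extension of `ℚ_p` inside `PadicAlgCl p` of degree prime to `p` containing a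
primitive `p`-th root of unity `ζ`; `B := OE p L`, `σ := CWPadicOps.sigmaOE L`.  Then ALL the
arithmetic ("tame structure") hypotheses of `CWAssembly.rank_H1A_le_one` / `rank_H1A_eq_zero` hold
with `ϖ := ζ_B - 1`:

* `exists_unif_data` : `p = c₀ ϖ₀^e`, `1 ≤ e ≤ p - 1` (helper83's `AbelianTameE0.e0_le`);
* `exists_tame_data` : `∃ ϖ c₀ c N₀, hϖ ∧ hpe ∧ hN ∧ hc ∧ hc1 ∧ hinert ∧ hHD1`;
* `residue_fixed_pow` : `hfix` of `CharCountHom.card_eqHom_le` (elements of the residue field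
  fixed by all `σ g` satisfy `b^p = b`; helper83's Frobenius lift).

For a character `χ : GQp p →* kˣ` trivial on `E₀.fixingSubgroup` (`E₀` finite), the field
`L := AbelianLevel.levelField χ ζ` qualifies (`AbelianLevel.levelField_comm`, `not_dvd_finrank_levelField`).
-/

set_option autoImplicit false
set_option linter.unusedSectionVars false
set_option linter.style.haveILetI false
set_option linter.overlappingInstances false

noncomputable section

namespace Fermat.Agent.S56x.Local.CWPadicLevel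

open IntermediateField IsLocalRing
open Fermat.Agent.S56x.Local.PadicFinite Fermat.Agent.S56x.Local.PadicInertia
  Fermat.Agent.S56x.Local.BddDef Fermat.Agent.S56x.Local.PadicE0
  Fermat.Agent.S56x.Local.CWPadicOps Fermat.Agent.S56x.Local.AbelianTameE0
  Fermat.Agent.S56x.Local.KummerPairing Fermat.Agent.S56x.Local.CWAbstract
  Fermat.Agent.S56x.Local.FiltrationCount Fermat.Agent.S56x.Local.WbCount
  Fermat.Agent.Lib.CFT.Local.UnitsFiltration

variable {p : ℕ} [Fact p.Prime] (L : IntermediateField ℚ_[p] (PadicAlgCl p))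
  [FiniteDimensional ℚ_[p] L] [IsGalois ℚ_[p] L]

/-- `p = c₀ ϖ₀^e` in `OE p L` with `e = e0`. -/
theorem exists_natCast_eq_unit_mul_pow :
    ∃ (ϖ₀ : OE p L) (c₀ : (OE p L)ˣ), Irreducible ϖ₀ ∧
      ((p : ℕ) : OE p L) = c₀ * ϖ₀ ^ (ramNum p L).e0 := by
  obtain ⟨ϖ₀, hϖ₀⟩ := IsDiscreteValuationRing.exists_irreducible (OE p L)
  have hp0 : ((p : ℕ) : OE p L) ≠ 0 := natCast_p_ne_zero
  obtain ⟨n, u, hu⟩ := IsDiscreteValuationRing.eq_unit_mul_pow_irreducible hp0 hϖ₀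
  have h1 := addVal_p_eq_e0 L
  rw [hu, IsDiscreteValuationRing.addVal_def' u hϖ₀ n] at h1
  have h2 : n = (ramNum p L).e0 := by exact_mod_cast h1
  exact ⟨ϖ₀, u, hϖ₀, by rw [hu, h2]⟩

variable (hab : ∀ σ τ : L ≃ₐ[ℚ_[p]] L, σ * τ = τ * σ)
  (hidx : ¬ p ∣ Module.finrank ℚ_[p] L)

include hab hidx in
/-- `p = c₀ ϖ₀^e` with `1 ≤ e ≤ p - 1` (abelian + tame). -/
theorem exists_unif_data :
    ∃ (ϖ₀ : OE p L) (c₀ : (OE p L)ˣ) (e : ℕ), Irreducible ϖ₀ ∧
      ((p : ℕ) : OE p L) = c₀ * ϖ₀ ^ e ∧ 1 ≤ e ∧ e ≤ p - 1 := by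
  obtain ⟨ϖ₀, c₀, hϖ₀, h⟩ := exists_natCast_eq_unit_mul_pow L
  have hc : Nat.Coprime (Module.finrank ℚ_[p] L) p :=
    ((Nat.Prime.coprime_iff_not_dvd (Fact.out : p.Prime)).mpr hidx).symm
  exact ⟨ϖ₀, c₀, _, hϖ₀, h, (ramNum p L).e0_pos, e0_le L hab hc⟩

/-- **`hfix`**: an element of the residue field fixed by all `σ g` satisfies `b ^ p = b`. -/
theorem residue_fixed_pow (b : ResidueField (OE p L))
    (hb : ∀ g : GQp p,
      ResidueField.map ((sigmaOE L g : OE p L ≃+* OE p L) : OE p L →+* OE p L) b = b) :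
    b ^ p = b := by
  obtain ⟨φ, hφ⟩ := exists_frobenius_lift L
  obtain ⟨g, rfl⟩ := resL_surjective L φ
  obtain ⟨x, rfl⟩ := residue_surjective b
  have h := hb g
  rw [ResidueField.map_residue] at h
  rw [← hφ x]
  exact h

theorem bijective_residueField_map (g : GQp p) : Function.Bijective
    (ResidueField.map ((sigmaOE L g : OE p L ≃+* OE p L) : OE p L →+* OE p L)) :=
  (ResidueField.mapEquiv (sigmaOE L g)).bijective

variable {ζ : PadicAlgCl p} (hζ : IsPrimitiveRoot ζ p) (hζL : ζ ∈ L)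

include hab hidx hζL in
/-- **The tame-structure package.** -/
theorem exists_tame_data (hp2 : 2 ≤ p - 1) {k : Type*} [Field k] [Finite k] [CharP k p]
    (χ : GQp p →* kˣ) :
    ∃ (ϖ : OE p L) (c₀ : (OE p L)ˣ) (c : GQp p → OE p L) (N₀ : ℕ),
      Irreducible ϖ ∧ ((p : ℕ) : OE p L) = c₀ * ϖ ^ (p - 1) ∧
      principalUnits (OE p L) N₀ ≤ WbFiltration.pthPowers (OE p L) p ∧
      (∀ g, sigmaOE L g ϖ = c g * ϖ) ∧ (∀ g, residue (OE p L) (c g) ^ (p - 1) = 1) ∧
      (∃ g₀, (∀ y, ResidueField.map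
          ((sigmaOE L g₀ : OE p L ≃+* OE p L) : OE p L →+* OE p L) y = y) ∧ omega (F := ℚ_[p]) hζ g₀ ≠ 1) ∧
      Nat.card (eqHom (twistN χ (omega (F := ℚ_[p]) hζ)) (actK (sigmaOE L) c (p - 1)) ⊤) ≤ Nat.card k := by
  have hp := (Fact.out : p.Prime)
  haveI : NeZero p := ⟨hp.ne_zero⟩
  obtain ⟨ϖ₀, c₀, e, hϖ₀, hpe, he, he'⟩ := exists_unif_data L hab hidx
  obtain ⟨ζB, hζB, hζBp, hζB1⟩ := CWAssembly.exists_zetaB hζ hζL (OE p L)
  have hm : ∀ g, sigmaOE L g ζB = ζB ^ (omega (F := ℚ_[p]) hζ g).val := by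
    intro g
    apply CWAssembly.coe_algebraMap_injective (L := L) (OE p L)
    show ((algebraMap (OE p L) ↥L (sigmaOE L g ζB) : ↥L) : PadicAlgCl p) =
      ((algebraMap (OE p L) ↥L (ζB ^ (omega (F := ℚ_[p]) hζ g).val) : ↥L) : PadicAlgCl p)
    rw [coe_sigmaOE L g ζB, hζB, map_pow, SubmonoidClass.coe_pow, hζB, omega_spec (F := ℚ_[p]) hζ g]
  have hm0 : ∀ g, (((omega (F := ℚ_[p]) hζ g).val : ℕ) : ZMod p) ≠ 0 := by
    intro g
    rw [ZMod.natCast_zmod_val]
    exact omega_ne_zero (F := ℚ_[p]) hζ g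
  obtain ⟨ϖ, c₁, c, hϖ, hpe', hc, hc1, -⟩ :=
    ZetaUniformizer.exists_data hϖ₀ hp hpe he he' hζBp hζB1 (sigmaOE L)
      (fun g => (omega (F := ℚ_[p]) hζ g).val) hm hm0
  refine ⟨ϖ, c₁, c, p + 1, hϖ, hpe', ?_, hc, hc1, ?_, ?_⟩
  · refine UnitFiltration.principalUnits_le_pthPowers hϖ hp hpe' ?_
    have : 1 ≤ p - 1 := by omega
    nlinarith
  · obtain ⟨g₀, hg₀, hne⟩ := exists_inert_ne L hζ hζL hp2
    refine ⟨g₀, hg₀, fun h1 => hne ?_⟩
    haveI : Fact (1 < p) := ⟨hp.one_lt⟩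
    rw [omega_spec (F := ℚ_[p]) hζ g₀, h1, ZMod.val_one, pow_one]
  · have h := CharCountHom.card_eqHom_le χ (omega (F := ℚ_[p]) hζ)
      (fun g => ResidueField.map ((sigmaOE L g : OE p L ≃+* OE p L) : OE p L →+* OE p L))
      (fun g => residue (OE p L) (c g) ^ (p - 1))
      (actK (sigmaOE L) c (p - 1)) (fun g y => actK_apply (sigmaOE L) c (p - 1) g y)
      (bijective_residueField_map L) (fun g => by rw [hc1 g]; exact one_ne_zero)
      (residue_fixed_pow L)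
    exact h.2

end Fermat.Agent.S56x.Local.CWPadicLevel
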