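/-
P-S56, block (A) LOCAL FLAT, file LOC-6 (helper90): the representation-theoretic count on the graded
pieces `gr^i = l(θ^i)` of the unit filtration.

Part D (this part is completely abstract, Mathlib only): the **descent inequality** for semilinear
actions.  If a group `G` acts on a field `l` by automorphisms and semilinearly on an `l`-vector space
`E`, then `G`-invariant vectors which are linearly independent over the fixed field `F = l^G` are
linearly independent over `l`; hence `dim_F E^G ≤ dim_l E`.  This is the step "equivariance under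
`G/I = Gal(l/𝔽_p)` divides the count by `[l : 𝔽_p]`" (Frobenius reciprocity for
`l(θ^i) ⊗ k̄ = Ind_I^G`), without choosing embeddings `l → k̄` and without base change.
-/
import Mathlib

set_option autoImplicit false
set_option linter.unusedSectionVars false

namespace Fermat.Agent.S56x.Local.CharCount

/-! ## Part D: the descent inequality -/

section Descent

variable {l : Type*} [Field l] {G : Type*} [Group G] [MulSemiringAction G l]
variable {E : Type*} [AddCommGroup E] [Module l E] [DistribMulAction G E]

/-- The action of `G` on the `l`-vector space `E` is semilinear. -/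
def Semilinear (l G E : Type*) [Field l] [Group G] [MulSemiringAction G l] [AddCommGroup E]
    [Module l E] [DistribMulAction G E] : Prop :=
  ∀ (g : G) (a : l) (v : E), g • (a • v) = (g • a) • (g • v)

/-- **Descent inequality, elementwise form.** Let `v i` be `G`-invariant vectors such that every
relation `∑ b i • v i = 0` with `G`-invariant coefficients is trivial. Then every relation with
coefficients in `l` is trivial. -/
theorem coeff_eq_zero_of_invariant_indep {ι : Type*} (hsemi : Semilinear l G E) (v : ι → E)
    (hv : ∀ (g : G) (i : ι), g • v i = v i) (s : Finset ι)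
    (hF : ∀ b : ι → l, (∀ (g : G) (i : ι), g • b i = b i) → ∑ i ∈ s, b i • v i = 0 →
      ∀ i ∈ s, b i = 0) :
    ∀ a : ι → l, ∑ i ∈ s, a i • v i = 0 → ∀ i ∈ s, a i = 0 := by
  classical
  -- strong induction on the size of the support of `a` inside `s`
  suffices H : ∀ (n : ℕ) (a : ι → l), (s.filter fun i => a i ≠ 0).card ≤ n →
      ∑ i ∈ s, a i • v i = 0 → ∀ i ∈ s, a i = 0 from
    fun a ha => H _ a le_rfl ha
  intro n
  induction n with
  | zero =>
    intro a hcard _ i hi
    by_contra hne
    have : i ∈ s.filter fun i => a i ≠ 0 := Finset.mem_filter.2 ⟨hi, hne⟩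
    have h0 : (s.filter fun i => a i ≠ 0) = ∅ := Finset.card_eq_zero.1 (Nat.le_zero.1 hcard)
    rw [h0] at this
    exact absurd this (Finset.notMem_empty i)
  | succ n ih =>
    intro a hcard ha
    by_contra hcon
    push Not at hcon
    obtain ⟨i₀, hi₀s, hi₀⟩ := hcon
    -- normalise
    set a' : ι → l := fun i => a i / a i₀ with ha'
    have ha'rel : ∑ i ∈ s, a' i • v i = 0 := by
      have : ∑ i ∈ s, a' i • v i = (a i₀)⁻¹ • ∑ i ∈ s, a i • v i := by
        rw [Finset.smul_sum]
        refine Finset.sum_congr rfl fun i _ => ?_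
        rw [smul_smul, ha']
        congr 1
        show a i / a i₀ = (a i₀)⁻¹ * a i
        rw [div_eq_mul_inv, mul_comm]
      rw [this, ha, smul_zero]
    have ha'i₀ : a' i₀ = 1 := by rw [ha']; exact div_self hi₀
    have hsupp : ∀ i, a' i ≠ 0 → a i ≠ 0 := by
      intro i hi h
      apply hi
      rw [ha']
      simp [h]
    -- all `a' i` are invariant
    have hinv : ∀ (g : G), ∀ i ∈ s, g • a' i = a' i := by
      intro g
      have hrel : ∑ i ∈ s, (g • a' i - a' i) • v i = 0 := by
        have h1 : ∑ i ∈ s, (g • a' i) • v i = 0 := by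
          have h2 := congrArg (fun x => g • x) ha'rel
          simp only [smul_zero, Finset.smul_sum] at h2
          rw [← h2]
          refine Finset.sum_congr rfl fun i _ => ?_
          rw [hsemi, hv]
        simp only [sub_smul, Finset.sum_sub_distrib, h1, ha'rel, sub_zero]
      have hcard' : (s.filter fun i => g • a' i - a' i ≠ 0).card ≤ n := by
        have hsub : (s.filter fun i => g • a' i - a' i ≠ 0) ⊆
            (s.filter fun i => a i ≠ 0).erase i₀ := by
          intro i hi
          rw [Finset.mem_filter] at hi
          rw [Finset.mem_erase, Finset.mem_filter]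
          refine ⟨?_, hi.1, ?_⟩
          · rintro rfl
            apply hi.2
            rw [ha'i₀, smul_one, sub_self]
          · apply hsupp
            intro h0
            apply hi.2
            rw [h0, smul_zero, sub_self]
        have h3 := Finset.card_le_card hsub
        have h4 : ((s.filter fun i => a i ≠ 0).erase i₀).card + 1 =
            (s.filter fun i => a i ≠ 0).card :=
          Finset.card_erase_add_one (Finset.mem_filter.2 ⟨hi₀s, hi₀⟩)
        omega
      intro i hi
      exact sub_eq_zero.1 (ih _ hcard' hrel i hi)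
    -- replace `a'` by an everywhere invariant family
    set b : ι → l := fun i => if i ∈ s then a' i else 0 with hb
    have hbinv : ∀ (g : G) (i : ι), g • b i = b i := by
      intro g i
      rw [hb]
      by_cases hi : i ∈ s
      · simp only [hi, if_true]; exact hinv g i hi
      · simp only [hi, if_false, smul_zero]
    have hbrel : ∑ i ∈ s, b i • v i = 0 := by
      rw [← ha'rel]
      refine Finset.sum_congr rfl fun i hi => ?_
      rw [hb]; simp only [hi, if_true]
    have := hF b hbinv hbrel i₀ hi₀s
    rw [hb] at this
    simp only [hi₀s, if_true] at this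
    rw [ha'i₀] at this
    exact one_ne_zero this

variable {F₀ : Type*} [Field F₀] [Algebra F₀ l] [Module F₀ E] [IsScalarTower F₀ l E]

/-- **Descent inequality, linear independence form.** `F₀ → l` a subfield containing the fixed
field of `G` (`hfix`); a family of `G`-invariant vectors which is linearly independent over `F₀`
is linearly independent over `l`. -/
theorem linearIndependent_of_invariant {ι : Type*} (hsemi : Semilinear l G E)
    (hfix : ∀ x : l, (∀ g : G, g • x = x) → ∃ c : F₀, algebraMap F₀ l c = x)
    (v : ι → E) (hv : ∀ (g : G) (i : ι), g • v i = v i) (hind : LinearIndependent F₀ v) :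
    LinearIndependent l v := by
  classical
  rw [linearIndependent_iff'] at hind ⊢
  intro s a ha i hi
  refine coeff_eq_zero_of_invariant_indep hsemi v hv s ?_ a ha i hi
  intro b hb hrel j hj
  choose c hc using fun j => hfix (b j) (fun g => hb g j)
  have h1 : ∑ j ∈ s, c j • v j = 0 := by
    rw [← hrel]
    refine Finset.sum_congr rfl fun j _ => ?_
    rw [← hc j, algebraMap_smul]
  have h2 := hind s c h1 j hj
  rw [← hc j, h2, map_zero]

/-- The `F₀`-subspace of `G`-invariant vectors (`G` fixes the image of `F₀` in `l`). -/
def invariantsSub (F₀ : Type*) [Field F₀] [Algebra F₀ l] [Module F₀ E] [IsScalarTower F₀ l E]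
    (hsemi : Semilinear l G E) (hF₀ : ∀ (g : G) (c : F₀), g • algebraMap F₀ l c = algebraMap F₀ l c) :
    Submodule F₀ E where
  carrier := {v | ∀ g : G, g • v = v}
  add_mem' := by
    intro u v hu hv g
    rw [smul_add, hu g, hv g]
  zero_mem' := fun g => smul_zero g
  smul_mem' := by
    intro c v hv g
    rw [← algebraMap_smul l c v, hsemi, hF₀, hv g]

theorem mem_invariantsSub {hsemi : Semilinear l G E}
    {hF₀ : ∀ (g : G) (c : F₀), g • algebraMap F₀ l c = algebraMap F₀ l c} {v : E} :
    v ∈ invariantsSub F₀ hsemi hF₀ ↔ ∀ g : G, g • v = v := Iff.rfl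

/-- **Descent inequality, dimension form**: `dim_{F₀} E^G ≤ dim_l E`. -/
theorem finrank_invariantsSub_le [Module.Finite l E] (hsemi : Semilinear l G E)
    (hF₀ : ∀ (g : G) (c : F₀), g • algebraMap F₀ l c = algebraMap F₀ l c)
    (hfix : ∀ x : l, (∀ g : G, g • x = x) → ∃ c : F₀, algebraMap F₀ l c = x) :
    Module.finrank F₀ (invariantsSub F₀ hsemi hF₀) ≤ Module.finrank l E := by
  classical
  apply Module.finrank_le_of_rank_le
  apply rank_le
  intro s hs
  have h1 : LinearIndependent F₀ (fun i : s => ((i : invariantsSub F₀ hsemi hF₀) : E)) :=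
    hs.map' (invariantsSub F₀ hsemi hF₀).subtype (Submodule.ker_subtype _)
  have h2 := linearIndependent_of_invariant hsemi hfix
    (fun i : s => ((i : invariantsSub F₀ hsemi hF₀) : E)) (fun g i => (i : invariantsSub F₀ hsemi hF₀).2 g) h1
  simpa using h2.fintype_card_le_finrank

end Descent

/-! ## Part T: the count for twisted tensor products `N ⊗_{𝔽_p} l(c)` -/

section Twisted

open TensorProduct

variable {p : ℕ} [Fact p.Prime]
variable {l : Type*} [Field l] [Algebra (ZMod p) l]
variable {G : Type*} [Group G] [MulSemiringAction G l]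
variable {k : Type*} [Field k] [Algebra (ZMod p) k]
variable {N : Type*} [AddCommGroup N] [Module k N] [Module (ZMod p) N] [IsScalarTower (ZMod p) k N]

/-- Ring automorphisms fix the prime field. -/
theorem smul_algebraMap_zmod (g : G) (a : ZMod p) :
    g • algebraMap (ZMod p) l a = algebraMap (ZMod p) l a := by
  have h := RingHom.ext_zmod ((MulSemiringAction.toRingHom G l g).comp (algebraMap (ZMod p) l))
    (algebraMap (ZMod p) l)
  exact congrArg (fun f => f a) h

/-- The twisted semilinear action `x ↦ c g * g • x` on `l`, as an `𝔽_p`-linear map. -/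
def twist (c : G → l) (g : G) : l →ₗ[ZMod p] l where
  toFun x := c g * g • x
  map_add' x y := by rw [smul_add, mul_add]
  map_smul' a x := by
    simp only [RingHom.id_apply, Algebra.smul_def, smul_mul', smul_algebraMap_zmod]
    ring

@[simp] theorem twist_apply (c : G → l) (g : G) (x : l) :
    twist (p := p) c g x = c g * g • x := rfl

/-- The action of `g` on `N ⊗_{𝔽_p} l(c)`: `n ⊗ x ↦ ρ g n ⊗ c g · g(x)`. -/
noncomputable def actE (ρ : Representation k G N) (c : G → l) (g : G) :
    N ⊗[ZMod p] l →ₗ[k] N ⊗[ZMod p] l :=
  TensorProduct.AlgebraTensorModule.map (ρ g) (twist c g)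

@[simp] theorem actE_tmul (ρ : Representation k G N) (c : G → l) (g : G) (n : N) (x : l) :
    actE (p := p) ρ c g (n ⊗ₜ x) = ρ g n ⊗ₜ (c g * g • x) := rfl

/-- The `k`-subspace of invariants of `N ⊗_{𝔽_p} l(c)`. -/
noncomputable def invE (ρ : Representation k G N) (c : G → l) : Submodule k (N ⊗[ZMod p] l) where
  carrier := {z | ∀ g : G, actE (p := p) ρ c g z = z}
  add_mem' := by
    intro x y hx hy g
    rw [map_add, hx g, hy g]
  zero_mem' := fun g => map_zero _
  smul_mem' := by
    intro a x hx g
    rw [map_smul, hx g]

theorem mem_invE {ρ : Representation k G N} {c : G → l} {z : N ⊗[ZMod p] l} :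
    z ∈ invE (p := p) ρ c ↔ ∀ g : G, actE (p := p) ρ c g z = z := Iff.rfl

/-- Contraction along the ring homomorphism `τ ∘ g : l → k`: `n ⊗ x ↦ τ (g • x) • n`. -/
noncomputable def contract (τ : l →+* k) (g : G) : N ⊗[ZMod p] l →ₗ[k] N :=
  TensorProduct.AlgebraTensorModule.lift
    { toFun := fun n =>
        { toFun := fun x => τ (g • x) • n
          map_add' := fun x y => by rw [smul_add, map_add, add_smul]
          map_smul' := fun a x => by
            simp only [RingHom.id_apply, Algebra.smul_def, smul_mul', smul_algebraMap_zmod, map_mul]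
            have h := RingHom.ext_zmod (τ.comp (algebraMap (ZMod p) l)) (algebraMap (ZMod p) k)
            have h1 : τ (algebraMap (ZMod p) l a) = algebraMap (ZMod p) k a :=
              congrArg (fun f => f a) h
            rw [h1, mul_smul, algebraMap_smul] }
      map_add' := fun n n' => by
        ext x; simp [smul_add]
      map_smul' := fun a n => by
        ext x
        show τ (g • x) • (a • n) = a • (τ (g • x) • n)
        rw [smul_comm] }

@[simp] theorem contract_tmul (τ : l →+* k) (g : G) (n : N) (x : l) :
    contract (p := p) τ g (n ⊗ₜ x) = τ (g • x) • n := rfl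

/-- Compatibility of the contraction with the twisted action. -/
theorem contract_actE (ρ : Representation k G N) (c : G → l) (τ : l →+* k) (g : G)
    (z : N ⊗[ZMod p] l) :
    contract (p := p) τ (1 : G) (actE (p := p) ρ c g z) = τ (c g) • ρ g (contract (p := p) τ g z) := by
  induction z using TensorProduct.induction_on with
  | zero => simp
  | tmul n x =>
    rw [actE_tmul, contract_tmul, contract_tmul, one_smul, map_mul, (ρ g).map_smul, smul_smul]
  | add x y hx hy => rw [map_add, map_add, hx, hy, map_add, map_add, smul_add]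

/-- Functions `G → N` with the `l`-vector space structure twisted by `τ`:
`(a • φ) g = τ (g • a) • φ g`, and `G` acting by right translation. The constants are the
invariants. -/
def TwFun (G : Type*) {l k : Type*} [Field l] [Field k] (_τ : l →+* k) (N : Type*) : Type _ :=
  G → N

namespace TwFun

variable (τ : l →+* k)

instance : AddCommGroup (TwFun G τ N) := inferInstanceAs (AddCommGroup (G → N))

instance : Module l (TwFun G τ N) where
  smul a φ := fun g => τ (g • a) • (show G → N from φ) g
  one_smul φ := by
    funext g
    show τ (g • (1 : l)) • (show G → N from φ) g = _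
    rw [smul_one, map_one, one_smul]
  mul_smul a b φ := by
    funext g
    show τ (g • (a * b)) • (show G → N from φ) g = τ (g • a) • (τ (g • b) • (show G → N from φ) g)
    rw [smul_mul', map_mul, mul_smul]
  smul_zero a := by
    funext g
    show τ (g • a) • (0 : N) = 0
    rw [smul_zero]
  smul_add a φ ψ := by
    funext g
    show τ (g • a) • ((show G → N from φ) g + (show G → N from ψ) g) = _
    rw [smul_add]; rfl
  add_smul a b φ := by
    funext g
    show τ (g • (a + b)) • (show G → N from φ) g = _
    rw [smul_add, map_add, add_smul]; rfl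
  zero_smul φ := by
    funext g
    show τ (g • (0 : l)) • (show G → N from φ) g = 0
    rw [smul_zero, map_zero, zero_smul]

instance : DistribMulAction G (TwFun G τ N) where
  smul h φ := fun g => (show G → N from φ) (g * h)
  one_smul φ := by
    funext g
    show (show G → N from φ) (g * 1) = _
    rw [mul_one]
  mul_smul h₁ h₂ φ := by
    funext g
    show (show G → N from φ) (g * (h₁ * h₂)) = (show G → N from φ) (g * h₁ * h₂)
    rw [mul_assoc]
  smul_zero h := rfl
  smul_add h φ ψ := rfl

/-- Evaluation at `g`, as an additive map. -/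
def ev (g : G) : TwFun G τ N →+ N where
  toFun φ := (show G → N from φ) g
  map_zero' := rfl
  map_add' _ _ := rfl

theorem ext {φ ψ : TwFun G τ N} (h : ∀ g, ev τ g φ = ev τ g ψ) : φ = ψ := funext h

theorem ev_smul (a : l) (φ : TwFun G τ N) (g : G) :
    ev τ g (a • φ) = τ (g • a) • ev τ g φ := rfl

theorem ev_gsmul (h : G) (φ : TwFun G τ N) (g : G) : ev τ g (h • φ) = ev τ (g * h) φ := rfl

theorem semilinear : Semilinear l G (TwFun G τ N) := by
  intro h a φ
  apply ext τ
  intro g
  rw [ev_gsmul, ev_smul, ev_smul, ev_gsmul, mul_smul]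

/-- The constant function. -/
def const (n : N) : TwFun G τ N := fun _ => n

theorem ev_const (n : N) (g : G) : ev τ g (const τ n : TwFun G τ N) = n := rfl

theorem smul_const (h : G) (n : N) : h • (const τ n : TwFun G τ N) = const τ n := rfl

end TwFun

/-- **Injectivity of the contraction on invariants.** If the fixed field of `G` on `l` is `𝔽_p`,
`c g ≠ 0`, and `z ∈ N ⊗ l(c)` is `G`-invariant with `contract τ 1 z = 0`, then `z = 0`. -/
theorem eq_zero_of_contract_eq_zero (ρ : Representation k G N) (c : G → l) (hc : ∀ g, c g ≠ 0)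
    (τ : l →+* k)
    (hfix : ∀ x : l, (∀ g : G, g • x = x) → ∃ a : ZMod p, algebraMap (ZMod p) l a = x)
    {z : N ⊗[ZMod p] l} (hz : z ∈ invE (p := p) ρ c) (h0 : contract (p := p) τ (1 : G) z = 0) :
    z = 0 := by
  classical
  have hτ : ∀ a : ZMod p, τ (algebraMap (ZMod p) l a) = algebraMap (ZMod p) k a := by
    intro a
    have h := RingHom.ext_zmod (τ.comp (algebraMap (ZMod p) l)) (algebraMap (ZMod p) k)
    exact congrArg (fun f => f a) h
  -- all contractions vanish
  have hall : ∀ g : G, contract (p := p) τ g z = 0 := by
    intro g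
    have h1 := contract_actE (p := p) ρ c τ g z
    rw [hz g, h0] at h1
    have h2 : ρ g (contract (p := p) τ g z) = 0 := by
      have h3 : τ (c g) ≠ 0 := (map_ne_zero τ).2 (hc g)
      exact (smul_eq_zero.1 h1.symm).resolve_left h3
    have h4 : ρ g⁻¹ (ρ g (contract (p := p) τ g z)) = contract (p := p) τ g z := by
      rw [← Module.End.mul_apply, ← map_mul, inv_mul_cancel, map_one, Module.End.one_apply]
    rw [← h4, h2, map_zero]
  -- coordinates of `z` in a basis of `N`
  let ℬ := Module.Free.chooseBasis (ZMod p) N
  obtain ⟨cf, hcf⟩ := TensorProduct.eq_repr_basis_left ℬ z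
  have hcontr : ∀ g : G, ∑ i ∈ cf.support, τ (g • cf i) • ℬ i = 0 := by
    intro g
    have := hall g
    rw [← hcf, Finsupp.sum, map_sum] at this
    simpa using this
  -- apply the descent inequality to the constant functions `ℬ i`
  have key := coeff_eq_zero_of_invariant_indep (l := l) (G := G) (E := TwFun G τ N)
    (TwFun.semilinear τ) (fun i => TwFun.const τ (ℬ i)) (fun g i => TwFun.smul_const τ g (ℬ i))
    cf.support ?_ (fun i => cf i) ?_
  · have : cf = 0 := by
      ext i
      by_cases hi : i ∈ cf.support
      · exact key i hi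
      · simpa using hi
    rw [← hcf, this]; simp
  · -- `𝔽_p`-independence of the constants
    intro b hb hrel i hi
    choose β hβ using fun i => hfix (b i) (fun g => hb g i)
    have h1 : ∑ i ∈ cf.support, β i • ℬ i = 0 := by
      have h2 := congrArg (TwFun.ev τ (1 : G)) hrel
      rw [map_sum, map_zero] at h2
      rw [← h2]
      refine Finset.sum_congr rfl fun j _ => ?_
      rw [TwFun.ev_smul, TwFun.ev_const, one_smul, ← hβ j, hτ, algebraMap_smul]
    have h4 := (linearIndependent_iff'.1 ℬ.linearIndependent) cf.support β h1 i hi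
    rw [← hβ i, h4, map_zero]
  · -- the relation
    apply TwFun.ext τ
    intro g
    rw [map_sum, map_zero, ← hcontr g]
    refine Finset.sum_congr rfl fun j _ => ?_
    rw [TwFun.ev_smul, TwFun.ev_const]

/-- The eigenspace `{n | ∀ s ∈ I, ρ s n = χ s • n}`. -/
def eigenSub (ρ : Representation k G N) (I : Subgroup G) (χ : G → k) : Submodule k N where
  carrier := {n | ∀ s ∈ I, ρ s n = χ s • n}
  add_mem' := by
    intro x y hx hy s hs
    rw [map_add, hx s hs, hy s hs, smul_add]
  zero_mem' := by
    intro s _
    rw [map_zero, smul_zero]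
  smul_mem' := by
    intro a x hx s hs
    rw [(ρ s).map_smul, hx s hs, smul_comm]

theorem mem_eigenSub {ρ : Representation k G N} {I : Subgroup G} {χ : G → k} {n : N} :
    n ∈ eigenSub ρ I χ ↔ ∀ s ∈ I, ρ s n = χ s • n := Iff.rfl

theorem contract_eq_of_trivial (τ : l →+* k) (s : G) (hs : ∀ x : l, s • x = x)
    (z : N ⊗[ZMod p] l) : contract (p := p) τ s z = contract (p := p) τ (1 : G) z := by
  induction z using TensorProduct.induction_on with
  | zero => simp
  | tmul n x => rw [contract_tmul, contract_tmul, hs, one_smul]
  | add x y hx hy => rw [map_add, map_add, hx, hy]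

/-- The contraction of an invariant lies in the `(τ ∘ c)⁻¹`-eigenspace of the inertia subgroup
`I` (any subgroup acting trivially on `l`). -/
theorem contract_mem_eigenSub (ρ : Representation k G N) (c : G → l) (hc : ∀ g, c g ≠ 0)
    (τ : l →+* k) (I : Subgroup G) (hI : ∀ s ∈ I, ∀ x : l, s • x = x)
    {z : N ⊗[ZMod p] l} (hz : z ∈ invE (p := p) ρ c) :
    contract (p := p) τ (1 : G) z ∈ eigenSub ρ I (fun s => (τ (c s))⁻¹) := by
  intro s hs
  have h1 := contract_actE (p := p) ρ c τ s z
  rw [hz s, contract_eq_of_trivial τ s (hI s hs)] at h1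
  have h3 : τ (c s) ≠ 0 := (map_ne_zero τ).2 (hc s)
  show ρ s _ = (τ (c s))⁻¹ • _
  conv_rhs => rw [h1]
  rw [smul_smul, inv_mul_cancel₀ h3, one_smul]

/-- **LOC-6, main count (case `l ↪ k`).** `G` acts on the finite field `l` with fixed field `𝔽_p`;
`c : G → lˣ` any twist (e.g. `c = θ ^ i`); `I ≤ G` acts trivially on `l`; `τ : l → k` a ring
homomorphism. Then
`dim_k (N ⊗_{𝔽_p} l(c))^G ≤ dim_k {n ∈ N | ∀ s ∈ I, ρ s n = τ (c s)⁻¹ • n}`,
the multiplicity of the character `(τ ∘ c)⁻¹` of `I` in `N`. -/
theorem finrank_invE_le (ρ : Representation k G N) (c : G → l) (hc : ∀ g, c g ≠ 0)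
    (τ : l →+* k)
    (hfix : ∀ x : l, (∀ g : G, g • x = x) → ∃ a : ZMod p, algebraMap (ZMod p) l a = x)
    (I : Subgroup G) (hI : ∀ s ∈ I, ∀ x : l, s • x = x) [Module.Finite k N] :
    Module.finrank k (invE (p := p) ρ c) ≤
      Module.finrank k (eigenSub ρ I (fun s => (τ (c s))⁻¹)) := by
  let f : invE (p := p) ρ c →ₗ[k] eigenSub ρ I (fun s => (τ (c s))⁻¹) :=
    ((contract (p := p) τ (1 : G)).domRestrict (invE (p := p) ρ c)).codRestrict _
      (fun z => contract_mem_eigenSub ρ c hc τ I hI z.2)
  refine LinearMap.finrank_le_finrank_of_injective (f := f) ?_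
  rw [injective_iff_map_eq_zero]
  intro z hz
  have h0 : contract (p := p) τ (1 : G) (z : N ⊗[ZMod p] l) = 0 := by
    have := congrArg Subtype.val hz
    exact this
  exact Subtype.ext (eq_zero_of_contract_eq_zero ρ c hc τ hfix z.2 h0)

end Twisted

end Fermat.Agent.S56x.Local.CharCount
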