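/-
P-S56, block (A) LOCAL FLAT, file LOC-6 part 2 (helper90): the count of `CharCount.lean` over a
small coefficient field.  `k ⊆ k'`, `τ : l → k'`:
`dim_k (N ⊗_{𝔽_p} l(c))^G ≤ dim_{k'} {n ∈ k' ⊗_k N | ∀ s ∈ I, (1 ⊗ ρ s) n = τ (c s)⁻¹ • n}`.
-/
import Fermat.Agent.S56x.Local.CharCount

set_option autoImplicit false
set_option linter.unusedSectionVars false

namespace Fermat.Agent.S56x.Local.CharCount

section ContractInv

open TensorProduct

variable {p : ℕ} [Fact p.Prime]
variable {l : Type*} [Field l] [Algebra (ZMod p) l]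
variable {G : Type*} [Group G] [MulSemiringAction G l]
variable {k : Type*} [Field k] [Algebra (ZMod p) k]
variable {N : Type*} [AddCommGroup N] [Module k N] [Module (ZMod p) N] [IsScalarTower (ZMod p) k N]

/-- The contraction restricted to the invariants, with values in the eigenspace. -/
noncomputable def contractInv (ρ : Representation k G N) (c : G → l) (hc : ∀ g, c g ≠ 0)
    (τ : l →+* k) (I : Subgroup G) (hI : ∀ s ∈ I, ∀ x : l, s • x = x) :
    invE (p := p) ρ c →ₗ[k] eigenSub ρ I (fun s => (τ (c s))⁻¹) :=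
  ((contract (p := p) τ (1 : G)).domRestrict (invE (p := p) ρ c)).codRestrict _
    (fun z => contract_mem_eigenSub ρ c hc τ I hI z.2)

theorem contractInv_injective (ρ : Representation k G N) (c : G → l) (hc : ∀ g, c g ≠ 0)
    (τ : l →+* k)
    (hfix : ∀ x : l, (∀ g : G, g • x = x) → ∃ a : ZMod p, algebraMap (ZMod p) l a = x)
    (I : Subgroup G) (hI : ∀ s ∈ I, ∀ x : l, s • x = x) :
    Function.Injective (contractInv (p := p) ρ c hc τ I hI) := by
  rw [injective_iff_map_eq_zero]
  intro z hz
  have h0 : contract (p := p) τ (1 : G) (z : N ⊗[ZMod p] l) = 0 := by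
    have := congrArg Subtype.val hz
    exact this
  exact Subtype.ext (eq_zero_of_contract_eq_zero ρ c hc τ hfix z.2 h0)

end ContractInv

/-! ## Part BC: the count over a small coefficient field (base change `k ⊆ k'`, `τ : l → k'`) -/

section BaseChange

open TensorProduct

variable {p : ℕ} [Fact p.Prime]
variable {l : Type*} [Field l] [Algebra (ZMod p) l]
variable {G : Type*} [Group G] [MulSemiringAction G l]
variable {k : Type*} [Field k] [Algebra (ZMod p) k]
variable {k' : Type*} [Field k'] [Algebra k k'] [Algebra (ZMod p) k'] [IsScalarTower (ZMod p) k k']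
variable {N : Type*} [AddCommGroup N] [Module k N] [Module (ZMod p) N] [IsScalarTower (ZMod p) k N]

/-- The base change `k' ⊗_k ρ` of a representation. -/
noncomputable def repBC (k' : Type*) [Field k'] [Algebra k k'] (ρ : Representation k G N) :
    Representation k' G (k' ⊗[k] N) :=
  ((Module.End.baseChangeHom k k' N : Module.End k N →ₐ[k] Module.End k' (k' ⊗[k] N)) :
    Module.End k N →* Module.End k' (k' ⊗[k] N)).comp ρ

@[simp] theorem repBC_tmul (ρ : Representation k G N) (g : G) (a : k') (n : N) :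
    repBC k' ρ g (a ⊗ₜ n) = a ⊗ₜ ρ g n := rfl

/-- The natural map `N ⊗ l → (k' ⊗_k N) ⊗ l`. -/
noncomputable def incBC (k' : Type*) [Field k'] [Algebra k k'] [Algebra (ZMod p) k']
    [IsScalarTower (ZMod p) k k'] :
    N ⊗[ZMod p] l →ₗ[k] (k' ⊗[k] N) ⊗[ZMod p] l :=
  TensorProduct.AlgebraTensorModule.map (TensorProduct.mk k k' N 1) LinearMap.id

@[simp] theorem incBC_tmul (n : N) (x : l) :
    incBC (p := p) (k := k) k' (n ⊗ₜ[ZMod p] x) = ((1 : k') ⊗ₜ[k] n) ⊗ₜ[ZMod p] x := rfl

theorem incBC_actE (ρ : Representation k G N) (c : G → l) (g : G) (z : N ⊗[ZMod p] l) :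
    incBC (p := p) (k := k) k' (actE (p := p) ρ c g z) =
      actE (p := p) (repBC k' ρ) c g (incBC (p := p) (k := k) k' z) := by
  induction z using TensorProduct.induction_on with
  | zero => simp
  | tmul n x => rfl
  | add x y hx hy => rw [map_add, map_add, hx, hy, map_add, map_add]

theorem incBC_mem_invE (ρ : Representation k G N) (c : G → l) {z : N ⊗[ZMod p] l}
    (hz : z ∈ invE (p := p) ρ c) : incBC (p := p) (k := k) k' z ∈ invE (p := p) (repBC k' ρ) c := by
  intro g
  rw [← incBC_actE, hz g]

/-- Under the associativity isomorphism `(k' ⊗_k N) ⊗ l ≃ k' ⊗_k (N ⊗ l)`, `incBC z = 1 ⊗ z`. -/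
theorem assoc_incBC (z : N ⊗[ZMod p] l) :
    TensorProduct.AlgebraTensorModule.assoc (ZMod p) k k' k' N l (incBC (p := p) (k := k) k' z) =
      (1 : k') ⊗ₜ[k] z := by
  induction z using TensorProduct.induction_on with
  | zero => simp
  | tmul n x => rfl
  | add x y hx hy => rw [map_add, map_add, hx, hy, tmul_add]

/-- `k`-linearly independent families stay `k'`-linearly independent under `incBC`. -/
theorem linearIndependent_incBC {ι : Type*} {v : ι → N ⊗[ZMod p] l}
    (hv : LinearIndependent k v) :
    LinearIndependent k' (fun i => incBC (p := p) (k := k) k' (v i)) := by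
  have h1 : LinearIndependent k' (fun i => (1 : k') ⊗ₜ[k] v i) :=
    Module.Flat.linearIndependent_one_tmul hv
  have h2 : (fun i => (1 : k') ⊗ₜ[k] v i) =
      (TensorProduct.AlgebraTensorModule.assoc (ZMod p) k k' k' N l) ∘
        (fun i => incBC (p := p) (k := k) k' (v i)) := by
    funext i; exact (assoc_incBC (v i)).symm
  rw [h2] at h1
  exact h1.of_comp
    (TensorProduct.AlgebraTensorModule.assoc (ZMod p) k k' k' N l).toLinearMap

/-- **LOC-6, main count, general coefficient field.** `k ⊆ k'`, `τ : l → k'`. Then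
`dim_k (N ⊗_{𝔽_p} l(c))^G ≤ dim_{k'} {n ∈ k' ⊗_k N | ∀ s ∈ I, (1 ⊗ ρ s) n = τ (c s)⁻¹ • n}`. -/
theorem finrank_invE_le_baseChange (ρ : Representation k G N) (c : G → l) (hc : ∀ g, c g ≠ 0)
    (τ : l →+* k')
    (hfix : ∀ x : l, (∀ g : G, g • x = x) → ∃ a : ZMod p, algebraMap (ZMod p) l a = x)
    (I : Subgroup G) (hI : ∀ s ∈ I, ∀ x : l, s • x = x) [Module.Finite k N] :
    Module.finrank k (invE (p := p) ρ c) ≤
      Module.finrank k' (eigenSub (repBC k' ρ) I (fun s => (τ (c s))⁻¹)) := by
  classical
  have key : ∀ (n : ℕ) (w : Fin n → invE (p := p) ρ c), LinearIndependent k w →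
      n ≤ Module.finrank k' (eigenSub (repBC k' ρ) I (fun s => (τ (c s))⁻¹)) := by
    intro n w hw
    have h1 : LinearIndependent k (fun i => ((w i : invE (p := p) ρ c) : N ⊗[ZMod p] l)) :=
      hw.map' (invE (p := p) ρ c).subtype (Submodule.ker_subtype _)
    have h2 := linearIndependent_incBC (p := p) (k' := k') h1
    let w' : Fin n → invE (p := p) (repBC k' ρ) c := fun i =>
      ⟨incBC (p := p) (k := k) k' ((w i : invE (p := p) ρ c) : N ⊗[ZMod p] l),
        incBC_mem_invE ρ c (w i).2⟩
    have h3 : LinearIndependent k' w' := by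
      apply LinearIndependent.of_comp (invE (p := p) (repBC k' ρ) c).subtype
      exact h2
    have hinj := contractInv_injective (repBC k' ρ) c hc τ hfix I hI
    have hfin' : Module.Finite k' (invE (p := p) (repBC k' ρ) c) :=
      Module.Finite.of_injective (contractInv (p := p) (repBC k' ρ) c hc τ I hI) hinj
    have h5 := h3.fintype_card_le_finrank
    have h6 := finrank_invE_le (p := p) (repBC k' ρ) c hc τ hfix I hI
    rw [Fintype.card_fin] at h5
    exact h5.trans h6
  apply Module.finrank_le_of_rank_le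
  apply rank_le
  intro s hs
  have hs' : LinearIndependent k
      (fun i : Fin s.card => ((s.equivFin.symm i : s) : invE (p := p) ρ c)) :=
    hs.comp _ (s.equivFin.symm.injective)
  exact key s.card _ hs'

end BaseChange

end Fermat.Agent.S56x.Local.CharCount
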