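/-
P-S56, block (A) LOCAL FLAT, file LOC-6e (helper90): the descent count, HOM FORM, over a SUBFIELD.

Generalisation of `CharCountHom.card_eqHom_le` needed over `Q_{p²}` (where the fixed field of the
residue field `l` is `𝔽_{p²}`, not `𝔽_p`).  `k₀` a finite field with embeddings `k₀ → k`, `k₀ → l`
such that
* the elements of `l` fixed by all `τ g` come from `k₀` (`hfix`);
* every equivariant hom `H : k^∨ → l` is `k₀`-linear: `H (λ ∘ (a * ·)) = a • H λ` for `a ∈ k₀` (`hlin`).
Then `#Hom_Γ(N, Y) ≤ #k` (`card_eqHom_le_of_subfield`).  The `k₀`-linearity follows from the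
equivariance under one inert element `g₀` when `ω g₀ · (χ g₀)⁻¹ = a₀ ∈ k₀` and `cc g₀ = a₀` for a
generator `a₀` of `k₀` over `𝔽_p` (`card_eqHom_le_of_gen`).
-/
import Mathlib
import Fermat.Agent.S56x.Local.CharCountHom
import Fermat.Agent.S56x.Local.CharCountHomInert

set_option autoImplicit false
set_option linter.unusedSectionVars false
set_option linter.style.haveILetI false

namespace Fermat.Agent.S56x.Local.CharCountHomSub

open Fermat.Agent.S56x.Local.FiltrationCount Fermat.Agent.S56x.Local.CWAbstract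
  Fermat.Agent.S56x.Local.CharCountHom Fermat.Agent.S56x.Local.CharCountHomInert

/-! ## The dual `k^∨` as a vector space over `k₀ ⊆ k` -/

/-- a type synonym of `k →+ ZMod p`, carrying the module structures by precomposition. -/
def Dk (k : Type*) (p : ℕ) [Field k] : Type _ := k →+ ZMod p

namespace Dk

variable {k : Type*} [Field k] {p : ℕ}

instance : AddCommGroup (Dk k p) := inferInstanceAs (AddCommGroup (k →+ ZMod p))

/-- the identification `(k →+ ZMod p) ≃+ Dk k p`. -/
def of : (k →+ ZMod p) ≃+ Dk k p := AddEquiv.refl _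

variable {k₀ : Type*} [Field k₀] [Algebra k₀ k]

instance : Module k₀ (Dk k p) where
  smul a lam := of (sh (algebraMap k₀ k a) (of.symm lam))
  one_smul lam := by
    show of (sh (algebraMap k₀ k 1) (of.symm lam)) = lam
    apply of.symm.injective
    rw [AddEquiv.symm_apply_apply]
    ext x
    rw [sh_apply, map_one, one_mul]
  mul_smul a b lam := by
    show of (sh (algebraMap k₀ k (a * b)) (of.symm lam))
      = of (sh (algebraMap k₀ k a) (of.symm (of (sh (algebraMap k₀ k b) (of.symm lam)))))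
    rw [AddEquiv.symm_apply_apply, map_mul, sh_mul]
  smul_zero a := by
    show of (sh (algebraMap k₀ k a) (of.symm 0)) = 0
    rw [map_zero]
    apply of.symm.injective
    rw [AddEquiv.symm_apply_apply, map_zero]
    ext x
    rfl
  smul_add a lam lam' := by
    show of (sh (algebraMap k₀ k a) (of.symm (lam + lam')))
      = of (sh (algebraMap k₀ k a) (of.symm lam)) + of (sh (algebraMap k₀ k a) (of.symm lam'))
    rw [← map_add, map_add of.symm]
    congr 1
  add_smul a b lam := by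
    show of (sh (algebraMap k₀ k (a + b)) (of.symm lam))
      = of (sh (algebraMap k₀ k a) (of.symm lam)) + of (sh (algebraMap k₀ k b) (of.symm lam))
    rw [map_add, sh_add, map_add]
  zero_smul lam := by
    show of (sh (algebraMap k₀ k 0) (of.symm lam)) = 0
    rw [map_zero, sh_zero, map_zero]

theorem smul_def (a : k₀) (lam : Dk k p) :
    a • lam = of (sh (algebraMap k₀ k a) (of.symm lam)) := rfl

instance [Finite k] [Fact p.Prime] : Finite (Dk k p) :=
  inferInstanceAs (Finite (k →+ ZMod p))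

end Dk

/-! ## A maximal independent family -/

section MaxIndep

variable {K V : Type*} [Field K] [AddCommGroup V] [Module K V]

/-- if the independent families contained in `E` have at most `d` elements, then `E` is contained
in the span of `m ≤ d` vectors. -/
theorem exists_span_of_indep_bound (E : Set V) (d : ℕ)
    (hbound : ∀ (m : ℕ) (v : Fin m → V), (∀ i, v i ∈ E) → LinearIndependent K v → m ≤ d) :
    ∃ (m : ℕ) (v : Fin m → V), m ≤ d ∧ ∀ x ∈ E, ∃ c : Fin m → K, ∑ i, c i • v i = x := by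
  classical
  let P : ℕ → Prop := fun m => ∃ v : Fin m → V, (∀ i, v i ∈ E) ∧ LinearIndependent K v
  have hP0 : P 0 := ⟨fun i => i.elim0, fun i => i.elim0, linearIndependent_empty_type⟩
  have hPm := Nat.findGreatest_spec (P := P) (Nat.zero_le d) hP0
  obtain ⟨v, hvE, hvind⟩ := hPm
  refine ⟨Nat.findGreatest P d, v, Nat.findGreatest_le d, fun x hx => ?_⟩
  have hnot : ¬ P (Nat.findGreatest P d + 1) := by
    rintro ⟨w, hwE, hwind⟩
    have h1 := hbound _ w hwE hwind
    have h2 := Nat.le_findGreatest (P := P) h1 ⟨w, hwE, hwind⟩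
    omega
  have hx' : x ∈ Submodule.span K (Set.range v) := by
    by_contra hcon
    apply hnot
    refine ⟨Fin.cons x v, ?_, (linearIndependent_finCons).mpr ⟨hvind, hcon⟩⟩
    intro i
    refine Fin.cases ?_ (fun j => ?_) i
    · rw [Fin.cons_zero]; exact hx
    · rw [Fin.cons_succ]; exact hvE j
  exact (Submodule.mem_span_range_iff_exists_fun K).mp hx'

end MaxIndep

/-! ## The equivariant `k₀`-linear maps -/

section Space

variable {Γ : Type*} [Group Γ] {k : Type*} [Field k] {p : ℕ} [Fact p.Prime]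
  {l : Type*} [Field l] {k₀ : Type*} [Field k₀] [Algebra k₀ k] [Algebra k₀ l]
  (χ : Γ →* kˣ) (ω : Γ → ZMod p) (τ : Γ → l →+* l) (cc : Γ → l)

theorem tw_apply (g : Γ) (lam : k →+ ZMod p) (x : k) :
    tw χ ω g lam x = ω g * lam (((χ g : k))⁻¹ * x) := rfl

/-- the twist on `Dk k p`. -/
def twD (g : Γ) (lam : Dk k p) : Dk k p := Dk.of (tw χ ω g (Dk.of.symm lam))

/-- the equivariant `k₀`-linear maps `k^∨ → l`. -/
def IsEqK (H : Dk k p →ₗ[k₀] l) : Prop :=
  ∀ (g : Γ) (lam : Dk k p), H (twD χ ω g lam) = cc g * τ g (H lam)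

/-- **independence over `k₀` implies independence over `l`** for equivariant maps. -/
theorem linearIndependent_of_isEqK (hτ : ∀ g, Function.Bijective (τ g))
    (hcc : ∀ g, cc g ≠ 0)
    (hfix : ∀ b : l, (∀ g, τ g b = b) → ∃ a : k₀, algebraMap k₀ l a = b)
    {ι : Type*} (v : ι → Dk k p →ₗ[k₀] l) (hv : ∀ i, IsEqK χ ω τ cc (v i))
    (hind : LinearIndependent k₀ v) : LinearIndependent l v := by
  classical
  rw [linearIndependent_iff'] at hind ⊢
  intro s a ha i hi
  let e : Γ → l ≃+* l := fun g => RingEquiv.ofBijective (τ g) (hτ g)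
  have he : ∀ g x, e g x = τ g x := fun g x => rfl
  refine coeff_eq_zero_of_closed (fun g => ((e g).symm : l →+* l)) v s ?_ ?_ a ha i hi
  · intro g b hb
    apply LinearMap.ext
    intro lam
    have h1 := LinearMap.congr_fun hb (twD χ ω g lam)
    rw [LinearMap.sum_apply, LinearMap.zero_apply] at h1
    have h2 : cc g * ∑ i ∈ s, b i * τ g (v i lam) = 0 := by
      rw [← h1, Finset.mul_sum]
      refine Finset.sum_congr rfl fun i _ => ?_
      rw [LinearMap.smul_apply, hv i g lam, smul_eq_mul]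
      ring
    have h3 : ∑ i ∈ s, b i * τ g (v i lam) = 0 := by
      rcases mul_eq_zero.mp h2 with h | h
      · exact absurd h (hcc g)
      · exact h
    have h4 := congrArg (e g).symm h3
    rw [map_sum, map_zero] at h4
    rw [LinearMap.sum_apply, LinearMap.zero_apply, ← h4]
    refine Finset.sum_congr rfl fun i _ => ?_
    rw [LinearMap.smul_apply, smul_eq_mul, map_mul, ← he g (v i lam), RingEquiv.symm_apply_apply]
    rfl
  · intro b hb hrel j hj
    have hb' : ∀ j, ∃ c : k₀, algebraMap k₀ l c = b j := by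
      intro j
      refine hfix _ (fun g => ?_)
      have h2 : (e g).symm (b j) = b j := hb g j
      rw [← he, ← h2, RingEquiv.apply_symm_apply, h2]
    choose c hc using hb'
    have h1 : ∑ j ∈ s, c j • v j = 0 := by
      rw [← hrel]
      refine Finset.sum_congr rfl fun j _ => ?_
      rw [← hc j, algebraMap_smul]
    have h2 := hind s c h1 j hj
    rw [← hc j, h2, map_zero]

end Space

/-! ## Dimensions and the count -/

section Count

variable {Γ : Type*} [Group Γ] {k : Type*} [Field k] [Finite k] {p : ℕ} [Fact p.Prime]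
  [CharP k p] {l : Type*} [Field l] {k₀ : Type*} [Field k₀] [Finite k₀] [Algebra k₀ k]
  [Algebra k₀ l]

theorem card_Dk : Nat.card (Dk k p) = Nat.card k := card_dual (k := k) (p := p)

/-- `Hom_{k₀}(k^∨, l) ≃ l^d`, `d = dim_{k₀} k^∨`. -/
noncomputable def homEquivK :
    (Fin (Module.finrank k₀ (Dk k p)) → l) ≃ₗ[l] (Dk k p →ₗ[k₀] l) :=
  haveI : Module.Finite k₀ (Dk k p) := Module.Finite.of_finite
  (Module.finBasis k₀ (Dk k p)).constr l

theorem finite_homK : Module.Finite l (Dk k p →ₗ[k₀] l) :=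
  Module.Finite.equiv (homEquivK (k := k) (p := p) (l := l) (k₀ := k₀))

theorem finrank_homK : Module.finrank l (Dk k p →ₗ[k₀] l) = Module.finrank k₀ (Dk k p) := by
  rw [← (homEquivK (k := k) (p := p) (l := l) (k₀ := k₀)).finrank_eq, Module.finrank_fin_fun]

variable (χ : Γ →* kˣ) (ω : Γ → ZMod p) (τ : Γ → l →+* l) (cc : Γ → l)

/-- the equivariant maps lie in the `k₀`-span of at most `dim_{k₀} k^∨` of them. -/
theorem exists_span_isEqK (hτ : ∀ g, Function.Bijective (τ g)) (hcc : ∀ g, cc g ≠ 0)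
    (hfix : ∀ b : l, (∀ g, τ g b = b) → ∃ a : k₀, algebraMap k₀ l a = b) :
    ∃ (m : ℕ) (v : Fin m → Dk k p →ₗ[k₀] l), m ≤ Module.finrank k₀ (Dk k p) ∧
      ∀ H : Dk k p →ₗ[k₀] l, IsEqK χ ω τ cc H → ∃ c : Fin m → k₀, ∑ i, c i • v i = H := by
  refine exists_span_of_indep_bound (K := k₀) {H | IsEqK χ ω τ cc H} _ ?_
  intro m v hv hind
  haveI := finite_homK (k := k) (p := p) (l := l) (k₀ := k₀)
  have h2 := linearIndependent_of_isEqK χ ω τ cc hτ hcc hfix v hv hind
  have h3 := h2.fintype_card_le_finrank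
  rw [finrank_homK, Fintype.card_fin] at h3
  exact h3

end Count

/-! ## The statement for `FiltrationCount.eqHom` -/

section Final

variable {Γ : Type*} [Group Γ] {k : Type*} [Field k] [Finite k] {p : ℕ} [Fact p.Prime]
  [CharP k p] {l : Type*} [Field l] [CharP l p]
  {k₀ : Type*} [Field k₀] [Finite k₀] [Algebra k₀ k] [Algebra k₀ l]
  (χ : Γ →* kˣ) (ω : Γ → ZMod p) (τ : Γ → l →+* l) (cc : Γ → l)
  (ρY : Γ → Multiplicative l →* Multiplicative l)
  (hρY : ∀ g y, Multiplicative.toAdd (ρY g y) = cc g * τ g (Multiplicative.toAdd y))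

/-- the `k₀`-linearity of a hom `h : N →* Y`. -/
def IsLinK (k₀ : Type*) [Field k₀] [Algebra k₀ k] [Algebra k₀ l]
    (h : Multiplicative (k →+ ZMod p) →* Multiplicative l) : Prop :=
  ∀ (a : k₀) (lam : k →+ ZMod p),
    Multiplicative.toAdd (h (Multiplicative.ofAdd (sh (algebraMap k₀ k a) lam)))
      = algebraMap k₀ l a * Multiplicative.toAdd (h (Multiplicative.ofAdd lam))

/-- the additive, `k₀`-linear form of a `k₀`-linear hom. -/
def toLinK (h : Multiplicative (k →+ ZMod p) →* Multiplicative l) (hh : IsLinK k₀ h) :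
    Dk k p →ₗ[k₀] l where
  toFun lam := Multiplicative.toAdd (h (Multiplicative.ofAdd (Dk.of.symm lam)))
  map_add' lam lam' := by
    rw [map_add, ofAdd_add, map_mul, toAdd_mul]
  map_smul' a lam := by
    rw [Dk.smul_def, AddEquiv.symm_apply_apply, hh, RingHom.id_apply, Algebra.smul_def]

theorem toLinK_apply (h : Multiplicative (k →+ ZMod p) →* Multiplicative l) (hh : IsLinK k₀ h)
    (lam : Dk k p) :
    toLinK h hh lam = Multiplicative.toAdd (h (Multiplicative.ofAdd (Dk.of.symm lam))) := rfl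

include hρY in
theorem toLinK_isEqK {h : Multiplicative (k →+ ZMod p) →* Multiplicative l} (hh : IsLinK k₀ h)
    (hmem : h ∈ eqHom (twistN χ ω) ρY ⊤) : IsEqK χ ω τ cc (toLinK h hh) := by
  intro g lam
  rw [toLinK_apply, toLinK_apply, ← hρY, ← hmem.2 g (Multiplicative.ofAdd (Dk.of.symm lam))]
  rfl

include hρY in
/-- **(HD1), subfield form.** -/
theorem card_eqHom_le_of_subfield (hτ : ∀ g, Function.Bijective (τ g)) (hcc : ∀ g, cc g ≠ 0)
    (hfix : ∀ b : l, (∀ g, τ g b = b) → ∃ a : k₀, algebraMap k₀ l a = b)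
    (hlin : ∀ h ∈ eqHom (twistN χ ω) ρY ⊤, IsLinK k₀ h) :
    Finite (eqHom (twistN χ ω) ρY ⊤) ∧ Nat.card (eqHom (twistN χ ω) ρY ⊤) ≤ Nat.card k := by
  classical
  obtain ⟨m, v, hm, hspan⟩ := exists_span_isEqK (k₀ := k₀) χ ω τ cc hτ hcc hfix
  have hex : ∀ h : eqHom (twistN χ ω) ρY ⊤, ∃ c : Fin m → k₀, ∑ i, c i • v i
      = toLinK (h : Multiplicative (k →+ ZMod p) →* Multiplicative l) (hlin _ h.2) :=
    fun h => hspan _ (toLinK_isEqK χ ω τ cc ρY hρY (hlin _ h.2) h.2)
  choose ι hι using hex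
  have hinj : Function.Injective ι := by
    intro h h' hh
    apply Subtype.ext
    ext lam
    have h1 : toLinK (h : Multiplicative (k →+ ZMod p) →* Multiplicative l) (hlin _ h.2)
        = toLinK (h' : Multiplicative (k →+ ZMod p) →* Multiplicative l) (hlin _ h'.2) := by
      rw [← hι h, ← hι h', hh]
    exact LinearMap.congr_fun h1 (Dk.of (Multiplicative.toAdd lam))
  haveI : Module.Finite k₀ (Dk k p) := Module.Finite.of_finite
  have hfin : Finite (eqHom (twistN χ ω) ρY ⊤) := Finite.of_injective ι hinj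
  refine ⟨hfin, ?_⟩
  calc Nat.card (eqHom (twistN χ ω) ρY ⊤) ≤ Nat.card (Fin m → k₀) :=
        Nat.card_le_card_of_injective ι hinj
    _ = Nat.card k₀ ^ m := by rw [Nat.card_fun, Nat.card_fin]
    _ ≤ Nat.card k₀ ^ Module.finrank k₀ (Dk k p) := Nat.pow_le_pow_right Nat.card_pos hm
    _ = Nat.card (Dk k p) := (Module.natCard_eq_pow_finrank (K := k₀) (V := Dk k p)).symm
    _ = Nat.card k := card_Dk

omit [Finite k] [Finite k₀] in
include hρY in
/-- `k₀`-linearity from the equivariance under one inert element `g₀`, when `ω g₀ · (χ g₀)⁻¹` and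
`cc g₀` are the images of one generator `a₀` of `k₀` over `𝔽_p`. -/
theorem isLinK_of_gen [CharP k₀ p] {g₀ : Γ} (hg₀ : ∀ x, τ g₀ x = x) (a₀ : k₀)
    (hgen : ∀ a : k₀, ∃ P : Polynomial (ZMod p), P.eval₂ (ZMod.castHom dvd_rfl k₀) a₀ = a)
    (hs : (((ω g₀).val : ℕ) : k) * ((χ g₀ : k))⁻¹ = algebraMap k₀ k a₀)
    (ht : cc g₀ = algebraMap k₀ l a₀)
    {h : Multiplicative (k →+ ZMod p) →* Multiplicative l}
    (hmem : h ∈ eqHom (twistN χ ω) ρY ⊤) : IsLinK k₀ h := by
  intro a lam
  set H : (k →+ ZMod p) →+ l := AddMonoidHom.toMultiplicative.symm h with hHdef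
  have hHapp : ∀ lam, H lam = Multiplicative.toAdd (h (Multiplicative.ofAdd lam)) := fun _ => rfl
  have hH : ∀ lam, H (sh ((((ω g₀).val : ℕ) : k) * ((χ g₀ : k))⁻¹) lam) = cc g₀ * H lam := by
    intro lam
    have h1 := hmem.2 g₀ (Multiplicative.ofAdd lam)
    rw [twistN_eq_sh] at h1
    rw [hHapp, h1, hρY, hg₀, hHapp]
  obtain ⟨P, hP⟩ := hgen a
  have key := apply_sh_eval H _ (cc g₀) hH P lam
  have hk : P.eval₂ (ZMod.castHom dvd_rfl k) ((((ω g₀).val : ℕ) : k) * ((χ g₀ : k))⁻¹)
      = algebraMap k₀ k a := by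
    rw [hs, ← hP, Polynomial.hom_eval₂]
    congr 1
    exact RingHom.ext_zmod _ _
  have hl : P.eval₂ (ZMod.castHom dvd_rfl l) (cc g₀) = algebraMap k₀ l a := by
    rw [ht, ← hP, Polynomial.hom_eval₂]
    congr 1
    exact RingHom.ext_zmod _ _
  rw [hk, hl] at key
  exact key

include hρY in
/-- **(HD1), subfield form with one inert generator.** -/
theorem card_eqHom_le_of_gen [CharP k₀ p] (hτ : ∀ g, Function.Bijective (τ g))
    (hcc : ∀ g, cc g ≠ 0)
    (hfix : ∀ b : l, (∀ g, τ g b = b) → ∃ a : k₀, algebraMap k₀ l a = b)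
    {g₀ : Γ} (hg₀ : ∀ x, τ g₀ x = x) (a₀ : k₀)
    (hgen : ∀ a : k₀, ∃ P : Polynomial (ZMod p), P.eval₂ (ZMod.castHom dvd_rfl k₀) a₀ = a)
    (hs : (((ω g₀).val : ℕ) : k) * ((χ g₀ : k))⁻¹ = algebraMap k₀ k a₀)
    (ht : cc g₀ = algebraMap k₀ l a₀) :
    Finite (eqHom (twistN χ ω) ρY ⊤) ∧ Nat.card (eqHom (twistN χ ω) ρY ⊤) ≤ Nat.card k :=
  card_eqHom_le_of_subfield (k₀ := k₀) χ ω τ cc ρY hρY hτ hcc hfix
    (fun _ hmem => isLinK_of_gen χ ω τ cc ρY hρY hg₀ a₀ hgen hs ht hmem)

end Final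

end Fermat.Agent.S56x.Local.CharCountHomSub
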