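/-
P-S56, block (A), case (IND) (helper62): the residue-field input `hfix2` of
`CWLocalQp2HD.rank_H1A_le_one_Qp2_of_fix` (and its `f = 1` analogue), for the concrete operator
family `CWPadicOps.sigmaOE L g` on `OE p L`, `L / ℚ_p` finite Galois inside `PadicAlgCl p`:

  an element of the residue field of `OE p L` fixed by every `g ∈ lev p m = G_{ℚ_{p^m}}`
  satisfies `b ^ (p ^ m) = b`.

Proof: the frozen local library (`Lib/CFT/Local/Unramified.exists_residueGalHom_eq_frobRes`)
gives `σ ∈ Gal(L/ℚ_p)` inducing `x ↦ x ^ p` on the residue field; lift it to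
`g₁ ∈ Gal(PadicAlgCl p/ℚ_p)` (`CWPadicOps.resL_surjective`); then `g₁ ^ m ∈ lev p m`
(`LevPow.pow_mem_lev`) induces `x ↦ x ^ (p ^ m)`.

Exports: `exists_frobenius_lift`, `map_sigmaOE_pow_of_frobenius`, `pow_eq_of_fixed_lev`
(general `m`), `sq_eq_of_fixed_lev_two` (`m = 2`, conclusion `b ^ (p * p) = b`),
`pow_p_eq_of_fixed` (`f = 1`, hypothesis over all of `GQp p`), `pow_p_eq_of_fixed_lev_one`.
-/
import Mathlib
import Fermat.Agent.Lib.CFT.Local.Unramified
import Fermat.Agent.S56x.Local.PadicFinite
import Fermat.Agent.S56x.Local.PadicInertia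
import Fermat.Agent.S56x.Local.CWPadicOps
import Fermat.Agent.S56x.Local.UnrLevels
import Fermat.Agent.S56x.Local.LevPow

set_option autoImplicit false
set_option linter.unusedSectionVars false
set_option linter.style.haveILetI false

open IsLocalRing

namespace Fermat.Agent.S56x.Local.ResidueFixSq

open Fermat.Agent.S56x.Local.PadicFinite Fermat.Agent.S56x.Local.PadicInertia
open Fermat.Agent.S56x.Local.CWPadicOps Fermat.Agent.S56x.Local.UnrLevels
open Fermat.Agent.S56x.Local.BddDef
open Fermat.Agent.Lib.CFT.Local.Unramified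

variable {p : ℕ} [Fact p.Prime] (L : IntermediateField ℚ_[p] (PadicAlgCl p))
  [FiniteDimensional ℚ_[p] L] [Normal ℚ_[p] L]

/-- **a Frobenius lift**: some `g₁ ∈ Gal(PadicAlgCl p/ℚ_p)` acts on the residue field of
`OE p L` as `x ↦ x ^ p`. -/
theorem exists_frobenius_lift :
    ∃ g₁ : GQp p, ∀ y : ResidueField (OE p L),
      ResidueField.map ((sigmaOE L g₁ : OE p L ≃+* OE p L) : OE p L →+* OE p L) y = y ^ p := by
  haveI : IsGalois ℚ_[p] L := ⟨⟩
  haveI := finite_residueField_zq p
  obtain ⟨σ, hσ⟩ := exists_residueGalHom_eq_frobRes ℤ_[p] ℚ_[p] L (OE p L)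
  obtain ⟨g₁, rfl⟩ := resL_surjective L σ
  refine ⟨g₁, fun y => ?_⟩
  obtain ⟨b, rfl⟩ := residue_surjective y
  rw [ResidueField.map_residue]
  have h1 := congrArg (fun e => e (residue (OE p L) b)) hσ
  simp only at h1
  rw [residueGalHom_residue, frobRes_apply, natCard_residueField_zq, galRestrict_eq_smul] at h1
  exact h1

/-- if `g` induces `x ↦ x ^ p` on the residue field then `g ^ n` induces `x ↦ x ^ (p ^ n)`. -/
theorem map_sigmaOE_pow_of_frobenius {g : GQp p}
    (hg : ∀ y : ResidueField (OE p L),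
      ResidueField.map ((sigmaOE L g : OE p L ≃+* OE p L) : OE p L →+* OE p L) y = y ^ p)
    (n : ℕ) (y : ResidueField (OE p L)) :
    ResidueField.map ((sigmaOE L (g ^ n) : OE p L ≃+* OE p L) : OE p L →+* OE p L) y
      = y ^ (p ^ n) := by
  induction n generalizing y with
  | zero =>
    obtain ⟨b, rfl⟩ := residue_surjective y
    rw [ResidueField.map_residue, pow_zero, pow_zero, pow_one]
    exact congrArg (residue (OE p L)) (sigmaOE_one L b)
  | succ n ih =>
    obtain ⟨b, rfl⟩ := residue_surjective y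
    have h1 : ResidueField.map
        ((sigmaOE L (g ^ (n + 1)) : OE p L ≃+* OE p L) : OE p L →+* OE p L) (residue (OE p L) b)
        = ResidueField.map ((sigmaOE L (g ^ n) : OE p L ≃+* OE p L) : OE p L →+* OE p L)
          (ResidueField.map ((sigmaOE L g : OE p L ≃+* OE p L) : OE p L →+* OE p L)
            (residue (OE p L) b)) := by
      rw [ResidueField.map_residue, ResidueField.map_residue, ResidueField.map_residue]
      exact congrArg (residue (OE p L)) (by rw [pow_succ]; exact sigmaOE_mul L (g ^ n) g b)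
    rw [h1, hg, ih, ← pow_mul, ← pow_succ']

/-- **`hfix` for general level `m`**: an element of the residue field of `OE p L` fixed by
`lev p m = G_{ℚ_{p^m}}` lies in `F_{p^m}`. -/
theorem pow_eq_of_fixed_lev {m : ℕ} (hm : 0 < m) (b : ResidueField (OE p L))
    (hb : ∀ g ∈ lev p m,
      ResidueField.map ((sigmaOE L g : OE p L ≃+* OE p L) : OE p L →+* OE p L) b = b) :
    b ^ (p ^ m) = b := by
  obtain ⟨g₁, hg₁⟩ := exists_frobenius_lift L
  have h := hb (g₁ ^ m) (LevPow.pow_mem_lev hm g₁)
  rw [map_sigmaOE_pow_of_frobenius L hg₁] at h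
  exact h

/-- **`hfix2`** (the residue input of `CWLocalQp2HD.rank_H1A_le_one_Qp2_of_fix`): an element of
the residue field of `OE p L` fixed by `lev p 2 = G_{ℚ_{p²}}` satisfies `b ^ (p * p) = b`. -/
theorem sq_eq_of_fixed_lev_two (b : ResidueField (OE p L))
    (hb : ∀ g ∈ lev p 2,
      ResidueField.map ((sigmaOE L g : OE p L ≃+* OE p L) : OE p L →+* OE p L) b = b) :
    b ^ (p * p) = b := by
  have h := pow_eq_of_fixed_lev L (m := 2) (by norm_num) b hb
  rwa [sq] at h

/-- the same with the operators indexed by the subgroup `↥(lev p 2)`. -/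
theorem sq_eq_of_fixed_lev_two' (b : ResidueField (OE p L))
    (hb : ∀ g : ↥(lev p 2),
      ResidueField.map ((sigmaOE L (g : GQp p) : OE p L ≃+* OE p L) : OE p L →+* OE p L) b = b) :
    b ^ (p * p) = b :=
  sq_eq_of_fixed_lev_two L b (fun g hg => hb ⟨g, hg⟩)

/-- **`hfix` for `f = 1`**: an element of the residue field of `OE p L` fixed by all of
`Gal(PadicAlgCl p/ℚ_p)` lies in `F_p`. -/
theorem pow_p_eq_of_fixed (b : ResidueField (OE p L))
    (hb : ∀ g : GQp p,
      ResidueField.map ((sigmaOE L g : OE p L ≃+* OE p L) : OE p L →+* OE p L) b = b) :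
    b ^ p = b := by
  obtain ⟨g₁, hg₁⟩ := exists_frobenius_lift L
  rw [← hg₁ b]
  exact hb g₁

/-- the `f = 1` version with `lev p 1` (which is all of the group) as index set. -/
theorem pow_p_eq_of_fixed_lev_one (b : ResidueField (OE p L))
    (hb : ∀ g ∈ lev p 1,
      ResidueField.map ((sigmaOE L g : OE p L ≃+* OE p L) : OE p L →+* OE p L) b = b) :
    b ^ p = b := by
  have h := pow_eq_of_fixed_lev L (m := 1) (by norm_num) b hb
  rwa [pow_one] at h

end Fermat.Agent.S56x.Local.ResidueFixSq
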