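import Mathlib
import Fermat.Agent.S56x.Local.PadicFinite
import Fermat.Agent.S56x.Local.UnrLevels

/-!
# P-S56, block (A) (helper2): the tame-data statement over `ℚ_{p²}`

`TameDataQp2Statement p k` is the `ℚ_{p²}`-analogue of helper10's `CW1Padic.TameDataStatement p k`:
for a character `μ : Gal(ℚ̄_p/ℚ_{p²}) → kˣ` with open kernel there is a finite Galois `L/ℚ_p`
containing `ζ_p` and `μ_{p²-1}`, splitting `μ`, of degree prime to `p`, with a uniformizer `ϖ` such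
that `p = c₀ ϖ^(p²-1)` and `ϖ^(p²-1) ∈ ℤ_p`.

It is the only arithmetic input (besides `CW1Padic.BoundedKummerStatement p`) of
`CountQp2Final.countQp2Statement : IndFinal.CountQp2Statement p k`.

Intended proof: `TameFieldGalois.exists_galois_field` (`f = 2`, `H₀ = ker μ`) gives
`L ⊇ ℚ_{p²}(ζ_p, π)`, `π^(p²-1) = -p`, with `Gal(L/ℚ_{p²})` abelian of exponent prime to `p`;
`TameFieldDegree.not_dvd_finrank_of_exp_two` gives the degree; the tame inertia group of the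
abelian extension `L/ℚ_{p²}` has order dividing `p² - 1`, so `π` is a uniformizer of `L`
(`a = -p`, `c₀ = -1`).
-/

set_option autoImplicit false

namespace Fermat.Agent.S56x.Local.TameDataQp2Def

open Fermat.Agent.S56x.Local.PadicFinite Fermat.Agent.S56x.Local.UnrLevels

variable (p : ℕ) [Fact p.Prime]

/-- **tame data over `ℚ_{p²}`**: a finite Galois `L/ℚ_p` splitting `μ`, containing `ζ_p` and
`μ_{p²-1}`, of degree prime to `p`, with `e(L/ℚ_p) = p² - 1` and a uniformizer whose `(p²-1)`-st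
power lies in `ℤ_p`. -/
def TameDataQp2Statement (k : Type*) [Field k] : Prop :=
  ∀ [Finite k] [CharP k p], p ≠ 2 → ∀ μ : ↥(lev p 2) →* kˣ,
    (∃ E₀ : IntermediateField ℚ_[p] (PadicAlgCl p), FiniteDimensional ℚ_[p] E₀ ∧
      ∀ s : ↥(lev p 2),
        (s : PadicAlgCl p ≃ₐ[ℚ_[p]] PadicAlgCl p) ∈ E₀.fixingSubgroup → μ s = 1) →
    ∃ (L : IntermediateField ℚ_[p] (PadicAlgCl p)) (_ : FiniteDimensional ℚ_[p] L)
      (_ : IsGalois ℚ_[p] L) (ζ : PadicAlgCl p) (ϖ : OE p L) (c₀ : (OE p L)ˣ) (a : ℤ_[p]),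
      IsPrimitiveRoot ζ p ∧ ζ ∈ L ∧ (∀ z : PadicAlgCl p, z ^ (p ^ 2 - 1) = 1 → z ∈ L) ∧
      (∀ s : ↥(lev p 2),
        (s : PadicAlgCl p ≃ₐ[ℚ_[p]] PadicAlgCl p) ∈ L.fixingSubgroup → μ s = 1) ∧
      ¬ p ∣ Module.finrank ℚ_[p] L ∧ Irreducible ϖ ∧
      ((p : ℕ) : OE p L) = c₀ * ϖ ^ (p ^ 2 - 1) ∧
      ϖ ^ (p ^ 2 - 1) = algebraMap ℤ_[p] (OE p L) a

end Fermat.Agent.S56x.Local.TameDataQp2Def
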