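import Mathlib
import Fermat.Agent.S56x.Local.CWAssemblyQp2
import Fermat.Agent.S56x.Local.CW1Padic
import Fermat.Agent.S56x.Local.InertGenerator
import Fermat.Agent.S56x.Local.TameRepPadicInertia
import Fermat.Agent.S56x.Local.AbelianTameE0
import Fermat.Agent.S56x.Local.UnrLevels
import Fermat.Agent.S56x.Local.ResidueFixSq
import Fermat.Agent.S56x.Local.TameDataQp2Def

/-!
# P-S56, block (A) (helper2): the count over `ℚ_{p²}` for the algebra of bounded functions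

The `p`-adic instantiation of `CWAssemblyQp2` (mirror of helper10's `CW1Padic`):
`Ω = PadicAlgCl p`, `F = ℚ_[p]`, `Γ' = UnrLevels.lev p 2 = Gal(ℚ̄_p/ℚ_{p²})`,
`𝒜' = BddAlg.bddAlgOn p (lev p 2) k`, `L` a finite Galois extension of `ℚ_p` containing
`μ_{p²-1}` and `ζ_p`, with a uniformizer `ϖ` such that `p = c₀ ϖ^(p²-1)`, `ϖ^(p²-1) ∈ ℤ_p`, of degree
prime to `p` (`TameDataQp2Def.TameDataQp2Statement`); `B = OE p L`, `σ = CWPadicOps.sigmaOE L`.

Main theorem: `countQp2` = the body of helper5's `IndFinal.CountQp2Statement p k` (the only input of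
`IndFinal.indStatement`), with `IndFinal.omegaK` unfolded (so that this file does not depend on
`IndFinal`): for a bounded character `μ : Gal(ℚ̄_p/ℚ_{p²}) → kˣ` which is trivial, or different from
`1` and from the cyclotomic character at some element of the inertia subgroup,
`rank_k H¹_bdd(Gal(ℚ̄_p/ℚ_{p²}), k(μ)) ≤ 1`.

Everything is discharged (inert generator of the tame inertia group via `InertGenerator`,
`inertiaE p L ≤ lev p 2`, `hN`, `hcont`, the `HB`-discharge, the residue fixed points via helper62's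
`ResidueFixSq`) except two arithmetic inputs stated as `Prop`s:

* `TameDataQp2Def.TameDataQp2Statement p k` (the tame data);
* `CW1Padic.BoundedKummerStatement p` (Fontaine's bound ⇒ Kummer generators in `U^(e)`).
-/

set_option autoImplicit false
set_option linter.unusedSectionVars false
set_option linter.style.haveILetI false
set_option linter.overlappingInstances false
set_option linter.unnecessarySimpa false

noncomputable section

namespace Fermat.Agent.S56x.Local.CountQp2Final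

open IntermediateField IsLocalRing
open Fermat.Agent.S56x.Local.KummerH1 Fermat.Agent.S56x.Local.CWAbstract
  Fermat.Agent.S56x.Local.Devissage Fermat.Agent.S56x.Local.KummerPairing
  Fermat.Agent.S56x.Local.KummerPairingInt Fermat.Agent.S56x.Local.KummerPairingSub
  Fermat.Agent.S56x.Local.FiltrationCount
  Fermat.Agent.Lib.CFT.Local.UnitsFiltration Fermat.Agent.S56x.Local.WbCount
  Fermat.Agent.S56x.Local.BddDef Fermat.Agent.S56x.Local.PadicFinite
  Fermat.Agent.S56x.Local.CWPadicOps Fermat.Agent.S56x.Local.BddAlg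
  Fermat.Agent.S56x.Local.UnrLevels Fermat.Agent.S56x.Ram
  Fermat.Agent.S56x.Local.TameDataQp2Def

variable (p : ℕ) [Fact p.Prime]

variable {p}
variable (E : IntermediateField ℚ_[p] (PadicAlgCl p)) [FiniteDimensional ℚ_[p] E]
  [IsGalois ℚ_[p] E]

/-! ### Inertia relative to `E` and the level `lev p 2` -/

/-- a lift of a Frobenius of `Gal(E/ℚ_p)`. -/
theorem exists_frob_lift : ∃ φ : GQp p, ∀ b : OE p E,
    AlgEquiv.restrictNormalHom E φ • b - b ^ p ∈ maximalIdeal (OE p E) := by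
  obtain ⟨φ', hφ'⟩ := AbelianTameE0.exists_frobenius_lift (L := E)
  obtain ⟨φ, rfl⟩ := resL_surjective E φ'
  refine ⟨φ, fun b => ?_⟩
  rw [← residue_eq_zero_iff, map_sub, map_pow, sub_eq_zero]
  exact hφ' b

/-- the inertia subgroup relative to `E ⊇ μ_{p²-1}` lies in `Gal(ℚ̄_p/ℚ_{p²})`. -/
theorem inertiaE_le_lev_two (hμE : ∀ z : PadicAlgCl p, z ^ (p ^ 2 - 1) = 1 → z ∈ E) :
    TameRepPadic.inertiaE p E ≤ lev p 2 := by
  have hp := (Fact.out : p.Prime)
  intro t ht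
  obtain ⟨φ, hφ⟩ := exists_frob_lift E
  rw [mem_lev_iff]
  intro z hz
  have hcop : (p ^ 2 - 1).Coprime p := by
    rw [Nat.coprime_comm, hp.coprime_iff_not_dvd]
    intro hdvd
    have h1 : p ∣ p ^ 2 := dvd_pow_self p (by norm_num)
    have hpos : 1 ≤ p ^ 2 := Nat.one_le_pow _ _ hp.pos
    have h2 : p ∣ p ^ 2 - (p ^ 2 - 1) := Nat.dvd_sub h1 hdvd
    have h3 : p ^ 2 - (p ^ 2 - 1) = 1 := by omega
    rw [h3] at h2
    exact hp.one_lt.ne' (Nat.dvd_one.mp h2)
  have := TameRepPadic.frob_pow_mul_apply_root (E := E) hφ ht 0 hcop hz (hμE z hz)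
  simpa using this

/-- the fixing subgroup of `E ⊇ μ_{p²-1}` lies in `Gal(ℚ̄_p/ℚ_{p²})`. -/
theorem fixingSubgroup_le_lev_two (hμE : ∀ z : PadicAlgCl p, z ^ (p ^ 2 - 1) = 1 → z ∈ E) :
    E.fixingSubgroup ≤ lev p 2 := by
  intro s hs
  rw [mem_lev_iff]
  intro z hz
  exact (IntermediateField.mem_fixingSubgroup_iff E s).mp hs z (hμE z hz)

/-! ### The tame data of `E` -/

section Data

variable (hμE : ∀ z : PadicAlgCl p, z ^ (p ^ 2 - 1) = 1 → z ∈ E)
  {ϖ : OE p E} (hϖ : Irreducible ϖ) {c₀ : (OE p E)ˣ}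
  (hpe : ((p : ℕ) : OE p E) = c₀ * ϖ ^ (p ^ 2 - 1))

omit [FiniteDimensional ℚ_[p] E] [IsGalois ℚ_[p] E] in
/-- `p² - 1 = (p - 1) (p + 1)`. -/
theorem sq_sub_one_eq : p ^ 2 - 1 = (p - 1) * (p + 1) := by
  have hp := (Fact.out : p.Prime)
  have h1 : p - 1 + 1 = p := Nat.sub_add_cancel hp.one_le
  apply Nat.sub_eq_of_eq_add
  generalize p - 1 = m at h1
  rw [← h1]
  ring

omit [FiniteDimensional ℚ_[p] E] [IsGalois ℚ_[p] E] in
/-- `p² - 1` is prime to `p`. -/
theorem coprime_sq_sub_one : (p ^ 2 - 1).Coprime p := by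
  have hp := (Fact.out : p.Prime)
  rw [Nat.coprime_comm, hp.coprime_iff_not_dvd]
  intro hdvd
  have h1 : p ∣ p ^ 2 := dvd_pow_self p (by norm_num)
  have hpos : 1 ≤ p ^ 2 := Nat.one_le_pow _ _ hp.pos
  have h2 : p ∣ p ^ 2 - (p ^ 2 - 1) := Nat.dvd_sub h1 hdvd
  have h3 : p ^ 2 - (p ^ 2 - 1) = 1 := by omega
  rw [h3] at h2
  exact hp.one_lt.ne' (Nat.dvd_one.mp h2)

include hϖ hpe in
/-- `v_E(p) = p² - 1`. -/
theorem addVal_p_eq :
    IsDiscreteValuationRing.addVal (OE p E) ((p : ℕ) : OE p E) = ((p ^ 2 - 1 : ℕ) : ℕ∞) := by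
  rw [hpe, IsDiscreteValuationRing.addVal_mul, IsDiscreteValuationRing.addVal_pow,
    IsDiscreteValuationRing.addVal_uniformizer hϖ]
  simp

include hϖ hpe in
/-- `e(E/ℚ_p) = p² - 1`. -/
theorem e0_eq : (ramNum p E).e0 = p ^ 2 - 1 := by
  have h := PadicE0.addVal_p_eq_e0 E
  rw [addVal_p_eq E hϖ hpe] at h
  exact_mod_cast h.symm

include hϖ hpe in
/-- the inertia group of `Gal(E/ℚ_p)` has order `p² - 1`. -/
theorem card_inertia_eq :
    Nat.card ↥(lowerGroup (E ≃ₐ[ℚ_[p]] E) (OE p E) 1) = p ^ 2 - 1 := by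
  rw [← AbelianTameE0.inertiaGroup_eq_lowerGroup_one, ← PadicE0.e0_eq_card_inertiaGroup,
    e0_eq E hϖ hpe]

include hϖ hpe in
/-- **complete case**: `U^(p²+p+1) ≤ (Bˣ)^p`. -/
theorem principalUnits_le :
    principalUnits (OE p E) (p ^ 2 + p + 1) ≤ WbFiltration.pthPowers (OE p E) p := by
  have hp := (Fact.out : p.Prime)
  have htop : (p ^ 2 - 1) * p < (p ^ 2 + p + 1) * (p - 1) := by
    rw [sq_sub_one_eq]
    have hpos : 0 < p - 1 := by have := hp.two_le; omega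
    have h1 : (p + 1) * p < p ^ 2 + p + 1 := by
      have : (p + 1) * p = p ^ 2 + p := by ring
      omega
    calc (p - 1) * (p + 1) * p = (p - 1) * ((p + 1) * p) := by ring
      _ < (p - 1) * (p ^ 2 + p + 1) := (Nat.mul_lt_mul_left hpos).mpr h1
      _ = (p ^ 2 + p + 1) * (p - 1) := mul_comm _ _
  exact UnitFiltration.principalUnits_le_pthPowers hϖ hp hpe htop

include hμE hϖ hpe in
/-- **the inert generator**: an element `g₀ ∈ Gal(ℚ̄_p/ℚ_{p²})` acting trivially on the residue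
field of `E`, whose tame character value has order `p² - 1`, and such that every element of
`Gal(ℚ̄_p/ℚ_{p²})` inert for `E` is a power of `g₀` modulo `G_E`. -/
theorem exists_generator :
    ∃ g₀ : ↥(lev p 2),
      ((g₀ : GQp p) ∈ TameRepPadic.inertiaE p E) ∧
      (∀ y, ResidueField.map
        ((sigmaOE E (g₀ : GQp p) : OE p E ≃+* OE p E) : OE p E →+* OE p E) y = y) ∧
      (∀ c : OE p E, sigmaOE E (g₀ : GQp p) ϖ = c * ϖ →
        orderOf (residue (OE p E) c) = p ^ 2 - 1) ∧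
      (∀ t : ↥(lev p 2), (t : GQp p) ∈ TameRepPadic.inertiaE p E →
        ∃ (n : ℕ) (s : ↥(lev p 2)), (s : GQp p) ∈ E.fixingSubgroup ∧ t = g₀ ^ n * s) := by
  have hp := (Fact.out : p.Prime)
  have hcard := card_inertia_eq E hϖ hpe
  have hcop : (Nat.card ↥(lowerGroup (E ≃ₐ[ℚ_[p]] E) (OE p E) 1)).Coprime p := by
    rw [hcard]
    exact coprime_sq_sub_one
  have hqB : ((p : ℕ) : OE p E) ∈ maximalIdeal (OE p E) := natCast_p_mem_maximalIdeal
  obtain ⟨g', hg'I, hord, hgen, -⟩ :=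
    InertGenerator.exists_inert_generator (G := E ≃ₐ[ℚ_[p]] E) hϖ hqB hcop
  obtain ⟨g₀, rfl⟩ := resL_surjective E g'
  have hsub : ∀ b : OE p E, resL E g₀ • b - b ∈ maximalIdeal (OE p E) := fun b => by
    have := mem_lowerGroup.mp hg'I b
    rwa [pow_one] at this
  have hg₀I : g₀ ∈ TameRepPadic.inertiaE p E := by
    rw [TameRepPadic.mem_inertiaE_iff]
    exact hsub
  have hg₀lev : g₀ ∈ lev p 2 := inertiaE_le_lev_two E hμE hg₀I
  refine ⟨⟨g₀, hg₀lev⟩, hg₀I, (residueField_map_sigmaOE_eq_iff E g₀).mpr hsub, ?_, ?_⟩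
  · intro c hc
    rw [hord c (by rw [← sigmaOE_apply]; exact hc), hcard]
  · intro t ht
    have htI : resL E (t : GQp p) ∈ lowerGroup (E ≃ₐ[ℚ_[p]] E) (OE p E) 1 := by
      rw [mem_lowerGroup]
      intro b
      rw [pow_one]
      exact (TameRepPadic.mem_inertiaE_iff p E _).mp ht b
    have h1 := hgen _ htI
    rw [← mem_powers_iff_mem_zpowers] at h1
    obtain ⟨n, hn⟩ := (Submonoid.mem_powers_iff _ _).mp h1
    have hs : (g₀ ^ n)⁻¹ * (t : GQp p) ∈ E.fixingSubgroup := by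
      rw [← resL_eq_one_iff, map_mul, map_inv, map_pow, hn, inv_mul_cancel]
    have hslev : (g₀ ^ n)⁻¹ * (t : GQp p) ∈ lev p 2 :=
      (lev p 2).mul_mem ((lev p 2).inv_mem ((lev p 2).pow_mem hg₀lev n)) t.2
    refine ⟨n, ⟨_, hslev⟩, hs, ?_⟩
    apply Subtype.ext
    rw [Subgroup.coe_mul, Subgroup.coe_pow]
    show (t : GQp p) = g₀ ^ n * ((g₀ ^ n)⁻¹ * (t : GQp p))
    rw [mul_inv_cancel_left]

end Data

/-! ### The cyclotomic exponent -/

/-- the exponent `omega` of `KummerPairing` is the Prelude's mod `p` cyclotomic exponent. -/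
theorem omega_val_eq_cycloExp {ζ : PadicAlgCl p} (hζ : IsPrimitiveRoot ζ p) (t : GQp p) :
    (omega (F := ℚ_[p]) hζ t).val = ExtCitation.cycloExp p (localGaloisToGlobal p t) := by
  haveI : NeZero p := ⟨(Fact.out : p.Prime).ne_zero⟩
  have h1 := omega_spec (F := ℚ_[p]) hζ t
  have h2 := TameDataLocal.apply_rootOfUnity p p t hζ.pow_eq_one
  rw [ExtCitation.val_cycloChar, h1] at h2
  refine hζ.pow_inj (ZMod.val_lt _) ?_ h2
  rw [← ExtCitation.val_cycloChar]
  exact ZMod.val_lt _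

/-! ### The count -/

variable {k : Type*} [Field k]

/-- **The count over `ℚ_{p²}` at a given tame level `L`** for the algebra of bounded functions:
`L/ℚ_p` finite Galois of degree prime to `p` containing `ζ_p` and `μ_{p²-1}`, with a uniformizer
`ϖ` such that `p = c₀ ϖ^(p²-1)`, `ϖ^(p²-1) ∈ ℤ_p`; `μ` bounded, trivial on `G_L`, and trivial or
different from `1` and from the cyclotomic character at some element of the inertia subgroup
relative to `L`. -/
theorem countQp2_of_data [Finite k] [CharP k p] (hp2 : p ≠ 2)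
    (hBK : CW1Padic.BoundedKummerStatement p)
    (L : IntermediateField ℚ_[p] (PadicAlgCl p)) [FiniteDimensional ℚ_[p] L] [IsGalois ℚ_[p] L]
    {ζ : PadicAlgCl p} (hζ : IsPrimitiveRoot ζ p) (hζL : ζ ∈ L)
    (hμL : ∀ z : PadicAlgCl p, z ^ (p ^ 2 - 1) = 1 → z ∈ L)
    (hidx : ¬ p ∣ Module.finrank ℚ_[p] L)
    {ϖ : OE p L} (hϖ : Irreducible ϖ) {c₀ : (OE p L)ˣ}
    (hpe : ((p : ℕ) : OE p L) = c₀ * ϖ ^ (p ^ 2 - 1)) {a : ℤ_[p]}
    (hϖa : ϖ ^ (p ^ 2 - 1) = algebraMap ℤ_[p] (OE p L) a)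
    (μ : ↥(lev p 2) →* kˣ)
    (hχL : ∀ s : ↥(lev p 2), (s : GQp p) ∈ L.fixingSubgroup → μ s = 1)
    (hside : μ = 1 ∨ ∃ t : ↥(lev p 2), (t : GQp p) ∈ TameRepPadic.inertiaE p L ∧
      (μ t : k) ≠ 1 ∧
      (μ t : k) ≠ ((ExtCitation.cycloExp p (localGaloisToGlobal p (t : GQp p)) : ℕ) : k)) :
    Module.rank k (H1A (bddAlgOn p (lev p 2) k) μ) ≤ 1 := by
  have hp := (Fact.out : p.Prime)
  have hp3 : 3 ≤ p := by
    have := hp.two_le
    omega
  have hp2' : 2 ≤ p - 1 := by omega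
  haveI : Normal ℚ_[p] L := IsGalois.to_normal
  have hroot : ∀ x : ↥L, ∃ α : PadicAlgCl p, α ^ p = (x : PadicAlgCl p) := fun x =>
    IsAlgClosed.exists_pow_nat_eq _ hp.pos
  -- the multipliers `c g`
  choose c hc hcpow using fun g : GQp p => exists_sigmaOE_eq_mul L hϖ.ne_zero hϖa g
  have hpe' : ((p : ℕ) : OE p L) = c₀ * ϖ ^ (p ^ 2 - 1) := hpe
  have hN := principalUnits_le L hϖ hpe'
  have hLΓ : L.fixingSubgroup ≤ lev p 2 := fixingSubgroup_le_lev_two L hμL
  have hχ : ∀ s ∈ GLsub (L := L) (lev p 2), μ s = 1 := fun s hs =>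
    hχL s (Subgroup.mem_subgroupOf.mp hs)
  -- `hcont`
  have hcont : ∀ f ∈ bddAlgOn p (lev p 2) k, ∃ E : IntermediateField ℚ_[p] (PadicAlgCl p),
      FiniteDimensional ℚ_[p] E ∧
      ∀ (g t : ↥(lev p 2)), (t : GQp p) ∈ E.fixingSubgroup → f (g * t) = f g := by
    intro f hf
    obtain ⟨E, ⟨hfin, -, -⟩, h⟩ := isBddFunOn_of_mem hf
    exact ⟨E, hfin, h⟩
  -- tameness of `L`
  have hcop : Nat.Coprime (Module.finrank ℚ_[p] L) p :=
    (Nat.Coprime.symm ((Nat.Prime.coprime_iff_not_dvd hp).mpr hidx))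
  have htame : (ramNum p L).IsTame := PadicE0.isTame_of_finrank_coprime L hcop
  have hLbdd : IsBddField p L := PadicE0.isBddField_of_tame L htame
  have heA := addVal_p_eq L hϖ hpe'
  have he0 := e0_eq L hϖ hpe'
  have hepos : 1 ≤ p ^ 2 - 1 := by
    rw [sq_sub_one_eq (p := p)]
    exact Nat.mul_pos (by omega) (by omega)
  -- `HB`
  have HB : ∀ χ : ↥(lev p 2) →* kˣ, ∀ u ∈ Z1A (bddAlgOn p (lev p 2) k) χ,
      ∀ (l : k →+ ZMod p) (x : (↥L)ˣ) (α : PadicAlgCl p),
      α ^ p = ((x : ↥L) : PadicAlgCl p) →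
      (∀ s : GLsub (L := L) (lev p 2),
        ((s : ↥(lev p 2)) : GQp p) α = ζ ^ (l (u s)).val * α) →
      ∃ (z : (↥L)ˣ) (b : (OE p L)ˣ), b ∈ principalUnits (OE p L) (p ^ 2 - 1) ∧
        KummerPairingInt.unitsIncl L (OE p L) b = x * z ^ p := by
    intro χ u hu l x α hα hact
    have huZ : u ∈ Z1 χ := ((mem_Z1A _).mp hu).1
    have hu𝒜 : u ∈ bddAlgOn p (lev p 2) k := ((mem_Z1A _).mp hu).2
    obtain ⟨E, hE, hEu⟩ := isBddFunOn_of_mem hu𝒜
    have hM : IsBddField p (E ⊔ L) := BddField.isBddField_sup hE hLbdd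
    have hαM : α ∈ E ⊔ L := by
      refine kummerGen_mem (L := L)
        (f := fun s : L.fixingSubgroup =>
          l (u ((ofL (lev p 2) hLΓ s : GLsub (L := L) (lev p 2)) : ↥(lev p 2))))
        (fun s => hact (ofL (lev p 2) hLΓ s)) (E ⊔ L) le_sup_right (fun s hs => ?_)
      have hsE : (s : GQp p) ∈ E.fixingSubgroup :=
        IntermediateField.fixingSubgroup_antitone (le_sup_left : E ≤ E ⊔ L) hs
      have h1 := hEu 1 ((ofL (lev p 2) hLΓ s : GLsub (L := L) (lev p 2)) : ↥(lev p 2)) hsE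
      rw [one_mul, cocycle_one huZ] at h1
      show l (u _) = 0
      rw [h1, map_zero]
    obtain ⟨z, hz, a', ha', ha'1⟩ := hBK L (E ⊔ L) hp2 le_sup_right hM htame ζ hζ hζL
      (p ^ 2 - 1) (p + 1) he0 heA (sq_sub_one_eq (p := p)) (x : ↥L) x.ne_zero α hαM hα
    have hunit : IsUnit a' := CW1Padic.isUnit_of_sub_one_mem hepos ha'1
    refine ⟨Units.mk0 z hz, hunit.unit, ?_, ?_⟩
    · rw [mem_principalUnits_iff]
      exact ha'1
    · apply Units.ext
      rw [KummerPairingInt.coe_unitsIncl]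
      show ((hunit.unit : OE p L) : ↥L) = _
      rw [IsUnit.unit_spec, ha']
      simp
  -- the inert generator
  obtain ⟨g₀, hg₀I, hg₀, hord, hgen⟩ := exists_generator L hμL hϖ hpe'
  have ht : orderOf (residue (OE p L) (c (g₀ : GQp p))) = p ^ 2 - 1 := hord _ (hc _)
  rcases hside with rfl | ⟨t, htI, ht1, htω⟩
  · -- the trivial character
    have hsideω : omega (F := ℚ_[p]) hζ (g₀ : GQp p) ≠ 1 := by
      intro h1
      obtain ⟨g₁, hg₁, hne⟩ := exists_inert_ne L hζ hζL hp2'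
      have hg₁I : g₁ ∈ TameRepPadic.inertiaE p L := by
        rw [TameRepPadic.mem_inertiaE_iff]
        exact (residueField_map_sigmaOE_eq_iff L g₁).mp hg₁
      have hg₁lev : g₁ ∈ lev p 2 := inertiaE_le_lev_two L hμL hg₁I
      obtain ⟨n, s, hs, hg₁eq⟩ := hgen ⟨g₁, hg₁lev⟩ hg₁I
      have h3 : g₁ = (g₀ : GQp p) ^ n * (s : GQp p) := by
        have := congrArg (fun x : ↥(lev p 2) => (x : GQp p)) hg₁eq
        simpa using this
      have h2 : omega (F := ℚ_[p]) hζ g₁ = 1 := by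
        rw [h3, omega_mul, CWAssemblyQp2.omega_pow, h1, one_pow, one_mul,
          CWAssemblyQp2.omega_eq_one_of_mem hζ hζL hs]
      apply hne
      have := omega_spec (F := ℚ_[p]) hζ g₁
      rw [h2, ZMod.val_one, pow_one] at this
      exact this
    exact CWAssemblyQp2.rank_H1A_one_le_one_sub (lev p 2) hζ hζL hroot (OE p L) (sigmaOE L)
      (coe_sigmaOE L) hϖ hpe' hN hc hp3 hidx hLΓ (bddAlgOn p (lev p 2) k) hcont (HB 1) hg₀ ht hsideω
  · -- a character different from `1` and `ω` on inertia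
    have htg : ∃ (n : ℕ) (s : ↥(lev p 2)), s ∈ GLsub (L := L) (lev p 2) ∧ t = g₀ ^ n * s := by
      obtain ⟨n, s, hs, hts⟩ := hgen t htI
      exact ⟨n, s, Subgroup.mem_subgroupOf.mpr hs, hts⟩
    have htω' : (μ t : k) ≠ (((omega (F := ℚ_[p]) hζ (t : GQp p)).val : ℕ) : k) := by
      rw [omega_val_eq_cycloExp hζ (t : GQp p)]
      exact htω
    have hfix2 : ∀ b : ResidueField (OE p L),
        (∀ g : ↥(lev p 2), ResidueField.map
          ((sigmaOE L (g : GQp p) : OE p L ≃+* OE p L) : OE p L →+* OE p L) b = b) →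
          b ^ (p * p) = b := fun b hb =>
      ResidueFixSq.sq_eq_of_fixed_lev_two L b (fun g hg => hb ⟨g, hg⟩)
    exact CWAssemblyQp2.rank_H1A_le_one_sub_of_exists (lev p 2) hζ hζL hroot (OE p L) (sigmaOE L)
      (coe_sigmaOE L) hϖ hpe' hN hc hp3 hidx hLΓ (bddAlgOn p (lev p 2) k) μ hχ hcont (HB μ)
      hg₀ ht hfix2 htg ht1 htω'

/-- **The count over `ℚ_{p²}`** for the algebra of bounded functions (= the body of
`IndFinal.CountQp2Statement p k`), from the tame-data statement. -/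
theorem countQp2 [Finite k] [CharP k p] (hp2 : p ≠ 2)
    (hT : TameDataQp2Statement p k) (hBK : CW1Padic.BoundedKummerStatement p)
    (μ : ↥(lev p 2) →* kˣ) (hμ : chr μ ∈ bddAlgOn p (lev p 2) k)
    (hside : μ = 1 ∨ ∃ t : ↥(lev p 2), (t : GQp p) ∈ LocalInertia.localInertia' p ∧
      (μ t : k) ≠ 1 ∧
      (μ t : k) ≠ ((ExtCitation.cycloExp p (localGaloisToGlobal p (t : GQp p)) : ℕ) : k)) :
    Module.rank k (H1A (bddAlgOn p (lev p 2) k) μ) ≤ 1 := by
  -- `μ` has open kernel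
  obtain ⟨E₀, ⟨hE₀fin, -, -⟩, hE₀μ⟩ := isBddFunOn_of_mem hμ
  have hμE₀ : ∀ s : ↥(lev p 2),
      (s : PadicAlgCl p ≃ₐ[ℚ_[p]] PadicAlgCl p) ∈ E₀.fixingSubgroup → μ s = 1 := by
    intro s hs
    have h1 := hE₀μ 1 s hs
    rw [one_mul] at h1
    apply Units.ext
    rw [Units.val_one]
    have h2 : chr μ (1 : ↥(lev p 2)) = 1 := by simp [chr]
    rw [h2] at h1
    exact h1
  -- the tame data
  obtain ⟨L, hLfin, hLgal, ζ, ϖ, c₀, a, hζ, hζL, hμL, hχL, hidx, hϖ, hpe, hϖa⟩ :=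
    hT hp2 μ ⟨E₀, hE₀fin, hμE₀⟩
  haveI := hLfin
  haveI := hLgal
  refine countQp2_of_data hp2 hBK L hζ hζL hμL hidx hϖ hpe hϖa μ hχL ?_
  rcases hside with h | ⟨t, htI, ht1, htω⟩
  · exact Or.inl h
  · exact Or.inr ⟨t, TameRepPadic.localInertia'_le_inertiaE p L htI, ht1, htω⟩

end Fermat.Agent.S56x.Local.CountQp2Final
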