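import Fermat.Agent.S56x.Local.DevissageBasic

/-!
# P-S56 / block A / LOC-1 : dévissage for an upper-triangular residual representation

`ρ̄ g = !![χ₁ g, β g; 0, χ₂ g]`, `η := χ₁ / χ₂`, `b := β / χ₂` (a cocycle in `k(η)`).
A trace-zero matrix `!![a, b'; c, -a]` is encoded as the triple `(a, b', c)`; the adjoint action of
`ρ̄ g` is `(a, b', c) ↦ (a + b η⁻¹ c, η b' - 2 a b - b² η⁻¹ c, η⁻¹ c)` (`b = b g`, `η = η g`).

* `adZ η b`  : the ad⁰-cocycles (triples of functions),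
* `adB η b`  : the ad⁰-coboundaries,
* `adZc 𝒜 η b` : admissible ad⁰-cocycles whose `c`-slot is a coboundary of `k(η⁻¹)`,
* `rank_nonsplit_le_one` : if `b` is not a coboundary, admissible `H¹(k)` and `H¹(k(η))` have rank
  `≤ 1`, then the image of `adZc` modulo coboundaries has rank `≤ 1`  (`= 1 + h⁰`, `h⁰ = 0`);
* `rank_split_le` : in the split case `b = 0` the image of the admissible cocycles with slots in
  `S₁ ≤ Z¹(k(η))`, `S₂ ≤ Z¹(k(η⁻¹))` has rank `≤ rank H¹(k) + rank [S₁] + rank [S₂]`.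
-/

set_option autoImplicit false

namespace Fermat.Agent.S56x.Local.Devissage

open Module

universe u v

variable {Γ : Type u} [Group Γ] {k : Type v} [Field k]

/-- triples `(a, b', c)` of functions: the entries `(1,1)`, `(1,2)`, `(2,1)` of a trace-zero matrix. -/
abbrev M3 (Γ : Type u) (k : Type v) := (Γ → k) × (Γ → k) × (Γ → k)

/-- ad⁰-cocycles for the upper triangular datum `(η, b)`. -/
def adZ (η : Γ →* kˣ) (b : Γ → k) : Submodule k (M3 Γ k) where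
  carrier := {ψ |
    (∀ g h, ψ.2.2 (g * h) = ψ.2.2 g + chr η⁻¹ g * ψ.2.2 h) ∧
    (∀ g h, ψ.1 (g * h) = ψ.1 g + ψ.1 h + b g * chr η⁻¹ g * ψ.2.2 h) ∧
    (∀ g h, ψ.2.1 (g * h) = ψ.2.1 g + chr η g * ψ.2.1 h - 2 * ψ.1 h * b g
      - b g ^ 2 * chr η⁻¹ g * ψ.2.2 h)}
  add_mem' := by
    rintro ψ ψ' ⟨h1, h2, h3⟩ ⟨h1', h2', h3'⟩
    refine ⟨fun g h => ?_, fun g h => ?_, fun g h => ?_⟩
    · simp only [Prod.snd_add, Pi.add_apply, h1 g h, h1' g h]; ring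
    · simp only [Prod.fst_add, Prod.snd_add, Pi.add_apply, h2 g h, h2' g h]; ring
    · simp only [Prod.fst_add, Prod.snd_add, Pi.add_apply, h3 g h, h3' g h]; ring
  zero_mem' := by
    refine ⟨fun g h => ?_, fun g h => ?_, fun g h => ?_⟩ <;> simp
  smul_mem' := by
    rintro c ψ ⟨h1, h2, h3⟩
    refine ⟨fun g h => ?_, fun g h => ?_, fun g h => ?_⟩
    · simp only [Prod.smul_snd, Pi.smul_apply, smul_eq_mul, h1 g h]; ring
    · simp only [Prod.smul_fst, Prod.smul_snd, Pi.smul_apply, smul_eq_mul, h2 g h]; ring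
    · simp only [Prod.smul_fst, Prod.smul_snd, Pi.smul_apply, smul_eq_mul, h3 g h]; ring

theorem mem_adZ {η : Γ →* kˣ} {b : Γ → k} {ψ : M3 Γ k} : ψ ∈ adZ η b ↔
    (∀ g h, ψ.2.2 (g * h) = ψ.2.2 g + chr η⁻¹ g * ψ.2.2 h) ∧
    (∀ g h, ψ.1 (g * h) = ψ.1 g + ψ.1 h + b g * chr η⁻¹ g * ψ.2.2 h) ∧
    (∀ g h, ψ.2.1 (g * h) = ψ.2.1 g + chr η g * ψ.2.1 h - 2 * ψ.1 h * b g
      - b g ^ 2 * chr η⁻¹ g * ψ.2.2 h) := Iff.rfl

/-- the ad⁰-coboundary of the trace-zero matrix `!![t, m'; m, -t]`. -/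
def adCob (η : Γ →* kˣ) (b : Γ → k) : (k × k × k) →ₗ[k] M3 Γ k where
  toFun x := (fun g => b g * chr η⁻¹ g * x.2.2,
    fun g => (chr η g - 1) * x.2.1 - 2 * x.1 * b g - b g ^ 2 * chr η⁻¹ g * x.2.2,
    fun g => (chr η⁻¹ g - 1) * x.2.2)
  map_add' := by
    intro x y
    refine Prod.ext ?_ (Prod.ext ?_ ?_) <;> funext g <;>
      simp only [Prod.fst_add, Prod.snd_add, Pi.add_apply] <;> ring
  map_smul' := by
    intro c x
    refine Prod.ext ?_ (Prod.ext ?_ ?_) <;> funext g <;>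
      simp only [Prod.smul_fst, Prod.smul_snd, Pi.smul_apply, smul_eq_mul, RingHom.id_apply] <;> ring

/-- ad⁰-coboundaries. -/
def adB (η : Γ →* kˣ) (b : Γ → k) : Submodule k (M3 Γ k) := LinearMap.range (adCob η b)

theorem adCob_mem_adZ {η : Γ →* kˣ} {b : Γ → k} (hb : b ∈ Z1 η) (x : k × k × k) :
    adCob η b x ∈ adZ η b := by
  have hη : ∀ g h, chr η (g * h) = chr η g * chr η h := fun g h => by simp [chr]
  have hη' : ∀ g h, chr η⁻¹ (g * h) = chr η⁻¹ g * chr η⁻¹ h := fun g h => by simp [chr, mul_comm]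
  have hb' : ∀ g h, b (g * h) = b g + chr η g * b h := hb
  have hi : ∀ g, chr η g * chr η⁻¹ g = 1 := chr_mul_chr_inv η
  refine ⟨fun g h => ?_, fun g h => ?_, fun g h => ?_⟩
  · simp only [adCob, LinearMap.coe_mk, AddHom.coe_mk, hη' g h]
    ring
  · simp only [adCob, LinearMap.coe_mk, AddHom.coe_mk, hη' g h, hb' g h]
    have := hi g
    linear_combination (b h * chr η⁻¹ h * x.2.2) * this
  · simp only [adCob, LinearMap.coe_mk, AddHom.coe_mk, hη' g h, hη g h, hb' g h]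
    have := hi g
    linear_combination (-(2 * b g * b h * chr η⁻¹ h * x.2.2)
      - chr η g * b h ^ 2 * chr η⁻¹ h * x.2.2) * this

theorem adB_le_adZ {η : Γ →* kˣ} {b : Γ → k} (hb : b ∈ Z1 η) : adB η b ≤ adZ η b := by
  rintro ψ ⟨x, rfl⟩
  exact adCob_mem_adZ hb x

variable (𝒜 : Subalgebra k (Γ → k))

/-- admissible ad⁰-cocycles whose `c`-slot (a cocycle of `k(η⁻¹)`) is a coboundary. -/
def adZc (η : Γ →* kˣ) (b : Γ → k) : Submodule k (M3 Γ k) where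
  carrier := {ψ | ψ ∈ adZ η b ∧ ψ.1 ∈ 𝒜 ∧ ψ.2.1 ∈ 𝒜 ∧ ψ.2.2 ∈ B1 η⁻¹}
  add_mem' := by
    rintro ψ ψ' ⟨h0, h1, h2, h3⟩ ⟨h0', h1', h2', h3'⟩
    exact ⟨(adZ η b).add_mem h0 h0', 𝒜.add_mem h1 h1', 𝒜.add_mem h2 h2',
      (B1 η⁻¹).add_mem h3 h3'⟩
  zero_mem' := ⟨(adZ η b).zero_mem, 𝒜.zero_mem, 𝒜.zero_mem, (B1 η⁻¹).zero_mem⟩
  smul_mem' := by
    rintro c ψ ⟨h0, h1, h2, h3⟩
    exact ⟨(adZ η b).smul_mem c h0, 𝒜.smul_mem h1 c, 𝒜.smul_mem h2 c, (B1 η⁻¹).smul_mem c h3⟩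

theorem mem_adZc {η : Γ →* kˣ} {b : Γ → k} {ψ : M3 Γ k} : ψ ∈ adZc 𝒜 η b ↔
    ψ ∈ adZ η b ∧ ψ.1 ∈ 𝒜 ∧ ψ.2.1 ∈ 𝒜 ∧ ψ.2.2 ∈ B1 η⁻¹ := Iff.rfl

/-- Normalisation: an element of `adZc` is, modulo a coboundary, of the form `(a, b', 0)` with
`a` an admissible homomorphism and `b'` admissible. -/
theorem exists_normal_form {η : Γ →* kˣ} {b : Γ → k} (hbZ : b ∈ Z1 η) (hbA : b ∈ 𝒜)
    (hη' : chr η⁻¹ ∈ 𝒜) {ψ : M3 Γ k} (hψ : ψ ∈ adZc 𝒜 η b) :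
    ∃ (m : k) (a b' : Γ → k), ψ = (a, b', 0) + adCob η b (0, 0, m) ∧ a ∈ Z1A 𝒜 1 ∧ b' ∈ 𝒜 ∧
      (a, b', (0 : Γ → k)) ∈ adZ η b := by
  obtain ⟨hZ, h1, h2, m, hm⟩ := hψ
  have hbη : (fun g => b g * chr η⁻¹ g) ∈ 𝒜 := 𝒜.mul_mem hbA hη'
  set a : Γ → k := fun g => ψ.1 g - b g * chr η⁻¹ g * m with ha
  set b' : Γ → k := fun g => ψ.2.1 g + b g ^ 2 * chr η⁻¹ g * m with hb'
  have hc : ψ.2.2 = fun g => (chr η⁻¹ g - 1) * m := by
    rw [← hm]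
    funext g
    simp only [cob_apply, chr_apply]
    ring
  have hψeq : ψ = (a, b', 0) + adCob η b (0, 0, m) := by
    refine Prod.ext ?_ (Prod.ext ?_ ?_)
    · funext g
      simp [adCob, ha]
    · funext g
      simp [adCob, hb']
    · rw [hc]
      funext g
      simp [adCob]
  have haA : a ∈ 𝒜 := by
    have : (fun g => b g * chr η⁻¹ g * m) ∈ 𝒜 := 𝒜.mul_mem hbη (const_mem 𝒜 m)
    exact 𝒜.sub_mem h1 this
  have hb'A : b' ∈ 𝒜 := by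
    have h3 : (fun g => b g ^ 2 * chr η⁻¹ g) ∈ 𝒜 := by
      have := 𝒜.mul_mem hbA hbη
      convert this using 1
      funext g
      simp only [Pi.mul_apply]
      ring
    have : (fun g => b g ^ 2 * chr η⁻¹ g * m) ∈ 𝒜 := 𝒜.mul_mem h3 (const_mem 𝒜 m)
    exact 𝒜.add_mem h2 this
  have hmem : (a, b', (0 : Γ → k)) ∈ adZ η b := by
    have h := (adZ η b).sub_mem hZ (adCob_mem_adZ hbZ (0, 0, m))
    have e : ψ - adCob η b (0, 0, m) = (a, b', (0 : Γ → k)) := by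
      rw [hψeq]; abel
    rwa [e] at h
  refine ⟨m, a, b', hψeq, ?_, hb'A, hmem⟩
  refine (mem_Z1A 𝒜).2 ⟨?_, haA⟩
  rw [mem_Z1_one]
  intro g h
  have := hmem.2.1 g h
  simpa using this

/-- **Non-split case, core.** Any two elements of `adZc` are linearly dependent modulo ad⁰-coboundaries. -/
theorem exists_dependent_nonsplit (h2 : (2 : k) ≠ 0) {η : Γ →* kˣ} {b : Γ → k}
    (hb : b ∈ Z1A 𝒜 η) (hbn : b ∉ B1 η) (hη' : chr η⁻¹ ∈ 𝒜)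
    (hH1 : Module.rank k (H1A 𝒜 (1 : Γ →* kˣ)) ≤ 1) (hHη : Module.rank k (H1A 𝒜 η) ≤ 1)
    {ψ ψ' : M3 Γ k} (hψ : ψ ∈ adZc 𝒜 η b) (hψ' : ψ' ∈ adZc 𝒜 η b) :
    ∃ l l' : k, (l ≠ 0 ∨ l' ≠ 0) ∧ l • ψ + l' • ψ' ∈ adB η b := by
  have hbZ : b ∈ Z1 η := ((mem_Z1A 𝒜).1 hb).1
  have hbA : b ∈ 𝒜 := ((mem_Z1A 𝒜).1 hb).2
  obtain ⟨m, a, b₁, hψeq, haZ, hb₁A, hmem⟩ := exists_normal_form 𝒜 hbZ hbA hη' hψ
  obtain ⟨m', a', b₁', hψeq', haZ', hb₁A', hmem'⟩ := exists_normal_form 𝒜 hbZ hbA hη' hψ'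
  -- dependence of the homomorphisms `a`, `a'`
  obtain ⟨l, l', m₀, hll, hdep⟩ := exists_dependent_mod_cob 𝒜 hH1 haZ haZ'
  rw [cob_one] at hdep
  refine ⟨l, l', hll, ?_⟩
  -- the combination is `(0, b₂, 0)` modulo coboundaries
  set b₂ : Γ → k := l • b₁ + l' • b₁' with hb₂
  have hcomb : l • (a, b₁, (0 : Γ → k)) + l' • (a', b₁', (0 : Γ → k)) = ((0 : Γ → k), b₂, (0 : Γ → k)) := by
    refine Prod.ext ?_ (Prod.ext ?_ ?_)
    · simpa using hdep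
    · simp [hb₂]
    · simp
  have hmem₂ : ((0 : Γ → k), b₂, (0 : Γ → k)) ∈ adZ η b := by
    rw [← hcomb]
    exact (adZ η b).add_mem ((adZ η b).smul_mem l hmem) ((adZ η b).smul_mem l' hmem')
  have hb₂Z : b₂ ∈ Z1A 𝒜 η := by
    refine (mem_Z1A 𝒜).2 ⟨?_, 𝒜.add_mem (𝒜.smul_mem hb₁A l) (𝒜.smul_mem hb₁A' l')⟩
    intro g h
    have := hmem₂.2.2 g h
    simpa using this
  obtain ⟨c₀, m₁, hb₂eq⟩ := exists_eq_smul_add_cob 𝒜 hHη hb hbn hb₂Z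
  have hfin : ((0 : Γ → k), b₂, (0 : Γ → k)) = adCob η b (-(c₀ / 2), m₁, 0) := by
    refine Prod.ext ?_ (Prod.ext ?_ ?_)
    · funext g; simp [adCob]
    · rw [hb₂eq]
      funext g
      simp only [adCob, LinearMap.coe_mk, AddHom.coe_mk, Pi.add_apply, Pi.smul_apply, smul_eq_mul,
        cob_apply, chr_apply]
      field_simp
      ring
    · funext g; simp [adCob]
  rw [hψeq, hψeq', smul_add, smul_add]
  have e : l • (a, b₁, (0 : Γ → k)) + l • adCob η b (0, 0, m) +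
      (l' • (a', b₁', (0 : Γ → k)) + l' • adCob η b (0, 0, m')) =
      (l • (a, b₁, (0 : Γ → k)) + l' • (a', b₁', (0 : Γ → k))) +
        (l • adCob η b (0, 0, m) + l' • adCob η b (0, 0, m')) := by abel
  rw [e, hcomb, hfin]
  exact (adB η b).add_mem ⟨_, rfl⟩
    ((adB η b).add_mem ((adB η b).smul_mem l ⟨_, rfl⟩) ((adB η b).smul_mem l' ⟨_, rfl⟩))

/-- **Non-split case.** `ρ̄ = !![χ₁, β; 0, χ₂]` with `b = β/χ₂` not a coboundary of `k(η)`.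
If admissible `H¹(Γ, k)` and admissible `H¹(Γ, k(η))` have rank `≤ 1`, then the admissible
ad⁰-classes whose `c`-slot is cohomologically trivial span a space of rank `≤ 1`. -/
theorem rank_nonsplit_le_one (h2 : (2 : k) ≠ 0) {η : Γ →* kˣ} {b : Γ → k}
    (hb : b ∈ Z1A 𝒜 η) (hbn : b ∉ B1 η) (hη' : chr η⁻¹ ∈ 𝒜)
    (hH1 : Module.rank k (H1A 𝒜 (1 : Γ →* kˣ)) ≤ 1) (hHη : Module.rank k (H1A 𝒜 η) ≤ 1) :
    Module.rank k ((adZc 𝒜 η b).map (adB η b).mkQ) ≤ 1 := by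
  apply rank_le_one_of_pairwise_dependent
  rintro ⟨_, ψ, hψ, rfl⟩ ⟨_, ψ', hψ', rfl⟩
  obtain ⟨l, l', hll, htot⟩ := exists_dependent_nonsplit 𝒜 h2 hb hbn hη' hH1 hHη hψ hψ'
  refine ⟨l, l', hll, ?_⟩
  apply Subtype.ext
  simp only [Submodule.coe_add, Submodule.coe_smul, Submodule.coe_zero]
  rw [← map_smul, ← map_smul, ← map_add, Submodule.mkQ_apply, Submodule.Quotient.mk_eq_zero]
  exact htot

end Fermat.Agent.S56x.Local.Devissage
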