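import Fermat.Agent.S56x.Local.DevissageMatrix

/-!
# P-S56 / block A / LOC-1 : the induced (absolutely irreducible) case

`Γ' ≤ Γ` of index two, `s ∉ Γ'`, `ρ|Γ'` diagonal with characters `χ ≠ χ'` (`μ = χ/χ'`) and
`ρ s` antidiagonal.  If every admissible homomorphism `Γ' → k` is invariant under conjugation by `s`
and the admissible `H¹(Γ', k(μ))` has rank `≤ 1`, then the admissible ad⁰-classes of `Γ` span a space
of rank `≤ 1` modulo coboundaries.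
(Application: `Γ = G_{ℚ_p}`, `Γ' = G_{ℚ_{p²}}`, `ρ̄|G_p` absolutely irreducible, `𝒜` = Fontaine-bounded
locally constant functions: bounded homomorphisms `G_{ℚ_{p²}} → k` are unramified, hence `s`-invariant.)
-/

set_option autoImplicit false

namespace Fermat.Agent.S56x.Local.Devissage

open Module Matrix

universe u v

variable {Γ : Type u} [Group Γ] {k : Type v} [Field k]

/-- the matrix units used below. -/
def E01 (k : Type v) [Field k] : Matrix (Fin 2) (Fin 2) k := !![0, 1; 0, 0]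
def E10 (k : Type v) [Field k] : Matrix (Fin 2) (Fin 2) k := !![0, 0; 1, 0]

theorem trace_E01 : (E01 k).trace = 0 := by simp [E01, Matrix.trace_fin_two]
theorem trace_E10 : (E10 k).trace = 0 := by simp [E10, Matrix.trace_fin_two]

section DiagAnti

variable (ρ : MatRep Γ k)

/-- adjoint action of a diagonal matrix `ρ g`, `ρ g 0 0 = m * ρ g 1 1`. -/
theorem Ad_diag {g : Γ} (h01 : ρ.R g 0 1 = 0) (h10 : ρ.R g 1 0 = 0) {m mi : k}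
    (hm : ρ.R g 0 0 = m * ρ.R g 1 1) (hmi : m * mi = 1) (M : Matrix (Fin 2) (Fin 2) k) :
    (ρ.Ad g M) 0 0 = M 0 0 ∧ (ρ.Ad g M) 0 1 = m * M 0 1 ∧ (ρ.Ad g M) 1 0 = mi * M 1 0 ∧
      (ρ.Ad g M) 1 1 = M 1 1 := by
  have e := ρ.mul_inv g
  have e00 := congrFun (congrFun e 0) 0
  have e01 := congrFun (congrFun e 0) 1
  have e10 := congrFun (congrFun e 1) 0
  have e11 := congrFun (congrFun e 1) 1
  simp only [Matrix.mul_apply, Fin.sum_univ_two, h01, h10, zero_mul, add_zero, zero_add,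
    Matrix.one_apply_eq, Matrix.one_apply_ne, ne_eq, zero_ne_one, one_ne_zero, not_false_eq_true,
    Fin.isValue] at e00 e01 e10 e11
  have hd0 : ρ.R g 0 0 ≠ 0 := fun h0 => by rw [h0, zero_mul] at e00; exact zero_ne_one e00
  have hd1 : ρ.R g 1 1 ≠ 0 := fun h0 => by rw [h0, zero_mul] at e11; exact zero_ne_one e11
  have r01 : ρ.Ri g 0 1 = 0 := (mul_eq_zero.1 e01).resolve_left hd0
  have r10 : ρ.Ri g 1 0 = 0 := (mul_eq_zero.1 e10).resolve_left hd1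
  have hm0 : m ≠ 0 := left_ne_zero_of_mul_eq_one hmi
  simp only [MatRep.Ad, Matrix.mul_apply, Fin.sum_univ_two, h01, h10, r01, r10, zero_mul, mul_zero,
    add_zero, zero_add, Fin.isValue]
  refine ⟨?_, ?_, ?_, ?_⟩
  · linear_combination (M 0 0) * e00
  · rw [hm]; linear_combination (m * M 0 1) * e11
  · have : ρ.R g 1 1 * ρ.Ri g 0 0 = mi := by
      have h1 : m * (ρ.R g 1 1 * ρ.Ri g 0 0) = m * mi := by
        rw [hmi, ← mul_assoc, ← hm, e00]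
      exact mul_left_cancel₀ hm0 h1
    linear_combination (M 1 0) * this
  · linear_combination (M 1 1) * e11

/-- adjoint action of an antidiagonal matrix. -/
theorem Ad_anti {s : Γ} (h00 : ρ.R s 0 0 = 0) (h11 : ρ.R s 1 1 = 0)
    (M : Matrix (Fin 2) (Fin 2) k) :
    (ρ.Ad s M) 0 0 = M 1 1 ∧ (ρ.Ad s M) 1 1 = M 0 0 ∧
      (ρ.Ad s M) 0 1 = (ρ.R s 0 1 * ρ.Ri s 0 1) * M 1 0 ∧
      (ρ.Ad s M) 1 0 = (ρ.R s 1 0 * ρ.Ri s 1 0) * M 0 1 := by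
  have e := ρ.mul_inv s
  have e00 := congrFun (congrFun e 0) 0
  have e01 := congrFun (congrFun e 0) 1
  have e10 := congrFun (congrFun e 1) 0
  have e11 := congrFun (congrFun e 1) 1
  simp only [Matrix.mul_apply, Fin.sum_univ_two, h00, h11, zero_mul, add_zero, zero_add,
    Matrix.one_apply_eq, Matrix.one_apply_ne, ne_eq, zero_ne_one, one_ne_zero, not_false_eq_true,
    Fin.isValue] at e00 e01 e10 e11
  have hx : ρ.R s 0 1 ≠ 0 := fun h0 => by rw [h0, zero_mul] at e00; exact zero_ne_one e00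
  have hy : ρ.R s 1 0 ≠ 0 := fun h0 => by rw [h0, zero_mul] at e11; exact zero_ne_one e11
  have r11 : ρ.Ri s 1 1 = 0 := (mul_eq_zero.1 e01).resolve_left hx
  have r00 : ρ.Ri s 0 0 = 0 := (mul_eq_zero.1 e10).resolve_left hy
  simp only [MatRep.Ad, Matrix.mul_apply, Fin.sum_univ_two, h00, h11, r00, r11, zero_mul, mul_zero,
    add_zero, zero_add, Fin.isValue]
  refine ⟨?_, ?_, ?_, ?_⟩
  · linear_combination (M 1 1) * e00
  · linear_combination (M 0 0) * e11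
  · ring
  · ring

end DiagAnti

/-- the data of the induced case. -/
structure IsInduced (ρ : MatRep Γ k) (Γ' : Subgroup Γ) (s : Γ) (μ : Γ' →* kˣ) : Prop where
  diag : ∀ g ∈ Γ', ρ.R g 0 1 = 0 ∧ ρ.R g 1 0 = 0
  ratio : ∀ g : Γ', ρ.R (g : Γ) 0 0 = chr μ g * ρ.R (g : Γ) 1 1
  anti : ρ.R s 0 0 = 0 ∧ ρ.R s 1 1 = 0
  coset : ∀ g, g ∈ Γ' ∨ s⁻¹ * g ∈ Γ'
  conj : ∀ g ∈ Γ', s * g * s⁻¹ ∈ Γ'
  conj' : ∀ g ∈ Γ', s⁻¹ * g * s ∈ Γ'
  sq : s * s ∈ Γ'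

namespace IsInduced

variable {ρ : MatRep Γ k} {Γ' : Subgroup Γ} {s : Γ} {μ : Γ' →* kˣ} (h : IsInduced ρ Γ' s μ)
include h

theorem Ad_mem (g : Γ') (M : Matrix (Fin 2) (Fin 2) k) :
    (ρ.Ad (g : Γ) M) 0 0 = M 0 0 ∧ (ρ.Ad (g : Γ) M) 0 1 = chr μ g * M 0 1 ∧
      (ρ.Ad (g : Γ) M) 1 0 = chr μ⁻¹ g * M 1 0 ∧ (ρ.Ad (g : Γ) M) 1 1 = M 1 1 :=
  Ad_diag ρ (h.diag g g.2).1 (h.diag g g.2).2 (h.ratio g) (chr_mul_chr_inv μ g) M

end IsInduced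


/-- conjugation formula for a matrix cocycle. -/
theorem adMatZ_conj {ρ : MatRep Γ k} {Φ : Γ → Matrix (Fin 2) (Fin 2) k} (hΦ : Φ ∈ adMatZ ρ)
    (s g : Γ) : Φ (s * g * s⁻¹) = Φ s + ρ.Ad s (Φ g) - ρ.Ad (s * g * s⁻¹) (Φ s) := by
  have h1 : Φ s + ρ.Ad s (Φ s⁻¹) = 0 := by
    have := hΦ.2 s s⁻¹
    rw [mul_inv_cancel, adMatZ_one ρ hΦ] at this
    exact this.symm
  have h2 : ρ.Ad (s * g) (Φ s⁻¹) = - ρ.Ad (s * g * s⁻¹) (Φ s) := by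
    have e : s * g = (s * g * s⁻¹) * s := by group
    conv_lhs => rw [e]
    rw [ρ.Ad_mul, eq_neg_of_add_eq_zero_right h1]
    simp [MatRep.Ad]
  rw [hΦ.2 (s * g) s⁻¹, hΦ.2 s g, h2]
  abel

section Main

variable {ρ : MatRep Γ k} {Γ' : Subgroup Γ} {s : Γ} {μ : Γ' →* kˣ}
variable (𝒜 : Subalgebra k (Γ → k)) (𝒜' : Subalgebra k (Γ' → k))

/-- **Induced case, core.** Any two admissible ad⁰-cocycles are dependent modulo coboundaries. -/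
theorem exists_dependent_induced (h2 : (2 : k) ≠ 0) (h : IsInduced ρ Γ' s μ)
    (hres : ∀ f ∈ 𝒜, (fun g : Γ' => f (g : Γ)) ∈ 𝒜')
    (hinv : ∀ a ∈ Z1A 𝒜' (1 : Γ' →* kˣ), ∀ g : Γ',
      a ⟨s * (g : Γ) * s⁻¹, h.conj g g.2⟩ = a g)
    (hHμ : Module.rank k (H1A 𝒜' μ) ≤ 1)
    {Ψ Ψ' : Γ → Matrix (Fin 2) (Fin 2) k} (hΨ : Ψ ∈ adMatZA ρ 𝒜) (hΨ' : Ψ' ∈ adMatZA ρ 𝒜) :
    ∃ l l' : k, (l ≠ 0 ∨ l' ≠ 0) ∧ l • Ψ + l' • Ψ' ∈ adMatB ρ := by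
  -- Step 1: the (0,1)-slots restricted to Γ'
  have slot01 : ∀ {Ξ : Γ → Matrix (Fin 2) (Fin 2) k}, Ξ ∈ adMatZA ρ 𝒜 →
      (fun g : Γ' => Ξ (g : Γ) 0 1) ∈ Z1A 𝒜' μ := by
    intro Ξ hΞ
    refine (mem_Z1A 𝒜').2 ⟨fun g g' => ?_, hres _ (hΞ.2 0 1)⟩
    show Ξ ((g : Γ) * (g' : Γ)) 0 1 = _
    rw [hΞ.1.2 (g : Γ) (g' : Γ), Matrix.add_apply, (h.Ad_mem g _).2.1]
    rfl
  obtain ⟨l, l', m₀, hll, hdep⟩ := exists_dependent_mod_cob 𝒜' hHμ (slot01 hΨ) (slot01 hΨ')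
  refine ⟨l, l', hll, ?_⟩
  -- Step 2: Φ₁
  set Φ₁ : Γ → Matrix (Fin 2) (Fin 2) k := l • Ψ + l' • Ψ' - adMatCob ρ (m₀ • E01 k) with hΦ₁def
  have hE01 : (m₀ • E01 k).trace = 0 := by rw [Matrix.trace_smul, trace_E01, smul_zero]
  have hΦ₁ : Φ₁ ∈ adMatZ ρ :=
    (adMatZ ρ).sub_mem ((adMatZ ρ).add_mem ((adMatZ ρ).smul_mem l hΨ.1)
      ((adMatZ ρ).smul_mem l' hΨ'.1)) (adMatCob_mem_adMatZ ρ hE01)
  have hcob01 : ∀ g : Γ', adMatCob ρ (m₀ • E01 k) (g : Γ) 0 1 = cob μ m₀ g := by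
    intro g
    rw [adMatCob_apply, Matrix.sub_apply, (h.Ad_mem g _).2.1]
    simp [E01]
  have hcob00 : ∀ g : Γ', adMatCob ρ (m₀ • E01 k) (g : Γ) 0 0 = 0 := by
    intro g
    rw [adMatCob_apply, Matrix.sub_apply, (h.Ad_mem g _).1, sub_self]
  have hΦ₁01 : ∀ g : Γ', Φ₁ (g : Γ) 0 1 = 0 := by
    intro g
    have := congrFun hdep g
    simp only [Pi.add_apply, Pi.smul_apply, smul_eq_mul] at this
    simp only [hΦ₁def, Pi.sub_apply, Pi.add_apply, Pi.smul_apply, Matrix.sub_apply,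
      Matrix.add_apply, Matrix.smul_apply, smul_eq_mul, hcob01 g]
    rw [this, sub_self]
  have hΦ₁00 : ∀ g : Γ', Φ₁ (g : Γ) 0 0 = l * Ψ (g : Γ) 0 0 + l' * Ψ' (g : Γ) 0 0 := by
    intro g
    simp only [hΦ₁def, Pi.sub_apply, Pi.add_apply, Pi.smul_apply, Matrix.sub_apply,
      Matrix.add_apply, Matrix.smul_apply, smul_eq_mul, hcob00 g, sub_zero]
  have htr : ∀ g, Φ₁ g 1 1 = - Φ₁ g 0 0 := by
    intro g
    have := hΦ₁.1 g
    rw [Matrix.trace_fin_two] at this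
    exact eq_neg_of_add_eq_zero_right this
  -- Step 3: the diagonal slot is an admissible homomorphism on Γ', hence s-invariant
  have ha : (fun g : Γ' => Φ₁ (g : Γ) 0 0) ∈ Z1A 𝒜' (1 : Γ' →* kˣ) := by
    refine (mem_Z1A 𝒜').2 ⟨?_, ?_⟩
    · rw [mem_Z1_one]
      intro g g'
      show Φ₁ ((g : Γ) * (g' : Γ)) 0 0 = _
      rw [hΦ₁.2 (g : Γ) (g' : Γ), Matrix.add_apply, (h.Ad_mem g _).1]
    · have e : (fun g : Γ' => Φ₁ (g : Γ) 0 0) =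
          fun g : Γ' => (l • (fun g : Γ => Ψ g 0 0) + l' • (fun g : Γ => Ψ' g 0 0)) (g : Γ) := by
        funext g
        rw [hΦ₁00 g]
        simp
      rw [e]
      exact hres _ (𝒜.add_mem (𝒜.smul_mem (hΨ.2 0 0) l) (𝒜.smul_mem (hΨ'.2 0 0) l'))
  have hΦ₁00z : ∀ g : Γ', Φ₁ (g : Γ) 0 0 = 0 := by
    intro g
    have h1 := hinv _ ha g
    have h3 := adMatZ_conj hΦ₁ s (g : Γ)
    have h4 := congrFun (congrFun h3 0) 0
    rw [Matrix.sub_apply, Matrix.add_apply,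
      (h.Ad_mem ⟨s * (g : Γ) * s⁻¹, h.conj g g.2⟩ (Φ₁ s)).1,
      (Ad_anti ρ h.anti.1 h.anti.2 _).1, htr (g : Γ)] at h4
    have h5 : Φ₁ (g : Γ) 0 0 = - Φ₁ (g : Γ) 0 0 := by
      have h1' : Φ₁ (s * (g : Γ) * s⁻¹) 0 0 = Φ₁ (g : Γ) 0 0 := h1
      linear_combination (-1 : k) * h1' + h4
    have h6 : (2 : k) * Φ₁ (g : Γ) 0 0 = 0 := by linear_combination h5
    exact (mul_eq_zero.1 h6).resolve_left h2
  -- Step 4: the (1,0)-slot on Γ' is a coboundary determined by Φ₁ s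
  set n : k := Φ₁ s 1 0 with hn
  have hΦ₁10 : ∀ g₀ : Γ', Φ₁ (g₀ : Γ) 1 0 = n - chr μ⁻¹ g₀ * n := by
    intro g₀
    have hg : s⁻¹ * (g₀ : Γ) * s ∈ Γ' := h.conj' g₀ g₀.2
    have e : s * (s⁻¹ * (g₀ : Γ) * s) * s⁻¹ = (g₀ : Γ) := by group
    have h3 := adMatZ_conj hΦ₁ s (s⁻¹ * (g₀ : Γ) * s)
    rw [e] at h3
    have h4 := congrFun (congrFun h3 1) 0
    rw [Matrix.sub_apply, Matrix.add_apply, (h.Ad_mem g₀ (Φ₁ s)).2.2.1,
      (Ad_anti ρ h.anti.1 h.anti.2 _).2.2.2, hΦ₁01 ⟨_, hg⟩, mul_zero, add_zero] at h4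
    exact h4
  -- Step 5: Φ₂ vanishes on Γ'
  set Φ₂ : Γ → Matrix (Fin 2) (Fin 2) k := Φ₁ + adMatCob ρ (n • E10 k) with hΦ₂def
  have hE10 : (n • E10 k).trace = 0 := by rw [Matrix.trace_smul, trace_E10, smul_zero]
  have hΦ₂ : Φ₂ ∈ adMatZ ρ := (adMatZ ρ).add_mem hΦ₁ (adMatCob_mem_adMatZ ρ hE10)
  have hΦ₂zero : ∀ g₀ : Γ', Φ₂ (g₀ : Γ) = 0 := by
    intro g₀
    have t := hΦ₂.1 (g₀ : Γ)
    rw [Matrix.trace_fin_two] at t
    have c00 : Φ₂ (g₀ : Γ) 0 0 = 0 := by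
      simp only [hΦ₂def, Pi.add_apply, Matrix.add_apply, adMatCob_apply, Matrix.sub_apply,
        (h.Ad_mem g₀ _).1, hΦ₁00z g₀, sub_self, add_zero]
    have c01 : Φ₂ (g₀ : Γ) 0 1 = 0 := by
      simp only [hΦ₂def, Pi.add_apply, Matrix.add_apply, adMatCob_apply, Matrix.sub_apply,
        (h.Ad_mem g₀ _).2.1, hΦ₁01 g₀]
      simp [E10]
    have c10 : Φ₂ (g₀ : Γ) 1 0 = 0 := by
      simp only [hΦ₂def, Pi.add_apply, Matrix.add_apply, adMatCob_apply, Matrix.sub_apply,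
        (h.Ad_mem g₀ _).2.2.1, hΦ₁10 g₀]
      simp [E10]
    have c11 : Φ₂ (g₀ : Γ) 1 1 = 0 := by
      rw [c00, zero_add] at t
      exact t
    ext i j
    fin_cases i <;> fin_cases j
    · exact c00
    · exact c01
    · exact c10
    · exact c11
  -- Step 6: M := Φ₂ s is Γ'-invariant and anti-invariant under s
  set M : Matrix (Fin 2) (Fin 2) k := Φ₂ s with hM
  have hsg : ∀ g : Γ', Φ₂ (s * (g : Γ)) = M := by
    intro g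
    rw [hΦ₂.2 s (g : Γ), hΦ₂zero g, ρ.Ad_zero, add_zero]
  have hMinv : ∀ g₀ : Γ', ρ.Ad (g₀ : Γ) M = M := by
    intro g₀
    have hg : s⁻¹ * (g₀ : Γ) * s ∈ Γ' := h.conj' g₀ g₀.2
    have e : s * (s⁻¹ * (g₀ : Γ) * s) = (g₀ : Γ) * s := by group
    have h1 := hsg ⟨_, hg⟩
    simp only [] at h1
    rw [e, hΦ₂.2 (g₀ : Γ) s, hΦ₂zero g₀, zero_add] at h1
    exact h1
  have hMs : ρ.Ad s M = - M := by
    have h1 := hΦ₂zero ⟨s * s, h.sq⟩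
    simp only [] at h1
    rw [hΦ₂.2 s s] at h1
    exact (eq_neg_of_add_eq_zero_right h1)
  -- Step 7: Φ₂ is the coboundary of M' = -(1/2) M
  have hMtr : M.trace = 0 := hΦ₂.1 s
  have hΦ₂cob : Φ₂ = adMatCob ρ ((-(2 : k)⁻¹) • M) := by
    funext g
    rw [adMatCob_apply, ρ.Ad_smul]
    rcases h.coset g with hg | hg
    · rw [show g = ((⟨g, hg⟩ : Γ') : Γ) from rfl, hΦ₂zero ⟨g, hg⟩, hMinv ⟨g, hg⟩, sub_self]
    · have e : g = s * (s⁻¹ * g) := by group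
      rw [e, show s * (s⁻¹ * g) = s * ((⟨s⁻¹ * g, hg⟩ : Γ') : Γ) from rfl, hsg ⟨_, hg⟩, ρ.Ad_mul,
        hMinv ⟨_, hg⟩, hMs]
      have h2' : (2 : k)⁻¹ + (2 : k)⁻¹ = 1 := by field_simp; norm_num
      calc M = ((2 : k)⁻¹ + (2 : k)⁻¹) • M := by rw [h2', one_smul]
        _ = -(2 : k)⁻¹ • -M - -(2 : k)⁻¹ • M := by
          rw [add_smul]; simp
  -- conclusion
  have hfinal : l • Ψ + l' • Ψ' =
      adMatCob ρ ((-(2 : k)⁻¹) • M - n • E10 k + m₀ • E01 k) := by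
    have e1 : l • Ψ + l' • Ψ' = Φ₂ - adMatCob ρ (n • E10 k) + adMatCob ρ (m₀ • E01 k) := by
      rw [hΦ₂def, hΦ₁def]; abel
    rw [e1, hΦ₂cob, map_add, map_sub]
  rw [hfinal]
  refine ⟨_, mem_sl2.2 ?_, rfl⟩
  rw [Matrix.trace_add, Matrix.trace_sub, Matrix.trace_smul, hMtr, hE10, hE01]
  simp

/-- **Induced case.** The admissible ad⁰-classes span a space of rank `≤ 1` (`= 1 + h⁰`, `h⁰ = 0`). -/
theorem rank_induced_le_one (h2 : (2 : k) ≠ 0) (h : IsInduced ρ Γ' s μ)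
    (hres : ∀ f ∈ 𝒜, (fun g : Γ' => f (g : Γ)) ∈ 𝒜')
    (hinv : ∀ a ∈ Z1A 𝒜' (1 : Γ' →* kˣ), ∀ g : Γ',
      a ⟨s * (g : Γ) * s⁻¹, h.conj g g.2⟩ = a g)
    (hHμ : Module.rank k (H1A 𝒜' μ) ≤ 1) :
    Module.rank k ((adMatZA ρ 𝒜).map (adMatB ρ).mkQ) ≤ 1 := by
  apply rank_le_one_of_pairwise_dependent
  rintro ⟨_, Ψ, hΨ, rfl⟩ ⟨_, Ψ', hΨ', rfl⟩
  obtain ⟨l, l', hll, htot⟩ := exists_dependent_induced 𝒜 𝒜' h2 h hres hinv hHμ hΨ hΨ'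
  refine ⟨l, l', hll, ?_⟩
  apply Subtype.ext
  simp only [Submodule.coe_add, Submodule.coe_smul, Submodule.coe_zero]
  rw [← map_smul, ← map_smul, ← map_add, Submodule.mkQ_apply, Submodule.Quotient.mk_eq_zero]
  exact htot

end Main

end Fermat.Agent.S56x.Local.Devissage
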