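import Fermat.Agent.S56x.Local.Devissage

/-!
# P-S56 / block A / LOC-1 : matrix form of the ad⁰-cocycles

`MatRep Γ k` : a 2-dimensional matrix representation `R : Γ → M₂(k)` with explicit inverse `Ri`.
`adMatZ ρ`   : functions `Ψ : Γ → M₂(k)`, trace zero, `Ψ (g h) = Ψ g + R g * Ψ h * Ri g`.
`adMatB ρ`   : coboundaries `g ↦ R g * M * Ri g - M`, `tr M = 0`.
`adMatZA 𝒜 ρ` : cocycles all of whose entries are admissible.

Bridge to the triple form of `Devissage.lean` for upper triangular `ρ`.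
-/

set_option autoImplicit false

namespace Fermat.Agent.S56x.Local.Devissage

open Module Matrix

universe u v

/-- a two-dimensional matrix representation with explicit inverses. -/
structure MatRep (Γ : Type u) [Group Γ] (k : Type v) [Field k] where
  R : Γ → Matrix (Fin 2) (Fin 2) k
  Ri : Γ → Matrix (Fin 2) (Fin 2) k
  map_mul : ∀ g h, R (g * h) = R g * R h
  inv_mul : ∀ g, Ri g * R g = 1
  mul_inv : ∀ g, R g * Ri g = 1

variable {Γ : Type u} [Group Γ] {k : Type v} [Field k]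

namespace MatRep

variable (ρ : MatRep Γ k)

theorem map_one : ρ.R 1 = 1 := by
  have h := ρ.map_mul 1 1
  rw [mul_one] at h
  have h2 : ρ.Ri 1 * ρ.R 1 = ρ.Ri 1 * (ρ.R 1 * ρ.R 1) := by rw [← h]
  rw [← Matrix.mul_assoc, ρ.inv_mul, Matrix.one_mul] at h2
  exact h2.symm

theorem Ri_one : ρ.Ri 1 = 1 := by
  have := ρ.inv_mul 1
  rwa [ρ.map_one, Matrix.mul_one] at this

theorem Ri_mul (g h : Γ) : ρ.Ri (g * h) = ρ.Ri h * ρ.Ri g := by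
  have h1 : ρ.Ri (g * h) * (ρ.R g * ρ.R h) = 1 := by rw [← ρ.map_mul, ρ.inv_mul]
  calc ρ.Ri (g * h) = ρ.Ri (g * h) * ((ρ.R g * ρ.R h) * (ρ.Ri h * ρ.Ri g)) := by
        rw [Matrix.mul_assoc (ρ.R g), ← Matrix.mul_assoc (ρ.R h), ρ.mul_inv, Matrix.one_mul,
          ρ.mul_inv, Matrix.mul_one]
    _ = ρ.Ri h * ρ.Ri g := by rw [← Matrix.mul_assoc, h1, Matrix.one_mul]

/-- the adjoint action. -/
def Ad (g : Γ) (M : Matrix (Fin 2) (Fin 2) k) : Matrix (Fin 2) (Fin 2) k := ρ.R g * M * ρ.Ri g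

theorem Ad_mul (g h : Γ) (M : Matrix (Fin 2) (Fin 2) k) : ρ.Ad (g * h) M = ρ.Ad g (ρ.Ad h M) := by
  simp only [Ad, ρ.map_mul, ρ.Ri_mul, Matrix.mul_assoc]

theorem Ad_one (M : Matrix (Fin 2) (Fin 2) k) : ρ.Ad 1 M = M := by
  simp [Ad, ρ.map_one, ρ.Ri_one]

theorem Ad_add (g : Γ) (M N : Matrix (Fin 2) (Fin 2) k) : ρ.Ad g (M + N) = ρ.Ad g M + ρ.Ad g N := by
  simp [Ad, Matrix.mul_add, Matrix.add_mul]

theorem Ad_sub (g : Γ) (M N : Matrix (Fin 2) (Fin 2) k) : ρ.Ad g (M - N) = ρ.Ad g M - ρ.Ad g N := by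
  simp [Ad, Matrix.mul_sub, Matrix.sub_mul]

theorem Ad_smul (g : Γ) (c : k) (M : Matrix (Fin 2) (Fin 2) k) : ρ.Ad g (c • M) = c • ρ.Ad g M := by
  simp [Ad]

theorem Ad_zero (g : Γ) : ρ.Ad g 0 = 0 := by simp [Ad]

theorem trace_Ad (g : Γ) (M : Matrix (Fin 2) (Fin 2) k) : (ρ.Ad g M).trace = M.trace := by
  unfold Ad
  rw [Matrix.trace_mul_comm, ← Matrix.mul_assoc, ρ.inv_mul, Matrix.one_mul]

end MatRep

variable (ρ : MatRep Γ k)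

/-- matrix-valued ad⁰-cocycles. -/
def adMatZ : Submodule k (Γ → Matrix (Fin 2) (Fin 2) k) where
  carrier := {Ψ | (∀ g, (Ψ g).trace = 0) ∧ ∀ g h, Ψ (g * h) = Ψ g + ρ.Ad g (Ψ h)}
  add_mem' := by
    rintro Ψ Ψ' ⟨h1, h2⟩ ⟨h1', h2'⟩
    refine ⟨fun g => by simp [h1 g, h1' g], fun g h => ?_⟩
    simp only [Pi.add_apply, h2 g h, h2' g h, ρ.Ad_add]
    abel
  zero_mem' := ⟨fun g => by simp, fun g h => by simp [ρ.Ad_zero]⟩
  smul_mem' := by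
    rintro c Ψ ⟨h1, h2⟩
    refine ⟨fun g => by simp [h1 g], fun g h => ?_⟩
    simp only [Pi.smul_apply, h2 g h, ρ.Ad_smul, smul_add]

theorem mem_adMatZ {Ψ : Γ → Matrix (Fin 2) (Fin 2) k} : Ψ ∈ adMatZ ρ ↔
    (∀ g, (Ψ g).trace = 0) ∧ ∀ g h, Ψ (g * h) = Ψ g + ρ.Ad g (Ψ h) := Iff.rfl

/-- the coboundary map. -/
def adMatCob : Matrix (Fin 2) (Fin 2) k →ₗ[k] (Γ → Matrix (Fin 2) (Fin 2) k) where
  toFun M := fun g => ρ.Ad g M - M
  map_add' := by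
    intro M N
    funext g
    simp only [Pi.add_apply, ρ.Ad_add]
    abel
  map_smul' := by
    intro c M
    funext g
    simp only [Pi.smul_apply, ρ.Ad_smul, RingHom.id_apply, smul_sub]

@[simp] theorem adMatCob_apply (M : Matrix (Fin 2) (Fin 2) k) (g : Γ) :
    adMatCob ρ M g = ρ.Ad g M - M := rfl

/-- trace-zero matrices. -/
def sl2 (k : Type v) [Field k] : Submodule k (Matrix (Fin 2) (Fin 2) k) :=
  LinearMap.ker (Matrix.traceLinearMap (Fin 2) k k)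

theorem mem_sl2 {M : Matrix (Fin 2) (Fin 2) k} : M ∈ sl2 k ↔ M.trace = 0 := by
  simp [sl2]

/-- matrix-valued ad⁰-coboundaries. -/
def adMatB : Submodule k (Γ → Matrix (Fin 2) (Fin 2) k) := (sl2 k).map (adMatCob ρ)

theorem adMatCob_mem_adMatZ {M : Matrix (Fin 2) (Fin 2) k} (hM : M.trace = 0) :
    adMatCob ρ M ∈ adMatZ ρ := by
  refine ⟨fun g => ?_, fun g h => ?_⟩
  · simp [Matrix.trace_sub, ρ.trace_Ad, hM]
  · simp only [adMatCob_apply, ρ.Ad_mul, ρ.Ad_sub]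
    abel

theorem adMatB_le_adMatZ : adMatB ρ ≤ adMatZ ρ := by
  rintro _ ⟨M, hM, rfl⟩
  exact adMatCob_mem_adMatZ ρ (mem_sl2.1 hM)

theorem adMatZ_one {Ψ : Γ → Matrix (Fin 2) (Fin 2) k} (hΨ : Ψ ∈ adMatZ ρ) : Ψ 1 = 0 := by
  have h := hΨ.2 1 1
  rw [mul_one, ρ.Ad_one] at h
  have : Ψ 1 + Ψ 1 = Ψ 1 + 0 := by rw [add_zero]; exact h.symm
  exact add_left_cancel this

variable (𝒜 : Subalgebra k (Γ → k))

/-- admissible matrix-valued ad⁰-cocycles: all entries admissible. -/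
def adMatZA : Submodule k (Γ → Matrix (Fin 2) (Fin 2) k) where
  carrier := {Ψ | Ψ ∈ adMatZ ρ ∧ ∀ i j, (fun g => Ψ g i j) ∈ 𝒜}
  add_mem' := by
    rintro Ψ Ψ' ⟨h1, h2⟩ ⟨h1', h2'⟩
    exact ⟨(adMatZ ρ).add_mem h1 h1', fun i j => 𝒜.add_mem (h2 i j) (h2' i j)⟩
  zero_mem' := ⟨(adMatZ ρ).zero_mem, fun i j => 𝒜.zero_mem⟩
  smul_mem' := by
    rintro c Ψ ⟨h1, h2⟩
    exact ⟨(adMatZ ρ).smul_mem c h1, fun i j => 𝒜.smul_mem (h2 i j) c⟩

theorem mem_adMatZA {Ψ : Γ → Matrix (Fin 2) (Fin 2) k} : Ψ ∈ adMatZA ρ 𝒜 ↔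
    Ψ ∈ adMatZ ρ ∧ ∀ i j, (fun g => Ψ g i j) ∈ 𝒜 := Iff.rfl

end Fermat.Agent.S56x.Local.Devissage
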