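/-
P-S56, block (A): `DichStatement p k` of `Local/CSlotFinal` (the `p = 3` dichotomy of inertia
characters), from `Local/InertiaDichotomy` (owner: helper94).
-/
import Fermat.Agent.S56x.Local.CSlotFinal
import Fermat.Agent.S56x.Local.InertiaDichotomy

set_option autoImplicit false

namespace Fermat.Agent.S56x.Local.DichFinal

open Fermat.Agent.S56x.Local.Devissage Fermat.Agent.S56x.Local.FlatIface
  Fermat.Agent.S56x.Local.BddDef Fermat.Agent.S56x.Local.FlatCountInputs
  Fermat.Agent.S56x.Local.CSlotFinal Fermat.Agent.S56x.Local.InertiaDichotomy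

variable (p : ℕ) [Fact p.Prime]

/-- **`DichStatement p k`**: for `p = 3`, two admissible characters whose product is non-trivial on
inertia: one of them is unramified. -/
theorem dichStatement (k : Type) [Field k] : DichStatement p k := by
  intro _ _ hp3 χ₁ χ₂ h1 h2 hram
  have h1' : IsBddFun p (chr (show GQp p →* kˣ from χ₁)) := mem_bddAlgP_iff.mp h1
  have h2' : IsBddFun p (chr (show GQp p →* kˣ from χ₂)) := mem_bddAlgP_iff.mp h2
  exact dichotomy_three_of_isBddFun p hp3 (show GQp p →* kˣ from χ₁) (show GQp p →* kˣ from χ₂)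
    h1' h2' hram

end Fermat.Agent.S56x.Local.DichFinal
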