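import Fermat.Agent.S56x.Local.EulerTameUpper
import Fermat.Agent.S56x.Local.UnramAbstract
import Fermat.Agent.S56x.GW.Interface
import Fermat.Agent.Lib.CFT.Profinite.BridgeSha

/-!
# P-S56 block (B), local line (L1): the tame local Euler characteristic formula at `q ≠ p`

`finrank_continuousH1_eq` : for a finite discrete `𝔽_p[G_q]`-module `N`, `q ≠ p`,

  `h¹(G_q, N) = h⁰(G_q, N) + h⁰(G_q, N^*(1))`,

from
* the upper bound of `Local/EulerTameUpper` (tame structure of the finite quotients, `TameHyp`);
* local Tate duality in degree `(1,1)` (`LocalBase.localTate`), the vanishing of the cup product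
  of unramified classes and `dim H¹_unr = h⁰` (`Local/UnramAbstract`, helper92), for a
  `FrobData` on `G_q` whose inertia acts trivially on `μ_p`.

`localEuler_ne_of` : the field `GWRest.localEuler_ne` of `S56x/GW/MainOf.lean`, verbatim.
`mem_unrLevel_of_orthogonal` : as a corollary, `H¹_unr(N)^⊥ = H¹_unr(N^*(1))` on level classes.
-/

set_option autoImplicit false
set_option linter.style.haveILetI false
set_option linter.unusedSectionVars false

open CategoryTheory groupCohomology Module ExtCitation

namespace Fermat.Agent.S56x.Local.EulerTame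

open Fermat.Agent.Lib.CFT.Profinite Fermat.Agent.Lib.CFT.Profinite.LevelFamily
open Fermat.Agent.Lib.CFT.Profinite.Bridge
open Fermat.Agent.Lib.CFT.Duality Fermat.Agent.Lib.CFT.Duality.LocalTate
open Fermat.Agent.S56x.Local.EulerTameUpper Fermat.Agent.S56x.Local.UnramAbstract
open Fermat.Agent.S56x.GW

/-! ### Linear algebra -/

section LinAlg

variable {k : Type*} [Field k] {H H' : Type*} [AddCommGroup H] [Module k H] [AddCommGroup H']
  [Module k H'] [FiniteDimensional k H] [FiniteDimensional k H']

/-- If `Λ : H → Dual H'` is injective and `A ⟂ A'`, then `dim A + dim A' ≤ dim H'`. -/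
theorem finrank_add_le_of_orthogonal (Λ : H →ₗ[k] Module.Dual k H') (hΛ : Function.Injective Λ)
    (A : Submodule k H) (A' : Submodule k H') (h : ∀ x ∈ A, ∀ y ∈ A', Λ x y = 0) :
    finrank k A + finrank k A' ≤ finrank k H' := by
  have h1 : A.map Λ ≤ A'.dualAnnihilator := by
    rintro _ ⟨x, hx, rfl⟩
    rw [Submodule.mem_dualAnnihilator]
    exact fun y hy => h x hx y hy
  have h2 : finrank k (A.map Λ) = finrank k A :=
    (Submodule.equivMapOfInjective Λ hΛ A).finrank_eq.symm
  have h3 := Submodule.finrank_mono h1
  have h4 := Subspace.finrank_add_finrank_dualAnnihilator_eq A'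
  omega

theorem finrank_eq_of_bijective_dual (Λ : H →ₗ[k] Module.Dual k H')
    (hΛ : Function.Bijective Λ) : finrank k H = finrank k H' := by
  rw [(LinearEquiv.ofBijective Λ hΛ).finrank_eq, Subspace.dual_finrank_eq]

/-- If moreover `Λ` is bijective and `dim A + dim A' = dim H'`, then `A' = A^⊥`. -/
theorem mem_of_orthogonal_of_finrank_eq (Λ : H →ₗ[k] Module.Dual k H')
    (hΛ : Function.Injective Λ)
    (A : Submodule k H) (A' : Submodule k H') (h : ∀ x ∈ A, ∀ y ∈ A', Λ x y = 0)
    (hdim : finrank k H' ≤ finrank k A + finrank k A') {y : H'} (hy : ∀ x ∈ A, Λ x y = 0) :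
    y ∈ A' := by
  have h1 : A.map Λ ≤ A'.dualAnnihilator := by
    rintro _ ⟨x, hx, rfl⟩
    rw [Submodule.mem_dualAnnihilator]
    exact fun y hy => h x hx y hy
  have h2 : finrank k (A.map Λ) = finrank k A :=
    (Submodule.equivMapOfInjective Λ hΛ A).finrank_eq.symm
  have h4 := Subspace.finrank_add_finrank_dualAnnihilator_eq A'
  have h5 : A.map Λ = A'.dualAnnihilator :=
    Submodule.eq_of_le_of_finrank_le h1 (by omega)
  have h6 : y ∈ (A'.dualAnnihilator).dualCoannihilator := by
    rw [Submodule.mem_dualCoannihilator]
    intro φ hφ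
    rw [← h5] at hφ
    obtain ⟨x, hx, rfl⟩ := hφ
    exact hy x hx
  rwa [Subspace.dualAnnihilator_dualCoannihilator_eq] at h6

end LinAlg

/-! ### The formula for a discrete module of the local Galois group -/

section Core

variable {p : ℕ} [Fact p.Prime] {q : Nat.Primes}

/-- `μ_p` as a discrete module of `G_q` -/
theorem isDiscrete_ofChar_localCycloChar :
    (primeLocalLevels q).IsDiscrete
      (groupCohomology.ofChar (k := ZMod p) (localCycloChar p q)) := by
  obtain ⟨U, hU, hχ⟩ := exists_level_localCycloChar p q
  intro m
  refine ⟨U, hU, fun s hs => ?_⟩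
  rw [ofChar_ρ_apply, hχ s hs, Units.val_one, one_mul]

/-- The range of the comparison map in degree one does not depend on the choice among the two
mutually cofinal level families of `G_q` (as in `S56x/GW/LocalFields`, re-proved here to keep the
import closure small). -/
theorem range_toGroupCohomology_gal_eq_local (A : Rep (ZMod p) (primeLocalGaloisGroup q)) :
    LinearMap.range ((galLevels (primeLocalToGlobal q)).toGroupCohomology A 1).hom =
      LinearMap.range ((primeLocalLevels q).toGroupCohomology A 1).hom := by
  ext x
  rw [mem_range_toGroupCohomology_one_iff, mem_range_toGroupCohomology_one_iff]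
  have h : (galLevels (primeLocalToGlobal q)).levelCochains A 1 =
      (primeLocalLevels q).levelCochains A 1 :=
    levelCochains_eq_of_mutual (isCompatible_localLevelsP_galLevels q)
      (isCompatible_galLevels_localLevelsP q) A 1
  constructor
  · rintro ⟨c, hc, rfl⟩
    refine ⟨c, ?_, rfl⟩
    have : (fun g : Fin 1 → primeLocalGaloisGroup q => c.1 (g 0)) ∈
        (galLevels (primeLocalToGlobal q)).levelCochains A 1 := hc
    rw [h] at this
    exact this
  · rintro ⟨c, hc, rfl⟩
    refine ⟨c, ?_, rfl⟩
    have : (fun g : Fin 1 → primeLocalGaloisGroup q => c.1 (g 0)) ∈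
        (primeLocalLevels q).levelCochains A 1 := hc
    rw [← h] at this
    exact this

/-- The Prelude's continuous `H¹` of a discrete `G_q`-module is the image of level cohomology
(for the level family of all open subgroups). -/
theorem continuousH1_eq_range_primeLocal (N : Rep (ZMod p) (primeLocalGaloisGroup q))
    (hN : (primeLocalLevels q).IsDiscrete N) :
    continuousH1 (primeLocalToGlobal q) N =
      LinearMap.range ((primeLocalLevels q).toGroupCohomology N 1).hom := by
  have hgal : (galLevels (primeLocalToGlobal q)).IsDiscrete N := by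
    intro m
    obtain ⟨U, hU, h⟩ := hN m
    obtain ⟨U', hU', hle⟩ := isCompatible_galLevels_localLevelsP q U hU
    exact ⟨U', hU', fun s hs => h s (hle hs)⟩
  rw [continuousH1_eq_range (primeLocalToGlobal q) N hgal]
  exact range_toGroupCohomology_gal_eq_local N

variable (B : LocalBase p q) (D : FrobData (primeLocalLevels q))
  (hDχ : ∀ i ∈ D.I, localCycloChar p q i = 1)
  (N : Rep (ZMod p) (primeLocalGaloisGroup q)) [FiniteDimensional (ZMod p) N]
  (hN : (primeLocalLevels q).IsDiscrete N)

/-- the unramified classes, inside level cohomology -/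
noncomputable def unrLevel : Submodule (ZMod p) ((primeLocalLevels q).levelCohomology N 1) :=
  (H1unr D N).comap ((primeLocalLevels q).toGroupCohomology N 1).hom

include hN in
theorem finrank_unrLevel :
    finrank (ZMod p) (unrLevel D N) = finrank (ZMod p) N.ρ.invariants := by
  have hinj := (primeLocalLevels q).toGroupCohomology_one_injective N
  have hle : H1unr D N ≤ LinearMap.range ((primeLocalLevels q).toGroupCohomology N 1).hom := by
    rintro _ ⟨c, hc, rfl⟩
    exact ⟨_, toGroupCohomology_cls_up hN hc.1⟩
  have h1 : (unrLevel D N).map ((primeLocalLevels q).toGroupCohomology N 1).hom = H1unr D N := by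
    rw [unrLevel, Submodule.map_comap_eq, inf_eq_right.2 hle]
  have h2 := (Submodule.equivMapOfInjective _ hinj (unrLevel D N)).finrank_eq
  rw [h2, h1, finrank_H1unr D hN]

include hDχ hN in
/-- unramified classes of `N` and of `N^*(1)` are orthogonal for the local Tate pairing -/
theorem lam_unr_eq_zero [Finite N]
    (hN' : (primeLocalLevels q).IsDiscrete (N.dualTwist (localCycloChar p q)))
    (x : (primeLocalLevels q).levelCohomology N 1) (hx : x ∈ unrLevel D N)
    (y : (primeLocalLevels q).levelCohomology (N.dualTwist (localCycloChar p q)) 1)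
    (hy : y ∈ unrLevel D (N.dualTwist (localCycloChar p q))) :
    lam₀ (r := 1) (localCycloChar p q) (primeLocalLevels q) B.inv N x y = 0 := by
  rw [lam_apply]
  have : Module.Finite (ZMod p) (groupCohomology.ofChar (k := ZMod p) (localCycloChar p q)) :=
    inferInstanceAs (Module.Finite (ZMod p) (ZMod p))
  have h := cupH_eq_zero (D := D) hN hN' isDiscrete_ofChar_localCycloChar
    (evPairing (localCycloChar p q) N)
    (fun i hi m => by rw [ofChar_ρ_apply, hDχ i hi, Units.val_one, one_mul])
    (rfl : 1 + 1 = 1 + 1) x y hx hy
  rw [h, map_zero]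

include B hDχ hN in
/-- **The tame local Euler characteristic formula** for a finite discrete `𝔽_p[G_q]`-module:
`h¹(G_q, N) = h⁰(G_q, N) + h⁰(G_q, N^*(1))`. -/
theorem finrank_continuousH1_eq (hT : TameHyp p q) :
    finrank (ZMod p) (continuousH1 (primeLocalToGlobal q) N) =
      finrank (ZMod p) N.ρ.invariants +
        finrank (ZMod p) (N.dualTwist (localCycloChar p q)).ρ.invariants := by
  have : Finite N := Module.finite_of_finite (ZMod p)
  have hN' : (primeLocalLevels q).IsDiscrete (N.dualTwist (localCycloChar p q)) :=
    DualTwist.isDiscrete_dualTwist (localCycloChar p q) (primeLocalLevels q) N hN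
      (exists_level_localCycloChar p q)
  have : Finite (N.dualTwist (localCycloChar p q)) := DualTwist.finite_dualTwist _ _
  have : Module.Finite (ZMod p) (N.dualTwist (localCycloChar p q)) := Module.Finite.of_finite
  have hfin := (B.finite N hN).1
  have hfin' := (B.finite (N.dualTwist (localCycloChar p q)) hN').1
  obtain ⟨hb0, -⟩ := B.localTate N hN
  -- the lower bound
  have hlow := finrank_add_le_of_orthogonal
    (lam₀ (r := 1) (localCycloChar p q) (primeLocalLevels q) B.inv N) hb0.1
    (unrLevel D N) (unrLevel D (N.dualTwist (localCycloChar p q)))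
    (fun x hx y hy => lam_unr_eq_zero B D hDχ N hN hN' x hx y hy)
  have heq := finrank_eq_of_bijective_dual
    (lam₀ (r := 1) (localCycloChar p q) (primeLocalLevels q) B.inv N) hb0
  rw [finrank_unrLevel D N hN, finrank_unrLevel D _ hN'] at hlow
  -- `H¹` of level cohomology is the continuous `H¹`
  have hH : finrank (ZMod p) (continuousH1 (primeLocalToGlobal q) N) =
      finrank (ZMod p) ((primeLocalLevels q).levelCohomology N 1) := by
    rw [continuousH1_eq_range_primeLocal N hN]
    exact (LinearEquiv.ofInjective _
      ((primeLocalLevels q).toGroupCohomology_one_injective N)).finrank_eq.symm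
  have hup := finrank_continuousH1_le hT N hN
  omega

include hDχ hN in
/-- **Corollary**: the orthogonal complement of the unramified classes of `N` under the local
Tate pairing is the space of unramified classes of `N^*(1)`. -/
theorem mem_unrLevel_of_orthogonal (hT : TameHyp p q)
    (y : (primeLocalLevels q).levelCohomology (N.dualTwist (localCycloChar p q)) 1)
    (hy : ∀ x ∈ unrLevel D N,
      lam₀ (r := 1) (localCycloChar p q) (primeLocalLevels q) B.inv N x y = 0) :
    y ∈ unrLevel D (N.dualTwist (localCycloChar p q)) := by
  have : Finite N := Module.finite_of_finite (ZMod p)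
  have hN' : (primeLocalLevels q).IsDiscrete (N.dualTwist (localCycloChar p q)) :=
    DualTwist.isDiscrete_dualTwist (localCycloChar p q) (primeLocalLevels q) N hN
      (exists_level_localCycloChar p q)
  have : Finite (N.dualTwist (localCycloChar p q)) := DualTwist.finite_dualTwist _ _
  have : Module.Finite (ZMod p) (N.dualTwist (localCycloChar p q)) := Module.Finite.of_finite
  have hfin := (B.finite N hN).1
  have hfin' := (B.finite (N.dualTwist (localCycloChar p q)) hN').1
  obtain ⟨hb0, -⟩ := B.localTate N hN
  have heq := finrank_eq_of_bijective_dual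
    (lam₀ (r := 1) (localCycloChar p q) (primeLocalLevels q) B.inv N) hb0
  have hH : finrank (ZMod p) (continuousH1 (primeLocalToGlobal q) N) =
      finrank (ZMod p) ((primeLocalLevels q).levelCohomology N 1) := by
    rw [continuousH1_eq_range_primeLocal N hN]
    exact (LinearEquiv.ofInjective _
      ((primeLocalLevels q).toGroupCohomology_one_injective N)).finrank_eq.symm
  have hmain := finrank_continuousH1_eq B D hDχ N hN hT
  refine mem_of_orthogonal_of_finrank_eq
    (lam₀ (r := 1) (localCycloChar p q) (primeLocalLevels q) B.inv N) hb0.1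
    (unrLevel D N) (unrLevel D (N.dualTwist (localCycloChar p q)))
    (fun x hx y hy => lam_unr_eq_zero B D hDχ N hN hN' x hx y hy) ?_ hy
  rw [finrank_unrLevel D N hN, finrank_unrLevel D _ hN']
  omega

end Core

/-! ### The package field -/

section Package

local notation "Γℚ" => (AlgebraicClosure ℚ ≃ₐ[ℚ] AlgebraicClosure ℚ)

variable {p : ℕ} [Fact p.Prime]

/-- the two descriptions of the local invariants of the Tate dual -/
theorem finrank_invariants_res_tateDual (q : Nat.Primes) (M : Rep (ZMod p) Γℚ) :
    finrank (ZMod p)
        ((Rep.res (primeLocalToGlobal q) M).dualTwist (localCycloChar p q)).ρ.invariants =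
      finrank (ZMod p) (Rep.res (primeLocalToGlobal q) (tateDual p M)).ρ.invariants := by
  let e : ((Rep.res (primeLocalToGlobal q) M).dualTwist (localCycloChar p q)).ρ.invariants ≃ₗ[ZMod p]
      (Rep.res (primeLocalToGlobal q) (tateDual p M)).ρ.invariants :=
    { toFun := fun x => ⟨(x.1 : Module.Dual (ZMod p) M), fun g => by
        have h := x.2 g
        rw [Rep.dualTwist_ρ_apply] at h
        show (M.dualTwist (cycloChar p)).ρ (primeLocalToGlobal q g) _ = _
        rw [Rep.dualTwist_ρ_apply, ← map_inv]
        exact h⟩
      invFun := fun x => ⟨(x.1 : Module.Dual (ZMod p) M), fun g => by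
        have h : (M.dualTwist (cycloChar p)).ρ (primeLocalToGlobal q g) x.1 = x.1 := x.2 g
        rw [Rep.dualTwist_ρ_apply, ← map_inv] at h
        rw [Rep.dualTwist_ρ_apply]
        exact h⟩
      map_add' := fun a b => rfl
      map_smul' := fun r a => rfl
      left_inv := fun x => rfl
      right_inv := fun x => rfl }
  exact e.finrank_eq

/-- **The field `localEuler_ne` of `GWPackage` / `GWRest`** (verbatim), from: inputs `B q` of local
Tate duality, the tame data (T) on the finite quotients of `G_q`, and a `FrobData` on `G_q` whose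
inertia acts trivially on `μ_p`, for every prime `q ≠ p`. -/
theorem localEuler_ne_of (B : ∀ q : Nat.Primes, LocalBase p q)
    (hT : ∀ q : Nat.Primes, q ≠ pPrime p → TameHyp p q)
    (hD : ∀ q : Nat.Primes, q ≠ pPrime p →
      ∃ D : FrobData (primeLocalLevels q), ∀ i ∈ D.I, localCycloChar p q i = 1) :
    ∀ (S : Finset Nat.Primes) (M : Rep (ZMod p) Γℚ)
      [FiniteDimensional (ZMod p) M], IsGoodModule p S M → ∀ q : S, q.1 ≠ pPrime p →
      finrank (ZMod p) (locH1 S M (Sum.inr q)) =
        finrank (ZMod p) (locH0 S M (Sum.inr q)) +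
          finrank (ZMod p) (locH0 S (tateDual p M) (Sum.inr q)) := by
  intro S M _ hM q hq
  obtain ⟨D, hDχ⟩ := hD q.1 hq
  have hN : (primeLocalLevels q.1).IsDiscrete (Rep.res (primeLocalToGlobal q.1) M) := by
    intro m
    obtain ⟨U, hU, h⟩ := isDiscrete_galLevels_res (primeLocalToGlobal q.1) M hM.smooth m
    obtain ⟨U', hU', hle⟩ := isCompatible_localLevelsP_galLevels q.1 U hU
    exact ⟨U', hU', fun s hs => h s (hle hs)⟩
  haveI : FiniteDimensional (ZMod p) (Rep.res (primeLocalToGlobal q.1) M) :=
    inferInstanceAs (FiniteDimensional (ZMod p) M)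
  have h := finrank_continuousH1_eq (B q.1) D hDχ (Rep.res (primeLocalToGlobal q.1) M) hN
    (hT q.1 hq)
  rw [finrank_invariants_res_tateDual] at h
  exact h

end Package

end Fermat.Agent.S56x.Local.EulerTame
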