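import Fermat.Agent.S56x.Local.TameH1Bound
import Fermat.Agent.Lib.CFT.Duality.LocalTateArith
import Fermat.Prelude.Def_GroupCohomology_ContinuousH1

/-!
# P-S56 block (B), local line (L1): the upper bound `h¹ ≤ h⁰(N) + h⁰(N^*(1))` at `q ≠ p`

* generic bridge: for a level family `𝒰` on `G` and a finite dimensional representation `N`,
  the classes of level-constant cocycles are inflated from the finite quotients `G ⧸ U`
  (`finrank_contH1_le`);
* `finrank_continuousH1_le`: for `G = primeLocalGaloisGroup q`, given tame data on the finite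
  quotients `G ⧸ U` (hypothesis `TameHyp`, the arithmetic input (T)),
  `finrank (continuousH1 (primeLocalToGlobal q) N) ≤ finrank N^G + finrank (N^*(χ))^G`.
-/

set_option autoImplicit false
set_option linter.style.haveILetI false
set_option linter.unusedSectionVars false

universe u

open CategoryTheory groupCohomology Module

namespace Fermat.Agent.S56x.Local.EulerTameUpper

open Fermat.Agent.Lib.CFT.Profinite Fermat.Agent.Lib.CFT.Profinite.LevelFamily
open Fermat.Agent.S56x.Local.TameH1

/-! ### Inflation from a finite quotient, by hand -/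

section Infl

variable {k G : Type u} [Field k] [Group G] (N : Rep.{u} k G) (U : Subgroup G) [U.Normal]
  [Representation.IsTrivial (N.ρ.comp U.subtype)]

/-- inflation of cocycles from `G ⧸ U` -/
noncomputable def inflCoc : cocycles₁ (N.ofQuotient U) →ₗ[k] cocycles₁ N where
  toFun c := ⟨fun g => (c : G ⧸ U → N) (g : G ⧸ U), (mem_cocycles₁_iff _).2 fun g h => by
    have := (mem_cocycles₁_iff (c : G ⧸ U → N.ofQuotient U)).1 c.2 (g : G ⧸ U) (h : G ⧸ U)
    exact this⟩
  map_add' a b := rfl
  map_smul' r a := rfl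

theorem inflCoc_apply (c : cocycles₁ (N.ofQuotient U)) (g : G) :
    (inflCoc N U c : G → N) g = (c : G ⧸ U → N) (g : G ⧸ U) := rfl

/-- inflation to `H¹(G, N)` -/
noncomputable def inflH1 : cocycles₁ (N.ofQuotient U) →ₗ[k] H1 N :=
  (H1π N).hom ∘ₗ inflCoc N U

theorem kerπ_le_ker_inflH1 : kerπ (N.ofQuotient U) ≤ LinearMap.ker (inflH1 N U) := by
  intro c hc
  rw [kerπ, LinearMap.mem_ker] at hc
  obtain ⟨m, hm⟩ := (H1π_eq_zero_iff _).1 hc
  rw [LinearMap.mem_ker, inflH1, LinearMap.comp_apply]
  refine (H1π_eq_zero_iff _).2 ⟨m, funext fun g => ?_⟩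
  have := congrFun hm (g : G ⧸ U)
  rw [inflCoc_apply, ← this]
  rfl

/-- the class of a cocycle constant modulo `U` is inflated from `G ⧸ U` -/
theorem mem_range_inflH1 (c : cocycles₁ N) (hc : ∀ g s : G, s ∈ U → c (g * s) = c g) :
    (H1π N).hom c ∈ LinearMap.range (inflH1 N U) := by
  have hc' : ∀ a b : G, QuotientGroup.leftRel U a b → c a = c b := by
    intro a b hab
    rw [QuotientGroup.leftRel_apply] at hab
    have := hc a (a⁻¹ * b) hab
    rw [mul_inv_cancel_left] at this
    exact this.symm
  let cbar : G ⧸ U → N := Quotient.lift (fun g => c g) hc'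
  have hcbar : ∀ g : G, cbar (g : G ⧸ U) = c g := fun g => rfl
  have hmem : cbar ∈ cocycles₁ (N.ofQuotient U) := by
    refine (mem_cocycles₁_iff _).2 fun a b => ?_
    induction a using QuotientGroup.induction_on with | H a =>
    induction b using QuotientGroup.induction_on with | H b =>
    have := (mem_cocycles₁_iff (c : G → N)).1 c.2 a b
    rw [← QuotientGroup.mk_mul, hcbar, hcbar, hcbar, this]
    rfl
  refine ⟨⟨cbar, hmem⟩, ?_⟩
  rw [inflH1, LinearMap.comp_apply]
  congr 1

variable [Finite (G ⧸ U)] [FiniteDimensional k N]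

/-- `dim (classes inflated from G ⧸ U) ≤ dim H¹(G ⧸ U, N)` -/
theorem finrank_range_inflH1_le :
    finrank k (LinearMap.range (inflH1 N U)) ≤ finrank k (H1 (N.ofQuotient U)) := by
  have h1 := LinearMap.finrank_range_add_finrank_ker (inflH1 N U)
  have h2 := Submodule.finrank_mono (kerπ_le_ker_inflH1 N U)
  have h3 := finrank_H1_add_finrank_kerπ (N.ofQuotient U)
  omega

end Infl

/-! ### The generic bridge -/

section Bridge

variable {k G : Type u} [Field k] [Group G] (𝒰 : LevelFamily G) (N : Rep.{u} k G)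
  [FiniteDimensional k N]

theorem isTrivial_of_forall {U : Subgroup G} (h : ∀ s ∈ U, ∀ m : N, N.ρ s m = m) :
    Representation.IsTrivial (N.ρ.comp U.subtype) :=
  ⟨fun s => LinearMap.ext fun m => h s.1 s.2 m⟩

/-- **Bridge.**  A space `V` of classes of level-constant cocycles of a finite dimensional
representation `N` on which some level acts trivially has dimension `≤ B` as soon as
`dim H¹(G ⧸ U, N) ≤ B` for all small enough normal levels `U`. -/
theorem finrank_le_of_forall_level (V : Submodule k (H1 N))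
    (hV : ∀ x ∈ V, ∃ c : cocycles₁ N, 𝒰.IsConst₁ (c : G → N) ∧ (H1π N).hom c = x)
    (U₁ : Subgroup G) (hU₁ : U₁ ∈ 𝒰.levels) (hfix : ∀ s ∈ U₁, ∀ m : N, N.ρ s m = m) (B : ℕ)
    (hB : ∀ U ∈ 𝒰.levels, ∀ (_ : U.Normal) (hle : U ≤ U₁),
      haveI := isTrivial_of_forall N (fun s hs => hfix s (hle hs))
      finrank k (H1 (N.ofQuotient U)) ≤ B) :
    finrank k V ≤ B := by
  classical
  by_cases h0 : finrank k V = 0
  · omega
  have hfin : Module.Finite k V := Module.finite_of_finrank_pos (Nat.pos_of_ne_zero h0)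
  obtain ⟨S, hS⟩ := (Submodule.fg_iff_finiteDimensional V).2 hfin
  have hSV : ∀ x ∈ S, x ∈ V := fun x hx => hS ▸ Submodule.subset_span hx
  -- choose cocycles and levels
  have hex : ∀ x : S, ∃ c : cocycles₁ N, ∃ W ∈ 𝒰.levels,
      (∀ g s : G, s ∈ W → c (g * s) = c g) ∧ (H1π N).hom c = x.1 := by
    intro x
    obtain ⟨c, ⟨W, hW, hc⟩, hx⟩ := hV x.1 (hSV x.1 x.2)
    exact ⟨c, W, hW, hc, hx⟩
  choose c W hW hc hcx using hex
  obtain ⟨W₀, hW₀, -, hW₀le⟩ := 𝒰.exists_normal_le_of_finite W hW
  obtain ⟨U, hU, hUW₀, hUU₁, hUn⟩ := 𝒰.exists_normal_le_inf hW₀ hU₁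
  haveI := hUn
  haveI := isTrivial_of_forall N (fun s hs => hfix s (hUU₁ hs))
  haveI : Finite (G ⧸ U) :=
    haveI := 𝒰.finiteIndex U hU
    Subgroup.finite_quotient_of_finiteIndex
  have hle : V ≤ LinearMap.range (inflH1 N U) := by
    rw [← hS]
    refine Submodule.span_le.2 fun x hx => ?_
    have := mem_range_inflH1 N U (c ⟨x, hx⟩)
      (fun g s hs => hc ⟨x, hx⟩ g s (hW₀le ⟨x, hx⟩ (hUW₀ hs)))
    rw [hcx ⟨x, hx⟩] at this
    exact this
  calc finrank k V ≤ finrank k (LinearMap.range (inflH1 N U)) := Submodule.finrank_mono hle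
    _ ≤ finrank k (H1 (N.ofQuotient U)) := finrank_range_inflH1_le N U
    _ ≤ B := hB U hU hUn hUU₁

end Bridge

/-! ### Invariants of `N` and of `N` viewed as a representation of `G ⧸ U` -/

section Inv

variable {k G : Type u} [Field k] [Group G] (N : Rep.{u} k G) (U : Subgroup G) [U.Normal]
  [Representation.IsTrivial (N.ρ.comp U.subtype)] [FiniteDimensional k N]

theorem finrank_invariants_ofQuotient_le :
    finrank k (N.ofQuotient U).ρ.invariants ≤ finrank k N.ρ.invariants := by
  let f : (N.ofQuotient U).ρ.invariants →ₗ[k] N.ρ.invariants :=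
    { toFun := fun x => ⟨(x.1 : N), fun g => x.2 (g : G ⧸ U)⟩
      map_add' := fun a b => rfl
      map_smul' := fun r a => rfl }
  refine LinearMap.finrank_le_finrank_of_injective (f := f) fun a b hab => ?_
  have h : (f a).1 = (f b).1 := congrArg Subtype.val hab
  exact Subtype.ext h

theorem finrank_invariants_dualTwist_ofQuotient_le (χ : G →* kˣ) (χ' : (G ⧸ U) →* kˣ)
    (hχ : χ'.comp (QuotientGroup.mk' U) = χ) :
    finrank k ((N.ofQuotient U).dualTwist χ').ρ.invariants ≤
      finrank k (N.dualTwist χ).ρ.invariants := by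
  let f : ((N.ofQuotient U).dualTwist χ').ρ.invariants →ₗ[k] (N.dualTwist χ).ρ.invariants :=
    { toFun := fun x => ⟨(x.1 : Module.Dual k N), fun g => by
        have := x.2 (g : G ⧸ U)
        rw [Rep.dualTwist_ρ_apply] at this ⊢
        rw [← hχ]
        exact this⟩
      map_add' := fun a b => rfl
      map_smul' := fun r a => rfl }
  refine LinearMap.finrank_le_finrank_of_injective (f := f) fun a b hab => ?_
  have h : (f a).1 = (f b).1 := congrArg Subtype.val hab
  exact Subtype.ext h

end Inv

/-! ### The local statement -/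

section Local

open ExtCitation Fermat.Agent.Lib.CFT.Duality Fermat.Agent.Lib.CFT.Duality.LocalTate
open Fermat.Agent.Lib.CFT.Profinite.Bridge

variable (p : ℕ) [Fact p.Prime] (q : Nat.Primes)

/-- **The arithmetic input (T)**: tame data on the finite quotients `G_q ⧸ U` of the local
Galois group, for the normal open subgroups `U` on which the mod `p` cyclotomic character is
trivial. -/
def TameHyp : Prop :=
  ∀ U ∈ (primeLocalLevels q).levels, ∀ (_ : U.Normal), (∀ s ∈ U, localCycloChar p q s = 1) →
    ∀ χ' : (primeLocalGaloisGroup q ⧸ U) →* (ZMod p)ˣ,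
      χ'.comp (QuotientGroup.mk' U) = localCycloChar p q →
      Nonempty (TameData (primeLocalGaloisGroup q ⧸ U) (ZMod p) χ' q)

variable {p q}

/-- level-constancy in the sense of the Prelude implies level-constancy for the open subgroups
of the local Galois group -/
theorem isConst₁_of_isLevelConstant₁ {X : Type*} {f : primeLocalGaloisGroup q → X}
    (hf : IsLevelConstant₁ (primeLocalToGlobal q) f) : (primeLocalLevels q).IsConst₁ f := by
  have : Fact (q : ℕ).Prime := ⟨q.2⟩
  obtain ⟨W, hW, h⟩ := (isLevelConstant₁_iff (primeLocalToGlobal q) f).1 hf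
  obtain ⟨W', hW', hle⟩ := isCompatible_localLevels_galLevels (q : ℕ) W hW
  exact ⟨W', hW', fun g s hs => h g s (hle hs)⟩

/-- **Upper bound for the local `H¹` at `q ≠ p`** (given the tame data (T)):
`h¹(G_q, N) ≤ h⁰(G_q, N) + h⁰(G_q, N^*(1))`. -/
theorem finrank_continuousH1_le (hT : TameHyp p q) (N : Rep (ZMod p) (primeLocalGaloisGroup q))
    [FiniteDimensional (ZMod p) N] (hN : (primeLocalLevels q).IsDiscrete N) :
    finrank (ZMod p) (continuousH1 (primeLocalToGlobal q) N) ≤
      finrank (ZMod p) N.ρ.invariants +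
        finrank (ZMod p) (N.dualTwist (localCycloChar p q)).ρ.invariants := by
  have : Finite N := Module.finite_of_finite (ZMod p)
  obtain ⟨W, hW, -, hWfix⟩ := DevissageRep.exists_normal_level_acting_trivially
    (primeLocalLevels q) hN
  obtain ⟨W', hW', hχ⟩ := exists_level_localCycloChar p q
  obtain ⟨U₁, hU₁, hU₁W, hU₁W', -⟩ := (primeLocalLevels q).exists_normal_le_inf hW hW'
  refine finrank_le_of_forall_level (primeLocalLevels q) N _ (fun x hx => ?_) U₁ hU₁
    (fun s hs m => hWfix s (hU₁W hs) m) _ (fun U hU hUn hle => ?_)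
  · obtain ⟨c, hc, rfl⟩ := (mem_continuousH1_iff _ _ _).1 hx
    exact ⟨c, isConst₁_of_isLevelConstant₁ hc, rfl⟩
  · haveI := hUn
    haveI := isTrivial_of_forall N (fun s hs => hWfix s (hU₁W (hle hs)))
    have hχU : ∀ s ∈ U, localCycloChar p q s = 1 := fun s hs => hχ s (hU₁W' (hle hs))
    have hker : U ≤ (localCycloChar p q).ker := fun s hs => MonoidHom.mem_ker.2 (hχU s hs)
    let χ' : (primeLocalGaloisGroup q ⧸ U) →* (ZMod p)ˣ :=
      QuotientGroup.lift U (localCycloChar p q) hker
    have hcomp : χ'.comp (QuotientGroup.mk' U) = localCycloChar p q := by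
      ext g
      rfl
    obtain ⟨T⟩ := hT U hU hUn hχU χ' hcomp
    haveI : Finite (primeLocalGaloisGroup q ⧸ U) :=
      haveI := (primeLocalLevels q).finiteIndex U hU
      Subgroup.finite_quotient_of_finiteIndex
    haveI : FiniteDimensional (ZMod p) (N.ofQuotient U) :=
      inferInstanceAs (FiniteDimensional (ZMod p) N)
    have h1 := finrank_H1_le (N.ofQuotient U) T
    have h2 := finrank_invariants_ofQuotient_le N U
    have h3 := finrank_invariants_dualTwist_ofQuotient_le N U (localCycloChar p q) χ' hcomp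
    omega

end Local

end Fermat.Agent.S56x.Local.EulerTameUpper
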