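import Mathlib
import Fermat.Agent.S56x.Local.FiltrationCount

/-!
# P-S56, block (A) (helper48): transport of equivariant-hom counts along an injection

`ι : A₀ →* A` an injective, equivariant group hom (`ι (ρA₀ g a) = ρA g (ι a)`), `S₀ ≤ A₀`.
Then the equivariant homs `N → A` with values in `S₀.map ι` inject into the equivariant homs
`N → A₀` with values in `S₀`:

* `pullHom`, `pullHom_injective`;
* `finite_and_card_map_le` : `Finite (eqHom ρN ρA₀ S₀) → Finite (eqHom ρN ρA (S₀.map ι)) ∧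
  Nat.card (eqHom ρN ρA (S₀.map ι)) ≤ Nat.card (eqHom ρN ρA₀ S₀)`.

(Use: the count of `S56x/Local/WbCount` lives on `A₀ = O_Lˣ ⧸ p`; the Kummer pairing of
`S56x/Local/KummerPairing` lives on `A = Lˣ ⧸ p`.)
-/

set_option autoImplicit false
set_option linter.unusedSectionVars false

namespace Fermat.Agent.S56x.Local.FiltrationTransport

open Fermat.Agent.S56x.Local.FiltrationCount

variable {G N A₀ A : Type*} [Group N] [CommGroup A₀] [CommGroup A]
  {ρN : G → N → N} {ρA₀ : G → A₀ →* A₀} {ρA : G → A →* A}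
  (ι : A₀ →* A) (hι : Function.Injective ι) (hequiv : ∀ g a, ι (ρA₀ g a) = ρA g (ι a))
  (S₀ : Subgroup A₀)

/-- the preimage in `S₀` of an element of `S₀.map ι`. -/
noncomputable def pre (y : S₀.map ι) : A₀ := (Subgroup.mem_map.mp y.2).choose

theorem pre_mem (y : S₀.map ι) : pre ι S₀ y ∈ S₀ := (Subgroup.mem_map.mp y.2).choose_spec.1

theorem map_pre (y : S₀.map ι) : ι (pre ι S₀ y) = y := (Subgroup.mem_map.mp y.2).choose_spec.2

include hι in
theorem pre_eq {y : S₀.map ι} {a : A₀} (h : ι a = y) : pre ι S₀ y = a :=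
  hι ((map_pre ι S₀ y).trans h.symm)

/-- pull an `S₀.map ι`-valued equivariant hom back to an `S₀`-valued one. -/
noncomputable def pullHom (f : eqHom ρN ρA (S₀.map ι)) : eqHom ρN ρA₀ S₀ :=
  ⟨{ toFun := fun n => pre ι S₀ ⟨(f : N →* A) n, f.2.1 n⟩
     map_one' := by
       refine pre_eq ι hι S₀ ?_
       rw [map_one]
       exact (map_one (f : N →* A)).symm
     map_mul' := fun n n' => by
       refine pre_eq ι hι S₀ ?_
       rw [map_mul, map_pre, map_pre]
       exact (map_mul (f : N →* A) n n').symm },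
   fun n => pre_mem ι S₀ _,
   fun g n => by
     show pre ι S₀ ⟨(f : N →* A) (ρN g n), _⟩ = ρA₀ g (pre ι S₀ ⟨(f : N →* A) n, _⟩)
     refine pre_eq ι hι S₀ ?_
     rw [hequiv, map_pre]
     exact (f.2.2 g n).symm⟩

theorem map_pullHom (f : eqHom ρN ρA (S₀.map ι)) (n : N) :
    ι ((pullHom ι hι hequiv S₀ f : N →* A₀) n) = (f : N →* A) n :=
  map_pre ι S₀ _

theorem pullHom_injective : Function.Injective (pullHom (ρN := ρN) ι hι hequiv S₀) := by
  intro f f' h
  apply Subtype.ext
  ext n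
  rw [← map_pullHom ι hι hequiv S₀ f n, ← map_pullHom ι hι hequiv S₀ f' n, h]

include hι hequiv in
/-- **transport of the count.** -/
theorem finite_and_card_map_le [Finite (eqHom ρN ρA₀ S₀)] :
    Finite (eqHom ρN ρA (S₀.map ι)) ∧
      Nat.card (eqHom ρN ρA (S₀.map ι)) ≤ Nat.card (eqHom ρN ρA₀ S₀) :=
  ⟨Finite.of_injective _ (pullHom_injective ι hι hequiv S₀),
    Nat.card_le_card_of_injective _ (pullHom_injective ι hι hequiv S₀)⟩

end Fermat.Agent.S56x.Local.FiltrationTransport
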