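import Fermat.Agent.S56x.Local.DevissageUT
import Fermat.Agent.S56x.Local.DevissageIrred

/-!
# P-S56 / block A : bridge from `groupCohomology.H1` to explicit matrix cocycles

`A : Rep (ZMod p) G` is a model of `ad⁰ ρ̄` through `m : AdModel A ρ`
(an injective `ZMod p`-linear map `ι : A → M₂(k)` onto the trace-zero matrices, intertwining
`A.ρ g` with `X ↦ R g * X * Ri g`).  Then `H¹(G, A)` embeds `ZMod p`-linearly into
`(G → M₂(k)) ⧸ adMatB ρ`, and a `k`-rank bound for the image of a `k`-submodule `Z` of explicit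
cocycles gives a `ZMod p`-finrank bound for every `L ≤ H¹(G, A)` represented inside `Z`.
-/

set_option autoImplicit false
set_option linter.unusedSectionVars false
set_option linter.style.haveILetI false

namespace Fermat.Agent.S56x.Local.FlatBridge

open Fermat.Agent.S56x.Local.Devissage groupCohomology Module CategoryTheory

local notation "M₂" => Matrix (Fin 2) (Fin 2)

variable {G : Type} [Group G] {k : Type} [Field k] {p : ℕ} [Fact p.Prime] [Algebra (ZMod p) k]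

/-- `A` is a model of the adjoint representation `ad⁰` of `ρ`. -/
structure AdModel (A : Rep (ZMod p) G) (ρ : MatRep G k) where
  ι : A.V →ₗ[ZMod p] M₂ k
  inj : Function.Injective ι
  trace_zero : ∀ a, (ι a).trace = 0
  surj : ∀ X : M₂ k, X.trace = 0 → ∃ a, ι a = X
  equivariant : ∀ g a, ι (A.ρ g a) = ρ.Ad g (ι a)

namespace AdModel

variable {A : Rep (ZMod p) G} {ρ : MatRep G k} (m : AdModel A ρ)

/-- the explicit matrix cocycle of a cocycle of `A`. -/
def toMat (c : G → A.V) : G → M₂ k := fun g => m.ι (c g)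

theorem toMat_mem_adMatZ (c : cocycles₁ A) : m.toMat c ∈ adMatZ ρ := by
  refine ⟨fun g => m.trace_zero _, fun g h => ?_⟩
  have := (mem_cocycles₁_iff (c : G → A.V)).1 c.2 g h
  simp only [toMat]
  rw [this, map_add, m.equivariant, add_comm]

/-- `ZMod p`-linear version of `toMat`. -/
def toMatₗ : (G → A.V) →ₗ[ZMod p] (G → M₂ k) where
  toFun c := m.toMat c
  map_add' c c' := by funext g; simp [toMat]
  map_smul' a c := by funext g; simp [toMat]

@[simp] theorem toMatₗ_apply (c : G → A.V) (g : G) : m.toMatₗ c g = m.ι (c g) := rfl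

theorem toMat_mem_adMatB_iff (c : G → A.V) :
    m.toMat c ∈ adMatB ρ ↔ c ∈ coboundaries₁ A := by
  constructor
  · rintro ⟨X, hX, hXc⟩
    obtain ⟨a, ha⟩ := m.surj X (mem_sl2.1 hX)
    refine ⟨a, ?_⟩
    funext g
    apply m.inj
    have := congrFun hXc g
    simp only [adMatCob_apply, toMat] at this
    rw [← this, ← ha]
    simp only [d₀₁_hom_apply, map_sub, m.equivariant]
  · rintro ⟨a, rfl⟩
    refine ⟨m.ι a, mem_sl2.2 (m.trace_zero a), ?_⟩
    funext g
    simp only [adMatCob_apply, toMat, d₀₁_hom_apply, map_sub, m.equivariant]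

/-- the target of the embedding of `H¹`. -/
abbrev Quo (ρ : MatRep G k) : Type := (G → M₂ k) ⧸ adMatB ρ

/-- cocycles of `A` to the explicit quotient, `ZMod p`-linearly. -/
def cocToQuo : cocycles₁ A →ₗ[ZMod p] Quo ρ :=
  (((adMatB ρ).mkQ).restrictScalars (ZMod p)).comp (m.toMatₗ.comp (cocycles₁ A).subtype)

theorem cocToQuo_apply (c : cocycles₁ A) :
    m.cocToQuo c = (adMatB ρ).mkQ (m.toMat c) := rfl

theorem cocToQuo_eq_zero_iff (c : cocycles₁ A) :
    m.cocToQuo c = 0 ↔ (H1π A).hom c = 0 := by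
  rw [cocToQuo_apply, Submodule.mkQ_apply, Submodule.Quotient.mk_eq_zero,
    m.toMat_mem_adMatB_iff]
  exact (H1π_eq_zero_iff c).symm

theorem H1π_surjective : Function.Surjective (H1π A).hom :=
  (ModuleCat.epi_iff_surjective (H1π A)).1 inferInstance

/-- **The embedding** `H¹(G, A) ↪ (G → M₂(k)) ⧸ adMatB ρ`. -/
noncomputable def h1ToQuo : H1 A →ₗ[ZMod p] Quo ρ :=
  ((LinearMap.ker (H1π A).hom).liftQ m.cocToQuo (fun c hc => by
      rw [LinearMap.mem_ker] at hc ⊢
      exact (m.cocToQuo_eq_zero_iff c).2 hc)).comp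
    ((H1π A).hom.quotKerEquivOfSurjective H1π_surjective).symm.toLinearMap

theorem h1ToQuo_H1π (c : cocycles₁ A) :
    m.h1ToQuo ((H1π A).hom c) = (adMatB ρ).mkQ (m.toMat c) := by
  unfold h1ToQuo
  have : ((H1π A).hom.quotKerEquivOfSurjective H1π_surjective).symm ((H1π A).hom c) =
      (LinearMap.ker (H1π A).hom).mkQ c := by
    rw [LinearEquiv.symm_apply_eq]
    rfl
  rw [LinearMap.comp_apply, LinearEquiv.coe_coe, this]
  rfl

theorem h1ToQuo_injective : Function.Injective m.h1ToQuo := by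
  rw [← LinearMap.ker_eq_bot, LinearMap.ker_eq_bot']
  intro x hx
  obtain ⟨c, rfl⟩ := H1π_surjective x
  rw [h1ToQuo_H1π, ← cocToQuo_apply] at hx
  exact (m.cocToQuo_eq_zero_iff c).1 hx

/-- **Bridge, rank form.** If every class of `L` has a representative whose explicit matrix
cocycle lies in the `k`-submodule `Z`, a `k`-rank bound for the image of `Z` modulo coboundaries
bounds the `ZMod p`-dimension of `L`. -/
theorem finrank_le_of_rank_le [Module.Finite (ZMod p) k]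
    (Z : Submodule k (G → M₂ k)) (L : Submodule (ZMod p) (H1 A))
    (hL : ∀ x ∈ L, ∃ c : cocycles₁ A, (H1π A).hom c = x ∧ m.toMat c ∈ Z)
    (n : ℕ) (hn : Module.rank k (Z.map (adMatB ρ).mkQ) ≤ n) :
    Module.finrank (ZMod p) L ≤ Module.finrank (ZMod p) k * n := by
  set W : Submodule k (Quo ρ) := Z.map (adMatB ρ).mkQ with hW
  haveI : Module.Finite k W := by
    rw [← Module.rank_lt_aleph0_iff]
    exact lt_of_le_of_lt hn (Cardinal.natCast_lt_aleph0)
  have hfin : Module.finrank k W ≤ n := Module.finrank_le_of_rank_le hn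
  haveI : Module.Finite (ZMod p) W := Module.Finite.trans k W
  have hmul : Module.finrank (ZMod p) W = Module.finrank (ZMod p) k * Module.finrank k W :=
    (Module.finrank_mul_finrank (ZMod p) k W).symm
  have hle : L.map m.h1ToQuo ≤ W.restrictScalars (ZMod p) := by
    rintro _ ⟨x, hx, rfl⟩
    obtain ⟨c, rfl, hc⟩ := hL x hx
    rw [h1ToQuo_H1π]
    exact ⟨m.toMat c, hc, rfl⟩
  haveI : Module.Finite (ZMod p) (W.restrictScalars (ZMod p)) :=
    inferInstanceAs (Module.Finite (ZMod p) W)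
  calc Module.finrank (ZMod p) L
      = Module.finrank (ZMod p) (L.map m.h1ToQuo) :=
        (Submodule.equivMapOfInjective _ m.h1ToQuo_injective L).finrank_eq
    _ ≤ Module.finrank (ZMod p) (W.restrictScalars (ZMod p)) := Submodule.finrank_mono hle
    _ = Module.finrank (ZMod p) W := rfl
    _ = Module.finrank (ZMod p) k * Module.finrank k W := hmul
    _ ≤ Module.finrank (ZMod p) k * n := Nat.mul_le_mul_left _ hfin

/-- representatives for the span of a set of classes. -/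
theorem exists_rep_of_mem_span (Z : Submodule k (G → M₂ k)) (F : Set (cocycles₁ A))
    (hF : ∀ c ∈ F, m.toMat c ∈ Z) :
    ∀ x ∈ Submodule.span (ZMod p) ((H1π A).hom '' F),
      ∃ c : cocycles₁ A, (H1π A).hom c = x ∧ m.toMat c ∈ Z := by
  intro x hx
  induction hx using Submodule.span_induction with
  | mem x hx =>
    obtain ⟨c, hc, rfl⟩ := hx
    exact ⟨c, rfl, hF c hc⟩
  | zero => exact ⟨0, map_zero _, by
      have : m.toMat ((0 : cocycles₁ A) : G → A.V) = 0 := by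
        funext g
        have h1 : ((0 : cocycles₁ A) : G → A.V) g = 0 := rfl
        simp only [toMat, h1, map_zero, Pi.zero_apply]
      rw [this]; exact Z.zero_mem⟩
  | add x y _ _ hx hy =>
    obtain ⟨c, rfl, hc⟩ := hx
    obtain ⟨c', rfl, hc'⟩ := hy
    refine ⟨c + c', map_add _ _ _, ?_⟩
    have : m.toMat ((c + c' : cocycles₁ A) : G → A.V) = m.toMat c + m.toMat c' := by
      funext g
      have h1 : ((c + c' : cocycles₁ A) : G → A.V) g = (c : G → A.V) g + (c' : G → A.V) g := rfl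
      simp only [toMat, h1, map_add, Pi.add_apply]
    rw [this]; exact Z.add_mem hc hc'
  | smul a x _ hx =>
    obtain ⟨c, rfl, hc⟩ := hx
    refine ⟨a • c, map_smul _ _ _, ?_⟩
    have : m.toMat ((a • c : cocycles₁ A) : G → A.V) = (algebraMap (ZMod p) k a) • m.toMat c := by
      funext g
      simp only [toMat, Pi.smul_apply]
      have h1 : ((a • c : cocycles₁ A) : G → A.V) g = a • (c : G → A.V) g := rfl
      rw [h1, map_smul, algebraMap_smul]
    rw [this]; exact Z.smul_mem _ hc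

end AdModel

/-- the trace-zero matrices fixed by the adjoint action (`H⁰(G, ad⁰ ρ̄)`). -/
def centralizer (ρ : MatRep G k) : Submodule k (M₂ k) where
  carrier := {X | X.trace = 0 ∧ ∀ g, ρ.Ad g X = X}
  add_mem' := by
    rintro X Y ⟨h1, h2⟩ ⟨h1', h2'⟩
    exact ⟨by rw [Matrix.trace_add, h1, h1', add_zero], fun g => by rw [ρ.Ad_add, h2 g, h2' g]⟩
  zero_mem' := ⟨Matrix.trace_zero _ _, fun g => ρ.Ad_zero g⟩
  smul_mem' := by
    rintro c X ⟨h1, h2⟩
    exact ⟨by rw [Matrix.trace_smul, h1, smul_zero], fun g => by rw [ρ.Ad_smul, h2 g]⟩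

theorem mem_centralizer {ρ : MatRep G k} {X : M₂ k} :
    X ∈ centralizer ρ ↔ X.trace = 0 ∧ ∀ g, ρ.Ad g X = X := Iff.rfl

namespace AdModel

variable {A : Rep (ZMod p) G} {ρ : MatRep G k} (m : AdModel A ρ)
include m

theorem map_invariants :
    A.ρ.invariants.map m.ι = (centralizer ρ).restrictScalars (ZMod p) := by
  ext X
  constructor
  · rintro ⟨a, ha, rfl⟩
    refine ⟨m.trace_zero a, fun g => ?_⟩
    rw [← m.equivariant, (Representation.mem_invariants A.ρ a).1 ha g]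
  · rintro ⟨h1, h2⟩
    obtain ⟨a, rfl⟩ := m.surj X h1
    refine ⟨a, ?_, rfl⟩
    rw [SetLike.mem_coe, Representation.mem_invariants]
    intro g
    apply m.inj
    rw [m.equivariant, h2 g]

/-- `h⁰(G, A) = [k : 𝔽_p] · dim_k (centralizer)`. -/
theorem finrank_invariants [Module.Finite (ZMod p) k] :
    Module.finrank (ZMod p) A.ρ.invariants =
      Module.finrank (ZMod p) k * Module.finrank k (centralizer ρ) := by
  calc Module.finrank (ZMod p) A.ρ.invariants
      = Module.finrank (ZMod p) (A.ρ.invariants.map m.ι) :=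
        (Submodule.equivMapOfInjective _ m.inj _).finrank_eq
    _ = Module.finrank (ZMod p) ((centralizer ρ).restrictScalars (ZMod p)) := by
        rw [m.map_invariants]
    _ = Module.finrank (ZMod p) (centralizer ρ) := rfl
    _ = Module.finrank (ZMod p) k * Module.finrank k (centralizer ρ) :=
        (Module.finrank_mul_finrank (ZMod p) k (centralizer ρ)).symm

theorem le_finrank_invariants [Module.Finite (ZMod p) k] {X : M₂ k} (hX : X ≠ 0)
    (htr : X.trace = 0) (hfix : ∀ g, ρ.Ad g X = X) :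
    Module.finrank (ZMod p) k ≤ Module.finrank (ZMod p) A.ρ.invariants := by
  rw [m.finrank_invariants]
  have h1 : 0 < Module.finrank k (centralizer ρ) := by
    rw [Module.finrank_pos_iff_exists_ne_zero]
    exact ⟨⟨X, htr, hfix⟩, fun h => hX (congrArg Subtype.val h)⟩
  exact Nat.le_mul_of_pos_right _ h1

end AdModel

/-! ### Change of basis and the standard model -/

/-- the matrix representation of a monoid homomorphism `r : G →* M₂(k)`. -/
def ofHom (r : G →* M₂ k) : MatRep G k where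
  R := r
  Ri g := r g⁻¹
  map_mul := map_mul r
  inv_mul g := by rw [← map_mul, inv_mul_cancel, map_one]
  mul_inv g := by rw [← map_mul, mul_inv_cancel, map_one]

@[simp] theorem ofHom_R (r : G →* M₂ k) (g : G) : (ofHom r).R g = r g := rfl

/-- conjugate of a matrix representation: `g ↦ Bi * R g * B`. -/
def conjRep (ρ : MatRep G k) (B Bi : M₂ k) (h1 : B * Bi = 1) (h2 : Bi * B = 1) : MatRep G k where
  R g := Bi * ρ.R g * B
  Ri g := Bi * ρ.Ri g * B
  map_mul g h := by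
    rw [ρ.map_mul]
    calc Bi * (ρ.R g * ρ.R h) * B = Bi * ρ.R g * (1 : M₂ k) * ρ.R h * B := by
          simp only [Matrix.mul_assoc, Matrix.one_mul]
      _ = Bi * ρ.R g * B * (Bi * ρ.R h * B) := by
          rw [← h1]; simp only [Matrix.mul_assoc]
  inv_mul g := by
    calc Bi * ρ.Ri g * B * (Bi * ρ.R g * B) = Bi * ρ.Ri g * (B * Bi) * ρ.R g * B := by
          simp only [Matrix.mul_assoc]
      _ = Bi * (ρ.Ri g * ρ.R g) * B := by rw [h1]; simp only [Matrix.mul_assoc, Matrix.one_mul]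
      _ = 1 := by rw [ρ.inv_mul, Matrix.mul_one, h2]
  mul_inv g := by
    calc Bi * ρ.R g * B * (Bi * ρ.Ri g * B) = Bi * ρ.R g * (B * Bi) * ρ.Ri g * B := by
          simp only [Matrix.mul_assoc]
      _ = Bi * (ρ.R g * ρ.Ri g) * B := by rw [h1]; simp only [Matrix.mul_assoc, Matrix.one_mul]
      _ = 1 := by rw [ρ.mul_inv, Matrix.mul_one, h2]

@[simp] theorem conjRep_R (ρ : MatRep G k) (B Bi : M₂ k) (h1 : B * Bi = 1) (h2 : Bi * B = 1)
    (g : G) : (conjRep ρ B Bi h1 h2).R g = Bi * ρ.R g * B := rfl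

theorem conjRep_Ad (ρ : MatRep G k) (B Bi : M₂ k) (h1 : B * Bi = 1) (h2 : Bi * B = 1)
    (g : G) (X : M₂ k) :
    (conjRep ρ B Bi h1 h2).Ad g (Bi * X * B) = Bi * ρ.Ad g X * B := by
  unfold MatRep.Ad
  show Bi * ρ.R g * B * (Bi * X * B) * (Bi * ρ.Ri g * B) = Bi * (ρ.R g * X * ρ.Ri g) * B
  calc Bi * ρ.R g * B * (Bi * X * B) * (Bi * ρ.Ri g * B)
      = Bi * ρ.R g * (B * Bi) * X * (B * Bi) * ρ.Ri g * B := by simp only [Matrix.mul_assoc]
    _ = Bi * (ρ.R g * X * ρ.Ri g) * B := by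
        rw [h1]; simp only [Matrix.mul_assoc, Matrix.one_mul]

/-- the model of `ad⁰` in a new basis. -/
def AdModel.conj {A : Rep (ZMod p) G} {ρ : MatRep G k} (m : AdModel A ρ) (B Bi : M₂ k)
    (h1 : B * Bi = 1) (h2 : Bi * B = 1) : AdModel A (conjRep ρ B Bi h1 h2) where
  ι :=
    { toFun := fun a => Bi * m.ι a * B
      map_add' := fun a b => by simp [Matrix.mul_add, Matrix.add_mul]
      map_smul' := fun c a => by simp }
  inj := by
    intro a b hab
    apply m.inj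
    have hab' : Bi * m.ι a * B = Bi * m.ι b * B := hab
    calc m.ι a = (B * Bi) * m.ι a * (B * Bi) := by rw [h1, Matrix.one_mul, Matrix.mul_one]
      _ = B * (Bi * m.ι a * B) * Bi := by simp only [Matrix.mul_assoc]
      _ = B * (Bi * m.ι b * B) * Bi := by rw [hab']
      _ = (B * Bi) * m.ι b * (B * Bi) := by simp only [Matrix.mul_assoc]
      _ = m.ι b := by rw [h1, Matrix.one_mul, Matrix.mul_one]
  trace_zero a := by
    show (Bi * m.ι a * B).trace = 0
    rw [Matrix.trace_mul_comm, ← Matrix.mul_assoc, h1, Matrix.one_mul, m.trace_zero]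
  surj X hX := by
    have htr : (B * X * Bi).trace = 0 := by
      rw [Matrix.trace_mul_comm, ← Matrix.mul_assoc, h2, Matrix.one_mul, hX]
    obtain ⟨a, ha⟩ := m.surj _ htr
    refine ⟨a, ?_⟩
    show Bi * m.ι a * B = X
    rw [ha]
    calc Bi * (B * X * Bi) * B = (Bi * B) * X * (Bi * B) := by simp only [Matrix.mul_assoc]
      _ = X := by rw [h2, Matrix.one_mul, Matrix.mul_one]
  equivariant g a := by
    show Bi * m.ι (A.ρ g a) * B = (conjRep ρ B Bi h1 h2).Ad g (Bi * m.ι a * B)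
    rw [conjRep_Ad, m.equivariant]

theorem AdModel.conj_toMat {A : Rep (ZMod p) G} {ρ : MatRep G k} (m : AdModel A ρ) (B Bi : M₂ k)
    (h1 : B * Bi = 1) (h2 : Bi * B = 1) (c : G → A.V) (g : G) :
    (m.conj B Bi h1 h2).toMat c g = Bi * m.toMat c g * B := rfl

/-- admissibility of all entries is invariant under change of basis. -/
theorem entries_mem_conj (𝒜 : Subalgebra k (G → k)) {Ψ : G → M₂ k}
    (hΨ : ∀ i j, (fun g => Ψ g i j) ∈ 𝒜) (B Bi : M₂ k) :
    ∀ i j, (fun g => (Bi * Ψ g * B) i j) ∈ 𝒜 := by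
  intro i j
  have : (fun g => (Bi * Ψ g * B) i j) =
      ∑ l : Fin 2, ∑ l' : Fin 2, (Bi i l' * B l j) • (fun g => Ψ g l' l) := by
    funext g
    simp only [Matrix.mul_apply, Finset.sum_apply, Pi.smul_apply, smul_eq_mul, Finset.sum_mul]
    refine Finset.sum_congr rfl fun l _ => Finset.sum_congr rfl fun l' _ => ?_
    ring
  rw [this]
  exact 𝒜.sum_mem fun l _ => 𝒜.sum_mem fun l' _ => 𝒜.smul_mem (hΨ l' l) _

/-! ### The three cases of the local count -/

section Cases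

variable [Module.Finite (ZMod p) k] {A : Rep (ZMod p) G} {ρ : MatRep G k} (m : AdModel A ρ)
  (𝒜 : Subalgebra k (G → k)) (F : Set (cocycles₁ A))

/-- the span of the classes of a set of cocycles (`LpFlat` for `F` = flat cocycles). -/
noncomputable def classSpan (F : Set (cocycles₁ A)) : Submodule (ZMod p) (H1 A) :=
  Submodule.span (ZMod p) ((H1π A).hom '' F)

/-- **Case (ns): `ρ̄|G_p` upper triangular, non-split.**  `dim_{𝔽_p} L ≤ [k : 𝔽_p]`. -/
theorem finrank_classSpan_le_of_nonsplit (h2 : (2 : k) ≠ 0) {χ₁ χ₂ : G →* kˣ} {β : G → k}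
    (h : IsUT ρ χ₁ χ₂ β) (hbA : bOf χ₂ β ∈ 𝒜) (hbn : bOf χ₂ β ∉ B1 (χ₁ / χ₂))
    (hη' : chr (χ₁ / χ₂)⁻¹ ∈ 𝒜)
    (hH1 : Module.rank k (H1A 𝒜 (1 : G →* kˣ)) ≤ 1)
    (hHη : Module.rank k (H1A 𝒜 (χ₁ / χ₂)) ≤ 1)
    (hFA : ∀ c ∈ F, ∀ i j, (fun g => m.toMat c g i j) ∈ 𝒜)
    (hFc : ∀ c ∈ F, (fun g => m.toMat c g 1 0) ∈ B1 (χ₁ / χ₂)⁻¹) :
    Module.finrank (ZMod p) (classSpan F) ≤ Module.finrank (ZMod p) k := by
  have hF : ∀ c ∈ F, m.toMat c ∈ adMatZc 𝒜 ρ (χ₁ / χ₂) := fun c hc =>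
    ⟨⟨m.toMat_mem_adMatZ c, hFA c hc⟩, hFc c hc⟩
  have := m.finrank_le_of_rank_le (adMatZc 𝒜 ρ (χ₁ / χ₂)) (classSpan F)
    (m.exists_rep_of_mem_span _ F hF) 1
    (by exact_mod_cast rank_mat_nonsplit_le_one 𝒜 h2 h hbA hbn hη' hH1 hHη)
  simpa using this

/-- **Case (ind): `ρ̄|G_p` induced from the index-two subgroup `Γ'`.**
`dim_{𝔽_p} L ≤ [k : 𝔽_p]`. -/
theorem finrank_classSpan_le_of_induced (h2 : (2 : k) ≠ 0) {Γ' : Subgroup G} {s : G}
    {μ : Γ' →* kˣ} (h : IsInduced ρ Γ' s μ) (𝒜' : Subalgebra k (Γ' → k))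
    (hres : ∀ f ∈ 𝒜, (fun g : Γ' => f (g : G)) ∈ 𝒜')
    (hinv : ∀ a ∈ Z1A 𝒜' (1 : Γ' →* kˣ), ∀ g : Γ',
      a ⟨s * (g : G) * s⁻¹, h.conj g g.2⟩ = a g)
    (hHμ : Module.rank k (H1A 𝒜' μ) ≤ 1)
    (hFA : ∀ c ∈ F, ∀ i j, (fun g => m.toMat c g i j) ∈ 𝒜) :
    Module.finrank (ZMod p) (classSpan F) ≤ Module.finrank (ZMod p) k := by
  have hF : ∀ c ∈ F, m.toMat c ∈ adMatZA ρ 𝒜 := fun c hc =>
    ⟨m.toMat_mem_adMatZ c, hFA c hc⟩
  have := m.finrank_le_of_rank_le (adMatZA ρ 𝒜) (classSpan F)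
    (m.exists_rep_of_mem_span _ F hF) 1
    (by exact_mod_cast rank_induced_le_one 𝒜 𝒜' h2 h hres hinv hHμ)
  simpa using this

/-- the `(0,1)`-entry of a cocycle of a diagonal representation is a cocycle of `k(χ₁/χ₂)`. -/
theorem entry01_mem_Z1 {χ₁ χ₂ : G →* kˣ} (h : IsUT ρ χ₁ χ₂ (0 : G → k))
    {Ψ : G → M₂ k} (hΨ : Ψ ∈ adMatZ ρ) : (fun g => Ψ g 0 1) ∈ Z1 (χ₁ / χ₂) := by
  have hZ := toTriple_mem_adZ h hΨ
  have hb0 : bOf χ₂ (0 : G → k) = 0 := by
    funext g; simp [bOf]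
  rw [hb0] at hZ
  rw [mem_Z1]
  intro g g'
  have := hZ.2.2 g g'
  have e1 : ∀ x : G, (toTriple Ψ).2.1 x = Ψ x 0 1 := fun _ => rfl
  have e2 : ∀ x : G, (toTriple Ψ).1 x = Ψ x 0 0 := fun _ => rfl
  have e3 : ∀ x : G, (toTriple Ψ).2.2 x = Ψ x 1 0 := fun _ => rfl
  simp only [e1, e2, e3, Pi.zero_apply, mul_zero, sub_zero, ne_eq, OfNat.ofNat_ne_zero,
    not_false_eq_true, zero_pow, zero_mul] at this
  rw [this]
  rfl

/-- **Case (sp): `ρ̄|G_p` diagonal.**  `dim_{𝔽_p} L ≤ 2 [k : 𝔽_p] ≤ [k : 𝔽_p] + h⁰`. -/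
theorem finrank_classSpan_le_of_split {χ₁ χ₂ : G →* kˣ}
    (h : IsUT ρ χ₁ χ₂ (0 : G → k))
    (hH1 : Module.rank k (H1A 𝒜 (1 : G →* kˣ)) ≤ 1)
    (hHη : Module.rank k (H1A 𝒜 (χ₁ / χ₂)) ≤ 1)
    (hFA : ∀ c ∈ F, ∀ i j, (fun g => m.toMat c g i j) ∈ 𝒜)
    (hFc : ∀ c ∈ F, (fun g => m.toMat c g 1 0) ∈ B1 (χ₁ / χ₂)⁻¹) :
    Module.finrank (ZMod p) (classSpan F) ≤
      Module.finrank (ZMod p) k + Module.finrank (ZMod p) A.ρ.invariants := by
  set η := χ₁ / χ₂ with hη
  have hF : ∀ c ∈ F, m.toMat c ∈ adMatZs 𝒜 ρ (Z1A 𝒜 η) (B1 η⁻¹) := fun c hc =>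
    ⟨m.toMat_mem_adMatZ c, hFA c hc 0 0,
      (mem_Z1A 𝒜).2 ⟨entry01_mem_Z1 h (m.toMat_mem_adMatZ c), hFA c hc 0 1⟩, hFc c hc⟩
  have hbot : (B1 η⁻¹).map (B1 η⁻¹).mkQ = ⊥ := by
    rw [← LinearMap.le_ker_iff_map, Submodule.ker_mkQ]
  have hrank : Module.rank k ((adMatZs 𝒜 ρ (Z1A 𝒜 η) (B1 η⁻¹)).map (adMatB ρ).mkQ) ≤
      ((2 : ℕ) : Cardinal) := by
    refine (rank_mat_split_le 𝒜 h (Z1A 𝒜 η) (B1 η⁻¹)).trans ?_
    rw [hbot, rank_bot, add_zero]
    have h11 : ((2 : ℕ) : Cardinal) = 1 + 1 := by norm_num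
    rw [h11]
    exact add_le_add hH1 hHη
  have h1 := m.finrank_le_of_rank_le _ (classSpan F) (m.exists_rep_of_mem_span _ F hF) 2 hrank
  -- `h⁰ ≥ d` : `diag(1, -1)` is fixed
  have hfix : ∀ g, ρ.Ad g (tripleMat ((1 : k), (0 : k), (0 : k))) =
      tripleMat ((1 : k), (0 : k), (0 : k)) := by
    intro g
    rw [Ad_tripleMat h]
    congr 1
    simp [bOf]
  have hne : tripleMat ((1 : k), (0 : k), (0 : k)) ≠ 0 := by
    intro h0
    have := congrFun (congrFun h0 0) 0
    simp [tripleMat] at this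
  have h2' := m.le_finrank_invariants hne (trace_tripleMat _) hfix
  omega

end Cases

end Fermat.Agent.S56x.Local.FlatBridge
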