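import Fermat.Agent.S56x.Local.FlatCases

/-!
# P-S56 / block A : the local flat count (A1), abstract form

Two theorems, both concluding
`finrank (ZMod p) (classSpan F) ≤ finrank (ZMod p) k + finrank (ZMod p) A.ρ.invariants`
for the span of the classes of a set `F` of cocycles of a model `A` of `ad⁰ ρ̄`:

* `finrank_classSpan_le_of_triangular` : `ρ̄|G_p` reducible (output of `TameRep` (T4));
  split or non-split is decided inside.
* `finrank_classSpan_le_of_tame` : `ρ̄|G_p` irreducible (output of `TameRep` (T5)).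

The arithmetic inputs are hypotheses on the subalgebra `𝒜` of bounded functions:
character-wise counts `Module.rank k (H1A 𝒜 χ) ≤ 1`, the c-slot statement, boundedness of the
entries.
-/

set_option autoImplicit false
set_option linter.unusedSectionVars false
set_option linter.style.haveILetI false

namespace Fermat.Agent.S56x.Local.FlatBridge

open Fermat.Agent.S56x.Local.Devissage groupCohomology Module Matrix

local notation "M₂" => Matrix (Fin 2) (Fin 2)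

variable {G : Type} [Group G] {k : Type} [Field k] {p : ℕ} [Fact p.Prime] [Algebra (ZMod p) k]

/-- inverses of admissible characters of a finite field are admissible. -/
theorem chr_inv_mem [Finite k] (𝒜 : Subalgebra k (G → k)) {χ : G →* kˣ} (h : chr χ ∈ 𝒜) :
    chr χ⁻¹ ∈ 𝒜 := by
  haveI := Fintype.ofFinite k
  have : chr χ⁻¹ = (chr χ) ^ (Fintype.card k - 2) := by
    funext g
    have hne : ((χ g : kˣ) : k) ≠ 0 := Units.ne_zero _
    have h1 : ((χ g : kˣ) : k) ^ (Fintype.card k - 1) = 1 :=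
      FiniteField.pow_card_sub_one_eq_one _ hne
    have hcard : 2 ≤ Fintype.card k := Fintype.one_lt_card
    have e : Fintype.card k - 1 = (Fintype.card k - 2) + 1 := by omega
    rw [e, pow_succ] at h1
    simp only [chr, MonoidHom.inv_apply, Units.val_inv_eq_inv_val, Pi.pow_apply]
    exact (eq_inv_of_mul_eq_one_left h1).symm
  rw [this]
  exact 𝒜.pow_mem h _

section Reducible

variable [Module.Finite (ZMod p) k] {A : Rep (ZMod p) G} {ρ : MatRep G k} (m : AdModel A ρ)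
  (𝒜 : Subalgebra k (G → k)) (F : Set (cocycles₁ A))

/-- conjugation by a unipotent upper triangular matrix does not change the `(1,0)`-entry. -/
theorem uni_conj_apply_one_zero (x : k) (X : M₂ k) : (uni (-x) * X * uni x) 1 0 = X 1 0 := by
  rw [Matrix.mul_apply, Fin.sum_univ_two, Matrix.mul_apply, Matrix.mul_apply, Fin.sum_univ_two,
    Fin.sum_univ_two]
  simp [uni]

/-- **Reducible case**, for an upper triangular `ρ`; split or not. -/
theorem finrank_classSpan_le_of_isUT (h2 : (2 : k) ≠ 0) {χ₁ χ₂ : G →* kˣ} {β : G → k}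
    (h : IsUT ρ χ₁ χ₂ β) (hbA : bOf χ₂ β ∈ 𝒜) (hη' : chr (χ₁ / χ₂)⁻¹ ∈ 𝒜)
    (hH1 : Module.rank k (H1A 𝒜 (1 : G →* kˣ)) ≤ 1)
    (hHη : Module.rank k (H1A 𝒜 (χ₁ / χ₂)) ≤ 1)
    (hFA : ∀ c ∈ F, ∀ i j, (fun g => m.toMat c g i j) ∈ 𝒜)
    (hFc : ∀ c ∈ F, (fun g => m.toMat c g 1 0) ∈ B1 (χ₁ / χ₂)⁻¹) :
    Module.finrank (ZMod p) (classSpan F) ≤
      Module.finrank (ZMod p) k + Module.finrank (ZMod p) A.ρ.invariants := by
  by_cases hb : bOf χ₂ β ∈ B1 (χ₁ / χ₂)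
  · obtain ⟨x, hx⟩ := exists_isUT_zero h hb
    refine finrank_classSpan_le_of_split
      (m.conj (uni x) (uni (-x)) (uni_mul_uni_neg x) (uni_neg_mul_uni x)) 𝒜 F hx hH1 hHη ?_ ?_
    · intro c hc
      exact entries_mem_conj 𝒜 (hFA c hc) (uni x) (uni (-x))
    · intro c hc
      have : (fun g => (m.conj (uni x) (uni (-x)) (uni_mul_uni_neg x)
          (uni_neg_mul_uni x)).toMat c g 1 0) = fun g => m.toMat c g 1 0 := by
        funext g
        rw [AdModel.conj_toMat, uni_conj_apply_one_zero]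
      rw [this]
      exact hFc c hc
  · exact (finrank_classSpan_le_of_nonsplit m 𝒜 F h2 h hbA hb hη' hH1 hHη hFA hFc).trans
      (Nat.le_add_right _ _)

end Reducible

section Main

variable [Module.Finite (ZMod p) k] [Finite k] {A : Rep (ZMod p) G} (r : G →* M₂ k)
  (m : AdModel A (ofHom r)) (𝒜 : Subalgebra k (G → k)) (F : Set (cocycles₁ A))

/-- **(A1), reducible case**, from the output of `TameRep.exists_triangular_of_hasStableLine`. -/
theorem finrank_classSpan_le_of_triangular (h2 : (2 : k) ≠ 0) {B : M₂ k} (hB : B.det ≠ 0)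
    {χ₁ χ₂ : G →* kˣ} {b : G → k}
    (h : ∀ g, r g * B = B * !![(χ₁ g : k), b g; 0, (χ₂ g : k)])
    (hr𝒜 : ∀ i j, (fun g => r g i j) ∈ 𝒜)
    (hH1 : Module.rank k (H1A 𝒜 (1 : G →* kˣ)) ≤ 1)
    (hHη : Module.rank k (H1A 𝒜 (χ₁ / χ₂)) ≤ 1)
    (hFA : ∀ c ∈ F, ∀ i j, (fun g => m.toMat c g i j) ∈ 𝒜)
    (hFc : ∀ c ∈ F, (fun g => (B⁻¹ * m.toMat c g * B) 1 0) ∈ B1 (χ₁ / χ₂)⁻¹) :
    Module.finrank (ZMod p) (classSpan F) ≤
      Module.finrank (ZMod p) k + Module.finrank (ZMod p) A.ρ.invariants := by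
  have hUT : IsUT (conjHomRep r B hB) χ₁ χ₂ b := isUT_conjRep r hB h
  have hent : ∀ i j, (fun g => (conjHomRep r B hB).R g i j) ∈ 𝒜 :=
    entries_mem_conj 𝒜 (Ψ := fun g => r g) hr𝒜 B B⁻¹
  have hχ₁ : chr χ₁ ∈ 𝒜 := by
    have := hent 0 0
    have e : (fun g => (conjHomRep r B hB).R g 0 0) = chr χ₁ := by
      funext g; rw [hUT.R_eq g]; simp
    rwa [e] at this
  have hχ₂ : chr χ₂ ∈ 𝒜 := by
    have := hent 1 1
    have e : (fun g => (conjHomRep r B hB).R g 1 1) = chr χ₂ := by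
      funext g; rw [hUT.R_eq g]; simp
    rwa [e] at this
  have hb : b ∈ 𝒜 := by
    have := hent 0 1
    have e : (fun g => (conjHomRep r B hB).R g 0 1) = b := by
      funext g; rw [hUT.R_eq g]; simp
    rwa [e] at this
  have hχ₁' := chr_inv_mem 𝒜 hχ₁
  have hχ₂' := chr_inv_mem 𝒜 hχ₂
  have hbA : bOf χ₂ b ∈ 𝒜 := 𝒜.mul_mem hb hχ₂'
  have hη' : chr (χ₁ / χ₂)⁻¹ ∈ 𝒜 := by
    have e : chr (χ₁ / χ₂)⁻¹ = chr χ₁⁻¹ * chr χ₂ := by
      funext g; exact chr_div_inv χ₁ χ₂ g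
    rw [e]; exact 𝒜.mul_mem hχ₁' hχ₂
  exact finrank_classSpan_le_of_isUT
    (m.conj B B⁻¹ (mul_nonsing_inv_of_det_ne_zero hB) (nonsing_inv_mul_of_det_ne_zero hB))
    𝒜 F h2 hUT hbA hη' hH1 hHη
    (fun c hc => entries_mem_conj 𝒜 (hFA c hc) B B⁻¹) hFc

/-- **(A1), irreducible case**, from the output of `TameRep.tame_structure_of_irreducible`.
`Γ'` is the index-two subgroup (`G_{ℚ_{p²}}`), characterised as the set of elements with diagonal
image (see `eq_diagSubgroup_of_parity`). -/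
theorem finrank_classSpan_le_of_tame (h2 : (2 : k) ≠ 0) {B : M₂ k} (hB : B.det ≠ 0)
    (I : Subgroup G) (φ : G) {ψ ψ' : G → k} {x y : k}
    (hI : ∀ t ∈ I, r t * B = B * Matrix.diagonal ![ψ t, ψ' t])
    (hφ : r φ * B = B * !![0, x; y, 0])
    (hgen : ∀ g : G, ∃ n : ℕ, ∃ t ∈ I, r g = r φ ^ n * r t)
    (Γ' : Subgroup G) (hΓ' : Γ' = diagSubgroup (conjHomRep r B hB))
    (𝒜' : Subalgebra k (Γ' → k))
    (hres : ∀ f ∈ 𝒜, (fun g : Γ' => f (g : G)) ∈ 𝒜')
    (hinv : ∀ a ∈ Z1A 𝒜' (1 : Γ' →* kˣ), ∀ (g : Γ') (hg : φ * (g : G) * φ⁻¹ ∈ Γ'),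
      a ⟨φ * (g : G) * φ⁻¹, hg⟩ = a g)
    (hHμ : ∀ μ : Γ' →* kˣ,
      (∀ g : Γ', (B⁻¹ * r (g : G) * B) 0 0 = chr μ g * (B⁻¹ * r (g : G) * B) 1 1) →
      Module.rank k (H1A 𝒜' μ) ≤ 1)
    (hFA : ∀ c ∈ F, ∀ i j, (fun g => m.toMat c g i j) ∈ 𝒜) :
    Module.finrank (ZMod p) (classSpan F) ≤
      Module.finrank (ZMod p) k + Module.finrank (ZMod p) A.ρ.invariants := by
  subst hΓ'
  have hind := isInduced_of_tame r hB I φ hI hφ hgen
  refine (finrank_classSpan_le_of_induced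
    (m.conj B B⁻¹ (mul_nonsing_inv_of_det_ne_zero hB) (nonsing_inv_mul_of_det_ne_zero hB))
    𝒜 F h2 hind 𝒜' hres (fun a ha g => hinv a ha g _) (hHμ _ fun g => hind.ratio g)
    (fun c hc => entries_mem_conj 𝒜 (hFA c hc) B B⁻¹)).trans (Nat.le_add_right _ _)

end Main

/-! ### Auxiliary statements for the provider of the irreducible case -/

section Aux

theorem isDiag_mul {M N : M₂ k} (hM : M 0 1 = 0 ∧ M 1 0 = 0) (hN : N 0 1 = 0 ∧ N 1 0 = 0) :
    (M * N) 0 1 = 0 ∧ (M * N) 1 0 = 0 := by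
  constructor <;> simp [Matrix.mul_apply, Fin.sum_univ_two, hM.1, hM.2, hN.1, hN.2]

theorem isDiag_anti_mul_anti {M N : M₂ k} (hM : M 0 0 = 0 ∧ M 1 1 = 0)
    (hN : N 0 0 = 0 ∧ N 1 1 = 0) : (M * N) 0 1 = 0 ∧ (M * N) 1 0 = 0 := by
  constructor <;> simp [Matrix.mul_apply, Fin.sum_univ_two, hM.1, hM.2, hN.1, hN.2]

theorem isAnti_mul_diag {M N : M₂ k} (hM : M 0 0 = 0 ∧ M 1 1 = 0)
    (hN : N 0 1 = 0 ∧ N 1 0 = 0) : (M * N) 0 0 = 0 ∧ (M * N) 1 1 = 0 := by
  constructor <;> simp [Matrix.mul_apply, Fin.sum_univ_two, hM.1, hM.2, hN.1, hN.2]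

theorem isDiag_pow_two_mul {M : M₂ k} (hM : M 0 0 = 0 ∧ M 1 1 = 0) (n : ℕ) :
    (M ^ (2 * n)) 0 1 = 0 ∧ (M ^ (2 * n)) 1 0 = 0 := by
  induction n with
  | zero => simp
  | succ n ih =>
    have e : M ^ (2 * (n + 1)) = M ^ (2 * n) * (M * M) := by
      rw [mul_add, mul_one, pow_add, pow_two]
    rw [e]
    exact isDiag_mul ih (isDiag_anti_mul_anti hM hM)

/-- the index-two subgroup is the subgroup of elements with diagonal image. -/
theorem eq_diagSubgroup_of_parity (r : G →* M₂ k) {B : M₂ k} (hB : B.det ≠ 0)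
    (I : Subgroup G) (φ : G) {ψ ψ' : G → k} {x y : k}
    (hI : ∀ t ∈ I, r t * B = B * Matrix.diagonal ![ψ t, ψ' t])
    (hφ : r φ * B = B * !![0, x; y, 0]) (Γ' : Subgroup G)
    (hgen0 : ∀ g ∈ Γ', ∃ n : ℕ, ∃ t ∈ I, r g = r φ ^ (2 * n) * r t)
    (hgen1 : ∀ g, g ∉ Γ' → ∃ n : ℕ, ∃ t ∈ I, r g = r φ ^ (2 * n + 1) * r t) :
    Γ' = diagSubgroup (conjHomRep r B hB) := by
  have hφR : (conjHomRep r B hB).R φ = !![0, x; y, 0] := conjHomRep_R_of_mul_eq r hB hφ
  have hIR : ∀ t ∈ I, (conjHomRep r B hB).R t = Matrix.diagonal ![ψ t, ψ' t] :=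
    fun t ht => conjHomRep_R_of_mul_eq r hB (hI t ht)
  have hA : ((conjHomRep r B hB).R φ) 0 0 = 0 ∧ ((conjHomRep r B hB).R φ) 1 1 = 0 := by
    rw [hφR]; exact ⟨by simp, by simp⟩
  have hD : ∀ t ∈ I, ((conjHomRep r B hB).R t) 0 1 = 0 ∧ ((conjHomRep r B hB).R t) 1 0 = 0 := by
    intro t ht; rw [hIR t ht]; exact ⟨by simp, by simp⟩
  have hpow : ∀ n : ℕ, (conjHomRep r B hB).R φ ^ n = B⁻¹ * r φ ^ n * B := by
    intro n
    induction n with
    | zero => simp [nonsing_inv_mul_of_det_ne_zero hB]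
    | succ n ih =>
      rw [pow_succ, pow_succ, ih, conjHomRep_R]
      calc B⁻¹ * r φ ^ n * B * (B⁻¹ * r φ * B) = B⁻¹ * r φ ^ n * (B * B⁻¹) * r φ * B := by
            simp only [Matrix.mul_assoc]
        _ = B⁻¹ * (r φ ^ n * r φ) * B := by
            rw [mul_nonsing_inv_of_det_ne_zero hB]; simp only [Matrix.mul_assoc, Matrix.one_mul]
  have hprod : ∀ (g t : G) (n : ℕ), r g = r φ ^ n * r t →
      (conjHomRep r B hB).R g = (conjHomRep r B hB).R φ ^ n * (conjHomRep r B hB).R t := by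
    intro g t n hg
    rw [hpow, conjHomRep_R, conjHomRep_R, hg]
    calc B⁻¹ * (r φ ^ n * r t) * B = B⁻¹ * r φ ^ n * 1 * r t * B := by
          simp only [Matrix.mul_assoc, Matrix.one_mul]
      _ = B⁻¹ * r φ ^ n * B * (B⁻¹ * r t * B) := by
          rw [← mul_nonsing_inv_of_det_ne_zero hB]; simp only [Matrix.mul_assoc]
  ext g
  constructor
  · intro hg
    obtain ⟨n, t, ht, hgt⟩ := hgen0 g hg
    rw [mem_diagSubgroup, hprod g t _ hgt]
    exact isDiag_mul (isDiag_pow_two_mul hA n) (hD t ht)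
  · intro hg
    by_contra hng
    obtain ⟨n, t, ht, hgt⟩ := hgen1 g hng
    have hR := hprod g t _ hgt
    have hA' : ((conjHomRep r B hB).R φ ^ (2 * n + 1)) 0 0 = 0 ∧
        ((conjHomRep r B hB).R φ ^ (2 * n + 1)) 1 1 = 0 := by
      rw [pow_succ']
      exact isAnti_mul_diag hA (isDiag_pow_two_mul hA n)
    have h00 : (conjHomRep r B hB).R g 0 0 = 0 ∧ (conjHomRep r B hB).R g 1 1 = 0 := by
      rw [hR]; exact isAnti_mul_diag hA' (hD t ht)
    have hne := anti_ne_zero (conjHomRep r B hB) h00.1 h00.2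
    exact hne.1 ((mem_diagSubgroup _).1 hg).1

/-- a level-two eigenvalue: the ratio `a / a^p` differs from the determinant `a * a^p`. -/
theorem div_pow_ne_mul_pow [CharP k p] (hp2 : p ≠ 2) {a : k} (ha : a ≠ 0) (hap : a ^ p ≠ a) :
    a / a ^ p ≠ a * a ^ p := by
  intro h
  have hp : p.Prime := Fact.out
  have hap0 : a ^ p ≠ 0 := pow_ne_zero _ ha
  rw [div_eq_iff hap0] at h
  have h1 : (a ^ 2) ^ p = 1 := by
    have : a * 1 = a * ((a ^ 2) ^ p) := by
      rw [mul_one]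
      calc a = a * a ^ p * a ^ p := h
        _ = a * (a ^ 2) ^ p := by ring
    exact (mul_left_cancel₀ ha this).symm
  have h2 : a ^ 2 = 1 := by
    have : (a ^ 2) ^ p = 1 ^ p := by rw [h1, one_pow]
    exact frobenius_inj k p this
  have h3 : a = 1 ∨ a = -1 := by
    rw [pow_two] at h2
    exact mul_self_eq_one_iff.mp h2
  have hodd : Odd p := hp.odd_of_ne_two hp2
  rcases h3 with h3 | h3
  · exact hap (by rw [h3, one_pow])
  · exact hap (by rw [h3, hodd.neg_one_pow])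

end Aux

end Fermat.Agent.S56x.Local.FlatBridge
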