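import Fermat.Agent.S56x.Local.FlatCountOfLevel
import Fermat.Agent.S56x.Local.CountQp2Final
import Fermat.Agent.S56x.Local.TameAbelianRam
import Fermat.Agent.S56x.Local.TameFieldDegree

/-!
# P-S56 / block (A), CLOSED: `FlatIface.FlatCountStatementSplit p rbar`, unconditional

* `levelCountStatement : IndFinal.LevelCountStatement p k` — the count over `ℚ_{p²}` at a tame
  level `E`: helper2's `CountQp2Final.countQp2_of_data` (the `p`-adic instantiation of
  `CWAssemblyQp2`) at the level `E` itself, with the uniformizer `π` (`π^(p²-1) = -p`;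
  helper8's `TameAbelianRam.irreducible_mk_of_pow_eq_neg_p`), the degree
  (helper7's `TameFieldDegree.not_dvd_finrank_of_exp_two`) and the bounded Kummer statement
  (helper45's `BoundedKummerStmtB.boundedKummerStatement`);
* `flatCountStatementSplit : FlatIface.FlatCountStatementSplit p rbar` — **block (A)**, the input
  `hA` of `Assembly/LocalDataInst.s56_of_blocks` and `Assembly/S56OfBlocks.s56_of_gw_flat`.
-/

set_option autoImplicit false
set_option linter.unusedSectionVars false
set_option linter.style.haveILetI false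

noncomputable section

namespace Fermat.Agent.S56x.Local.FlatCountClosed

open IsLocalRing
open Fermat.Agent.S56x.Local.Devissage Fermat.Agent.S56x.Local.FlatIface
  Fermat.Agent.S56x.Local.BddDef Fermat.Agent.S56x.Local.PadicFinite
  Fermat.Agent.S56x.Local.UnrLevels Fermat.Agent.S56x.Dict

local notation "Γℚ" => (AlgebraicClosure ℚ ≃ₐ[ℚ] AlgebraicClosure ℚ)
local notation "M₂" => Matrix (Fin 2) (Fin 2)

variable (p : ℕ) [Fact p.Prime]

local notation "Ω" => PadicAlgCl p

/-- **The count over `ℚ_{p²}` at a tame level**, unconditional. -/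
theorem levelCountStatement (k : Type) [Field k] : IndFinal.LevelCountStatement p k := by
  intro _ _ hp2 E _ _ hlev hK ζ π hζ hπ hζE hπE hab hexp μ hμ hμE hside
  have hp : p.Prime := Fact.out
  have hπ' : π ^ (p ^ 2 - 1) = -((p : ℕ) : Ω) := hπ
  have hπO : (⟨π, hπE⟩ : E) ∈ OE p E :=
    TameAbelianRam.mem_OE_of_pow_eq_neg_p (π := (⟨π, hπE⟩ : E)) (n := p ^ 2 - 1) hπ'
  obtain ⟨hirr, -⟩ := TameAbelianRam.irreducible_mk_of_pow_eq_neg_p (L := E) (f := 2)
    (fun g hg h hh => hab g h hg hh) hexp two_pos hK hπE hπ' hπO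
  have hidx : ¬ p ∣ Module.finrank ℚ_[p] E :=
    TameFieldDegree.not_dvd_finrank_of_exp_two E hp2 hexp
  have hμL : ∀ z : Ω, z ^ (p ^ 2 - 1) = 1 → z ∈ E := fun z hz =>
    hK (show z ∈ unrField p 2 from
      IntermediateField.subset_adjoin ℚ_[p] {x : Ω | x ^ (p ^ 2 - 1) = 1} hz)
  have hpow : (⟨⟨π, hπE⟩, hπO⟩ : OE p E) ^ (p ^ 2 - 1) = -((p : ℕ) : OE p E) := by
    apply Subtype.ext
    apply Subtype.ext
    simpa using hπ'
  have hpe : ((p : ℕ) : OE p E) = ((-1 : (OE p E)ˣ) : OE p E) *
      (⟨⟨π, hπE⟩, hπO⟩ : OE p E) ^ (p ^ 2 - 1) := by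
    rw [hpow]
    simp
  have hϖa : (⟨⟨π, hπE⟩, hπO⟩ : OE p E) ^ (p ^ 2 - 1) =
      algebraMap ℤ_[p] (OE p E) (-((p : ℕ) : ℤ_[p])) := by
    rw [hpow, map_neg, map_natCast]
  exact CountQp2Final.countQp2_of_data hp2 (BoundedKummerStmtB.boundedKummerStatement p) E hζ hζE
    hμL hidx hirr hpe hϖa μ hμE hside

variable {k : Type} [Field k] (rbar : Γℚ →* M₂ k)

/-- **Block (A)**: the local flat count `rank_k flatSpan ≤ 4`, unconditional. -/
theorem flatCountStatementSplit : FlatCountStatementSplit p rbar :=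
  FlatCountOfLevel.flatCountStatementSplit_of_levelCount p rbar (levelCountStatement p k)

end Fermat.Agent.S56x.Local.FlatCountClosed

end
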