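import Fermat.Agent.S56x.Local.IndFinal
import Fermat.Agent.S56x.Local.TameFieldGalois

/-!
# P-S56 block (A): `FlatCountInputs.IndStatement` from the count at a TAME LEVEL

Second form of the final theorem of the irreducible case (the first is
`IndFinal.indStatement`, from the level-free `IndFinal.CountQp2Statement`).  Here the count input is
the literal hypothesis `hHμ` of `IndPackage.hInd_of_inputs` at a level `E` with all the properties
produced by `TameFieldGalois.exists_galois_field` (helper19) for `H₀ = ker (rbar|G_p) ⊓ G_{ℚ_{p²}}`: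

* `E/ℚ_p` finite Galois, `G_E ≤ ker (rbar|G_p)`, `G_E ≤ G_{ℚ_{p²}}`, `ℚ_{p²} = unrField p 2 ≤ E`;
* `ζ, π ∈ E` with `ζ` a primitive `p`-th root of unity and `π ^ (p² - 1) = -p`;
* `Gal(E/ℚ_{p²})` abelian (`hab`) of exponent prime to `p` (`hexp`);

plus the rank of the bounded additive characters of `G_{ℚ_{p²}}` (`hrank`, which feeds `hinv`
through `HinvUnram.hinv_of_rank_le_one`).

* `commutator_mem_ker`, `pow_mem_ker` : `rbar|G_{ℚ_{p²}}` has abelian image of exponent prime to `p`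
  (from the structure theorem: `G_{ℚ_{p²}}` is the subgroup of diagonal elements);
* `exists_tame_level` : the level `E`;
* `indStatement_of_levelCount` : the final theorem.
-/

set_option autoImplicit false
set_option linter.unusedSectionVars false
set_option linter.style.haveILetI false

open IsLocalRing

namespace Fermat.Agent.S56x.Local.IndFinal

open Fermat.Agent.S56x.Local.Devissage Fermat.Agent.S56x.Local.FlatIface
  Fermat.Agent.S56x.Local.FlatBridge Fermat.Agent.S56x.Local.TameRep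
  Fermat.Agent.S56x.Local.TameRepPadic Fermat.Agent.S56x.Local.PadicFinite
  Fermat.Agent.S56x.Local.IndPackage Fermat.Agent.S56x.Local.FlatCountInputs
  Fermat.Agent.S56x.Local.BddAlg Fermat.Agent.S56x.Local.BddDef
  Fermat.Agent.S56x.Dict Module Matrix ExtCitation Polynomial

local notation "Γℚ" => (AlgebraicClosure ℚ ≃ₐ[ℚ] AlgebraicClosure ℚ)
local notation "M₂" => Matrix (Fin 2) (Fin 2)

variable (p : ℕ) [Fact p.Prime]

local notation "Ω" => PadicAlgCl p
local notation "Gq" => (PadicAlgCl p ≃ₐ[ℚ_[p]] PadicAlgCl p)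

variable {k : Type} [Field k]

/-! ### `r|G_{ℚ_{p²}}` is abelian of exponent prime to `p` -/

section Abelian

variable [Finite k] [CharP k p]

variable (E : IntermediateField ℚ_[p] (PadicAlgCl p)) [FiniteDimensional ℚ_[p] E]
  [IsGalois ℚ_[p] E]

/-- in the irreducible case the commutators of `G_{ℚ_{p²}}` act trivially. -/
theorem commutator_mem_ker (r : Gq →* M₂ k) (hE : ∀ σ ∈ E.fixingSubgroup, r σ = 1)
    (hμE : ∀ z : Ω, z ^ (p ^ 2 - 1) = 1 → z ∈ E)
    (hsplit : ∀ g : Gq, ∃ a b : k, (r g).charpoly = (X - C a) * (X - C b))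
    (hirr : ¬ HasStableLine r) {g h : Gq} (hg : g ∈ UnrLevels.lev p 2)
    (hh : h ∈ UnrLevels.lev p 2) : r (g * h * g⁻¹ * h⁻¹) = 1 := by
  obtain ⟨φ, hφ, -, -, B, ψ, x, y, hB, hx, -, hI, -, -, hφB, -⟩ :=
    padic_tame_structure p E r hE hsplit hirr
  have hΓ' : diagSubgroup (conjHomRep r B hB) = UnrLevels.lev p 2 :=
    diagSubgroup_eq_lev_two p E hμE r hB hφ hx hI hφB
  rw [← hΓ'] at hg hh
  set ρ := conjHomRep r B hB with hρ
  -- diagonal matrices commute
  have hcomm : ρ.R (g * h) = ρ.R (h * g) := by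
    rw [ρ.map_mul, ρ.map_mul]
    obtain ⟨g01, g10⟩ := (mem_diagSubgroup ρ).1 hg
    obtain ⟨h01, h10⟩ := (mem_diagSubgroup ρ).1 hh
    ext i j
    fin_cases i <;> fin_cases j <;>
      simp [Matrix.mul_apply, Fin.sum_univ_two, g01, g10, h01, h10, mul_comm]
  have hBu : IsUnit B.det := isUnit_iff_ne_zero.2 hB
  have hr : r (g * h) = r (h * g) := by
    have h1 : B * (B⁻¹ * r (g * h) * B) * B⁻¹ = B * (B⁻¹ * r (h * g) * B) * B⁻¹ := by
      have : B⁻¹ * r (g * h) * B = B⁻¹ * r (h * g) * B := hcomm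
      rw [this]
    simp only [Matrix.mul_assoc, Matrix.mul_nonsing_inv B hBu, Matrix.mul_one] at h1
    simp only [← Matrix.mul_assoc, Matrix.mul_nonsing_inv B hBu, Matrix.one_mul] at h1
    exact h1
  have h2 : g * h * g⁻¹ * h⁻¹ = (g * h) * (h * g)⁻¹ := by group
  rw [h2, map_mul, hr, ← map_mul, mul_inv_cancel, map_one]

/-- in the irreducible case the image has exponent dividing `2 (#k - 1)`. -/
theorem pow_eq_one_of_irreducible (r : Gq →* M₂ k) (hE : ∀ σ ∈ E.fixingSubgroup, r σ = 1)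
    (hsplit : ∀ g : Gq, ∃ a b : k, (r g).charpoly = (X - C a) * (X - C b))
    (hirr : ¬ HasStableLine r) (g : Gq) : r g ^ (2 * (Nat.card k - 1)) = 1 := by
  obtain ⟨φ, -, -, -, B, ψ, x, y, -, -, -, -, -, -, -, hN⟩ :=
    padic_tame_structure p E r hE hsplit hirr
  exact hN g

end Abelian

/-! ### The tame level -/

section Level

variable [Finite k] [CharP k p] (rbar : Γℚ →* M₂ k)

/-- **the tame level of the irreducible case**: a finite Galois `E/ℚ_p` through which `rbar|G_p`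
factors, containing `ℚ_{p²}(ζ, π)`, with `Gal(E/ℚ_{p²})` abelian of exponent prime to `p`. -/
theorem exists_tame_level (hp2 : p ≠ 2) (hrbar : GaloisFactorsThroughFiniteLevel rbar)
    (hsplit : EigenvaluesInBase rbar) (hirr : ¬ HasStableLine (rlocQ p rbar))
    {ζ π : Ω} (hζ : IsPrimitiveRoot ζ p) (hπ : π ^ (p ^ 2 - 1) = -(p : Ω)) :
    ∃ E : IntermediateField ℚ_[p] Ω, FiniteDimensional ℚ_[p] E ∧ IsGalois ℚ_[p] E ∧
      (∀ σ ∈ E.fixingSubgroup, rlocQ p rbar σ = 1) ∧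
      E.fixingSubgroup ≤ UnrLevels.lev p 2 ∧ UnrLevels.unrField p 2 ≤ E ∧ ζ ∈ E ∧ π ∈ E ∧
      (∀ g h : Gq, g ∈ UnrLevels.lev p 2 → h ∈ UnrLevels.lev p 2 →
        g * h * g⁻¹ * h⁻¹ ∈ E.fixingSubgroup) ∧
      (∃ n : ℕ, Nat.Coprime n p ∧ ∀ g ∈ UnrLevels.lev p 2, g ^ n ∈ E.fixingSubgroup) := by
  haveI := UnrLevels.finiteDimensional_unrField (q := p) (m := 2) two_pos
  obtain ⟨E₁, hE1, hE2, hE3, hE₁⟩ := exists_level p rbar hrbar (UnrLevels.unrField p 2)
  haveI := hE1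
  haveI := hE2
  have hμE : ∀ z : Ω, z ^ (p ^ 2 - 1) = 1 → z ∈ E₁ := fun z hz =>
    hE3 (IntermediateField.subset_adjoin _ _ hz)
  have hsplit' : ∀ g : Gq, ∃ a b : k, (rlocQ p rbar g).charpoly = (X - C a) * (X - C b) :=
    fun g => hsplit _
  set H₀ : Subgroup Gq := (rlocQ p rbar).ker ⊓ UnrLevels.lev p 2 with hH₀
  have hopen : ∃ E : IntermediateField ℚ_[p] Ω, FiniteDimensional ℚ_[p] E ∧
      E.fixingSubgroup ≤ H₀ := by
    refine ⟨E₁, hE1, fun σ hσ => ?_⟩
    rw [hH₀, Subgroup.mem_inf, MonoidHom.mem_ker]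
    exact ⟨hE₁ σ hσ, IntermediateField.fixingSubgroup_antitone hE3 hσ⟩
  have hab : ∀ g h : Gq, g ∈ UnrLevels.lev p 2 → h ∈ UnrLevels.lev p 2 →
      g * h * g⁻¹ * h⁻¹ ∈ H₀ := by
    intro g h hg hh
    rw [hH₀, Subgroup.mem_inf, MonoidHom.mem_ker]
    refine ⟨commutator_mem_ker p E₁ (rlocQ p rbar) hE₁ hμE hsplit' hirr hg hh, ?_⟩
    exact mul_mem (mul_mem (mul_mem hg hh) (inv_mem hg)) (inv_mem hh)
  have hexp : ∃ n : ℕ, Nat.Coprime n p ∧ ∀ g ∈ UnrLevels.lev p 2, g ^ n ∈ H₀ := by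
    refine ⟨2 * (Nat.card k - 1), coprime_two_mul_card_sub_one hp2, fun g hg => ?_⟩
    rw [hH₀, Subgroup.mem_inf, MonoidHom.mem_ker, map_pow]
    exact ⟨pow_eq_one_of_irreducible p E₁ (rlocQ p rbar) hE₁ hsplit' hirr g, pow_mem hg _⟩
  obtain ⟨E, hEf, hEg, hEH, hElev, hEK, hζE, hπE, habE, hexpE⟩ :=
    TameFieldGalois.exists_galois_field two_pos H₀ hopen hab hexp hζ hπ
  refine ⟨E, hEf, hEg, fun σ hσ => ?_, hElev, hEK, hζE, hπE, habE, hexpE⟩
  have := hEH hσ
  rw [hH₀, Subgroup.mem_inf, MonoidHom.mem_ker] at this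
  exact this.1

end Level

/-! ### The final theorem, level form -/

section Final

variable (rbar : Γℚ →* M₂ k)

/-- **`IndStatement p rbar` from the count at the tame level.**  `hcount` is the literal
hypothesis `hHμ` of `IndPackage.hInd_of_inputs` (with `𝒜' = bddAlgOn p (lev p 2) k`) at a level
`E` with all the properties given by `exists_tame_level`; `hrank` is the rank of the bounded
additive characters of `G_{ℚ_{p²}}`. -/
theorem indStatement_of_levelCount
    (hrank : ∀ [Finite k] [CharP k p], p ≠ 2 →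
      Module.rank k (H1A (bddAlgOn p (UnrLevels.lev p 2) k)
        (1 : UnrLevels.lev p 2 →* kˣ)) ≤ 1)
    (hcount : ∀ [Finite k] [CharP k p], p ≠ 2 → DetIsCycloModP p rbar →
      ∀ (E : IntermediateField ℚ_[p] Ω) [FiniteDimensional ℚ_[p] E] [IsGalois ℚ_[p] E],
        (∀ σ ∈ E.fixingSubgroup, rlocQ p rbar σ = 1) →
        E.fixingSubgroup ≤ UnrLevels.lev p 2 → UnrLevels.unrField p 2 ≤ E →
        ∀ ζ π : Ω, IsPrimitiveRoot ζ p → π ^ (p ^ 2 - 1) = -(p : Ω) → ζ ∈ E → π ∈ E →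
        (∀ g h : Gq, g ∈ UnrLevels.lev p 2 → h ∈ UnrLevels.lev p 2 →
          g * h * g⁻¹ * h⁻¹ ∈ E.fixingSubgroup) →
        (∃ n : ℕ, Nat.Coprime n p ∧ ∀ g ∈ UnrLevels.lev p 2, g ^ n ∈ E.fixingSubgroup) →
        ∀ μ : lev2 p →* kˣ, chr μ ∈ bddAlgOn p (UnrLevels.lev p 2) k →
          (∀ s : lev2 p, (s : Gp p) ∈ E.fixingSubgroup → μ s = 1) →
          (∃ t : lev2 p, (t : Gp p) ∈ inertiaE p E ∧ (μ t : k) ≠ 1 ∧
            (μ t : k) ≠ (rloc p rbar (t : Gp p)).det) →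
          Module.rank k (H1A (bddAlgOn p (UnrLevels.lev p 2) k) μ) ≤ 1) :
    IndStatement p rbar := by
  intro _ _ hp2 hrbar hdet hsplit hirr hflat
  letI : Algebra (ZMod p) k := ZMod.algebra k p
  have hp : p.Prime := Fact.out
  -- `ζ` and `π`
  haveI : NeZero p := ⟨hp.ne_zero⟩
  obtain ⟨ζ, hζ⟩ := HasEnoughRootsOfUnity.exists_primitiveRoot Ω p
  have hpos : 0 < p ^ 2 - 1 := by
    have : 1 < p ^ 2 := Nat.one_lt_pow two_ne_zero hp.one_lt
    omega
  obtain ⟨π, hπ⟩ := IsAlgClosed.exists_pow_nat_eq (-(p : Ω)) hpos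
  obtain ⟨E, hEf, hEg, hE, hElev, hEK, hζE, hπE, habE, hexpE⟩ :=
    exists_tame_level p rbar hp2 hrbar hsplit hirr hζ hπ
  haveI := hEf
  haveI := hEg
  have hμE : ∀ z : Ω, z ^ (p ^ 2 - 1) = 1 → z ∈ E := fun z hz =>
    hEK (show z ∈ UnrLevels.unrField p 2 from
      IntermediateField.subset_adjoin ℚ_[p] {x : Ω | x ^ (p ^ 2 - 1) = 1} hz)
  exact hInd_of_inputs p rbar E hp2 hrbar hsplit (bddAlgP p k)
    (fun hc i j => (hThmA p rbar hp2 hrbar _ hc.choose_spec).1 i j) hE hμE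
    (bddAlgOn p (UnrLevels.lev p 2) k)
    (fun f hf => restrict_mem_bddAlgOn (UnrLevels.lev p 2) hf)
    (HinvUnram.hinv_of_rank_le_one hp2 (UnrLevels.lev p 2) (sq_mem_lev_two p) (hrank hp2))
    (hcount hp2 hdet E hE hElev hEK ζ π hζ hπ hζE hπE habE hexpE) hirr hflat

end Final

end Fermat.Agent.S56x.Local.IndFinal
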