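import Fermat.Agent.S56x.Local.FlatCountMain
import Fermat.Agent.S56x.Local.IndFinalLevel
import Fermat.Agent.S56x.Local.CountQp2OfLevel

/-!
# P-S56 / block (A): `FlatIface.FlatCountStatementSplit p rbar`, level forms of the third count

Variants of `FlatCountMain.flatCountStatementSplit_of_counts` in which the count over `ℚ_{p²}`
is given at a tame level field `E`:

* `flatCountStatementSplit_of_levelCount` : from the `rbar`-free `IndFinal.LevelCountStatement p k`
  (through `IndFinal.countQp2Statement_of_levelCount`);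
* `flatCountStatementSplit_of_literal` : from the literal hypothesis `hHμ` of
  `IndPackage.hInd_of_inputs` at the level produced by `IndFinal.exists_tame_level`, and the rank
  of the bounded additive characters of `G_{ℚ_{p²}}` (through `IndFinal.indStatement_of_levelCount`).
-/

set_option autoImplicit false
set_option linter.unusedSectionVars false

noncomputable section

namespace Fermat.Agent.S56x.Local.FlatCountMain

open Fermat.Agent.S56x.Local.Devissage Fermat.Agent.S56x.Local.FlatIface
  Fermat.Agent.S56x.Local.FlatBridge Fermat.Agent.S56x.Local.TameRep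
  Fermat.Agent.S56x.Local.TameRepPadic Fermat.Agent.S56x.Local.IndPackage
  Fermat.Agent.S56x.Local.BddAlg
  Fermat.Agent.S56x.Local.BddDef Fermat.Agent.S56x.Local.FlatCountInputs
  Fermat.Agent.S56x.Local.CSlotFinal
  Fermat.Agent.S56x.Dict Module Matrix ExtCitation

local notation "Γℚ" => (AlgebraicClosure ℚ ≃ₐ[ℚ] AlgebraicClosure ℚ)
local notation "M₂" => Matrix (Fin 2) (Fin 2)

variable (p : ℕ) [Fact p.Prime]

local notation "Ω" => PadicAlgCl p
local notation "Gq" => (PadicAlgCl p ≃ₐ[ℚ_[p]] PadicAlgCl p)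

variable {k : Type} [Field k] (rbar : Γℚ →* M₂ k)

/-- **Block (A)** from `(CW1)`, `(CW0)` over `ℚ_p` and the `rbar`-free count over `ℚ_{p²}` at a
tame level field. -/
theorem flatCountStatementSplit_of_levelCount (hCW1 : CW1Statement p k)
    (hCW0 : CW0Statement p k) (hcount : IndFinal.LevelCountStatement p k) :
    FlatCountStatementSplit p rbar :=
  flatCountStatementSplit_of_counts p rbar hCW1 hCW0
    (IndFinal.countQp2Statement_of_levelCount p hcount)

/-- **Block (A)** from `(CW1)`, `(CW0)` over `ℚ_p`, the rank of the bounded additive characters of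
`G_{ℚ_{p²}}` and the literal count hypothesis of `IndPackage.hInd_of_inputs` at a tame level. -/
theorem flatCountStatementSplit_of_literal (hCW1 : CW1Statement p k) (hCW0 : CW0Statement p k)
    (hrank : ∀ [Finite k] [CharP k p], p ≠ 2 →
      Module.rank k (H1A (bddAlgOn p (UnrLevels.lev p 2) k)
        (1 : UnrLevels.lev p 2 →* kˣ)) ≤ 1)
    (hcount : ∀ [Finite k] [CharP k p], p ≠ 2 → DetIsCycloModP p rbar →
      ∀ (E : IntermediateField ℚ_[p] Ω) [FiniteDimensional ℚ_[p] E] [IsGalois ℚ_[p] E],
        (∀ σ ∈ E.fixingSubgroup, rlocQ p rbar σ = 1) →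
        E.fixingSubgroup ≤ UnrLevels.lev p 2 → UnrLevels.unrField p 2 ≤ E →
        ∀ ζ π : Ω, IsPrimitiveRoot ζ p → π ^ (p ^ 2 - 1) = -(p : Ω) → ζ ∈ E → π ∈ E →
        (∀ g h : Gq, g ∈ UnrLevels.lev p 2 → h ∈ UnrLevels.lev p 2 →
          g * h * g⁻¹ * h⁻¹ ∈ E.fixingSubgroup) →
        (∃ n : ℕ, Nat.Coprime n p ∧ ∀ g ∈ UnrLevels.lev p 2, g ^ n ∈ E.fixingSubgroup) →
        ∀ μ : lev2 p →* kˣ, chr μ ∈ bddAlgOn p (UnrLevels.lev p 2) k →
          (∀ s : lev2 p, (s : Gp p) ∈ E.fixingSubgroup → μ s = 1) →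
          (∃ t : lev2 p, (t : Gp p) ∈ inertiaE p E ∧ (μ t : k) ≠ 1 ∧
            (μ t : k) ≠ (rloc p rbar (t : Gp p)).det) →
          Module.rank k (H1A (bddAlgOn p (UnrLevels.lev p 2) k) μ) ≤ 1) :
    FlatCountStatementSplit p rbar :=
  flatCountStatementSplit p rbar hCW1 (cslotStatement_of_cw0 p rbar hCW0)
    (IndFinal.indStatement_of_levelCount p rbar hrank hcount)

end Fermat.Agent.S56x.Local.FlatCountMain

end
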