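import Fermat.Agent.S56x.Local.CW1FinalB
import Fermat.Agent.S56x.Local.CountQp2OfLevel
import Fermat.Agent.S56x.Local.IndFinalLevel

/-!
# P-S56 / block (A): `FlatIface.FlatCountStatementSplit p rbar` from the irreducible-case count alone

With `(CW1)`, `(CW0)` unconditional (`CW1FinalB`), block (A) needs only the count over `ℚ_{p²}`
of the irreducible case.  Every available form of that input is plugged here:

* `flatCountStatementSplit_of_ind`        : from `FlatCountInputs.IndStatement p rbar`;
* `flatCountStatementSplit_of_count`      : from `IndFinal.CountQp2Statement p k` (level-free);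
* `flatCountStatementSplit_of_levelCount` : from `IndFinal.LevelCountStatement p k` (at a tame
  level `E`, `rbar`-free; `CountQp2OfLevel`).

For the `rbar`-dependent literal `hHμ` + `hrank` use
`flatCountStatementSplit_of_ind p rbar (IndFinal.indStatement_of_levelCount p rbar hrank hcount)`.
-/

set_option autoImplicit false
set_option linter.unusedSectionVars false

noncomputable section

namespace Fermat.Agent.S56x.Local.FlatCountOfLevel

open Fermat.Agent.S56x.Local.Devissage Fermat.Agent.S56x.Local.FlatIface
  Fermat.Agent.S56x.Local.BddDef Fermat.Agent.S56x.Local.FlatCountInputs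
  Fermat.Agent.S56x.Local.CSlotFinal Fermat.Agent.S56x.Dict

local notation "Γℚ" => (AlgebraicClosure ℚ ≃ₐ[ℚ] AlgebraicClosure ℚ)
local notation "M₂" => Matrix (Fin 2) (Fin 2)

variable (p : ℕ) [Fact p.Prime] {k : Type} [Field k] (rbar : Γℚ →* M₂ k)

/-- block (A) from input (4) `IndStatement p rbar` alone. -/
theorem flatCountStatementSplit_of_ind (hInd : IndStatement p rbar) :
    FlatCountStatementSplit p rbar :=
  flatCountStatementSplit p rbar (CW1FinalB.cw1Statement p k)
    (FlatCountMain.cslotStatement_of_cw0 p rbar (CW1FinalB.cw0Statement p k)) hInd

/-- block (A) from the level-free count over `ℚ_{p²}` alone. -/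
theorem flatCountStatementSplit_of_count (hcount : IndFinal.CountQp2Statement p k) :
    FlatCountStatementSplit p rbar :=
  flatCountStatementSplit_of_ind p rbar (IndFinal.indStatement p rbar hcount)

/-- block (A) from the count over `ℚ_{p²}` at a tame level alone. -/
theorem flatCountStatementSplit_of_levelCount (h : IndFinal.LevelCountStatement p k) :
    FlatCountStatementSplit p rbar :=
  flatCountStatementSplit_of_count p rbar (IndFinal.countQp2Statement_of_levelCount p h)

end Fermat.Agent.S56x.Local.FlatCountOfLevel

end
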