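import Fermat.Agent.S56x.Local.FlatRank
import Fermat.Agent.S56x.Local.FlatIface

/-!
# P-S56 / block A : `FlatIface.FlatCountStatement` from the abstract count

`flatSpan p rbar hrbar = span (restrictions of flat tangent cocycles) ⊔ adMatB (ofHom (rbar ∘ locP))`
and the two theorems `rank_flatSpan_le_four_of_triangular` / `rank_flatSpan_le_four_of_tame`
(the conclusion of `FlatIface.FlatCountStatement`) under the arithmetic hypotheses of
`FlatRank.lean`, stated for the restrictions of the flat tangent cocycles.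
-/

set_option autoImplicit false
set_option linter.unusedSectionVars false

namespace Fermat.Agent.S56x.Local.FlatBridge

open Fermat.Agent.S56x.Local.Devissage Fermat.Agent.S56x.Local.FlatIface
  Fermat.Agent.S56x.Dict Module Matrix

local notation "Γℚ" => (AlgebraicClosure ℚ ≃ₐ[ℚ] AlgebraicClosure ℚ)
local notation "M₂" => Matrix (Fin 2) (Fin 2)

variable {k : Type} [Field k] (p : ℕ) [Fact p.Prime] (rbar : Γℚ →* M₂ k)

/-- the local residual representation `rbar ∘ locP`. -/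
noncomputable def rloc : Gp p →* M₂ k := rbar.comp (locP p)

/-- the restrictions of the flat tangent cocycles. -/
def flatRes (hrbar : GaloisFactorsThroughFiniteLevel rbar) : Set (Gp p → M₂ k) :=
  {f | ∃ c : TanCocycle rbar, IsFlatTan p rbar hrbar c ∧ f = resP p rbar c}

theorem cobP_eq (X : M₂ k) : cobP p rbar X = adMatCob (ofHom (rloc p rbar)) (-X) := by
  funext τ
  rw [adMatCob_apply]
  unfold cobP MatRep.Ad
  show X - rbar (locP p τ) * X * rbar ((locP p τ)⁻¹) =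
    rbar (locP p τ) * (-X) * rbar (locP p τ⁻¹) - (-X)
  rw [map_inv (locP p) τ]
  simp only [Matrix.mul_neg, Matrix.neg_mul]
  abel

theorem flatSpan_eq (hrbar : GaloisFactorsThroughFiniteLevel rbar) :
    flatSpan p rbar hrbar =
      Submodule.span k (flatRes p rbar hrbar) ⊔ adMatB (ofHom (rloc p rbar)) := by
  unfold flatSpan flatGens
  rw [Submodule.span_union]
  congr 1
  apply le_antisymm
  · rw [Submodule.span_le]
    rintro _ ⟨X, hX, rfl⟩
    rw [cobP_eq]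
    exact ⟨-X, mem_sl2.2 (by rw [Matrix.trace_neg, hX, neg_zero]), rfl⟩
  · rintro _ ⟨X, hX, rfl⟩
    apply Submodule.subset_span
    refine ⟨-X, by rw [Matrix.trace_neg, mem_sl2.1 hX, neg_zero], ?_⟩
    rw [cobP_eq, neg_neg]

theorem resP_mem_adMatZ (c : TanCocycle rbar) (htr : ∀ σ, (c.c σ).trace = 0) :
    resP p rbar c ∈ adMatZ (ofHom (rloc p rbar)) := by
  refine ⟨fun g => htr _, fun g h => ?_⟩
  unfold resP MatRep.Ad
  show c.c (locP p (g * h)) = c.c (locP p g) +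
    rbar (locP p g) * c.c (locP p h) * rbar (locP p g⁻¹)
  rw [map_mul (locP p) g h, c.map_mul', map_inv (locP p) g]

variable (𝒜 : Subalgebra k (Gp p → k)) [Finite k]

/-- **`FlatCountStatement`, reducible case.** -/
theorem rank_flatSpan_le_four_of_triangular (hrbar : GaloisFactorsThroughFiniteLevel rbar)
    (h2 : (2 : k) ≠ 0) {B : M₂ k} (hB : B.det ≠ 0) {χ₁ χ₂ : Gp p →* kˣ} {b : Gp p → k}
    (h : ∀ g, rloc p rbar g * B = B * !![(χ₁ g : k), b g; 0, (χ₂ g : k)])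
    (hr𝒜 : ∀ i j, (fun g => rloc p rbar g i j) ∈ 𝒜)
    (hH1 : Module.rank k (H1A 𝒜 (1 : Gp p →* kˣ)) ≤ 1)
    (hHη : Module.rank k (H1A 𝒜 (χ₁ / χ₂)) ≤ 1)
    (hFA : ∀ c, IsFlatTan p rbar hrbar c → ∀ i j, (fun g => resP p rbar c g i j) ∈ 𝒜)
    (hFc : ∀ c, IsFlatTan p rbar hrbar c →
      (fun g => (B⁻¹ * resP p rbar c g * B) 1 0) ∈ B1 (χ₁ / χ₂)⁻¹) :
    Module.rank k (flatSpan p rbar hrbar) ≤ 4 := by
  rw [flatSpan_eq]
  refine rank_span_le_four_of_triangular 𝒜 _ (rloc p rbar) h2 hB h hr𝒜 hH1 hHη ?_ ?_ ?_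
  · rintro _ ⟨c, hc, rfl⟩
    exact resP_mem_adMatZ p rbar c hc.1
  · rintro _ ⟨c, hc, rfl⟩
    exact hFA c hc
  · rintro _ ⟨c, hc, rfl⟩
    exact hFc c hc

/-- **`FlatCountStatement`, irreducible case.** -/
theorem rank_flatSpan_le_four_of_tame (hrbar : GaloisFactorsThroughFiniteLevel rbar)
    (h2 : (2 : k) ≠ 0) {B : M₂ k} (hB : B.det ≠ 0)
    (I : Subgroup (Gp p)) (φ : Gp p) {ψ ψ' : Gp p → k} {x y : k}
    (hI : ∀ t ∈ I, rloc p rbar t * B = B * Matrix.diagonal ![ψ t, ψ' t])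
    (hφ : rloc p rbar φ * B = B * !![0, x; y, 0])
    (hgen : ∀ g : Gp p, ∃ n : ℕ, ∃ t ∈ I, rloc p rbar g = rloc p rbar φ ^ n * rloc p rbar t)
    (Γ' : Subgroup (Gp p)) (hΓ' : Γ' = diagSubgroup (conjHomRep (rloc p rbar) B hB))
    (𝒜' : Subalgebra k (Γ' → k))
    (hres : ∀ f ∈ 𝒜, (fun g : Γ' => f (g : Gp p)) ∈ 𝒜')
    (hinv : ∀ a ∈ Z1A 𝒜' (1 : Γ' →* kˣ), ∀ (g : Γ') (hg : φ * (g : Gp p) * φ⁻¹ ∈ Γ'),
      a ⟨φ * (g : Gp p) * φ⁻¹, hg⟩ = a g)
    (hHμ : ∀ μ : Γ' →* kˣ,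
      (∀ g : Γ', (B⁻¹ * rloc p rbar (g : Gp p) * B) 0 0 =
        chr μ g * (B⁻¹ * rloc p rbar (g : Gp p) * B) 1 1) →
      Module.rank k (H1A 𝒜' μ) ≤ 1)
    (hFA : ∀ c, IsFlatTan p rbar hrbar c → ∀ i j, (fun g => resP p rbar c g i j) ∈ 𝒜) :
    Module.rank k (flatSpan p rbar hrbar) ≤ 4 := by
  rw [flatSpan_eq]
  refine rank_span_le_four_of_tame 𝒜 _ (rloc p rbar) h2 hB I φ hI hφ hgen Γ' hΓ' 𝒜' hres hinv
    hHμ ?_ ?_
  · rintro _ ⟨c, hc, rfl⟩
    exact resP_mem_adMatZ p rbar c hc.1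
  · rintro _ ⟨c, hc, rfl⟩
    exact hFA c hc

end Fermat.Agent.S56x.Local.FlatBridge
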