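import Fermat.Agent.S56x.Local.FlatCountAbstract

/-!
# P-S56 / block A : the local flat count in `k`-rank form (`rank ≤ 4`, coboundaries included)

For a set `Fm` of explicit `ad⁰`-cocycles `G → M₂(k)` of `r : G →* M₂(k)`, the `k`-span of `Fm`
together with all trace-zero coboundaries has rank `≤ 4 = (1 + h⁰) + (3 - h⁰)`, under the same
hypotheses as `FlatCountAbstract`.  This is the shape of `FlatIface.FlatCountStatement`.
-/

set_option autoImplicit false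
set_option linter.unusedSectionVars false
set_option linter.style.haveILetI false

namespace Fermat.Agent.S56x.Local.FlatBridge

open Fermat.Agent.S56x.Local.Devissage Module Matrix

local notation "M₂" => Matrix (Fin 2) (Fin 2)

universe u

section General

variable {k : Type u} [Field k] {V : Type u} [AddCommGroup V] [Module k V]

/-- `rank S ≤ rank B + rank (image of S modulo B)`. -/
theorem rank_le_add_rank_map_mkQ (S Bs : Submodule k V) :
    Module.rank k S ≤ Module.rank k Bs + Module.rank k (S.map Bs.mkQ) := by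
  set f : S →ₗ[k] V ⧸ Bs := Bs.mkQ.domRestrict S with hf
  have h1 := LinearMap.rank_range_add_rank_ker f
  have hrange : LinearMap.range f = S.map Bs.mkQ := by
    rw [hf, LinearMap.range_domRestrict]
  have hker : Module.rank k (LinearMap.ker f) ≤ Module.rank k Bs := by
    let j : LinearMap.ker f →ₗ[k] Bs :=
      { toFun := fun x => ⟨(x.1 : V), by
          have h0 : f x.1 = 0 := LinearMap.mem_ker.1 x.2
          have h0' : Bs.mkQ (x.1 : V) = 0 := h0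
          rwa [Submodule.mkQ_apply, Submodule.Quotient.mk_eq_zero] at h0'⟩
        map_add' := fun x y => rfl
        map_smul' := fun c x => rfl }
    refine LinearMap.rank_le_of_injective j ?_
    intro x y hxy
    apply Subtype.ext
    apply Subtype.ext
    exact congrArg (fun z : Bs => (z : V)) hxy
  rw [← h1, hrange, add_comm]
  exact add_le_add hker le_rfl

theorem map_mkQ_sup_self (Z Bs : Submodule k V) : (Z ⊔ Bs).map Bs.mkQ = Z.map Bs.mkQ := by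
  rw [Submodule.map_sup]
  have : Bs.map Bs.mkQ = ⊥ := by
    rw [← LinearMap.le_ker_iff_map, Submodule.ker_mkQ]
  rw [this, sup_bot_eq]

end General

variable {G : Type} [Group G] {k : Type} [Field k]

/-- `tripleMat` as a linear map. -/
def tripleMatₗ : (k × k × k) →ₗ[k] M₂ k where
  toFun x := tripleMat x
  map_add' x y := by
    ext i j
    fin_cases i <;> fin_cases j <;> simp [tripleMat]
    ring
  map_smul' c x := by
    ext i j
    fin_cases i <;> fin_cases j <;> simp [tripleMat]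

theorem tripleMatₗ_apply (x : k × k × k) : tripleMatₗ x = tripleMat x := rfl

theorem adMatB_eq_range (ρ : MatRep G k) :
    adMatB ρ = LinearMap.range ((adMatCob ρ).comp (tripleMatₗ (k := k))) := by
  ext Ψ
  constructor
  · rintro ⟨X, hX, rfl⟩
    exact ⟨_, by
      rw [LinearMap.comp_apply, tripleMatₗ_apply, ← eq_tripleMat_of_trace_eq_zero (mem_sl2.1 hX)]⟩
  · rintro ⟨x, rfl⟩
    exact ⟨tripleMat x, mem_sl2.2 (trace_tripleMat x), rfl⟩

theorem finrank_triple : Module.finrank k (k × k × k) = 3 := by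
  simp [Module.finrank_prod]

/-- the coboundaries have rank `≤ 3`. -/
theorem rank_adMatB_le_three (ρ : MatRep G k) : Module.rank k (adMatB ρ) ≤ 3 := by
  rw [adMatB_eq_range]
  refine (rank_range_le _).trans ?_
  rw [← Module.finrank_eq_rank, finrank_triple]
  norm_num

/-- the coboundaries have rank `≤ 2` if some nonzero trace-zero matrix is fixed. -/
theorem rank_adMatB_le_two (ρ : MatRep G k) {x : k × k × k} (hx : x ≠ 0)
    (hfix : ∀ g, ρ.Ad g (tripleMat x) = tripleMat x) : Module.rank k (adMatB ρ) ≤ 2 := by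
  rw [adMatB_eq_range]
  set f := (adMatCob ρ).comp (tripleMatₗ (k := k)) with hf
  have h1 := LinearMap.finrank_range_add_finrank_ker f
  rw [finrank_triple] at h1
  have hker : 0 < Module.finrank k (LinearMap.ker f) := by
    rw [Module.finrank_pos_iff_exists_ne_zero]
    refine ⟨⟨x, ?_⟩, fun h => hx (congrArg Subtype.val h)⟩
    rw [LinearMap.mem_ker, hf, LinearMap.comp_apply, tripleMatₗ_apply]
    funext g
    rw [adMatCob_apply, hfix g, sub_self]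
    rfl
  rw [← Module.finrank_eq_rank]
  have : Module.finrank k (LinearMap.range f) ≤ 2 := by omega
  exact_mod_cast this

/-- **rank `≤ 4`**, when the classes have rank `≤ 1`. -/
theorem rank_le_four_of_rank_le_one (ρ : MatRep G k) (S Z : Submodule k (G → M₂ k))
    (hS : S ≤ Z ⊔ adMatB ρ) (hZ : Module.rank k (Z.map (adMatB ρ).mkQ) ≤ 1) :
    Module.rank k S ≤ 4 := by
  refine (rank_le_add_rank_map_mkQ S (adMatB ρ)).trans ?_
  have h1 : Module.rank k (S.map (adMatB ρ).mkQ) ≤ 1 := by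
    refine (Submodule.rank_mono (Submodule.map_mono hS)).trans ?_
    rw [map_mkQ_sup_self]; exact hZ
  have h3 := rank_adMatB_le_three ρ
  calc Module.rank k (adMatB ρ) + Module.rank k (S.map (adMatB ρ).mkQ) ≤ 3 + 1 :=
        add_le_add h3 h1
    _ = 4 := by norm_num

/-- **rank `≤ 4`**, when the classes have rank `≤ 2` and `h⁰ ≥ 1`. -/
theorem rank_le_four_of_rank_le_two (ρ : MatRep G k) (S Z : Submodule k (G → M₂ k))
    (hS : S ≤ Z ⊔ adMatB ρ) (hZ : Module.rank k (Z.map (adMatB ρ).mkQ) ≤ 2)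
    {x : k × k × k} (hx : x ≠ 0) (hfix : ∀ g, ρ.Ad g (tripleMat x) = tripleMat x) :
    Module.rank k S ≤ 4 := by
  refine (rank_le_add_rank_map_mkQ S (adMatB ρ)).trans ?_
  have h1 : Module.rank k (S.map (adMatB ρ).mkQ) ≤ 2 := by
    refine (Submodule.rank_mono (Submodule.map_mono hS)).trans ?_
    rw [map_mkQ_sup_self]; exact hZ
  have h3 := rank_adMatB_le_two ρ hx hfix
  calc Module.rank k (adMatB ρ) + Module.rank k (S.map (adMatB ρ).mkQ) ≤ 2 + 2 :=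
        add_le_add h3 h1
    _ = 4 := by norm_num

/-! ### Change of basis for matrix valued functions -/

/-- conjugation of matrix valued functions, as a linear equivalence. -/
def conjFun (B Bi : M₂ k) (h1 : B * Bi = 1) (h2 : Bi * B = 1) :
    (G → M₂ k) ≃ₗ[k] (G → M₂ k) where
  toFun Ψ := fun g => Bi * Ψ g * B
  invFun Ψ := fun g => B * Ψ g * Bi
  map_add' Ψ Ψ' := by funext g; simp [Matrix.mul_add, Matrix.add_mul]
  map_smul' c Ψ := by funext g; simp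
  left_inv Ψ := by
    funext g
    calc B * (Bi * Ψ g * B) * Bi = (B * Bi) * Ψ g * (B * Bi) := by simp only [Matrix.mul_assoc]
      _ = Ψ g := by rw [h1, Matrix.one_mul, Matrix.mul_one]
  right_inv Ψ := by
    funext g
    calc Bi * (B * Ψ g * Bi) * B = (Bi * B) * Ψ g * (Bi * B) := by simp only [Matrix.mul_assoc]
      _ = Ψ g := by rw [h2, Matrix.one_mul, Matrix.mul_one]

@[simp] theorem conjFun_apply (B Bi : M₂ k) (h1 : B * Bi = 1) (h2 : Bi * B = 1)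
    (Ψ : G → M₂ k) (g : G) : conjFun B Bi h1 h2 Ψ g = Bi * Ψ g * B := rfl

theorem conjFun_mem_adMatZ (ρ : MatRep G k) (B Bi : M₂ k) (h1 : B * Bi = 1) (h2 : Bi * B = 1)
    {Ψ : G → M₂ k} (hΨ : Ψ ∈ adMatZ ρ) :
    conjFun B Bi h1 h2 Ψ ∈ adMatZ (conjRep ρ B Bi h1 h2) := by
  refine ⟨fun g => ?_, fun g h => ?_⟩
  · rw [conjFun_apply, Matrix.trace_mul_comm, ← Matrix.mul_assoc, h1, Matrix.one_mul, hΨ.1 g]
  · rw [conjFun_apply, conjFun_apply, conjFun_apply, conjRep_Ad, hΨ.2 g h]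
    simp only [Matrix.mul_add, Matrix.add_mul]

theorem conjFun_adMatCob (ρ : MatRep G k) (B Bi : M₂ k) (h1 : B * Bi = 1) (h2 : Bi * B = 1)
    (X : M₂ k) :
    conjFun B Bi h1 h2 (adMatCob ρ X) = adMatCob (conjRep ρ B Bi h1 h2) (Bi * X * B) := by
  funext g
  rw [conjFun_apply, adMatCob_apply, adMatCob_apply, conjRep_Ad]
  simp only [Matrix.mul_sub, Matrix.sub_mul]

theorem map_conjFun_adMatB (ρ : MatRep G k) (B Bi : M₂ k) (h1 : B * Bi = 1) (h2 : Bi * B = 1) :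
    (adMatB ρ).map (conjFun B Bi h1 h2 : (G → M₂ k) ≃ₗ[k] (G → M₂ k)).toLinearMap ≤
      adMatB (conjRep ρ B Bi h1 h2) := by
  rintro _ ⟨_, ⟨X, hX, rfl⟩, rfl⟩
  refine ⟨Bi * X * B, mem_sl2.2 ?_, ?_⟩
  · rw [Matrix.trace_mul_comm, ← Matrix.mul_assoc, h1, Matrix.one_mul, mem_sl2.1 hX]
  · exact (conjFun_adMatCob ρ B Bi h1 h2 X).symm

/-- transport of the rank bound along a change of basis. -/
theorem rank_le_of_conj (ρ : MatRep G k) (B Bi : M₂ k) (h1 : B * Bi = 1) (h2 : Bi * B = 1)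
    (Fm : Set (G → M₂ k)) {c : Cardinal}
    (h : Module.rank k ↥(Submodule.span k ((conjFun B Bi h1 h2) '' Fm) ⊔
      adMatB (conjRep ρ B Bi h1 h2) : Submodule k (G → M₂ k)) ≤ c) :
    Module.rank k ↥(Submodule.span k Fm ⊔ adMatB ρ : Submodule k (G → M₂ k)) ≤ c := by
  rw [← LinearEquiv.rank_map_eq (conjFun B Bi h1 h2) (Submodule.span k Fm ⊔ adMatB ρ)]
  refine (Submodule.rank_mono ?_).trans h
  rw [Submodule.map_sup, Submodule.map_span]
  exact sup_le_sup le_rfl (map_conjFun_adMatB ρ B Bi h1 h2)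

/-! ### The rank `≤ 4` theorems -/

section Main

variable (𝒜 : Subalgebra k (G → k)) (Fm : Set (G → M₂ k))

/-- **Reducible case**, upper triangular `ρ` (split or not). -/
theorem rank_span_le_four_of_isUT {ρ : MatRep G k} (h2 : (2 : k) ≠ 0) {χ₁ χ₂ : G →* kˣ}
    {β : G → k} (h : IsUT ρ χ₁ χ₂ β) (hbA : bOf χ₂ β ∈ 𝒜) (hη' : chr (χ₁ / χ₂)⁻¹ ∈ 𝒜)
    (hH1 : Module.rank k (H1A 𝒜 (1 : G →* kˣ)) ≤ 1)
    (hHη : Module.rank k (H1A 𝒜 (χ₁ / χ₂)) ≤ 1)
    (hFm : ∀ Ψ ∈ Fm, Ψ ∈ adMatZ ρ)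
    (hFA : ∀ Ψ ∈ Fm, ∀ i j, (fun g => Ψ g i j) ∈ 𝒜)
    (hFc : ∀ Ψ ∈ Fm, (fun g => Ψ g 1 0) ∈ B1 (χ₁ / χ₂)⁻¹) :
    Module.rank k ↥(Submodule.span k Fm ⊔ adMatB ρ : Submodule k (G → M₂ k)) ≤ 4 := by
  by_cases hb : bOf χ₂ β ∈ B1 (χ₁ / χ₂)
  · obtain ⟨x, hx⟩ := exists_isUT_zero h hb
    apply rank_le_of_conj ρ (uni x) (uni (-x)) (uni_mul_uni_neg x) (uni_neg_mul_uni x)
    set ρ' := conjRep ρ (uni x) (uni (-x)) (uni_mul_uni_neg x) (uni_neg_mul_uni x) with hρ'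
    set η := χ₁ / χ₂ with hη
    have hsub : Submodule.span k ((conjFun (uni x) (uni (-x)) (uni_mul_uni_neg x)
        (uni_neg_mul_uni x)) '' Fm) ≤ adMatZs 𝒜 ρ' (Z1A 𝒜 η) (B1 η⁻¹) := by
      rw [Submodule.span_le]
      rintro _ ⟨Ψ, hΨ, rfl⟩
      have hZ := conjFun_mem_adMatZ ρ (uni x) (uni (-x)) (uni_mul_uni_neg x) (uni_neg_mul_uni x)
        (hFm Ψ hΨ)
      have hent := entries_mem_conj 𝒜 (hFA Ψ hΨ) (uni x) (uni (-x))
      refine ⟨hZ, hent 0 0, (mem_Z1A 𝒜).2 ⟨entry01_mem_Z1 hx hZ, hent 0 1⟩, ?_⟩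
      have : (fun g => (conjFun (uni x) (uni (-x)) (uni_mul_uni_neg x) (uni_neg_mul_uni x)) Ψ g 1 0)
          = fun g => Ψ g 1 0 := by
        funext g
        rw [conjFun_apply, uni_conj_apply_one_zero]
      rw [this]
      exact hFc Ψ hΨ
    have hbot : (B1 η⁻¹).map (B1 η⁻¹).mkQ = ⊥ := by
      rw [← LinearMap.le_ker_iff_map, Submodule.ker_mkQ]
    have hrank : Module.rank k ((adMatZs 𝒜 ρ' (Z1A 𝒜 η) (B1 η⁻¹)).map (adMatB ρ').mkQ) ≤ 2 := by
      refine (rank_mat_split_le 𝒜 hx (Z1A 𝒜 η) (B1 η⁻¹)).trans ?_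
      rw [hbot, rank_bot, add_zero]
      have h11 : (2 : Cardinal) = 1 + 1 := by norm_num
      rw [h11]
      exact add_le_add hH1 hHη
    have hfix : ∀ g, ρ'.Ad g (tripleMat ((1 : k), (0 : k), (0 : k))) =
        tripleMat ((1 : k), (0 : k), (0 : k)) := by
      intro g
      rw [Ad_tripleMat hx]
      congr 1
      simp [bOf]
    refine rank_le_four_of_rank_le_two ρ' _ _ (sup_le_sup hsub le_rfl) hrank
      (x := ((1 : k), (0 : k), (0 : k))) (by simp) hfix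
  · refine rank_le_four_of_rank_le_one ρ _ (adMatZc 𝒜 ρ (χ₁ / χ₂)) (sup_le_sup ?_ le_rfl)
      (rank_mat_nonsplit_le_one 𝒜 h2 h hbA hb hη' hH1 hHη)
    rw [Submodule.span_le]
    intro Ψ hΨ
    exact ⟨⟨hFm Ψ hΨ, hFA Ψ hΨ⟩, hFc Ψ hΨ⟩

variable [Finite k] (r : G →* M₂ k)

/-- **(A1), reducible case, `k`-rank form**, from the output of `TameRep` (T4). -/
theorem rank_span_le_four_of_triangular (h2 : (2 : k) ≠ 0) {B : M₂ k} (hB : B.det ≠ 0)
    {χ₁ χ₂ : G →* kˣ} {b : G → k}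
    (h : ∀ g, r g * B = B * !![(χ₁ g : k), b g; 0, (χ₂ g : k)])
    (hr𝒜 : ∀ i j, (fun g => r g i j) ∈ 𝒜)
    (hH1 : Module.rank k (H1A 𝒜 (1 : G →* kˣ)) ≤ 1)
    (hHη : Module.rank k (H1A 𝒜 (χ₁ / χ₂)) ≤ 1)
    (hFm : ∀ Ψ ∈ Fm, Ψ ∈ adMatZ (ofHom r))
    (hFA : ∀ Ψ ∈ Fm, ∀ i j, (fun g => Ψ g i j) ∈ 𝒜)
    (hFc : ∀ Ψ ∈ Fm, (fun g => (B⁻¹ * Ψ g * B) 1 0) ∈ B1 (χ₁ / χ₂)⁻¹) :
    Module.rank k ↥(Submodule.span k Fm ⊔ adMatB (ofHom r) : Submodule k (G → M₂ k)) ≤ 4 := by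
  have hUT : IsUT (conjHomRep r B hB) χ₁ χ₂ b := isUT_conjRep r hB h
  have hent : ∀ i j, (fun g => (conjHomRep r B hB).R g i j) ∈ 𝒜 :=
    entries_mem_conj 𝒜 (Ψ := fun g => r g) hr𝒜 B B⁻¹
  have hχ₁ : chr χ₁ ∈ 𝒜 := by
    have := hent 0 0
    have e : (fun g => (conjHomRep r B hB).R g 0 0) = chr χ₁ := by
      funext g; rw [hUT.R_eq g]; simp
    rwa [e] at this
  have hχ₂ : chr χ₂ ∈ 𝒜 := by
    have := hent 1 1
    have e : (fun g => (conjHomRep r B hB).R g 1 1) = chr χ₂ := by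
      funext g; rw [hUT.R_eq g]; simp
    rwa [e] at this
  have hb : b ∈ 𝒜 := by
    have := hent 0 1
    have e : (fun g => (conjHomRep r B hB).R g 0 1) = b := by
      funext g; rw [hUT.R_eq g]; simp
    rwa [e] at this
  have hχ₁' := chr_inv_mem 𝒜 hχ₁
  have hχ₂' := chr_inv_mem 𝒜 hχ₂
  have hbA : bOf χ₂ b ∈ 𝒜 := 𝒜.mul_mem hb hχ₂'
  have hη' : chr (χ₁ / χ₂)⁻¹ ∈ 𝒜 := by
    have e : chr (χ₁ / χ₂)⁻¹ = chr χ₁⁻¹ * chr χ₂ := by
      funext g; exact chr_div_inv χ₁ χ₂ g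
    rw [e]; exact 𝒜.mul_mem hχ₁' hχ₂
  apply rank_le_of_conj (ofHom r) B B⁻¹ (mul_nonsing_inv_of_det_ne_zero hB)
    (nonsing_inv_mul_of_det_ne_zero hB)
  refine rank_span_le_four_of_isUT 𝒜 _ h2 hUT hbA hη' hH1 hHη ?_ ?_ ?_
  · rintro _ ⟨Ψ, hΨ, rfl⟩
    exact conjFun_mem_adMatZ _ _ _ _ _ (hFm Ψ hΨ)
  · rintro _ ⟨Ψ, hΨ, rfl⟩
    exact entries_mem_conj 𝒜 (hFA Ψ hΨ) B B⁻¹
  · rintro _ ⟨Ψ, hΨ, rfl⟩
    exact hFc Ψ hΨ

/-- **(A1), irreducible case, `k`-rank form**, from the output of `TameRep` (T5). -/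
theorem rank_span_le_four_of_tame (h2 : (2 : k) ≠ 0) {B : M₂ k} (hB : B.det ≠ 0)
    (I : Subgroup G) (φ : G) {ψ ψ' : G → k} {x y : k}
    (hI : ∀ t ∈ I, r t * B = B * Matrix.diagonal ![ψ t, ψ' t])
    (hφ : r φ * B = B * !![0, x; y, 0])
    (hgen : ∀ g : G, ∃ n : ℕ, ∃ t ∈ I, r g = r φ ^ n * r t)
    (Γ' : Subgroup G) (hΓ' : Γ' = diagSubgroup (conjHomRep r B hB))
    (𝒜' : Subalgebra k (Γ' → k))
    (hres : ∀ f ∈ 𝒜, (fun g : Γ' => f (g : G)) ∈ 𝒜')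
    (hinv : ∀ a ∈ Z1A 𝒜' (1 : Γ' →* kˣ), ∀ (g : Γ') (hg : φ * (g : G) * φ⁻¹ ∈ Γ'),
      a ⟨φ * (g : G) * φ⁻¹, hg⟩ = a g)
    (hHμ : ∀ μ : Γ' →* kˣ,
      (∀ g : Γ', (B⁻¹ * r (g : G) * B) 0 0 = chr μ g * (B⁻¹ * r (g : G) * B) 1 1) →
      Module.rank k (H1A 𝒜' μ) ≤ 1)
    (hFm : ∀ Ψ ∈ Fm, Ψ ∈ adMatZ (ofHom r))
    (hFA : ∀ Ψ ∈ Fm, ∀ i j, (fun g => Ψ g i j) ∈ 𝒜) :
    Module.rank k ↥(Submodule.span k Fm ⊔ adMatB (ofHom r) : Submodule k (G → M₂ k)) ≤ 4 := by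
  subst hΓ'
  have hind := isInduced_of_tame r hB I φ hI hφ hgen
  apply rank_le_of_conj (ofHom r) B B⁻¹ (mul_nonsing_inv_of_det_ne_zero hB)
    (nonsing_inv_mul_of_det_ne_zero hB)
  refine rank_le_four_of_rank_le_one _ _ (adMatZA (conjHomRep r B hB) 𝒜)
    (sup_le_sup ?_ le_rfl)
    (rank_induced_le_one 𝒜 𝒜' h2 hind hres (fun a ha g => hinv a ha g _)
      (hHμ _ fun g => hind.ratio g))
  rw [Submodule.span_le]
  rintro _ ⟨Ψ, hΨ, rfl⟩
  exact ⟨conjFun_mem_adMatZ _ _ _ _ _ (hFm Ψ hΨ), entries_mem_conj 𝒜 (hFA Ψ hΨ) B B⁻¹⟩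

end Main

end Fermat.Agent.S56x.Local.FlatBridge
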