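/-
P-S56 block (B), local line, input (b) of `Local/EulerTame.localEuler_ne_of` (helper96):
for a prime `q ≠ p`, the `FrobData` of the local Galois group at `q` (helper42's
`FrobDataLocal.primeFrobData`) has inertia acting trivially on `μ_p`, i.e. the local mod `p`
cyclotomic character is trivial on its inertia subgroup.

Proof: the inertia subgroup fixes the roots of unity of order `q ^ n - 1`, and `p ∣ q ^ (p-1) - 1`.
-/
import Fermat.Agent.S56x.Local.FrobDataLocal
import Fermat.Agent.S56x.Local.TameCyclo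
import Fermat.Agent.Lib.CFT.Duality.LocalTateArith

set_option autoImplicit false
set_option linter.style.haveILetI false

namespace Fermat.Agent.S56x.Local.FrobDataCyclo

open ExtCitation Fermat.Agent.Lib.CFT.Duality Fermat.Agent.Lib.CFT.Duality.LocalTate
  Fermat.Agent.S56x.Local.UnramAbstract Fermat.Agent.S56x.Local.FrobDataLocal

variable (p : ℕ) [Fact p.Prime] (q : Nat.Primes)

/-- `p ∣ q ^ (p - 1) - 1` for `q` prime to `p`. -/
theorem dvd_pow_sub_one (hqp : (q : ℕ) ≠ p) : p ∣ (q : ℕ) ^ (p - 1) - 1 := by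
  have hp : p.Prime := Fact.out
  have hq0 : ((q : ℕ) : ZMod p) ≠ 0 := by
    rw [Ne, ZMod.natCast_eq_zero_iff]
    intro hdvd
    exact hqp ((Nat.prime_dvd_prime_iff_eq hp q.2).1 hdvd).symm
  have h1 := ZMod.pow_card_sub_one_eq_one hq0
  rw [← ZMod.natCast_eq_zero_iff,
    Nat.cast_sub (Nat.one_le_pow _ _ q.2.pos), Nat.cast_pow, h1, Nat.cast_one, sub_self]

/-- **The local cyclotomic character is trivial on the inertia subgroup at `q ≠ p`.** -/
theorem localCycloChar_eq_one_of_mem (hqp : (q : ℕ) ≠ p) (σ : primeLocalGaloisGroup q)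
    (hσ : σ ∈ (primeFrobData q).I) : localCycloChar p q σ = 1 := by
  haveI : Fact (q : ℕ).Prime := ⟨q.2⟩
  have hp : p.Prime := Fact.out
  obtain ⟨ζ, hζ⟩ := TameCyclo.exists_primitiveRoot p (q : ℕ)
  have hζpow : ζ ^ ((q : ℕ) ^ (p - 1) - 1) = 1 := by
    obtain ⟨k, hk⟩ := dvd_pow_sub_one p q hqp
    rw [hk, pow_mul, hζ.pow_eq_one, one_pow]
  have hpos : 0 < p - 1 := by
    have := hp.two_le
    omega
  have h := (mem_primeFrobData_I_iff q σ).1 hσ (p - 1) hpos ζ hζpow
  exact TameCyclo.cycloChar_eq_one_of_apply_eq p (q : ℕ) hqp σ hζ h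

/-- **Input (b) of `EulerTame.localEuler_ne_of`.** -/
theorem exists_frobData_cyclo (hq : q ≠ pPrime p) :
    ∃ D : FrobData (primeLocalLevels q), ∀ i ∈ D.I, localCycloChar p q i = 1 := by
  have hqp : (q : ℕ) ≠ p := by
    intro h
    apply hq
    exact Subtype.ext h
  exact ⟨primeFrobData q, fun i hi => localCycloChar_eq_one_of_mem p q hqp i hi⟩

/-- The same, in the `∀ q` form of the hypothesis `hD` of `EulerTame.localEuler_ne_of`. -/
theorem hD : ∀ q : Nat.Primes, q ≠ pPrime p →
    ∃ D : FrobData (primeLocalLevels q), ∀ i ∈ D.I, localCycloChar p q i = 1 :=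
  fun q hq => exists_frobData_cyclo p q hq

end Fermat.Agent.S56x.Local.FrobDataCyclo
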