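/-
P-S56 block (A), count side (helper97): the hypothesis `HB` of `CWAssembly.rank_H1A_le_one` /
`KummerPairingInt.isKummerPairing_int` (full group) and of `KummerPairingSub.isKummerPairing_sub`
(subgroup `Γ'`), for `F = ℚ_[p]`, `Ω = PadicAlgCl p`, `B = OE p L`, `𝒜 = bddAlg p k`
(`𝒜' = bddAlgOn p Γ' k`), from the arithmetic statement `CW1Padic.BoundedKummerStatement p`
(= `BoundedKummerPadic`: Fontaine's bound forces a Kummer generator into `U^(e) · L^×p`).
The full-group version is also inside `CW1Padic.rank_H1A_le_one` (helper10); the subgroup version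
`hB_sub` is the input of the `ℚ_{p²}`-shape (`CWAssemblyQp2`).

Steps: an admissible cocycle `u` is right invariant under `Gal(·/E)` for a bounded field `E`
(`BddAlg`); `M := E ⊔ L` is bounded (`L` tame, `BddField.isBddField_sup`); `u` vanishes on
`Gal(·/M)`, so the Kummer generator `α` is fixed by `Gal(·/M)`, i.e. `α ∈ M`; then the statement.
-/
import Mathlib
import Fermat.Agent.S56x.Local.BddAlg
import Fermat.Agent.S56x.Local.PadicE0
import Fermat.Agent.S56x.Local.KummerPairingSub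
import Fermat.Agent.S56x.Local.CW1Padic

set_option autoImplicit false
set_option linter.unusedSectionVars false

noncomputable section

namespace Fermat.Agent.S56x.Local.HBOfBoundedSub

open IsLocalRing IntermediateField
open Fermat.Agent.Lib.Ram Fermat.Agent.S56x.Local.PadicFinite Fermat.Agent.S56x.Local.BddDef
open Fermat.Agent.S56x.Local.BddAlg Fermat.Agent.S56x.Local.Devissage
open Fermat.Agent.S56x.Local.KummerPairingInt Fermat.Agent.S56x.Local.KummerPairingSub
open Fermat.Agent.Lib.CFT.Local Fermat.Agent.S56x.Local.CW1Padic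

variable {p : ℕ} [Fact p.Prime]
variable (L : IntermediateField ℚ_[p] (PadicAlgCl p)) [FiniteDimensional ℚ_[p] L]
  [IsGalois ℚ_[p] L]

/-- the core: a Kummer generator with a `p`-th root in a bounded field `M ⊇ L` can be normalised
into `U^(e)`. -/
theorem exists_unit_of_mem (hBK : BoundedKummerStatement p) (hp2 : p ≠ 2) (ht : (ramNum p L).IsTame)
    {e m : ℕ} (he : (ramNum p L).e0 = e) (hem : e = (p - 1) * m) (he1 : 1 ≤ e)
    {ζ : PadicAlgCl p} (hζ : IsPrimitiveRoot ζ p) (hζL : ζ ∈ L)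
    {M : IntermediateField ℚ_[p] (PadicAlgCl p)} (hLM : L ≤ M) (hM : IsBddField p M)
    (x : (↥L)ˣ) {α : PadicAlgCl p} (hα : α ^ p = ((x : ↥L) : PadicAlgCl p)) (hαM : α ∈ M) :
    ∃ (z : (↥L)ˣ) (b : (OE p L)ˣ), b ∈ UnitsFiltration.principalUnits (OE p L) e ∧
      unitsIncl L (OE p L) b = x * z ^ p := by
  have heA : IsDiscreteValuationRing.addVal (OE p L) ((p : ℕ) : OE p L) = (e : ℕ∞) := by
    rw [PadicE0.addVal_p_eq_e0 L, he]
  obtain ⟨z, hz0, a, haz, ha1⟩ := hBK L M hp2 hLM hM ht ζ hζ hζL e m he heA hem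
    (x : ↥L) x.ne_zero α hαM hα
  have ha1' : a - 1 ∈ maximalIdeal (OE p L) :=
    Ideal.pow_le_self (by omega) ha1
  have hau : IsUnit a := by
    by_contra hna
    have ham : a ∈ maximalIdeal (OE p L) := (mem_maximalIdeal a).2 hna
    have h1 : (1 : OE p L) ∈ maximalIdeal (OE p L) := by
      have := (maximalIdeal (OE p L)).sub_mem ham ha1'
      rwa [sub_sub_cancel] at this
    exact (Ideal.ne_top_iff_one _).1 (maximalIdeal.isMaximal (OE p L)).ne_top h1
  refine ⟨Units.mk0 z hz0, hau.unit, ?_, ?_⟩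
  · rw [UnitsFiltration.mem_principalUnits_iff]
    exact ha1
  · apply Units.ext
    rw [coe_unitsIncl]
    show ((hau.unit : OE p L) : ↥L) = _
    rw [IsUnit.unit_spec, haz]
    simp

variable {k : Type*} [Field k]

/-- an admissible cocycle vanishes at `1`. -/
theorem z1_one {Γ : Type*} [Group Γ] {χ : Γ →* kˣ} {u : Γ → k} (hu : u ∈ Z1 χ) : u 1 = 0 := by
  have h := hu 1 1
  rw [mul_one, map_one, Units.val_one, one_mul] at h
  exact left_eq_add.mp h

/-- **`HB` for the full group** (`CWAssembly.rank_H1A_le_one`, `isKummerPairing_int`). -/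
theorem hB_full (hBK : BoundedKummerStatement p) (hp2 : p ≠ 2) (ht : (ramNum p L).IsTame)
    {e m : ℕ} (he : (ramNum p L).e0 = e) (hem : e = (p - 1) * m) (he1 : 1 ≤ e)
    {ζ : PadicAlgCl p} (hζ : IsPrimitiveRoot ζ p) (hζL : ζ ∈ L) (χ : GQp p →* kˣ) :
    ∀ u ∈ Z1A (bddAlg p k) χ, ∀ (l : k →+ ZMod p) (x : (↥L)ˣ) (α : PadicAlgCl p),
      α ^ p = ((x : ↥L) : PadicAlgCl p) →
      (∀ s : L.fixingSubgroup, (s : GQp p) α = ζ ^ (l (u s)).val * α) →
      ∃ (z : (↥L)ˣ) (b : (OE p L)ˣ), b ∈ UnitsFiltration.principalUnits (OE p L) e ∧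
        unitsIncl L (OE p L) b = x * z ^ p := by
  intro u hu l x α hα hs
  obtain ⟨huZ, huA⟩ := (mem_Z1A (bddAlg p k)).mp hu
  obtain ⟨E, hE, hinv⟩ := isBddFun_of_mem huA
  have hL : IsBddField p L := PadicE0.isBddField_of_tame L ht
  have hM : IsBddField p (E ⊔ L) := BddField.isBddField_sup hE hL
  refine exists_unit_of_mem L hBK hp2 ht he hem he1 hζ hζL le_sup_right hM x hα ?_
  rw [← InfiniteGalois.fixedField_fixingSubgroup (E ⊔ L), IntermediateField.mem_fixedField_iff]
  intro s hsM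
  have hsL : s ∈ L.fixingSubgroup := IntermediateField.fixingSubgroup_antitone le_sup_right hsM
  have hsE : s ∈ E.fixingSubgroup := IntermediateField.fixingSubgroup_antitone le_sup_left hsM
  have hus : u s = 0 := by
    have := hinv 1 s hsE
    rwa [one_mul, z1_one huZ] at this
  have := hs ⟨s, hsL⟩
  rw [show u ((⟨s, hsL⟩ : L.fixingSubgroup) : GQp p) = u s from rfl, hus, map_zero, ZMod.val_zero,
    pow_zero, one_mul] at this
  exact this

/-- **`HB` for a subgroup `Γ' ⊇ Gal(·/L)`** (`KummerPairingSub.isKummerPairing_sub`). -/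
theorem hB_sub (hBK : BoundedKummerStatement p) (hp2 : p ≠ 2) (ht : (ramNum p L).IsTame)
    {e m : ℕ} (he : (ramNum p L).e0 = e) (hem : e = (p - 1) * m) (he1 : 1 ≤ e)
    {ζ : PadicAlgCl p} (hζ : IsPrimitiveRoot ζ p) (hζL : ζ ∈ L)
    (Γ' : Subgroup (GQp p)) (hLΓ : L.fixingSubgroup ≤ Γ') (χ : ↥Γ' →* kˣ) :
    ∀ u ∈ Z1A (bddAlgOn p Γ' k) χ, ∀ (l : k →+ ZMod p) (x : (↥L)ˣ) (α : PadicAlgCl p),
      α ^ p = ((x : ↥L) : PadicAlgCl p) →
      (∀ s : GLsub (L := L) Γ', ((s : ↥Γ') : GQp p) α = ζ ^ (l (u s)).val * α) →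
      ∃ (z : (↥L)ˣ) (b : (OE p L)ˣ), b ∈ UnitsFiltration.principalUnits (OE p L) e ∧
        unitsIncl L (OE p L) b = x * z ^ p := by
  intro u hu l x α hα hs
  obtain ⟨huZ, huA⟩ := (mem_Z1A (bddAlgOn p Γ' k)).mp hu
  obtain ⟨E, hE, hinv⟩ := isBddFunOn_of_mem huA
  have hL : IsBddField p L := PadicE0.isBddField_of_tame L ht
  have hM : IsBddField p (E ⊔ L) := BddField.isBddField_sup hE hL
  refine exists_unit_of_mem L hBK hp2 ht he hem he1 hζ hζL le_sup_right hM x hα ?_
  rw [← InfiniteGalois.fixedField_fixingSubgroup (E ⊔ L), IntermediateField.mem_fixedField_iff]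
  intro s hsM
  have hsL : s ∈ L.fixingSubgroup := IntermediateField.fixingSubgroup_antitone le_sup_right hsM
  have hsE : s ∈ E.fixingSubgroup := IntermediateField.fixingSubgroup_antitone le_sup_left hsM
  let s' : ↥Γ' := ⟨s, hLΓ hsL⟩
  have hs'L : s' ∈ GLsub (L := L) Γ' := Subgroup.mem_subgroupOf.2 hsL
  have hus : u s' = 0 := by
    have := hinv 1 s' hsE
    rwa [one_mul, z1_one huZ] at this
  have := hs ⟨s', hs'L⟩
  rw [show u ((⟨s', hs'L⟩ : GLsub (L := L) Γ') : ↥Γ') = u s' from rfl, hus, map_zero,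
    ZMod.val_zero, pow_zero, one_mul] at this
  exact this

end Fermat.Agent.S56x.Local.HBOfBoundedSub

end
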