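import Mathlib
import Fermat.Agent.S56x.Local.PadicAKLB
import Fermat.Agent.S56x.Local.PadicE0
import Fermat.Agent.S56x.Local.BddDef
import Fermat.Agent.S56x.Local.BoundedKummerJump
import Fermat.Agent.Lib.Ram.GaloisTower
import Fermat.Agent.Lib.Ram.Prop3Hom

/-!
# P-S56, block (A) (helper12): Fontaine's bound ⟹ Kummer generators in `U^(e) · (L^×)^p`

`p`-adic instantiation of `Local/BoundedKummerJump` (= helper47's `Local/BoundedKummer` with the
abstract tower replaced by a jump bound): `L/ℚ_p` finite Galois tame with `ζ_p ∈ L`,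
`e(L/ℚ_p) = (p-1) m`, `α^p = x ∈ L^×`, and `α` lies in a bounded field `M ⊇ L`
(`BddDef.IsBddField p M`, i.e. `Gal(M/ℚ_p)^v = 1` for `v > 1/(p-1)`).  Then
`x ∈ U_L^(e) · (L^×)^p`.

* `kummerField L α = L ⊔ ℚ_p(α)`; `isGalois_kummer`, `finrank_kummer` (degree `p` if `α ∉ L`);
* `jump_bound` : the unique jump `c` of `Gal(L(α)/L)` satisfies `c - 1 ≤ e0(L) / (p - 1)`
  (`Prop3Hom.homFormula` twice + `GaloisTower.jump_le_of_tame_tower`);
* `exists_normal_form` : the normal form.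
-/

set_option autoImplicit false
set_option linter.style.haveILetI false

open Polynomial IntermediateField
open Fermat.Agent.S56x.Local.PadicFinite Fermat.Agent.S56x.Local.BddDef
open Fermat.Agent.Lib.Ram Fermat.Agent.Lib.Ram.GaloisLower Fermat.Agent.Lib.Ram.TameTower
open scoped Fermat.Agent.S56x.Local.PadicAKLB

namespace Fermat.Agent.S56x.Local.HBPadic

variable {p : ℕ} [Fact p.Prime]

local notation "Ω" => PadicAlgCl p

/-- `L(α)`. -/
noncomputable def kummerField (L : IntermediateField ℚ_[p] Ω) (α : Ω) : IntermediateField ℚ_[p] Ω :=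
  L ⊔ ℚ_[p]⟮α⟯

theorem le_kummerField (L : IntermediateField ℚ_[p] Ω) (α : Ω) : L ≤ kummerField L α :=
  le_sup_left

theorem mem_kummerField (L : IntermediateField ℚ_[p] Ω) (α : Ω) : α ∈ kummerField L α :=
  (le_sup_right : ℚ_[p]⟮α⟯ ≤ kummerField L α) (mem_adjoin_simple_self ℚ_[p] α)

/-- `L ≤ L(α)` as a `Fact` (scoped: activates the `PadicAKLB` tower instances). -/
scoped instance kummerFieldFact (L : IntermediateField ℚ_[p] Ω) (α : Ω) :
    Fact (L ≤ kummerField L α) :=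
  ⟨le_kummerField L α⟩

theorem kummerField_le_adjoin (L : IntermediateField ℚ_[p] Ω) (α : Ω) :
    kummerField L α ≤ (IntermediateField.adjoin ↥L {α}).restrictScalars ℚ_[p] := by
  unfold kummerField
  refine sup_le ?_ ?_
  · intro x hx
    rw [IntermediateField.mem_restrictScalars]
    exact (IntermediateField.adjoin ↥L {α}).algebraMap_mem ⟨x, hx⟩
  · rw [IntermediateField.adjoin_simple_le_iff, IntermediateField.mem_restrictScalars]
    exact IntermediateField.mem_adjoin_simple_self ↥L α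

/-- every element of `L(α)` is a polynomial in `α` with coefficients in `L`. -/
theorem adjoin_gen_eq_top (L : IntermediateField ℚ_[p] Ω) (α : Ω) (hα : IsIntegral ↥L α) :
    Algebra.adjoin ↥L {(⟨α, mem_kummerField L α⟩ : ↥(kummerField L α))} = ⊤ := by
  set α' : ↥(kummerField L α) := ⟨α, mem_kummerField L α⟩ with hα'
  set S := Algebra.adjoin ↥L {α'} with hS
  rw [eq_top_iff]
  have key : ∀ y : Ω, y ∈ Algebra.adjoin ↥L {α} →
      ∃ hy : y ∈ kummerField L α, (⟨y, hy⟩ : ↥(kummerField L α)) ∈ S := by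
    intro y hy
    induction hy using Algebra.adjoin_induction with
    | mem y hy =>
      rw [Set.mem_singleton_iff] at hy
      subst hy
      exact ⟨mem_kummerField L y, Algebra.subset_adjoin (Set.mem_singleton _)⟩
    | algebraMap x =>
      refine ⟨le_kummerField L α x.2, ?_⟩
      have : (⟨algebraMap ↥L Ω x, le_kummerField L α x.2⟩ : ↥(kummerField L α))
          = algebraMap ↥L ↥(kummerField L α) x := rfl
      rw [this]
      exact Subalgebra.algebraMap_mem _ _
    | add y z _ _ hy hz =>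
      obtain ⟨hy1, hy2⟩ := hy
      obtain ⟨hz1, hz2⟩ := hz
      exact ⟨add_mem hy1 hz1, S.add_mem hy2 hz2⟩
    | mul y z _ _ hy hz =>
      obtain ⟨hy1, hy2⟩ := hy
      obtain ⟨hz1, hz2⟩ := hz
      exact ⟨mul_mem hy1 hz1, S.mul_mem hy2 hz2⟩
  rintro ⟨y, hy⟩ -
  have h1 := kummerField_le_adjoin L α hy
  rw [IntermediateField.mem_restrictScalars, ← IntermediateField.mem_toSubalgebra,
    IntermediateField.adjoin_simple_toSubalgebra_of_isAlgebraic hα.isAlgebraic] at h1
  obtain ⟨_, h2⟩ := key y h1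
  exact h2


section Kummer

theorem isIntegral_kummer (L : IntermediateField ℚ_[p] Ω) (x : ↥L) (α : Ω)
    (hα : α ^ p = (x : Ω)) : IsIntegral ↥L α := by
  have hp : p.Prime := Fact.out
  refine ⟨X ^ p - C x, monic_X_pow_sub_C x hp.ne_zero, ?_⟩
  rw [eval₂_sub, eval₂_X_pow, eval₂_C, hα]
  exact sub_self _

theorem primitiveRoots_nonempty (L : IntermediateField ℚ_[p] Ω) {ζ : Ω}
    (hζ : IsPrimitiveRoot ζ p) (hζL : ζ ∈ L) : (primitiveRoots p ↥L).Nonempty := by
  have hp : p.Prime := Fact.out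
  refine ⟨⟨ζ, hζL⟩, (mem_primitiveRoots hp.pos).2 ?_⟩
  exact IsPrimitiveRoot.of_map_of_injective (f := L.val) hζ (Subtype.val_injective)

theorem isSplittingField_kummer (L : IntermediateField ℚ_[p] Ω) {ζ : Ω}
    (hζ : IsPrimitiveRoot ζ p) (hζL : ζ ∈ L) (x : ↥L) (α : Ω) (hα : α ^ p = (x : Ω)) :
    IsSplittingField ↥L ↥(kummerField L α) (X ^ p - C x) := by
  have hp : p.Prime := Fact.out
  set α' : ↥(kummerField L α) := ⟨α, mem_kummerField L α⟩ with hα'
  have ha : α' ^ p = algebraMap ↥L ↥(kummerField L α) x := by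
    apply Subtype.ext
    exact hα
  have hζ' : IsPrimitiveRoot (⟨ζ, le_kummerField L α hζL⟩ : ↥(kummerField L α)) p :=
    IsPrimitiveRoot.of_map_of_injective (f := (kummerField L α).val) hζ (Subtype.val_injective)
  haveI : Module.Free ↥L ↥(kummerField L α) := Module.Free.of_divisionRing _ _
  haveI : Module.Flat ↥L ↥(kummerField L α) := Module.Flat.of_free
  haveI : Module.IsTorsionFree ↥L ↥(kummerField L α) := Module.Flat.isTorsionFree
  constructor
  · rw [Polynomial.map_sub, Polynomial.map_pow, Polynomial.map_C, Polynomial.map_X]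
    exact X_pow_sub_C_splits_of_isPrimitiveRoot hζ' ha
  · rw [eq_top_iff, ← adjoin_gen_eq_top L α (isIntegral_kummer L x α hα)]
    apply Algebra.adjoin_mono
    rw [Set.singleton_subset_iff, mem_rootSet_of_ne (X_pow_sub_C_ne_zero hp.pos x),
      aeval_def, eval₂_sub, eval₂_X_pow, eval₂_C, ha, sub_self]

/-- if `α ∉ L` then `x` is not a `p`-th power in `L`. -/
theorem pow_ne_of_not_mem (L : IntermediateField ℚ_[p] Ω) {ζ : Ω}
    (hζ : IsPrimitiveRoot ζ p) (hζL : ζ ∈ L) (x : ↥L) (α : Ω) (hα : α ^ p = (x : Ω))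
    (hαL : α ∉ L) (b : ↥L) : b ^ p ≠ x := by
  have hp : p.Prime := Fact.out
  intro hb
  have hb' : (b : Ω) ^ p = α ^ p := by
    rw [hα, ← hb]; rfl
  by_cases hb0 : (b : Ω) = 0
  · rw [hb0, zero_pow hp.ne_zero] at hb'
    have : α = 0 := pow_eq_zero_iff hp.ne_zero |>.1 hb'.symm
    exact hαL (this ▸ L.zero_mem)
  have h1 : (α / (b : Ω)) ^ p = 1 := by
    rw [div_pow, ← hb', div_self]
    exact pow_ne_zero _ hb0
  obtain ⟨i, -, hi⟩ := hζ.eq_pow_of_pow_eq_one h1
  have h2 : α = ζ ^ i * (b : Ω) := by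
    rw [hi]; field_simp
  exact hαL (h2 ▸ L.mul_mem (pow_mem hζL i) b.2)

theorem isGalois_kummer (L : IntermediateField ℚ_[p] Ω) {ζ : Ω}
    (hζ : IsPrimitiveRoot ζ p) (hζL : ζ ∈ L) (x : ↥L) (α : Ω) (hα : α ^ p = (x : Ω))
    (hαL : α ∉ L) : IsGalois ↥L ↥(kummerField L α) := by
  have hp : p.Prime := Fact.out
  haveI := isSplittingField_kummer L hζ hζL x α hα
  exact isGalois_of_isSplittingField_X_pow_sub_C (primitiveRoots_nonempty L hζ hζL)
    (X_pow_sub_C_irreducible_of_prime hp (pow_ne_of_not_mem L hζ hζL x α hα hαL)) _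

theorem finrank_kummer (L : IntermediateField ℚ_[p] Ω) {ζ : Ω}
    (hζ : IsPrimitiveRoot ζ p) (hζL : ζ ∈ L) (x : ↥L) (α : Ω) (hα : α ^ p = (x : Ω))
    (hαL : α ∉ L) : Module.finrank ↥L ↥(kummerField L α) = p := by
  have hp : p.Prime := Fact.out
  haveI := isSplittingField_kummer L hζ hζL x α hα
  exact finrank_of_isSplittingField_X_pow_sub_C (primitiveRoots_nonempty L hζ hζL)
    (X_pow_sub_C_irreducible_of_prime hp (pow_ne_of_not_mem L hζ hζL x α hα hαL)) _

end Kummer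

theorem jump_bound (L L' M : IntermediateField ℚ_[p] Ω) [FiniteDimensional ℚ_[p] L]
    [IsGalois ℚ_[p] L] [FiniteDimensional ℚ_[p] M] [IsGalois ℚ_[p] M]
    [hLL' : Fact (L ≤ L')] [hL'M : Fact (L' ≤ M)] [hLM : Fact (L ≤ M)]
    [FiniteDimensional ℚ_[p] L'] [IsGalois ↥L ↥L'] [Nontrivial (↥L' ≃ₐ[↥L] ↥L')]
    (hb : (ramNum p M).UpperBounded (1 / ((p : ℝ) - 1))) (ht : (ramNum p L).IsTame)
    (c : ℕ) (hc : HasJump (lowerNumbering (OE p L) ↥L ↥L' (OE p L')) c) :
    (c : ℝ) - 1 ≤ (ramNum p L).e0 * (1 / ((p : ℝ) - 1)) := by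
  letI i1 : Fintype (GaloisTower.resHom ℚ_[p] ↥L ↥M).ker := Fintype.ofFinite _
  letI i2 : Fintype (GaloisTower.resHom ↥L ↥L' ↥M).ker := Fintype.ofFinite _
  letI : Fintype (Prop3Hom.res ℚ_[p] L M).ker := i1
  letI : Fintype (Prop3Hom.res ↥L ↥L' ↥M).ker := i2
  have h := Prop3Hom.homFormula (A := ℤ_[p]) (K := ℚ_[p]) (L := L) (M := M)
    (B := OE p L) (C := OE p M)
  have h' := Prop3Hom.homFormula (A := OE p L) (K := ↥L) (L := ↥L') (M := ↥M)
    (B := OE p L') (C := OE p M)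
  have hv : (0 : ℝ) ≤ 1 / ((p : ℝ) - 1) := by
    have hp : p.Prime := Fact.out
    have : (1 : ℝ) < p := by exact_mod_cast hp.one_lt
    apply div_nonneg zero_le_one
    linarith
  exact GaloisTower.jump_le_of_tame_tower (A := ℤ_[p]) (K := ℚ_[p]) (L := ↥L) (M := ↥M)
    (B := OE p L) (C := OE p M) (L' := ↥L') (B' := OE p L') h ht h' hc hv hb


/-- **Fontaine's bound ⟹ Kummer generators lie in `U^(e) · L^×p`** (`p`-adic form). -/
theorem exists_normal_form (hp2 : p ≠ 2) (L M : IntermediateField ℚ_[p] Ω)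
    [FiniteDimensional ℚ_[p] L] [IsGalois ℚ_[p] L] {ζ : Ω} (hζ : IsPrimitiveRoot ζ p) (hζL : ζ ∈ L)
    (hLM : L ≤ M) (hM : IsBddField p M) (ht : (ramNum p L).IsTame)
    {m : ℕ} (he : (ramNum p L).e0 = (p - 1) * m)
    (x : ↥L) (hx : x ≠ 0) (α : Ω) (hα : α ^ p = (x : Ω)) (hαM : α ∈ M) :
    ∃ z : ↥L, z ≠ 0 ∧ ∃ a : OE p L, algebraMap (OE p L) ↥L a = x * z ^ p ∧
      a - 1 ∈ IsLocalRing.maximalIdeal (OE p L) ^ (ramNum p L).e0 := by
  have hp : p.Prime := Fact.out
  by_cases hαL : α ∈ L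
  · -- `x` is a `p`-th power
    have hα0 : (⟨α, hαL⟩ : ↥L) ≠ 0 := by
      intro h0
      apply hx
      apply Subtype.ext
      have : α = 0 := congrArg Subtype.val h0
      rw [← hα, this, zero_pow hp.ne_zero]; rfl
    refine ⟨(⟨α, hαL⟩ : ↥L)⁻¹, inv_ne_zero hα0, 1, ?_, by simp⟩
    have hx' : x = (⟨α, hαL⟩ : ↥L) ^ p := Subtype.ext hα.symm
    rw [map_one, hx', inv_pow, mul_inv_cancel₀ (pow_ne_zero _ hα0)]
  · obtain ⟨hfdM, hgalM, hbM⟩ := hM
    have hL'M : kummerField L α ≤ M := by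
      unfold kummerField
      exact sup_le hLM ((IntermediateField.adjoin_simple_le_iff).2 hαM)
    haveI : Fact (kummerField L α ≤ M) := ⟨hL'M⟩
    haveI : Fact (L ≤ M) := ⟨hLM⟩
    haveI : FiniteDimensional ℚ_[p] ↥(kummerField L α) := by
      exact FiniteDimensional.left ℚ_[p] ↥(kummerField L α) ↥M
    haveI : IsGalois ↥L ↥(kummerField L α) := isGalois_kummer L hζ hζL x α hα hαL
    have hdeg : Module.finrank ↥L ↥(kummerField L α) = p := finrank_kummer L hζ hζL x α hα hαL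
    haveI : Nontrivial (↥(kummerField L α) ≃ₐ[↥L] ↥(kummerField L α)) := by
      rw [← Finite.one_lt_card_iff_nontrivial, IsGalois.card_aut_eq_finrank, hdeg]
      exact hp.one_lt
    have hζ' : IsPrimitiveRoot (⟨ζ, hζL⟩ : ↥L) p :=
      IsPrimitiveRoot.of_map_of_injective (f := L.val) hζ (Subtype.val_injective)
    have hperf : ∀ a : IsLocalRing.ResidueField (OE p L), ∃ b, b ^ p = a := by
      intro a
      exact surjective_frobenius (IsLocalRing.ResidueField (OE p L)) p a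
    have hrank : Module.finrank (OE p L) (OE p (kummerField L α))
        = Module.finrank ↥L ↥(kummerField L α) :=
      Fermat.Agent.S56x.Local.PadicAKLB.finrank_OE_OE'
    have heA : IsDiscreteValuationRing.addVal (OE p L) ((p : ℕ) : OE p L)
        = ((ramNum p L).e0 : ℕ∞) := Fermat.Agent.S56x.Local.PadicE0.addVal_p_eq_e0 L
    have hα' : (⟨α, mem_kummerField L α⟩ : ↥(kummerField L α)) ^ p
        = algebraMap ↥L ↥(kummerField L α) x := Subtype.ext hα
    refine Fermat.Agent.S56x.Local.BoundedKummerJump.exists_mul_pow_mem_of_jump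
      (A := OE p L) (K := ↥L) (L := ↥(kummerField L α)) (B := OE p (kummerField L α))
      hp hp2 hζ' hperf hdeg hrank he heA hx hα' (ramNum p L).e0_pos ?_
    intro c hc
    have h1 := jump_bound L (kummerField L α) M hbM ht c hc
    -- `(c - 1) (p - 1) ≤ e0`
    have hp1 : (1 : ℝ) < p := by exact_mod_cast hp.one_lt
    have hpos : (0 : ℝ) < (p : ℝ) - 1 := by linarith
    have h2 : ((c : ℝ) - 1) * ((p : ℝ) - 1) ≤ (ramNum p L).e0 := by
      rw [mul_one_div, le_div_iff₀ hpos] at h1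
      exact h1
    have h3 : (((p - 1) * c : ℕ) : ℝ) ≤ (((ramNum p L).e0 + (p - 1) : ℕ) : ℝ) := by
      push_cast [Nat.cast_sub hp.one_lt.le]
      linarith
    exact_mod_cast h3

end Fermat.Agent.S56x.Local.HBPadic
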