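import Mathlib
import Fermat.Agent.S56x.Local.HBPadic
import Fermat.Agent.S56x.Local.CW1Padic

/-!
# P-S56, block (A) (helper12): `CW1Padic.BoundedKummerStatement p`, unconditionally

The literal `Prop` `BoundedKummerStatement p` of helper10's `Local/CW1Padic` (Fontaine's bound ⟹
Kummer generators can be normalised into `U^(e)`), from `HBPadic.exists_normal_form`.
-/

set_option autoImplicit false

namespace Fermat.Agent.S56x.Local.HBPadic

open Fermat.Agent.S56x.Local.PadicFinite Fermat.Agent.S56x.Local.BddDef

/-- **`BoundedKummerStatement p`** (the `HB` input of `CW1Padic.rank_H1A_le_one`). -/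
theorem boundedKummerStatement (p : ℕ) [Fact p.Prime] :
    Fermat.Agent.S56x.Local.CW1Padic.BoundedKummerStatement p := by
  intro K M _ _ hp2 hKM hM ht ζ hζ hζK e m he0 _ hem u hu α hαM hα
  subst he0
  exact exists_normal_form hp2 K M hζ hζK hKM hM ht hem u hu α hα hαM

end Fermat.Agent.S56x.Local.HBPadic
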