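/-
P-S56 block (A), (IND) (helper97): the hypothesis `hinv` of `IndPackage.hInd_of_inputs` for the
fixed subgroup `UnrLevels.lev p 2 = Gal(PadicAlgCl p / ℚ_{p²})`, from the `μ = 1` rank bound
(`HinvUnram.hinv_of_rank_le_one` + squares lie in `lev p 2`), with `𝒜' = bddAlgOn p (lev p 2) k`.
-/
import Mathlib
import Fermat.Agent.S56x.Local.HinvUnram
import Fermat.Agent.S56x.Local.UnrLevels

set_option autoImplicit false

namespace Fermat.Agent.S56x.Local.HinvLev2

open Fermat.Agent.S56x.Local.BddDef Fermat.Agent.S56x.Local.BddAlg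
open Fermat.Agent.S56x.Local.Devissage Fermat.Agent.S56x.Local.UnrLevels

variable {p : ℕ} [Fact p.Prime]

/-- squares lie in the index-two subgroup `Gal(PadicAlgCl p / ℚ_{p²})`. -/
theorem sq_mem_lev_two (g : GQp p) : g ^ 2 ∈ lev p 2 := by
  have h2 : 0 < 2 := by norm_num
  have := finiteDimensional_unrField (q := p) h2
  have := isGalois_unrField (q := p) h2
  have hcard : Nat.card (unrField p 2 ≃ₐ[ℚ_[p]] unrField p 2) = 2 := by
    rw [IsGalois.card_aut_eq_finrank, finrank_unrField h2]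
  have hk : g ^ 2 ∈ (AlgEquiv.restrictNormalHom (F := ℚ_[p]) (K₁ := PadicAlgCl p)
      (unrField p 2)).ker := by
    rw [MonoidHom.mem_ker, map_pow]
    have h := pow_card_eq_one' (G := unrField p 2 ≃ₐ[ℚ_[p]] unrField p 2)
      (x := AlgEquiv.restrictNormalHom (F := ℚ_[p]) (K₁ := PadicAlgCl p) (unrField p 2) g)
    rwa [hcard] at h
  rw [IntermediateField.restrictNormalHom_ker] at hk
  exact hk

/-- **`hinv` for `Γ' = lev p 2`** in the literal shape of `IndPackage.hInd_of_inputs`. -/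
theorem hinv_lev_two {k : Type*} [Field k] [Algebra (ZMod p) k] (hp2 : p ≠ 2)
    (hrank : Module.rank k
      (H1A (bddAlgOn p (lev p 2) k) (1 : ↥(lev p 2) →* kˣ)) ≤ 1) :
    ∀ a ∈ Z1A (bddAlgOn p (lev p 2) k) (1 : ↥(lev p 2) →* kˣ), ∀ (φ : GQp p) (g : ↥(lev p 2))
      (hg : φ * (g : GQp p) * φ⁻¹ ∈ lev p 2), a ⟨φ * (g : GQp p) * φ⁻¹, hg⟩ = a g :=
  HinvUnram.hinv_of_rank_le_one hp2 (lev p 2) sq_mem_lev_two hrank

end Fermat.Agent.S56x.Local.HinvLev2
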