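/-
P-S56, block (A), case (IND) (helper7): a generator of the tame inertia of `K_f(π)`,
`π ^ (p^f - 1) = -p`, moves `ζ_p`.

If `g π = c * π` with `c ^ ((p^f-1)/(p-1)) ≠ 1` (e.g. the residue class of `c` has order `p^f - 1`
and `p ≠ 2`), then `g ζ ≠ ζ` for every primitive `p`-th root of unity `ζ`, i.e.
`KummerPairing.omega hζ g ≠ 1`.  This is the side condition `hside : ω g₀ ≠ 1` of
`CWLocalQp2.rank_H1A_one_le_one_Qp2` (the count for the trivial character over `ℚ_{p²}`, which feeds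
`hinv` of the induced case).
-/
import Mathlib
import Fermat.Agent.S56x.Local.PadicRoots
import Fermat.Agent.S56x.Local.CWPadicOps
import Fermat.Agent.S56x.Local.KummerPairing

set_option autoImplicit false
set_option linter.unusedSectionVars false
set_option linter.style.haveILetI false

open IsLocalRing

namespace Fermat.Agent.S56x.Local.InertZeta

open Fermat.Agent.S56x.Local.PadicRoots Fermat.Agent.S56x.Local.PadicFinite
  Fermat.Agent.S56x.Local.CWPadicOps Fermat.Agent.S56x.Local.BddDef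

variable {p : ℕ} [Fact p.Prime]

local notation "Ω" => PadicAlgCl p
local notation "Gp" => (PadicAlgCl p ≃ₐ[ℚ_[p]] PadicAlgCl p)

/-- `p - 1 ∣ p ^ f - 1`. -/
theorem pred_dvd_pow_pred (f : ℕ) : p - 1 ∣ p ^ f - 1 := by
  simpa only [one_pow] using Nat.sub_dvd_pow_sub_pow p 1 f

/-- **an automorphism multiplying `π` (`π ^ (p^f-1) = -p`) by `c` with `c ^ ((p^f-1)/(p-1)) ≠ 1`
moves `ζ_p`.** -/
theorem apply_zeta_ne_of_mul {f : ℕ} {ξ π c : Ω} (h : ξ ^ p = 1) (h1 : ξ ≠ 1)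
    (hπ : π ^ (p ^ f - 1) = -((p : ℕ) : Ω)) (g : Gp) (hc : g π = c * π)
    (hcm : c ^ ((p ^ f - 1) / (p - 1)) ≠ 1) : g ξ ≠ ξ := by
  set m := (p ^ f - 1) / (p - 1) with hm
  have hmul : m * (p - 1) = p ^ f - 1 := Nat.div_mul_cancel (pred_dvd_pow_pred f)
  have hπ₁ : (π ^ m) ^ (p - 1) = -((p : ℕ) : Ω) := by rw [← pow_mul, hmul, hπ]
  have hπ0 : π ^ m ≠ 0 := ne_zero_of_pow_eq_neg_p hπ₁
  intro hg
  have h2 := apply_pi_eq_of_apply_zeta_eq g h h1 hπ₁ hg
  rw [map_pow, hc, mul_pow] at h2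
  have h3 : c ^ m = 1 := by
    have : c ^ m * π ^ m = 1 * π ^ m := by rw [h2, one_mul]
    exact mul_right_cancel₀ hπ0 this
  exact hcm h3

/-- powers below the order of the residue class are not `1`. -/
theorem pow_ne_one_of_orderOf_residue {B : Type*} [CommRing B] [IsLocalRing B] {c : B} {N m : ℕ}
    (hord : orderOf (residue B c) = N) (hm0 : 0 < m) (hmN : m < N) : c ^ m ≠ 1 := by
  intro h
  have h1 : (residue B c) ^ m = 1 := by rw [← map_pow, h, map_one]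
  have h2 : N ∣ m := hord ▸ orderOf_dvd_of_pow_eq_one h1
  exact absurd (Nat.le_of_dvd hm0 h2) (not_le.mpr hmN)

/-- `0 < (p^f-1)/(p-1) < p^f - 1` for `p` odd, `f > 0`. -/
theorem div_pos_and_lt {f : ℕ} (hf : 0 < f) (hp2 : p ≠ 2) :
    0 < (p ^ f - 1) / (p - 1) ∧ (p ^ f - 1) / (p - 1) < p ^ f - 1 := by
  have hp : p.Prime := Fact.out
  have h3 : 3 ≤ p := by
    have := hp.two_le
    omega
  have hle : p ≤ p ^ f := by
    calc p = p ^ 1 := (pow_one p).symm
      _ ≤ p ^ f := Nat.pow_le_pow_right hp.pos hf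
  constructor
  · exact Nat.div_pos (by omega) (by omega)
  · exact Nat.div_lt_self (by omega) (by omega)

variable (L : IntermediateField ℚ_[p] (PadicAlgCl p)) [FiniteDimensional ℚ_[p] L]
  [Normal ℚ_[p] L]

/-- **the inert generator moves `ζ_p`**, in the operator form of `CWPadicOps.sigmaOE`:
`ϖ ∈ O_L` with `ϖ ^ (p^f-1) = -p`, `σ g₀ ϖ = c ϖ`, the residue class of `c` of order `p^f - 1`. -/
theorem apply_zeta_ne_of_orderOf {f : ℕ} (hf : 0 < f) (hp2 : p ≠ 2) {ξ : Ω} (h : ξ ^ p = 1)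
    (h1 : ξ ≠ 1) {ϖ c : OE p L} (hϖ : ϖ ^ (p ^ f - 1) = -((p : ℕ) : OE p L)) (g₀ : GQp p)
    (hc : sigmaOE L g₀ ϖ = c * ϖ) (hord : orderOf (residue (OE p L) c) = p ^ f - 1) :
    g₀ ξ ≠ ξ := by
  obtain ⟨hm0, hmN⟩ := div_pos_and_lt (p := p) hf hp2
  have hcm := pow_ne_one_of_orderOf_residue hord hm0 hmN
  -- transport to `Ω`
  let ι : OE p L →+* Ω := (algebraMap L Ω).comp (algebraMap (OE p L) L)
  have hι : Function.Injective ι :=
    (algebraMap L Ω).injective.comp (IsFractionRing.injective (OE p L) L)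
  have hπ : (ι ϖ) ^ (p ^ f - 1) = -((p : ℕ) : Ω) := by
    rw [← map_pow, hϖ, map_neg, map_natCast]
  have hcΩ : g₀ (ι ϖ) = ι c * ι ϖ := by
    have := coe_sigmaOE L g₀ ϖ
    rw [hc] at this
    rw [← map_mul]
    exact this.symm
  refine apply_zeta_ne_of_mul h h1 hπ g₀ hcΩ ?_
  intro h3
  apply hcm
  apply hι
  rw [map_pow, h3, map_one]

/-! ### The cyclotomic exponent -/

section Omega

variable {F Ω' : Type*} [Field F] [Field Ω'] [Algebra F Ω'] {q : ℕ} [Fact q.Prime]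

/-- an automorphism moving `ζ_p` has cyclotomic exponent `≠ 1`. -/
theorem omega_ne_one_of_apply_ne {ζ : Ω'} (hζ : IsPrimitiveRoot ζ q) (g : Ω' ≃ₐ[F] Ω')
    (hg : g ζ ≠ ζ) : KummerPairing.omega hζ g ≠ 1 := by
  intro h
  apply hg
  haveI : Fact (1 < q) := ⟨(Fact.out : q.Prime).one_lt⟩
  rw [KummerPairing.omega_spec hζ g, h, ZMod.val_one, pow_one]

end Omega

/-- **`hside` of `CWLocalQp2.rank_H1A_one_le_one_Qp2`**: the inert generator has cyclotomic
exponent `≠ 1`. -/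
theorem omega_ne_one_of_orderOf {f : ℕ} (hf : 0 < f) (hp2 : p ≠ 2) {ζ : Ω}
    (hζ : IsPrimitiveRoot ζ p) {ϖ c : OE p L} (hϖ : ϖ ^ (p ^ f - 1) = -((p : ℕ) : OE p L))
    (g₀ : GQp p) (hc : sigmaOE L g₀ ϖ = c * ϖ)
    (hord : orderOf (residue (OE p L) c) = p ^ f - 1) :
    KummerPairing.omega hζ g₀ ≠ 1 :=
  omega_ne_one_of_apply_ne hζ g₀
    (apply_zeta_ne_of_orderOf L hf hp2 hζ.pow_eq_one
      (hζ.ne_one (Fact.out : p.Prime).one_lt) hϖ g₀ hc hord)

end Fermat.Agent.S56x.Local.InertZeta
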