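/-
P-S56, block (A), (IND) count (helper19; Q3 backup of `IndCountFinal`): the literal
`IndFinal.LevelCountStatement p k`, UNCONDITIONAL.

`CWAssemblyQp2.rank_H1A_le_one_sub_of_exists` / `rank_H1A_one_le_one_sub` (helper2) instantiated at
`Ω/F = PadicAlgCl p/ℚ_p`, `Γ' = UnrLevels.lev p 2`, `L = E` (the tame level), `B = OE p E`, with
* the arithmetic data of `CWPadicDataQp2.exists_cw_data` / `residue_fix` (helper19),
* `HB` from `HBOfBoundedSub.hB_sub` (helper97) + `BoundedKummerStmtB.boundedKummerStatement` (helper45),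
* `hidx` from `TameFieldDegree.not_dvd_finrank_of_exp_two` (helper7),
* `ω g₀ ≠ 1` from `InertZeta.omega_ne_one_of_orderOf` (helper7).
-/
import Fermat.Agent.S56x.Local.CountQp2OfLevel
import Fermat.Agent.S56x.Local.CWAssemblyQp2
import Fermat.Agent.S56x.Local.CWPadicDataQp2
import Fermat.Agent.S56x.Local.HBOfBoundedSub
import Fermat.Agent.S56x.Local.BoundedKummerStmtB
import Fermat.Agent.S56x.Local.InertZeta
import Fermat.Agent.S56x.Local.TameFieldDegree

set_option autoImplicit false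
set_option linter.unusedSectionVars false
set_option linter.style.haveILetI false

open IsLocalRing

namespace Fermat.Agent.S56x.Local.IndCountFinalC

open Fermat.Agent.S56x.Local.Devissage Fermat.Agent.S56x.Local.PadicFinite
  Fermat.Agent.S56x.Local.BddAlg Fermat.Agent.S56x.Local.BddDef
  Fermat.Agent.S56x.Local.CWPadicOps Fermat.Agent.S56x.Local.KummerPairing
  Fermat.Agent.S56x.Local.KummerPairingSub Fermat.Agent.S56x.Local.CWAbstract
  Fermat.Agent.S56x.Local.UnrLevels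

variable (p : ℕ) [Fact p.Prime]

local notation "Ω" => PadicAlgCl p
local notation "Gq" => (PadicAlgCl p ≃ₐ[ℚ_[p]] PadicAlgCl p)

/-- the two descriptions of the mod `p` cyclotomic character agree in `k`. -/
theorem omegaK_eq {k : Type} [Field k] [CharP k p] {ζ : Ω} (hζ : IsPrimitiveRoot ζ p) (t : Gq) :
    IndFinal.omegaK p k t = (((omega hζ t).val : ℕ) : k) := by
  have hp : p.Prime := Fact.out
  haveI : NeZero p := ⟨hp.ne_zero⟩
  unfold IndFinal.omegaK
  rw [CharP.natCast_eq_natCast k p]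
  have h1 := TameDataLocal.apply_rootOfUnity p p t hζ.pow_eq_one
  rw [ExtCitation.val_cycloChar] at h1
  have h2 := omega_spec hζ t
  have h3 : ζ ^ (ExtCitation.cycloExp p (localGaloisToGlobal p t) % p) =
      ζ ^ (omega hζ t).val := by
    rw [← h2, h1]
    conv_rhs => rw [← pow_mod_orderOf, ← hζ.eq_orderOf]
  have h4 := hζ.pow_inj (Nat.mod_lt _ hp.pos) (ZMod.val_lt _) h3
  rw [← h4]
  exact (Nat.mod_modEq _ _).symm

variable {k : Type} [Field k]

/-- **The count over `ℚ_{p²}` at a tame level** (`IndFinal.LevelCountStatement`), unconditional. -/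
theorem levelCountStatement : IndFinal.LevelCountStatement p k := by
  intro _ _ hp2 E _ _ hElev hEK ζ π hζ hπ hζE hπE hab hexp μ hμ hμE hside
  have hp : p.Prime := Fact.out
  have hp3 : 3 ≤ p := by
    have := hp.two_le
    omega
  haveI : Normal ℚ_[p] E := IsGalois.to_normal
  obtain ⟨n, hn, hpow⟩ := hexp
  -- the arithmetic data
  obtain ⟨ϖ, g₀, N₀, hϖπ, hirr, hpe, hN, hg₀lev, hg₀, hord, hgen⟩ :=
    CWPadicDataQp2.exists_cw_data E two_pos hEK hab hn hpow hπE hπ
  have hϖpow : ϖ ^ (p ^ 2 - 1) = -((p : ℕ) : OE p E) := by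
    rw [hpe, Units.val_neg, Units.val_one]
    ring
  have hϖa : ϖ ^ (p ^ 2 - 1) = algebraMap ℤ_[p] (OE p E) (-((p : ℕ) : ℤ_[p])) := by
    rw [hϖpow, map_neg, map_natCast]
  choose c hc hcpow using fun g : GQp p => exists_sigmaOE_eq_mul E hirr.ne_zero hϖa g
  have hroot : ∀ x : ↥E, ∃ α : PadicAlgCl p, α ^ p = (x : PadicAlgCl p) := fun x =>
    IsAlgClosed.exists_pow_nat_eq _ hp.pos
  have hidx : ¬ p ∣ Module.finrank ℚ_[p] E :=
    TameFieldDegree.not_dvd_finrank_of_exp_two E hp2 ⟨n, hn, hpow⟩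
  -- `e0` and tameness
  have he0 : (ramNum p E).e0 = p ^ 2 - 1 :=
    (CWPadicDataQp2.e0_eq_and_addVal_eq_one two_pos hEK hab
      (CWPadicDataQp2.residue_fix E two_pos hEK) hn hpow hϖpow).1
  have hsq : p ^ 2 = p * p := sq p
  have hpp : 3 * p ≤ p * p := Nat.mul_le_mul_right p hp3
  have hcop : Nat.Coprime (ramNum p E).e0 p := by
    rw [he0, Nat.coprime_comm, hp.coprime_iff_not_dvd]
    intro hdvd
    have h1 : p ∣ p ^ 2 := dvd_pow_self p two_ne_zero
    have h2 : p ∣ p ^ 2 - (p ^ 2 - 1) := Nat.dvd_sub h1 hdvd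
    have h3 : p ^ 2 - (p ^ 2 - 1) = 1 := by omega
    rw [h3] at h2
    exact hp.one_lt.ne' (Nat.dvd_one.mp h2)
  have htame : (ramNum p E).IsTame := PadicE0.isTame_of_coprime E hcop
  have hem : p ^ 2 - 1 = (p - 1) * (p + 1) := by
    obtain ⟨q, rfl⟩ : ∃ q, p = q + 1 := ⟨p - 1, by omega⟩
    rw [Nat.add_sub_cancel]
    have : (q + 1) ^ 2 = q * (q + 1 + 1) + 1 := by ring
    omega
  have he1 : 1 ≤ p ^ 2 - 1 := by omega
  -- the hypotheses on `μ`
  have hχ : ∀ s ∈ GLsub (L := E) (lev p 2), μ s = 1 := fun s hs =>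
    hμE s (Subgroup.mem_subgroupOf.mp hs)
  have hcont : ∀ f ∈ bddAlgOn p (lev p 2) k, ∃ E' : IntermediateField ℚ_[p] (PadicAlgCl p),
      FiniteDimensional ℚ_[p] E' ∧
      ∀ (g t : ↥(lev p 2)), (t : GQp p) ∈ E'.fixingSubgroup → f (g * t) = f g := by
    intro f hf
    obtain ⟨E', hE', h⟩ := isBddFunOn_of_mem hf
    exact ⟨E', hE'.1, h⟩
  have hBK := BoundedKummerStmtB.boundedKummerStatement p
  have hfix2 : ∀ b : ResidueField (OE p E),
      (∀ g : ↥(lev p 2), ResidueField.map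
        ((sigmaOE E (g : GQp p) : OE p E ≃+* OE p E) : OE p E →+* OE p E) b = b) →
        b ^ (p * p) = b := by
    intro b hb
    have := CWPadicDataQp2.residue_fix E two_pos hEK b (fun g hg => hb ⟨g, hg⟩)
    rwa [sq] at this
  have ht : orderOf (residue (OE p E) (c g₀)) = p ^ 2 - 1 := hord _ (hc g₀)
  rcases hside with rfl | ⟨t, ht', ht1, ht2⟩
  · -- `μ = 1`
    have hside1 : omega hζ g₀ ≠ 1 :=
      InertZeta.omega_ne_one_of_orderOf E two_pos hp2 hζ hϖpow g₀ (hc g₀) ht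
    exact CWAssemblyQp2.rank_H1A_one_le_one_sub (lev p 2) hζ hζE hroot (OE p E) (sigmaOE E)
      (coe_sigmaOE E) hirr hpe hN hc hp3 hidx hElev (bddAlgOn p (lev p 2) k) hcont
      (HBOfBoundedSub.hB_sub E hBK hp2 htame he0 hem he1 hζ hζE (lev p 2) hElev 1)
      (g₀ := ⟨g₀, hg₀lev⟩) hg₀ ht hside1
  · -- `μ t ∉ {1, ω t}` at an inert `t`
    have hinert := CWPadicDataQp2.inert_of_mem_inertiaE E E le_rfl ht'
    obtain ⟨i, hi⟩ := hgen (t : GQp p) hinert
    refine CWAssemblyQp2.rank_H1A_le_one_sub_of_exists (lev p 2) hζ hζE hroot (OE p E)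
      (sigmaOE E) (coe_sigmaOE E) hirr hpe hN hc hp3 hidx hElev (bddAlgOn p (lev p 2) k) μ hχ
      hcont (HBOfBoundedSub.hB_sub E hBK hp2 htame he0 hem he1 hζ hζE (lev p 2) hElev μ)
      (g₀ := ⟨g₀, hg₀lev⟩) hg₀ ht hfix2 (t := t)
      ⟨i, (⟨g₀, hg₀lev⟩ ^ i)⁻¹ * t, ?_, ?_⟩ ht1 ?_
    · exact Subgroup.mem_subgroupOf.mpr (by simpa using hi)
    · group
    · rwa [← omegaK_eq p hζ (t : GQp p)]

/-- **The count over `ℚ_{p²}`** (`IndFinal.CountQp2Statement`), unconditional. -/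
theorem countQp2Statement : IndFinal.CountQp2Statement p k :=
  IndFinal.countQp2Statement_of_levelCount p (levelCountStatement p)

end Fermat.Agent.S56x.Local.IndCountFinalC
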