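/-
P-S56, block (A), case (IND): the hypothesis `hinv` of
`FlatBridge.finrank_classSpan_le_of_induced` / `finrank_classSpan_le_of_tame` /
`rank_flatSpan_le_four_of_tame` (helper7).

`hinv` says that every admissible additive character `a : Γ' → k` of the index-two subgroup
`Γ' = G_{ℚ_{p²}}` is invariant under conjugation by elements of the big group `G = G_{ℚ_p}`.

* Part 1 (abstract, (iii)): if `Module.rank k (H1A 𝒜' 1) ≤ 1` and there is an additive character
  `A₀ : G → k` of the WHOLE group whose restriction to `Γ'` is admissible and nonzero, then every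
  admissible additive character of `Γ'` is a multiple of `A₀|Γ'`, hence conjugation invariant.
* Part 2 (concrete, (ii)): on `Gq = Gal(PadicAlgCl p / ℚ_p)` the unramified additive character
  `unrAdd p k : Gq → k`, `g ↦ (n : k)` for `g ∈ frob ^ n * lev p p` (the unramified `ℤ/p`-extension
  of `ℚ_p`; helper42's `UnrLevels`): additive, `unrAdd (frob ^ j) = j`, right invariant under
  `lev p p = (unrField p p).fixingSubgroup`.
* Part 3: the two parts combined.
-/
import Mathlib
import Fermat.Agent.S56x.Local.DevissageBasic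
import Fermat.Agent.S56x.Local.UnrLevels

set_option autoImplicit false
set_option linter.unusedSectionVars false
set_option linter.style.haveILetI false

namespace Fermat.Agent.S56x.Local.IndInv

open Fermat.Agent.S56x.Local.Devissage Fermat.Agent.S56x.Local.UnrLevels

/-! ### Part 1: rank `≤ 1` and one invariant character give `hinv` -/

section Abstract

variable {G : Type*} [Group G] {k : Type*} [Field k]

/-- an additive function on a group is invariant under conjugation. -/
theorem apply_conj_of_additive {A₀ : G → k} (hadd : ∀ g h, A₀ (g * h) = A₀ g + A₀ h) (s g : G) :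
    A₀ (s * g * s⁻¹) = A₀ g := by
  have h1 : A₀ (1 : G) = 0 := by
    have := hadd 1 1
    rw [mul_one] at this
    exact left_eq_add.mp this
  have h2 : A₀ s + A₀ s⁻¹ = 0 := by rw [← hadd, mul_inv_cancel, h1]
  rw [hadd, hadd]
  linear_combination h2

/-- **(iii)**: if the admissible `H¹(Γ', k)` has rank `≤ 1` and some additive character of the
whole group restricts to a nonzero admissible character of `Γ'`, then every admissible additive
character of `Γ'` is invariant under conjugation by every element of `G`. -/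
theorem conj_invariant_of_rank_le_one {Γ' : Subgroup G} (𝒜' : Subalgebra k (Γ' → k))
    (hrank : Module.rank k (H1A 𝒜' (1 : Γ' →* kˣ)) ≤ 1)
    (A₀ : G → k) (hadd : ∀ g h, A₀ (g * h) = A₀ g + A₀ h)
    (hmem : (fun g : Γ' => A₀ (g : G)) ∈ 𝒜') {g₀ : G} (hg₀ : g₀ ∈ Γ') (hne : A₀ g₀ ≠ 0) :
    ∀ a ∈ Z1A 𝒜' (1 : Γ' →* kˣ), ∀ (s : G) (g : Γ') (hg : s * (g : G) * s⁻¹ ∈ Γ'),
      a ⟨s * (g : G) * s⁻¹, hg⟩ = a g := by
  intro a ha s g hg
  set b : Γ' → k := fun g => A₀ (g : G) with hb
  have hbZ : b ∈ Z1A 𝒜' (1 : Γ' →* kˣ) := by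
    refine (mem_Z1A 𝒜').2 ⟨mem_Z1_one.2 fun x y => ?_, hmem⟩
    show A₀ ((x * y : Γ') : G) = A₀ x + A₀ y
    rw [Subgroup.coe_mul, hadd]
  have hbn : b ∉ B1 (1 : Γ' →* kˣ) := by
    rw [B1_one, Submodule.mem_bot]
    intro h0
    exact hne (congrFun h0 ⟨g₀, hg₀⟩)
  obtain ⟨l, m, hlm⟩ := exists_eq_smul_add_cob 𝒜' hrank hbZ hbn ha
  rw [cob_one, add_zero] at hlm
  rw [hlm]
  show l • A₀ (s * (g : G) * s⁻¹) = l • A₀ (g : G)
  rw [apply_conj_of_additive hadd]

end Abstract

/-! ### Part 2: the unramified additive character of `Gal(PadicAlgCl p / ℚ_p)` -/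

section Unramified

variable (p : ℕ) [Fact p.Prime] (k : Type*) [Field k] [CharP k p]

local notation "Gq" => (PadicAlgCl p ≃ₐ[ℚ_[p]] PadicAlgCl p)

theorem prime_pos : 0 < p := (Fact.out : p.Prime).pos

/-- the exponent `n` with `g ∈ frob ^ n * lev p p`. -/
noncomputable def unrExp (g : Gq) : ℕ := (exists_frob_pow (q := p) (m := p) (prime_pos p) g).choose

theorem unrExp_spec (g : Gq) : (frob p ^ unrExp p g)⁻¹ * g ∈ lev p p :=
  (exists_frob_pow (q := p) (m := p) (prime_pos p) g).choose_spec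

/-- two exponents for the same element agree modulo `p`. -/
theorem modEq_of_mem {a b : ℕ} {g : Gq} (ha : (frob p ^ a)⁻¹ * g ∈ lev p p)
    (hb : (frob p ^ b)⁻¹ * g ∈ lev p p) : a ≡ b [MOD p] := by
  wlog hab : a ≤ b generalizing a b
  · exact (this hb ha (le_of_not_ge hab)).symm
  have h1 : frob p ^ (b - a) ∈ lev p p := by
    have h2 := (lev p p).mul_mem ha ((lev p p).inv_mem hb)
    have h3 : (frob p ^ a)⁻¹ * g * ((frob p ^ b)⁻¹ * g)⁻¹ = frob p ^ (b - a) := by
      rw [mul_inv_rev, inv_inv, mul_assoc, mul_inv_cancel_left, pow_sub _ hab]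
      rw [(Commute.pow_pow_self (frob p) b a).inv_right.eq]
    rwa [h3] at h2
  have h4 : p ∣ b - a := (frob_pow_mem_lev_iff (prime_pos p) _).1 h1
  exact (Nat.modEq_iff_dvd' hab).2 h4

/-- **the unramified additive character** with values in a field of characteristic `p`. -/
noncomputable def unrAdd (g : Gq) : k := (unrExp p g : k)

theorem unrAdd_eq_of_mem {n : ℕ} {g : Gq} (h : (frob p ^ n)⁻¹ * g ∈ lev p p) :
    unrAdd p k g = (n : k) :=
  (CharP.natCast_eq_natCast k p).2 (modEq_of_mem p (unrExp_spec p g) h)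

theorem unrAdd_mul (g h : Gq) : unrAdd p k (g * h) = unrAdd p k g + unrAdd p k h := by
  haveI : (lev p p).Normal := lev_normal (prime_pos p)
  show unrAdd p k (g * h) = (unrExp p g : k) + (unrExp p h : k)
  rw [← Nat.cast_add]
  refine unrAdd_eq_of_mem p k ?_
  have hg := unrExp_spec p g
  have hh := unrExp_spec p h
  set a := unrExp p g
  set b := unrExp p h
  have h1 : (frob p ^ (a + b))⁻¹ * (g * h) =
      (frob p ^ b)⁻¹ * ((frob p ^ a)⁻¹ * g) * (frob p ^ b)⁻¹⁻¹ * ((frob p ^ b)⁻¹ * h) := by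
    rw [pow_add, mul_inv_rev]
    group
  rw [h1]
  exact (lev p p).mul_mem (‹(lev p p).Normal›.conj_mem _ hg _) hh

theorem unrAdd_frob_pow (j : ℕ) : unrAdd p k (frob p ^ j) = (j : k) :=
  unrAdd_eq_of_mem p k (by rw [inv_mul_cancel]; exact (lev p p).one_mem)

theorem unrAdd_of_mem_lev {s : Gq} (hs : s ∈ lev p p) : unrAdd p k s = 0 := by
  have := unrAdd_eq_of_mem p k (n := 0) (g := s) (by rwa [pow_zero, inv_one, one_mul])
  rwa [Nat.cast_zero] at this

/-- `unrAdd` is right invariant under `lev p p = (unrField p p).fixingSubgroup`. -/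
theorem unrAdd_mul_of_mem_lev (g : Gq) {s : Gq} (hs : s ∈ lev p p) :
    unrAdd p k (g * s) = unrAdd p k g := by
  rw [unrAdd_mul, unrAdd_of_mem_lev p k hs, add_zero]

theorem unrAdd_mul_of_mem_fixingSubgroup (g : Gq) {s : Gq}
    (hs : s ∈ (unrField p p).fixingSubgroup) : unrAdd p k (g * s) = unrAdd p k g :=
  unrAdd_mul_of_mem_lev p k g hs

/-- `unrAdd (frob ^ 2) = 2 ≠ 0` for odd `p`. -/
theorem unrAdd_frob_sq_ne_zero (h2 : (2 : k) ≠ 0) : unrAdd p k (frob p ^ 2) ≠ 0 := by
  rw [unrAdd_frob_pow]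
  exact_mod_cast h2

end Unramified

/-! ### Part 3: `hinv` for subgroups of `Gal(PadicAlgCl p / ℚ_p)` -/

section Main

variable (p : ℕ) [Fact p.Prime] {k : Type*} [Field k] [CharP k p]

local notation "Gq" => (PadicAlgCl p ≃ₐ[ℚ_[p]] PadicAlgCl p)

/-- **`hinv`**: let `Γ' ≤ Gal(PadicAlgCl p/ℚ_p)` contain `frob ^ 2` (e.g. any subgroup of index
two), `p` odd, and let `𝒜'` be an algebra of functions on `Γ'` containing the restriction of the
unramified additive character. If the admissible `H¹(Γ', k)` has rank `≤ 1`, every admissible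
additive character of `Γ'` is invariant under conjugation by all of `Gal(PadicAlgCl p/ℚ_p)`. -/
theorem hinv_of_rank_le_one (h2 : (2 : k) ≠ 0) {Γ' : Subgroup Gq} (hΓ' : frob p ^ 2 ∈ Γ')
    (𝒜' : Subalgebra k (Γ' → k))
    (hmem : (fun g : Γ' => unrAdd p k (g : Gq)) ∈ 𝒜')
    (hrank : Module.rank k (H1A 𝒜' (1 : Γ' →* kˣ)) ≤ 1) :
    ∀ a ∈ Z1A 𝒜' (1 : Γ' →* kˣ), ∀ (s : Gq) (g : Γ') (hg : s * (g : Gq) * s⁻¹ ∈ Γ'),
      a ⟨s * (g : Gq) * s⁻¹, hg⟩ = a g :=
  conj_invariant_of_rank_le_one 𝒜' hrank (unrAdd p k) (unrAdd_mul p k) hmem hΓ'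
    (unrAdd_frob_sq_ne_zero p k h2)

/-- every square lies in a subgroup of index two. -/
theorem sq_mem_of_index_two {G : Type*} [Group G] {Γ' : Subgroup G} (h : Γ'.index = 2) (g : G) :
    g ^ 2 ∈ Γ' := by
  rw [sq]
  exact (Subgroup.mul_self_mem_of_index_two h g)

end Main

end Fermat.Agent.S56x.Local.IndInv
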