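import Fermat.Agent.Lib.CFT.Profinite.BridgePlaces

/-!
# P-S56 (B) local bridge: the local Galois group maps ONTO the decomposition group

`ι = padicEmbedding q : Qbar → Ωq = PadicAlgCl q`, `φ = localGaloisToGlobal q : G_q → Γℚ`,
`A = padicPlace q` the place of `Qbar` above `q` cut out by `ι`.

* `norm_padicEmbedding_apply_le`: an element `σ` of the decomposition group of `A` almost
  preserves the `q`-adic norm: `‖ι (σ y)‖ ≤ q * ‖ι y‖`.
* `exists_local_eq_on`: finite-level density (`(D)`): for `σ` in the decomposition group and `F`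
  finite over `ℚ` there is `h ∈ G_q` with `h (ι x) = ι (σ x)` on `F`.
* `exists_local_eq`: EXACT surjectivity, by compactness of `G_q`.
* `decompositionSubgroup_eq_range`, `inertiaSubgroupIn_le_range`, `inertiaSubgroupIn_eq_map_comap`
  and the `Nat.Primes` forms for `primeLocalPlace` / `primeLocalToGlobal`.
-/

set_option autoImplicit false

open scoped TensorProduct NNReal Pointwise
open Fermat.Agent.Lib.CFT.Profinite.Bridge

namespace Fermat.Agent.S56x.Local.InertiaRel

local notation "Qbar" => AlgebraicClosure ℚ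
local notation "Γℚ" => (AlgebraicClosure ℚ ≃ₐ[ℚ] AlgebraicClosure ℚ)

variable (q : ℕ) [Fact q.Prime]

local notation "Ωq" => PadicAlgCl q
local notation "Gq" => (PadicAlgCl q ≃ₐ[ℚ_[q]] PadicAlgCl q)

local instance instTowerQqPadic_ir : IsScalarTower ℚ ℚ_[q] (PadicAlgCl q) :=
  IsScalarTower.of_algebraMap_eq' (Subsingleton.elim _ _)

/-! ### Norms -/

theorem apply_mem_padicPlace_iff {σ : Γℚ} (hσ : σ ∈ (padicPlace q).decompositionSubgroup ℚ)
    (x : Qbar) : σ x ∈ padicPlace q ↔ x ∈ padicPlace q := by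
  have h : σ • padicPlace q = padicPlace q := hσ
  conv_lhs => rw [← h]
  rw [mem_smul_iff]
  simp

theorem norm_natCast_padicAlgCl : ‖(q : Ωq)‖ = (q : ℝ)⁻¹ := by
  have h := PadicAlgCl.valuation_p q
  have h2 : ((Valued.v (q : Ωq) : ℝ≥0) : ℝ) = ‖(q : Ωq)‖ := PadicAlgCl.valuation_coe q _
  rw [← h2, h]
  simp

theorem padicEmbedding_mul_zpow (y : Qbar) (m : ℤ) :
    padicEmbedding q (y * (q : Qbar) ^ m) = padicEmbedding q y * (q : Ωq) ^ m := by
  rw [map_mul, map_zpow₀, map_natCast]

theorem mem_padicPlace_iff_norm {x : Qbar} : x ∈ padicPlace q ↔ ‖padicEmbedding q x‖ ≤ 1 := by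
  rw [mem_padicPlace_iff, ← NNReal.coe_le_coe]
  rfl

/-- An element of the decomposition group of `padicPlace q` almost preserves the norm. -/
theorem norm_padicEmbedding_apply_le {σ : Γℚ}
    (hσ : σ ∈ (padicPlace q).decompositionSubgroup ℚ) (y : Qbar) :
    ‖padicEmbedding q (σ y)‖ ≤ q * ‖padicEmbedding q y‖ := by
  by_cases hy : y = 0
  · subst hy; simp
  have hq1 : (1 : ℝ) < q := by exact_mod_cast (Fact.out : q.Prime).one_lt
  have hq0 : (0 : ℝ) < q := lt_trans zero_lt_one hq1
  have hv : 0 < ‖padicEmbedding q y‖ := norm_pos_iff.mpr ((map_ne_zero _).mpr hy)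
  obtain ⟨n, hn1, hn2⟩ := exists_mem_Ioc_zpow hv hq1
  have key : ∀ w : Qbar, ‖padicEmbedding q (w * (q : Qbar) ^ (n + 1))‖ =
      ‖padicEmbedding q w‖ / (q : ℝ) ^ (n + 1) := by
    intro w
    rw [padicEmbedding_mul_zpow, norm_mul, norm_zpow, norm_natCast_padicAlgCl, inv_zpow,
      div_eq_mul_inv]
  have hz : y * (q : Qbar) ^ (n + 1) ∈ padicPlace q := by
    rw [mem_padicPlace_iff_norm, key, div_le_one (zpow_pos hq0 _)]
    exact hn2
  have hσz : σ (y * (q : Qbar) ^ (n + 1)) ∈ padicPlace q :=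
    (apply_mem_padicPlace_iff q hσ _).mpr hz
  have hσz' : σ (y * (q : Qbar) ^ (n + 1)) = σ y * (q : Qbar) ^ (n + 1) := by
    rw [map_mul, map_zpow₀, map_natCast]
  rw [hσz', mem_padicPlace_iff_norm, key, div_le_one (zpow_pos hq0 _)] at hσz
  calc ‖padicEmbedding q (σ y)‖ ≤ (q : ℝ) ^ (n + 1) := hσz
    _ = q * (q : ℝ) ^ n := by rw [zpow_add_one₀ hq0.ne', mul_comm]
    _ ≤ q * ‖padicEmbedding q y‖ := by
        exact mul_le_mul_of_nonneg_left hn1.le hq0.le

/-! ### Finite level: the kernels of `locHom 1` and `locHom σ` coincide -/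

section Finite

variable (F : IntermediateField ℚ Qbar) [FiniteDimensional ℚ F]

/-- The linear form `a ↦ ∑ aᵢ • ι (g bᵢ)` computing `locHom g` in a basis. -/
noncomputable def evalSum {n : ℕ} (b : Module.Basis (Fin n) ℚ F) (g : Γℚ) (a : Fin n → ℚ_[q]) : Ωq :=
  ∑ i, a i • padicEmbedding q (g (b i : Qbar))

omit [FiniteDimensional ℚ F] in
theorem continuous_evalSum {n : ℕ} (b : Module.Basis (Fin n) ℚ F) (g : Γℚ) :
    Continuous (evalSum q F b g) := by
  unfold evalSum
  exact continuous_finsetSum _ fun i _ => (continuous_apply i).smul continuous_const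

omit [FiniteDimensional ℚ F] in
theorem locHom_eq_evalSum {n : ℕ} (b : Module.Basis (Fin n) ℚ F) (g : Γℚ) (e : ℚ_[q] ⊗[ℚ] F) :
    locHom q F g e = evalSum q F b g ((Algebra.TensorProduct.basis ℚ_[q] b).repr e) := by
  set B := Algebra.TensorProduct.basis ℚ_[q] b with hB
  conv_lhs => rw [← B.sum_repr e]
  unfold evalSum
  rw [map_sum]
  refine Finset.sum_congr rfl fun i _ => ?_
  rw [map_smul, hB, Algebra.TensorProduct.basis_apply, locHom_one_tmul]

omit [FiniteDimensional ℚ F] in
theorem evalSum_ratCast {n : ℕ} (b : Module.Basis (Fin n) ℚ F) (g : Γℚ) (r : Fin n → ℚ) :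
    evalSum q F b g (fun i => (r i : ℚ_[q])) =
      padicEmbedding q (g ((∑ i, r i • b i : F) : Qbar)) := by
  unfold evalSum
  have h1 : ((∑ i, r i • b i : F) : Qbar) = ∑ i, r i • (b i : Qbar) := by
    push_cast
    rfl
  rw [h1, map_sum, map_sum]
  refine Finset.sum_congr rfl fun i _ => ?_
  rw [Algebra.smul_def, Algebra.smul_def, map_mul, map_mul, AlgEquiv.commutes, AlgHom.commutes]
  congr 1

omit [FiniteDimensional ℚ F] in
theorem norm_evalSum_le {σ : Γℚ} (hσ : σ ∈ (padicPlace q).decompositionSubgroup ℚ) {n : ℕ}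
    (b : Module.Basis (Fin n) ℚ F) (a : Fin n → ℚ_[q]) :
    ‖evalSum q F b σ a‖ ≤ q * ‖evalSum q F b 1 a‖ := by
  have hcl : IsClosed {a : Fin n → ℚ_[q] | ‖evalSum q F b σ a‖ ≤ q * ‖evalSum q F b 1 a‖} :=
    isClosed_le (continuous_evalSum q F b σ).norm
      (continuous_const.mul (continuous_evalSum q F b 1).norm)
  have hd : DenseRange (fun (r : Fin n → ℚ) (i : Fin n) => (r i : ℚ_[q])) := by
    have h0 : DenseRange (fun r : ℚ => (r : ℚ_[q])) := denseRange_algebraMap_rat_padic q
    exact DenseRange.piMap (fun _ => h0)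
  have hsub : Set.range (fun (r : Fin n → ℚ) (i : Fin n) => (r i : ℚ_[q])) ⊆
      {a : Fin n → ℚ_[q] | ‖evalSum q F b σ a‖ ≤ q * ‖evalSum q F b 1 a‖} := by
    rintro _ ⟨r, rfl⟩
    show ‖evalSum q F b σ _‖ ≤ q * ‖evalSum q F b 1 _‖
    rw [evalSum_ratCast, evalSum_ratCast]
    exact norm_padicEmbedding_apply_le q hσ _
  have := hcl.closure_subset_iff.mpr hsub
  rw [hd.closure_range] at this
  exact this (Set.mem_univ a)

theorem ker_locHom_one_le {σ : Γℚ} (hσ : σ ∈ (padicPlace q).decompositionSubgroup ℚ) :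
    RingHom.ker (locHom q F 1) ≤ RingHom.ker (locHom q F σ) := by
  intro e he
  rw [RingHom.mem_ker] at he ⊢
  set b := Module.finBasis ℚ F
  rw [locHom_eq_evalSum q F b] at he ⊢
  have h := norm_evalSum_le q F hσ b ((Algebra.TensorProduct.basis ℚ_[q] b).repr e)
  rw [he, norm_zero, mul_zero] at h
  exact norm_le_zero_iff.mp h

/-- **(D)** finite-level density of `G_q` in the decomposition group. -/
theorem exists_local_eq_on {σ : Γℚ} (hσ : σ ∈ (padicPlace q).decompositionSubgroup ℚ) :
    ∃ h : Gq, ∀ x ∈ F, h (padicEmbedding q x) = padicEmbedding q (σ x) := by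
  have hle : (placeAt q F 1).asIdeal ≤ (placeAt q F σ).asIdeal := ker_locHom_one_le q F hσ
  have heq : placeAt q F 1 = placeAt q F σ :=
    MaximalSpectrum.ext ((placeAt q F 1).isMaximal.eq_of_le (placeAt q F σ).isMaximal.ne_top hle)
  obtain ⟨h, s, hs, hσeq⟩ := (placeAt_eq_iff q F 1 σ).mp heq
  refine ⟨h, fun x hx => ?_⟩
  have hsx : s x = x := (IntermediateField.mem_fixingSubgroup_iff F s).1 hs x hx
  rw [hσeq, mul_one, AlgEquiv.mul_apply, hsx, padicEmbedding_localGaloisToGlobal]

end Finite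

/-! ### Exact surjectivity by compactness -/

theorem isClosed_setOf_apply_eq (y z : Ωq) : IsClosed {h : Gq | h y = z} := by
  rw [← isOpen_compl_iff, isOpen_iff_mem_nhds]
  intro h₀ hh₀
  have hy : IsIntegral ℚ_[q] y := (PadicAlgCl.isAlgebraic q).isIntegral.isIntegral y
  have : FiniteDimensional ℚ_[q] (IntermediateField.adjoin ℚ_[q] {y}) :=
    IntermediateField.adjoin.finiteDimensional hy
  have hopen : IsOpen (h₀ • ((IntermediateField.adjoin ℚ_[q] {y}).fixingSubgroup : Set Gq)) :=
    (IntermediateField.fixingSubgroup_isOpen _).leftCoset h₀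
  refine mem_nhds_iff.mpr ⟨_, ?_, hopen, ⟨1, one_mem _, by simp⟩⟩
  rintro _ ⟨g, hg, rfl⟩
  have hgy : g y = y :=
    (IntermediateField.mem_fixingSubgroup_iff _ g).1 hg y
      (IntermediateField.mem_adjoin_simple_self ℚ_[q] y)
  show ¬ (h₀ * g) y = z
  rw [AlgEquiv.mul_apply, hgy]
  exact hh₀

/-- **EXACT surjectivity**: every element of the decomposition group of `padicPlace q` comes from
the local Galois group. -/
theorem exists_local_eq {σ : Γℚ} (hσ : σ ∈ (padicPlace q).decompositionSubgroup ℚ) :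
    ∃ h : Gq, localGaloisToGlobal q h = σ := by
  let t : Qbar → Set Gq := fun x => {h | h (padicEmbedding q x) = padicEmbedding q (σ x)}
  have htc : ∀ x, IsClosed (t x) := fun x => isClosed_setOf_apply_eq q _ _
  have hfin : ∀ u : Finset Qbar, (Set.univ ∩ ⋂ x ∈ u, t x).Nonempty := by
    intro u
    have : FiniteDimensional ℚ (IntermediateField.adjoin ℚ (u : Set Qbar)) :=
      IntermediateField.finiteDimensional_adjoin fun x _ =>
        (AlgebraicClosure.isAlgebraic ℚ).isIntegral.isIntegral x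
    obtain ⟨h, hh⟩ := exists_local_eq_on q (IntermediateField.adjoin ℚ (u : Set Qbar)) hσ
    refine ⟨h, Set.mem_univ _, ?_⟩
    simp only [Set.mem_iInter]
    intro x hx
    exact hh x (IntermediateField.subset_adjoin ℚ _ hx)
  obtain ⟨h, -, hh⟩ := isCompact_univ.inter_iInter_nonempty t htc hfin
  refine ⟨h, ?_⟩
  ext x
  apply (padicEmbedding q).toRingHom.injective
  show padicEmbedding q (localGaloisToGlobal q h x) = padicEmbedding q (σ x)
  rw [padicEmbedding_localGaloisToGlobal]
  exact Set.mem_iInter.mp hh x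

theorem decompositionSubgroup_eq_range :
    (padicPlace q).decompositionSubgroup ℚ = (localGaloisToGlobal q).range := by
  apply le_antisymm
  · intro σ hσ
    exact exists_local_eq q hσ
  · rintro _ ⟨h, rfl⟩
    exact localGaloisToGlobal_mem_decompositionSubgroup q h

theorem inertiaSubgroupIn_le_decompositionSubgroup (A : ValuationSubring Qbar) :
    A.inertiaSubgroupIn ℚ ≤ A.decompositionSubgroup ℚ := by
  intro τ hτ
  exact ((mem_inertiaSubgroupIn_iff A τ).mp hτ).1

theorem inertiaSubgroupIn_le_range :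
    (padicPlace q).inertiaSubgroupIn ℚ ≤ (localGaloisToGlobal q).range := by
  rw [← decompositionSubgroup_eq_range]
  exact inertiaSubgroupIn_le_decompositionSubgroup _

theorem inertiaSubgroupIn_eq_map_comap :
    (padicPlace q).inertiaSubgroupIn ℚ =
      (((padicPlace q).inertiaSubgroupIn ℚ).comap (localGaloisToGlobal q)).map
        (localGaloisToGlobal q) := by
  rw [Subgroup.map_comap_eq, inf_eq_right.mpr (inertiaSubgroupIn_le_range q)]

/-! ### `Nat.Primes` forms (Prelude `primeLocalPlace`, `primeLocalToGlobal`) -/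

section Primes

open ExtCitation

/-- The local Galois group at `q` maps ONTO the decomposition group of `primeLocalPlace q`. -/
theorem primeLocal_decompositionSubgroup_eq_range (q : Nat.Primes) :
    (primeLocalPlace q).decompositionSubgroup ℚ = (primeLocalToGlobal q).range := by
  have : Fact (q : ℕ).Prime := ⟨q.2⟩
  exact decompositionSubgroup_eq_range (q : ℕ)

theorem exists_primeLocalToGlobal_eq (q : Nat.Primes) {σ : Γℚ}
    (hσ : σ ∈ (primeLocalPlace q).decompositionSubgroup ℚ) :
    ∃ h : primeLocalGaloisGroup q, primeLocalToGlobal q h = σ := by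
  rw [primeLocal_decompositionSubgroup_eq_range] at hσ
  exact hσ

theorem primeLocal_inertiaSubgroupIn_le_range (q : Nat.Primes) :
    (primeLocalPlace q).inertiaSubgroupIn ℚ ≤ (primeLocalToGlobal q).range := by
  have : Fact (q : ℕ).Prime := ⟨q.2⟩
  exact inertiaSubgroupIn_le_range (q : ℕ)

/-- The global inertia group at `primeLocalPlace q` is the image of the local inertia group
(`:= comap` of the global one, helper92's `localInertia`). -/
theorem primeLocal_inertiaSubgroupIn_eq_map_comap (q : Nat.Primes) :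
    (primeLocalPlace q).inertiaSubgroupIn ℚ =
      (((primeLocalPlace q).inertiaSubgroupIn ℚ).comap (primeLocalToGlobal q)).map
        (primeLocalToGlobal q) := by
  rw [Subgroup.map_comap_eq, inf_eq_right.mpr (primeLocal_inertiaSubgroupIn_le_range q)]

theorem exists_primeLocalToGlobal_eq_of_mem_inertia (q : Nat.Primes) {σ : Γℚ}
    (hσ : σ ∈ (primeLocalPlace q).inertiaSubgroupIn ℚ) :
    ∃ h : primeLocalGaloisGroup q,
      h ∈ ((primeLocalPlace q).inertiaSubgroupIn ℚ).comap (primeLocalToGlobal q) ∧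
        primeLocalToGlobal q h = σ := by
  obtain ⟨h, rfl⟩ := primeLocal_inertiaSubgroupIn_le_range q hσ
  exact ⟨h, hσ, rfl⟩

/-- **(rel)** (note 1448): finite-level surjectivity onto inertia, in the shape asked for by the
consumers (it holds with `s = 1`). -/
theorem primeLocal_inertia_rel (q : Nat.Primes) (F : IntermediateField ℚ Qbar) {σ : Γℚ}
    (hσ : σ ∈ (primeLocalPlace q).inertiaSubgroupIn ℚ) :
    ∃ h : primeLocalGaloisGroup q,
      h ∈ ((primeLocalPlace q).inertiaSubgroupIn ℚ).comap (primeLocalToGlobal q) ∧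
        ∃ s ∈ F.fixingSubgroup, σ = primeLocalToGlobal q h * s := by
  obtain ⟨h, hh, rfl⟩ := exists_primeLocalToGlobal_eq_of_mem_inertia q hσ
  exact ⟨h, hh, 1, one_mem _, (mul_one _).symm⟩

/-- **(D)** in the `Nat.Primes` form (with `s = 1`). -/
theorem primeLocal_decomposition_rel (q : Nat.Primes) (F : IntermediateField ℚ Qbar) {σ : Γℚ}
    (hσ : σ ∈ (primeLocalPlace q).decompositionSubgroup ℚ) :
    ∃ h : primeLocalGaloisGroup q, ∃ s ∈ F.fixingSubgroup, σ = primeLocalToGlobal q h * s := by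
  obtain ⟨h, rfl⟩ := exists_primeLocalToGlobal_eq q hσ
  exact ⟨h, 1, one_mem _, (mul_one _).symm⟩

end Primes

end Fermat.Agent.S56x.Local.InertiaRel
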