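/-
P-S56, block (B)/(C) local line (helper42): the local inertia subgroup, i.e. the preimage in
`Gal(PadicAlgCl q / ℚ_q)` of the inertia subgroup of the place `padicPlace q` of `Qbar`, is the
subgroup fixing all roots of unity of order prime to `q` (`= Gal(PadicAlgCl q / ℚ_q^{unr})`).

Norm-theoretic proof inside `Ω = PadicAlgCl q`:
* `eq_of_pow_eq_one_of_norm_sub_lt` : `N`-th roots of unity (`q ∤ N`) at distance `< 1` are equal;
* `exists_pow_sub_lt` : `‖y‖ ≤ 1 ⇒ ∃ n > 0, ‖y ^ (q ^ n) - y‖ < 1` (the residue field is algebraic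
  over `𝔽_q`; proof by compactness of the unit ball of `ℚ_q(y)` and injectivity of Frobenius);
* `exists_root_near` : `‖y ^ N - 1‖ < 1 ⇒ ∃ ζ, ζ ^ N = 1 ∧ ‖y - ζ‖ < 1`;
* `mem_comap_inertia_iff_forall`, `comap_inertia_eq_unrInertia`, and the `Nat.Primes` form
  `primeFrobData_I_eq_comap_inertia` :
  `(primeFrobData q).I = ((primeLocalPlace q).inertiaSubgroupIn ℚ).comap (primeLocalToGlobal q)`.
-/
import Mathlib
import Fermat.Agent.S56x.Local.FrobDataLocal
import Fermat.Agent.S56x.Local.FrobLocal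
import Fermat.Agent.S56x.Hens.FiniteLevel
import Fermat.Agent.Lib.CFT.Profinite.BridgePlaces

set_option autoImplicit false
set_option linter.unusedSectionVars false
set_option linter.style.haveILetI false

open Fermat.Agent.S56x.Local.UnrLevels Fermat.Agent.S56x.Local.FrobDataLocal

namespace Fermat.Agent.S56x.Local.InertiaUnr

variable {q : ℕ} [Fact q.Prime]

local notation "Ω" => PadicAlgCl q
local notation "Gq" => (PadicAlgCl q ≃ₐ[ℚ_[q]] PadicAlgCl q)
local notation "Qbar" => AlgebraicClosure ℚ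

/-! ### Norms in `PadicAlgCl q` -/

theorem norm_algEquiv (σ : Gq) (y : Ω) : ‖σ y‖ = ‖y‖ :=
  congrArg NNReal.toReal (nnnorm_padicAlgCl_algEquiv q σ y)

theorem norm_natCast_eq_one {N : ℕ} (hN : q.Coprime N) : ‖(N : Ω)‖ = 1 := by
  have h1 : (N : Ω) = algebraMap ℚ_[q] Ω (N : ℚ_[q]) := (map_natCast _ N).symm
  rw [h1]
  have h2 : ‖algebraMap ℚ_[q] Ω (N : ℚ_[q])‖ = ‖(N : ℚ_[q])‖ :=
    PadicAlgCl.norm_extends q (N : ℚ_[q])
  rw [h2]
  exact Padic.norm_natCast_eq_one_iff.mpr hN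

theorem coprime_pow_sub_one {n : ℕ} (hn : 0 < n) : q.Coprime (q ^ n - 1) := by
  have hq : q.Prime := Fact.out
  rw [Nat.Prime.coprime_iff_not_dvd hq]
  intro h
  have h1 : q ∣ q ^ n := dvd_pow_self q hn.ne'
  have h2 : q ∣ q ^ n - (q ^ n - 1) := Nat.dvd_sub h1 h
  have h3 : q ^ n - (q ^ n - 1) = 1 := by
    have : 1 ≤ q ^ n := Nat.one_le_pow _ _ hq.pos
    omega
  rw [h3] at h2
  exact hq.one_lt.ne' (Nat.dvd_one.mp h2)

theorem norm_eq_one_of_pow_eq_one {N : ℕ} (hN : N ≠ 0) {z : Ω} (hz : z ^ N = 1) : ‖z‖ = 1 := by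
  have h1 : ‖z‖ ^ N = 1 := by rw [← norm_pow, hz, norm_one]
  exact (pow_eq_one_iff_of_nonneg (norm_nonneg z) hN).mp h1

theorem norm_pow_sub_one_le {c : Ω} (hc : ‖c‖ ≤ 1) (i : ℕ) : ‖c ^ i - 1‖ ≤ ‖c - 1‖ := by
  induction i with
  | zero => simp
  | succ i ih =>
    have h1 : c ^ (i + 1) - 1 = c * (c ^ i - 1) + (c - 1) := by ring
    rw [h1]
    refine (IsUltrametricDist.norm_add_le_max _ _).trans (max_le ?_ le_rfl)
    rw [norm_mul]
    calc ‖c‖ * ‖c ^ i - 1‖ ≤ 1 * ‖c - 1‖ := mul_le_mul hc ih (norm_nonneg _) zero_le_one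
      _ = ‖c - 1‖ := one_mul _

/-- Roots of unity of order prime to `q` which are congruent modulo the maximal ideal are
equal. -/
theorem eq_of_pow_eq_one_of_norm_sub_lt {N : ℕ} (hN : ‖(N : Ω)‖ = 1) {a b : Ω}
    (ha : a ^ N = 1) (hb : b ^ N = 1) (hab : ‖a - b‖ < 1) : a = b := by
  have hN0 : N ≠ 0 := by
    rintro rfl
    simp at hN
  have hb0 : b ≠ 0 := by
    rintro rfl
    rw [zero_pow hN0] at hb
    exact zero_ne_one hb
  have hbn : ‖b‖ = 1 := norm_eq_one_of_pow_eq_one hN0 hb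
  set c := a / b with hc
  have hcN : c ^ N = 1 := by rw [hc, div_pow, ha, hb, div_one]
  have hcn : ‖c‖ = 1 := norm_eq_one_of_pow_eq_one hN0 hcN
  have hc1 : ‖c - 1‖ < 1 := by
    have : c - 1 = (a - b) / b := by rw [hc, sub_div, div_self hb0]
    rw [this, norm_div, hbn, div_one]
    exact hab
  have hgeom := mul_geom_sum c N
  rw [hcN, sub_self] at hgeom
  have hS : ∑ i ∈ Finset.range N, c ^ i ≠ 0 := by
    intro h0
    have h1 : ‖(∑ i ∈ Finset.range N, c ^ i) - (N : Ω)‖ ≤ ‖c - 1‖ := by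
      have : (∑ i ∈ Finset.range N, c ^ i) - (N : Ω) = ∑ i ∈ Finset.range N, (c ^ i - 1) := by
        rw [Finset.sum_sub_distrib, Finset.sum_const, Finset.card_range, nsmul_eq_mul, mul_one]
      rw [this]
      exact IsUltrametricDist.norm_sum_le_of_forall_le_of_nonneg (norm_nonneg _)
        fun i _ => norm_pow_sub_one_le hcn.le i
    rw [h0, zero_sub, norm_neg, hN] at h1
    exact absurd (h1.trans_lt hc1) (lt_irrefl _)
  have hc1' : c - 1 = 0 := (mul_eq_zero.mp hgeom).resolve_right hS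
  have hc2 : c = 1 := sub_eq_zero.mp hc1'
  rw [hc, div_eq_one_iff_eq hb0] at hc2
  exact hc2

/-! ### The residue field is algebraic over `𝔽_q` -/

theorem norm_natCast_q_lt_one : ‖(q : Ω)‖ < 1 := by
  have h1 : (q : Ω) = algebraMap ℚ_[q] Ω (q : ℚ_[q]) := (map_natCast _ q).symm
  have h2 : ‖algebraMap ℚ_[q] Ω (q : ℚ_[q])‖ = ‖(q : ℚ_[q])‖ :=
    PadicAlgCl.norm_extends q (q : ℚ_[q])
  rw [h1, h2]
  exact Padic.norm_p_lt_one

theorem norm_sub_le_max (x y : Ω) : ‖x - y‖ ≤ max ‖x‖ ‖y‖ := by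
  rw [sub_eq_add_neg, ← norm_neg y]
  exact IsUltrametricDist.norm_add_le_max x (-y)

theorem mem_padicIntegers_of_norm_le {x : Ω} (hx : ‖x‖ ≤ 1) : x ∈ padicIntegers q := by
  rw [mem_padicIntegers_iff]
  exact_mod_cast hx

theorem norm_le_of_mem_padicIntegers (x : padicIntegers q) : ‖(x : Ω)‖ ≤ 1 := by
  have h := (mem_padicIntegers_iff q).mp x.2
  exact_mod_cast h

/-- Frobenius is injective modulo the maximal ideal. -/
theorem norm_sub_lt_of_norm_pow_sub_pow_lt {u v : Ω} (hu : ‖u‖ ≤ 1) (hv : ‖v‖ ≤ 1)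
    (h : ‖u ^ q - v ^ q‖ < 1) : ‖u - v‖ < 1 := by
  have hq : q.Prime := Fact.out
  have huv : ‖u - v‖ ≤ 1 := (norm_sub_le_max _ _).trans (max_le hu hv)
  obtain ⟨r, hr⟩ := exists_add_pow_prime_eq hq
    (⟨u - v, mem_padicIntegers_of_norm_le huv⟩ : padicIntegers q)
    (⟨v, mem_padicIntegers_of_norm_le hv⟩ : padicIntegers q)
  have hr' : (u - v + v) ^ q = (u - v) ^ q + v ^ q + (q : Ω) * (u - v) * v * (r : Ω) := by
    have := congrArg (padicIntegers q).subtype hr
    simp only [map_add, map_mul, map_pow, map_natCast] at this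
    exact this
  rw [sub_add_cancel] at hr'
  have key : (u - v) ^ q = (u ^ q - v ^ q) - (q : Ω) * (u - v) * v * (r : Ω) := by
    rw [hr']
    ring
  have hr1 : ‖(r : Ω)‖ ≤ 1 := norm_le_of_mem_padicIntegers r
  have h2 : ‖(q : Ω) * (u - v) * v * (r : Ω)‖ < 1 := by
    rw [norm_mul, norm_mul, norm_mul]
    have h3 : ‖(q : Ω)‖ * ‖u - v‖ * ‖v‖ * ‖(r : Ω)‖ ≤ ‖(q : Ω)‖ * 1 * 1 * 1 := by
      gcongr
    exact h3.trans_lt (by simpa using norm_natCast_q_lt_one (q := q))
  have h4 : ‖(u - v) ^ q‖ < 1 := by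
    rw [key]
    exact (norm_sub_le_max _ _).trans_lt (max_lt h h2)
  rw [norm_pow] at h4
  exact (pow_lt_one_iff_of_nonneg (norm_nonneg _) hq.ne_zero).mp h4

theorem norm_sub_lt_of_norm_pow_pow_sub_lt {u v : Ω} (hu : ‖u‖ ≤ 1) (hv : ‖v‖ ≤ 1) (a : ℕ)
    (h : ‖u ^ (q ^ a) - v ^ (q ^ a)‖ < 1) : ‖u - v‖ < 1 := by
  induction a with
  | zero => simpa using h
  | succ a ih =>
    apply ih
    apply norm_sub_lt_of_norm_pow_sub_pow_lt
    · rw [norm_pow]; exact pow_le_one₀ (norm_nonneg _) hu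
    · rw [norm_pow]; exact pow_le_one₀ (norm_nonneg _) hv
    · rwa [← pow_mul, ← pow_mul, ← pow_succ]

/-- Every element of the residue field of `PadicAlgCl q` lies in a finite field: for `‖y‖ ≤ 1`
some iterate of the Frobenius fixes `y` modulo the maximal ideal. -/
theorem exists_pow_sub_lt {y : Ω} (hy : ‖y‖ ≤ 1) :
    ∃ n : ℕ, 0 < n ∧ ‖y ^ (q ^ n) - y‖ < 1 := by
  haveI : FiniteDimensional ℚ_[q] (IntermediateField.adjoin ℚ_[q] {y}) :=
    IntermediateField.adjoin.finiteDimensional (Algebra.IsIntegral.isIntegral y)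
  haveI : ProperSpace (IntermediateField.adjoin ℚ_[q] {y}) :=
    FiniteDimensional.proper ℚ_[q] (IntermediateField.adjoin ℚ_[q] {y})
  let y' : IntermediateField.adjoin ℚ_[q] {y} := ⟨y, IntermediateField.mem_adjoin_simple_self _ y⟩
  have hy' : ‖y'‖ ≤ 1 := hy
  let u : ℕ → IntermediateField.adjoin ℚ_[q] {y} := fun k => y' ^ (q ^ k)
  have hu : ∀ k, u k ∈ Metric.closedBall (0 : IntermediateField.adjoin ℚ_[q] {y}) 1 := by
    intro k
    rw [mem_closedBall_zero_iff, norm_pow]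
    exact pow_le_one₀ (norm_nonneg _) hy'
  obtain ⟨a, -, φ, hφ, hlim⟩ :=
    (isCompact_closedBall (0 : IntermediateField.adjoin ℚ_[q] {y}) 1).tendsto_subseq hu
  have hev : ∀ᶠ k in Filter.atTop, dist ((u ∘ φ) k) a < 1 :=
    (Metric.tendsto_nhds.mp hlim) 1 one_pos
  obtain ⟨k0, hk0⟩ := Filter.eventually_atTop.mp hev
  have h1 : ‖(y ^ (q ^ φ k0) : Ω) - (a : Ω)‖ < 1 := by
    have := hk0 k0 le_rfl
    rwa [dist_eq_norm] at this
  have h2 : ‖(y ^ (q ^ φ (k0 + 1)) : Ω) - (a : Ω)‖ < 1 := by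
    have := hk0 (k0 + 1) (Nat.le_succ _)
    rwa [dist_eq_norm] at this
  have hAB : φ k0 < φ (k0 + 1) := hφ (Nat.lt_succ_self _)
  have h3 : ‖y ^ (q ^ φ (k0 + 1)) - y ^ (q ^ φ k0)‖ < 1 := by
    have : y ^ (q ^ φ (k0 + 1)) - y ^ (q ^ φ k0) =
        (y ^ (q ^ φ (k0 + 1)) - (a : Ω)) - (y ^ (q ^ φ k0) - (a : Ω)) := by ring
    rw [this]
    exact (norm_sub_le_max _ _).trans_lt (max_lt h2 h1)
  refine ⟨φ (k0 + 1) - φ k0, Nat.sub_pos_of_lt hAB, ?_⟩
  apply norm_sub_lt_of_norm_pow_pow_sub_lt (u := y ^ (q ^ (φ (k0 + 1) - φ k0))) (v := y) ?_ hy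
    (φ k0)
  · rwa [← pow_mul, ← pow_add, Nat.sub_add_cancel hAB.le]
  · rw [norm_pow]; exact pow_le_one₀ (norm_nonneg _) hy

/-- An element of norm one which is a root of unity modulo the maximal ideal is congruent to a
root of unity. -/
theorem exists_root_near {N : ℕ} (hN : 0 < N) {y : Ω} (hy : ‖y ^ N - 1‖ < 1) :
    ∃ ζ : Ω, ζ ^ N = 1 ∧ ‖y - ζ‖ < 1 := by
  haveI : NeZero N := ⟨hN.ne'⟩
  obtain ⟨z, hz⟩ := HasEnoughRootsOfUnity.exists_primitiveRoot Ω N
  have hprod := Polynomial.X_pow_sub_one_eq_prod hN hz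
  have heval := congrArg (Polynomial.eval y) hprod
  rw [Polynomial.eval_prod] at heval
  simp only [Polynomial.eval_sub, Polynomial.eval_pow, Polynomial.eval_X, Polynomial.eval_one,
    Polynomial.eval_C] at heval
  by_contra hcon0
  have hcon : ∀ ζ : Ω, ζ ^ N = 1 → 1 ≤ ‖y - ζ‖ :=
    fun ζ hζ => not_lt.mp fun h => hcon0 ⟨ζ, hζ, h⟩
  have h1 : 1 ≤ ‖y ^ N - 1‖ := by
    rw [heval, norm_prod]
    calc (1 : ℝ) = ∏ _ζ ∈ Polynomial.nthRootsFinset N (1 : Ω), (1 : ℝ) := by simp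
      _ ≤ ∏ ζ ∈ Polynomial.nthRootsFinset N (1 : Ω), ‖y - ζ‖ :=
        Finset.prod_le_prod (fun _ _ => zero_le_one)
          (fun ζ hζ => hcon ζ ((Polynomial.mem_nthRootsFinset hN 1).mp hζ))
  exact absurd hy (not_lt.mpr h1)

/-! ### The inertia subgroup -/

open Fermat.Agent.Lib.CFT.Profinite.Bridge in
variable (q) in
/-- Membership in the preimage of the inertia subgroup of `padicPlace q`, in terms of norms. -/
theorem mem_comap_inertia_iff (σ : Gq) :
    σ ∈ ((padicPlace q).inertiaSubgroupIn ℚ).comap (localGaloisToGlobal q) ↔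
      ∀ x : Qbar, ‖padicEmbedding q x‖ ≤ 1 →
        ‖σ (padicEmbedding q x) - padicEmbedding q x‖ < 1 := by
  rw [Subgroup.mem_comap, Fermat.Agent.S56x.Hens.mem_inertiaSubgroupIn_iff]
  constructor
  · rintro ⟨-, h⟩ x hx
    have h1 := h x ((mem_padicPlace_iff q).mpr (by exact_mod_cast hx))
    rw [FrobLocal.mem_padicPlace_nonunits_iff, map_sub, padicEmbedding_localGaloisToGlobal] at h1
    exact_mod_cast h1
  · intro h
    refine ⟨localGaloisToGlobal_mem_decompositionSubgroup q σ, fun x hx => ?_⟩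
    rw [FrobLocal.mem_padicPlace_nonunits_iff, map_sub, padicEmbedding_localGaloisToGlobal]
    have h1 := h x (by exact_mod_cast (mem_padicPlace_iff q).mp hx)
    exact_mod_cast h1

open Fermat.Agent.Lib.CFT.Profinite.Bridge in
variable (q) in
/-- **The local inertia subgroup fixes exactly the roots of unity of order prime to `q`.** -/
theorem mem_comap_inertia_iff_forall (σ : Gq) :
    σ ∈ ((padicPlace q).inertiaSubgroupIn ℚ).comap (localGaloisToGlobal q) ↔
      ∀ n : ℕ, 0 < n → ∀ z : Ω, z ^ (q ^ n - 1) = 1 → σ z = z := by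
  rw [mem_comap_inertia_iff]
  constructor
  · intro h n hn z hz
    have hN : 0 < q ^ n - 1 := Nat.pos_of_ne_zero (pow_sub_one_ne_zero hn)
    have hzint : IsIntegral ℚ z := by
      refine IsIntegral.of_pow hN ?_
      rw [hz]
      exact isIntegral_one
    obtain ⟨x, rfl⟩ := mem_range_padicEmbedding_of_isAlgebraic q hzint.isAlgebraic
    have hnorm : ‖padicEmbedding q x‖ = 1 := norm_eq_one_of_pow_eq_one hN.ne' hz
    have h1 := h x hnorm.le
    refine eq_of_pow_eq_one_of_norm_sub_lt (norm_natCast_eq_one (coprime_pow_sub_one hn)) ?_ hz h1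
    rw [← map_pow, hz, map_one]
  · intro h x hx
    set y := padicEmbedding q x with hy
    rcases hx.lt_or_eq with hlt | heq
    · refine (norm_sub_le_max _ _).trans_lt (max_lt ?_ hlt)
      rwa [norm_algEquiv]
    · obtain ⟨n, hn, hn1⟩ := exists_pow_sub_lt (q := q) hx
      have hqn : 1 ≤ q ^ n := Nat.one_le_pow _ _ (Fact.out : q.Prime).pos
      have hN : 0 < q ^ n - 1 := Nat.pos_of_ne_zero (pow_sub_one_ne_zero hn)
      have h2 : ‖y ^ (q ^ n - 1) - 1‖ < 1 := by
        have h3 : y ^ (q ^ n) - y = y * (y ^ (q ^ n - 1) - 1) := by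
          rw [mul_sub, mul_one, ← pow_succ', Nat.sub_add_cancel hqn]
        rw [h3, norm_mul, heq, one_mul] at hn1
        exact hn1
      obtain ⟨ζ, hζ, hζ1⟩ := exists_root_near hN h2
      have hσζ : σ ζ = ζ := h n hn ζ hζ
      have h4 : σ y - y = σ (y - ζ) - (y - ζ) := by
        rw [map_sub, hσζ]
        ring
      rw [h4]
      refine (norm_sub_le_max _ _).trans_lt (max_lt ?_ hζ1)
      rwa [norm_algEquiv]

variable (q) in
theorem comap_inertia_eq_unrInertia :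
    ((padicPlace q).inertiaSubgroupIn ℚ).comap (localGaloisToGlobal q) = unrInertia q := by
  ext σ
  rw [mem_comap_inertia_iff_forall, mem_unrInertia_iff_forall]

open ExtCitation Fermat.Agent.Lib.CFT.Duality Fermat.Agent.S56x.Local.UnramAbstract in
/-- The inertia subgroup of `primeFrobData q` is the preimage of the inertia subgroup of the place
`primeLocalPlace q` of `Qbar` under `primeLocalToGlobal q` (`= localInertia q`). -/
theorem primeFrobData_I_eq_comap_inertia (q : Nat.Primes) :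
    (primeFrobData q).I =
      ((primeLocalPlace q).inertiaSubgroupIn ℚ).comap (primeLocalToGlobal q) :=
  letI : Fact (q : ℕ).Prime := ⟨q.2⟩
  (comap_inertia_eq_unrInertia (q : ℕ)).symm

open ExtCitation Fermat.Agent.Lib.CFT.Duality Fermat.Agent.S56x.Local.UnramAbstract in
/-- **`frobDataLocal`** (note 1448): a `FrobData` of the local Galois group at `q` whose inertia
subgroup is the local inertia subgroup. -/
theorem frobDataLocal (q : Nat.Primes) :
    ∃ D : FrobData (primeLocalLevels q),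
      D.I = ((primeLocalPlace q).inertiaSubgroupIn ℚ).comap (primeLocalToGlobal q) :=
  ⟨primeFrobData q, primeFrobData_I_eq_comap_inertia q⟩

end Fermat.Agent.S56x.Local.InertiaUnr
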