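import Fermat.Agent.S56x.Local.InfinityOdd
import Fermat.Agent.S56x.Dict.Ad0Rep

/-!
# P-S56, block (C4): the archimedean local term for `ad⁰ ρbar` (helper86)

`finrank_locH0_arch`: for a matrix model `rbar : Γℚ →* M₂(k)` which is odd at the Prelude's complex
conjugation (`det rbar(c) = -1`) and `p ≠ 2`,
`finrank (ZMod p) (locH0 S (ad0Rep p rbar) (Sum.inl u)) = finrank (ZMod p) k`,
i.e. `H⁰(G_∞, ad⁰ ρbar)` is a `k`-line.
-/

set_option autoImplicit false
set_option linter.unusedSectionVars false

open Module ExtCitation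

namespace Fermat.Agent.S56x.Local.InfinityLocal

open Fermat.Agent.S56x.Dict

local notation "Qbar" => AlgebraicClosure ℚ
local notation "Γℚ" => (AlgebraicClosure ℚ ≃ₐ[ℚ] AlgebraicClosure ℚ)
local notation "M₂" => Matrix (Fin 2) (Fin 2)

variable {k : Type} [Field k] {p : ℕ} [Fact p.Prime] [Algebra (ZMod p) k]

/-- `2 ≠ 0` in a field of odd characteristic `p`. -/
theorem two_ne_zero_of_algebra_zmod (hp2 : p ≠ 2) : (2 : k) ≠ 0 := by
  have hchar : CharP k p := by
    have := (algebraMap (ZMod p) k).injective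
    exact (RingHom.charP_iff (algebraMap (ZMod p) k) this p).mp inferInstance
  intro h0
  have h20 : ((2 : ℕ) : k) = 0 := by exact_mod_cast h0
  have hdvd := (CharP.cast_eq_zero_iff k p 2).mp h20
  have hp : p.Prime := Fact.out
  exact hp2 ((Nat.prime_dvd_prime_iff_eq hp Nat.prime_two).mp hdvd)

/-- Membership in `H⁰(G_∞, ad⁰ ρbar)` in matrix terms. -/
theorem mem_locH0_arch_ad0_iff (rbar : Γℚ →* M₂ k) (S : Finset Nat.Primes) (u : Unit)
    (m : ad0 k p) :
    (m : (ad0Rep p rbar)) ∈ GW.locH0 S (ad0Rep p rbar) (Sum.inl u) ↔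
      rbar complexConjugation * m.1 = m.1 * rbar complexConjugation := by
  rw [mem_locH0_arch_iff]
  have hg : rbar complexConjugation * rbar complexConjugation = 1 := by
    rw [← map_mul, complexConjugation_mul_self, map_one]
  have hρ : (((ad0Rep p rbar).ρ complexConjugation m : ad0 k p) : M₂ k) =
      rbar complexConjugation * m.1 * rbar complexConjugation := by
    show rbar complexConjugation * m.1 * rbar complexConjugation⁻¹ = _
    rw [complexConjugation_inv]
  constructor
  · intro h
    have h1 : rbar complexConjugation * m.1 * rbar complexConjugation = m.1 := by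
      rw [← hρ]; exact congrArg (fun X : ad0 k p => (X : M₂ k)) h
    calc rbar complexConjugation * m.1
        = rbar complexConjugation * m.1 * (rbar complexConjugation * rbar complexConjugation) := by
          rw [hg, Matrix.mul_one]
      _ = (rbar complexConjugation * m.1 * rbar complexConjugation) * rbar complexConjugation := by
          simp only [Matrix.mul_assoc]
      _ = m.1 * rbar complexConjugation := by rw [h1]
  · intro h
    apply Subtype.ext
    show (((ad0Rep p rbar).ρ complexConjugation m : ad0 k p) : M₂ k) = m.1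
    rw [hρ, h, Matrix.mul_assoc, hg, Matrix.mul_one]

/-- **The archimedean local term of `ad⁰ ρbar`**: `H⁰(G_∞, ad⁰ ρbar)` has `𝔽_p`-dimension
`[k : 𝔽_p]`. -/
theorem finrank_locH0_arch (hp2 : p ≠ 2) (rbar : Γℚ →* M₂ k)
    (hodd : (rbar complexConjugation).det = -1) (S : Finset Nat.Primes) (u : Unit) :
    finrank (ZMod p) (GW.locH0 S (ad0Rep p rbar) (Sum.inl u)) = finrank (ZMod p) k := by
  have hg : rbar complexConjugation * rbar complexConjugation = 1 := by
    rw [← map_mul, complexConjugation_mul_self, map_one]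
  have h2 : (2 : k) ≠ 0 := two_ne_zero_of_algebra_zmod hp2
  let W := fixedTraceZero (rbar complexConjugation)
  let e : ↥(GW.locH0 S (ad0Rep p rbar) (Sum.inl u)) ≃ₗ[ZMod p] ↥W :=
    { toFun := fun m => ⟨((m.1 : ad0 k p) : M₂ k), ⟨(m.1 : ad0 k p).2,
        (mem_locH0_arch_ad0_iff rbar S u (m.1 : ad0 k p)).1 m.2⟩⟩
      map_add' := fun _ _ => rfl
      map_smul' := fun _ _ => rfl
      invFun := fun X => ⟨(⟨X.1, X.2.1⟩ : ad0 k p),
        (mem_locH0_arch_ad0_iff rbar S u ⟨X.1, X.2.1⟩).2 X.2.2⟩
      left_inv := fun _ => rfl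
      right_inv := fun _ => rfl }
  rw [e.finrank_eq, ← Module.finrank_mul_finrank (ZMod p) k ↥W,
    finrank_fixedTraceZero h2 _ hg hodd, mul_one]

end Fermat.Agent.S56x.Local.InfinityLocal
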