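import Fermat.Agent.S56x.Local.InfinityLocal

/-!
# P-S56, block (B)/(C), leaf (L3), second part: oddness at the archimedean place (helper86)

* `det_complexConjugation`: a residual representation with cyclotomic determinant (hypothesis
  `hdet` of the frozen S56) has `det ρbar(c) = -1` at the Prelude's complex conjugation `c`.
* `fixedTraceZero g`: the `k`-space of trace-zero `2 × 2` matrices commuting with `g`;
  `fixedTraceZero_eq_span`, `finrank_fixedTraceZero`: for `g * g = 1`, `det g = -1`, `2 ≠ 0` it is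
  the line spanned by `g` (so `H⁰(G_∞, ad⁰ ρbar)` is one-dimensional over `k`).
-/

set_option autoImplicit false

open Module

namespace Fermat.Agent.S56x.Local.InfinityLocal

local notation "Qbar" => AlgebraicClosure ℚ
local notation "Γℚ" => (AlgebraicClosure ℚ ≃ₐ[ℚ] AlgebraicClosure ℚ)

section Det

variable {k : Type} [Field k]

/-- `p = 0` in the coefficient field of a residual representation with cyclotomic determinant. -/
theorem natCast_eq_zero_of_detIsCyclotomic (p : ℕ) (ρbar : ResidualGaloisRep k)
    (hdet : (GaloisRepAdic.ofResidualGaloisRep ρbar).DetIsCyclotomic p) : (p : k) = 0 := by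
  have h := hdet.1
  rw [IsLocalRing.maximalIdeal_eq_bot] at h
  simpa using h

/-- **Oddness**: `det ρbar(c) = -1` for the complex conjugation `c` of the Prelude. -/
theorem det_complexConjugation (p : ℕ) [Fact p.Prime] (ρbar : ResidualGaloisRep k)
    (hdet : (GaloisRepAdic.ofResidualGaloisRep ρbar).DetIsCyclotomic p) :
    LinearMap.det (ρbar.ρ complexConjugation) = -1 := by
  have hp : p.Prime := Fact.out
  have hp0 : (p : k) = 0 := natCast_eq_zero_of_detIsCyclotomic p ρbar hdet
  have h1 := hdet.2 1 complexConjugation (p - 1) (fun μ hμ => by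
    rw [pow_one] at hμ
    rw [complexConjugation_apply_of_pow_eq_one hp.ne_zero hμ]
    apply inv_eq_of_mul_eq_one_left
    rw [← pow_succ, Nat.sub_add_cancel hp.one_le, hμ])
  rw [pow_one, hp0, Ideal.span_singleton_zero, Ideal.mem_bot, sub_eq_zero] at h1
  have h2 : ((p - 1 : ℕ) : k) = -1 := by
    rw [Nat.cast_sub hp.one_le, hp0]; simp
  rw [← h2]
  exact h1

end Det

section Matrix

variable {k : Type} [Field k]

/-- The trace-zero `2 × 2` matrices commuting with `g`. -/
def fixedTraceZero (g : Matrix (Fin 2) (Fin 2) k) : Submodule k (Matrix (Fin 2) (Fin 2) k) where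
  carrier := {X | X.trace = 0 ∧ g * X = X * g}
  add_mem' := by
    rintro X Y ⟨hX, hX'⟩ ⟨hY, hY'⟩
    exact ⟨by rw [Matrix.trace_add, hX, hY, add_zero], by rw [mul_add, add_mul, hX', hY']⟩
  zero_mem' := ⟨Matrix.trace_zero _ _, by simp⟩
  smul_mem' := by
    rintro c X ⟨hX, hX'⟩
    exact ⟨by rw [Matrix.trace_smul, hX, smul_zero], by rw [Matrix.mul_smul, Matrix.smul_mul, hX']⟩

theorem mem_fixedTraceZero {g X : Matrix (Fin 2) (Fin 2) k} :
    X ∈ fixedTraceZero g ↔ X.trace = 0 ∧ g * X = X * g := Iff.rfl

/-- An involution of determinant `-1` has trace `0`. -/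
theorem trace_eq_zero_of_mul_self_of_det (g : Matrix (Fin 2) (Fin 2) k)
    (hg : g * g = 1) (hdet : g.det = -1) : g.trace = 0 := by
  have e00 := congrFun (congrFun hg 0) 0
  have e01 := congrFun (congrFun hg 0) 1
  have e10 := congrFun (congrFun hg 1) 0
  have e11 := congrFun (congrFun hg 1) 1
  simp only [Matrix.mul_apply, Fin.sum_univ_two, Matrix.one_apply_eq, Matrix.one_apply_ne,
    ne_eq, zero_ne_one, one_ne_zero, not_false_eq_true] at e00 e01 e10 e11
  rw [Matrix.det_fin_two] at hdet
  rw [Matrix.trace_fin_two]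
  by_contra hs
  have hb : g 0 1 = 0 := by
    have : g 0 1 * (g 0 0 + g 1 1) = 0 := by linear_combination e01
    rcases mul_eq_zero.1 this with h | h
    · exact h
    · exact absurd h hs
  have hc : g 1 0 = 0 := by
    have : g 1 0 * (g 0 0 + g 1 1) = 0 := by linear_combination e10
    rcases mul_eq_zero.1 this with h | h
    · exact h
    · exact absurd h hs
  have hsq : (g 0 0 + g 1 1) ^ 2 = 0 := by
    rw [hb, hc] at e00 e11 hdet
    linear_combination e00 + e11 + 2 * hdet
  exact hs ((pow_eq_zero_iff two_ne_zero).1 hsq)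

/-- For an involution `g` of determinant `-1` (`2 ≠ 0`), the trace-zero matrices commuting with
`g` are the multiples of `g`. -/
theorem fixedTraceZero_eq_span (h2 : (2 : k) ≠ 0) (g : Matrix (Fin 2) (Fin 2) k)
    (hg : g * g = 1) (hdet : g.det = -1) : fixedTraceZero g = Submodule.span k {g} := by
  have htr := trace_eq_zero_of_mul_self_of_det g hg hdet
  have htr' : g 1 1 = -g 0 0 := by
    rw [Matrix.trace_fin_two] at htr; linear_combination htr
  have hdet' : g 0 0 * g 0 0 + g 0 1 * g 1 0 = 1 := by
    rw [Matrix.det_fin_two, htr'] at hdet; linear_combination -hdet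
  apply le_antisymm
  · rintro X ⟨hX, hXg⟩
    have hX' : X 1 1 = -X 0 0 := by
      rw [Matrix.trace_fin_two] at hX; linear_combination hX
    have c01 := congrFun (congrFun hXg 0) 1
    have c10 := congrFun (congrFun hXg 1) 0
    have c00 := congrFun (congrFun hXg 0) 0
    simp only [Matrix.mul_apply, Fin.sum_univ_two] at c00 c01 c10
    rw [htr', hX'] at c01 c10
    -- the three "cross product" relations
    have r1 : g 0 0 * X 0 1 = g 0 1 * X 0 0 := by
      have : (2 : k) * (g 0 0 * X 0 1 - g 0 1 * X 0 0) = 0 := by linear_combination c01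
      rcases mul_eq_zero.1 this with h | h
      · exact absurd h h2
      · exact sub_eq_zero.1 h
    have r2 : g 1 0 * X 0 0 = g 0 0 * X 1 0 := by
      have : (2 : k) * (g 1 0 * X 0 0 - g 0 0 * X 1 0) = 0 := by linear_combination c10
      rcases mul_eq_zero.1 this with h | h
      · exact absurd h h2
      · exact sub_eq_zero.1 h
    have r3 : g 0 1 * X 1 0 = g 1 0 * X 0 1 := by linear_combination c00
    rw [Submodule.mem_span_singleton]
    refine ⟨g 0 0 * X 0 0 + g 0 1 * X 1 0, ?_⟩
    ext i j
    fin_cases i <;> fin_cases j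
    · show (g 0 0 * X 0 0 + g 0 1 * X 1 0) * g 0 0 = X 0 0
      linear_combination (X 0 0) * hdet' + (-(g 0 1)) * r2
    · show (g 0 0 * X 0 0 + g 0 1 * X 1 0) * g 0 1 = X 0 1
      linear_combination (X 0 1) * hdet' + (-(g 0 0)) * r1 + (g 0 1) * r3
    · show (g 0 0 * X 0 0 + g 0 1 * X 1 0) * g 1 0 = X 1 0
      linear_combination (X 1 0) * hdet' + (g 0 0) * r2
    · show (g 0 0 * X 0 0 + g 0 1 * X 1 0) * g 1 1 = X 1 1
      rw [htr', hX']
      linear_combination (-(X 0 0)) * hdet' + (g 0 1) * r2
  · rw [Submodule.span_singleton_le_iff_mem]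
    exact ⟨htr, rfl⟩

/-- `H⁰(G_∞, ad⁰)` is a line: the fixed trace-zero matrices have `k`-dimension one. -/
theorem finrank_fixedTraceZero (h2 : (2 : k) ≠ 0) (g : Matrix (Fin 2) (Fin 2) k)
    (hg : g * g = 1) (hdet : g.det = -1) : finrank k ↥(fixedTraceZero g) = 1 := by
  rw [fixedTraceZero_eq_span h2 g hg hdet]
  apply finrank_span_singleton
  rintro rfl
  simp at hg

end Matrix

end Fermat.Agent.S56x.Local.InfinityLocal
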