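import Fermat.Agent.S56x.Local.KummerBoundOmega

/-!
# P-S56 (C4): `KummerBound` at `p` under the name requested by the assembly

Alias of `KummerBoundOmega.kummerBound_primeLocal` (helper72's leaf (K)).
-/

set_option autoImplicit false

namespace Fermat.Agent.S56x.Local.KummerBoundInst

open ExtCitation

/-- **(K)** the Kummer input of `Local/StrictOrdCount` at `p` (`p` odd, `k` finite over `𝔽_p`). -/
theorem kummerBound {p : ℕ} [Fact p.Prime] (hp2 : p ≠ 2) {k : Type} [Field k]
    [Algebra (ZMod p) k] [Module.Finite (ZMod p) k] :
    Fermat.Agent.S56x.Local.StrictOrdCount.KummerBound p (k := k)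
      (primeLocalToGlobal (pPrime p)) :=
  Fermat.Agent.S56x.Local.KummerBoundOmega.kummerBound_primeLocal hp2

end Fermat.Agent.S56x.Local.KummerBoundInst
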