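import Fermat.Agent.S56x.Local.KummerOmega
import Fermat.Agent.S56x.Local.StrictOrdCount

/-!
# P-S56 (C4): the Prop `StrictOrdCount.KummerBound` at `p`, discharged

`Local/StrictOrdCount` (helper13) takes the Kummer input as the Prop
`KummerBound p (k := k) f` (finiteness + `finrank ≤ 2 [k : 𝔽_p]` of the continuous `H¹` of any
`A ↪ k` on which the group acts through the mod `p` cyclotomic character).  For
`f = primeLocalToGlobal (pPrime p)` and `k` finite over `𝔽_p` (`p` odd) this file proves it from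
`Local/KummerOmega`:

* `finite_continuousH1_cyclo` : finiteness of `H¹_cont(G_{ℚ_p}, N)` for `N` finite with `ω`-action;
* `moduleFinite_continuousH1_omega`, the `Module.Finite` form with the Prelude names;
* `kummerBound_primeLocal` : `KummerBound p (k := k) (primeLocalToGlobal (pPrime p))`.
-/

set_option autoImplicit false

namespace Fermat.Agent.S56x.Local.KummerBoundOmega

open groupCohomology ExtCitation Fermat.Agent.S56x.Local.KummerOmega

variable {p : ℕ} [Fact p.Prime]

local notation "Gp" => (PadicAlgCl p ≃ₐ[ℚ_[p]] PadicAlgCl p)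
local notation "Ωp" => PadicAlgCl p

/-- finiteness of the continuous `H¹` of a finite module with cyclotomic action (`p` odd). -/
theorem finite_continuousH1_cyclo (hp2 : p ≠ 2) (N : Rep (ZMod p) Gp)
    [Module.Finite (ZMod p) N]
    (hN : ∀ (g : Gp) (n : N),
      N.ρ g n = ((cycloChar p (localGaloisToGlobal p g) : (ZMod p)ˣ) : ZMod p) • n) :
    Finite (continuousH1 (localGaloisToGlobal p) N) := by
  classical
  have hp : p.Prime := Fact.out
  replace hN : ∀ (g : Gp) (n : N), N.ρ g n = omegaLoc p g • n := hN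
  obtain ⟨ζ0, hζ0⟩ := exists_primitiveRoot_Qbar (p := p)
  set ζ : Ωp := padicEmbedding p ζ0 with hζdef
  have hζ : IsPrimitiveRoot ζ p := hζ0.map_of_injective (padicEmbedding p).toRingHom.injective
  have hω : ∀ g : Gp, g ζ = zp p ζ (omegaLoc p g) := by
    intro g
    rw [hζdef, ← padicEmbedding_localGaloisToGlobal, cycloChar_spec _ ζ0 hζ0.pow_eq_one, map_pow]
    rfl
  obtain ⟨Φ, hΦ⟩ := exists_classMap (F := ℚ_[p]) (Ω := Ωp) (N := N) hζ (omegaLoc p) hω
  have hrep : ∀ x : continuousH1 (localGaloisToGlobal p) N,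
      ∃ c : cocycles₁ N, IsLevelConstant₁ (localGaloisToGlobal p) c ∧ (H1π N).hom c = x.1 :=
    fun x => (mem_continuousH1_iff _ N x.1).mp x.2
  choose c hc1 hc2 using hrep
  have htw : ∀ x, IsTwCocycle (omegaLoc p) (c x : Gp → N) := by
    intro x
    refine ⟨fun g h => ?_, exists_finite_of_isLevelConstant _ (hc1 x)⟩
    rw [(mem_cocycles₁_iff (c x : Gp → N)).mp (c x).2 g h, hN, add_comm]
  let Ψ : continuousH1 (localGaloisToGlobal p) N →
      (Fin (Module.finrank (ZMod p) N) → ℚ_[p]ˣ ⧸ (powMonoidHom p : ℚ_[p]ˣ →* ℚ_[p]ˣ).range) :=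
    fun x => Φ ⟨c x, htw x⟩
  have hΨ : Function.Injective Ψ := by
    intro x x' hxx'
    obtain ⟨m, hm⟩ := hΦ _ _ hxx'
    apply Subtype.ext
    rw [← hc2 x, ← hc2 x', H1π_eq_iff]
    refine ⟨m, ?_⟩
    funext g
    have := hm g
    simp only at this
    simp [this, hN]
  have hidx := index_range_pow_padic p hp2
  have hfi : (powMonoidHom p : ℚ_[p]ˣ →* ℚ_[p]ˣ).range.FiniteIndex :=
    ⟨by rw [hidx]; exact pow_ne_zero 2 hp.ne_zero⟩
  have hQfin : Finite (ℚ_[p]ˣ ⧸ (powMonoidHom p : ℚ_[p]ˣ →* ℚ_[p]ˣ).range) :=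
    Subgroup.finite_quotient_of_finiteIndex
  exact Finite.of_injective Ψ hΨ

/-- `Module.Finite` form, Prelude names. -/
theorem moduleFinite_continuousH1_omega (hp2 : p ≠ 2)
    (N : Rep (ZMod p) (primeLocalGaloisGroup (pPrime p))) [Module.Finite (ZMod p) N]
    (hN : ∀ (g : primeLocalGaloisGroup (pPrime p)) (n : N),
      N.ρ g n = ((cycloChar p (primeLocalToGlobal (pPrime p) g) : (ZMod p)ˣ) : ZMod p) • n) :
    Module.Finite (ZMod p) (continuousH1 (primeLocalToGlobal (pPrime p)) N) := by
  have : Finite (continuousH1 (primeLocalToGlobal (pPrime p)) N) :=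
    finite_continuousH1_cyclo hp2 N hN
  exact Module.Finite.of_finite

/-- **The Kummer input of `Local/StrictOrdCount`, discharged** (`p` odd, `k` finite over `𝔽_p`). -/
theorem kummerBound_primeLocal (hp2 : p ≠ 2) {k : Type} [Field k] [Algebra (ZMod p) k]
    [Module.Finite (ZMod p) k] :
    StrictOrdCount.KummerBound p (k := k) (primeLocalToGlobal (pPrime p)) := by
  intro A j hj hact
  have hfinA : Module.Finite (ZMod p) A := Module.Finite.of_injective j hj
  have hN : ∀ (g : primeLocalGaloisGroup (pPrime p)) (a : A),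
      A.ρ g a = ((cycloChar p (primeLocalToGlobal (pPrime p) g) : (ZMod p)ˣ) : ZMod p) • a := by
    intro g a
    apply hj
    rw [hact, map_smul, Algebra.smul_def]
  refine ⟨moduleFinite_continuousH1_omega hp2 A hN, ?_⟩
  calc Module.finrank (ZMod p) (continuousH1 (primeLocalToGlobal (pPrime p)) A)
      ≤ 2 * Module.finrank (ZMod p) A := finrank_continuousH1_omega_le hp2 A hN
    _ ≤ 2 * Module.finrank (ZMod p) k :=
        Nat.mul_le_mul_left 2 (LinearMap.finrank_le_finrank_of_injective hj)

end Fermat.Agent.S56x.Local.KummerBoundOmega
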