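/-
P-S56 block (A), sub-lemma for the backup of `BoundedKummerPadic` (helper96, for helper45):
a simple Kummer extension `K(α)`, `α ^ p ∈ K`, `α ∉ K`, `ζ_p ∈ K`, is Galois of degree `p` over `K`
(and in particular has a nontrivial automorphism).  Mathlib only.
-/
import Mathlib

set_option autoImplicit false
set_option linter.style.haveILetI false

namespace Fermat.Agent.S56x.Local.KummerSimpleExt

open Polynomial IntermediateField

section

variable {K Ω : Type*} [Field K] [Field Ω] [Algebra K Ω] {p : ℕ}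

/-- If `ζ_p ∈ K`, `α ^ p = u ∈ K` and `α ∉ K`, then `u` is not a `p`-th power in `K`. -/
theorem pow_ne_of_not_mem_range (hp : p.Prime) {ζ : K} (hζ : IsPrimitiveRoot ζ p) {u : K} {α : Ω}
    (hα : α ^ p = algebraMap K Ω u) (hαK : α ∉ (algebraMap K Ω).range) (b : K) : b ^ p ≠ u := by
  intro hb
  apply hαK
  haveI : NeZero p := ⟨hp.ne_zero⟩
  by_cases hb0 : b = 0
  · have hu : u = 0 := by rw [← hb, hb0, zero_pow hp.ne_zero]
    have hα0 : α = 0 := by
      rw [hu, map_zero] at hα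
      exact pow_eq_zero_iff hp.ne_zero |>.1 hα
    exact ⟨0, by rw [map_zero, hα0]⟩
  · have hβ0 : algebraMap K Ω b ≠ 0 := by
      rw [Ne, map_eq_zero]
      exact hb0
    have h1 : (α / algebraMap K Ω b) ^ p = 1 := by
      rw [div_pow, hα, ← hb, map_pow, div_self (pow_ne_zero _ hβ0)]
    have hζ' : IsPrimitiveRoot (algebraMap K Ω ζ) p :=
      hζ.map_of_injective (algebraMap K Ω).injective
    obtain ⟨j, -, hj⟩ := hζ'.eq_pow_of_pow_eq_one h1
    refine ⟨ζ ^ j * b, ?_⟩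
    rw [map_mul, map_pow, hj, div_mul_cancel₀ _ hβ0]

/-- `X ^ p - C u` is irreducible. -/
theorem irreducible_X_pow_sub_C (hp : p.Prime) {ζ : K} (hζ : IsPrimitiveRoot ζ p) {u : K} {α : Ω}
    (hα : α ^ p = algebraMap K Ω u) (hαK : α ∉ (algebraMap K Ω).range) :
    Irreducible (X ^ p - C u : K[X]) :=
  X_pow_sub_C_irreducible_of_prime hp (pow_ne_of_not_mem_range hp hζ hα hαK)

/-- The minimal polynomial of `α` is `X ^ p - C u`. -/
theorem minpoly_eq (hp : p.Prime) {ζ : K} (hζ : IsPrimitiveRoot ζ p) {u : K} {α : Ω}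
    (hα : α ^ p = algebraMap K Ω u) (hαK : α ∉ (algebraMap K Ω).range) :
    minpoly K α = X ^ p - C u := by
  refine (minpoly.eq_of_irreducible_of_monic (irreducible_X_pow_sub_C hp hζ hα hαK) ?_
    (monic_X_pow_sub_C u hp.ne_zero)).symm
  rw [map_sub, map_pow, aeval_X, aeval_C, hα, sub_self]

/-- `K(α)` is a splitting field of `X ^ p - C u`. -/
theorem isSplittingField_adjoin (hp : p.Prime) {ζ : K} (hζ : IsPrimitiveRoot ζ p) {u : K} {α : Ω}
    (hα : α ^ p = algebraMap K Ω u) :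
    (X ^ p - C u : K[X]).IsSplittingField K K⟮α⟯ := by
  have hsplit : ((X ^ p - C u : K[X]).map (algebraMap K K⟮α⟯)).Splits := by
    rw [Polynomial.map_sub, Polynomial.map_pow, Polynomial.map_C, Polynomial.map_X]
    refine X_pow_sub_C_splits_of_isPrimitiveRoot
      (hζ.map_of_injective (algebraMap K K⟮α⟯).injective) (α := AdjoinSimple.gen K α) ?_
    apply Subtype.ext
    simpa using hα
  rw [IntermediateField.isSplittingField_iff]
  refine ⟨hsplit, le_antisymm ?_ ?_⟩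
  · rw [adjoin_simple_le_iff]
    apply subset_adjoin
    rw [mem_rootSet_of_ne (X_pow_sub_C_ne_zero hp.pos u), map_sub, map_pow, aeval_X, aeval_C, hα,
      sub_self]
  · rw [adjoin_le_iff, ← hsplit.image_rootSet K⟮α⟯.val]
    rintro _ ⟨x, -, rfl⟩
    exact x.2

end

/-- **A simple Kummer extension of prime degree.** -/
theorem kummer_simple_ext {K Ω : Type*} [Field K] [Field Ω] [Algebra K Ω] {p : ℕ} (hp : p.Prime)
    {ζ : K} (hζ : IsPrimitiveRoot ζ p) {u : K} {α : Ω} (hα : α ^ p = algebraMap K Ω u)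
    (hαK : α ∉ (algebraMap K Ω).range) :
    Module.finrank K K⟮α⟯ = p ∧ IsGalois K K⟮α⟯ ∧ ∃ s : K⟮α⟯ ≃ₐ[K] K⟮α⟯, s ≠ 1 := by
  have H := irreducible_X_pow_sub_C hp hζ hα hαK
  have hne : (primitiveRoots p K).Nonempty := ⟨ζ, (mem_primitiveRoots hp.pos).2 hζ⟩
  haveI := isSplittingField_adjoin hp hζ hα
  have hgal : IsGalois K K⟮α⟯ := isGalois_of_isSplittingField_X_pow_sub_C hne H K⟮α⟯
  have hrank : Module.finrank K K⟮α⟯ = p := finrank_of_isSplittingField_X_pow_sub_C hne H K⟮α⟯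
  refine ⟨hrank, hgal, ?_⟩
  haveI : FiniteDimensional K K⟮α⟯ :=
    Polynomial.IsSplittingField.finiteDimensional K⟮α⟯ (X ^ p - C u : K[X])
  have hcard : Nat.card (K⟮α⟯ ≃ₐ[K] K⟮α⟯) = p := by
    rw [IsGalois.card_aut_eq_finrank, hrank]
  haveI : Nontrivial (K⟮α⟯ ≃ₐ[K] K⟮α⟯) := by
    rw [← Finite.one_lt_card_iff_nontrivial, hcard]
    exact hp.one_lt
  exact exists_ne 1

end Fermat.Agent.S56x.Local.KummerSimpleExt
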