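import Mathlib
import Fermat.Prelude.Def_GroupCohomology_Selmer

/-!
# P-S56 block (B), local line (L1): the tame upper bound for `H¹` of a finite group (FU)

`Γ` a finite group with *tame data*: normal subgroups `P ≤ I`, `|P|` invertible in `k`,
`I = ⟨τ⟩ P`, `Γ = ⟨φ⟩ I`, `φ τ φ⁻¹ ∈ τ^q P`, and a character `χ` with `χ(I) = 1`, `χ(φ) = q`.
(Model: `Γ = Gal(L/ℚ_q)`, `I = G₀`, `P = G₁`, `φ` a Frobenius, `χ` the mod `p` cyclotomic
character, `p ≠ q`.)  Then for every finite dimensional `A : Rep k Γ`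

  `dim H¹(Γ, A) ≤ dim A^Γ + dim (A^*(χ))^Γ`.

Pure algebra: no spectral sequence, no `H²`.
-/

set_option autoImplicit false
set_option linter.style.haveILetI false

universe u

namespace Fermat.Agent.S56x.Local.TameH1

open Module

/-! ### Cocycles of a representation, elementary identities -/

section Core

variable {k : Type*} [Field k] {Γ : Type*} [Group Γ] {M : Type*} [AddCommGroup M] [Module k M]
  (ρ : Representation k Γ M)

/-- The augmentation submodule `I_aug M` of a subgroup `I`: spanned by the `ρ h m - m`, `h ∈ I`. -/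
def aug (I : Subgroup Γ) : Submodule k M :=
  Submodule.span k {x | ∃ h ∈ I, ∃ m : M, x = ρ h m - m}

theorem sub_mem_aug {I : Subgroup Γ} {h : Γ} (hh : h ∈ I) (m : M) : ρ h m - m ∈ aug ρ I :=
  Submodule.subset_span ⟨h, hh, m, rfl⟩

/-- `I_aug M` is stable under the normaliser, in particular under `Γ` if `I` is normal. -/
theorem map_mem_aug {I : Subgroup Γ} [I.Normal] (g : Γ) {x : M} (hx : x ∈ aug ρ I) :
    ρ g x ∈ aug ρ I := by
  induction hx using Submodule.span_induction with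
  | mem x hx =>
    obtain ⟨h, hh, m, rfl⟩ := hx
    have : ρ g (ρ h m - m) = ρ (g * h * g⁻¹) (ρ g m) - ρ g m := by
      rw [map_sub, ← Module.End.mul_apply, ← Module.End.mul_apply, ← map_mul, ← map_mul,
        inv_mul_cancel_right]
    rw [this]
    exact sub_mem_aug ρ (Subgroup.Normal.conj_mem inferInstance h hh g) _
  | zero => simp
  | add x y _ _ hx hy => rw [map_add]; exact add_mem hx hy
  | smul a x _ hx => rw [map_smul]; exact Submodule.smul_mem _ _ hx

/-- `c` is a (inhomogeneous) `1`-cocycle. -/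
def IsCoc (c : Γ → M) : Prop := ∀ g h : Γ, c (g * h) = ρ g (c h) + c g

variable {ρ}

namespace IsCoc

variable {c : Γ → M} (hc : IsCoc ρ c)

include hc

theorem map_one : c 1 = 0 := by
  have := hc 1 1
  simpa using this

theorem map_inv (g : Γ) : c g⁻¹ = - ρ g⁻¹ (c g) := by
  have := hc g⁻¹ g
  rw [inv_mul_cancel, hc.map_one] at this
  exact eq_neg_of_add_eq_zero_right this.symm

/-- the zero set of a cocycle is a subgroup -/
def zeroSubgroup : Subgroup Γ where
  carrier := {g | c g = 0}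
  one_mem' := hc.map_one
  mul_mem' {a b} ha hb := by
    show c (a * b) = 0
    rw [hc a b, show c b = 0 from hb, show c a = 0 from ha]; simp
  inv_mem' {a} ha := by
    show c a⁻¹ = 0
    rw [hc.map_inv, show c a = 0 from ha]; simp

theorem mem_zeroSubgroup {g : Γ} : g ∈ hc.zeroSubgroup ↔ c g = 0 := Iff.rfl

/-- modulo `I_aug M` a cocycle is additive on `I` -/
theorem mul_sub_mem_aug {I : Subgroup Γ} {g : Γ} (hg : g ∈ I) (h : Γ) :
    c (g * h) - (c g + c h) ∈ aug ρ I := by
  have : c (g * h) - (c g + c h) = ρ g (c h) - c h := by rw [hc g h]; abel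
  rw [this]
  exact sub_mem_aug ρ hg _

theorem pow_sub_mem_aug {I : Subgroup Γ} {g : Γ} (hg : g ∈ I) (n : ℕ) :
    c (g ^ n) - (n : k) • c g ∈ aug ρ I := by
  induction n with
  | zero => simp [hc.map_one]
  | succ n ih =>
    have h1 := hc.mul_sub_mem_aug hg (g ^ n) (I := I)
    have : c (g ^ (n + 1)) - ((n + 1 : ℕ) : k) • c g =
        (c (g * g ^ n) - (c g + c (g ^ n))) + (c (g ^ n) - (n : k) • c g) := by
      rw [pow_succ', Nat.cast_succ, add_smul, one_smul]; abel
    rw [this]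
    exact add_mem h1 ih

/-- subtracting a coboundary -/
theorem sub_coboundary (m : M) : IsCoc ρ (fun g => c g - (ρ g m - m)) := by
  intro g h
  simp only [hc g h, map_mul, Module.End.mul_apply, map_sub]
  abel

end IsCoc

theorem isCoc_coboundary (m : M) : IsCoc ρ (fun g => ρ g m - m) := by
  intro g h
  simp only [map_mul, Module.End.mul_apply, map_sub]
  abel

end Core

/-! ### Averaging over a subgroup of invertible order -/

section Avg

variable {k : Type*} [Field k] {Γ : Type*} [Group Γ] {M : Type*} [AddCommGroup M] [Module k M]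
  (ρ : Representation k Γ M) (P : Subgroup Γ)

/-- the invariants of the subgroup `P` -/
def invSub : Submodule k M where
  carrier := {x | ∀ u ∈ P, ρ u x = x}
  add_mem' {a b} ha hb u hu := by rw [map_add, ha u hu, hb u hu]
  zero_mem' u _ := map_zero _
  smul_mem' a x hx u hu := by rw [map_smul, hx u hu]

theorem mem_invSub {x : M} : x ∈ invSub ρ P ↔ ∀ u ∈ P, ρ u x = x := Iff.rfl

variable [Fintype P]

/-- the sum over `P` -/
def sumP : M →ₗ[k] M := ∑ u : P, ρ (u : Γ)

theorem sumP_apply (x : M) : sumP ρ P x = ∑ u : P, ρ (u : Γ) x := by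
  simp [sumP, LinearMap.sum_apply]

theorem map_sumP {v : Γ} (hv : v ∈ P) (x : M) : ρ v (sumP ρ P x) = sumP ρ P x := by
  rw [sumP_apply, map_sum]
  refine Fintype.sum_equiv (Equiv.mulLeft (⟨v, hv⟩ : P)) _ _ fun u => ?_
  simp [← Module.End.mul_apply, ← map_mul]

theorem sumP_map {v : Γ} (hv : v ∈ P) (x : M) : sumP ρ P (ρ v x) = sumP ρ P x := by
  rw [sumP_apply, sumP_apply]
  refine Fintype.sum_equiv (Equiv.mulRight (⟨v, hv⟩ : P)) _ _ fun u => ?_
  simp [← Module.End.mul_apply, ← map_mul]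

theorem sumP_of_mem_invSub {x : M} (hx : x ∈ invSub ρ P) :
    sumP ρ P x = (Nat.card P : k) • x := by
  rw [sumP_apply, Finset.sum_congr rfl fun (u : P) _ => hx (u : Γ) u.2, Finset.sum_const,
    Finset.card_univ, Nat.card_eq_fintype_card, Nat.cast_smul_eq_nsmul]

/-- conjugation by an element normalising `P` commutes with the sum over `P` -/
theorem sumP_conj [P.Normal] (g : Γ) (x : M) : sumP ρ P (ρ g x) = ρ g (sumP ρ P x) := by
  rw [sumP_apply, sumP_apply, map_sum]
  refine Fintype.sum_equiv (MulAut.conjNormal (H := P) g⁻¹).toEquiv _ _ fun u => ?_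
  simp only [MulEquiv.toEquiv_eq_coe, MulEquiv.coe_toEquiv, MulAut.conjNormal_apply, inv_inv,
    ← Module.End.mul_apply, ← map_mul]
  congr 2
  group

variable {ρ P}

/-- **`H¹(P, M) = 0`** for `|P|` invertible: a cocycle is a coboundary on `P`. -/
theorem IsCoc.exists_coboundary_on {c : Γ → M} (hc : IsCoc ρ c) (hcard : (Nat.card P : k) ≠ 0) :
    ∃ m : M, ∀ u ∈ P, c u = ρ u m - m := by
  let S : M := ∑ u : P, c (u : Γ)
  refine ⟨-((Nat.card P : k)⁻¹ • S), fun v hv => ?_⟩
  have key : ρ v S - S = -((Nat.card P : k) • c v) := by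
    have h1 : ρ v S = ∑ u : P, (c (v * (u : Γ)) - c v) := by
      simp only [S, map_sum]
      exact Finset.sum_congr rfl fun u _ => by rw [hc v u]; abel
    have h2 : ∑ u : P, c (v * (u : Γ)) = S :=
      Fintype.sum_equiv (Equiv.mulLeft (⟨v, hv⟩ : P)) _ _ fun u => rfl
    rw [h1, Finset.sum_sub_distrib, h2, Finset.sum_const, Finset.card_univ,
      Nat.card_eq_fintype_card, Nat.cast_smul_eq_nsmul]
    abel
  rw [map_neg, map_smul, neg_sub_neg, ← smul_sub, ← neg_sub, smul_neg, key, smul_neg, neg_neg,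
    smul_smul, inv_mul_cancel₀ hcard, one_smul]

end Avg

/-! ### The two key facts on cocycles of a group with tame data -/

section Claims

variable {k : Type*} [Field k] {Γ : Type*} [Group Γ] {M : Type*} [AddCommGroup M] [Module k M]
  {ρ : Representation k Γ M} {I P : Subgroup Γ} [Fintype P] [P.Normal]

theorem commute_sumP (g : Γ) : Commute (sumP ρ P) (ρ g) := by
  refine LinearMap.ext fun x => ?_
  exact sumP_conj ρ P g x

/-- `Σ_P` maps `I_aug M` into `(τ - 1) M^P` when `I = ⟨τ⟩ P`. -/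
theorem sumP_mem_of_mem_aug {τ : Γ} (hgen : ∀ h ∈ I, ∃ n : ℕ, ∃ u ∈ P, h = τ ^ n * u)
    {x : M} (hx : x ∈ aug ρ I) :
    sumP ρ P x ∈ Submodule.map (ρ τ - 1) (invSub ρ P) := by
  have hle : aug ρ I ≤ Submodule.comap (sumP ρ P) (Submodule.map (ρ τ - 1) (invSub ρ P)) := by
    refine Submodule.span_le.2 ?_
    rintro _ ⟨h, hh, m, rfl⟩
    obtain ⟨n, u, hu, rfl⟩ := hgen h hh
    show sumP ρ P (ρ (τ ^ n * u) m - m) ∈ Submodule.map (ρ τ - 1) (invSub ρ P)
    set G : Module.End k M := ∑ j ∈ Finset.range n, ρ τ ^ j with hG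
    have hcomm : Commute (sumP ρ P) G :=
      Commute.sum_right _ _ _ fun j _ => (commute_sumP τ).pow_right j
    have h1 : sumP ρ P (ρ (τ ^ n * u) m - m) = (ρ τ - 1) (sumP ρ P (G m)) := by
      have h2 : sumP ρ P (G m) = G (sumP ρ P m) := by
        have := congrArg (fun f : Module.End k M => f m) hcomm.eq
        simpa [Module.End.mul_apply] using this
      rw [h2, ← Module.End.mul_apply, hG, mul_geom_sum, map_sub, map_mul, Module.End.mul_apply,
        map_pow]
      have h3 : sumP ρ P ((ρ τ ^ n) (ρ u m)) = (ρ τ ^ n) (sumP ρ P (ρ u m)) := by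
        have := congrArg (fun f : Module.End k M => f (ρ u m))
          ((commute_sumP (ρ := ρ) (P := P) τ).pow_right n).eq
        simpa [Module.End.mul_apply] using this
      rw [h3, sumP_map ρ P hu]
      simp
    rw [h1]
    exact Submodule.mem_map_of_mem fun v hv => map_sumP ρ P hv _
  exact hle hx

variable {c : Γ → M}

/-- **Claim 1.** A cocycle whose value at `τ` lies in `I_aug M` is a coboundary on `I = ⟨τ⟩ P`. -/
theorem IsCoc.exists_coboundary_on_I (hc : IsCoc ρ c)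
    (hcard : (Nat.card P : k) ≠ 0) {τ : Γ} (hτ : τ ∈ I)
    (hgen : ∀ h ∈ I, ∃ n : ℕ, ∃ u ∈ P, h = τ ^ n * u) (h0 : c τ ∈ aug ρ I) :
    ∃ m : M, ∀ h ∈ I, c h = ρ h m - m := by
  obtain ⟨m₀, hm₀⟩ := hc.exists_coboundary_on (P := P) hcard
  have hc₁ := hc.sub_coboundary m₀
  set c₁ : Γ → M := fun g => c g - (ρ g m₀ - m₀) with hc₁def
  have h1P : ∀ u ∈ P, c₁ u = 0 := fun u hu => by simp [hc₁def, hm₀ u hu]
  have hinv : c₁ τ ∈ invSub ρ P := by
    intro u hu
    have e1 : c₁ (u * τ) = ρ u (c₁ τ) := by rw [hc₁ u τ, h1P u hu, add_zero]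
    have hu' : τ⁻¹ * u * τ ∈ P := by
      have := Subgroup.Normal.conj_mem (inferInstance : P.Normal) u hu τ⁻¹
      simpa using this
    have e2 : c₁ (u * τ) = c₁ τ := by
      have : u * τ = τ * (τ⁻¹ * u * τ) := by group
      rw [this, hc₁ τ _, h1P _ hu', map_zero, zero_add]
    rw [← e1, e2]
  have haug : c₁ τ ∈ aug ρ I := sub_mem h0 (sub_mem_aug ρ hτ m₀)
  obtain ⟨y, hy, hy'⟩ := sumP_mem_of_mem_aug hgen haug
  rw [sumP_of_mem_invSub ρ P hinv] at hy'
  set y' : M := (Nat.card P : k)⁻¹ • y with hy'def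
  have hy'inv : y' ∈ invSub ρ P := Submodule.smul_mem _ _ hy
  have hy'τ : ρ τ y' - y' = c₁ τ := by
    have : ρ τ y' - y' = (Nat.card P : k)⁻¹ • ((ρ τ - 1) y) := by
      simp [hy'def, smul_sub]
    rw [this, hy', smul_smul, inv_mul_cancel₀ hcard, one_smul]
  have hc₂ := hc₁.sub_coboundary y'
  have hI : I ≤ hc₂.zeroSubgroup := by
    intro h hh
    obtain ⟨n, u, hu, rfl⟩ := hgen h hh
    refine mul_mem (pow_mem ?_ n) ?_
    · show c₁ τ - (ρ τ y' - y') = 0
      rw [hy'τ, sub_self]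
    · show c₁ u - (ρ u y' - y') = 0
      rw [h1P u hu, hy'inv u hu, sub_self, sub_self]
  refine ⟨m₀ + y', fun h hh => ?_⟩
  have := hI hh
  have h2 : c₁ h - (ρ h y' - y') = 0 := this
  simp only [hc₁def] at h2
  rw [map_add]
  have h3 : c h = (c h - (ρ h m₀ - m₀) - (ρ h y' - y')) + ((ρ h m₀ - m₀) + (ρ h y' - y')) := by
    abel
  rw [h3, h2]
  abel

omit [P.Normal] in
/-- **Claim 2.** `(φ - q) c(τ) ∈ I_aug M` when `φ τ φ⁻¹ ∈ τ^q P`. -/
theorem IsCoc.frob_mem_aug (hc : IsCoc ρ c) (hPI : P ≤ I) (hcard : (Nat.card P : k) ≠ 0)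
    {τ φ : Γ} (hτ : τ ∈ I) {q : ℕ} (hconj : ∃ u ∈ P, φ * τ * φ⁻¹ = τ ^ q * u) :
    ρ φ (c τ) - (q : k) • c τ ∈ aug ρ I := by
  obtain ⟨u, hu, hφ⟩ := hconj
  obtain ⟨m₀, hm₀⟩ := hc.exists_coboundary_on (P := P) hcard
  have hτq : τ ^ q ∈ I := pow_mem hτ q
  have hτqu : τ ^ q * u ∈ I := mul_mem hτq (hPI hu)
  have e1 : φ * τ = τ ^ q * u * φ := by rw [← hφ]; group
  have e2 : ρ φ (c τ) + c φ = ρ (τ ^ q * u) (c φ) + c (τ ^ q * u) := by
    rw [← hc φ τ, e1, hc (τ ^ q * u) φ]
  have e3 : ρ φ (c τ) - (q : k) • c τ =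
      (ρ (τ ^ q * u) (c φ) - c φ) + (c (τ ^ q * u) - (c (τ ^ q) + c u)) +
        (c (τ ^ q) - (q : k) • c τ) + c u := by
    have : ρ φ (c τ) = ρ (τ ^ q * u) (c φ) + c (τ ^ q * u) - c φ := by
      rw [← e2]; abel
    rw [this]; abel
  rw [e3]
  refine add_mem (add_mem (add_mem (sub_mem_aug ρ hτqu _) (hc.mul_sub_mem_aug hτq u))
    (hc.pow_sub_mem_aug hτ q)) ?_
  rw [hm₀ u hu]
  exact sub_mem_aug ρ (hPI hu) _

end Claims

/-! ### Tame data and the bound -/

/-- **Tame data** on a group `Γ` (model: `Gal(L/ℚ_q)`, `I = G₀`, `P = G₁`, `φ` a Frobenius, `χ` the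
mod `p` cyclotomic character, `p ≠ q`). -/
structure TameData (Γ : Type*) [Group Γ] (k : Type*) [Field k] (χ : Γ →* kˣ) (q : ℕ) where
  /-- the inertia subgroup -/
  I : Subgroup Γ
  /-- the wild inertia subgroup -/
  P : Subgroup Γ
  I_normal : I.Normal
  P_normal : P.Normal
  P_le : P ≤ I
  card_P : (Nat.card P : k) ≠ 0
  /-- a generator of the tame inertia -/
  τ : Γ
  /-- a Frobenius element -/
  φ : Γ
  τ_mem : τ ∈ I
  gen_I : ∀ h ∈ I, ∃ n : ℕ, ∃ u ∈ P, h = τ ^ n * u
  gen_Γ : ∀ g : Γ, ∃ n : ℕ, ∃ h ∈ I, g = φ ^ n * h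
  conj : ∃ u ∈ P, φ * τ * φ⁻¹ = τ ^ q * u
  χ_I : ∀ h ∈ I, χ h = 1
  χ_φ : (χ φ : k) = q

section Bound

open groupCohomology

variable {k Γ : Type u} [Field k] [Group Γ] {χ : Γ →* kˣ} {q : ℕ} (T : TameData Γ k χ q)
  (A : Rep.{u} k Γ)

theorem isCoc_of_mem_cocycles₁ (c : cocycles₁ A) : IsCoc A.ρ (c : Γ → A) :=
  fun g h => (mem_cocycles₁_iff (c : Γ → A)).1 c.2 g h

/-- the coboundary map with values in the cocycles -/
noncomputable def dCoc : A →ₗ[k] cocycles₁ A :=
  (d₀₁ A).hom.codRestrict (cocycles₁ A) (d₀₁_apply_mem_cocycles₁ (A := A))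

theorem dCoc_apply (m : A) (g : Γ) : (dCoc A m : Γ → A) g = A.ρ g m - m := by
  show (d₀₁ A).hom m g = _
  rw [d₀₁_hom_apply]

theorem ker_dCoc : LinearMap.ker (dCoc A) = A.ρ.invariants := by
  rw [dCoc, LinearMap.ker_codRestrict, d₀₁_ker_eq_invariants]

/-- the kernel of `Z¹ → H¹` (the coboundaries, inside the cocycles) -/
noncomputable def kerπ : Submodule k (cocycles₁ A) := LinearMap.ker (H1π A).hom

theorem dCoc_mem_kerπ (m : A) : dCoc A m ∈ kerπ A := by
  rw [kerπ, LinearMap.mem_ker]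
  exact (H1π_eq_zero_iff _).2 ⟨m, rfl⟩

theorem finrank_H1_add_finrank_kerπ [Finite Γ] [FiniteDimensional k A] :
    finrank k (H1 A) + finrank k (kerπ A) = finrank k (cocycles₁ A) := by
  have hsurj : Function.Surjective (H1π A).hom :=
    (ModuleCat.epi_iff_surjective (H1π A)).1 inferInstance
  have := LinearMap.finrank_range_add_finrank_ker (H1π A).hom
  rw [LinearMap.range_eq_top.2 hsurj, finrank_top] at this
  exact this

/-- the cocycles vanishing on `I` -/
def Z₀ (I : Subgroup Γ) : Submodule k (cocycles₁ A) where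
  carrier := {c | ∀ h ∈ I, c h = 0}
  add_mem' {a b} ha hb h hh := by
    show (a + b : cocycles₁ A) h = 0
    have : ((a + b : cocycles₁ A) : Γ → A) h = a h + b h := rfl
    rw [this, ha h hh, hb h hh, add_zero]
  zero_mem' h _ := rfl
  smul_mem' r a ha h hh := by
    have : ((r • a : cocycles₁ A) : Γ → A) h = r • a h := rfl
    show (r • a : cocycles₁ A) h = 0
    rw [this, ha h hh, smul_zero]

/-- Frobenius on `M_I = M / I_aug M` -/
noncomputable def frobQ : (A ⧸ aug A.ρ T.I) →ₗ[k] (A ⧸ aug A.ρ T.I) :=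
  Submodule.mapQ _ _ (A.ρ T.φ) (fun _ hx => by
    haveI := T.I_normal
    exact map_mem_aug A.ρ T.φ hx)

/-- `E = ker (φ - q | M_I)` -/
noncomputable def E : Submodule k (A ⧸ aug A.ρ T.I) :=
  LinearMap.ker (frobQ T A - (q : k) • LinearMap.id)

/-- `c ↦ [c(τ)] ∈ M_I` -/
noncomputable def Φ : cocycles₁ A →ₗ[k] (A ⧸ aug A.ρ T.I) :=
  (aug A.ρ T.I).mkQ ∘ₗ (LinearMap.proj T.τ) ∘ₗ (cocycles₁ A).subtype

theorem Φ_apply (c : cocycles₁ A) : Φ T A c = Submodule.Quotient.mk (c T.τ) := rfl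

variable [Finite Γ]

theorem range_Φ_le : LinearMap.range (Φ T A) ≤ E T A := by
  rintro _ ⟨c, rfl⟩
  haveI := Fintype.ofFinite T.P
  have h := (isCoc_of_mem_cocycles₁ A c).frob_mem_aug T.P_le T.card_P T.τ_mem T.conj
  rw [E, LinearMap.mem_ker, LinearMap.sub_apply, LinearMap.smul_apply, LinearMap.id_apply,
    Φ_apply, frobQ, Submodule.mapQ_apply, ← Submodule.Quotient.mk_smul,
    ← Submodule.Quotient.mk_sub, Submodule.Quotient.mk_eq_zero]
  exact h

theorem ker_Φ_le : LinearMap.ker (Φ T A) ≤ Z₀ A T.I ⊔ kerπ A := by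
  intro c hc
  haveI := Fintype.ofFinite T.P
  haveI := T.P_normal
  rw [LinearMap.mem_ker, Φ_apply, Submodule.Quotient.mk_eq_zero] at hc
  obtain ⟨m, hm⟩ := (isCoc_of_mem_cocycles₁ A c).exists_coboundary_on_I T.card_P T.τ_mem
    T.gen_I hc
  have h1 : c - dCoc A m ∈ Z₀ A T.I := by
    intro h hh
    have : ((c - dCoc A m : cocycles₁ A) : Γ → A) h = c h - (dCoc A m : Γ → A) h := rfl
    show (c - dCoc A m : cocycles₁ A) h = 0
    rw [this, dCoc_apply, hm h hh, sub_self]
  have h2 : c = (c - dCoc A m) + dCoc A m := by abel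
  rw [h2]
  exact Submodule.add_mem_sup h1 (dCoc_mem_kerπ A m)

omit [Finite Γ] in
/-- a cocycle vanishing on the normal subgroup `I` has values in `M^I` -/
theorem apply_mem_invSub_of_mem_Z₀ {c : cocycles₁ A} (hc : c ∈ Z₀ A T.I) (g : Γ) :
    c g ∈ invSub A.ρ T.I := by
  intro h hh
  have hcoc := isCoc_of_mem_cocycles₁ A c
  have e1 : c (h * g) = A.ρ h (c g) := by rw [hcoc h g, hc h hh, add_zero]
  have hh' : g⁻¹ * h * g ∈ T.I := by
    have := Subgroup.Normal.conj_mem T.I_normal h hh g⁻¹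
    simpa using this
  have e2 : c (h * g) = c g := by
    have : h * g = g * (g⁻¹ * h * g) := by group
    rw [this, hcoc g _, hc _ hh', map_zero, zero_add]
  rw [← e1, e2]

omit [Finite Γ] in
/-- a cocycle vanishing on `I` and at `φ` vanishes -/
theorem eq_zero_of_mem_Z₀ {c : cocycles₁ A} (hc : c ∈ Z₀ A T.I) (hφ : c T.φ = 0) : c = 0 := by
  have hcoc := isCoc_of_mem_cocycles₁ A c
  refine cocycles₁_ext fun g => ?_
  obtain ⟨n, h, hh, rfl⟩ := T.gen_Γ g
  have : T.φ ^ n * h ∈ hcoc.zeroSubgroup :=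
    mul_mem (pow_mem (show T.φ ∈ hcoc.zeroSubgroup from hφ) n) (show h ∈ hcoc.zeroSubgroup from hc h hh)
  exact this

variable [FiniteDimensional k A]

omit [Finite Γ] in
theorem finrank_Z₀_le : finrank k (Z₀ A T.I) ≤ finrank k (invSub A.ρ T.I) := by
  let ev : Z₀ A T.I →ₗ[k] invSub A.ρ T.I :=
    { toFun := fun c => ⟨c.1 T.φ, apply_mem_invSub_of_mem_Z₀ T A c.2 T.φ⟩
      map_add' := fun a b => rfl
      map_smul' := fun r a => rfl }
  refine LinearMap.finrank_le_finrank_of_injective (f := ev) ?_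
  rw [injective_iff_map_eq_zero]
  intro c hc
  have h1 : c.1 T.φ = 0 := congrArg Subtype.val hc
  exact Subtype.ext (eq_zero_of_mem_Z₀ T A c.2 h1)

theorem finrank_invSub_le :
    finrank k (invSub A.ρ T.I) ≤
      finrank k ↥(Z₀ A T.I ⊓ kerπ A) + finrank k A.ρ.invariants := by
  set J := invSub A.ρ T.I
  have h1 := LinearMap.finrank_range_add_finrank_ker ((dCoc A).domRestrict J)
  have h2 : LinearMap.range ((dCoc A).domRestrict J) ≤ Z₀ A T.I ⊓ kerπ A := by
    rintro _ ⟨m, rfl⟩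
    refine ⟨fun h hh => ?_, dCoc_mem_kerπ A m.1⟩
    show (dCoc A m.1 : Γ → A) h = 0
    rw [dCoc_apply, m.2 h hh, sub_self]
  have h3 : finrank k (LinearMap.ker ((dCoc A).domRestrict J)) ≤ finrank k A.ρ.invariants := by
    rw [LinearMap.ker_domRestrict, ker_dCoc]
    have e := (Submodule.equivMapOfInjective J.subtype J.subtype_injective
      (Submodule.comap J.subtype A.ρ.invariants)).finrank_eq
    rw [e, Submodule.map_comap_subtype]
    exact Submodule.finrank_mono inf_le_right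
  have h4 := Submodule.finrank_mono h2
  omega

/-- **The tame bound, first form**: `dim H¹(Γ, A) ≤ dim A^Γ + dim ker (φ - q | A_I)`. -/
theorem finrank_H1_le_add_finrank_E :
    finrank k (H1 A) ≤ finrank k A.ρ.invariants + finrank k (E T A) := by
  have ha := finrank_H1_add_finrank_kerπ A
  have hb := LinearMap.finrank_range_add_finrank_ker (Φ T A)
  have hb' := Submodule.finrank_mono (range_Φ_le T A)
  have hc := Submodule.finrank_mono (ker_Φ_le T A)
  have hc' := Submodule.finrank_sup_add_finrank_inf_eq (Z₀ A T.I) (kerπ A)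
  have hd := finrank_Z₀_le T A
  have he := finrank_invSub_le T A
  omega

/-! ### `dim ker (φ - q | A_I) ≤ dim (A^*(χ))^Γ` -/

omit [Finite Γ] in
theorem finrank_ker_dualMap_eq {V : Type*} [AddCommGroup V] [Module k V] [FiniteDimensional k V]
    (f : V →ₗ[k] V) : finrank k (LinearMap.ker f.dualMap) = finrank k (LinearMap.ker f) := by
  have h1 := LinearMap.finrank_range_add_finrank_ker f
  have h2 := LinearMap.finrank_range_add_finrank_ker f.dualMap
  have h3 := LinearMap.finrank_range_dualMap_eq_finrank_range f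
  have h4 : finrank k (Module.Dual k V) = finrank k V := Subspace.dual_finrank_eq
  omega

omit [Finite Γ] [FiniteDimensional k A] in
/-- a linear form on `A_I` killed by the transpose of `φ - q` gives an invariant of `A^*(χ)` -/
theorem comp_mkQ_mem_invariants (f : Module.Dual k (A ⧸ aug A.ρ T.I))
    (hf : f ∈ LinearMap.ker (frobQ T A - (q : k) • LinearMap.id).dualMap) :
    ((aug A.ρ T.I).mkQ.dualMap f : Module.Dual k A) ∈ (A.dualTwist χ).ρ.invariants := by
  set F : Module.Dual k A := (aug A.ρ T.I).mkQ.dualMap f with hF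
  have hFm : ∀ m : A, F m = f (Submodule.Quotient.mk m) := fun m => rfl
  -- invariance under `I`
  have hI : ∀ h ∈ T.I, (A.dualTwist χ).ρ h F = F := by
    intro h hh
    rw [Rep.dualTwist_ρ_apply, T.χ_I h hh, Units.val_one, one_smul]
    refine LinearMap.ext fun m => ?_
    rw [LinearMap.comp_apply, hFm, hFm]
    have : (Submodule.Quotient.mk (A.ρ h⁻¹ m) : A ⧸ aug A.ρ T.I) = Submodule.Quotient.mk m :=
      (Submodule.Quotient.eq _).2 (sub_mem_aug A.ρ (inv_mem hh) m)
    rw [this]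
  -- invariance under `φ`
  have hφ : (A.dualTwist χ).ρ T.φ F = F := by
    rw [Rep.dualTwist_ρ_apply, T.χ_φ]
    refine LinearMap.ext fun m => ?_
    rw [LinearMap.smul_apply, LinearMap.comp_apply, hFm, hFm]
    rw [LinearMap.mem_ker] at hf
    have h1 := congrArg (fun g : Module.Dual k (A ⧸ aug A.ρ T.I) =>
      g (Submodule.Quotient.mk (A.ρ T.φ⁻¹ m))) hf
    simp only [LinearMap.dualMap_apply, LinearMap.sub_apply, LinearMap.smul_apply,
      LinearMap.id_apply, LinearMap.zero_apply, map_sub, map_smul, frobQ,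
      Submodule.mapQ_apply] at h1
    have h2 : A.ρ T.φ (A.ρ T.φ⁻¹ m) = m := by
      rw [← Module.End.mul_apply, ← map_mul, mul_inv_cancel, map_one, Module.End.one_apply]
    rw [h2] at h1
    rw [smul_eq_mul]
    exact (sub_eq_zero.1 h1).symm
  intro g
  obtain ⟨n, h, hh, rfl⟩ := T.gen_Γ g
  rw [map_mul, Module.End.mul_apply, hI h hh, map_pow]
  induction n with
  | zero => simp
  | succ n ih => rw [pow_succ, Module.End.mul_apply, hφ, ih]

omit [Finite Γ] in
theorem finrank_E_le : finrank k (E T A) ≤ finrank k (A.dualTwist χ).ρ.invariants := by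
  rw [E, ← finrank_ker_dualMap_eq]
  let Ψ : LinearMap.ker (frobQ T A - (q : k) • LinearMap.id).dualMap →ₗ[k]
      (A.dualTwist χ).ρ.invariants :=
    { toFun := fun f => ⟨(aug A.ρ T.I).mkQ.dualMap f.1, comp_mkQ_mem_invariants T A f.1 f.2⟩
      map_add' := fun a b => Subtype.ext (map_add _ _ _)
      map_smul' := fun r a => Subtype.ext (map_smul _ _ _) }
  refine LinearMap.finrank_le_finrank_of_injective (f := Ψ) ?_
  intro a b hab
  have h1 : (aug A.ρ T.I).mkQ.dualMap a.1 = (aug A.ρ T.I).mkQ.dualMap b.1 :=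
    congrArg Subtype.val hab
  exact Subtype.ext (LinearMap.dualMap_injective_of_surjective
    (Submodule.mkQ_surjective _) h1)

/-- **The tame bound (FU).**  For a finite group `Γ` with tame data and a finite dimensional
representation `A`: `dim H¹(Γ, A) ≤ dim A^Γ + dim (A^*(χ))^Γ`. -/
theorem finrank_H1_le (T : TameData Γ k χ q) :
    finrank k (H1 A) ≤ finrank k A.ρ.invariants + finrank k (A.dualTwist χ).ρ.invariants :=
  (finrank_H1_le_add_finrank_E T A).trans (Nat.add_le_add_left (finrank_E_le T A) _)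

end Bound

end Fermat.Agent.S56x.Local.TameH1
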