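import Fermat.Agent.Lib.CFT.Duality.LocalTateArith
import Fermat.Agent.S56x.Local.PadicFinite
import Fermat.Agent.S56x.Local.TameH1Bound

/-!
# P-S56 block (B), local line, input (T-b): tame data for the finite quotients of the local
Galois group — the field-free plumbing

`G = primeLocalGaloisGroup q = Gal(PadicAlgCl q / ℚ_[q])`, `U` a normal level (the fixing subgroup
of a finite Galois extension `E / ℚ_[q]`), `χ'` a character of `G ⧸ U` lifting to the local mod `p`
cyclotomic character.  We reduce `Nonempty (TameData (G ⧸ U) (ZMod p) χ' q)` to the same statement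
for the concrete finite Galois group `Gal(E / ℚ_[q])` with a character `χE` which acts on
`μ_p(E)` as the cyclotomic character (`σ ζ = ζ ^ (χE σ).val`), where `E` contains a primitive
`p`-th root of unity.

* `TameData.ofMulEquiv` : transport of tame data along a group isomorphism;
* `quotEquiv E : Gal(L/K) ⧸ Gal(L/E) ≃* Gal(E/K)`;
* `exists_galois_of_normal_level` : normal levels are fixing subgroups of finite Galois extensions;
* `apply_rootOfUnity` : `σ z = z ^ (localCycloChar σ).val` for `z ^ p = 1` in `PadicAlgCl q`;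
* `nonempty_tameData_quot` : the reduction.
-/

set_option autoImplicit false
set_option linter.style.haveILetI false

open IntermediateField

namespace Fermat.Agent.S56x.Local.TameDataLocal

open Fermat.Agent.Lib.CFT.Profinite Fermat.Agent.Lib.CFT.Profinite.Bridge
open Fermat.Agent.Lib.CFT.Duality Fermat.Agent.Lib.CFT.Duality.LocalTate ExtCitation
open Fermat.Agent.S56x.Local.TameH1

/-! ### Transport of tame data along an isomorphism -/

section Transport

variable {Γ Γ' : Type*} [Group Γ] [Group Γ'] {k : Type*} [Field k]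

/-- tame data can be transported along a group isomorphism. -/
noncomputable def TameData.ofMulEquiv {χ' : Γ' →* kˣ} {q : ℕ} (e : Γ ≃* Γ')
    (T : TameData Γ' k χ' q) : TameData Γ k (χ'.comp e.toMonoidHom) q where
  I := T.I.map e.symm.toMonoidHom
  P := T.P.map e.symm.toMonoidHom
  I_normal := by
    haveI := T.I_normal
    exact Subgroup.Normal.map inferInstance _ e.symm.surjective
  P_normal := by
    haveI := T.P_normal
    exact Subgroup.Normal.map inferInstance _ e.symm.surjective
  P_le := Subgroup.map_mono T.P_le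
  card_P := by
    have h : Nat.card (T.P.map e.symm.toMonoidHom) = Nat.card T.P :=
      Nat.card_congr (T.P.equivMapOfInjective e.symm.toMonoidHom e.symm.injective).symm.toEquiv
    rw [h]
    exact T.card_P
  τ := e.symm T.τ
  φ := e.symm T.φ
  τ_mem := Subgroup.mem_map_of_mem _ T.τ_mem
  gen_I := by
    rintro _ ⟨h', hh', rfl⟩
    obtain ⟨n, u, hu, rfl⟩ := T.gen_I h' hh'
    exact ⟨n, e.symm u, Subgroup.mem_map_of_mem _ hu, by simp⟩
  gen_Γ := by
    intro g
    obtain ⟨n, h, hh, hg⟩ := T.gen_Γ (e g)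
    refine ⟨n, e.symm h, Subgroup.mem_map_of_mem _ hh, ?_⟩
    apply e.injective
    simp [hg]
  conj := by
    obtain ⟨u, hu, h⟩ := T.conj
    refine ⟨e.symm u, Subgroup.mem_map_of_mem _ hu, ?_⟩
    apply e.injective
    simp [h]
  χ_I := by
    rintro _ ⟨h', hh', rfl⟩
    simpa using T.χ_I h' hh'
  χ_φ := by
    simpa using T.χ_φ

/-- transport with a prescribed character. -/
theorem TameData.nonempty_of_mulEquiv {χ : Γ →* kˣ} {χ' : Γ' →* kˣ} {q : ℕ} (e : Γ ≃* Γ')
    (hχ : ∀ g, χ' (e g) = χ g) (T : Nonempty (TameData Γ' k χ' q)) :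
    Nonempty (TameData Γ k χ q) := by
  obtain ⟨T⟩ := T
  have : χ = χ'.comp e.toMonoidHom := by
    ext g
    simp [hχ g]
  rw [this]
  exact ⟨TameData.ofMulEquiv e T⟩

end Transport

/-! ### Quotients of Galois groups -/

section Generic

variable {K L : Type*} [Field K] [Field L] [Algebra K L]

/-- the fixing subgroup of a normal intermediate field is normal. -/
instance fixingSubgroup_normal_of_normal (E : IntermediateField K L) [Normal K E] :
    E.fixingSubgroup.Normal := by
  rw [← E.restrictNormalHom_ker]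
  exact MonoidHom.normal_ker _

/-- `Gal(L/K) ⧸ Gal(L/E) ≃* Gal(E/K)` for a normal intermediate field `E` of a normal
extension. -/
noncomputable def quotEquiv [Normal K L] (E : IntermediateField K L) [Normal K E] :
    (L ≃ₐ[K] L) ⧸ E.fixingSubgroup ≃* (E ≃ₐ[K] E) :=
  (QuotientGroup.quotientMulEquivOfEq E.restrictNormalHom_ker.symm).trans
    (QuotientGroup.quotientKerEquivOfSurjective (AlgEquiv.restrictNormalHom E)
      (AlgEquiv.restrictNormalHom_surjective L))

@[simp] theorem quotEquiv_mk [Normal K L] (E : IntermediateField K L) [Normal K E]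
    (σ : L ≃ₐ[K] L) :
    quotEquiv E (QuotientGroup.mk σ) = AlgEquiv.restrictNormalHom E σ := rfl

end Generic

/-! ### The local Galois group -/

section Local

variable (p : ℕ) [Fact p.Prime] (q : ℕ) [Fact q.Prime]

local notation "Gq" => (PadicAlgCl q ≃ₐ[ℚ_[q]] PadicAlgCl q)

/-- a normal local level is the fixing subgroup of a finite Galois extension of `ℚ_[q]`. -/
theorem exists_galois_of_normal_level (U : Subgroup Gq)
    (hU : U ∈ (localLevels q).levels) (hn : U.Normal) :
    ∃ E : IntermediateField ℚ_[q] (PadicAlgCl q),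
      FiniteDimensional ℚ_[q] E ∧ IsGalois ℚ_[q] E ∧ U = E.fixingSubgroup := by
  obtain ⟨E, hE, rfl⟩ := hU
  exact ⟨E, hE, (InfiniteGalois.normal_iff_isGalois E).mp hn, rfl⟩

/-- the local Galois group acts on the `p`-th roots of unity of `PadicAlgCl q` through the
(Prelude's) mod `p` cyclotomic character. -/
theorem apply_rootOfUnity (σ : Gq) {z : PadicAlgCl q} (hz : z ^ p = 1) :
    σ z = z ^ ((cycloChar p (localGaloisToGlobal q σ) : ZMod p)).val := by
  have hp : p.Prime := Fact.out
  haveI : NeZero p := ⟨hp.ne_zero⟩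
  -- a primitive root in `Qbar` and its image
  obtain ⟨ζ₀, hζ₀⟩ := HasEnoughRootsOfUnity.exists_primitiveRoot (AlgebraicClosure ℚ) p
  have hζ₁ : IsPrimitiveRoot (padicEmbedding q ζ₀) p :=
    hζ₀.map_of_injective (padicEmbedding q).toRingHom.injective
  obtain ⟨i, -, rfl⟩ := hζ₁.eq_pow_of_pow_eq_one hz
  -- the action on `ζ₀`
  have hζ0 : ζ₀ ≠ 0 := hζ₀.ne_zero hp.ne_zero
  have hmem : Units.mk0 ζ₀ hζ0 ∈ rootsOfUnity p (AlgebraicClosure ℚ) := by
    rw [mem_rootsOfUnity]
    exact Units.ext (by simpa using hζ₀.pow_eq_one)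
  have hspec := modularCyclotomicCharacter.spec (AlgebraicClosure ℚ)
    (card_rootsOfUnity_eq_self p)
    ((localGaloisToGlobal q σ : AlgebraicClosure ℚ ≃ₐ[ℚ] AlgebraicClosure ℚ) :
      AlgebraicClosure ℚ ≃+* AlgebraicClosure ℚ) hmem
  have h1 : localGaloisToGlobal q σ ζ₀ =
      ζ₀ ^ ((cycloChar p (localGaloisToGlobal q σ) : ZMod p)).val := by
    rw [val_cycloChar]
    simpa [cycloExp] using hspec
  rw [map_pow, ← padicEmbedding_localGaloisToGlobal, h1, map_pow, ← pow_mul, ← pow_mul, mul_comm]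

end Local

/-! ### The reduction -/

section ReductionAux

variable (p : ℕ) [Fact p.Prime] (q : ℕ) [Fact q.Prime] (qn : ℕ)

local notation "Gq" => (PadicAlgCl q ≃ₐ[ℚ_[q]] PadicAlgCl q)

/-- the reduction, for the concrete group `Gal(PadicAlgCl q / ℚ_[q])`. -/
theorem nonempty_tameData_quot_aux
    (core : ∀ (E : IntermediateField ℚ_[q] (PadicAlgCl q))
        [FiniteDimensional ℚ_[q] E] [IsGalois ℚ_[q] E]
        (χE : (E ≃ₐ[ℚ_[q]] E) →* (ZMod p)ˣ),
        (∃ ζ : E, IsPrimitiveRoot ζ p) →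
        (∀ (σ : E ≃ₐ[ℚ_[q]] E) (ζ : E), ζ ^ p = 1 → σ ζ = ζ ^ ((χE σ : ZMod p)).val) →
        Nonempty (TameData (E ≃ₐ[ℚ_[q]] E) (ZMod p) χE qn))
    (U : Subgroup Gq) (hU : U ∈ (localLevels q).levels)
    [hn : U.Normal] (χ' : Gq ⧸ U →* (ZMod p)ˣ)
    (hχ' : χ'.comp (QuotientGroup.mk' U) = (cycloChar p).comp (localGaloisToGlobal q)) :
    Nonempty (TameData (Gq ⧸ U) (ZMod p) χ' qn) := by
  have hp : p.Prime := Fact.out
  haveI : NeZero p := ⟨hp.ne_zero⟩
  obtain ⟨E, hE, hgal, rfl⟩ := exists_galois_of_normal_level q U hU hn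
  haveI := hE
  haveI := hgal
  -- the character of `G`
  have hχG : ∀ σ : Gq, χ' (QuotientGroup.mk σ) = cycloChar p (localGaloisToGlobal q σ) := by
    intro σ
    have := congrArg (fun f => f σ) hχ'
    exact this
  -- the character on `Gal(E/ℚ_q)`
  let e := quotEquiv (K := ℚ_[q]) (L := PadicAlgCl q) E
  let χE : (E ≃ₐ[ℚ_[q]] E) →* (ZMod p)ˣ := χ'.comp e.symm.toMonoidHom
  have hχE : ∀ σ : Gq,
      χE (AlgEquiv.restrictNormalHom E σ) = cycloChar p (localGaloisToGlobal q σ) := by
    intro σ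
    rw [← hχG σ]
    show χ' (e.symm (AlgEquiv.restrictNormalHom E σ)) = _
    rw [← quotEquiv_mk E σ, MulEquiv.symm_apply_apply]
  -- `U` fixes the roots of unity, so they lie in `E`
  have hfix : ∀ z : PadicAlgCl q, z ^ p = 1 → z ∈ E := by
    intro z hz
    rw [← InfiniteGalois.fixedField_fixingSubgroup E, IntermediateField.mem_fixedField_iff]
    intro σ hσ
    have h1 : χ' (QuotientGroup.mk σ) = 1 := by
      rw [(QuotientGroup.eq_one_iff σ).mpr hσ, map_one]
    rw [hχG σ] at h1
    rw [apply_rootOfUnity p q σ hz, h1]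
    simp [ZMod.val_one]
  -- a primitive root in `E`
  obtain ⟨ζ₁, hζ₁⟩ := HasEnoughRootsOfUnity.exists_primitiveRoot (PadicAlgCl q) p
  have hprim : ∃ ζ : E, IsPrimitiveRoot ζ p := by
    refine ⟨⟨ζ₁, hfix ζ₁ hζ₁.pow_eq_one⟩, ?_⟩
    exact IsPrimitiveRoot.of_map_of_injective (f := algebraMap E (PadicAlgCl q)) hζ₁
      (algebraMap E (PadicAlgCl q)).injective
  -- the cyclotomic property of `χE`
  have hspec : ∀ (σ' : E ≃ₐ[ℚ_[q]] E) (ζ : E), ζ ^ p = 1 →
      σ' ζ = ζ ^ ((χE σ' : ZMod p)).val := by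
    intro σ' ζ hζ
    obtain ⟨σ, rfl⟩ := AlgEquiv.restrictNormalHom_surjective (F := ℚ_[q])
      (K₁ := E) (PadicAlgCl q) σ'
    apply Subtype.ext
    have hz : (ζ : PadicAlgCl q) ^ p = 1 := by
      have := congrArg (fun x : E => (x : PadicAlgCl q)) hζ
      simpa using this
    have h2 : ((AlgEquiv.restrictNormalHom E σ ζ : E) : PadicAlgCl q) = σ ζ :=
      AlgEquiv.restrictNormal_commutes σ E ζ
    rw [h2, apply_rootOfUnity p q σ hz, hχE σ]
    simp
  exact TameData.nonempty_of_mulEquiv e (fun g => by simp [χE]) (core E χE hprim hspec)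

end ReductionAux

section Reduction

variable (p : ℕ) [Fact p.Prime] (q : Nat.Primes)

/-- **(T-b).**  Tame data for the finite quotients of the local Galois group at `q` follow from
tame data for the Galois groups `Gal(E/ℚ_[q])` of the finite Galois extensions `E` of `ℚ_[q]`
containing a primitive `p`-th root of unity, with a character acting on `μ_p(E)` as the cyclotomic
character. -/
theorem nonempty_tameData_quot
    (core : haveI : Fact (q : ℕ).Prime := ⟨q.2⟩
      ∀ (E : IntermediateField ℚ_[(q : ℕ)] (PadicAlgCl (q : ℕ)))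
        [FiniteDimensional ℚ_[(q : ℕ)] E] [IsGalois ℚ_[(q : ℕ)] E]
        (χE : (E ≃ₐ[ℚ_[(q : ℕ)]] E) →* (ZMod p)ˣ),
        (∃ ζ : E, IsPrimitiveRoot ζ p) →
        (∀ (σ : E ≃ₐ[ℚ_[(q : ℕ)]] E) (ζ : E), ζ ^ p = 1 → σ ζ = ζ ^ ((χE σ : ZMod p)).val) →
        Nonempty (TameData (E ≃ₐ[ℚ_[(q : ℕ)]] E) (ZMod p) χE q))
    (U : Subgroup (primeLocalGaloisGroup q)) (hU : U ∈ (primeLocalLevels q).levels)
    [hn : U.Normal] (χ' : primeLocalGaloisGroup q ⧸ U →* (ZMod p)ˣ)
    (hχ' : χ'.comp (QuotientGroup.mk' U) = localCycloChar p q) :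
    Nonempty (TameData (primeLocalGaloisGroup q ⧸ U) (ZMod p) χ' q) := by
  haveI : Fact (q : ℕ).Prime := ⟨q.2⟩
  exact nonempty_tameData_quot_aux p (q : ℕ) (q : ℕ) core U hU (hn := hn) χ' hχ'

end Reduction

end Fermat.Agent.S56x.Local.TameDataLocal
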