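import Fermat.Agent.S56x.Local.IndFinal
import Fermat.Agent.S56x.Local.TameDataLocal
import Fermat.Agent.S56x.Local.KummerPairing

/-!
# P-S56 / block (A): the two mod `p` cyclotomic characters on `Gal(ℚ̄_p/ℚ_p)` agree

`IndFinal.omegaK p k t = ((cycloExp p (localGaloisToGlobal p t) : ℕ) : k)` (the side condition of
`IndFinal.CountQp2Statement` / `LevelCountStatement`) versus
`((KummerPairing.omega hζ t).val : k)` (the side condition of `CWAssemblyQp2` / `CWAssembly`):
both are the exponent of the action of `t` on a primitive `p`-th root of unity `ζ` of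
`PadicAlgCl p`, so they agree in every ring of characteristic `p`.

* `apply_eq_pow_cycloExp` : `t z = z ^ cycloExp p (localGaloisToGlobal p t)` for `z ^ p = 1`;
* `natCast_eq_of_pow_eq`  : `ζ ^ a = ζ ^ b` ⇒ `(a : k) = (b : k)`;
* `omegaK_eq`             : `omegaK p k t = ((omega hζ t).val : k)`;
* `ne_omega_of_ne_omegaK` : the side condition, translated.
-/

set_option autoImplicit false
set_option linter.unusedSectionVars false

namespace Fermat.Agent.S56x.Local.OmegaKBridge

open Fermat.Agent.S56x.Local.KummerPairing ExtCitation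

variable (p : ℕ) [Fact p.Prime]

local notation "Ω" => PadicAlgCl p
local notation "Gq" => (PadicAlgCl p ≃ₐ[ℚ_[p]] PadicAlgCl p)

/-- the local Galois group acts on `μ_p ⊆ PadicAlgCl p` through `cycloExp`. -/
theorem apply_eq_pow_cycloExp (t : Gq) {z : Ω} (hz : z ^ p = 1) :
    t z = z ^ cycloExp p (localGaloisToGlobal p t) := by
  have h := TameDataLocal.apply_rootOfUnity p p t hz
  rwa [val_cycloChar] at h

variable {p}

/-- equal powers of a primitive `p`-th root of unity have equal exponents in characteristic `p`. -/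
theorem natCast_eq_of_pow_eq {R : Type*} [Field R] {ζ : R} (hζ : IsPrimitiveRoot ζ p)
    (k : Type*) [Ring k] [CharP k p] {a b : ℕ} (h : ζ ^ a = ζ ^ b) : (a : k) = (b : k) := by
  have hp : p.Prime := Fact.out
  have hfin : IsOfFinOrder ζ := isOfFinOrder_iff_pow_eq_one.mpr ⟨p, hp.pos, hζ.pow_eq_one⟩
  have h1 := hfin.pow_eq_pow_iff_modEq.mp h
  rw [← hζ.eq_orderOf] at h1
  rw [CharP.natCast_eq_natCast k p]
  exact h1

/-- **the two cyclotomic characters agree.** -/
theorem omegaK_eq (k : Type*) [Ring k] [CharP k p] {ζ : Ω} (hζ : IsPrimitiveRoot ζ p) (t : Gq) :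
    IndFinal.omegaK p k t = (((omega (F := ℚ_[p]) hζ t).val : ℕ) : k) := by
  unfold IndFinal.omegaK
  refine natCast_eq_of_pow_eq hζ k ?_
  rw [← apply_eq_pow_cycloExp p t hζ.pow_eq_one, ← omega_spec hζ t]

/-- the side condition of `IndFinal.LevelCountStatement`, in the form consumed by
`CWAssemblyQp2.rank_H1A_le_one_sub_of_exists`. -/
theorem ne_omega_of_ne_omegaK {k : Type*} [Ring k] [CharP k p] {ζ : Ω} (hζ : IsPrimitiveRoot ζ p)
    {t : Gq} {x : k} (h : x ≠ IndFinal.omegaK p k t) :
    x ≠ (((omega (F := ℚ_[p]) hζ t).val : ℕ) : k) := by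
  rwa [← omegaK_eq k hζ t]

end Fermat.Agent.S56x.Local.OmegaKBridge
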