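import Fermat.Agent.S56x.Local.EulerTame

/-!
# P-S56 block (B): annihilators by counting (abstract form of (U4))

`orthogonal_inf_le_of_finrank`: for a pairing `P : V × W → k`, nondegenerate on the finite
dimensional subspaces `H ≤ V`, `H' ≤ W`, and subspaces `A ≤ H`, `A' ≤ H'` with `A ⟂ A'` and
`dim H ≤ dim A + dim A'`: `A^⊥ ∩ H' ≤ A'` (Prelude's `groupCohomology.orthogonal`).
-/

set_option autoImplicit false
set_option linter.unusedSectionVars false

universe u

open Module

namespace Fermat.Agent.S56x.Local.OrthCount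

open Fermat.Agent.S56x.Local.EulerTame

variable {k : Type u} [Field k] {V W : Type u} [AddCommGroup V] [Module k V] [AddCommGroup W]
  [Module k W]

/-- the restriction of a pairing to two subspaces, as a map into the dual -/
def restrictDual (P : V →ₗ[k] W →ₗ[k] k) (H : Submodule k V) (H' : Submodule k W) :
    H →ₗ[k] Module.Dual k H' :=
  (LinearMap.domRestrict₁₂ P H H')

theorem restrictDual_apply (P : V →ₗ[k] W →ₗ[k] k) (H : Submodule k V) (H' : Submodule k W)
    (x : H) (y : H') : restrictDual P H H' x y = P x.1 y.1 := rfl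

/-- **Annihilators by counting.** -/
theorem orthogonal_inf_le_of_finrank (P : V →ₗ[k] W →ₗ[k] k) (H : Submodule k V)
    (H' : Submodule k W) [FiniteDimensional k H] [FiniteDimensional k H']
    (A : Submodule k V) (A' : Submodule k W) (hA : A ≤ H) (hA' : A' ≤ H')
    (hleft : ∀ x ∈ H, (∀ y ∈ H', P x y = 0) → x = 0)
    (hright : ∀ y ∈ H', (∀ x ∈ H, P x y = 0) → y = 0)
    (horth : ∀ x ∈ A, ∀ y ∈ A', P x y = 0)
    (hdim : finrank k H ≤ finrank k A + finrank k A') :
    groupCohomology.orthogonal P A ⊓ H' ≤ A' := by
  rintro y ⟨hyA, hyH'⟩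
  rw [SetLike.mem_coe, groupCohomology.mem_orthogonal_iff] at hyA
  have hyH' : y ∈ H' := hyH'
  -- the two restricted maps are injective
  have hΛ : Function.Injective (restrictDual P H H') := by
    rw [injective_iff_map_eq_zero]
    intro x hx
    refine Subtype.ext (hleft x.1 x.2 fun y hy => ?_)
    exact LinearMap.congr_fun hx ⟨y, hy⟩
  have hΛ' : Function.Injective (restrictDual P.flip H' H) := by
    rw [injective_iff_map_eq_zero]
    intro y hy
    refine Subtype.ext (hright y.1 y.2 fun x hx => ?_)
    exact LinearMap.congr_fun hy ⟨x, hx⟩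
  have h1 : finrank k H' ≤ finrank k H := by
    have := LinearMap.finrank_le_finrank_of_injective hΛ'
    rwa [Subspace.dual_finrank_eq] at this
  -- the subspaces inside `H`, `H'`
  have hAH : finrank k (A.comap H.subtype) = finrank k A :=
    (Submodule.comapSubtypeEquivOfLe hA).finrank_eq
  have hA'H' : finrank k (A'.comap H'.subtype) = finrank k A' :=
    (Submodule.comapSubtypeEquivOfLe hA').finrank_eq
  have key := mem_of_orthogonal_of_finrank_eq (restrictDual P H H') hΛ
    (A.comap H.subtype) (A'.comap H'.subtype)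
    (fun x hx y hy => horth x.1 hx y.1 hy) (by omega) (y := ⟨y, hyH'⟩)
    (fun x hx => hyA x.1 hx)
  exact key

end Fermat.Agent.S56x.Local.OrthCount
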