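/-
P-S56, block (A) (helper83): the hypotheses `h`, `h'`, `hf`, `hg`, `hb` of
`Local/BoundedKummer.exists_mul_pow_mem_of_upperBounded` on CONCRETE fields `ℚ_p ⊆ K ⊆ L ⊆ M`
inside `PadicAlgCl p` (instances from `PadicAKLB`, transport from helper49's `PadicTowerHom`).
-/
import Mathlib
import Fermat.Agent.S56x.Local.PadicAKLB
import Fermat.Agent.S56x.Local.BddDef
import Fermat.Agent.S56x.Local.PadicTowerHom
import Fermat.Agent.Lib.Ram.Prop3Hom

set_option autoImplicit false
set_option linter.style.haveILetI false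
set_option linter.unusedSectionVars false

open IsLocalRing
open Fermat.Agent.S56x.Local.PadicFinite Fermat.Agent.S56x.Local.PadicTower
open Fermat.Agent.Lib.Ram Fermat.Agent.Lib.Ram.GaloisLower Fermat.Agent.Lib.Ram.GaloisTower
open Fermat.Agent.Lib.Ram.Transport
open Fermat.Agent.S56x.Local.BddDef Fermat.Agent.S56x.Local.PadicTowerHom
open scoped Fermat.Agent.S56x.Local.PadicAKLB

namespace Fermat.Agent.S56x.Local.PadicTowerHomInst

variable {p : ℕ} [Fact p.Prime] {K L M : IntermediateField ℚ_[p] (PadicAlgCl p)}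
  [FiniteDimensional ℚ_[p] K] [FiniteDimensional ℚ_[p] L] [FiniteDimensional ℚ_[p] M]
  [IsGalois ℚ_[p] K] [IsGalois ℚ_[p] M]

/-- **`h` of `BoundedKummer`**: Serre IV Prop. 3 for `M / K / ℚ_p`. -/
theorem homFormula_base [hKM : Fact (K ≤ M)]
    [Fintype (resHom ℚ_[p] K M).ker] :
    HomFormula (ramNum p M) (resHom ℚ_[p] K M) (ramNum p K) := by
  letI : Fintype (Prop3Hom.res ℚ_[p] K M).ker :=
    inferInstanceAs (Fintype (resHom ℚ_[p] K M).ker)
  exact Prop3Hom.homFormula (A := ℤ_[p]) (K := ℚ_[p]) (L := K) (M := M) (B := OE p K)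
    (C := OE p M)

/-- **`h'` of `BoundedKummer`**: Serre IV Prop. 3 for `M / L / K` over the base `(OE p K, K)`,
transported to `ker(Gal(M/ℚ_p) → Gal(K/ℚ_p))`. -/
theorem homFormula_ker [hKL : Fact (K ≤ L)] [hLM : Fact (L ≤ M)] [hKM : Fact (K ≤ M)]
    [Normal K L] [Fintype (L ≃ₐ[K] L)] [Fintype (M ≃ₐ[K] M)]
    [Fintype (resHom ℚ_[p] K M).ker] [Fintype (resHom K L M).ker]
    [Fintype (kerRes ℚ_[p] K L M).ker] :
    HomFormula ((ramNum p M).restrict (resHom ℚ_[p] K M).ker) (kerRes ℚ_[p] K L M)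
      (lowerNumbering (OE p K) K L (OE p L)) := by
  haveI : IsGalois K L := ⟨⟩
  letI : Fintype (Prop3Hom.res K L M).ker := inferInstanceAs (Fintype (resHom K L M).ker)
  have h' : HomFormula (lowerNumbering (OE p K) K M (OE p M)) (resHom K L M)
      (lowerNumbering (OE p K) K L (OE p L)) :=
    Prop3Hom.homFormula (A := OE p K) (K := K) (L := L) (M := M) (B := OE p L) (C := OE p M)
  exact homFormula_kerRes (A := ℤ_[p]) (K := ℚ_[p]) (L := K) (M := M) (B := OE p K)
    (C := OE p M) (L' := L) (B' := OE p L) h'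

/-- `hf` of `BoundedKummer`. -/
theorem resHom_base_surjective [hKM : Fact (K ≤ M)] :
    Function.Surjective (resHom ℚ_[p] K M) :=
  resHom_surjective ℚ_[p] K M

/-- `hg` of `BoundedKummer`. -/
theorem kerRes_base_surjective [hKL : Fact (K ≤ L)] [hLM : Fact (L ≤ M)] [hKM : Fact (K ≤ M)]
    [Normal K L] : Function.Surjective (kerRes ℚ_[p] K L M) :=
  kerRes_surjective ℚ_[p] K L M

/-- `kerRes` is the restriction of automorphisms, in `PadicAlgCl p`. -/
theorem coe_kerRes [hKL : Fact (K ≤ L)] [hLM : Fact (L ≤ M)] [hKM : Fact (K ≤ M)]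
    [Normal K L] (t : (resHom ℚ_[p] K M).ker) (x : L) :
    ((kerRes ℚ_[p] K L M t x : L) : PadicAlgCl p) =
      (((t : M ≃ₐ[ℚ_[p]] M) (IntermediateField.inclusion hLM.out x) : M) : PadicAlgCl p) := by
  have h := kerRes_commutes ℚ_[p] K L M t x
  exact congrArg (fun z : M => (z : PadicAlgCl p)) h

omit [FiniteDimensional ℚ_[p] M] [IsGalois ℚ_[p] M] in
/-- `hb` of `BoundedKummer` (Fontaine's bound, with slack). -/
theorem upperBounded_slack (hM : IsBddField p M) :
    ∃ (_ : FiniteDimensional ℚ_[p] M), IsGalois ℚ_[p] M ∧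
      (ramNum p M).UpperBounded (1 / ((p : ℝ) - 1) + 1 / (ramNum p M).e0) := by
  obtain ⟨hfd, hgal, hb⟩ := hM
  refine ⟨hfd, hgal, hb.mono _ ?_⟩
  have : (0 : ℝ) ≤ 1 / ((ramNum p M).e0 : ℝ) := by positivity
  linarith

end Fermat.Agent.S56x.Local.PadicTowerHomInst
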