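/-
P-S56, block (C) (helper53): **ramified at one place over `q` ⟹ ramified at every place over `q`**
(the places over `q` are conjugate and conjugation transports inertia groups).  This produces the
hypothesis `hram` of `Local/InertiaTame.exists_coboundary_inertia_qbar` (and of helper15's
`Hens/UnipotentCoboundary`) at EVERY place over `q ∈ Smin`, `q ≠ p`, from `hmin` of the frozen
statement (`Hyp.not_isUnramifiedAt` of `Assembly/Basics`).
-/
import Mathlib
import Fermat.Agent.S56x.Cheb.ValConj
import Fermat.Agent.S56x.Assembly.Basics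

set_option autoImplicit false
set_option linter.unusedSectionVars false
set_option maxHeartbeats 400000

open scoped Pointwise

namespace Fermat.Agent.S56x.Local.RamifiedAllPlaces

open Fermat.Agent.Lib.CFT.Profinite.Bridge Fermat.Agent.S56x.Cheb

section General

variable {L : Type*} [Field L] [Algebra ℚ L] [IsGalois ℚ L]

/-- a homomorphism non-trivial on the inertia group of one place over `q` is non-trivial on the
inertia group of every place over `q`. -/
theorem exists_mem_inertia_ne_one {q : ℕ} (hq : q.Prime) {H : Type*} [Monoid H]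
    (f : (L ≃ₐ[ℚ] L) →* H) {P : ValuationSubring L} (hP : P.LiesOverPrime q)
    {σ : L ≃ₐ[ℚ] L} (hσ : σ ∈ P.inertiaSubgroupIn ℚ) (hne : f σ ≠ 1)
    (P' : ValuationSubring L) (hP' : P'.LiesOverPrime q) :
    ∃ σ' ∈ P'.inertiaSubgroupIn ℚ, f σ' ≠ 1 := by
  obtain ⟨τ, rfl⟩ := exists_smul_eq_of_liesOverPrime hq P P' hP hP'
  refine ⟨τ * σ * τ⁻¹, ?_, ?_⟩
  · rw [mem_inertiaSubgroupIn_smul_iff]
    have e : τ⁻¹ * (τ * σ * τ⁻¹) * τ = σ := by group
    rw [e]
    exact hσ
  · intro h1
    apply hne
    have e : σ = τ⁻¹ * (τ * σ * τ⁻¹) * τ := by group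
    rw [e, map_mul, map_mul, h1, mul_one, ← map_mul, inv_mul_cancel, map_one]

/-- the same, in the form: trivial on one inertia group over `q` ⟹ trivial on all of them. -/
theorem forall_inertia_eq_one {q : ℕ} (hq : q.Prime) {H : Type*} [Monoid H]
    (f : (L ≃ₐ[ℚ] L) →* H) {P' : ValuationSubring L} (hP' : P'.LiesOverPrime q)
    (h : ∀ σ ∈ P'.inertiaSubgroupIn ℚ, f σ = 1)
    (P : ValuationSubring L) (hP : P.LiesOverPrime q) :
    ∀ σ ∈ P.inertiaSubgroupIn ℚ, f σ = 1 := by
  intro σ hσ
  by_contra hne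
  obtain ⟨σ', hσ', hne'⟩ := exists_mem_inertia_ne_one hq f hP hσ hne P' hP'
  exact hne' (h σ' hσ')

end General

section Qbar

local notation "Qb" => AlgebraicClosure ℚ

variable {k : Type} [Field k] (ρbar : ResidualGaloisRep k)

/-- **`ρbar` ramified at `q` ⟹ the matrix model `rbarOf ρbar` is non-trivial on the inertia group
of every place over `q`.** -/
theorem exists_mem_inertia_rbarOf_ne_one {q : ℕ} (hq : q.Prime)
    (hram : ¬ ρbar.IsUnramifiedAt q) (P : ValuationSubring Qb) (hP : P.LiesOverPrime q) :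
    ∃ s0 ∈ P.inertiaSubgroupIn ℚ, Basics.rbarOf ρbar s0 ≠ 1 := by
  have hgal : IsGalois ℚ Qb := Fermat.Agent.Lib.isGalois_algebraicClosure_rat
  rw [← Basics.rbarOf_isUnramifiedAt_iff] at hram
  simp only [not_forall] at hram
  obtain ⟨P₀, hP₀, σ, hσ, hne⟩ := hram
  exact exists_mem_inertia_ne_one hq (Basics.rbarOf ρbar) hP₀ hσ hne P hP

end Qbar

end Fermat.Agent.S56x.Local.RamifiedAllPlaces
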