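/-
P-S56 (Taylor–Wiles primes), block (C), strict ordinary condition at `p`: pure `M₂(k)` algebra
(helper19, leaves (SOL-1), (SOL-2) of helper72's plan).

* `line_unique` (SOL-1): if `A ∈ M₂(k)` with `det A ≠ 1` becomes upper triangular with lower right
  entry `1` in two bases `(g₀, h₀ = g₀⁻¹)` and `(g₁, h₁ = g₁⁻¹)`, then the two bases have the same
  first line: `g₁ h₀` and `g₀ h₁` are upper triangular. (The first basis vectors `h₀ e₀`, `h₁ e₀` are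
  eigenvectors of `A` for the eigenvalue `det A ≠ 1`, the other eigenvalue being `1`.)
* `transfer` (SOL-2): if `g₁ h₀` and `g₀ h₁` are upper triangular and the trace zero matrix `Y` has
  `(g₁ Y h₁)₁₀ = (g₁ Y h₁)₀₀ = 0`, then also `(g₀ Y h₀)₁₀ = (g₀ Y h₀)₀₀ = 0`.
-/
import Mathlib

set_option autoImplicit false

namespace Fermat.Agent.S56x.Local.StrictOrdLine

open Matrix

variable {k : Type*} [Field k]

theorem mul_apply_two (a b : Matrix (Fin 2) (Fin 2) k) (i j : Fin 2) :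
    (a * b) i j = a i 0 * b 0 j + a i 1 * b 1 j := by
  rw [Matrix.mul_apply, Fin.sum_univ_two]

/-- an upper triangular `2 × 2` matrix with lower right entry `1` has determinant its upper left
entry. -/
theorem det_eq_of_upper {B : Matrix (Fin 2) (Fin 2) k} (h10 : B 1 0 = 0) (h11 : B 1 1 = 1) :
    B.det = B 0 0 := by
  rw [Matrix.det_fin_two, h10, h11]
  ring

/-- the determinant of a conjugate. -/
theorem det_conj {g h A : Matrix (Fin 2) (Fin 2) k} (hgh : g * h = 1) :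
    (g * A * h).det = A.det := by
  have h1 : g.det * h.det = 1 := by rw [← Matrix.det_mul, hgh, Matrix.det_one]
  rw [Matrix.det_mul, Matrix.det_mul]
  linear_combination A.det * h1

/-- the trace of a conjugate. -/
theorem trace_conj {g h Y : Matrix (Fin 2) (Fin 2) k} (hhg : h * g = 1) :
    (g * Y * h).trace = Y.trace := by
  rw [Matrix.trace_mul_cycle, hhg, Matrix.one_mul]

/-- key computation: if `B₁ C = C B₀` with `B₀, B₁` upper triangular with lower right entry `1`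
and `(B₀)₀₀ ≠ 1`, then `C` is upper triangular. -/
theorem lower_left_eq_zero_of_intertwine {B₀ B₁ C : Matrix (Fin 2) (Fin 2) k}
    (h0 : B₀ 1 0 = 0) (h1 : B₁ 1 0 = 0) (h1' : B₁ 1 1 = 1) (hd : B₀ 0 0 ≠ 1)
    (hint : B₁ * C = C * B₀) : C 1 0 = 0 := by
  have e := congrFun (congrFun hint 1) 0
  rw [mul_apply_two, mul_apply_two, h0, h1, h1'] at e
  have e' : (1 - B₀ 0 0) * C 1 0 = 0 := by linear_combination e
  rcases mul_eq_zero.mp e' with h | h
  · exact absurd (sub_eq_zero.mp h).symm hd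
  · exact h

/-- **(SOL-1)** uniqueness of the ordinary line. -/
theorem line_unique {g₀ h₀ g₁ h₁ A : Matrix (Fin 2) (Fin 2) k}
    (hgh₀ : g₀ * h₀ = 1) (hhg₀ : h₀ * g₀ = 1) (hgh₁ : g₁ * h₁ = 1) (hhg₁ : h₁ * g₁ = 1)
    (hA₀ : (g₀ * A * h₀) 1 0 = 0) (hA₀' : (g₀ * A * h₀) 1 1 = 1)
    (hA₁ : (g₁ * A * h₁) 1 0 = 0) (hA₁' : (g₁ * A * h₁) 1 1 = 1) (hdet : A.det ≠ 1) :
    (g₁ * h₀) 1 0 = 0 ∧ (g₀ * h₁) 1 0 = 0 := by
  have hd₀ : (g₀ * A * h₀) 0 0 ≠ 1 := by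
    rw [← det_eq_of_upper hA₀ hA₀', det_conj hgh₀]
    exact hdet
  have hd₁ : (g₁ * A * h₁) 0 0 ≠ 1 := by
    rw [← det_eq_of_upper hA₁ hA₁', det_conj hgh₁]
    exact hdet
  constructor
  · refine lower_left_eq_zero_of_intertwine hA₀ hA₁ hA₁' hd₀ ?_
    -- `(g₁ A h₁)(g₁ h₀) = g₁ A h₀ = (g₁ h₀)(g₀ A h₀)`
    calc g₁ * A * h₁ * (g₁ * h₀) = g₁ * A * (h₁ * g₁) * h₀ := by
          simp only [Matrix.mul_assoc]
      _ = g₁ * (h₀ * g₀) * A * h₀ := by rw [hhg₁, hhg₀, Matrix.mul_one, Matrix.mul_one]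
      _ = g₁ * h₀ * (g₀ * A * h₀) := by simp only [Matrix.mul_assoc]
  · refine lower_left_eq_zero_of_intertwine hA₁ hA₀ hA₀' hd₁ ?_
    calc g₀ * A * h₀ * (g₀ * h₁) = g₀ * A * (h₀ * g₀) * h₁ := by
          simp only [Matrix.mul_assoc]
      _ = g₀ * (h₁ * g₁) * A * h₁ := by rw [hhg₀, hhg₁, Matrix.mul_one, Matrix.mul_one]
      _ = g₀ * h₁ * (g₁ * A * h₁) := by simp only [Matrix.mul_assoc]

/-- **(SOL-2)** transfer of the normalisation of a trace zero matrix between two bases with the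
same first line. -/
theorem transfer {g₀ h₀ g₁ h₁ Y : Matrix (Fin 2) (Fin 2) k}
    (hhg₀ : h₀ * g₀ = 1) (hhg₁ : h₁ * g₁ = 1)
    (hC : (g₁ * h₀) 1 0 = 0) (hD : (g₀ * h₁) 1 0 = 0) (hY : Y.trace = 0)
    (hY₁ : (g₁ * Y * h₁) 1 0 = 0) (hY₁' : (g₁ * Y * h₁) 0 0 = 0) :
    (g₀ * Y * h₀) 1 0 = 0 ∧ (g₀ * Y * h₀) 0 0 = 0 := by
  set Z := g₁ * Y * h₁ with hZ
  have hZ11 : Z 1 1 = 0 := by
    have ht : Z.trace = 0 := by rw [hZ, trace_conj hhg₁, hY]
    rw [Matrix.trace_fin_two, hY₁', zero_add] at ht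
    exact ht
  have hfac : g₀ * Y * h₀ = g₀ * h₁ * Z * (g₁ * h₀) := by
    calc g₀ * Y * h₀ = g₀ * (h₁ * g₁) * Y * (h₁ * g₁) * h₀ := by
          rw [hhg₁, Matrix.mul_one, Matrix.mul_one]
      _ = g₀ * h₁ * Z * (g₁ * h₀) := by rw [hZ]; simp only [Matrix.mul_assoc]
  rw [hfac]
  generalize g₀ * h₁ = D at hD ⊢
  generalize g₁ * h₀ = C at hC ⊢
  constructor
  · rw [mul_apply_two (D * Z) C, mul_apply_two D Z, mul_apply_two D Z, hD, hY₁, hZ11, hC]
    ring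
  · rw [mul_apply_two (D * Z) C, mul_apply_two D Z, mul_apply_two D Z, hY₁', hY₁, hC]
    ring

end Fermat.Agent.S56x.Local.StrictOrdLine
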