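import Mathlib
import Fermat.Agent.S56x.Local.TameCyclo
import Fermat.Agent.S56x.Local.FrobDataLocal

/-!
# P-S56, block (B), local line: the mod `p` cyclotomic character on the unramified `FrobData`
of `Gal(PadicAlgCl q / ℚ_q)`, `q ≠ p` (helper8)

Input (b) of helper92's `UnramLocal.pairingAtOf_eq_zero` (note 1556), for helper42's
`frobData q` / `primeFrobData q` (note 1558), whose inertia subgroup is the fixing subgroup of the
roots of unity of order `q ^ n - 1`:

* `pow_eq_one_of_pow_prime_eq_one` : a `p`-th root of unity is a `(q ^ (p - 1) - 1)`-th root of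
  unity (`p ∣ q ^ (p - 1) - 1`, Fermat);
* `apply_eq_of_mem_unrInertia` : `unrInertia q` fixes the `p`-th roots of unity;
* `cycloChar_eq_one_of_mem_unrInertia`, `cycloChar_frob` : `χ_p = 1` on `unrInertia q`,
  `χ_p (frob q) = q`;
* `primeFrobData_cycloChar_eq_one`, `primeFrobData_cycloChar_frob` : the same for the Prelude's
  `primeLocalGaloisGroup q`, `primeLocalToGlobal q`, `q : Nat.Primes`; the first one is literally
  the hypothesis `hχ` of `UnramLocal.pairingAtOf_eq_zero` at `D := primeFrobData q`;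
* `localCycloChar_*` variants for `LocalTate.localCycloChar`-style compositions are `rfl`-restatements
  (`cycloChar_comp_eq_one`).
-/

set_option autoImplicit false
set_option linter.unusedSectionVars false
set_option linter.style.haveILetI false

open ExtCitation Fermat.Agent.S56x.Local.UnrLevels Fermat.Agent.S56x.Local.FrobDataLocal
  Fermat.Agent.S56x.Local.UnramAbstract Fermat.Agent.Lib.CFT.Profinite
  Fermat.Agent.Lib.CFT.Duality

namespace Fermat.Agent.S56x.Local.TameCycloUnr

open Fermat.Agent.S56x.Local.TameCyclo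

section Nat

variable (p : ℕ) [Fact p.Prime] (q : ℕ) [Fact q.Prime]

/-- Fermat: `p ∣ q ^ (p - 1) - 1` for primes `p ≠ q`. -/
theorem dvd_pow_sub_one (hqp : q ≠ p) : p ∣ q ^ (p - 1) - 1 := by
  have hp : p.Prime := Fact.out
  have hq : q.Prime := Fact.out
  have hcop : Nat.Coprime q p := (Nat.coprime_primes hq hp).mpr hqp
  have h1 : q ^ (p - 1) ≡ 1 [MOD p] := by
    have := Nat.ModEq.pow_totient hcop
    rwa [Nat.totient_prime hp] at this
  exact (Nat.modEq_iff_dvd' (Nat.one_le_pow _ _ hq.pos)).mp h1.symm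

/-- A `p`-th root of unity is a root of unity of order `q ^ (p - 1) - 1`. -/
theorem pow_eq_one_of_pow_prime_eq_one (hqp : q ≠ p) {R : Type*} [Monoid R] {z : R}
    (hz : z ^ p = 1) : z ^ (q ^ (p - 1) - 1) = 1 := by
  obtain ⟨k, hk⟩ := dvd_pow_sub_one p q hqp
  rw [hk, pow_mul, hz, one_pow]

theorem pred_pos : 0 < p - 1 := Nat.sub_pos_of_lt (Fact.out : p.Prime).one_lt

/-- The unramified inertia subgroup fixes the `p`-th roots of unity, `p ≠ q`. -/
theorem apply_eq_of_mem_unrInertia (hqp : q ≠ p)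
    {σ : PadicAlgCl q ≃ₐ[ℚ_[q]] PadicAlgCl q} (hσ : σ ∈ unrInertia q) {z : PadicAlgCl q}
    (hz : z ^ p = 1) : σ z = z :=
  (mem_unrInertia_iff_forall σ).mp hσ (p - 1) (pred_pos p) z
    (pow_eq_one_of_pow_prime_eq_one p q hqp hz)

/-- **The mod `p` cyclotomic character is trivial on the inertia subgroup at `q ≠ p`.** -/
theorem cycloChar_eq_one_of_mem_unrInertia (hqp : q ≠ p)
    {σ : PadicAlgCl q ≃ₐ[ℚ_[q]] PadicAlgCl q} (hσ : σ ∈ unrInertia q) :
    cycloChar p (localGaloisToGlobal q σ) = 1 := by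
  obtain ⟨ζ, hζ⟩ := exists_primitiveRoot p q
  exact cycloChar_eq_one_of_apply_eq p q hqp σ hζ
    (apply_eq_of_mem_unrInertia p q hqp hσ hζ.pow_eq_one)

/-- The Frobenius of `UnrLevels` raises the `p`-th roots of unity to the `q`-th power. -/
theorem frob_apply_of_pow_eq_one (hqp : q ≠ p) {z : PadicAlgCl q} (hz : z ^ p = 1) :
    UnrLevels.frob q z = z ^ q :=
  frob_apply (pred_pos p) (pow_eq_one_of_pow_prime_eq_one p q hqp hz)

/-- **The mod `p` cyclotomic character of the Frobenius at `q ≠ p` is `q`.** -/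
theorem cycloChar_frob (hqp : q ≠ p) :
    ((cycloChar p (localGaloisToGlobal q (UnrLevels.frob q)) : (ZMod p)ˣ) : ZMod p) =
      (q : ZMod p) := by
  obtain ⟨ζ, hζ⟩ := exists_primitiveRoot p q
  refine cycloChar_eq_q_of_norm_lt p q hqp _ hζ ?_
  rw [frob_apply_of_pow_eq_one p q hqp hζ.pow_eq_one, sub_self, norm_zero]
  exact one_pos

/-- Powers of Frobenius. -/
theorem cycloChar_frob_pow (hqp : q ≠ p) (k : ℕ) :
    ((cycloChar p (localGaloisToGlobal q (UnrLevels.frob q ^ k)) : (ZMod p)ˣ) : ZMod p) =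
      (q : ZMod p) ^ k := by
  rw [map_pow, map_pow, Units.val_pow_eq_pow_val, cycloChar_frob p q hqp]

/-- For `frobData q`. -/
theorem frobData_cycloChar_eq_one (hqp : q ≠ p) :
    ∀ i ∈ (frobData q).I, cycloChar p (localGaloisToGlobal q i) = 1 :=
  fun _ hi => cycloChar_eq_one_of_mem_unrInertia p q hqp hi

theorem frobData_cycloChar_frob (hqp : q ≠ p) :
    ((cycloChar p (localGaloisToGlobal q (frobData q).frob) : (ZMod p)ˣ) : ZMod p) =
      (q : ZMod p) :=
  cycloChar_frob p q hqp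

end Nat

section Primes

variable (p : ℕ) [Fact p.Prime] (q : Nat.Primes)

/-- **`hχ` of `UnramLocal.pairingAtOf_eq_zero` at `D := primeFrobData q`, `q ≠ p`.** -/
theorem primeFrobData_cycloChar_eq_one (hqp : (q : ℕ) ≠ p) :
    ∀ i ∈ (primeFrobData q).I, cycloChar p (primeLocalToGlobal q i) = 1 :=
  letI : Fact (q : ℕ).Prime := ⟨q.2⟩
  frobData_cycloChar_eq_one p (q : ℕ) hqp

/-- The same for any `FrobData` with the same inertia subgroup. -/
theorem cycloChar_eq_one_of_I_eq (hqp : (q : ℕ) ≠ p) (D : FrobData (primeLocalLevels q))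
    (hD : D.I = (primeFrobData q).I) :
    ∀ i ∈ D.I, cycloChar p (primeLocalToGlobal q i) = 1 := by
  rw [hD]
  exact primeFrobData_cycloChar_eq_one p q hqp

/-- The same for any subgroup characterised by "fixes the roots of unity of order prime to `q`"
(e.g. `localInertia q`). -/
theorem cycloChar_eq_one_of_char (hqp : (q : ℕ) ≠ p) (I : Subgroup (primeLocalGaloisGroup q))
    (hI : letI : Fact (q : ℕ).Prime := ⟨q.2⟩
      ∀ σ : primeLocalGaloisGroup q, σ ∈ I ↔ ∀ n : ℕ, 0 < n → ∀ z : PadicAlgCl (q : ℕ),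
        z ^ ((q : ℕ) ^ n - 1) = 1 →
          (show PadicAlgCl (q : ℕ) ≃ₐ[ℚ_[(q : ℕ)]] PadicAlgCl (q : ℕ) from σ) z = z) :
    ∀ i ∈ I, cycloChar p (primeLocalToGlobal q i) = 1 := by
  rw [← primeFrobData_I_eq q I hI]
  exact primeFrobData_cycloChar_eq_one p q hqp

/-- **The cyclotomic character of the Frobenius of `primeFrobData q` is `q`.** -/
theorem primeFrobData_cycloChar_frob (hqp : (q : ℕ) ≠ p) :
    ((cycloChar p (primeLocalToGlobal q (primeFrobData q).frob) : (ZMod p)ˣ) : ZMod p) =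
      ((q : ℕ) : ZMod p) :=
  letI : Fact (q : ℕ).Prime := ⟨q.2⟩
  frobData_cycloChar_frob p (q : ℕ) hqp

/-- Composition form: `(cycloChar p).comp (primeLocalToGlobal q)` (`= localCycloChar p q`). -/
theorem comp_cycloChar_eq_one (hqp : (q : ℕ) ≠ p) :
    ∀ i ∈ (primeFrobData q).I, ((cycloChar p).comp (primeLocalToGlobal q)) i = 1 :=
  primeFrobData_cycloChar_eq_one p q hqp

theorem comp_cycloChar_frob (hqp : (q : ℕ) ≠ p) :
    ((((cycloChar p).comp (primeLocalToGlobal q)) (primeFrobData q).frob : (ZMod p)ˣ) : ZMod p) =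
      ((q : ℕ) : ZMod p) :=
  primeFrobData_cycloChar_frob p q hqp

end Primes

end Fermat.Agent.S56x.Local.TameCycloUnr
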