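/-
P-S56, block (B) tame leaf (helper74): Frobenius element and `Γ = ⟨φ⟩ · I` for a finite group acting
on a local ring with finite residue field (Mathlib only).
-/
import Mathlib

set_option autoImplicit false

open IsLocalRing
open scoped Pointwise

namespace Fermat.Agent.S56x.Local.TameFrob

variable {A B G : Type*} [CommRing A] [CommRing B] [IsLocalRing B] [Algebra A B]
  [Group G] [MulSemiringAction G B]

/-- every element of a group acting on a local ring stabilises the maximal ideal. -/
theorem smul_maximalIdeal (g : G) : g • maximalIdeal B = maximalIdeal B := by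
  have hmax : (g • maximalIdeal B).IsMaximal := by
    rw [Ideal.pointwise_smul_def]
    exact Ideal.map_isMaximal_of_equiv (MulSemiringAction.toRingEquiv G B g)
  exact IsLocalRing.eq_maximalIdeal hmax

theorem mem_stabilizer_maximalIdeal (g : G) : g ∈ MulAction.stabilizer G (maximalIdeal B) :=
  MulAction.mem_stabilizer_iff.mpr (smul_maximalIdeal g)

variable (B G) in
/-- the whole group is the stabiliser of the maximal ideal. -/
def toStabilizer : G →* MulAction.stabilizer G (maximalIdeal B) where
  toFun g := ⟨g, mem_stabilizer_maximalIdeal g⟩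
  map_one' := rfl
  map_mul' _ _ := rfl

variable [SMulCommClass G A B]

variable (A B G) in
/-- the action on the residue field. -/
def residueHom : G →* ((B ⧸ maximalIdeal B) ≃ₐ[A ⧸ (maximalIdeal B).under A] (B ⧸ maximalIdeal B)) :=
  (Ideal.Quotient.stabilizerHom (maximalIdeal B) ((maximalIdeal B).under A) G).comp
    (toStabilizer B G)

theorem residueHom_mk (g : G) (b : B) :
    residueHom A B G g (Ideal.Quotient.mk _ b) = Ideal.Quotient.mk _ (g • b) := rfl

theorem residueHom_eq_one_iff (g : G) :
    residueHom A B G g = 1 ↔ ∀ b : B, g • b - b ∈ maximalIdeal B := by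
  constructor
  · intro h b
    have := DFunLike.congr_fun h (Ideal.Quotient.mk _ b)
    rw [residueHom_mk, AlgEquiv.one_apply] at this
    exact Ideal.Quotient.eq.mp this
  · intro h
    ext x
    obtain ⟨b, rfl⟩ := Ideal.Quotient.mk_surjective x
    rw [residueHom_mk, AlgEquiv.one_apply]
    exact Ideal.Quotient.eq.mpr (h b)

variable [Finite G] [Algebra.IsInvariant A B G] [Finite (ResidueField B)]

attribute [local instance] Ideal.Quotient.field in
/-- **Frobenius element and generation**: there is `φ : G` inducing `x ↦ x ^ q` on the residue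
field, and every element of `G` is a power of `φ` times an element acting trivially on the
residue field. -/
theorem exists_frob_gen {q : ℕ} (hN : Nat.card (A ⧸ (maximalIdeal B).under A) = q) :
    ∃ φ : G, (∀ b : B, φ • b - b ^ q ∈ maximalIdeal B) ∧
      ∀ g : G, ∃ n : ℕ, ∃ h : G, (∀ b : B, h • b - b ∈ maximalIdeal B) ∧ g = φ ^ n * h := by
  classical
  have hfinQ : Finite (B ⧸ maximalIdeal B) := inferInstanceAs (Finite (ResidueField B))
  obtain ⟨φ, hφ⟩ := IsArithFrobAt.exists_of_isInvariant A G (maximalIdeal B)
  have hφ' : ∀ b : B, φ • b - b ^ q ∈ maximalIdeal B := by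
    intro b
    have := hφ b
    rw [hN] at this
    exact this
  refine ⟨φ, hφ', ?_⟩
  -- the residue extension
  have hPmax : ((maximalIdeal B).under A).IsMaximal := by
    have := Algebra.IsInvariant.isIntegral A B G
    exact Ideal.isMaximal_comap_of_isIntegral_of_isMaximal (maximalIdeal B)
  have hfinP : Finite (A ⧸ (maximalIdeal B).under A) :=
    .of_injective _ Ideal.algebraMap_quotient_injective
  cases nonempty_fintype (A ⧸ (maximalIdeal B).under A)
  have hcard : Fintype.card (A ⧸ (maximalIdeal B).under A) = q := by
    rw [← Nat.card_eq_fintype_card, hN]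
  -- the image of `φ` is the Frobenius
  have hfrob : residueHom A B G φ =
      FiniteField.frobeniusAlgEquivOfAlgebraic (A ⧸ (maximalIdeal B).under A)
        (B ⧸ maximalIdeal B) := by
    ext x
    obtain ⟨b, rfl⟩ := Ideal.Quotient.mk_surjective x
    rw [residueHom_mk, FiniteField.coe_frobeniusAlgEquivOfAlgebraic, hcard]
    show _ = (Ideal.Quotient.mk (maximalIdeal B) b) ^ q
    rw [← map_pow]
    exact Ideal.Quotient.eq.mpr (hφ' b)
  intro g
  obtain ⟨n, hn⟩ := (FiniteField.bijective_frobeniusAlgEquivOfAlgebraic_pow
    (A ⧸ (maximalIdeal B).under A) (B ⧸ maximalIdeal B)).2 (residueHom A B G g)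
  refine ⟨n.1, (φ ^ n.1)⁻¹ * g, ?_, by group⟩
  rw [← residueHom_eq_one_iff (A := A), map_mul, map_inv, map_pow, hfrob]
  simp only at hn
  rw [hn]
  group

end Fermat.Agent.S56x.Local.TameFrob
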