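import Fermat.Agent.S56x.Local.TameRep
import Fermat.Agent.S56x.Local.DevissageIrred

/-!
# P-S56 block (A): from the tame structure theorem (LOC-7) to the induced case of the devissage

`TameRep.tame_structure_of_irreducible` puts an irreducible `r : Γ →* M₂(k)` (`Γ` = local Galois
group at `p`) in the shape: inertia diagonal `ψ ⊕ ψ^p`, Frobenius `φ` antidiagonal.  Here we
repackage this as helper50's `Devissage.IsInduced ρ Γ' φ μ` (`Local/DevissageIrred.lean`), with
`ρ = B⁻¹ r B`, `Γ' = {g | ρ g diagonal}` (index two, `= G_{ℚ_{p²}}` in the application) and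
`μ = ρ₀₀/ρ₁₁ : Γ' →* kˣ`, `μ = ψ^(1-p)` on inertia.
-/

set_option autoImplicit false

namespace Fermat.Agent.S56x.Local.TameInduced

open Matrix Fermat.Agent.S56x.Local.TameRep Fermat.Agent.S56x.Local.Devissage

local notation "M₂" => Matrix (Fin 2) (Fin 2)

variable {Γ : Type*} [Group Γ] {k : Type*} [Field k]

/-- The `MatRep` `g ↦ B⁻¹ r(g) B`. -/
noncomputable def conjMatRep (B : M₂ k) (hB : B.det ≠ 0) (r : Γ →* M₂ k) : MatRep Γ k where
  R g := conjHom B hB r g
  Ri g := conjHom B hB r g⁻¹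
  map_mul g h := map_mul _ g h
  inv_mul g := by rw [← map_mul, inv_mul_cancel, map_one]
  mul_inv g := by rw [← map_mul, mul_inv_cancel, map_one]

@[simp] theorem conjMatRep_R (B : M₂ k) (hB : B.det ≠ 0) (r : Γ →* M₂ k) (g : Γ) :
    (conjMatRep B hB r).R g = B⁻¹ * r g * B := rfl

theorem mul_eq_mul_conjMatRep (B : M₂ k) (hB : B.det ≠ 0) (r : Γ →* M₂ k) (g : Γ) :
    r g * B = B * (conjMatRep B hB r).R g := mul_eq_mul_conjHom B hB r g

/-- diagonal matrices -/
def IsDiag (M : M₂ k) : Prop := M 0 1 = 0 ∧ M 1 0 = 0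

/-- antidiagonal matrices -/
def IsAnti (M : M₂ k) : Prop := M 0 0 = 0 ∧ M 1 1 = 0

theorem IsDiag.mul {M N : M₂ k} (hM : IsDiag M) (hN : IsDiag N) : IsDiag (M * N) := by
  constructor <;> simp [Matrix.mul_apply, Fin.sum_univ_two, hM.1, hM.2, hN.1, hN.2]

theorem IsAnti.mul_anti {M N : M₂ k} (hM : IsAnti M) (hN : IsAnti N) : IsDiag (M * N) := by
  constructor <;> simp [Matrix.mul_apply, Fin.sum_univ_two, hM.1, hM.2, hN.1, hN.2]

theorem IsAnti.mul_diag {M N : M₂ k} (hM : IsAnti M) (hN : IsDiag N) : IsAnti (M * N) := by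
  constructor <;> simp [Matrix.mul_apply, Fin.sum_univ_two, hM.1, hM.2, hN.1, hN.2]

theorem IsDiag.mul_anti {M N : M₂ k} (hM : IsDiag M) (hN : IsAnti N) : IsAnti (M * N) := by
  constructor <;> simp [Matrix.mul_apply, Fin.sum_univ_two, hM.1, hM.2, hN.1, hN.2]

theorem isDiag_one : IsDiag (1 : M₂ k) := by constructor <;> simp

/-- the inverse of an invertible diagonal matrix is diagonal -/
theorem IsDiag.of_mul_eq_one {M N : M₂ k} (hM : IsDiag M) (h : M * N = 1) : IsDiag N := by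
  have e00 := congrFun (congrFun h 0) 0
  have e01 := congrFun (congrFun h 0) 1
  have e10 := congrFun (congrFun h 1) 0
  have e11 := congrFun (congrFun h 1) 1
  simp only [Matrix.mul_apply, Fin.sum_univ_two, hM.1, hM.2, zero_mul, add_zero, zero_add,
    Matrix.one_apply_eq, Matrix.one_apply_ne, ne_eq, zero_ne_one, one_ne_zero, not_false_eq_true,
    Fin.isValue] at e00 e01 e10 e11
  have h0 : M 0 0 ≠ 0 := fun h0 => by rw [h0, zero_mul] at e00; exact zero_ne_one e00
  have h1 : M 1 1 ≠ 0 := fun h0 => by rw [h0, zero_mul] at e11; exact zero_ne_one e11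
  exact ⟨(mul_eq_zero.1 e01).resolve_left h0, (mul_eq_zero.1 e10).resolve_left h1⟩

/-- the inverse of an invertible antidiagonal matrix is antidiagonal -/
theorem IsAnti.of_mul_eq_one {M N : M₂ k} (hM : IsAnti M) (h : M * N = 1) : IsAnti N := by
  have e00 := congrFun (congrFun h 0) 0
  have e01 := congrFun (congrFun h 0) 1
  have e10 := congrFun (congrFun h 1) 0
  have e11 := congrFun (congrFun h 1) 1
  simp only [Matrix.mul_apply, Fin.sum_univ_two, hM.1, hM.2, zero_mul, add_zero, zero_add,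
    Matrix.one_apply_eq, Matrix.one_apply_ne, ne_eq, zero_ne_one, one_ne_zero, not_false_eq_true,
    Fin.isValue] at e00 e01 e10 e11
  have h0 : M 0 1 ≠ 0 := fun h0 => by rw [h0, zero_mul] at e00; exact zero_ne_one e00
  have h1 : M 1 0 ≠ 0 := fun h0 => by rw [h0, zero_mul] at e11; exact zero_ne_one e11
  exact ⟨(mul_eq_zero.1 e10).resolve_left h1, (mul_eq_zero.1 e01).resolve_left h0⟩

section Main

variable (ρ : MatRep Γ k)

/-- The subgroup of the elements acting diagonally. -/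
def diagSubgroup : Subgroup Γ where
  carrier := {g | IsDiag (ρ.R g)}
  mul_mem' {a b} ha hb := by
    show IsDiag (ρ.R (a * b))
    rw [ρ.map_mul]
    exact IsDiag.mul ha hb
  one_mem' := by
    show IsDiag (ρ.R 1)
    rw [ρ.map_one]
    exact isDiag_one
  inv_mem' {a} ha := by
    show IsDiag (ρ.R a⁻¹)
    have h : ρ.R a * ρ.R a⁻¹ = 1 := by rw [← ρ.map_mul, mul_inv_cancel, ρ.map_one]
    exact IsDiag.of_mul_eq_one ha h

theorem mem_diagSubgroup {g : Γ} : g ∈ diagSubgroup ρ ↔ IsDiag (ρ.R g) := Iff.rfl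

theorem diag_ne_zero {g : Γ} (hg : g ∈ diagSubgroup ρ) : ρ.R g 0 0 ≠ 0 ∧ ρ.R g 1 1 ≠ 0 := by
  have h := ρ.mul_inv g
  have e00 := congrFun (congrFun h 0) 0
  have e11 := congrFun (congrFun h 1) 1
  simp only [Matrix.mul_apply, Fin.sum_univ_two, hg.1, hg.2, zero_mul, add_zero, zero_add,
    Matrix.one_apply_eq, Fin.isValue] at e00 e11
  exact ⟨fun h0 => by rw [h0, zero_mul] at e00; exact zero_ne_one e00,
    fun h0 => by rw [h0, zero_mul] at e11; exact zero_ne_one e11⟩

/-- The two diagonal characters of `diagSubgroup`. -/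
noncomputable def diagChar (i : Fin 2) : diagSubgroup ρ →* kˣ :=
  MonoidHom.toHomUnits
    { toFun := fun g => ρ.R (g : Γ) i i
      map_one' := by
        show ρ.R 1 i i = 1
        rw [ρ.map_one]; simp
      map_mul' := fun g h => by
        show ρ.R ((g : Γ) * (h : Γ)) i i = ρ.R (g : Γ) i i * ρ.R (h : Γ) i i
        rw [ρ.map_mul, Matrix.mul_apply, Fin.sum_univ_two]
        fin_cases i
        · simp [g.2.1]
        · simp [g.2.2] }

@[simp] theorem diagChar_apply (i : Fin 2) (g : diagSubgroup ρ) :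
    ((diagChar ρ i g : kˣ) : k) = ρ.R (g : Γ) i i := rfl

/-- The ratio character `μ = ρ₀₀ / ρ₁₁`. -/
noncomputable def ratioChar : diagSubgroup ρ →* kˣ := diagChar ρ 0 / diagChar ρ 1

theorem ratioChar_mul (g : diagSubgroup ρ) :
    ρ.R (g : Γ) 0 0 = chr (ratioChar ρ) g * ρ.R (g : Γ) 1 1 := by
  have h1 := (diag_ne_zero ρ g.2).2
  simp only [chr_apply, ratioChar, MonoidHom.div_apply, Units.val_div_eq_div_val, diagChar_apply]
  field_simp

/-- **The induced shape.**  If some `s` acts antidiagonally and every element acts diagonally or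
antidiagonally, then `ρ` is induced from the diagonal subgroup in the sense of
`Devissage.IsInduced`. -/
theorem isInduced_of_monomial {s : Γ} (hs : IsAnti (ρ.R s))
    (hmono : ∀ g, IsDiag (ρ.R g) ∨ IsAnti (ρ.R g)) :
    IsInduced ρ (diagSubgroup ρ) s (ratioChar ρ) where
  diag g hg := hg
  ratio g := ratioChar_mul ρ g
  anti := hs
  coset g := by
    rcases hmono g with h | h
    · exact Or.inl h
    · right
      show IsDiag (ρ.R (s⁻¹ * g))
      rw [ρ.map_mul]
      have hsi : IsAnti (ρ.R s⁻¹) :=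
        IsAnti.of_mul_eq_one hs (by rw [← ρ.map_mul, mul_inv_cancel, ρ.map_one])
      exact IsAnti.mul_anti hsi h
  conj g hg := by
    show IsDiag (ρ.R (s * g * s⁻¹))
    rw [ρ.map_mul, ρ.map_mul]
    have hsi : IsAnti (ρ.R s⁻¹) :=
      IsAnti.of_mul_eq_one hs (by rw [← ρ.map_mul, mul_inv_cancel, ρ.map_one])
    exact IsAnti.mul_anti (IsAnti.mul_diag hs hg) hsi
  conj' g hg := by
    show IsDiag (ρ.R (s⁻¹ * g * s))
    rw [ρ.map_mul, ρ.map_mul]
    have hsi : IsAnti (ρ.R s⁻¹) :=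
      IsAnti.of_mul_eq_one hs (by rw [← ρ.map_mul, mul_inv_cancel, ρ.map_one])
    exact IsAnti.mul_anti (IsAnti.mul_diag hsi hg) hs
  sq := by
    show IsDiag (ρ.R (s * s))
    rw [ρ.map_mul]
    exact IsAnti.mul_anti hs hs

end Main

/-- **LOC-7 ⇒ induced case.**  Under the hypotheses of `TameRep.tame_structure_of_irreducible`
(`r` irreducible with eigenvalues in `k`; `I` = inertia acting through an abelian group of order
prime to `p`; `φ` = Frobenius, `φ t φ⁻¹ = t^p` on `r(I)`; `Γ = ⟨φ⟩ I` up to `r`) there is a basis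
`B` in which `ρ = B⁻¹ r B` satisfies `IsInduced ρ Γ' φ μ` with `Γ' = diagSubgroup ρ ⊇ I`,
`μ = ratioChar ρ`, and on inertia `ρ = diag(ψ, ψ^p)`, `ψ^(p²) = ψ`, `ψ^p ≠ ψ` somewhere. -/
theorem exists_isInduced_of_irreducible {p : ℕ} [hp : Fact p.Prime] [CharP k p] [Finite k]
    (r : Γ →* M₂ k)
    (hsplit : ∀ g, ∃ a b : k, (r g).charpoly = (Polynomial.X - Polynomial.C a) *
      (Polynomial.X - Polynomial.C b))
    (hirr : ¬ HasStableLine r)
    (I : Subgroup Γ) (φ : Γ)
    (hcomm : ∀ s ∈ I, ∀ t ∈ I, r s * r t = r t * r s)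
    (hord : ∀ t ∈ I, ∃ m : ℕ, m.Coprime p ∧ r t ^ m = 1)
    (hfrob : ∀ t ∈ I, r φ * r t = r t ^ p * r φ)
    (hgen : ∀ g : Γ, ∃ n : ℕ, ∃ t ∈ I, r g = r φ ^ n * r t) :
    ∃ (B : M₂ k) (hB : B.det ≠ 0) (ψ : Γ → k),
      IsInduced (conjMatRep B hB r) (diagSubgroup (conjMatRep B hB r)) φ
        (ratioChar (conjMatRep B hB r)) ∧
      I ≤ diagSubgroup (conjMatRep B hB r) ∧
      (∀ t ∈ I, (conjMatRep B hB r).R t = Matrix.diagonal ![ψ t, ψ t ^ p]) ∧
      (∀ t ∈ I, ψ t ^ (p ^ 2) = ψ t) ∧ (∃ t₀ ∈ I, ψ t₀ ^ p ≠ ψ t₀) ∧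
      (∀ g, r g ^ (2 * (Nat.card k - 1)) = 1) := by
  obtain ⟨B, ψ, x, y, hB, hx, hy, hI, hψ2, hψ0, hφ, hN⟩ :=
    tame_structure_of_irreducible r hsplit hirr I φ hcomm hord hfrob hgen
  have hBu : IsUnit B.det := isUnit_iff_ne_zero.2 hB
  have hRI : ∀ t ∈ I, (conjMatRep B hB r).R t = Matrix.diagonal ![ψ t, ψ t ^ p] := by
    intro t ht
    rw [conjMatRep_R, Matrix.mul_assoc, hI t ht, ← Matrix.mul_assoc,
      Matrix.nonsing_inv_mul B hBu, Matrix.one_mul]
  have hRφ : (conjMatRep B hB r).R φ = !![0, x; y, 0] := by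
    rw [conjMatRep_R, Matrix.mul_assoc, hφ, ← Matrix.mul_assoc,
      Matrix.nonsing_inv_mul B hBu, Matrix.one_mul]
  have hIdiag : ∀ t ∈ I, IsDiag ((conjMatRep B hB r).R t) := by
    intro t ht
    rw [hRI t ht]
    constructor <;> simp
  have hφanti : IsAnti ((conjMatRep B hB r).R φ) := by
    rw [hRφ]
    constructor <;> simp
  have hmono : ∀ g, IsDiag ((conjMatRep B hB r).R g) ∨ IsAnti ((conjMatRep B hB r).R g) := by
    intro g
    obtain ⟨n, t, ht, hg⟩ := hgen g
    have hRg : (conjMatRep B hB r).R g =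
        (conjMatRep B hB r).R φ ^ n * (conjMatRep B hB r).R t := by
      show conjHom B hB r g = conjHom B hB r φ ^ n * conjHom B hB r t
      rw [← map_pow, ← map_mul, conjHom_apply, conjHom_apply, hg, map_mul, map_pow]
    rw [hRg]
    have hpow : ∀ n : ℕ, (IsDiag ((conjMatRep B hB r).R φ ^ n) ∨
        IsAnti ((conjMatRep B hB r).R φ ^ n)) := by
      intro n
      induction n with
      | zero => left; rw [pow_zero]; exact isDiag_one
      | succ n ih =>
        rw [pow_succ']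
        rcases ih with h | h
        · right; exact IsAnti.mul_diag hφanti h
        · left; exact IsAnti.mul_anti hφanti h
    rcases hpow n with h | h
    · left; exact IsDiag.mul h (hIdiag t ht)
    · right; exact IsAnti.mul_diag h (hIdiag t ht)
  exact ⟨B, hB, ψ, isInduced_of_monomial _ hφanti hmono, fun t ht => hIdiag t ht, hRI, hψ2, hψ0,
    hN⟩

end Fermat.Agent.S56x.Local.TameInduced
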