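import Fermat.Agent.S56x.Local.TameRep
import Fermat.Agent.S56x.Local.TameDataAbs
import Fermat.Agent.S56x.Local.TameDataInst
import Fermat.Agent.S56x.Local.TameDataLocal

/-!
# P-S56 block (A): the tame structure theorem `TameRep` (T5') instantiated at `Gal(ℚ̄_p/ℚ_p)`

`TameRep.tame_structure_of_irreducible'` takes its group theoretic hypotheses
(`hP`, `hcomm`, `hord`, `hfrob`, `hgen`) for an abstract triple `(Γ, P ≤ I, φ)`.  This file
discharges them

* `Abs`: for a finite group `G` acting faithfully on a discrete valuation ring `B` with finite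
  residue field of characteristic `q`, invariants `A` with residue field of `q` elements, with
  `I = inertiaGp G B`, `P = wildGp G B`, `φ` an arithmetic Frobenius (`tame_relations`),
* `Transport`: along a surjection `π : Γ →* G` whose kernel is killed by the representation `r`
  (`relations_comap`),
* `Padic`: for `Γ = Gal(PadicAlgCl p / ℚ_[p])`, `G = Gal(E/ℚ_[p])`, `B = 𝒪_E`
  (`exists_padic_tame_relations`), with the resulting trichotomy for a two dimensional
  representation over a finite field of characteristic `p` (`padic_trichotomy`).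
-/

set_option autoImplicit false
set_option linter.style.haveILetI false
set_option linter.unusedSectionVars false

open IsLocalRing

namespace Fermat.Agent.S56x.Local.TameRepPadic

open Fermat.Agent.S56x.Local.TameDataAbs

/-! ### The abstract finite level -/

section Abs

variable {A B G : Type*} [CommRing A] [CommRing B] [IsDomain B] [IsDiscreteValuationRing B]
  [Algebra A B] [Group G] [Finite G] [MulSemiringAction G B] [SMulCommClass G A B]
  [Algebra.IsInvariant A B G] [FaithfulSMul G B] [Finite (ResidueField B)]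

/-- `G_0/G_1` is abelian. -/
theorem inertia_comm {q : ℕ} (hq : q.Prime) (hqB : (q : B) ∈ maximalIdeal B)
    {s t : G} (hs : s ∈ inertiaGp G B) (ht : t ∈ inertiaGp G B) :
    ∃ u ∈ wildGp G B, s * t = t * s * u := by
  obtain ⟨ϖ, hϖ⟩ := IsDiscreteValuationRing.exists_irreducible B
  refine ⟨(t * s)⁻¹ * (s * t), ?_, by group⟩
  have key : thetaHom hϖ ((⟨t, ht⟩ : inertiaGp G B) * ⟨s, hs⟩) =
      thetaHom hϖ ((⟨s, hs⟩ : inertiaGp G B) * ⟨t, ht⟩) := by
    rw [map_mul, map_mul, mul_comm]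
  have h1 := thetaHom_inv_mul_eq_one hϖ _ _ key
  exact mem_wildGp_of_thetaHom_eq_one hq hqB hϖ _ h1

/-- `G_0/G_1` has exponent dividing `#κ - 1`. -/
theorem inertia_pow_mem_wild {q : ℕ} (hq : q.Prime) (hqB : (q : B) ∈ maximalIdeal B)
    {t : G} (ht : t ∈ inertiaGp G B) :
    t ^ (Nat.card (ResidueField B) - 1) ∈ wildGp G B := by
  obtain ⟨ϖ, hϖ⟩ := IsDiscreteValuationRing.exists_irreducible B
  have h1 : thetaHom hϖ ((⟨t, ht⟩ : inertiaGp G B) ^ (Nat.card (ResidueField B) - 1)) = 1 := by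
    rw [map_pow]
    haveI : Fintype (ResidueField B) := Fintype.ofFinite _
    rw [Nat.card_eq_fintype_card]
    exact FiniteField.pow_card_sub_one_eq_one _ (thetaHom_ne_zero hϖ _)
  exact mem_wildGp_of_thetaHom_eq_one hq hqB hϖ _ h1

/-- `#κ - 1` is prime to the residue characteristic. -/
theorem coprime_card_residue_sub_one {q : ℕ} (hq : q.Prime) (hqB : (q : B) ∈ maximalIdeal B) :
    (Nat.card (ResidueField B) - 1).Coprime q := by
  haveI : Fact q.Prime := ⟨hq⟩
  haveI : CharP (ResidueField B) q := by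
    have h0 : ((q : ℕ) : ResidueField B) = 0 := by
      rw [← map_natCast (residue B), residue_eq_zero_iff]; exact hqB
    exact (CharP.charP_iff_prime_eq_zero hq).2 h0
  haveI : Fintype (ResidueField B) := Fintype.ofFinite _
  obtain ⟨n, hn⟩ := FiniteField.card (ResidueField B) q
  rw [Nat.card_eq_fintype_card, hn.2]
  have hpos : 0 < q ^ (n : ℕ) := pow_pos hq.pos _
  have h1 : (q ^ (n : ℕ) - 1 + 1) = q ^ (n : ℕ) := Nat.sub_add_cancel hpos
  rw [Nat.coprime_comm, Nat.Prime.coprime_iff_not_dvd hq]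
  intro hdvd
  have h2 : q ∣ q ^ (n : ℕ) := dvd_pow_self q n.ne_zero
  rw [← h1] at h2
  have h3 : q ∣ 1 := (Nat.dvd_add_right hdvd).1 h2
  exact hq.one_lt.ne' (Nat.dvd_one.1 h3)

/-- **The relations of the tame quotient**, at finite level. -/
theorem tame_relations {q : ℕ} (hq : q.Prime) (hqB : (q : B) ∈ maximalIdeal B)
    (hN : Nat.card (A ⧸ (maximalIdeal B).under A) = q) :
    ∃ φ : G, (∀ b : B, φ • b - b ^ q ∈ maximalIdeal B) ∧
      IsPGroup q (wildGp G B) ∧
      (∀ s ∈ inertiaGp G B, ∀ t ∈ inertiaGp G B, ∃ u ∈ wildGp G B, s * t = t * s * u) ∧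
      (∀ t ∈ inertiaGp G B, ∃ m : ℕ, m.Coprime q ∧ t ^ m ∈ wildGp G B) ∧
      (∀ t ∈ inertiaGp G B, ∃ u ∈ wildGp G B, φ * t * φ⁻¹ = t ^ q * u) ∧
      (∀ g : G, ∃ n : ℕ, ∃ t ∈ inertiaGp G B, g = φ ^ n * t) := by
  obtain ⟨φ, hφ⟩ := exists_frob A (G := G) (B := B)
  have hφ' : ∀ b : B, φ • b - b ^ q ∈ maximalIdeal B := by
    intro b
    have := hφ b
    rwa [hN] at this
  refine ⟨φ, hφ', isPGroup_wildGp hq hqB, fun s hs t ht => inertia_comm hq hqB hs ht,
    fun t ht => ⟨_, coprime_card_residue_sub_one hq hqB, inertia_pow_mem_wild hq hqB ht⟩,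
    fun t ht => frob_conj hq hqB hφ' ht, exists_frob_pow_mul hφ⟩

end Abs

/-! ### Transport along a surjection -/

section Transport

variable {Γ G M : Type*} [Group Γ] [Group G] [Monoid M]

/-- a homomorphism killing `ker π` only depends on the image under `π`. -/
theorem map_eq_of_map_eq (π : Γ →* G) (r : Γ →* M) (hker : ∀ g, π g = 1 → r g = 1)
    {a b : Γ} (h : π a = π b) : r a = r b := by
  have h1 : π (b⁻¹ * a) = 1 := by rw [map_mul, map_inv, h, inv_mul_cancel]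
  have h2 : a = b * (b⁻¹ * a) := by group
  rw [h2, map_mul, hker _ h1, mul_one]

/-- **Transport of the tame relations** to a group `Γ` surjecting onto `G`, up to a
homomorphism `r` killing the kernel: the output has exactly the shape of the hypotheses of
`TameRep.tame_structure_of_irreducible'`. -/
theorem relations_comap (π : Γ →* G) (hπ : Function.Surjective π) (r : Γ →* M)
    (hker : ∀ g, π g = 1 → r g = 1) {q : ℕ} (I P : Subgroup G) (φ : Γ)
    (hP : IsPGroup q P)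
    (hcomm : ∀ s ∈ I, ∀ t ∈ I, ∃ u ∈ P, s * t = t * s * u)
    (hord : ∀ t ∈ I, ∃ m : ℕ, m.Coprime q ∧ t ^ m ∈ P)
    (hfrob : ∀ t ∈ I, ∃ u ∈ P, π φ * t * (π φ)⁻¹ = t ^ q * u)
    (hgen : ∀ g : G, ∃ n : ℕ, ∃ t ∈ I, g = π φ ^ n * t) :
    (∀ g ∈ P.comap π, ∃ n : ℕ, r g ^ (q ^ n) = 1) ∧
    (∀ s ∈ I.comap π, ∀ t ∈ I.comap π, ∃ u ∈ P.comap π, r (s * t) = r (t * s * u)) ∧
    (∀ t ∈ I.comap π, ∃ m : ℕ, m.Coprime q ∧ ∃ u ∈ P.comap π, r (t ^ m) = r u) ∧
    (∀ t ∈ I.comap π, ∃ u ∈ P.comap π, r (φ * t * φ⁻¹) = r (t ^ q * u)) ∧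
    (∀ g : Γ, ∃ n : ℕ, ∃ t ∈ I.comap π, r g = r (φ ^ n * t)) := by
  refine ⟨?_, ?_, ?_, ?_, ?_⟩
  · intro g hg
    obtain ⟨n, hn⟩ := hP ⟨π g, hg⟩
    refine ⟨n, ?_⟩
    have h1 : π (g ^ (q ^ n)) = 1 := by
      rw [map_pow]
      exact congrArg Subtype.val hn
    rw [← map_pow, hker _ h1]
  · intro s hs t ht
    obtain ⟨u, hu, h⟩ := hcomm (π s) hs (π t) ht
    obtain ⟨u', rfl⟩ := hπ u
    refine ⟨u', hu, map_eq_of_map_eq π r hker ?_⟩
    rw [map_mul, h, map_mul, map_mul]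
  · intro t ht
    obtain ⟨m, hm, h⟩ := hord (π t) ht
    refine ⟨m, hm, t ^ m, ?_, rfl⟩
    rw [Subgroup.mem_comap, map_pow]
    exact h
  · intro t ht
    obtain ⟨u, hu, h⟩ := hfrob (π t) ht
    obtain ⟨u', rfl⟩ := hπ u
    refine ⟨u', hu, map_eq_of_map_eq π r hker ?_⟩
    rw [map_mul, map_mul, map_inv, h, map_mul, map_pow]
  · intro g
    obtain ⟨n, t, ht, h⟩ := hgen (π g)
    obtain ⟨t', rfl⟩ := hπ t
    refine ⟨n, t', ht, map_eq_of_map_eq π r hker ?_⟩
    rw [h, map_mul, map_pow]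

end Transport

/-! ### The local Galois group at `p` -/

section Padic

open Fermat.Agent.S56x.Local.PadicFinite Fermat.Agent.S56x.Local.TameDataInst

variable (p : ℕ) [Fact p.Prime]

local notation "Gp" => (PadicAlgCl p ≃ₐ[ℚ_[p]] PadicAlgCl p)

variable (E : IntermediateField ℚ_[p] (PadicAlgCl p)) [FiniteDimensional ℚ_[p] E]
  [IsGalois ℚ_[p] E]

/-- the elements of `Gal(ℚ̄_p/ℚ_p)` acting trivially on the residue field of `E`. -/
noncomputable def inertiaE : Subgroup Gp :=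
  (inertiaGp (E ≃ₐ[ℚ_[p]] E) (OE p E)).comap (AlgEquiv.restrictNormalHom E)

/-- the elements of `Gal(ℚ̄_p/ℚ_p)` acting trivially on `𝒪_E/𝔪²`. -/
noncomputable def wildE : Subgroup Gp :=
  (wildGp (E ≃ₐ[ℚ_[p]] E) (OE p E)).comap (AlgEquiv.restrictNormalHom E)

instance inertiaE_normal : (inertiaE p E).Normal :=
  Subgroup.Normal.comap inferInstance _

instance wildE_normal : (wildE p E).Normal :=
  Subgroup.Normal.comap inferInstance _

theorem wildE_le_inertiaE : wildE p E ≤ inertiaE p E :=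
  Subgroup.comap_mono wildGp_le_inertiaGp

theorem mem_inertiaE_iff (σ : Gp) :
    σ ∈ inertiaE p E ↔ ∀ b : OE p E,
      AlgEquiv.restrictNormalHom E σ • b - b ∈ maximalIdeal (OE p E) := by
  unfold inertiaE
  rw [Subgroup.mem_comap, mem_inertiaGp]

theorem fixingSubgroup_le_wildE : E.fixingSubgroup ≤ wildE p E := by
  intro σ hσ
  have h1 : AlgEquiv.restrictNormalHom E σ = 1 := by
    rw [← MonoidHom.mem_ker, IntermediateField.restrictNormalHom_ker]
    exact hσ
  unfold wildE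
  rw [Subgroup.mem_comap, h1]
  exact one_mem _

/-- `‖σ x - x‖ < 1` for `x` integral in `E` and `σ` in the inertia subgroup relative to `E`. -/
theorem norm_sub_lt_one_of_mem_inertiaE {σ : Gp} (hσ : σ ∈ inertiaE p E) (x : E) (hx : ‖x‖ ≤ 1) :
    ‖σ (x : PadicAlgCl p) - (x : PadicAlgCl p)‖ < 1 := by
  have h := (mem_inertiaE_iff p E σ).1 hσ ⟨x, mem_OE.2 hx⟩
  rw [mem_maximalIdeal, mem_nonunits_iff, isUnit_iff_norm_eq_one] at h
  have hle : ‖(((AlgEquiv.restrictNormalHom E σ • (⟨x, mem_OE.2 hx⟩ : OE p E) -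
      (⟨x, mem_OE.2 hx⟩ : OE p E) : OE p E)) : E)‖ ≤ 1 := norm_le_one _
  have hlt := lt_of_le_of_ne hle h
  have h2 : ((((AlgEquiv.restrictNormalHom E σ • (⟨x, mem_OE.2 hx⟩ : OE p E) -
      (⟨x, mem_OE.2 hx⟩ : OE p E) : OE p E)) : E) : PadicAlgCl p) =
      σ (x : PadicAlgCl p) - (x : PadicAlgCl p) := by
    push_cast
    rw [coe_smul_OE]
    congr 1
    exact AlgEquiv.restrictNormal_commutes σ E x
  rw [← h2]
  exact hlt

/-- **The tame relations in `Gal(ℚ̄_p/ℚ_p)`**, up to a homomorphism `r` trivial on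
`Gal(ℚ̄_p/E)`: there is a Frobenius lift `φ` such that the hypotheses `hP`, `hcomm`, `hord`,
`hfrob`, `hgen` of `TameRep.tame_structure_of_irreducible'` hold for
`(P, I, φ) = (wildE p E, inertiaE p E, φ)`. -/
theorem exists_padic_tame_relations {M : Type*} [Monoid M] (r : Gp →* M)
    (hE : ∀ σ ∈ E.fixingSubgroup, r σ = 1) :
    ∃ φ : Gp,
      (∀ b : OE p E, AlgEquiv.restrictNormalHom E φ • b - b ^ p ∈ maximalIdeal (OE p E)) ∧
      (∀ g ∈ wildE p E, ∃ n : ℕ, r g ^ (p ^ n) = 1) ∧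
      (∀ s ∈ inertiaE p E, ∀ t ∈ inertiaE p E, ∃ u ∈ wildE p E, r (s * t) = r (t * s * u)) ∧
      (∀ t ∈ inertiaE p E, ∃ m : ℕ, m.Coprime p ∧ ∃ u ∈ wildE p E, r (t ^ m) = r u) ∧
      (∀ t ∈ inertiaE p E, ∃ u ∈ wildE p E, r (φ * t * φ⁻¹) = r (t ^ p * u)) ∧
      (∀ g : Gp, ∃ n : ℕ, ∃ t ∈ inertiaE p E, r g = r (φ ^ n * t)) := by
  have hp : p.Prime := Fact.out
  obtain ⟨φ₀, hφ₀, hP, hcomm, hord, hfrob, hgen⟩ :=
    tame_relations (A := ℤ_[p]) (B := OE p E) (G := E ≃ₐ[ℚ_[p]] E) hp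
      natCast_p_mem_maximalIdeal card_quot_under
  have hsurj : Function.Surjective (AlgEquiv.restrictNormalHom (F := ℚ_[p])
      (K₁ := PadicAlgCl p) E) := AlgEquiv.restrictNormalHom_surjective (PadicAlgCl p)
  obtain ⟨φ, rfl⟩ := hsurj φ₀
  have hker : ∀ g : Gp, AlgEquiv.restrictNormalHom E g = 1 → r g = 1 := by
    intro g hg
    apply hE
    rw [← IntermediateField.restrictNormalHom_ker]
    exact hg
  exact ⟨φ, hφ₀, relations_comap (AlgEquiv.restrictNormalHom E) hsurj r hker _ _ φ hP hcomm hord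
    hfrob hgen⟩

/-- every element of `Gal(ℚ̄_p/ℚ_p)` is a power of the Frobenius lift times an element of the
inertia subgroup relative to `E` (exact form). -/
theorem exists_frob_pow_mul_inertiaE {φ : Gp}
    (hφ : ∀ b : OE p E, AlgEquiv.restrictNormalHom E φ • b - b ^ p ∈ maximalIdeal (OE p E))
    (g : Gp) : ∃ n : ℕ, ∃ t ∈ inertiaE p E, g = φ ^ n * t := by
  have hφ' : IsArithFrobAt ℤ_[p] (AlgEquiv.restrictNormalHom E φ) (maximalIdeal (OE p E)) := by
    intro b
    rw [card_quot_under]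
    exact hφ b
  obtain ⟨n, h, hh, hg⟩ := exists_frob_pow_mul hφ' (AlgEquiv.restrictNormalHom E g)
  refine ⟨n, (φ ^ n)⁻¹ * g, ?_, by group⟩
  unfold inertiaE
  rw [Subgroup.mem_comap, map_mul, map_inv, map_pow, hg, inv_mul_cancel_left]
  exact hh

section Rep

open Fermat.Agent.S56x.Local.TameRep Polynomial

local notation "M₂" => Matrix (Fin 2) (Fin 2)

variable {k : Type*} [Field k] [Finite k] [CharP k p]

/-- **(T5) at `Gal(ℚ̄_p/ℚ_p)`.** Let `r` be a two dimensional representation of `Gal(ℚ̄_p/ℚ_p)`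
over a finite field of characteristic `p`, trivial on `Gal(ℚ̄_p/E)`, with all eigenvalues in `k`
and without stable line.  Then there are a Frobenius lift `φ` and a basis in which inertia
(relative to `E`) acts through `diag(ψ, ψ^p)`, `ψ^(p²) = ψ`, `ψ^p ≠ ψ`, and `φ` is antidiagonal;
the wild inertia acts trivially and the image of `r` has order prime to `p`. -/
theorem padic_tame_structure (r : Gp →* M₂ k) (hE : ∀ σ ∈ E.fixingSubgroup, r σ = 1)
    (hsplit : ∀ g, ∃ a b : k, (r g).charpoly = (X - C a) * (X - C b))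
    (hirr : ¬ HasStableLine r) :
    ∃ φ : Gp,
      (∀ b : OE p E, AlgEquiv.restrictNormalHom E φ • b - b ^ p ∈ maximalIdeal (OE p E)) ∧
      (∀ g : Gp, ∃ n : ℕ, ∃ t ∈ inertiaE p E, g = φ ^ n * t) ∧
      (∀ g ∈ wildE p E, r g = 1) ∧
      ∃ (B : M₂ k) (ψ : Gp → k) (x y : k), B.det ≠ 0 ∧ x ≠ 0 ∧ y ≠ 0 ∧
        (∀ t ∈ inertiaE p E, r t * B = B * Matrix.diagonal ![ψ t, ψ t ^ p]) ∧
        (∀ t ∈ inertiaE p E, ψ t ^ (p ^ 2) = ψ t) ∧ (∃ t₀ ∈ inertiaE p E, ψ t₀ ^ p ≠ ψ t₀) ∧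
        r φ * B = B * !![0, x; y, 0] ∧
        (∀ g, r g ^ (2 * (Nat.card k - 1)) = 1) := by
  obtain ⟨φ, hφ, hP, hcomm, hord, hfrob, hgen⟩ := exists_padic_tame_relations p E r hE
  obtain ⟨hP1, h⟩ := tame_structure_of_irreducible' r hsplit hirr (wildE p E) (inertiaE p E) φ
    hP hcomm hord hfrob hgen
  exact ⟨φ, hφ, exists_frob_pow_mul_inertiaE p E hφ, hP1, h⟩

end Rep

end Padic

end Fermat.Agent.S56x.Local.TameRepPadic
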