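import Fermat.Agent.S56x.Local.TameRepPadicInertia

/-!
# P-S56 block (A): the tame structure theorem at `Gal(ℚ̄_p/ℚ_p)` with the FULL inertia subgroup

`TameRepPadic.padic_tame_structure` produces a non scalar element `t₀` in the inertia subgroup
relative to a finite level `E` (`inertiaE p E`).  Here we show that `t₀` can be chosen in the full
inertia subgroup `LocalInertia.localInertia' p` of `Gal(PadicAlgCl p/ℚ_[p])` (which is contained in
`inertiaE p E'` for EVERY finite Galois `E'`), using the cofinality of the unramified levels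
(`UnrLevels.exists_lev_le`):

* `exists_frob_pow_mul_full` : every `g` is `frob ^ k * i * u` with `i` in the full inertia
  subgroup and `u ∈ Gal(ℚ̄_p/E)`;
* `exists_mem_localInertia_ne` : in the irreducible case some `t` in the full inertia subgroup has
  `ψ t ^ p ≠ ψ t`;
* `padic_tame_structure_full` : the structure theorem with this extra information.
-/

set_option autoImplicit false
set_option linter.style.haveILetI false
set_option linter.unusedSectionVars false

open IsLocalRing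

namespace Fermat.Agent.S56x.Local.TameRepPadic

open Fermat.Agent.S56x.Local.TameDataAbs Fermat.Agent.S56x.Local.PadicFinite
  Fermat.Agent.S56x.Local.TameDataInst Fermat.Agent.S56x.Local.TameRep Polynomial

section Full

variable (p : ℕ) [Fact p.Prime]

local notation "Ω" => PadicAlgCl p
local notation "Gp" => (PadicAlgCl p ≃ₐ[ℚ_[p]] PadicAlgCl p)
local notation "M₂" => Matrix (Fin 2) (Fin 2)

theorem mem_localInertia'_iff_forall_lev (σ : Gp) :
    σ ∈ LocalInertia.localInertia' p ↔ ∀ n : ℕ, 0 < n → σ ∈ UnrLevels.lev p n := by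
  rw [LocalInertia.mem_localInertia_iff]
  exact forall_congr' fun n => forall_congr' fun _ => (UnrLevels.mem_lev_iff (q := p) σ).symm

/-- the full inertia subgroup lies in every unramified level. -/
theorem localInertia'_le_lev {n : ℕ} (hn : 0 < n) :
    LocalInertia.localInertia' p ≤ UnrLevels.lev p n :=
  fun σ hσ => (mem_localInertia'_iff_forall_lev p σ).1 hσ n hn

/-- **`Gal(ℚ̄_p/ℚ_p) = ⟨frob⟩ · I · Gal(ℚ̄_p/E)`** for every finite `E`. -/
theorem exists_frob_pow_mul_full (E : IntermediateField ℚ_[p] (PadicAlgCl p))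
    [FiniteDimensional ℚ_[p] E] (g : Gp) :
    ∃ k : ℕ, ∃ i ∈ LocalInertia.localInertia' p, ∃ u ∈ E.fixingSubgroup,
      g = UnrLevels.frob p ^ k * i * u := by
  obtain ⟨m, hm, hlev⟩ := UnrLevels.exists_lev_le (q := p) E
  obtain ⟨k, hk⟩ := UnrLevels.exists_frob_pow (q := p) hm g
  obtain ⟨i, hi, hu⟩ := hlev _ hk
  refine ⟨k, i, (mem_localInertia'_iff_forall_lev p i).2 hi, _, hu, ?_⟩
  group

variable {k : Type*} [Field k]

/-- **a non scalar element in the full inertia subgroup.** -/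
theorem exists_mem_localInertia_ne (E : IntermediateField ℚ_[p] (PadicAlgCl p))
    [FiniteDimensional ℚ_[p] E] [IsGalois ℚ_[p] E] (r : Gp →* M₂ k)
    (hE : ∀ σ ∈ E.fixingSubgroup, r σ = 1)
    (hsplit : ∀ g, ∃ a b : k, (r g).charpoly = (X - C a) * (X - C b))
    (hirr : ¬ HasStableLine r) {B : M₂ k} (hB : B.det ≠ 0) {ψ ψ' : Gp → k}
    (hI : ∀ t ∈ inertiaE p E, r t * B = B * Matrix.diagonal ![ψ t, ψ' t]) :
    ∃ t ∈ LocalInertia.localInertia' p, ψ' t ≠ ψ t := by
  by_contra hcon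
  push Not at hcon
  apply hirr
  have hBu : IsUnit B.det := isUnit_iff_ne_zero.2 hB
  -- the full inertia subgroup acts through scalars
  have hscal : ∀ i ∈ LocalInertia.localInertia' p, r i = ψ i • (1 : M₂ k) := by
    intro i hi
    have h1 := hI i (localInertia'_le_inertiaE p E hi)
    rw [hcon i hi] at h1
    have h2 : Matrix.diagonal ![ψ i, ψ i] = ψ i • (1 : M₂ k) := by
      ext a b
      fin_cases a <;> fin_cases b <;> simp
    rw [h2, Matrix.mul_smul, Matrix.mul_one] at h1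
    have h3 : r i * B * B⁻¹ = (ψ i • B) * B⁻¹ := by rw [h1]
    rw [Matrix.mul_assoc, Matrix.mul_nonsing_inv B hBu, Matrix.mul_one, Matrix.smul_mul,
      Matrix.mul_nonsing_inv B hBu] at h3
    exact h3
  obtain ⟨a, b, hφ⟩ := hsplit (UnrLevels.frob p)
  obtain ⟨v, hv, hφv⟩ := exists_eigenvector hφ
  refine ⟨v, hv, fun g => ?_⟩
  obtain ⟨n, i, hi, u, hu, rfl⟩ := exists_frob_pow_mul_full p E g
  refine ⟨ψ i * a ^ n, ?_⟩
  rw [map_mul, map_mul, map_pow, hE u hu, Matrix.mul_one, hscal i hi, ← Matrix.mulVec_mulVec,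
    Matrix.smul_mulVec, Matrix.one_mulVec, Matrix.mulVec_smul, pow_mulVec_of_eigen hφv, smul_smul]

variable [Finite k] [CharP k p]

/-- **(T5) at `Gal(ℚ̄_p/ℚ_p)`, with a non scalar element in the FULL inertia subgroup.** -/
theorem padic_tame_structure_full (E : IntermediateField ℚ_[p] (PadicAlgCl p))
    [FiniteDimensional ℚ_[p] E] [IsGalois ℚ_[p] E] (r : Gp →* M₂ k)
    (hE : ∀ σ ∈ E.fixingSubgroup, r σ = 1)
    (hsplit : ∀ g, ∃ a b : k, (r g).charpoly = (X - C a) * (X - C b))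
    (hirr : ¬ HasStableLine r) :
    ∃ φ : Gp,
      (∀ b : OE p E, AlgEquiv.restrictNormalHom E φ • b - b ^ p ∈ maximalIdeal (OE p E)) ∧
      (∀ g : Gp, ∃ n : ℕ, ∃ t ∈ inertiaE p E, g = φ ^ n * t) ∧
      (∀ g ∈ wildE p E, r g = 1) ∧
      ∃ (B : M₂ k) (ψ : Gp → k) (x y : k), B.det ≠ 0 ∧ x ≠ 0 ∧ y ≠ 0 ∧
        (∀ t ∈ inertiaE p E, r t * B = B * Matrix.diagonal ![ψ t, ψ t ^ p]) ∧
        (∀ t ∈ inertiaE p E, ψ t ^ (p ^ 2) = ψ t) ∧
        (∃ t₀ ∈ LocalInertia.localInertia' p, ψ t₀ ^ p ≠ ψ t₀) ∧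
        r φ * B = B * !![0, x; y, 0] ∧
        (∀ g, r g ^ (2 * (Nat.card k - 1)) = 1) := by
  obtain ⟨φ, hφ, hgen, hP1, B, ψ, x, y, hB, hx, hy, hI, hψ2, -, hφB, hN⟩ :=
    padic_tame_structure p E r hE hsplit hirr
  exact ⟨φ, hφ, hgen, hP1, B, ψ, x, y, hB, hx, hy, hI, hψ2,
    exists_mem_localInertia_ne p E r hE hsplit hirr hB (ψ' := fun t => ψ t ^ p) hI, hφB, hN⟩

end Full

end Fermat.Agent.S56x.Local.TameRepPadic
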