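import Mathlib
import Fermat.Agent.S56x.Local.WbTop
import Fermat.Agent.S56x.Local.FiltrationCount

/-!
# P-S56, block (A), LOC-2d (helper39): the count of equivariant homs into `W_b`

`B` a complete discrete valuation ring with finite residue field `k`, uniformiser `ϖ`,
`p = c₀ ϖ^e`, `(p - 1) ∣ e` (`p j₀ = j₀ + e`, `top = p j₀`), containing a primitive `p`-th root of
unity `ζ`.  A type `G` of operators acts on `B` by ring automorphisms `act g`, with
`act g ϖ = c g · ϖ` and `act g ζ = ζ ^ (m g)`, and on a finite group `N` by arbitrary maps `ρN g`.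

`W_b = W B p e = U^(e) Bˣᵖ / Bˣᵖ ≤ Bˣ / Bˣᵖ` (`S56x/Local/WbFiltration`, helper48).  Instantiating
the generic dévissage count `S56x/Local/FiltrationCount` (helper48) along the filtration `W B p i`,
`e ≤ i ≤ top + 1`, with the graded maps `levelW` (`p ∤ i`), the collapse at `p ∣ i`, the top map
`tauW` (`S56x/Local/WbTop`) and `W (top + 1) = ⊥` (completeness, `S56x/Local/UnitFiltration`):

`#Hom_G(N, W_b) ≤ (∏_{e ≤ i < top, p ∤ i} #Hom_G(N, k(θ^i))) · #Hom_G(N, 𝔽_p(ω))`

(`unitCount`), where `k(θ^i)` is `k` with `g` acting by `y ↦ (c g mod 𝔪)^i · ḡ(y)` (`rhoLevel`) and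
`𝔽_p(ω)` is `ZMod p` with `g` acting by `m g` (`rhoCyc`).
-/

set_option autoImplicit false
set_option linter.unusedSectionVars false
set_option linter.style.haveILetI false

open IsLocalRing

namespace Fermat.Agent.S56x.Local.UnitCount

open Fermat.Agent.Lib.CFT.Local.UnitsFiltration Fermat.Agent.S56x.Local.WbFiltration
  Fermat.Agent.S56x.Local.WbTop Fermat.Agent.S56x.Local.FiltrationCount

section Actions

variable {B : Type*} [CommRing B] [IsDomain B] [IsDiscreteValuationRing B] {G : Type*}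

/-- the action of the operators on `Bˣ / Bˣᵖ`. -/
def rhoA (p : ℕ) (act : G → B ≃+* B) : G → (Bˣ ⧸ pthPowers B p) →* (Bˣ ⧸ pthPowers B p) :=
  fun g => actQ p (act g)

/-- the twisted semilinear action on `k`: `y ↦ (c g mod 𝔪)^i · ḡ(y)` (`= k(θ^i)`). -/
noncomputable def rhoLevel (act : G → B ≃+* B) (c : G → B) (i : ℕ) :
    G → Multiplicative (ResidueField B) →* Multiplicative (ResidueField B) := fun g =>
  AddMonoidHom.toMultiplicative
    ((AddMonoidHom.mulLeft (residue B (c g) ^ i)).comp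
      (ResidueField.map ((act g : B ≃+* B) : B →+* B)).toAddMonoidHom)

theorem rhoLevel_apply (act : G → B ≃+* B) (c : G → B) (i : ℕ) (g : G)
    (y : Multiplicative (ResidueField B)) :
    Multiplicative.toAdd (rhoLevel act c i g y) =
      residue B (c g) ^ i *
        ResidueField.map ((act g : B ≃+* B) : B →+* B) (Multiplicative.toAdd y) := rfl

/-- the cyclotomic action on `ZMod p`: `y ↦ (m g) • y` (`= 𝔽_p(ω)`). -/
def rhoCyc (p : ℕ) (m : G → ℕ) : G → Multiplicative (ZMod p) →* Multiplicative (ZMod p) :=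
  fun g => powMonoidHom (m g)

end Actions

section Count

variable {B : Type*} [CommRing B] [IsDomain B] [IsDiscreteValuationRing B]
  {ϖ : B} (hϖ : Irreducible ϖ) {p : ℕ} (hp : p.Prime) {c₀ : Bˣ} {e : ℕ}
  (hpe : (p : B) = c₀ * ϖ ^ e) (he : 1 ≤ e)
  {G N : Type*} [Group N] (ρN : G → N → N) (act : G → B ≃+* B) (c : G → B)
  (hc : ∀ g, act g ϖ = c g * ϖ)

include hϖ hp hpe he hc in
/-- **the step at a level prime to `p` below the top.** -/
theorem step_of_not_dvd [Finite N] [Finite (ResidueField B)] {i : ℕ} (hi : 1 ≤ i)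
    (hpi : ¬ p ∣ i) (htop : i * (p - 1) < e * p)
    (hfin : Finite (eqHom (A := Bˣ ⧸ pthPowers B p) ρN (rhoA p act) (W B p (i + 1)))) :
    Finite (eqHom (A := Bˣ ⧸ pthPowers B p) ρN (rhoA p act) (W B p i)) ∧
      Nat.card (eqHom (A := Bˣ ⧸ pthPowers B p) ρN (rhoA p act) (W B p i)) ≤
        Nat.card (eqHom (A := Bˣ ⧸ pthPowers B p) ρN (rhoA p act) (W B p (i + 1))) *
          Nat.card (eqHom ρN (rhoLevel act c i) ⊤) := by
  haveI := hfin
  haveI : Finite (eqHom ρN (rhoLevel act c i) ⊤) := finite_eqHom _ _ _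
  refine finite_and_card_le (ρY := rhoLevel act c i) (levelW hϖ hp hpe he hi hpi htop)
    (fun a ha => (levelW_eq_one_iff hϖ hp hpe he hi hpi htop a).1 ha) (fun g a h => ?_)
  apply Multiplicative.toAdd.injective
  rw [rhoLevel_apply]
  exact levelW_actQ hϖ hp hpe (act g) he hi hpi htop (hc g) a

include hϖ hp hpe he in
/-- **the step at a level divisible by `p` below the top** (collapse). -/
theorem step_of_dvd [Finite (ResidueField B)] {i : ℕ} (hi : 1 ≤ i) (hpi : p ∣ i)
    (htop : i * (p - 1) < e * p)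
    (hfin : Finite (eqHom (A := Bˣ ⧸ pthPowers B p) ρN (rhoA p act) (W B p (i + 1)))) :
    Finite (eqHom (A := Bˣ ⧸ pthPowers B p) ρN (rhoA p act) (W B p i)) ∧
      Nat.card (eqHom (A := Bˣ ⧸ pthPowers B p) ρN (rhoA p act) (W B p i)) ≤
        Nat.card (eqHom (A := Bˣ ⧸ pthPowers B p) ρN (rhoA p act) (W B p (i + 1))) * 1 := by
  haveI := hfin
  haveI : Fact p.Prime := ⟨hp⟩
  haveI : CharP (ResidueField B) p := charP_residueField hϖ hp hpe he
  have hperf : ∀ a : ResidueField B, ∃ b, b ^ p = a := fun a => by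
    obtain ⟨b, hb⟩ := surjective_frobenius (ResidueField B) p a
    exact ⟨b, hb⟩
  obtain ⟨i', rfl⟩ := hpi
  have hp2 := hp.two_le
  have hi' : 1 ≤ i' := by
    rcases Nat.eq_zero_or_pos i' with h | h
    · subst h; omega
    · exact h
  obtain ⟨q, hq⟩ : ∃ q, p = q + 1 := ⟨p - 1, by omega⟩
  have hq' : p - 1 = q := by omega
  rw [hq'] at htop
  have hlow : p * i' < i' + e := by
    have h1 : i' * q * p < e * p := by
      calc i' * q * p = p * i' * q := by ring
        _ < e * p := htop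
    have h2 : i' * q < e := Nat.lt_of_mul_lt_mul_right h1
    calc p * i' = i' + i' * q := by rw [hq]; ring
      _ < i' + e := by omega
  exact finite_and_card_le_of_eq (W_eq_succ_low hϖ hp hpe hi' hlow hperf)

variable {j₀ : ℕ} (hj₀ : 1 ≤ j₀) (hcrit : p * j₀ = j₀ + e) {ζ : B} (hζ : ζ ^ p = 1)
  (hζ1 : ζ ≠ 1) (m : G → ℕ) (hm : ∀ g, act g ζ = ζ ^ m g)

include hϖ hp hpe he hc hj₀ hcrit hζ hζ1 hm in
/-- **the step at the top level** `p j₀`. -/
theorem step_top [Finite N] [Finite (ResidueField B)]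
    (hfin : Finite (eqHom (A := Bˣ ⧸ pthPowers B p) ρN (rhoA p act) (W B p (p * j₀ + 1)))) :
    Finite (eqHom (A := Bˣ ⧸ pthPowers B p) ρN (rhoA p act) (W B p (p * j₀))) ∧
      Nat.card (eqHom (A := Bˣ ⧸ pthPowers B p) ρN (rhoA p act) (W B p (p * j₀))) ≤
        Nat.card (eqHom (A := Bˣ ⧸ pthPowers B p) ρN (rhoA p act) (W B p (p * j₀ + 1))) *
          Nat.card (eqHom ρN (rhoCyc p m) ⊤) := by
  haveI := hfin
  haveI : NeZero p := ⟨hp.ne_zero⟩
  haveI : Finite (eqHom ρN (rhoCyc p m) ⊤) := finite_eqHom _ _ _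
  refine finite_and_card_le (ρY := rhoCyc p m) (tauW hϖ hp hpe he hj₀ hcrit)
    (fun a ha => (tauW_eq_one_iff hϖ hp hpe he hj₀ hcrit a).1 ha) (fun g a h => ?_)
  exact tauW_actQ hϖ hp hpe he hj₀ hcrit hζ hζ1 (act g) (hc g) (hm g) a

include hϖ hp hpe in
/-- above the top the filtration is trivial (complete case). -/
theorem W_succ_top_eq_bot [IsAdicComplete (maximalIdeal B) B] {i : ℕ}
    (htop : e * p < i * (p - 1)) : W B p i = ⊥ :=
  W_eq_bot_of_high hϖ hp hpe (N := i)
    (UnitFiltration.principalUnits_le_pthPowers hϖ hp hpe htop) htop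

/-- the bound at level `i` in `unitCount`. -/
noncomputable def levelBound (p : ℕ) (ρN : G → N → N) (act : G → B ≃+* B) (c : G → B) (i : ℕ) : ℕ :=
  if p ∣ i then 1 else Nat.card (eqHom ρN (rhoLevel act c i) ⊤)

/-- the bound function of the chain `e ≤ i ≤ p j₀`. -/
noncomputable def chainBound (p j₀ : ℕ) (ρN : G → N → N) (act : G → B ≃+* B) (c : G → B)
    (m : G → ℕ) (i : ℕ) : ℕ :=
  if i = p * j₀ then Nat.card (eqHom ρN (rhoCyc p m) ⊤) else levelBound p ρN act c i

theorem chainBound_top :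
    chainBound p j₀ ρN act c m (p * j₀) = Nat.card (eqHom ρN (rhoCyc p m) ⊤) := if_pos rfl

theorem chainBound_of_ne {i : ℕ} (h : i ≠ p * j₀) :
    chainBound p j₀ ρN act c m i = levelBound p ρN act c i := if_neg h

include hϖ hp hpe he hc hj₀ hcrit hζ hζ1 hm in
/-- all the steps of the chain. -/
theorem step_all [Finite N] [Finite (ResidueField B)] (i : ℕ) (hei : e ≤ i)
    (hib : i < p * j₀ + 1)
    (hfin : Finite (eqHom (A := Bˣ ⧸ pthPowers B p) ρN (rhoA p act) (W B p (i + 1)))) :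
    Finite (eqHom (A := Bˣ ⧸ pthPowers B p) ρN (rhoA p act) (W B p i)) ∧
      Nat.card (eqHom (A := Bˣ ⧸ pthPowers B p) ρN (rhoA p act) (W B p i)) ≤
        Nat.card (eqHom (A := Bˣ ⧸ pthPowers B p) ρN (rhoA p act) (W B p (i + 1))) *
          chainBound p j₀ ρN act c m i := by
  have hp2 := hp.two_le
  obtain ⟨q, hq⟩ : ∃ q, p = q + 1 := ⟨p - 1, by omega⟩
  have hq' : p - 1 = q := by omega
  have hq0 : 0 < q := by omega
  have hje : q * j₀ = e := by
    rw [hq] at hcrit
    nlinarith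
  have hi1 : 1 ≤ i := le_trans he hei
  rcases Nat.lt_succ_iff_lt_or_eq.1 hib with hlt | heq
  · have htop : i * (p - 1) < e * p := by
      rw [hq', ← hje]
      have h1 : i * q < p * j₀ * q := Nat.mul_lt_mul_of_pos_right hlt hq0
      calc i * q < p * j₀ * q := h1
        _ = q * j₀ * p := by ring
    rw [chainBound_of_ne ρN act c m hlt.ne]
    unfold levelBound
    by_cases hpi : p ∣ i
    · rw [if_pos hpi]
      exact step_of_dvd hϖ hp hpe he ρN act hi1 hpi htop hfin
    · rw [if_neg hpi]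
      exact step_of_not_dvd hϖ hp hpe he ρN act c hc hi1 hpi htop hfin
  · subst heq
    rw [chainBound_top]
    exact step_top hϖ hp hpe he ρN act c hc hj₀ hcrit hζ hζ1 m hm hfin

include hϖ hp hpe he hc hj₀ hcrit hζ hζ1 hm in
/-- **The count**: `#Hom_G(N, W_b) ≤ (∏_{e ≤ i < top, p ∤ i} #Hom_G(N, k(θ^i))) · #Hom_G(N, 𝔽_p(ω))`
for `W_b = W B p e`, `top = p j₀`. -/
theorem unitCount [IsAdicComplete (maximalIdeal B) B] [Finite N] [Finite (ResidueField B)] :
    Finite (eqHom (A := Bˣ ⧸ pthPowers B p) ρN (rhoA p act) (W B p e)) ∧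
      Nat.card (eqHom (A := Bˣ ⧸ pthPowers B p) ρN (rhoA p act) (W B p e)) ≤
        (∏ i ∈ Finset.Ico e (p * j₀), levelBound p ρN act c i) *
          Nat.card (eqHom ρN (rhoCyc p m) ⊤) := by
  have hp2 := hp.two_le
  obtain ⟨q, hq⟩ : ∃ q, p = q + 1 := ⟨p - 1, by omega⟩
  have hq' : p - 1 = q := by omega
  have hje : q * j₀ = e := by
    rw [hq] at hcrit
    nlinarith
  have hetop : e ≤ p * j₀ := by omega
  have hbot : W B p (p * j₀ + 1) = ⊥ := by
    refine W_succ_top_eq_bot hϖ hp hpe ?_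
    rw [hq', ← hje]
    have : (q + 1) * j₀ = p * j₀ := by rw [hq]
    nlinarith
  have hbase : Finite (eqHom (A := Bˣ ⧸ pthPowers B p) ρN (rhoA p act) (W B p (p * j₀ + 1))) ∧
      Nat.card (eqHom (A := Bˣ ⧸ pthPowers B p) ρN (rhoA p act) (W B p (p * j₀ + 1))) ≤ 1 := by
    rw [hbot]
    exact ⟨finite_eqHom_bot _ _, (card_eqHom_bot _ _).le⟩
  have hab : e ≤ p * j₀ + 1 := by omega
  have hstep := step_all hϖ hp hpe he ρN act c hc hj₀ hcrit hζ hζ1 m hm
  have key := @chain_card_le G N (Bˣ ⧸ pthPowers B p) _ _ ρN (rhoA p act) (W B p)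
    (chainBound p j₀ ρN act c m) e (p * j₀ + 1) hab
  obtain ⟨hfin, hcard⟩ := key hbase hstep
  refine ⟨hfin, hcard.trans (le_of_eq ?_)⟩
  rw [Finset.prod_Ico_succ_top hetop, chainBound_top]
  congr 1
  refine Finset.prod_congr rfl (fun i hi => ?_)
  rw [chainBound_of_ne ρN act c m (Finset.mem_Ico.1 hi).2.ne]

end Count

end Fermat.Agent.S56x.Local.UnitCount
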