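import Mathlib
import Fermat.Agent.S56x.Local.UnitPow

/-!
# P-S56, block (A), LOC-2 (rest; helper47): the top of the unit filtration modulo `p`-th powers

`B` a discrete valuation ring with uniformiser `ϖ`, `p = c₀ ϖ^e`, `U^(i) = principalUnits B i`,
`gr_i = gradedResidueHom hϖ i` (frozen `Lib/CFT/Local/UnitsFiltration`), on top of
`S56x/Local/UnitPow`.  Critical level `j₀` with `p j₀ = j₀ + e` (i.e. `j₀ = e/(p-1)`), top level
`p j₀ = e p/(p-1)`.

* `wpHom p γ : k →+ k`, `a ↦ a^p + γ a`; `card_ker_wpHom`, `index_range_wpHom` (kernel and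
  cokernel have order `p` as soon as there is a nonzero root, `k` finite for the cokernel);
  `twist_sub_mem_range` (the twisted Galois action on the cokernel is multiplication by `m`);
* (W3) `pow_prime_bijOn_high` : `B` complete, `i (p-1) > e`: `x ↦ x^p` is a bijection
  `U^(i) → U^(i+e)` (sharp range); `exists_pow_prime_eq_of_mem_top_succ`: `U^(top+1) ⊆ (Bˣ)^p`;
* `mem_of_pow_prime_mem_low` : `w^p ∈ U^(p j)`, `j ≤ j₀` ⇒ `w ∈ U^(j)`;
* (W4) `mem_pow_mul_top_succ_iff` : `u ∈ U^(top)` is a `p`-th power modulo `U^(top+1)` iff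
  `gr_top u ∈ im ℘_{c̄₀}`;
* `exists_crit_level_of_pow_prime_eq_one` : a nontrivial `p`-th root of unity `z` sits at the
  exact level `j₀`, `p j₀ = j₀ + e`, and `gr_{j₀} z` is a nonzero root of `℘_{c̄₀}`;
* `index_range_top` : the top piece `k / im ℘_{c̄₀}` has order `p` (finite residue field, `ζ_p ∈ B`);
* `graded_top_map` : if `σ ζ = ζ^m` then `gr_top (σ u) - m gr_top u ∈ im ℘_{c̄₀}`, i.e. the top
  piece is `F_p(ω)`.
-/

set_option autoImplicit false
set_option linter.unusedSectionVars false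
set_option linter.style.haveILetI false
set_option linter.unusedVariables false

open IsLocalRing Finset

namespace Fermat.Agent.S56x.Local.UnitTop

open Fermat.Agent.Lib.CFT.Local.UnitsFiltration Fermat.Agent.S56x.Local.UnitPow

section AS

variable {k : Type*} [Field k] (p : ℕ) [Fact p.Prime] [CharP k p]

/-- the additive map `a ↦ a^p + γ a` on a field of characteristic `p`. -/
noncomputable def wpHom (γ : k) : k →+ k :=
  (frobenius k p : k →+* k).toAddMonoidHom + AddMonoidHom.mulLeft γ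

@[simp] theorem wpHom_apply (γ a : k) : wpHom p γ a = a ^ p + γ * a := rfl

variable {p}

/-- if `b₀ ≠ 0` is a root of `X^p + γ X` then `℘_γ (b₀ x) = b₀^p (x^p - x)`. -/
theorem wpHom_mul_root {γ b₀ : k} (hb₀ : b₀ ≠ 0) (hroot : wpHom p γ b₀ = 0) (x : k) :
    wpHom p γ (b₀ * x) = b₀ ^ p * (x ^ p - x) := by
  rw [wpHom_apply] at hroot ⊢
  have hγ : γ * b₀ = - b₀ ^ p := by linear_combination hroot
  rw [mul_pow]
  linear_combination x * hγ

/-- natural number multiples of a root are roots. -/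
theorem wpHom_natCast_mul_root {γ b₀ : k} (hroot : wpHom p γ b₀ = 0) (m : ℕ) :
    wpHom p γ ((m : k) * b₀) = 0 := by
  have h : ((m : k) * b₀) = m • b₀ := by rw [nsmul_eq_mul]
  rw [h, map_nsmul, hroot, smul_zero]

/-- `y^(p^n) - y` is in the image of `x ↦ x^p - x`. -/
theorem exists_pow_sub_eq_iterate (y : k) (n : ℕ) :
    ∃ x : k, x ^ p - x = y ^ p ^ n - y := by
  induction n with
  | zero => exact ⟨0, by simp [zero_pow (Fact.out : p.Prime).ne_zero]⟩
  | succ n ih =>
    obtain ⟨x, hx⟩ := ih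
    refine ⟨y ^ p ^ n + x, ?_⟩
    rw [add_pow_char, pow_succ, pow_mul]
    linear_combination hx

/-- every ring endomorphism of a finite field of characteristic `p` is a power of the Frobenius. -/
theorem exists_ringHom_eq_pow [Finite k] (f : k →+* k) : ∃ n : ℕ, ∀ x : k, f x = x ^ p ^ n := by
  classical
  letI : Algebra (ZMod p) k := ZMod.algebra k p
  haveI : Fintype k := Fintype.ofFinite k
  let F : k →ₐ[ZMod p] k :=
    { f with
      commutes' := fun r => by
        have : f.comp (algebraMap (ZMod p) k) = algebraMap (ZMod p) k := RingHom.ext_zmod _ _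
        exact RingHom.congr_fun this r }
  obtain ⟨n, hn⟩ := (FiniteField.bijective_frobeniusAlgHom_pow (ZMod p) k).2 F
  refine ⟨n.1, fun x => ?_⟩
  have h1 : F x = f x := rfl
  rw [← h1, ← hn]
  simp only [AlgHom.coe_pow, FiniteField.coe_frobeniusAlgHom, pow_iterate, ZMod.card]

/-- the fixed-point defect of a ring endomorphism of a finite field lies in the image of the
Artin–Schreier map. -/
theorem exists_pow_sub_eq_ringHom [Finite k] (f : k →+* k) (y : k) :
    ∃ x : k, x ^ p - x = f y - y := by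
  obtain ⟨n, hn⟩ := exists_ringHom_eq_pow (p := p) f
  rw [hn]
  exact exists_pow_sub_eq_iterate y n

/-- **the twisted action on the cokernel of `℘_γ`**: if `b₀ ≠ 0` is a root of `X^p + γ X`,
`f` a ring endomorphism of the finite field `k` and `t * f b₀ = m * b₀`, then
`t^p * f a - m * a ∈ im ℘_γ` for every `a`. -/
theorem twist_sub_mem_range [Finite k] {γ b₀ : k} (hb₀ : b₀ ≠ 0) (hroot : wpHom p γ b₀ = 0)
    (f : k →+* k) {t : k} {m : ℕ} (ht : t * f b₀ = m * b₀) (a : k) :
    t ^ p * f a - m * a ∈ (wpHom p γ).range := by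
  have hfb : f b₀ ≠ 0 := (map_ne_zero f).2 hb₀
  set y := a / b₀ ^ p with hy
  have ha : a = b₀ ^ p * y := by rw [hy, mul_div_cancel₀ _ (pow_ne_zero p hb₀)]
  obtain ⟨x, hx⟩ := exists_pow_sub_eq_ringHom (p := p) f y
  have hmp : ((m : k)) ^ p = m := by
    have := map_natCast (frobenius k p) m
    rwa [frobenius_def] at this
  refine ⟨(m : k) * (b₀ * x), ?_⟩
  have h1 : wpHom p γ ((m : k) * (b₀ * x)) = m * wpHom p γ (b₀ * x) := by
    have h : ((m : k) * (b₀ * x)) = m • (b₀ * x) := by rw [nsmul_eq_mul]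
    rw [h, map_nsmul, nsmul_eq_mul]
  rw [h1, wpHom_mul_root hb₀ hroot, hx]
  have h2 : t ^ p * f a = m * b₀ ^ p * f y := by
    rw [ha, map_mul, map_pow]
    calc t ^ p * (f b₀ ^ p * f y) = (t * f b₀) ^ p * f y := by ring
      _ = m * b₀ ^ p * f y := by rw [ht, mul_pow, hmp]
  rw [h2, ha]
  ring

open Polynomial in
/-- the kernel of `℘_γ` has exactly `p` elements as soon as it is nonzero. -/
theorem card_ker_wpHom {γ b₀ : k} (hb₀ : b₀ ≠ 0) (hroot : wpHom p γ b₀ = 0) :
    Nat.card (wpHom p γ).ker = p := by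
  classical
  have hp : p.Prime := Fact.out
  set P : k[X] := X ^ p + C γ * X with hP
  have hdeg : P.natDegree = p := by
    rw [hP, natDegree_add_eq_left_of_natDegree_lt, natDegree_X_pow]
    rw [natDegree_X_pow]
    exact lt_of_le_of_lt (natDegree_C_mul_le _ _) (by rw [natDegree_X]; exact hp.one_lt)
  have hP0 : P ≠ 0 := by
    intro h
    rw [h, natDegree_zero] at hdeg
    exact hp.ne_zero hdeg.symm
  have hsub : ((wpHom p γ).ker : Set k) ⊆ ↑P.roots.toFinset := by
    intro a ha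
    have ha' : a ^ p + γ * a = 0 := ha
    rw [Finset.mem_coe, Multiset.mem_toFinset, mem_roots hP0, IsRoot.def, hP]
    simpa using ha'
  have hfin : ((wpHom p γ).ker : Set k).Finite := (Finset.finite_toSet _).subset hsub
  haveI : Finite (wpHom p γ).ker := hfin.to_subtype
  apply le_antisymm
  · calc Nat.card (wpHom p γ).ker = ((wpHom p γ).ker : Set k).ncard := Nat.card_coe_set_eq _
      _ ≤ (↑P.roots.toFinset : Set k).ncard := Set.ncard_le_ncard hsub (Finset.finite_toSet _)
      _ = P.roots.toFinset.card := Set.ncard_coe_finset _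
      _ ≤ Multiset.card P.roots := Multiset.toFinset_card_le _
      _ ≤ P.natDegree := card_roots' P
      _ = p := hdeg
  · let φ : ZMod p → (wpHom p γ).ker := fun m =>
      ⟨((m.val : ℕ) : k) * b₀, wpHom_natCast_mul_root hroot m.val⟩
    have hφ : Function.Injective φ := by
      intro m m' h
      have h1 : ((m.val : ℕ) : k) * b₀ = ((m'.val : ℕ) : k) * b₀ := congrArg Subtype.val h
      have h2 : ((m.val : ℕ) : k) = ((m'.val : ℕ) : k) := mul_right_cancel₀ hb₀ h1
      have h3 : ((m.val : ℕ) : ZMod p) = ((m'.val : ℕ) : ZMod p) := by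
        rw [(CharP.natCast_eq_natCast k p)] at h2
        exact (ZMod.natCast_eq_natCast_iff _ _ _).2 h2
      rwa [ZMod.natCast_zmod_val, ZMod.natCast_zmod_val] at h3
    have := Nat.card_le_card_of_injective φ hφ
    rwa [Nat.card_eq_fintype_card, ZMod.card] at this

/-- for a finite field the cokernel of `℘_γ` has order `p` as soon as `℘_γ` has a nonzero root. -/
theorem index_range_wpHom [Finite k] {γ b₀ : k} (hb₀ : b₀ ≠ 0) (hroot : wpHom p γ b₀ = 0) :
    (wpHom p γ).range.index = p := by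
  have h1 := AddSubgroup.card_mul_index (wpHom p γ).ker
  have h2 := AddSubgroup.card_mul_index (wpHom p γ).range
  rw [AddSubgroup.index_ker, card_ker_wpHom hb₀ hroot] at h1
  have h3 : 0 < Nat.card (wpHom p γ).range := Nat.card_pos
  rw [← h2, mul_comm] at h1
  exact (Nat.eq_of_mul_eq_mul_left h3 h1).symm

end AS

section DVR

variable {B : Type*} [CommRing B] [IsDomain B] [IsDiscreteValuationRing B]
  {ϖ : B} (hϖ : Irreducible ϖ) {p : ℕ} (hp : p.Prime) {c₀ : Bˣ} {e : ℕ}
  (hpe : (p : B) = c₀ * ϖ ^ e)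

include hϖ hpe in
/-- the residue field has characteristic `p`. -/
theorem charP_residueField (hp : p.Prime) (he : 1 ≤ e) : CharP (ResidueField B) p :=
  (CharP.charP_iff_prime_eq_zero hp).2 (residue_prime_eq_zero hϖ hpe he)

theorem residue_unit_ne_zero (c : Bˣ) : residue B (c : B) ≠ 0 := by
  rw [Ne, residue_eq_zero_iff]
  exact fun h => (mem_maximalIdeal _).1 h c.isUnit

/-! ### (W3) above the critical level the `p`-th power map is bijective -/

include hϖ hp hpe in
/-- graded injectivity above the critical level. -/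
theorem mem_succ_of_pow_prime_mem_high {i : ℕ} (hi : 1 ≤ i) (hhigh : i + e < p * i) {x : Bˣ}
    (hx : x ∈ principalUnits B i) (hxp : x ^ p ∈ principalUnits B (i + e + 1)) :
    x ∈ principalUnits B (i + 1) := by
  obtain ⟨hmem, hgr⟩ := graded_pow_prime_high hϖ hp hpe hi hhigh hx
  have h0 := (mem_succ_iff_graded_eq_zero hϖ (by omega) hmem).1 hxp
  rw [hgr] at h0
  rcases mul_eq_zero.1 h0 with h | h
  · exact absurd h (residue_unit_ne_zero c₀)
  · exact (mem_succ_iff_graded_eq_zero hϖ hi hx).2 h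

include hϖ hp hpe in
/-- **(W3)** for a complete `B` and `i (p - 1) > e` the map `x ↦ x^p` is a bijection
`U^(i) → U^(i+e)`. -/
theorem pow_prime_bijOn_high [IsAdicComplete (maximalIdeal B) B] {i : ℕ} (hi : 1 ≤ i)
    (hhigh : i + e < p * i) :
    Set.BijOn (fun x : Bˣ => x ^ p) (principalUnits B i) (principalUnits B (i + e)) := by
  have hp2 := hp.two_le
  have hk : ∀ k : ℕ, i + k + e < p * (i + k) := by
    intro k
    have : k ≤ p * k := Nat.le_mul_of_pos_left k hp.pos
    nlinarith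
  refine ⟨fun x hx => pow_prime_mem hϖ hp hpe hi hhigh.le le_rfl hx, ?_, ?_⟩
  · intro x hx x' hx' hxx
    have hq : x * x'⁻¹ ∈ principalUnits B i :=
      Subgroup.mul_mem _ hx (Subgroup.inv_mem _ hx')
    have h1 : (powMonoidHom p : Bˣ →* Bˣ) (x * x'⁻¹) = 1 := by
      have hxx' : x ^ p = x' ^ p := hxx
      rw [powMonoidHom_apply, mul_pow, inv_pow, hxx', mul_inv_cancel]
    have := eq_one_of_graded_injective (A := B) (B := B) (powMonoidHom p)
      (fun k => i + k) (fun k => i + e + k) (fun k => by omega)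
      (fun k x hx hxn => by
        refine mem_succ_of_pow_prime_mem_high hϖ hp hpe (i := i + k) (by omega) (hk k) hx ?_
        have h2 : i + k + e + 1 = i + e + (k + 1) := by ring
        rw [h2]; exact hxn)
      (x := x * x'⁻¹) (by simpa using hq) h1
    exact mul_inv_eq_one.mp this
  · intro y hy
    obtain ⟨x, hx, hxy⟩ := exists_preimage_of_graded_surjective (A := B) (B := B)
      (powMonoidHom p) (fun k => i + k) (fun k => i + e + k)
      (fun a b hab => by simpa using hab) (fun k => by omega) (fun k => by omega)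
      (fun k x hx => by
        have := pow_prime_mem hϖ hp hpe (i := i + k) (j := i + k + e) (by omega) (hk k).le le_rfl hx
        have h2 : i + k + e = i + e + k := by ring
        rw [h2] at this
        exact this)
      (fun k y hy => by
        have h2 : i + e + k = i + k + e := by ring
        rw [h2] at hy
        obtain ⟨x, hx, hxy⟩ :=
          exists_pow_prime_approx_high hϖ hp hpe (i := i + k) (by omega) (hk k) hy
        refine ⟨x, hx, ?_⟩
        have h3 : i + e + (k + 1) = i + k + e + 1 := by ring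
        rw [h3]
        exact hxy)
      (y := y) (by simpa using hy)
    exact ⟨x, by simpa using hx, hxy⟩

include hϖ hp hpe in
/-- above the top level everything is a `p`-th power (complete `B`). -/
theorem exists_pow_prime_eq_of_mem_top_succ [IsAdicComplete (maximalIdeal B) B] {j₀ : ℕ}
    (hcrit : p * j₀ = j₀ + e) {y : Bˣ} (hy : y ∈ principalUnits B (p * j₀ + 1)) :
    ∃ x ∈ principalUnits B (j₀ + 1), x ^ p = y := by
  have hp2 := hp.two_le
  have h1 : j₀ + 1 + e < p * (j₀ + 1) := by nlinarith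
  have h2 : p * j₀ + 1 = j₀ + 1 + e := by omega
  rw [h2] at hy
  exact (pow_prime_bijOn_high hϖ hp hpe (i := j₀ + 1) (by omega) h1).surjOn hy

/-! ### below the critical level `p`-th powers are detected on the level -/

include hϖ hp hpe in
/-- if `w^p ∈ U^(p j)` with `j ≤ j₀` then `w ∈ U^(j)`. -/
theorem mem_of_pow_prime_mem_low (he : 1 ≤ e) {j₀ : ℕ} (hcrit : p * j₀ = j₀ + e) {j : ℕ}
    (hj : 1 ≤ j) (hjj : j ≤ j₀) {w : Bˣ} (hw : w ^ p ∈ principalUnits B (p * j)) :
    w ∈ principalUnits B j := by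
  have hp2 := hp.two_le
  have hw1 : w ∈ principalUnits B 1 :=
    mem_one_of_pow_prime_mem hϖ hp hpe he (principalUnits_le (by nlinarith) hw)
  rcases eq_or_ne w 1 with rfl | hne
  · exact Subgroup.one_mem _
  obtain ⟨i, hi, hwi, hwi'⟩ := exists_exact_level hϖ hw1 hne
  by_contra hcon
  have hij : i < j := by
    by_contra h
    exact hcon (principalUnits_le (not_lt.1 h) hwi)
  obtain ⟨q, hq⟩ : ∃ q, p = q + 1 := ⟨p - 1, by omega⟩
  have hlow : p * i < i + e := by
    have h1 : q * j₀ = e := by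
      have : (q + 1) * j₀ = j₀ + e := by rw [← hq]; exact hcrit
      nlinarith
    have h2 : q * i < q * j₀ := Nat.mul_lt_mul_of_pos_left (by omega) (by omega)
    rw [hq]; nlinarith
  obtain ⟨hmem, hgr⟩ := graded_pow_prime_low hϖ hp hpe hi hlow hwi
  have hne0 : Multiplicative.toAdd (gradedResidueHom hϖ i hi ⟨w, hwi⟩) ≠ 0 := fun h0 =>
    hwi' ((mem_succ_iff_graded_eq_zero hϖ hi hwi).2 h0)
  have hmem' : w ^ p ∈ principalUnits B (p * i + 1) :=
    principalUnits_le (by nlinarith) hw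
  have h0 := (mem_succ_iff_graded_eq_zero hϖ (by nlinarith) hmem).1 hmem'
  rw [hgr] at h0
  exact hne0 (pow_eq_zero_iff hp.ne_zero |>.1 h0)

end DVR

section Top

variable {B : Type*} [CommRing B] [IsDomain B] [IsDiscreteValuationRing B]
  {ϖ : B} (hϖ : Irreducible ϖ) {p : ℕ} [Fact p.Prime] [CharP (ResidueField B) p] {c₀ : Bˣ} {e : ℕ}
  (hpe : (p : B) = c₀ * ϖ ^ e)

include hpe in
/-- `gr_top (w^p) = ℘_{c̄₀} (gr_{j₀} w)`. -/
theorem graded_top_pow_prime {j₀ : ℕ} (hj₀ : 1 ≤ j₀) (hcrit : p * j₀ = j₀ + e) {w : Bˣ}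
    (hw : w ∈ principalUnits B j₀) :
    ∃ hmem : w ^ p ∈ principalUnits B (p * j₀),
      Multiplicative.toAdd (gradedResidueHom hϖ (p * j₀)
        (by have := (Fact.out : p.Prime).pos; nlinarith) ⟨w ^ p, hmem⟩) =
        wpHom p (residue B (c₀ : B))
          (Multiplicative.toAdd (gradedResidueHom hϖ j₀ hj₀ ⟨w, hw⟩)) := by
  obtain ⟨hmem, h⟩ := graded_pow_prime_crit hϖ Fact.out hpe hj₀ hcrit hw
  exact ⟨hmem, by rw [h, wpHom_apply]⟩

include hpe in
/-- the graded image at the top level of a `p`-th power lies in the image of `℘_{c̄₀}`. -/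
theorem graded_top_mem_range_of_pow (he : 1 ≤ e) {j₀ : ℕ} (hj₀ : 1 ≤ j₀)
    (hcrit : p * j₀ = j₀ + e) {w : Bˣ} (hw : w ^ p ∈ principalUnits B (p * j₀)) :
    Multiplicative.toAdd (gradedResidueHom hϖ (p * j₀)
        (by have := (Fact.out : p.Prime).pos; nlinarith) ⟨w ^ p, hw⟩) ∈
      (wpHom p (residue B (c₀ : B))).range := by
  have hwj : w ∈ principalUnits B j₀ :=
    mem_of_pow_prime_mem_low hϖ Fact.out hpe he hcrit hj₀ le_rfl hw
  obtain ⟨hmem, h⟩ := graded_top_pow_prime hϖ hpe hj₀ hcrit hwj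
  exact ⟨_, h.symm⟩

include hpe in
/-- **(W4)** `u ∈ U^(top)` is a `p`-th power modulo `U^(top+1)` iff `gr_top u ∈ im ℘_{c̄₀}`. -/
theorem mem_pow_mul_top_succ_iff (he : 1 ≤ e) {j₀ : ℕ} (hj₀ : 1 ≤ j₀)
    (hcrit : p * j₀ = j₀ + e) {u : Bˣ} (hu : u ∈ principalUnits B (p * j₀)) :
    (∃ w : Bˣ, u * (w ^ p)⁻¹ ∈ principalUnits B (p * j₀ + 1)) ↔
      Multiplicative.toAdd (gradedResidueHom hϖ (p * j₀)
        (by have := (Fact.out : p.Prime).pos; nlinarith) ⟨u, hu⟩) ∈
      (wpHom p (residue B (c₀ : B))).range := by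
  have hp : p.Prime := Fact.out
  have hj : 1 ≤ p * j₀ := by have := hp.pos; nlinarith
  constructor
  · rintro ⟨w, hw⟩
    have hw' : u * (w ^ p)⁻¹ ∈ principalUnits B (p * j₀) := principalUnits_le (by omega) hw
    have hwp : w ^ p ∈ principalUnits B (p * j₀) := by
      have : w ^ p = (u * (w ^ p)⁻¹)⁻¹ * u := by group
      rw [this]
      exact Subgroup.mul_mem _ (Subgroup.inv_mem _ hw') hu
    have h0 := (mem_succ_iff_graded_eq_zero hϖ hj hw').1 hw
    have h1 : (⟨u, hu⟩ : principalUnits B (p * j₀)) =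
        ⟨u * (w ^ p)⁻¹, hw'⟩ * ⟨w ^ p, hwp⟩ := by
      apply Subtype.ext
      show u = u * (w ^ p)⁻¹ * w ^ p
      group
    rw [h1, map_mul, toAdd_mul, h0, zero_add]
    exact graded_top_mem_range_of_pow hϖ hpe he hj₀ hcrit hwp
  · rintro ⟨b, hb⟩
    obtain ⟨x, hx⟩ := gradedResidueHom_surjective hϖ j₀ hj₀ (Multiplicative.ofAdd b)
    obtain ⟨hmem, hgr⟩ := graded_top_pow_prime hϖ hpe hj₀ hcrit x.2
    refine ⟨x, ?_⟩
    have hmem2 : u * ((x : Bˣ) ^ p)⁻¹ ∈ principalUnits B (p * j₀) :=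
      Subgroup.mul_mem _ hu (Subgroup.inv_mem _ hmem)
    rw [mem_succ_iff_graded_eq_zero hϖ hj hmem2]
    have h1 : (⟨u * ((x : Bˣ) ^ p)⁻¹, hmem2⟩ : principalUnits B (p * j₀)) =
        ⟨u, hu⟩ * (⟨(x : Bˣ) ^ p, hmem⟩ : principalUnits B (p * j₀))⁻¹ := rfl
    rw [h1, map_mul, map_inv, toAdd_mul, toAdd_inv, hgr]
    have h2 : (⟨(x : Bˣ), x.2⟩ : principalUnits B j₀) = x := rfl
    rw [h2, hx, toAdd_ofAdd, hb, add_neg_cancel]

end Top
section Root

variable {B : Type*} [CommRing B] [IsDomain B] [IsDiscreteValuationRing B]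
  {ϖ : B} (hϖ : Irreducible ϖ) {p : ℕ} [Fact p.Prime] [CharP (ResidueField B) p] {c₀ : Bˣ} {e : ℕ}
  (hpe : (p : B) = c₀ * ϖ ^ e)

include hpe in
/-- **the level of `ζ_p`**: a nontrivial `p`-th root of unity `z` sits at the exact level `j₀`
with `p j₀ = j₀ + e`, and `gr_{j₀} z` is a nonzero root of `℘_{c̄₀}`. -/
theorem exists_crit_level_of_pow_prime_eq_one (he : 1 ≤ e) {z : Bˣ} (hz : z ^ p = 1)
    (hz1 : z ≠ 1) :
    ∃ (j₀ : ℕ) (hj₀ : 1 ≤ j₀) (hmem : z ∈ principalUnits B j₀), p * j₀ = j₀ + e ∧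
      Multiplicative.toAdd (gradedResidueHom hϖ j₀ hj₀ ⟨z, hmem⟩) ≠ 0 ∧
      wpHom p (residue B (c₀ : B))
        (Multiplicative.toAdd (gradedResidueHom hϖ j₀ hj₀ ⟨z, hmem⟩)) = 0 := by
  have hp : p.Prime := Fact.out
  have hp2 := hp.two_le
  have hzall : ∀ n, z ^ p ∈ principalUnits B n := fun n => by rw [hz]; exact Subgroup.one_mem _
  have hw1 : z ∈ principalUnits B 1 := mem_one_of_pow_prime_mem hϖ hp hpe he (hzall 1)
  obtain ⟨i, hi, hzi, hzi'⟩ := exists_exact_level hϖ hw1 hz1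
  have hne0 : Multiplicative.toAdd (gradedResidueHom hϖ i hi ⟨z, hzi⟩) ≠ 0 := fun h0 =>
    hzi' ((mem_succ_iff_graded_eq_zero hϖ hi hzi).2 h0)
  rcases lt_trichotomy (p * i) (i + e) with hlt | heq | hgt
  · exfalso
    obtain ⟨hmem, hgr⟩ := graded_pow_prime_low hϖ hp hpe hi hlt hzi
    have h0 := (mem_succ_iff_graded_eq_zero hϖ (by nlinarith) hmem).1 (hzall _)
    rw [hgr] at h0
    exact hne0 (pow_eq_zero_iff hp.ne_zero |>.1 h0)
  · refine ⟨i, hi, hzi, heq, hne0, ?_⟩
    obtain ⟨hmem, hgr⟩ := graded_top_pow_prime hϖ hpe hi heq hzi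
    rw [← hgr]
    exact (mem_succ_iff_graded_eq_zero hϖ (by nlinarith) hmem).1 (hzall _)
  · exfalso
    obtain ⟨hmem, hgr⟩ := graded_pow_prime_high hϖ hp hpe hi hgt hzi
    have h0 := (mem_succ_iff_graded_eq_zero hϖ (by omega) hmem).1 (hzall _)
    rw [hgr] at h0
    rcases mul_eq_zero.1 h0 with h | h
    · exact residue_unit_ne_zero c₀ h
    · exact hne0 h

include hϖ hpe in
/-- **the top piece has order `p`**: finite residue field and `ζ_p ∈ B`. -/
theorem index_range_top [Finite (ResidueField B)] (he : 1 ≤ e) {z : Bˣ} (hz : z ^ p = 1)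
    (hz1 : z ≠ 1) : (wpHom p (residue B (c₀ : B))).range.index = p := by
  obtain ⟨j₀, hj₀, hmem, -, hne, hroot⟩ :=
    exists_crit_level_of_pow_prime_eq_one hϖ hpe he hz hz1
  exact index_range_wpHom hne hroot

include hpe in
/-- **the top piece is `F_p(ω)`**: if `σ ϖ = c ϖ` and `σ z = z^m` for a nontrivial `p`-th root of
unity `z`, then `gr_top (σ u) - m · gr_top u ∈ im ℘_{c̄₀}` for `u ∈ U^(top)`. -/
theorem graded_top_map [Finite (ResidueField B)] (he : 1 ≤ e) {j₀ : ℕ} (hj₀ : 1 ≤ j₀)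
    (hcrit : p * j₀ = j₀ + e) {z : Bˣ} (hz : z ^ p = 1) (hz1 : z ≠ 1)
    (σ : B →+* B) [IsLocalHom σ] {c : B} (hc : σ ϖ = c * ϖ) (hσϖ : Irreducible (σ ϖ)) {m : ℕ}
    (hσz : Units.map (σ : B →* B) z = z ^ m) (u : principalUnits B (p * j₀)) :
    Multiplicative.toAdd (gradedResidueHom hϖ (p * j₀)
        (by have := (Fact.out : p.Prime).pos; nlinarith)
        ⟨Units.map (σ : B →* B) u, map_mem_principalUnits σ u.2⟩) -
      (m : ResidueField B) * Multiplicative.toAdd (gradedResidueHom hϖ (p * j₀)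
        (by have := (Fact.out : p.Prime).pos; nlinarith) u) ∈
      (wpHom p (residue B (c₀ : B))).range := by
  have hp : p.Prime := Fact.out
  have hp2 := hp.two_le
  have hj : 1 ≤ p * j₀ := by nlinarith
  obtain ⟨j₁, hj₁, hmem, hcrit₁, hne, hroot⟩ :=
    exists_crit_level_of_pow_prime_eq_one hϖ hpe he hz hz1
  have hjj : j₁ = j₀ := by
    obtain ⟨q, hq⟩ : ∃ q, p = q + 1 := ⟨p - 1, by omega⟩
    have h1 : q * j₀ = e := by
      have : (q + 1) * j₀ = j₀ + e := by rw [← hq]; exact hcrit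
      nlinarith
    have h2 : q * j₁ = e := by
      have : (q + 1) * j₁ = j₁ + e := by rw [← hq]; exact hcrit₁
      nlinarith
    have hq0 : 0 < q := by omega
    exact Nat.eq_of_mul_eq_mul_left hq0 (h2.trans h1.symm)
  subst hjj
  set b₀ := Multiplicative.toAdd (gradedResidueHom hϖ j₁ hj₁ ⟨z, hmem⟩) with hb₀
  -- the action on `z`
  have hz_map := graded_map hϖ σ hc hσϖ hj₁ ⟨z, hmem⟩
  have hz_pow : (⟨Units.map (σ : B →* B) z, map_mem_principalUnits σ hmem⟩ :
      principalUnits B j₁) = (⟨z, hmem⟩ : principalUnits B j₁) ^ m := Subtype.ext hσz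
  have ht : residue B c ^ j₁ * ResidueField.map σ b₀ = (m : ResidueField B) * b₀ := by
    rw [← hz_map]
    change Multiplicative.toAdd (gradedResidueHom hϖ j₁ hj₁
      ⟨Units.map (σ : B →* B) z, map_mem_principalUnits σ hmem⟩) = _
    rw [hz_pow, map_pow, toAdd_pow, nsmul_eq_mul]
  have hu_map := graded_map hϖ σ hc hσϖ hj u
  rw [hu_map]
  have := twist_sub_mem_range (p := p) hne hroot (ResidueField.map σ) ht
    (Multiplicative.toAdd (gradedResidueHom hϖ (p * j₁) hj u))
  rwa [← pow_mul, mul_comm j₁ p] at this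

end Root
end Fermat.Agent.S56x.Local.UnitTop
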