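import Mathlib
import Fermat.Agent.S56x.Local.KummerPairing
import Fermat.Agent.S56x.Local.WbCount
import Fermat.Agent.S56x.Local.FiltrationTransport

/-!
# P-S56, block (A) (helper48): from `O_Lˣ ⧸ p` to `Lˣ ⧸ p`

`L` an intermediate field of `Ω / F`, `B` a discrete valuation ring with fraction field `L`
(think `B = O_L`).  The count of `S56x/Local/WbCount` lives on `A₀ = Bˣ ⧸ (Bˣ)^p`, the Kummer
pairing of `S56x/Local/KummerPairing` (helper10) on `KGroup p L = Lˣ ⧸ (Lˣ)^p`.

* `iota p L B : Bˣ ⧸ pthPowers B p →* KGroup p L`, `iota_mk`, `iota_injective`;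
* `iota_actQ` : equivariance, for `σ : B ≃+* B` compatible with `g|_L`;
* `unitLevel L B e ≤ Lˣ` : the units of `B` congruent to `1` modulo `𝔪^e`, as a subgroup of `Lˣ`;
  `map_iota_W` : `(W B p e).map ι` is the image of `unitLevel L B e` in `KGroup p L`;
* `finite_and_card_eqHom_le` : the transported count
  `#eqHom ρN (rhoA p L) ((W B p e).map ι) ≤ #eqHom ρN (actA p σ) (W B p e)`.
-/

set_option autoImplicit false
set_option linter.unusedSectionVars false
set_option linter.style.haveILetI false

namespace Fermat.Agent.S56x.Local.UnitsToKGroup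

open Fermat.Agent.Lib.CFT.Local.UnitsFiltration Fermat.Agent.S56x.Local.FiltrationCount
open Fermat.Agent.S56x.Local

variable {F Ω : Type*} [Field F] [Field Ω] [Algebra F Ω] [IsGalois F Ω]
  (p : ℕ) [hpF : Fact p.Prime] (L : IntermediateField F Ω)
  (B : Type*) [CommRing B] [IsDomain B] [IsDiscreteValuationRing B] [Algebra B ↥L]
  [IsFractionRing B ↥L]

/-- units of `B` as units of `L`. -/
def unitsMap : Bˣ →* (↥L)ˣ := Units.map ((algebraMap B ↥L : B →+* ↥L) : B →* ↥L)

theorem coe_unitsMap (u : Bˣ) : ((unitsMap L B u : (↥L)ˣ) : ↥L) = algebraMap B ↥L (u : B) := rfl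

/-- the map `Bˣ ⧸ (Bˣ)^p → Lˣ ⧸ (Lˣ)^p`. -/
def iota : Bˣ ⧸ WbFiltration.pthPowers B p →* KummerPairing.KGroup p L :=
  QuotientGroup.map (WbFiltration.pthPowers B p) (KummerPairing.pthPowers p L) (unitsMap L B) (by
    rintro _ ⟨w, rfl⟩
    exact ⟨unitsMap L B w, (map_pow (unitsMap L B) w p).symm⟩)

theorem iota_mk (u : Bˣ) :
    iota p L B (QuotientGroup.mk u) = QuotientGroup.mk (unitsMap L B u) := rfl

/-- `ι` is injective: a unit of `B` which is a `p`-th power in `L` is a `p`-th power of a unit of
`B` (`B` is integrally closed). -/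
theorem iota_injective : Function.Injective (iota p L B) := by
  rw [injective_iff_map_eq_one]
  intro q hq
  induction q using QuotientGroup.induction_on with
  | H u =>
    rw [iota_mk, QuotientGroup.eq_one_iff] at hq
    obtain ⟨y, hy⟩ := hq
    have hy' : ((y : (↥L)ˣ) : ↥L) ^ p = algebraMap B ↥L (u : B) := by
      have := congrArg (fun z : (↥L)ˣ => (z : ↥L)) hy
      simpa [coe_unitsMap] using this
    have hint : IsIntegral B ((y : (↥L)ˣ) : ↥L) := by
      refine IsIntegral.of_pow hpF.out.pos ?_
      rw [hy']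
      exact isIntegral_algebraMap
    obtain ⟨b, hb⟩ := IsIntegrallyClosed.isIntegral_iff.mp hint
    have hbp : b ^ p = (u : B) := by
      apply IsFractionRing.injective B ↥L
      rw [map_pow, hb, hy']
    have hbu : IsUnit b := by
      have h1 : IsUnit (b ^ p) := by rw [hbp]; exact u.isUnit
      exact (isUnit_pow_iff hpF.out.ne_zero).mp h1
    rw [QuotientGroup.eq_one_iff]
    refine ⟨hbu.unit, ?_⟩
    apply Units.ext
    show (hbu.unit : B) ^ p = (u : B)
    rw [IsUnit.unit_spec, hbp]

variable {p L B}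

/-- equivariance of `ι` for a ring automorphism of `B` compatible with `g|_L`. -/
theorem iota_actQ [Normal F L] (σ : B ≃+* B) (g : Gal(Ω/F))
    (hcompat : ∀ b : B, algebraMap B ↥L (σ b) = AlgEquiv.restrictNormal g L (algebraMap B ↥L b))
    (q : Bˣ ⧸ WbFiltration.pthPowers B p) :
    iota p L B (WbFiltration.actQ p σ q) = KummerPairing.rhoA p L g (iota p L B q) := by
  induction q using QuotientGroup.induction_on with
  | H u =>
    rw [WbFiltration.actQ_mk, iota_mk, iota_mk, KummerPairing.rhoA_mk]
    congr 1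
    apply Units.ext
    exact hcompat (u : B)

variable (L B)

/-- the units of `B` congruent to `1` modulo `𝔪^e`, as a subgroup of `Lˣ`. -/
def unitLevel (e : ℕ) : Subgroup (↥L)ˣ := (principalUnits B e).map (unitsMap L B)

theorem mem_unitLevel {e : ℕ} {x : (↥L)ˣ} :
    x ∈ unitLevel L B e ↔ ∃ u ∈ principalUnits B e, unitsMap L B u = x := Iff.rfl

variable (p)

/-- the image of `W B p e` under `ι` is the image of `unitLevel L B e` in `Lˣ ⧸ (Lˣ)^p`. -/
theorem map_iota_W (e : ℕ) :
    (WbFiltration.W B p e).map (iota p L B)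
      = (unitLevel L B e).map (QuotientGroup.mk' (KummerPairing.pthPowers p L)) := by
  rw [WbFiltration.W, unitLevel, Subgroup.map_map, Subgroup.map_map]
  rfl

variable {p L B}

/-- **the transported count**: equivariant homs into the image of `W B p e` in `Lˣ ⧸ (Lˣ)^p`. -/
theorem finite_and_card_eqHom_le [Normal F L] {N : Type*} [Group N]
    (ρN : Gal(Ω/F) → N → N) (σ : Gal(Ω/F) → B ≃+* B)
    (hcompat : ∀ g (b : B),
      algebraMap B ↥L (σ g b) = AlgEquiv.restrictNormal g L (algebraMap B ↥L b))
    (e : ℕ)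
    [Finite (eqHom (A := Bˣ ⧸ WbFiltration.pthPowers B p) ρN (WbCount.actA p σ)
      (WbFiltration.W B p e))] :
    Finite (eqHom (A := KummerPairing.KGroup p L) ρN (KummerPairing.rhoA p L)
        ((WbFiltration.W B p e).map (iota p L B))) ∧
      Nat.card (eqHom (A := KummerPairing.KGroup p L) ρN (KummerPairing.rhoA p L)
        ((WbFiltration.W B p e).map (iota p L B)))
        ≤ Nat.card (eqHom (A := Bˣ ⧸ WbFiltration.pthPowers B p) ρN (WbCount.actA p σ)
            (WbFiltration.W B p e)) :=
  by
    have h1 : ∀ g a, iota p L B (WbCount.actA p σ g a)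
        = KummerPairing.rhoA p L g (iota p L B a) :=
      fun g a => iota_actQ (σ g) g (hcompat g) a
    have h := FiltrationTransport.finite_and_card_map_le (ρN := ρN)
      (A₀ := Bˣ ⧸ WbFiltration.pthPowers B p) (A := KummerPairing.KGroup p L)
      (ρA₀ := WbCount.actA p σ) (ρA := KummerPairing.rhoA p L)
      (iota p L B) (iota_injective p L B) h1 (WbFiltration.W B p e)
    exact h

end Fermat.Agent.S56x.Local.UnitsToKGroup
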