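import Fermat.Agent.S56x.Local.UnramOrth
import Fermat.Agent.S56x.Local.EulerTameFinal
import Fermat.Agent.S56x.GW.UnramClass

/-!
# P-S56 block (B): the six fields of `GW.UnramFamily` for `U t M := H1unrAt t M` (helper92)

All fields of the structure `GW.UnramFamily hp2` (file `GW/MainAssembly`), in its verbatim shapes,
for the unramified classes `U t M := H1unrAt t M` (`Local/UnramFinal`), unconditionally, in a file
which does NOT import `GW/MainAssembly` (light closure).  The pairing is `pairingAtOf t M B` for an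
arbitrary family `B : ∀ q, LocalBase p q`; for `B := localBaseStd hp2` this is `pairingStd hp2 t M`
by `rfl`.

* `le_cont` : `Local/UnramFinal.H1unrAt_le_continuousH1`;
* `loc_mem` (U1), `mono` (U2) : `GW/UnramClass` (helper57) + `UnramInertia.mem_H1unrAt_iff`;
* `finrank_le` (U3) : `Local/UnramFinal.finrank_H1unrAt`;
* `orth` (U4) : `Local/UnramOrth` + `Local/EulerTameFinal.localEuler_ne` (helper23).
-/

set_option autoImplicit false

open CategoryTheory groupCohomology ExtCitation Module

namespace Fermat.Agent.S56x.Local.UnramFields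

open Fermat.Agent.Lib.CFT.Duality Fermat.Agent.Lib.CFT.Duality.LocalTate
open Fermat.Agent.S56x.GW Fermat.Agent.S56x.Local.UnramLocal
open Fermat.Agent.S56x.Local.UnramFinal Fermat.Agent.S56x.Local.UnramInertia
open Fermat.Agent.S56x.Local.UnramOrth

local notation "Qbar" => AlgebraicClosure ℚ
local notation "Γℚ" => (AlgebraicClosure ℚ ≃ₐ[ℚ] AlgebraicClosure ℚ)

variable {p : ℕ} [Fact p.Prime]

/-- The tame local Euler characteristic formula holds. -/
theorem localEulerNe (B : ∀ q : Nat.Primes, LocalBase p q) : LocalEulerNe p :=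
  Fermat.Agent.S56x.Local.EulerTameFinal.localEuler_ne B

/-- field `le_cont` -/
theorem le_cont (S : Finset Nat.Primes) (M : Rep.{0} (ZMod p) Γℚ) (_hM : IsGoodModule p S M)
    (t : Nat.Primes) (_ht : t ∉ S) :
    H1unrAt t M ≤ continuousH1 (primeLocalToGlobal t) (Rep.res (primeLocalToGlobal t) M) :=
  H1unrAt_le_continuousH1 t M

/-- field `loc_mem` **(U1)** -/
theorem loc_mem (S : Finset Nat.Primes) (M : Rep.{0} (ZMod p) Γℚ) (_hM : IsGoodModule p S M)
    (x : H1 M) (hx : x ∈ continuousH1S S M) (t : Nat.Primes) (ht : t ∉ S) :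
    (locRes (fun q : Nat.Primes => primeLocalToGlobal q) M t).hom x ∈ H1unrAt t M := by
  obtain ⟨c', h1, h2, h3⟩ :=
    Fermat.Agent.S56x.GW.UnramClass.exists_unramified_cocycle_of_mem_continuousH1S S M hx ht
  exact (mem_H1unrAt_iff t M _).2 ⟨c', h1, h2, h3⟩

/-- field `mono` **(U2)** -/
theorem mono (S T : Finset Nat.Primes) (M : Rep.{0} (ZMod p) Γℚ) (hM : IsGoodModule p S M)
    (y : H1 M) (hy : y ∈ continuousH1S (S ∪ T) M)
    (h : ∀ t ∈ T, t ∉ S →
      (locRes (fun q : Nat.Primes => primeLocalToGlobal q) M t).hom y ∈ H1unrAt t M) :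
    y ∈ continuousH1S S M := by
  refine Fermat.Agent.S56x.GW.UnramClass.mem_continuousH1S_of_locally_unramified S T M hM.unram
    hy fun t ht htS => ?_
  obtain ⟨c', _, h2, h3⟩ := (mem_H1unrAt_iff t M _).1 (h t ht htS)
  exact ⟨c', h2, h3⟩

/-- field `finrank_le` **(U3)** (an equality in fact) -/
theorem finrank_le (S : Finset Nat.Primes) (M : Rep.{0} (ZMod p) Γℚ)
    [FiniteDimensional (ZMod p) M] (hM : IsGoodModule p S M) (t : Nat.Primes) (_ht : t ∉ S) :
    finrank (ZMod p) (H1unrAt t M) ≤
      finrank (ZMod p) (Rep.res (primeLocalToGlobal t) M).ρ.invariants :=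
  (finrank_H1unrAt t hM.smooth).le

/-- field `orth` **(U4)**, for the pairings `pairingAtOf t M B` -/
theorem orth (B : ∀ q : Nat.Primes, LocalBase p q) (S : Finset Nat.Primes)
    (M : Rep.{0} (ZMod p) Γℚ) [FiniteDimensional (ZMod p) M] (hM : IsGoodModule p S M)
    (hpS : pPrime p ∈ S) (t : Nat.Primes) (ht : t ∉ S) :
    orthogonal (pairingAtOf t M B) (H1unrAt t M) ⊓
        continuousH1 (primeLocalToGlobal t) (Rep.res (primeLocalToGlobal t) (tateDual p M)) ≤
      H1unrAt t (tateDual p M) :=
  orthogonal_H1unrAt_inf_le B (localEulerNe B) S M hM hpS t ht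

end Fermat.Agent.S56x.Local.UnramFields
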