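import Fermat.Agent.S56x.Local.UnramLocal
import Fermat.Agent.S56x.Local.FrobDataLocal
import Fermat.Agent.S56x.Local.TameCyclo

/-!
# P-S56 block (B), L2 (helper92): unramified local cohomology, unconditional form

Assembly of `Local/UnramLocal` (cohomology), `Local/FrobDataLocal` (helper42: the `FrobData` of
`Gal(PadicAlgCl q / ℚ_q)`, inertia `=` the subgroup fixing all roots of unity of order prime to
`q`) and `Local/TameCyclo` (helper8: the cyclotomic character):

* `unrInertiaAt q`: the inertia subgroup of `primeLocalGaloisGroup q`;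
* `cycloChar_eq_one_of_mem_unrInertiaAt`: for `q ≠ p` the mod `p` cyclotomic character is trivial
  on inertia;
* `H1unrAt q M`, `finrank_H1unrAt` (`dim H¹_unr = dim H⁰`, any finite smooth `M`),
  `pairingAtOf_eq_zero_of_mem_H1unrAt` (`q ≠ p`);
* the same statements for any subgroup `I` characterised by "fixes all roots of unity of order
  prime to `q`" (`finrank_H1unrOf_of_forall`, `pairingAtOf_eq_zero_of_forall`), to be applied to
  `localInertia q`.
-/

set_option autoImplicit false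

open CategoryTheory groupCohomology ExtCitation Module

namespace Fermat.Agent.S56x.Local.UnramFinal

open Fermat.Agent.Lib.CFT.Duality Fermat.Agent.Lib.CFT.Duality.LocalTate
open Fermat.Agent.S56x.GW Fermat.Agent.S56x.Local.UnramAbstract
open Fermat.Agent.S56x.Local.UnramLocal Fermat.Agent.S56x.Local.FrobDataLocal

local notation "Qbar" => AlgebraicClosure ℚ
local notation "Γℚ" => (AlgebraicClosure ℚ ≃ₐ[ℚ] AlgebraicClosure ℚ)

variable {p : ℕ} [Fact p.Prime] (q : Nat.Primes)

/-- The inertia subgroup of the local Galois group at `q`: the automorphisms fixing all roots of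
unity of order prime to `q`. -/
noncomputable abbrev unrInertiaAt : Subgroup (primeLocalGaloisGroup q) := (primeFrobData q).I

/-- `p ∣ q ^ (p - 1) - 1` for primes `p ≠ q`. -/
theorem dvd_pow_sub_one {p q : ℕ} (hp : p.Prime) (hq : q.Prime) (hqp : q ≠ p) :
    p ∣ q ^ (p - 1) - 1 := by
  have : Fact p.Prime := ⟨hp⟩
  have hq0 : (q : ZMod p) ≠ 0 := by
    intro h
    rw [ZMod.natCast_eq_zero_iff] at h
    exact hqp ((Nat.prime_dvd_prime_iff_eq hp hq).1 h).symm
  have h1 := ZMod.pow_card_sub_one_eq_one hq0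
  rw [← ZMod.natCast_eq_zero_iff, Nat.cast_sub (Nat.one_le_pow _ _ hq.pos), Nat.cast_pow, h1,
    Nat.cast_one, sub_self]

/-- For `q ≠ p` the mod `p` cyclotomic character is trivial on the inertia subgroup at `q`. -/
theorem cycloChar_eq_one_of_mem_unrInertiaAt (hqp : (q : ℕ) ≠ p)
    {i : primeLocalGaloisGroup q} (hi : i ∈ unrInertiaAt q) :
    cycloChar p (primeLocalToGlobal q i) = 1 := by
  have : Fact (q : ℕ).Prime := ⟨q.2⟩
  have hp : p.Prime := Fact.out
  obtain ⟨ζ, hζ⟩ := TameCyclo.exists_primitiveRoot p (q : ℕ)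
  have hfix := (mem_primeFrobData_I_iff q i).1 hi (p - 1) (Nat.sub_pos_of_lt hp.one_lt) ζ (by
    obtain ⟨t, ht⟩ := dvd_pow_sub_one hp q.2 hqp
    rw [ht, pow_mul, hζ.pow_eq_one, one_pow])
  exact TameCyclo.cycloChar_eq_one_of_apply_eq p (q : ℕ) hqp i hζ hfix

/-- **The unramified part of the local `H¹` at `q`.** -/
noncomputable def H1unrAt (M : Rep (ZMod p) Γℚ) :
    Submodule (ZMod p) (H1 (Rep.res (primeLocalToGlobal q) M)) :=
  H1unrOf q (unrInertiaAt q) M

theorem H1unrAt_le_continuousH1 (M : Rep (ZMod p) Γℚ) :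
    H1unrAt q M ≤ continuousH1 (primeLocalToGlobal q) (Rep.res (primeLocalToGlobal q) M) :=
  H1unrOf_le_continuousH1 q _ M

variable {M : Rep (ZMod p) Γℚ}

/-- **`dim H¹_unr(G_q, M) = dim H⁰(G_q, M)`** for every finite smooth `M`. -/
theorem finrank_H1unrAt [Module.Finite (ZMod p) M]
    (hsm : ∀ m : M, ∃ F : IntermediateField ℚ Qbar, FiniteDimensional ℚ F ∧
      ∀ s ∈ F.fixingSubgroup, M.ρ s m = m) :
    finrank (ZMod p) (H1unrAt q M) =
      finrank (ZMod p) (Rep.res (primeLocalToGlobal q) M).ρ.invariants :=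
  finrank_H1unrOf q (primeFrobData q) hsm

/-- **The local Tate pairing vanishes on `H¹_unr(M) × H¹_unr(M^*(1))`** for `q ≠ p`. -/
theorem pairingAtOf_eq_zero_of_mem_H1unrAt (hqp : (q : ℕ) ≠ p)
    (B : ∀ q : Nat.Primes, LocalBase p q) [Finite M]
    (hsm : ∀ m : M, ∃ F : IntermediateField ℚ Qbar, FiniteDimensional ℚ F ∧
      ∀ s ∈ F.fixingSubgroup, M.ρ s m = m)
    {x : H1 (Rep.res (primeLocalToGlobal q) M)} (hx : x ∈ H1unrAt q M)
    {y : H1 (Rep.res (primeLocalToGlobal q) (tateDual p M))}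
    (hy : y ∈ H1unrAt q (tateDual p M)) :
    pairingAtOf q M B x y = 0 :=
  pairingAtOf_eq_zero q (primeFrobData q) B hsm
    (fun _ hi => cycloChar_eq_one_of_mem_unrInertiaAt q hqp hi) hx hy

/-! ### For any subgroup with the same characterisation (e.g. `localInertia q`) -/

section OfForall

variable (I : Subgroup (primeLocalGaloisGroup q))
  (hI : letI : Fact (q : ℕ).Prime := ⟨q.2⟩
    ∀ σ : primeLocalGaloisGroup q, σ ∈ I ↔ ∀ n : ℕ, 0 < n → ∀ z : PadicAlgCl (q : ℕ),
      z ^ ((q : ℕ) ^ n - 1) = 1 →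
        (show PadicAlgCl (q : ℕ) ≃ₐ[ℚ_[(q : ℕ)]] PadicAlgCl (q : ℕ) from σ) z = z)

include hI

theorem unrInertiaAt_eq : unrInertiaAt q = I := primeFrobData_I_eq q I hI

theorem H1unrAt_eq (M : Rep (ZMod p) Γℚ) : H1unrAt q M = H1unrOf q I M := by
  unfold H1unrAt
  rw [unrInertiaAt_eq q I hI]

theorem finrank_H1unrOf_of_forall [Module.Finite (ZMod p) M]
    (hsm : ∀ m : M, ∃ F : IntermediateField ℚ Qbar, FiniteDimensional ℚ F ∧
      ∀ s ∈ F.fixingSubgroup, M.ρ s m = m) :
    finrank (ZMod p) (H1unrOf q I M) =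
      finrank (ZMod p) (Rep.res (primeLocalToGlobal q) M).ρ.invariants := by
  rw [← H1unrAt_eq q I hI]
  exact finrank_H1unrAt q hsm

theorem pairingAtOf_eq_zero_of_forall (hqp : (q : ℕ) ≠ p)
    (B : ∀ q : Nat.Primes, LocalBase p q) [Finite M]
    (hsm : ∀ m : M, ∃ F : IntermediateField ℚ Qbar, FiniteDimensional ℚ F ∧
      ∀ s ∈ F.fixingSubgroup, M.ρ s m = m)
    {x : H1 (Rep.res (primeLocalToGlobal q) M)} (hx : x ∈ H1unrOf q I M)
    {y : H1 (Rep.res (primeLocalToGlobal q) (tateDual p M))}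
    (hy : y ∈ H1unrOf q I (tateDual p M)) :
    pairingAtOf q M B x y = 0 := by
  rw [← H1unrAt_eq q I hI] at hx hy
  exact pairingAtOf_eq_zero_of_mem_H1unrAt q hqp B hsm hx hy

end OfForall

end Fermat.Agent.S56x.Local.UnramFinal
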