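import Fermat.Agent.S56x.Local.OrthCount
import Fermat.Agent.S56x.Local.UnramInertia

/-!
# P-S56 block (B), (U4): the annihilator of the unramified classes (helper92)

For `t ∉ S ∋ p` and a good module `M` for `S`:
`H¹_unr(G_t, M)^⊥ ∩ H¹_cont(G_t, M^*(1)) ≤ H¹_unr(G_t, M^*(1))` for the local Tate pairing
`pairingAtOf t M B` (for `B := localBaseStd hp2` this is `pairingStd hp2 t M` by `rfl`: the field
`orth` of `GW.UnramFamily`) by counting
(`Local/OrthCount.orthogonal_inf_le_of_finrank`, helper23) from

* the nondegeneracy of the local pairing (`GW/LocalFields`),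
* the vanishing of the pairing on unramified classes (`Local/UnramInertia`, (U4')),
* `dim H¹_unr = h⁰` (`Local/UnramInertia`, (U3)) and
* the tame local Euler characteristic formula `LocalEulerNe p` (the field `localEuler_ne`, taken as
  a hypothesis here; `Local/EulerTame`).
-/

set_option autoImplicit false

open CategoryTheory groupCohomology ExtCitation Module

namespace Fermat.Agent.S56x.Local.UnramOrth

open Fermat.Agent.Lib.CFT.Duality Fermat.Agent.Lib.CFT.Duality.LocalTate
open Fermat.Agent.S56x.GW Fermat.Agent.S56x.Local.UnramLocal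
open Fermat.Agent.S56x.Local.UnramFinal Fermat.Agent.S56x.Local.UnramInertia
open Fermat.Agent.S56x.Local.LocalInertia Fermat.Agent.S56x.Local.OrthCount

local notation "Qbar" => AlgebraicClosure ℚ
local notation "Γℚ" => (AlgebraicClosure ℚ ≃ₐ[ℚ] AlgebraicClosure ℚ)

variable {p : ℕ} [Fact p.Prime]

/-- The tame local Euler characteristic formula, i.e. the field `localEuler_ne` of `GWRest`. -/
def LocalEulerNe (p : ℕ) [Fact p.Prime] : Prop :=
  ∀ (S : Finset Nat.Primes) (M : Rep.{0} (ZMod p) Γℚ)
    [FiniteDimensional (ZMod p) M], IsGoodModule p S M → ∀ q : S, q.1 ≠ pPrime p →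
    finrank (ZMod p) (locH1 S M (Sum.inr q)) =
      finrank (ZMod p) (locH0 S M (Sum.inr q)) +
        finrank (ZMod p) (locH0 S (tateDual p M) (Sum.inr q))

theorem ne_pPrime_of_notMem {S : Finset Nat.Primes} (hpS : pPrime p ∈ S) {t : Nat.Primes}
    (ht : t ∉ S) : t ≠ pPrime p := fun h => ht (h ▸ hpS)

theorem natCast_ne_of_ne_pPrime {t : Nat.Primes} (ht : t ≠ pPrime p) : (t : ℕ) ≠ p :=
  fun h => ht (Subtype.ext h)

/-- A module which is discrete for the levels unramified outside `S` is good for `S`. -/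
theorem isGoodModule_of_isDiscrete {S : Finset Nat.Primes} {M : Rep.{0} (ZMod p) Γℚ}
    (hM : (Fermat.Agent.Lib.CFT.Profinite.Bridge.levelsS S).IsDiscrete M) :
    IsGoodModule p S M := by
  refine ⟨fun m => ?_, fun q hq A hA g hg => ?_⟩
  · obtain ⟨_, ⟨F, hF, rfl⟩, h⟩ := hM m
    exact ⟨F, hF.1, h⟩
  · refine LinearMap.ext fun m => ?_
    obtain ⟨_, ⟨F, hF, rfl⟩, h⟩ := hM m
    exact h g (hF.2 q hq A hA hg)

/-- The Tate dual of a good module is good (`p ∈ S`). -/
theorem isGoodModule_tateDual {S : Finset Nat.Primes} {M : Rep.{0} (ZMod p) Γℚ}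
    [FiniteDimensional (ZMod p) M] (hM : IsGoodModule p S M) (hpS : pPrime p ∈ S) :
    IsGoodModule p S (tateDual p M) := by
  have : Finite M := Module.finite_of_finite (ZMod p)
  exact isGoodModule_of_isDiscrete (hM.isDiscrete_tateDual hpS)

/-- **(U4), core**: for `t ∉ S ∋ p`, `M` good for `S`, and the upper bound
`h¹(G_t, M) ≤ h⁰(G_t, M) + h⁰(G_t, M^*(1))`. -/
theorem orthogonal_H1unrOf_inf_le_of_le (B : ∀ q : Nat.Primes, LocalBase p q)
    (S : Finset Nat.Primes) (M : Rep.{0} (ZMod p) Γℚ) [FiniteDimensional (ZMod p) M]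
    (hM : IsGoodModule p S M) (hpS : pPrime p ∈ S) (t : Nat.Primes) (ht : t ∉ S)
    (hE : finrank (ZMod p)
        (continuousH1 (primeLocalToGlobal t) (Rep.res (primeLocalToGlobal t) M)) ≤
      finrank (ZMod p) (Rep.res (primeLocalToGlobal t) M).ρ.invariants +
        finrank (ZMod p) (Rep.res (primeLocalToGlobal t) (tateDual p M)).ρ.invariants) :
    orthogonal (pairingAtOf t M B) (H1unrOf t (localInertia t) M) ⊓
        continuousH1 (primeLocalToGlobal t) (Rep.res (primeLocalToGlobal t) (tateDual p M)) ≤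
      H1unrOf t (localInertia t) (tateDual p M) := by
  classical
  have hfinM : Finite M := Module.finite_of_finite (ZMod p)
  have htp : t ≠ pPrime p := ne_pPrime_of_notMem hpS ht
  have hqp : (t : ℕ) ≠ p := natCast_ne_of_ne_pPrime htp
  -- the enlarged set
  have hsub : S ⊆ insert t S := Finset.subset_insert t S
  have htS' : t ∈ insert t S := Finset.mem_insert_self t S
  have hpS' : pPrime p ∈ insert t S := hsub hpS
  have hM' : IsGoodModule p (insert t S) M := hM.mono hsub
  have hMd : IsGoodModule p (insert t S) (tateDual p M) := isGoodModule_tateDual hM' hpS'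
  -- finiteness
  have hfin : Module.Finite (ZMod p)
      (continuousH1 (primeLocalToGlobal t) (Rep.res (primeLocalToGlobal t) M)) :=
    finite_locH1_of B (insert t S) hpS' M hM' (Sum.inr ⟨t, htS'⟩)
  have hfin' : Module.Finite (ZMod p)
      (continuousH1 (primeLocalToGlobal t) (Rep.res (primeLocalToGlobal t) (tateDual p M))) :=
    finite_locH1_of B (insert t S) hpS' (tateDual p M) hMd (Sum.inr ⟨t, htS'⟩)
  have h3 := finrank_H1unrOf_localInertia t hM.smooth
  have h3' := finrank_H1unrOf_localInertia t hMd.smooth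
  refine orthogonal_inf_le_of_finrank (pairingAtOf t M B)
    (continuousH1 (primeLocalToGlobal t) (Rep.res (primeLocalToGlobal t) M))
    (continuousH1 (primeLocalToGlobal t) (Rep.res (primeLocalToGlobal t) (tateDual p M)))
    (H1unrOf t (localInertia t) M) (H1unrOf t (localInertia t) (tateDual p M))
    (H1unrOf_le_continuousH1 t (localInertia t) M)
    (H1unrOf_le_continuousH1 t (localInertia t) (tateDual p M))
    (nondeg_left_of B S t M hM)
    (nondeg_right_of B S t M hM)
    (fun x hx y hy => pairingAtOf_eq_zero_localInertia t hqp B hM.smooth hx hy)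
    ?_
  rw [h3, h3']
  exact hE

/-- **(U4)** for `H1unrOf t (localInertia t)`, from the local Euler characteristic formula. -/
theorem orthogonal_H1unrOf_inf_le (B : ∀ q : Nat.Primes, LocalBase p q) (hEuler : LocalEulerNe p)
    (S : Finset Nat.Primes) (M : Rep.{0} (ZMod p) Γℚ) [FiniteDimensional (ZMod p) M]
    (hM : IsGoodModule p S M) (hpS : pPrime p ∈ S) (t : Nat.Primes) (ht : t ∉ S) :
    orthogonal (pairingAtOf t M B) (H1unrOf t (localInertia t) M) ⊓
        continuousH1 (primeLocalToGlobal t) (Rep.res (primeLocalToGlobal t) (tateDual p M)) ≤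
      H1unrOf t (localInertia t) (tateDual p M) := by
  have htS' : t ∈ insert t S := Finset.mem_insert_self t S
  have hM' : IsGoodModule p (insert t S) M := hM.mono (Finset.subset_insert t S)
  have hE := hEuler (insert t S) M hM' ⟨t, htS'⟩ (ne_pPrime_of_notMem hpS ht)
  exact orthogonal_H1unrOf_inf_le_of_le B S M hM hpS t ht hE.le

/-- **(U4)** for `H1unrAt t`: the field `orth` of `GW.UnramFamily` for `U := H1unrAt`
(`B := localBaseStd hp2`). -/
theorem orthogonal_H1unrAt_inf_le (B : ∀ q : Nat.Primes, LocalBase p q) (hEuler : LocalEulerNe p)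
    (S : Finset Nat.Primes) (M : Rep.{0} (ZMod p) Γℚ) [FiniteDimensional (ZMod p) M]
    (hM : IsGoodModule p S M) (hpS : pPrime p ∈ S) (t : Nat.Primes) (ht : t ∉ S) :
    orthogonal (pairingAtOf t M B) (H1unrAt t M) ⊓
        continuousH1 (primeLocalToGlobal t) (Rep.res (primeLocalToGlobal t) (tateDual p M)) ≤
      H1unrAt t (tateDual p M) := by
  rw [H1unrAt_eq_H1unrOf_localInertia, H1unrAt_eq_H1unrOf_localInertia]
  exact orthogonal_H1unrOf_inf_le B hEuler S M hM hpS t ht

end Fermat.Agent.S56x.Local.UnramOrth
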